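/-
S55 (wave 5), LOCAL side, package L0: the normed-field model of a nonarchimedean local field.
Owner: helper3.  Mathlib only.

A local field is a normed field `K` with `lf_IsLocal K`; an extension of local fields is
`[Algebra K L]` with `lf_IsLocalExt K L`.  Everything else (units, higher units, the order
function, the invariance of the norm under `K`-automorphisms) is derived here.
-/
import Mathlib

set_option autoImplicit false

noncomputable section

namespace Fermat.Agent.S55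

/-- A nonarchimedean local field (normed-field model): the norm is ultrametric and complete,
the value group is generated by the norm of one element, the residue field is finite. -/
class lf_IsLocal (K : Type*) [NormedField K] : Prop where
  ultra : IsUltrametricDist K
  complete : CompleteSpace K
  exists_uniformizer :
    ∃ ϖ : K, ϖ ≠ 0 ∧ ‖ϖ‖ < 1 ∧ ∀ x : K, x ≠ 0 → ∃ n : ℤ, ‖x‖ = ‖ϖ‖ ^ n
  finite_residue : ∃ s : Finset K, ∀ x : K, ‖x‖ ≤ 1 → ∃ a ∈ s, ‖x - a‖ < 1

/-- A finite extension of normed fields whose norm extends the norm of the base.  It is used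
together with `[lf_IsLocal K] [lf_IsLocal L]`. -/
class lf_IsLocalExt (K L : Type*) [NormedField K] [NormedField L] [Algebra K L] : Prop where
  finite : FiniteDimensional K L
  norm_algebraMap : ∀ k : K, ‖algebraMap K L k‖ = ‖k‖

section Basic

variable (K : Type*) [NormedField K]

instance lf_isUltrametricDist [h : lf_IsLocal K] : IsUltrametricDist K := h.ultra

instance lf_completeSpace [h : lf_IsLocal K] : CompleteSpace K := h.complete

variable {K}

/-- The ultrametric inequality in a local field. -/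
theorem lf_norm_add_le_max [lf_IsLocal K] (x y : K) : ‖x + y‖ ≤ max ‖x‖ ‖y‖ :=
  IsUltrametricDist.norm_add_le_max x y

theorem lf_norm_sub_le_max [lf_IsLocal K] (x y : K) : ‖x - y‖ ≤ max ‖x‖ ‖y‖ := by
  rw [sub_eq_add_neg]
  exact (IsUltrametricDist.norm_add_le_max x (-y)).trans (by rw [norm_neg])

variable (K)

/-- A chosen uniformizer. -/
def lf_unif [lf_IsLocal K] : K := (lf_IsLocal.exists_uniformizer (K := K)).choose

theorem lf_unif_ne_zero [lf_IsLocal K] : lf_unif K ≠ 0 :=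
  (lf_IsLocal.exists_uniformizer (K := K)).choose_spec.1

theorem lf_norm_unif_lt_one [lf_IsLocal K] : ‖lf_unif K‖ < 1 :=
  (lf_IsLocal.exists_uniformizer (K := K)).choose_spec.2.1

theorem lf_norm_unif_pos [lf_IsLocal K] : 0 < ‖lf_unif K‖ :=
  norm_pos_iff.mpr (lf_unif_ne_zero K)

variable {K}

theorem lf_exists_norm_eq_zpow [lf_IsLocal K] {x : K} (hx : x ≠ 0) :
    ∃ n : ℤ, ‖x‖ = ‖lf_unif K‖ ^ n :=
  (lf_IsLocal.exists_uniformizer (K := K)).choose_spec.2.2 x hx

theorem lf_zpow_norm_unif_injective [lf_IsLocal K] :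
    Function.Injective (fun n : ℤ => ‖lf_unif K‖ ^ n) :=
  zpow_right_injective₀ (lf_norm_unif_pos K) (lf_norm_unif_lt_one K).ne

variable (K)

/-- The order of a unit of the field: `‖x‖ = ‖ϖ‖ ^ ord x`. -/
def lf_ordFun [lf_IsLocal K] (x : Kˣ) : ℤ := (lf_exists_norm_eq_zpow x.ne_zero).choose

variable {K}

theorem lf_norm_eq_zpow_ordFun [lf_IsLocal K] (x : Kˣ) :
    ‖(x : K)‖ = ‖lf_unif K‖ ^ lf_ordFun K x :=
  (lf_exists_norm_eq_zpow x.ne_zero).choose_spec

theorem lf_ordFun_eq_iff [lf_IsLocal K] (x : Kˣ) (n : ℤ) :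
    lf_ordFun K x = n ↔ ‖(x : K)‖ = ‖lf_unif K‖ ^ n := by
  constructor
  · rintro rfl
    exact lf_norm_eq_zpow_ordFun x
  · intro h
    exact lf_zpow_norm_unif_injective (K := K) ((lf_norm_eq_zpow_ordFun x).symm.trans h)

variable (K)

/-- The order homomorphism `Kˣ → ℤ` (written multiplicatively). -/
def lf_ord [lf_IsLocal K] : Kˣ →* Multiplicative ℤ where
  toFun x := Multiplicative.ofAdd (lf_ordFun K x)
  map_one' := by
    show Multiplicative.ofAdd (lf_ordFun K 1) = Multiplicative.ofAdd 0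
    rw [(lf_ordFun_eq_iff (1 : Kˣ) 0).mpr (by simp)]
  map_mul' x y := by
    show Multiplicative.ofAdd (lf_ordFun K (x * y)) =
      Multiplicative.ofAdd (lf_ordFun K x + lf_ordFun K y)
    rw [(lf_ordFun_eq_iff (x * y) _).mpr]
    rw [Units.val_mul, norm_mul, lf_norm_eq_zpow_ordFun x, lf_norm_eq_zpow_ordFun y,
      zpow_add₀ (lf_norm_unif_pos K).ne']

variable {K}

@[simp]
theorem lf_ord_apply [lf_IsLocal K] (x : Kˣ) :
    lf_ord K x = Multiplicative.ofAdd (lf_ordFun K x) := rfl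

theorem lf_ordFun_mul [lf_IsLocal K] (x y : Kˣ) :
    lf_ordFun K (x * y) = lf_ordFun K x + lf_ordFun K y :=
  congrArg Multiplicative.toAdd (map_mul (lf_ord K) x y)

theorem lf_ordFun_one [lf_IsLocal K] : lf_ordFun K (1 : Kˣ) = 0 :=
  congrArg Multiplicative.toAdd (map_one (lf_ord K))

theorem lf_ordFun_inv [lf_IsLocal K] (x : Kˣ) : lf_ordFun K x⁻¹ = - lf_ordFun K x :=
  congrArg Multiplicative.toAdd (map_inv (lf_ord K) x)

variable (K)

/-- The uniformizer as a unit of the field. -/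
def lf_unifUnit [lf_IsLocal K] : Kˣ := Units.mk0 (lf_unif K) (lf_unif_ne_zero K)

@[simp]
theorem lf_coe_unifUnit [lf_IsLocal K] : ((lf_unifUnit K : Kˣ) : K) = lf_unif K := rfl

theorem lf_ordFun_unifUnit [lf_IsLocal K] : lf_ordFun K (lf_unifUnit K) = 1 :=
  (lf_ordFun_eq_iff _ 1).mpr (by simp)

theorem lf_ord_surjective [lf_IsLocal K] : Function.Surjective (lf_ord K) := by
  intro n
  refine ⟨lf_unifUnit K ^ (Multiplicative.toAdd n), ?_⟩
  rw [map_zpow, lf_ord_apply, lf_ordFun_unifUnit]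
  show Multiplicative.ofAdd (1 : ℤ) ^ Multiplicative.toAdd n = n
  rw [← ofAdd_zsmul, smul_eq_mul, mul_one]
  rfl

/-- The group of units of the valuation ring. -/
def lf_units : Subgroup Kˣ where
  carrier := {u | ‖(u : K)‖ = 1}
  one_mem' := by simp
  mul_mem' := by
    intro a b ha hb
    change ‖(a : K)‖ = 1 at ha
    change ‖(b : K)‖ = 1 at hb
    change ‖((a * b : Kˣ) : K)‖ = 1
    rw [Units.val_mul, norm_mul, ha, hb, one_mul]
  inv_mem' := by
    intro a ha
    change ‖(a : K)‖ = 1 at ha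
    change ‖((a⁻¹ : Kˣ) : K)‖ = 1
    rw [Units.val_inv_eq_inv_val, norm_inv, ha, inv_one]

variable {K}

theorem lf_mem_units_iff (u : Kˣ) : u ∈ lf_units K ↔ ‖(u : K)‖ = 1 := Iff.rfl

theorem lf_mem_units_iff_ordFun [lf_IsLocal K] (u : Kˣ) : u ∈ lf_units K ↔ lf_ordFun K u = 0 := by
  rw [lf_mem_units_iff, lf_ordFun_eq_iff, zpow_zero]

theorem lf_ker_ord [lf_IsLocal K] : (lf_ord K).ker = lf_units K := by
  ext u
  rw [MonoidHom.mem_ker, lf_mem_units_iff_ordFun, lf_ord_apply]
  exact ⟨fun h => congrArg Multiplicative.toAdd h, fun h => congrArg Multiplicative.ofAdd h⟩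

variable (K)

/-- The higher unit groups `{u : ‖u‖ = 1, ‖u - 1‖ ≤ r}`. -/
def lf_unitsLe [lf_IsLocal K] (r : ℝ) (hr : 0 ≤ r) : Subgroup Kˣ where
  carrier := {u | ‖(u : K)‖ = 1 ∧ ‖(u : K) - 1‖ ≤ r}
  one_mem' := by simp [hr]
  mul_mem' := by
    rintro a b ⟨ha, ha'⟩ ⟨hb, hb'⟩
    refine ⟨by rw [Units.val_mul, norm_mul, ha, hb, one_mul], ?_⟩
    have h : ((a * b : Kˣ) : K) - 1 = ((a : K) - 1) * b + ((b : K) - 1) := by
      rw [Units.val_mul]; ring
    rw [h]
    refine (lf_norm_add_le_max _ _).trans (max_le ?_ hb')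
    rw [norm_mul, hb, mul_one]
    exact ha'
  inv_mem' := by
    rintro a ⟨ha, ha'⟩
    refine ⟨by rw [Units.val_inv_eq_inv_val, norm_inv, ha, inv_one], ?_⟩
    have h : ((a⁻¹ : Kˣ) : K) - 1 = -(((a : K) - 1) * ((a⁻¹ : Kˣ) : K)) := by
      have := a.mul_inv
      linear_combination this
    rw [h, norm_neg, norm_mul, Units.val_inv_eq_inv_val, norm_inv, ha, inv_one, mul_one]
    exact ha'

variable {K}

theorem lf_mem_unitsLe_iff [lf_IsLocal K] {r : ℝ} {hr : 0 ≤ r} (u : Kˣ) :
    u ∈ lf_unitsLe K r hr ↔ ‖(u : K)‖ = 1 ∧ ‖(u : K) - 1‖ ≤ r := Iff.rfl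

theorem lf_unitsLe_le_units [lf_IsLocal K] {r : ℝ} {hr : 0 ≤ r} :
    lf_unitsLe K r hr ≤ lf_units K := fun _ h => h.1

end Basic

section Ext

variable {K L : Type*} [NormedField K] [NormedField L] [Algebra K L]

theorem lf_norm_algebraMap [h : lf_IsLocalExt K L] (k : K) : ‖algebraMap K L k‖ = ‖k‖ :=
  h.norm_algebraMap k

variable (K L)

instance lf_finiteDimensional [h : lf_IsLocalExt K L] : FiniteDimensional K L := h.finite

end Ext

end Fermat.Agent.S55
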