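/-
S55 (wave 5), LOCAL side, package L0: invariance of the norm under automorphisms, the local
field structure on the pieces of a tower, and the exact sequence `1 → U_L → Lˣ → ℤ → 0`.
Owner: helper3.  Mathlib only.
-/
import Fermat.Agent.S55.Local.LFDefs

set_option autoImplicit false

noncomputable section

namespace Fermat.Agent.S55

section Gal

variable {K L : Type*} [NormedField K] [NormedField L] [Algebra K L]

/-- The norm of a local field is nontrivial. -/
theorem lf_exists_norm_lt_one (K : Type*) [NormedField K] [lf_IsLocal K] :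
    ∃ x : K, x ≠ 0 ∧ ‖x‖ < 1 :=
  ⟨lf_unif K, lf_unif_ne_zero K, lf_norm_unif_lt_one K⟩

/-- The norm of an extension of local fields is the spectral norm. -/
theorem lf_norm_eq_spectralNorm [lf_IsLocal K] [lf_IsLocalExt K L] (x : L) :
    ‖x‖ = spectralNorm K L x := by
  let _ : NontriviallyNormedField K :=
    { ‹NormedField K› with
      non_trivial := ⟨(lf_unif K)⁻¹, by
        rw [norm_inv]
        exact (one_lt_inv₀ (lf_norm_unif_pos K)).mpr (lf_norm_unif_lt_one K)⟩ }
  have halg : Algebra.IsAlgebraic K L := Algebra.IsAlgebraic.of_finite K L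
  exact spectralNorm_unique_field_norm_ext (K := K) (L := L)
    (f := NormedField.toAbsoluteValue L) (fun k => lf_norm_algebraMap k) x

/-- The norm of an extension of local fields is invariant under automorphisms over the base. -/
theorem lf_norm_algEquiv [lf_IsLocal K] [lf_IsLocalExt K L] (σ : L ≃ₐ[K] L) (x : L) :
    ‖σ x‖ = ‖x‖ := by
  rw [lf_norm_eq_spectralNorm (K := K), lf_norm_eq_spectralNorm (K := K) x]
  exact (spectralNorm_eq_of_equiv σ x).symm

theorem lf_norm_algEquiv_units [lf_IsLocal K] [lf_IsLocalExt K L] (σ : L ≃ₐ[K] L) (x : Lˣ) :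
    ‖((Units.map (σ : L →* L) x : Lˣ) : L)‖ = ‖(x : L)‖ :=
  lf_norm_algEquiv σ x

/-- The order function is invariant under automorphisms over the base. -/
theorem lf_ordFun_algEquiv [lf_IsLocal K] [lf_IsLocal L] [lf_IsLocalExt K L] (σ : L ≃ₐ[K] L)
    (x : Lˣ) : lf_ordFun L (Units.map (σ : L →* L) x) = lf_ordFun L x := by
  rw [lf_ordFun_eq_iff, lf_norm_algEquiv_units, lf_norm_eq_zpow_ordFun]

/-- The unit group is stable under automorphisms over the base. -/
theorem lf_map_mem_units [lf_IsLocal K] [lf_IsLocalExt K L] (σ : L ≃ₐ[K] L) {x : Lˣ}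
    (hx : x ∈ lf_units L) : Units.map (σ : L →* L) x ∈ lf_units L := by
  rw [lf_mem_units_iff] at hx ⊢
  rw [lf_norm_algEquiv_units, hx]

/-- The higher unit groups are stable under automorphisms over the base. -/
theorem lf_map_mem_unitsLe [lf_IsLocal K] [lf_IsLocal L] [lf_IsLocalExt K L] (σ : L ≃ₐ[K] L)
    {r : ℝ} {hr : 0 ≤ r} {x : Lˣ} (hx : x ∈ lf_unitsLe L r hr) :
    Units.map (σ : L →* L) x ∈ lf_unitsLe L r hr := by
  rw [lf_mem_unitsLe_iff] at hx ⊢
  refine ⟨by rw [lf_norm_algEquiv_units, hx.1], ?_⟩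
  have h : ((Units.map (σ : L →* L) x : Lˣ) : L) - 1 = σ ((x : L) - 1) := by
    rw [map_sub, map_one]; rfl
  rw [h, lf_norm_algEquiv]
  exact hx.2

/-- The norm of the field norm: `‖N_{L/K} x‖ = ‖x‖ ^ [L : K]` for a Galois extension. -/
theorem lf_norm_algebraNorm [lf_IsLocal K] [lf_IsLocalExt K L] [IsGalois K L] (x : L) :
    ‖Algebra.norm K x‖ = ‖x‖ ^ Module.finrank K L := by
  rw [← lf_norm_algebraMap (K := K) (L := L), Algebra.norm_eq_prod_automorphisms, norm_prod]
  simp only [lf_norm_algEquiv]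
  rw [Finset.prod_const, Finset.card_univ, ← Nat.card_eq_fintype_card,
    IsGalois.card_aut_eq_finrank]

end Gal

end Fermat.Agent.S55
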