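/-
S55 (wave 5), LOCAL side, package L0: a finite extension of a local field, with a norm
extending the norm of the base, is a local field.  Owner: helper3.  Mathlib only.
-/
import Fermat.Agent.S55.Local.LFGal

set_option autoImplicit false

noncomputable section

namespace Fermat.Agent.S55

open Metric

section Discrete

variable {K : Type*} [NormedField K]

/-- Discreteness: an element of norm `< 1` has norm `≤ ‖ϖ‖`. -/
theorem lf_norm_le_unif_of_lt_one [lf_IsLocal K] {x : K} (hx : ‖x‖ < 1) :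
    ‖x‖ ≤ ‖lf_unif K‖ := by
  by_cases h0 : x = 0
  · rw [h0, norm_zero]; exact norm_nonneg _
  obtain ⟨n, hn⟩ := lf_exists_norm_eq_zpow h0
  have hpos := lf_norm_unif_pos K
  have hlt := lf_norm_unif_lt_one K
  have h1 : (1 : ℤ) ≤ n := by
    by_contra hcon
    push Not at hcon
    have hn0 : n ≤ 0 := by omega
    have : (1 : ℝ) ≤ ‖lf_unif K‖ ^ n := by
      obtain ⟨m, rfl⟩ : ∃ m : ℕ, n = -m := ⟨(-n).toNat, by omega⟩
      rw [zpow_neg, zpow_natCast]
      exact (one_le_inv₀ (pow_pos hpos m)).mpr (pow_le_one₀ hpos.le hlt.le)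
    rw [← hn] at this
    exact absurd hx (not_lt.2 this)
  rw [hn]
  obtain ⟨m, rfl⟩ : ∃ m : ℕ, n = m + 1 := ⟨(n - 1).toNat, by omega⟩
  have : ‖lf_unif K‖ ^ ((m : ℤ) + 1) = ‖lf_unif K‖ ^ m * ‖lf_unif K‖ := by
    rw [zpow_add_one₀ hpos.ne', zpow_natCast]
  rw [this]
  calc ‖lf_unif K‖ ^ m * ‖lf_unif K‖ ≤ 1 * ‖lf_unif K‖ :=
        mul_le_mul_of_nonneg_right (pow_le_one₀ hpos.le hlt.le) hpos.le
    _ = ‖lf_unif K‖ := one_mul _

/-- Finite systems of representatives modulo `ϖ ^ m`. -/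
theorem lf_exists_finset_approx (K : Type*) [NormedField K] [lf_IsLocal K] (m : ℕ) :
    ∃ t : Finset K, ∀ x : K, ‖x‖ ≤ 1 → ∃ a ∈ t, ‖x - a‖ ≤ ‖lf_unif K‖ ^ m := by
  classical
  obtain ⟨s, hs⟩ := lf_IsLocal.finite_residue (K := K)
  have hpos := lf_norm_unif_pos K
  induction m with
  | zero =>
    refine ⟨{0}, fun x hx => ⟨0, Finset.mem_singleton_self 0, ?_⟩⟩
    rwa [sub_zero, pow_zero]
  | succ m ih =>
    obtain ⟨t, ht⟩ := ih
    refine ⟨(t ×ˢ s).image (fun ab => ab.1 + ab.2 * lf_unif K ^ m), fun x hx => ?_⟩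
    obtain ⟨a, hat, ha⟩ := ht x hx
    have hy : ‖(x - a) / lf_unif K ^ m‖ ≤ 1 := by
      rw [norm_div, norm_pow]
      exact (div_le_one (pow_pos hpos m)).mpr ha
    obtain ⟨b, hbs, hb⟩ := hs _ hy
    refine ⟨a + b * lf_unif K ^ m, ?_, ?_⟩
    · exact Finset.mem_image.mpr ⟨(a, b), Finset.mem_product.mpr ⟨hat, hbs⟩, rfl⟩
    · have hb' := lf_norm_le_unif_of_lt_one hb
      have hne : lf_unif K ^ m ≠ 0 := pow_ne_zero _ (lf_unif_ne_zero K)
      have : x - (a + b * lf_unif K ^ m) = ((x - a) / lf_unif K ^ m - b) * lf_unif K ^ m := by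
        field_simp
        ring
      rw [this, norm_mul, norm_pow, pow_succ, mul_comm (‖lf_unif K‖ ^ m)]
      exact mul_le_mul_of_nonneg_right hb' (pow_pos hpos m).le

/-- The closed unit ball of a local field is compact. -/
theorem lf_isCompact_closedBall (K : Type*) [NormedField K] [lf_IsLocal K] :
    IsCompact (closedBall (0 : K) 1) := by
  rw [isCompact_iff_totallyBounded_isComplete]
  refine ⟨?_, isClosed_closedBall.isComplete⟩
  rw [Metric.totallyBounded_iff]
  intro ε hε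
  obtain ⟨m, hm⟩ := exists_pow_lt_of_lt_one hε (lf_norm_unif_lt_one K)
  obtain ⟨t, ht⟩ := lf_exists_finset_approx K m
  refine ⟨(t : Set K), t.finite_toSet, fun x hx => ?_⟩
  rw [mem_closedBall, dist_zero_right] at hx
  obtain ⟨a, hat, ha⟩ := ht x hx
  simp only [Set.mem_iUnion, mem_ball, exists_prop]
  exact ⟨a, hat, by rw [dist_eq_norm]; exact lt_of_le_of_lt ha hm⟩

/-- A local field is nontrivially normed (as a `def`, not an instance). -/
@[reducible] def lf_nontriviallyNormedField (K : Type*) [NormedField K] [lf_IsLocal K] :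
    NontriviallyNormedField K :=
  { ‹NormedField K› with
    non_trivial := ⟨(lf_unif K)⁻¹, by
      rw [norm_inv]
      exact (one_lt_inv₀ (lf_norm_unif_pos K)).mpr (lf_norm_unif_lt_one K)⟩ }

/-- A local field is locally compact. -/
theorem lf_locallyCompactSpace (K : Type*) [NormedField K] [lf_IsLocal K] :
    LocallyCompactSpace K :=
  (lf_isCompact_closedBall K).locallyCompactSpace_of_mem_nhds_of_addGroup
    (closedBall_mem_nhds (0 : K) one_pos)

/-- A local field is a proper metric space. -/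
theorem lf_properSpace (K : Type*) [NormedField K] [lf_IsLocal K] : ProperSpace K := by
  let _ := lf_nontriviallyNormedField K
  have := lf_locallyCompactSpace K
  exact ProperSpace.of_nontriviallyNormedField_of_weaklyLocallyCompactSpace K

end Discrete

section Ext

variable (K L : Type*) [NormedField K] [NormedField L] [Algebra K L]

/-- The normed space structure of an extension of local fields (as a `def`). -/
@[reducible] def lf_normedSpace [lf_IsLocalExt K L] : NormedSpace K L :=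
  { norm_smul_le := fun a b => by
      rw [Algebra.smul_def, norm_mul, lf_norm_algebraMap] }

theorem lf_ext_isUltrametricDist [lf_IsLocal K] [lf_IsLocalExt K L] : IsUltrametricDist L := by
  apply IsUltrametricDist.isUltrametricDist_of_forall_norm_natCast_le_one
  intro n
  have h : ((n : L)) = algebraMap K L (n : K) := by simp
  rw [h, lf_norm_algebraMap]
  exact IsUltrametricDist.norm_natCast_le_one K n

theorem lf_ext_completeSpace [lf_IsLocal K] [lf_IsLocalExt K L] : CompleteSpace L := by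
  let _ := lf_nontriviallyNormedField K
  let _ := lf_normedSpace K L
  exact FiniteDimensional.complete K L

theorem lf_ext_properSpace [lf_IsLocal K] [lf_IsLocalExt K L] : ProperSpace L := by
  let _ := lf_nontriviallyNormedField K
  let _ := lf_normedSpace K L
  have := lf_locallyCompactSpace K
  exact FiniteDimensional.proper K L

/-- Finite residue field of a finite extension, by compactness. -/
theorem lf_ext_finite_residue [lf_IsLocal K] [lf_IsLocalExt K L] :
    ∃ s : Finset L, ∀ x : L, ‖x‖ ≤ 1 → ∃ a ∈ s, ‖x - a‖ < 1 := by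
  have := lf_ext_properSpace K L
  have hc : IsCompact (closedBall (0 : L) 1) := isCompact_closedBall 0 1
  obtain ⟨t, -, ht⟩ := hc.elim_nhds_subcover (fun x => ball x 1)
    (fun x _ => ball_mem_nhds x one_pos)
  refine ⟨t, fun x hx => ?_⟩
  have hx' : x ∈ closedBall (0 : L) 1 := by rwa [mem_closedBall, dist_zero_right]
  obtain ⟨a, hat, ha⟩ := Set.mem_iUnion₂.mp (ht hx')
  exact ⟨a, hat, by rwa [mem_ball, dist_eq_norm] at ha⟩


/-- In an ultrametric normed group, a vanishing finite sum with a nonzero term has two distinct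
terms of the same nonzero norm. -/
theorem lf_exists_norm_eq_of_sum_eq_zero {M ι : Type*} [NormedAddCommGroup M]
    [IsUltrametricDist M] [DecidableEq ι] (s : Finset ι) (v : ι → M) (hsum : ∑ i ∈ s, v i = 0)
    (hne : ∃ i ∈ s, v i ≠ 0) :
    ∃ i ∈ s, ∃ j ∈ s, i ≠ j ∧ ‖v i‖ = ‖v j‖ ∧ v i ≠ 0 := by
  obtain ⟨i₀, hi₀, hv₀⟩ := hne
  obtain ⟨i, hi, hmax⟩ := s.exists_max_image (fun i => ‖v i‖) ⟨i₀, hi₀⟩
  have hvi : v i ≠ 0 := by
    intro h
    have := hmax i₀ hi₀
    simp only [h, norm_zero] at this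
    exact hv₀ (norm_le_zero_iff.mp this)
  have hsplit : v i + ∑ j ∈ s.erase i, v j = 0 := by
    rw [Finset.add_sum_erase s v hi]; exact hsum
  have hne' : (s.erase i).Nonempty := by
    by_contra h
    rw [Finset.not_nonempty_iff_eq_empty] at h
    rw [h, Finset.sum_empty, add_zero] at hsplit
    exact hvi hsplit
  obtain ⟨j, hj, hle⟩ := IsUltrametricDist.exists_norm_finsetSum_le_of_nonempty hne' v
  have h1 : ∑ j ∈ s.erase i, v j = - v i := by
    rw [eq_neg_iff_add_eq_zero, add_comm]; exact hsplit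
  rw [h1, norm_neg] at hle
  refine ⟨i, hi, j, Finset.mem_of_mem_erase hj, (Finset.ne_of_mem_erase hj).symm, ?_, hvi⟩
  exact le_antisymm hle (hmax j (Finset.mem_of_mem_erase hj))

/-- A power `‖x‖ ^ d`, `0 < d ≤ [L : K]`, of the norm of a nonzero element is the norm of a
nonzero element of the base. -/
theorem lf_ext_exists_pow_norm_eq [lf_IsLocal K] [lf_IsLocalExt K L] {x : L} (hx : x ≠ 0) :
    ∃ d : ℕ, 0 < d ∧ d ≤ Module.finrank K L ∧ ∃ c : K, c ≠ 0 ∧ ‖x‖ ^ d = ‖c‖ := by
  classical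
  have := lf_ext_isUltrametricDist K L
  have hint : IsIntegral K x := Algebra.IsIntegral.isIntegral x
  set p := minpoly K x with hp
  have hdeg : p.natDegree ≤ Module.finrank K L := minpoly.natDegree_le x
  have h0 : p.coeff 0 ≠ 0 := minpoly.coeff_zero_ne_zero hint hx
  have hsum : ∑ i ∈ Finset.range (p.natDegree + 1), p.coeff i • x ^ i = 0 := by
    rw [← Polynomial.aeval_eq_sum_range, hp, minpoly.aeval]
  have hxpos : 0 < ‖x‖ := norm_pos_iff.mpr hx
  have hnorm : ∀ i, ‖p.coeff i • x ^ i‖ = ‖p.coeff i‖ * ‖x‖ ^ i := fun i => by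
    rw [Algebra.smul_def, norm_mul, lf_norm_algebraMap, norm_pow]
  obtain ⟨i, hi, j, hj, hij, heq, hvi⟩ := lf_exists_norm_eq_of_sum_eq_zero
    (Finset.range (p.natDegree + 1)) (fun i => p.coeff i • x ^ i) hsum
    ⟨0, Finset.mem_range.mpr (Nat.succ_pos _), by
      simp only [pow_zero]
      rw [Algebra.smul_def, mul_one]
      exact fun h => h0 ((map_eq_zero_iff _ (algebraMap K L).injective).mp h)⟩
  simp only [hnorm] at heq
  have hci : p.coeff i ≠ 0 := fun h => hvi (by simp only [h, zero_smul])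
  have hcj : p.coeff j ≠ 0 := by
    intro h
    rw [h, norm_zero, zero_mul] at heq
    have : 0 < ‖p.coeff i‖ * ‖x‖ ^ i := mul_pos (norm_pos_iff.mpr hci) (pow_pos hxpos i)
    exact absurd heq this.ne'
  rw [Finset.mem_range] at hi hj
  -- general step for `a < b`
  have key : ∀ a b : ℕ, a < b → b < p.natDegree + 1 → p.coeff a ≠ 0 → p.coeff b ≠ 0 →
      ‖p.coeff a‖ * ‖x‖ ^ a = ‖p.coeff b‖ * ‖x‖ ^ b →
      ∃ d : ℕ, 0 < d ∧ d ≤ Module.finrank K L ∧ ∃ c : K, c ≠ 0 ∧ ‖x‖ ^ d = ‖c‖ := by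
    intro a b hab hb hca hcb h
    refine ⟨b - a, by omega, by omega, p.coeff a / p.coeff b, div_ne_zero hca hcb, ?_⟩
    rw [norm_div, eq_div_iff (norm_pos_iff.mpr hcb).ne']
    have hxa : (‖x‖ ^ a) ≠ 0 := (pow_pos hxpos a).ne'
    have hpow : ‖x‖ ^ (b - a) * ‖x‖ ^ a = ‖x‖ ^ b := by
      rw [← pow_add]; congr 1; omega
    apply mul_right_cancel₀ hxa
    calc ‖x‖ ^ (b - a) * ‖p.coeff b‖ * ‖x‖ ^ a
        = ‖p.coeff b‖ * (‖x‖ ^ (b - a) * ‖x‖ ^ a) := by ring
      _ = ‖p.coeff b‖ * ‖x‖ ^ b := by rw [hpow]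
      _ = ‖p.coeff a‖ * ‖x‖ ^ a := h.symm
  rcases lt_or_gt_of_ne hij with hlt | hgt
  · exact key i j hlt hj hci hcj heq
  · exact key j i hgt hi hcj hci heq.symm

/-- A fixed power of the norm of every nonzero element lies in the value group of the base. -/
theorem lf_ext_exists_pow_norm_eq_zpow [lf_IsLocal K] [lf_IsLocalExt K L] {x : L} (hx : x ≠ 0) :
    ∃ k : ℤ, ‖x‖ ^ (Module.finrank K L).factorial = ‖lf_unif K‖ ^ k := by
  obtain ⟨d, hd, hdn, c, hc, hxc⟩ := lf_ext_exists_pow_norm_eq K L hx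
  obtain ⟨m, hm⟩ := lf_exists_norm_eq_zpow hc
  obtain ⟨e, he⟩ : d ∣ (Module.finrank K L).factorial := Nat.dvd_factorial hd hdn
  refine ⟨m * e, ?_⟩
  rw [he, pow_mul, hxc, hm, zpow_mul, zpow_natCast]

/-- The value group of a finite extension of a local field is discrete. -/
theorem lf_ext_exists_uniformizer [lf_IsLocal K] [lf_IsLocalExt K L] :
    ∃ ϖ : L, ϖ ≠ 0 ∧ ‖ϖ‖ < 1 ∧ ∀ x : L, x ≠ 0 → ∃ n : ℤ, ‖x‖ = ‖ϖ‖ ^ n := by
  classical
  set N := (Module.finrank K L).factorial with hN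
  have hNpos : 0 < N := Nat.factorial_pos _
  set ρ := ‖lf_unif K‖ with hρ
  have hρpos : 0 < ρ := lf_norm_unif_pos K
  have hρlt : ρ < 1 := lf_norm_unif_lt_one K
  -- the set of positive exponents
  let P : ℕ → Prop := fun k => 0 < k ∧ ∃ x : L, x ≠ 0 ∧ ‖x‖ ^ N = ρ ^ (k : ℤ)
  have hP : ∃ k, P k := by
    refine ⟨N, hNpos, algebraMap K L (lf_unif K), ?_, ?_⟩
    · exact fun h => lf_unif_ne_zero K ((map_eq_zero_iff _ (algebraMap K L).injective).mp h)
    · rw [lf_norm_algebraMap, zpow_natCast]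
  obtain ⟨hdpos, y, hy0, hy⟩ := Nat.find_spec hP
  set d := Nat.find hP with hd
  have hypos : 0 < ‖y‖ := norm_pos_iff.mpr hy0
  have hylt : ‖y‖ < 1 := by
    by_contra hcon
    push Not at hcon
    have h1 : (1 : ℝ) ≤ ‖y‖ ^ N := one_le_pow₀ hcon
    have h2 : ρ ^ (d : ℤ) < 1 := by
      rw [zpow_natCast]; exact pow_lt_one₀ hρpos.le hρlt (by omega)
    rw [hy] at h1
    exact absurd h2 (not_lt.2 h1)
  refine ⟨y, hy0, hylt, fun x hx => ?_⟩
  obtain ⟨k, hk⟩ := lf_ext_exists_pow_norm_eq_zpow K L hx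
  have hdz : (0 : ℤ) < d := by exact_mod_cast hdpos
  have hr0 : 0 ≤ k % d := Int.emod_nonneg k hdz.ne'
  have hrd : k % d < d := Int.emod_lt_of_pos k hdz
  have hdecomp : (d : ℤ) * (k / d) + k % d = k := Int.mul_ediv_add_emod k d
  -- the element `x * y ^ (-(k / d))` has exponent `k % d`
  have hyz : ∀ m : ℤ, (‖y‖ ^ m) ^ N = ρ ^ ((d : ℤ) * m) := by
    intro m
    rw [← zpow_natCast (‖y‖ ^ m), ← zpow_mul, mul_comm m (N : ℤ), zpow_mul, zpow_natCast ‖y‖, hy,
      ← zpow_mul]
  have hz : ‖x * y ^ (-(k / (d : ℤ)))‖ ^ N = ρ ^ (k % (d : ℤ)) := by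
    rw [norm_mul, norm_zpow, mul_pow, hyz, hk, ← zpow_add₀ hρpos.ne']
    congr 1
    linarith
  have hr : k % (d : ℤ) = 0 := by
    by_contra hcon
    have hrpos : 0 < k % (d : ℤ) := lt_of_le_of_ne hr0 (Ne.symm hcon)
    have hmem : P (k % (d : ℤ)).toNat := by
      refine ⟨by omega, x * y ^ (-(k / (d : ℤ))), ?_, ?_⟩
      · exact mul_ne_zero hx (zpow_ne_zero _ hy0)
      · rw [hz, Int.toNat_of_nonneg hr0]
    have := Nat.find_min' hP hmem
    rw [← hd] at this
    omega
  refine ⟨k / d, ?_⟩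
  have hk' : k = (d : ℤ) * (k / d) := by rw [hr, add_zero] at hdecomp; exact hdecomp.symm
  have : ‖x‖ ^ N = (‖y‖ ^ (k / (d : ℤ))) ^ N := by
    rw [hyz, ← hk', hk]
  exact (pow_left_inj₀ (norm_nonneg x) (zpow_nonneg hypos.le _) hNpos.ne').mp this

/-- **A finite extension of a local field is a local field.** -/
theorem lf_isLocal_of_ext [lf_IsLocal K] [lf_IsLocalExt K L] : lf_IsLocal L where
  ultra := lf_ext_isUltrametricDist K L
  complete := lf_ext_completeSpace K L
  exists_uniformizer := lf_ext_exists_uniformizer K L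
  finite_residue := lf_ext_finite_residue K L

end Ext

end Fermat.Agent.S55
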