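/-
S55 (wave 5), LOCAL side, package L0: the concrete model.  `ℚ_[q]` is a local field, and so is
every finite-dimensional intermediate field of `PadicAlgCl q / ℚ_[q]`; towers are modelled by
`F : IntermediateField ↥E (PadicAlgCl q)`.  Owner: helper3.  Mathlib only.
-/
import Fermat.Agent.S55.Local.LFExt

set_option autoImplicit false

noncomputable section

namespace Fermat.Agent.S55

section Padic

variable (q : ℕ) [Fact q.Prime]

/-- `ℚ_[q]` is a local field. -/
instance lf_isLocal_padic : lf_IsLocal ℚ_[q] where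
  ultra := inferInstance
  complete := inferInstance
  exists_uniformizer := by
    refine ⟨(q : ℚ_[q]), ?_, Padic.norm_p_lt_one, fun x hx => ⟨x.valuation, ?_⟩⟩
    · exact_mod_cast (Fact.out : q.Prime).ne_zero
    · rw [Padic.norm_eq_zpow_neg_valuation hx, Padic.norm_p, inv_zpow', zpow_neg]
  finite_residue := by
    classical
    refine ⟨(Finset.range q).image (fun n : ℕ => (n : ℚ_[q])), fun x hx => ?_⟩
    obtain ⟨n, hn, hmem⟩ := PadicInt.exists_mem_range (p := q) (x := ⟨x, hx⟩)
    refine ⟨(n : ℚ_[q]), Finset.mem_image.mpr ⟨n, Finset.mem_range.mpr hn, rfl⟩, ?_⟩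
    rw [IsLocalRing.mem_maximalIdeal, PadicInt.mem_nonunits] at hmem
    have h : ((⟨x, hx⟩ - (n : ℤ_[q]) : ℤ_[q]) : ℚ_[q]) = x - (n : ℚ_[q]) := by
      rfl
    rw [← h]
    exact hmem

variable {q}

/-- A finite intermediate field of `PadicAlgCl q / ℚ_[q]` is an extension of local fields. -/
instance lf_isLocalExt_padic (E : IntermediateField ℚ_[q] (PadicAlgCl q))
    [FiniteDimensional ℚ_[q] ↥E] : lf_IsLocalExt ℚ_[q] ↥E where
  finite := inferInstance
  norm_algebraMap := fun k => PadicAlgCl.norm_extends q k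

/-- A finite intermediate field of `PadicAlgCl q / ℚ_[q]` is a local field. -/
instance lf_isLocal_intermediate (E : IntermediateField ℚ_[q] (PadicAlgCl q))
    [FiniteDimensional ℚ_[q] ↥E] : lf_IsLocal ↥E :=
  lf_isLocal_of_ext ℚ_[q] ↥E

/-- Towers: a finite intermediate field of `PadicAlgCl q / E`. -/
instance lf_isLocalExt_tower (E : IntermediateField ℚ_[q] (PadicAlgCl q))
    (F : IntermediateField ↥E (PadicAlgCl q)) [FiniteDimensional ↥E ↥F] :
    lf_IsLocalExt ↥E ↥F where
  finite := inferInstance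
  norm_algebraMap := fun _ => rfl

/-- Towers: the top field is local. -/
instance lf_isLocal_tower (E : IntermediateField ℚ_[q] (PadicAlgCl q))
    [FiniteDimensional ℚ_[q] ↥E]
    (F : IntermediateField ↥E (PadicAlgCl q)) [FiniteDimensional ↥E ↥F] :
    lf_IsLocal ↥F :=
  lf_isLocal_of_ext ↥E ↥F

end Padic

end Fermat.Agent.S55
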