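/-
S55 (wave 5), LOCAL side: the INTERFACE of local class field theory ("local invariant system").
Owner: helper3.  Prefix `lcf_`.  Imports Mathlib + the local field model only.

Setting: `q` a prime, `Ω = PadicAlgCl q`, `Γ = Gal(Ω/ℚ_q) = lcf_Gal q` (this is the Prelude's
`primeLocalGaloisGroup`), `U ≤ Γ` an OPEN subgroup (`lcf_IsOpen`, i.e. `U ⊇ Gal(Ω/E)` for some
finite `E/ℚ_q`); `K_U = Ω^U` is a finite extension of `ℚ_q`, and every finite extension of `ℚ_q`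
inside `Ω` is of this form.  Cochains are functions on `U` resp. `U × U` with values in `Ωˣ`
which are SMOOTH (`lcf_Smooth₁/₂`: constant on the cosets of `Gal(Ω/E)` for some finite `E`).
A smooth 2-cocycle automatically takes its values in `Lˣ` for a finite Galois `L/K_U` and is
inflated from `Gal(L/K_U)`; so `{smooth cocycles}/{smooth coboundaries} = Br(K_U)`.

`lcf_IsInvSystem inv` : the axioms of a class formation with invariants
(Serre, Local Fields XIII §3-4; Cassels-Froehlich VI §1; Neukirch, Class Field Theory II §1-5):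
* (I1) `inv_U` is additive on smooth cocycles,
* (I2) `inv_U f = 0` iff `f` is a smooth coboundary  (injectivity of `inv_U : Br(K_U) → ℚ/ℤ`),
* (I3) `inv_{U'} (res f) = [U : U'] • inv_U f`,
* (I4) normalisation: the class `ϖ ^ δχ` of an unramified character `χ` with `χ(Frob) = 1/n`
       has invariant `1/n`,
* (I5) `inv_U` is surjective,
* (I6) invariance under conjugation by `τ ∈ Γ`.
-/
import Fermat.Agent.S55.Local.LFPadic

set_option autoImplicit false

noncomputable section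

namespace Fermat.Agent.S55

open groupCohomology

/-- `ℚ/ℤ`. -/
abbrev lcf_QZ : Type := ℚ ⧸ AddSubgroup.zmultiples (1 : ℚ)

/-- The projection `ℚ → ℚ/ℤ`. -/
def lcf_qz : ℚ →+ lcf_QZ := QuotientAddGroup.mk' _

/-- The absolute Galois group of `ℚ_q` (definitionally the Prelude's `primeLocalGaloisGroup`). -/
abbrev lcf_Gal (q : ℕ) [Fact q.Prime] : Type := PadicAlgCl q ≃ₐ[ℚ_[q]] PadicAlgCl q

section Defs

variable {q : ℕ} [Fact q.Prime]

/-- Open subgroups of the local Galois group. -/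
def lcf_IsOpen (U : Subgroup (lcf_Gal q)) : Prop :=
  ∃ E : IntermediateField ℚ_[q] (PadicAlgCl q), FiniteDimensional ℚ_[q] E ∧ E.fixingSubgroup ≤ U

/-- Smooth 1-cochains on `U`. -/
def lcf_Smooth₁ {X : Type*} (U : Subgroup (lcf_Gal q)) (b : ↥U → X) : Prop :=
  ∃ E : IntermediateField ℚ_[q] (PadicAlgCl q), FiniteDimensional ℚ_[q] E ∧
    ∀ g s : ↥U, (s : lcf_Gal q) ∈ E.fixingSubgroup → b (g * s) = b g

/-- Smooth 2-cochains on `U`. -/
def lcf_Smooth₂ {X : Type*} (U : Subgroup (lcf_Gal q)) (f : ↥U × ↥U → X) : Prop :=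
  ∃ E : IntermediateField ℚ_[q] (PadicAlgCl q), FiniteDimensional ℚ_[q] E ∧
    ∀ g g' s s' : ↥U, (s : lcf_Gal q) ∈ E.fixingSubgroup → (s' : lcf_Gal q) ∈ E.fixingSubgroup →
      f (g * s, g' * s') = f (g, g')

/-- Smooth 2-cocycles of `U` with values in `Ωˣ` (representatives of `Br(K_U)`). -/
def lcf_IsCoc (U : Subgroup (lcf_Gal q)) (f : ↥U × ↥U → (PadicAlgCl q)ˣ) : Prop :=
  IsMulCocycle₂ f ∧ lcf_Smooth₂ U f

/-- Smooth 2-coboundaries of `U` with values in `Ωˣ`. -/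
def lcf_IsCob (U : Subgroup (lcf_Gal q)) (f : ↥U × ↥U → (PadicAlgCl q)ˣ) : Prop :=
  ∃ b : ↥U → (PadicAlgCl q)ˣ, lcf_Smooth₁ U b ∧ ∀ g h : ↥U, g • b h / b (g * h) * b g = f (g, h)

/-- Restriction of a 2-cochain to a smaller subgroup. -/
def lcf_res {X : Type*} {U U' : Subgroup (lcf_Gal q)} (h : U' ≤ U) (f : ↥U × ↥U → X) :
    ↥U' × ↥U' → X :=
  fun x => f (Subgroup.inclusion h x.1, Subgroup.inclusion h x.2)

/-- Inertia: `s` acts trivially on the residue field of `Ω`. -/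
def lcf_IsInert (s : lcf_Gal q) : Prop :=
  ∀ x : PadicAlgCl q, ‖x‖ ≤ 1 → ‖s x - x‖ < 1

/-- `ϖ ∈ Ωˣ` is a uniformizer of the fixed field of `U`. -/
def lcf_IsUnif (U : Subgroup (lcf_Gal q)) (ϖ : (PadicAlgCl q)ˣ) : Prop :=
  (∀ g : ↥U, g • ϖ = ϖ) ∧ ‖(ϖ : PadicAlgCl q)‖ < 1 ∧
    ∀ x : (PadicAlgCl q)ˣ, (∀ g : ↥U, g • x = x) →
      ∃ n : ℤ, ‖(x : PadicAlgCl q)‖ = ‖(ϖ : PadicAlgCl q)‖ ^ n

/-- The number of elements of the residue field of the fixed field of `U`. -/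
def lcf_resCard (U : Subgroup (lcf_Gal q)) : ℕ :=
  Nat.card (IsLocalRing.ResidueField
    (NormedField.valuation (K := ↥(IntermediateField.fixedField U))).valuationSubring)

/-- `φ ∈ U` is a Frobenius element of `U` (it induces `x ↦ x ^ N` on the residue field of `Ω`,
`N` the cardinality of the residue field of the fixed field of `U`). -/
def lcf_IsFrob (U : Subgroup (lcf_Gal q)) (φ : ↥U) : Prop :=
  ∀ x : PadicAlgCl q, ‖x‖ ≤ 1 → ‖(φ : lcf_Gal q) x - x ^ lcf_resCard U‖ < 1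

/-- The 2-cocycle `ϖ ^ δθ` attached to a character `θ : U → ℤ/n`:
`(g, g') ↦ ϖ ^ ⌊(θ g + θ g') / n⌋`, where `θ g, θ g'` are represented in `[0, n)`. -/
def lcf_unrCoc (U : Subgroup (lcf_Gal q)) (n : ℕ) (θ : ↥U →* Multiplicative (ZMod n))
    (ϖ : (PadicAlgCl q)ˣ) : ↥U × ↥U → (PadicAlgCl q)ˣ :=
  fun x => ϖ ^ (((θ x.1).toAdd.val + (θ x.2).toAdd.val) / n)

end Defs

/-- The type of (candidate) invariant maps: for every prime `q` and every subgroup `U` of the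
local Galois group a function on 2-cochains with values in `ℚ/ℤ`. -/
abbrev lcf_InvType : Type :=
  ∀ (q : ℕ) [Fact q.Prime] (U : Subgroup (lcf_Gal q)),
    (↥U × ↥U → (PadicAlgCl q)ˣ) → lcf_QZ

/-- **The axioms of a local invariant system** (= local class formation with invariants). -/
structure lcf_IsInvSystem (inv : lcf_InvType) : Prop where
  /-- (I1) additivity -/
  add : ∀ (q : ℕ) [Fact q.Prime] (U : Subgroup (lcf_Gal q)), lcf_IsOpen U →
    ∀ f f' : ↥U × ↥U → (PadicAlgCl q)ˣ, lcf_IsCoc U f → lcf_IsCoc U f' →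
      inv q U (f * f') = inv q U f + inv q U f'
  /-- (I2) the kernel of `inv` consists of the coboundaries -/
  eq_zero_iff : ∀ (q : ℕ) [Fact q.Prime] (U : Subgroup (lcf_Gal q)), lcf_IsOpen U →
    ∀ f : ↥U × ↥U → (PadicAlgCl q)ˣ, lcf_IsCoc U f → (inv q U f = 0 ↔ lcf_IsCob U f)
  /-- (I3) restriction multiplies the invariant by the index -/
  res : ∀ (q : ℕ) [Fact q.Prime] (U U' : Subgroup (lcf_Gal q)) (h : U' ≤ U), lcf_IsOpen U' →
    ∀ f : ↥U × ↥U → (PadicAlgCl q)ˣ, lcf_IsCoc U f →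
      inv q U' (lcf_res h f) = (U'.relIndex U) • inv q U f
  /-- (I4) normalisation on unramified classes -/
  unr : ∀ (q : ℕ) [Fact q.Prime] (U : Subgroup (lcf_Gal q)), lcf_IsOpen U →
    ∀ (n : ℕ) [NeZero n] (θ : ↥U →* Multiplicative (ZMod n)) (φ : ↥U) (ϖ : (PadicAlgCl q)ˣ),
      lcf_Smooth₁ U θ → (∀ s : ↥U, lcf_IsInert (s : lcf_Gal q) → θ s = 1) →
      lcf_IsFrob U φ → θ φ = Multiplicative.ofAdd 1 → lcf_IsUnif U ϖ →
      inv q U (lcf_unrCoc U n θ ϖ) = lcf_qz (1 / (n : ℚ))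
  /-- (I5) surjectivity -/
  surj : ∀ (q : ℕ) [Fact q.Prime] (U : Subgroup (lcf_Gal q)), lcf_IsOpen U →
    ∀ t : lcf_QZ, ∃ f : ↥U × ↥U → (PadicAlgCl q)ˣ, lcf_IsCoc U f ∧ inv q U f = t
  /-- (I6) invariance under conjugation -/
  conj : ∀ (q : ℕ) [Fact q.Prime] (U U' : Subgroup (lcf_Gal q)) (τ : lcf_Gal q), lcf_IsOpen U →
    (∀ g : lcf_Gal q, g ∈ U' ↔ τ⁻¹ * g * τ ∈ U) →
    ∀ (f : ↥U × ↥U → (PadicAlgCl q)ˣ) (f' : ↥U' × ↥U' → (PadicAlgCl q)ˣ), lcf_IsCoc U f →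
      (∀ (g h : ↥U) (g' h' : ↥U'), (g' : lcf_Gal q) = τ * g * τ⁻¹ → (h' : lcf_Gal q) = τ * h * τ⁻¹ →
        f' (g', h') = τ • f (g, h)) →
      inv q U' f' = inv q U f

/-- **[L-INV]** existence of a local invariant system. -/
def lcf_InvStatement : Prop := ∃ inv : lcf_InvType, lcf_IsInvSystem inv

end Fermat.Agent.S55
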