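/-
S55 (wave 5), LOCAL side: the INTERFACE between local class field theory (`LCFDefs.lean`), the
Prelude's continuous local cohomology, and the Poitou-Tate assembly (`PT.lean`).
Owner: helper3.  Prefix `ld_`.

* `ld_zeta p`           : a fixed primitive `p`-th root of unity of `ℚ̄` (the same for all places);
* `ld_mu p q f`         : the `Ωˣ`-valued cochain `ζ ^ f` of an `F_p(1)`-valued cochain `f`
                          (`Ω = PadicAlgCl q`, `ζ` the image of `ld_zeta p`);
* `ld_Compat inv ptinv` : the family `ptinv` of maps `H²_cts(ℚ_q, F_p(1)) → F_p` (the input of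
                          `PT.lean`) is induced by the local invariant system `inv`:
                          `inv_q (ζ ^ f) = ptinv_q [f] / p` in `ℚ/ℤ`;
* `ld_PtInvStatement`   : [PTINV] every local invariant system induces such a family;
* `ld_LD1Statement`     : [LD1] local Tate duality in degrees `(1,1)` for the induced family;
* `ld_local_of`         : [L-INV] + [PTINV] + [LD1] give a family `ptinv` with
                          `pt_LD1Statement ptinv`, together with its invariant system (which the
                          global side uses for the reciprocity law).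
-/
import Fermat.Agent.S55.Local.LCFDefs
import Fermat.Agent.S55.PT

set_option autoImplicit false
set_option maxHeartbeats 1000000
set_option synthInstance.maxHeartbeats 400000

noncomputable section

namespace Fermat.Agent.S55

open CategoryTheory Module groupCohomology ExtCitation

/-- The group structure of the local Galois group at a prime of `S` (definitionally the
Prelude's instance; stated for the constructor `Sum.inr` so that instance search finds it). -/
instance ld_instGroupInr (S : Finset Nat.Primes) (q : ↥S) :
    Group (extArithLocalGroups S (Sum.inr q : extArithIndex S)) :=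
  instGroupExtArithLocalGroups S (Sum.inr q)

/-- The primality instance of an element of `Nat.Primes`. -/
instance ld_fact (q : Nat.Primes) : Fact ((q : ℕ)).Prime := ⟨q.2⟩

theorem ld_exists_primitiveRoot (p : ℕ) [Fact p.Prime] :
    ∃ ζ : AlgebraicClosure ℚ, IsPrimitiveRoot ζ p :=
  haveI : NeZero p := ⟨(Fact.out : p.Prime).ne_zero⟩
  HasEnoughRootsOfUnity.exists_primitiveRoot (AlgebraicClosure ℚ) p

/-- A fixed primitive `p`-th root of unity in `ℚ̄`. -/
def ld_zeta (p : ℕ) [Fact p.Prime] : AlgebraicClosure ℚ := (ld_exists_primitiveRoot p).choose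

theorem ld_zeta_spec (p : ℕ) [Fact p.Prime] : IsPrimitiveRoot (ld_zeta p) p :=
  (ld_exists_primitiveRoot p).choose_spec

/-- The image of `ld_zeta p` in `PadicAlgCl q`, as a unit. -/
def ld_zetaLoc (p q : ℕ) [Fact p.Prime] [Fact q.Prime] : (PadicAlgCl q)ˣ :=
  Units.mk0 (padicEmbedding q (ld_zeta p)) (by
    have h0 : ld_zeta p ≠ 0 := (ld_zeta_spec p).ne_zero (Fact.out : p.Prime).ne_zero
    exact fun h => h0 ((padicEmbedding q).toRingHom.injective (h.trans (map_zero _).symm)))

/-- The `Ωˣ`-valued 2-cochain `ζ ^ f` on `Gal(Ω/ℚ_q)` attached to a 2-cochain `f` with values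
in `F_p(1)`. -/
def ld_mu (p : ℕ) [Fact p.Prime] (S : Finset Nat.Primes) (q : ↥S)
    (f : extArithLocalGroups S (Sum.inr q : extArithIndex S) ×
      extArithLocalGroups S (Sum.inr q : extArithIndex S) →
        Rep.res (extArithLoc S (Sum.inr q : extArithIndex S)) (pt_T p)) :
    ↥(⊤ : Subgroup (lcf_Gal (q.1 : ℕ))) × ↥(⊤ : Subgroup (lcf_Gal (q.1 : ℕ))) →
      (PadicAlgCl (q.1 : ℕ))ˣ :=
  fun x => ld_zetaLoc p (q.1 : ℕ) ^ (ZMod.val (f ((x.1 : lcf_Gal (q.1 : ℕ)),
    (x.2 : lcf_Gal (q.1 : ℕ))) : ZMod p))

/-- **Compatibility** of a family `ptinv` of maps `H²_cts(ℚ_q, F_p(1)) → F_p` with a local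
invariant system `inv`: `inv_q (ζ ^ f) = ptinv_q [f] / p` in `ℚ/ℤ`, for every continuous
2-cocycle `f` of `Gal(Ω/ℚ_q)` with values in `F_p(1)`.  (No condition at the archimedean
place, where `H²_cts` vanishes for odd `p`.) -/
def ld_Compat (inv : lcf_InvType) (ptinv : pt_InvFamily) : Prop :=
  ∀ (p : ℕ) [Fact p.Prime] (S : Finset Nat.Primes) (q : ↥S)
    (f : extArithLocalGroups S (Sum.inr q : extArithIndex S) ×
      extArithLocalGroups S (Sum.inr q : extArithIndex S) →
        Rep.res (extArithLoc S (Sum.inr q : extArithIndex S)) (pt_T p))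
    (hf : f ∈ levelCocycles₂ (extArithLoc S (Sum.inr q : extArithIndex S))
      (Rep.res (extArithLoc S (Sum.inr q : extArithIndex S)) (pt_T p))),
    inv (q.1 : ℕ) ⊤ (ld_mu p S q f) =
      lcf_qz ((ZMod.val (ptinv p S (Sum.inr q) (continuousH2π _ _ ⟨f, hf⟩)) : ℚ) / (p : ℚ))

/-- **[PTINV]** every local invariant system induces a compatible family of invariant maps on
the Prelude's continuous `H²(ℚ_q, F_p(1))`. -/
def ld_PtInvStatement : Prop :=
  ∀ inv : lcf_InvType, lcf_IsInvSystem inv → ∃ ptinv : pt_InvFamily, ld_Compat inv ptinv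

/-- **[LD1]** local Tate duality in degrees `(1,1)` (in the form consumed by `PT.lean`) for
every family of invariant maps induced by a local invariant system. -/
def ld_LD1Statement : Prop :=
  ∀ (inv : lcf_InvType) (ptinv : pt_InvFamily), lcf_IsInvSystem inv → ld_Compat inv ptinv →
    pt_LD1Statement ptinv

/-- **The local package**: from [L-INV], [PTINV], [LD1] one gets a local invariant system `inv`
and a compatible family `ptinv` for which local duality holds. -/
theorem ld_local_of (h₁ : lcf_InvStatement) (h₂ : ld_PtInvStatement) (h₃ : ld_LD1Statement) :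
    ∃ (inv : lcf_InvType) (ptinv : pt_InvFamily),
      lcf_IsInvSystem inv ∧ ld_Compat inv ptinv ∧ pt_LD1Statement ptinv := by
  obtain ⟨inv, hinv⟩ := h₁
  obtain ⟨ptinv, hc⟩ := h₂ inv hinv
  exact ⟨inv, ptinv, hinv, hc, h₃ inv ptinv hinv hc⟩

end Fermat.Agent.S55
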