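/-
S55 (wave 5), LOCAL side: LEAF statements of local class field theory (closed Props, each can be
proved independently) from which the local invariant system of `LCFDefs.lean` is built.
Owner of the interface: helper3.  Prefix `lcf_`.
References: Serre, Local Fields, ch. XII-XIII; Cassels-Froehlich, ch. VI §1.
-/
import Fermat.Agent.S55.Local.LCFDefs

set_option autoImplicit false

noncomputable section

namespace Fermat.Agent.S55

open groupCohomology

universe u v

/-- **[L2] = [LOC-H]** (first inequality, cyclic case): for a cyclic extension `L/K` of local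
fields the norm group `N Lˣ` has index `[L : K]` in `Kˣ`.
(Herbrand quotient `h(Lˣ) = h(U_L) h(ℤ) = n` and Hilbert 90; Serre XIII Prop. 9 / CF VI 1.4.) -/
def lcf_NormIndexStatement : Prop :=
  ∀ (K : Type u) (L : Type v) [NormedField K] [NormedField L] [Algebra K L]
    [lf_IsLocal K] [lf_IsLocal L] [lf_IsLocalExt K L] [IsGalois K L],
    IsCyclic (L ≃ₐ[K] L) →
    (Units.map (Algebra.norm K : L →* K)).range.index = Module.finrank K L

/-- **[L2-V]** the units of a Galois extension of local fields contain a cohomologically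
trivial subgroup of finite index: there is a subgroup `V` of finite index in the unit group
`U_L`, stable under `G = Gal(L/K)`, with `Ĥ⁰(G, V) = 0` (every `G`-fixed element of `V` is the
norm of an element of `V`) and `H¹(G, V) = 0` (every 1-cocycle `G → V` is the coboundary of an
element of `V`).  (`V = 1 + ϖ ^ m • (𝒪_K-span of a normal basis)`, successive approximation;
Serre, Local Fields XII §3 Lemma 3 / CF VI 1.4.) -/
def lcf_UnitsStatement : Prop :=
  ∀ (K : Type u) (L : Type v) [NormedField K] [NormedField L] [Algebra K L]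
    [lf_IsLocal K] [lf_IsLocal L] [lf_IsLocalExt K L] [IsGalois K L],
    ∃ V : Subgroup Lˣ, V ≤ lf_units L ∧ (V.subgroupOf (lf_units L)).index ≠ 0 ∧
      (∀ (σ : L ≃ₐ[K] L) (x : Lˣ), x ∈ V → Units.map (σ : L →* L) x ∈ V) ∧
      (∀ x : Lˣ, x ∈ V → (∀ σ : L ≃ₐ[K] L, Units.map (σ : L →* L) x = x) →
        ∃ y : Lˣ, y ∈ V ∧ x = ∏ᶠ σ : L ≃ₐ[K] L, Units.map (σ : L →* L) y) ∧
      (∀ c : (L ≃ₐ[K] L) → Lˣ, (∀ σ, c σ ∈ V) →
        (∀ σ τ : L ≃ₐ[K] L, c (σ * τ) = Units.map (σ : L →* L) (c τ) * c σ) →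
        ∃ y : Lˣ, y ∈ V ∧ ∀ σ : L ≃ₐ[K] L, c σ = Units.map (σ : L →* L) y / y)

/-- **[L3] = [2ND]** (second inequality): `#H²(Gal(L/K), Lˣ)` divides `[L : K]`.
(Cyclic case from [L2]; general case by Sylow + inflation-restriction; Serre XIII §3.) -/
def lcf_H2DvdStatement : Prop :=
  ∀ (K L : Type) [NormedField K] [NormedField L] [Algebra K L]
    [lf_IsLocal K] [lf_IsLocal L] [lf_IsLocalExt K L] [IsGalois K L],
    Nat.card (H2 (Rep.ofAlgebraAutOnUnits K L)) ∣ Module.finrank K L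

/-- **[L4] = [INV]** `H²(Gal(L/K), Lˣ)` is cyclic of order `[L : K]`. -/
def lcf_H2CardStatement : Prop :=
  ∀ (K L : Type) [NormedField K] [NormedField L] [Algebra K L]
    [lf_IsLocal K] [lf_IsLocal L] [lf_IsLocalExt K L] [IsGalois K L],
    Nat.card (H2 (Rep.ofAlgebraAutOnUnits K L)) = Module.finrank K L ∧
      IsAddCyclic (H2 (Rep.ofAlgebraAutOnUnits K L))

section Absolute

/-- **[UNIF]** the fixed field of an open subgroup has a uniformizer. -/
def lcf_UnifStatement : Prop :=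
  ∀ (q : ℕ) [Fact q.Prime] (U : Subgroup (lcf_Gal q)), lcf_IsOpen U →
    ∃ ϖ : (PadicAlgCl q)ˣ, lcf_IsUnif U ϖ

/-- **[UNR-CHAR]** existence of the unramified character of every order `n`: a smooth
character `θ : U → ℤ/n`, trivial on inertia, and a Frobenius element `φ` with `θ φ = 1`.
(Existence of the unramified extension of degree `n`: roots of unity of order `N ^ n - 1`.) -/
def lcf_UnrCharStatement : Prop :=
  ∀ (q : ℕ) [Fact q.Prime] (U : Subgroup (lcf_Gal q)), lcf_IsOpen U →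
    ∀ (n : ℕ) [NeZero n], ∃ (θ : ↥U →* Multiplicative (ZMod n)) (φ : ↥U),
      lcf_Smooth₁ U θ ∧ (∀ s : ↥U, lcf_IsInert (s : lcf_Gal q) → θ s = 1) ∧
      lcf_IsFrob U φ ∧ θ φ = Multiplicative.ofAdd 1

/-- **[H90]** Hilbert 90 for smooth cochains: every smooth 1-cocycle `U → Ωˣ` is the coboundary
of an element of `Ωˣ`. -/
def lcf_H90Statement : Prop :=
  ∀ (q : ℕ) [Fact q.Prime] (U : Subgroup (lcf_Gal q)), lcf_IsOpen U →
    ∀ c : ↥U → (PadicAlgCl q)ˣ, IsMulCocycle₁ c → lcf_Smooth₁ U c →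
      ∃ x : (PadicAlgCl q)ˣ, ∀ g : ↥U, c g = g • x / x

/-- **[SPLIT]** every class of `Br(K_U)` is split by an unramified extension: every smooth
2-cocycle is cohomologous to a power of an unramified cocycle `ϖ ^ δθ`. -/
def lcf_SplitStatement : Prop :=
  ∀ (q : ℕ) [Fact q.Prime] (U : Subgroup (lcf_Gal q)), lcf_IsOpen U →
    ∀ f : ↥U × ↥U → (PadicAlgCl q)ˣ, lcf_IsCoc U f →
      ∃ (n : ℕ) (_ : NeZero n) (θ : ↥U →* Multiplicative (ZMod n)) (φ : ↥U)
        (ϖ : (PadicAlgCl q)ˣ) (k : ℕ),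
        lcf_Smooth₁ U θ ∧ (∀ s : ↥U, lcf_IsInert (s : lcf_Gal q) → θ s = 1) ∧
        lcf_IsFrob U φ ∧ θ φ = Multiplicative.ofAdd 1 ∧ lcf_IsUnif U ϖ ∧
        lcf_IsCob U (f / (lcf_unrCoc U n θ ϖ) ^ k)

/-- **[UNR-INJ]** the unramified classes have the expected order: `(ϖ ^ δθ) ^ k` is a smooth
coboundary only if `n ∣ k`. -/
def lcf_UnrInjStatement : Prop :=
  ∀ (q : ℕ) [Fact q.Prime] (U : Subgroup (lcf_Gal q)), lcf_IsOpen U →
    ∀ (n : ℕ) [NeZero n] (θ : ↥U →* Multiplicative (ZMod n)) (φ : ↥U) (ϖ : (PadicAlgCl q)ˣ)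
      (k : ℕ), lcf_Smooth₁ U θ → (∀ s : ↥U, lcf_IsInert (s : lcf_Gal q) → θ s = 1) →
      lcf_IsFrob U φ → θ φ = Multiplicative.ofAdd 1 → lcf_IsUnif U ϖ →
      lcf_IsCob U ((lcf_unrCoc U n θ ϖ) ^ k) → n ∣ k

end Absolute

end Fermat.Agent.S55
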