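/-
S55 (wave 5), LOCAL side, leaf [H90]: Hilbert 90 for smooth 1-cocycles of an open subgroup of the
local Galois group with values in `Ωˣ`.  Prefix `lh90_`.

Proof: Poincaré series.  If `c` is smooth of level `E`, then `c g` depends only on the
restriction of `g` to `E`; for `a ∈ E` put `b(a) = ∑_σ w(σ) σ(a)`, the sum over the (finitely
many) embeddings `σ : E → Ω`, with `w(σ) = c g` if `σ = g|_E`, `g ∈ U`, and `w(σ) = 0` otherwise.
Then `h(b(a)) = c(h)⁻¹ b(a)` for `h ∈ U`, and `b(a) ≠ 0` for some `a` by Dedekind.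
-/
import Fermat.Agent.S55.Local.LCFLeaves

set_option autoImplicit false

noncomputable section

namespace Fermat.Agent.S55

open groupCohomology

variable {q : ℕ} [Fact q.Prime]

/-- The restriction of an automorphism of `Ω` to an intermediate field, as an embedding. -/
def lh90_res (E : IntermediateField ℚ_[q] (PadicAlgCl q)) (g : lcf_Gal q) :
    ↥E →ₐ[ℚ_[q]] PadicAlgCl q :=
  (g : PadicAlgCl q →ₐ[ℚ_[q]] PadicAlgCl q).comp E.val

@[simp] theorem lh90_res_apply (E : IntermediateField ℚ_[q] (PadicAlgCl q)) (g : lcf_Gal q)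
    (x : ↥E) : lh90_res E g x = g (x : PadicAlgCl q) := rfl

theorem lh90_res_mul (E : IntermediateField ℚ_[q] (PadicAlgCl q)) (h g : lcf_Gal q) :
    lh90_res E (h * g) = (h : PadicAlgCl q →ₐ[ℚ_[q]] PadicAlgCl q).comp (lh90_res E g) := by
  ext x
  rfl

/-- Two automorphisms with the same restriction to `E` differ by an element of `Gal(Ω/E)`. -/
theorem lh90_mem_fixingSubgroup {E : IntermediateField ℚ_[q] (PadicAlgCl q)} {g g' : lcf_Gal q}
    (h : lh90_res E g = lh90_res E g') : g⁻¹ * g' ∈ E.fixingSubgroup := by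
  rw [IntermediateField.mem_fixingSubgroup_iff]
  intro x hx
  have h1 : g x = g' x := DFunLike.congr_fun h ⟨x, hx⟩
  show g⁻¹ (g' x) = x
  rw [← h1]
  exact g.symm_apply_apply x

/-- A smooth cochain of level `E` depends only on the restriction to `E`. -/
theorem lh90_eq_of_res_eq {X : Type*} {U : Subgroup (lcf_Gal q)}
    {E : IntermediateField ℚ_[q] (PadicAlgCl q)} {c : ↥U → X}
    (hsm : ∀ g s : ↥U, (s : lcf_Gal q) ∈ E.fixingSubgroup → c (g * s) = c g) {g g' : ↥U}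
    (h : lh90_res E (g : lcf_Gal q) = lh90_res E (g' : lcf_Gal q)) : c g = c g' := by
  have h1 := hsm g (g⁻¹ * g') (lh90_mem_fixingSubgroup h)
  rw [mul_inv_cancel_left] at h1
  exact h1.symm

/-- The weight of an embedding of `E`: `c g` if it is the restriction of `g ∈ U`, else `0`. -/
def lh90_w (U : Subgroup (lcf_Gal q)) (E : IntermediateField ℚ_[q] (PadicAlgCl q))
    (c : ↥U → (PadicAlgCl q)ˣ) (σ : ↥E →ₐ[ℚ_[q]] PadicAlgCl q) : PadicAlgCl q :=
  open Classical in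
  if h : ∃ g : ↥U, lh90_res E (g : lcf_Gal q) = σ then ((c h.choose : (PadicAlgCl q)ˣ) :
    PadicAlgCl q) else 0

theorem lh90_w_res {U : Subgroup (lcf_Gal q)} {E : IntermediateField ℚ_[q] (PadicAlgCl q)}
    {c : ↥U → (PadicAlgCl q)ˣ}
    (hsm : ∀ g s : ↥U, (s : lcf_Gal q) ∈ E.fixingSubgroup → c (g * s) = c g) (g : ↥U) :
    lh90_w U E c (lh90_res E (g : lcf_Gal q)) = ((c g : (PadicAlgCl q)ˣ) : PadicAlgCl q) := by
  have hex : ∃ g' : ↥U, lh90_res E (g' : lcf_Gal q) = lh90_res E (g : lcf_Gal q) := ⟨g, rfl⟩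
  rw [lh90_w, dif_pos hex]
  exact congrArg Units.val (lh90_eq_of_res_eq hsm hex.choose_spec)

theorem lh90_w_of_not {U : Subgroup (lcf_Gal q)} {E : IntermediateField ℚ_[q] (PadicAlgCl q)}
    {c : ↥U → (PadicAlgCl q)ˣ} {σ : ↥E →ₐ[ℚ_[q]] PadicAlgCl q}
    (h : ¬ ∃ g : ↥U, lh90_res E (g : lcf_Gal q) = σ) : lh90_w U E c σ = 0 := by
  rw [lh90_w, dif_neg h]

/-- The transformation rule of the weights. -/
theorem lh90_w_comp {U : Subgroup (lcf_Gal q)} {E : IntermediateField ℚ_[q] (PadicAlgCl q)}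
    {c : ↥U → (PadicAlgCl q)ˣ} (hc : IsMulCocycle₁ c)
    (hsm : ∀ g s : ↥U, (s : lcf_Gal q) ∈ E.fixingSubgroup → c (g * s) = c g) (h : ↥U)
    (σ : ↥E →ₐ[ℚ_[q]] PadicAlgCl q) :
    lh90_w U E c (((h : lcf_Gal q) : PadicAlgCl q →ₐ[ℚ_[q]] PadicAlgCl q).comp σ) =
      ((c h : (PadicAlgCl q)ˣ) : PadicAlgCl q) * (h : lcf_Gal q) (lh90_w U E c σ) := by
  by_cases hσ : ∃ g : ↥U, lh90_res E (g : lcf_Gal q) = σ
  · obtain ⟨g, rfl⟩ := hσ
    have h1 : ((h : lcf_Gal q) : PadicAlgCl q →ₐ[ℚ_[q]] PadicAlgCl q).comp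
        (lh90_res E (g : lcf_Gal q)) = lh90_res E ((h * g : ↥U) : lcf_Gal q) := by
      rw [Subgroup.coe_mul, lh90_res_mul]
    rw [h1, lh90_w_res hsm, lh90_w_res hsm, hc h g, Units.val_mul, mul_comm]
    rfl
  · have hσ' : ¬ ∃ g : ↥U, lh90_res E (g : lcf_Gal q) =
        ((h : lcf_Gal q) : PadicAlgCl q →ₐ[ℚ_[q]] PadicAlgCl q).comp σ := by
      rintro ⟨g, hg⟩
      apply hσ
      refine ⟨h⁻¹ * g, ?_⟩
      rw [Subgroup.coe_mul, lh90_res_mul, hg]
      ext x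
      show ((h⁻¹ : ↥U) : lcf_Gal q) ((h : lcf_Gal q) (σ x)) = σ x
      rw [Subgroup.coe_inv]
      exact (h : lcf_Gal q).symm_apply_apply (σ x)
    rw [lh90_w_of_not hσ, lh90_w_of_not hσ', map_zero, mul_zero]

/-- Composition with an automorphism permutes the embeddings. -/
def lh90_perm (E : IntermediateField ℚ_[q] (PadicAlgCl q)) (h : lcf_Gal q) :
    (↥E →ₐ[ℚ_[q]] PadicAlgCl q) ≃ (↥E →ₐ[ℚ_[q]] PadicAlgCl q) where
  toFun σ := (h : PadicAlgCl q →ₐ[ℚ_[q]] PadicAlgCl q).comp σ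
  invFun σ := ((h⁻¹ : lcf_Gal q) : PadicAlgCl q →ₐ[ℚ_[q]] PadicAlgCl q).comp σ
  left_inv σ := by
    ext x
    show (h⁻¹ : lcf_Gal q) (h (σ x)) = σ x
    exact h.symm_apply_apply (σ x)
  right_inv σ := by
    ext x
    show h ((h⁻¹ : lcf_Gal q) (σ x)) = σ x
    exact h.apply_symm_apply (σ x)

/-- Dedekind: the weighted sum of the embeddings does not vanish identically. -/
theorem lh90_exists_ne_zero {U : Subgroup (lcf_Gal q)}
    {E : IntermediateField ℚ_[q] (PadicAlgCl q)} [FiniteDimensional ℚ_[q] ↥E]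
    {c : ↥U → (PadicAlgCl q)ˣ}
    (hsm : ∀ g s : ↥U, (s : lcf_Gal q) ∈ E.fixingSubgroup → c (g * s) = c g) :
    ∃ a : ↥E, ∑ σ : ↥E →ₐ[ℚ_[q]] PadicAlgCl q, lh90_w U E c σ * σ a ≠ 0 := by
  by_contra hcon
  simp only [not_exists, ne_eq, not_not] at hcon
  have hli : LinearIndependent (PadicAlgCl q)
      (fun σ : ↥E →ₐ[ℚ_[q]] PadicAlgCl q => (σ : ↥E → PadicAlgCl q)) :=
    LinearIndependent.comp (ι' := ↥E →ₐ[ℚ_[q]] PadicAlgCl q)
      (linearIndependent_monoidHom ↥E (PadicAlgCl q))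
      (fun σ => ((σ : ↥E →+* PadicAlgCl q) : ↥E →* PadicAlgCl q))
      (fun x y h => by
        ext a
        exact DFunLike.congr_fun h a)
  have h0 := Fintype.linearIndependent_iff.1 hli (lh90_w U E c) (by
    funext a
    simpa using hcon a) (lh90_res E ((1 : ↥U) : lcf_Gal q))
  rw [lh90_w_res hsm] at h0
  exact Units.ne_zero _ h0

/-- **[H90]** Hilbert 90 for smooth 1-cocycles. -/
theorem lh90_main : lcf_H90Statement := by
  intro q _ U _ c hc hs
  obtain ⟨E, hE, hsm⟩ := hs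
  have : FiniteDimensional ℚ_[q] ↥E := hE
  obtain ⟨a, ha⟩ := lh90_exists_ne_zero (U := U) (E := E) (c := c) hsm
  set b : PadicAlgCl q := ∑ σ : ↥E →ₐ[ℚ_[q]] PadicAlgCl q, lh90_w U E c σ * σ a with hb
  have key : ∀ h : ↥U, ((c h : (PadicAlgCl q)ˣ) : PadicAlgCl q) * (h : lcf_Gal q) b = b := by
    intro h
    rw [hb, map_sum, Finset.mul_sum]
    rw [← Equiv.sum_comp (lh90_perm E (h : lcf_Gal q))
      (fun σ => lh90_w U E c σ * σ a)]
    refine Finset.sum_congr rfl fun σ _ => ?_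
    show _ = lh90_w U E c (((h : lcf_Gal q) : PadicAlgCl q →ₐ[ℚ_[q]] PadicAlgCl q).comp σ) *
      (h : lcf_Gal q) (σ a)
    rw [lh90_w_comp hc hsm, map_mul, mul_assoc]
  refine ⟨(Units.mk0 b ha)⁻¹, fun h => ?_⟩
  rw [smul_inv', div_inv_eq_mul, eq_comm, inv_mul_eq_iff_eq_mul]
  apply Units.ext
  rw [Units.val_mul]
  show b = (h : lcf_Gal q) b * ((c h : (PadicAlgCl q)ˣ) : PadicAlgCl q)
  rw [mul_comm]
  exact (key h).symm

end Fermat.Agent.S55
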