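/-
S55 (wave 5), LOCAL side: LEAF statements for local duality, in the language of `LCFDefs.lean`
(smooth cochains on open subgroups `U` of `Gal(Ω/ℚ_q)` with values in `Ωˣ`).  Closed Props,
each can be proved independently.  Owner of the interface: helper3.  Prefix `lcf_`.

The cocycle `lcf_unrCoc U n θ a = a ^ δθ` (`θ : U → ℤ/n` a smooth character, `a ∈ K_Uˣ`) is the
cup product `a ∪ δχ`, `χ = θ/n`; its class in `Br(K_U)` is the norm residue symbol `(a, χ)`.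
References: Serre, Local Fields XIV §1-3; Cassels-Froehlich VI §2; Neukirch CFT III §5.
-/
import Fermat.Agent.S55.Local.LCFDefs
import Fermat.Prelude.Def_GaloisRep_CompletionBridge

set_option autoImplicit false

noncomputable section

namespace Fermat.Agent.S55

open groupCohomology

section Defs

variable {q : ℕ} [Fact q.Prime]

/-- Smooth 3-cochains on `U`. -/
def lcf_Smooth₃ {X : Type*} (U : Subgroup (lcf_Gal q)) (f : ↥U × ↥U × ↥U → X) : Prop :=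
  ∃ E : IntermediateField ℚ_[q] (PadicAlgCl q), FiniteDimensional ℚ_[q] E ∧
    ∀ g g' g'' s s' s'' : ↥U, (s : lcf_Gal q) ∈ E.fixingSubgroup →
      (s' : lcf_Gal q) ∈ E.fixingSubgroup → (s'' : lcf_Gal q) ∈ E.fixingSubgroup →
      f (g * s, g' * s', g'' * s'') = f (g, g', g'')

/-- Multiplicative inhomogeneous 3-cocycles. -/
def lcf_IsMulCocycle₃ (U : Subgroup (lcf_Gal q)) (z : ↥U × ↥U × ↥U → (PadicAlgCl q)ˣ) : Prop :=
  ∀ g h j l : ↥U, g • z (h, j, l) * z (g, h * j, l) * z (g, h, j) =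
    z (g * h, j, l) * z (g, h, j * l)

/-- The multiplicative coboundary of a 2-cochain. -/
def lcf_d₂₃ (U : Subgroup (lcf_Gal q)) (f : ↥U × ↥U → (PadicAlgCl q)ˣ) :
    ↥U × ↥U × ↥U → (PadicAlgCl q)ˣ :=
  fun x => x.1 • f (x.2.1, x.2.2) * f (x.1, x.2.1 * x.2.2) /
    (f (x.1 * x.2.1, x.2.2) * f (x.1, x.2.1))

end Defs

/-- **[SYM-NORM]** norm residue property of the symbol: for a smooth surjective character
`θ : U → ℤ/n`, `σ ∈ U` with `θ σ = 1`, and `a ∈ K_Uˣ`, the cocycle `a ^ δθ` is a smooth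
coboundary iff `a` is a norm from the fixed field `L` of `ker θ`
(`N_{L/K} y = ∏_{i<n} σ^i y`).  (Cyclic cohomology + inflation is injective by Hilbert 90.) -/
def lcf_SymNormStatement : Prop :=
  ∀ (q : ℕ) [Fact q.Prime] (U : Subgroup (lcf_Gal q)), lcf_IsOpen U →
    ∀ (n : ℕ) [NeZero n] (θ : ↥U →* Multiplicative (ZMod n)) (σ : ↥U) (a : (PadicAlgCl q)ˣ),
      lcf_Smooth₁ U θ → θ σ = Multiplicative.ofAdd 1 → (∀ g : ↥U, g • a = a) →
      (lcf_IsCob U (lcf_unrCoc U n θ a) ↔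
        ∃ y : (PadicAlgCl q)ˣ, (∀ g : ↥U, θ g = 1 → g • y = y) ∧
          a = ∏ i ∈ Finset.range n, (σ ^ i) • y)

/-- **[SYM-ADD]** the symbol is additive in the character: `a ^ δ(θ θ') ~ a ^ δθ * a ^ δθ'`. -/
def lcf_SymAddStatement : Prop :=
  ∀ (q : ℕ) [Fact q.Prime] (U : Subgroup (lcf_Gal q)), lcf_IsOpen U →
    ∀ (n : ℕ) [NeZero n] (θ θ' : ↥U →* Multiplicative (ZMod n)) (a : (PadicAlgCl q)ˣ),
      lcf_Smooth₁ U θ → lcf_Smooth₁ U θ' → (∀ g : ↥U, g • a = a) →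
      lcf_IsCob U (lcf_unrCoc U n (θ * θ') a / (lcf_unrCoc U n θ a * lcf_unrCoc U n θ' a))

/-- **[HILB-R]** right non-degeneracy of the norm residue symbol of exponent `p`: for every
nontrivial smooth character `θ : U → ℤ/p` there is `a ∈ K_Uˣ` with `(a, θ) ≠ 0`.
(From [L2]: the norm group of the cyclic extension cut out by `θ` has index `p`.) -/
def lcf_HilbRStatement : Prop :=
  ∀ (q : ℕ) [Fact q.Prime] (p : ℕ) [Fact p.Prime] (U : Subgroup (lcf_Gal q)), lcf_IsOpen U →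
    ∀ θ : ↥U →* Multiplicative (ZMod p), lcf_Smooth₁ U θ → θ ≠ 1 →
      ∃ a : (PadicAlgCl q)ˣ, (∀ g : ↥U, g • a = a) ∧ ¬ lcf_IsCob U (lcf_unrCoc U p θ a)

/-- **[HILB-L]** left non-degeneracy (`p` odd, `μ_p ⊂ K_U`): for every `a ∈ K_Uˣ` which is not a
`p`-th power in `K_U` there is a smooth character `θ : U → ℤ/p` with `(a, θ) ≠ 0`.
(Kummer theory + skew-symmetry of the Hilbert symbol, from `(a, -a) = 0`.) -/
def lcf_HilbLStatement : Prop :=
  ∀ (q : ℕ) [Fact q.Prime] (p : ℕ) [Fact p.Prime], p ≠ 2 →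
    ∀ (U : Subgroup (lcf_Gal q)), lcf_IsOpen U →
    ∀ ζ : (PadicAlgCl q)ˣ, IsPrimitiveRoot ζ p → (∀ g : ↥U, g • ζ = ζ) →
    ∀ a : (PadicAlgCl q)ˣ, (∀ g : ↥U, g • a = a) →
      (¬ ∃ b : (PadicAlgCl q)ˣ, (∀ g : ↥U, g • b = b) ∧ b ^ p = a) →
      ∃ θ : ↥U →* Multiplicative (ZMod p), lcf_Smooth₁ U θ ∧
        ¬ lcf_IsCob U (lcf_unrCoc U p θ a)

/-- **[FIN-HOM]** finiteness of `H¹(K_U, ℤ/p)`: an open subgroup has only finitely many smooth
characters of order `p`.  (Kummer theory over `K_U(μ_p)` and finiteness of `Kˣ/Kˣᵖ`.) -/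
def lcf_FinHomStatement : Prop :=
  ∀ (q : ℕ) [Fact q.Prime] (p : ℕ) [Fact p.Prime] (U : Subgroup (lcf_Gal q)), lcf_IsOpen U →
    {θ : ↥U →* Multiplicative (ZMod p) | lcf_Smooth₁ U θ}.Finite

/-- **[FIN-KP]** finiteness of `Kˣ/Kˣᵖ` for `K = K_U`: there is a finite set of representatives. -/
def lcf_FinKpStatement : Prop :=
  ∀ (q : ℕ) [Fact q.Prime] (p : ℕ) [Fact p.Prime] (U : Subgroup (lcf_Gal q)), lcf_IsOpen U →
    ∃ s : Finset (PadicAlgCl q)ˣ, ∀ a : (PadicAlgCl q)ˣ, (∀ g : ↥U, g • a = a) →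
      ∃ c ∈ s, ∃ b : (PadicAlgCl q)ˣ, (∀ g : ↥U, g • b = b) ∧ a = c * b ^ p

/-- **[KUM1]** Kummer theory in degree 1 (`μ_p ⊂ K_U`): every smooth homomorphism `κ : U → Ωˣ`
with `κ ^ p = 1` is of the form `g ↦ g α / α` with `α ^ p ∈ K_U`. -/
def lcf_Kummer1Statement : Prop :=
  ∀ (q : ℕ) [Fact q.Prime] (p : ℕ) [Fact p.Prime] (U : Subgroup (lcf_Gal q)), lcf_IsOpen U →
    ∀ κ : ↥U → (PadicAlgCl q)ˣ, lcf_Smooth₁ U κ → IsMulCocycle₁ κ → (∀ g, κ g ^ p = 1) →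
      ∃ α : (PadicAlgCl q)ˣ, (∀ g : ↥U, g • (α ^ p) = α ^ p) ∧ ∀ g : ↥U, κ g = g • α / α

/-- **[KUM2]** Kummer theory in degree 2: a smooth 2-cocycle with values in `μ_p` which is a
smooth coboundary in `Ωˣ` is the coboundary of a smooth 1-cochain with values in `μ_p`
(`H²(K, μ_p) → Br(K)` is injective, by Hilbert 90). -/
def lcf_Kummer2Statement : Prop :=
  ∀ (q : ℕ) [Fact q.Prime] (p : ℕ) [Fact p.Prime] (U : Subgroup (lcf_Gal q)), lcf_IsOpen U →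
    ∀ f : ↥U × ↥U → (PadicAlgCl q)ˣ, (∀ x, f x ^ p = 1) → lcf_IsCob U f →
      ∃ b : ↥U → (PadicAlgCl q)ˣ, lcf_Smooth₁ U b ∧ (∀ g, b g ^ p = 1) ∧
        ∀ g h : ↥U, g • b h / b (g * h) * b g = f (g, h)

/-- **[H3-Ω]** `H³(K_U, Ωˣ) = 0`: every smooth 3-cocycle with values in `Ωˣ` is the coboundary
of a smooth 2-cochain.  (Finite level: `H³(Gal(L/K), Lˣ) ≅ H¹(Gal(L/K), ℤ) = 0` by Tate's
theorem for the class formation; Serre, Local Fields XIII §4 Cor. of Prop. 10 / CF VI 1.?.) -/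
def lcf_H3OmegaStatement : Prop :=
  ∀ (q : ℕ) [Fact q.Prime] (U : Subgroup (lcf_Gal q)), lcf_IsOpen U →
    ∀ z : ↥U × ↥U × ↥U → (PadicAlgCl q)ˣ, lcf_IsMulCocycle₃ U z → lcf_Smooth₃ U z →
      ∃ f : ↥U × ↥U → (PadicAlgCl q)ˣ, lcf_Smooth₂ U f ∧ lcf_d₂₃ U f = z

/-- **[H3-μ]** `H³(K_U, μ_p) = 0`: every smooth 3-cocycle with values in `μ_p` is the coboundary
of a smooth 2-cochain with values in `μ_p`.  (From [H3-Ω], the divisibility of `Br(K_U)`
(= (I1), (I2), (I5) of the invariant system) and the Kummer sequence.) -/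
def lcf_H3MuStatement : Prop :=
  ∀ (q : ℕ) [Fact q.Prime] (p : ℕ) [Fact p.Prime] (U : Subgroup (lcf_Gal q)), lcf_IsOpen U →
    ∀ z : ↥U × ↥U × ↥U → (PadicAlgCl q)ˣ, lcf_IsMulCocycle₃ U z → lcf_Smooth₃ U z →
      (∀ x, z x ^ p = 1) →
      ∃ f : ↥U × ↥U → (PadicAlgCl q)ˣ, lcf_Smooth₂ U f ∧ (∀ x, f x ^ p = 1) ∧ lcf_d₂₃ U f = z

/-- **[KRASNER]** local levels are global levels: every finite extension `E` of `ℚ_q` inside
`Ω` is contained in `ℚ_q · ι(F)` for a number field `F ⊂ ℚ̄` (`ι` the Prelude's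
`padicEmbedding`); in terms of Galois groups: the preimage of `Gal(ℚ̄/F)` under the Prelude's
`localGaloisToGlobal` fixes `E`.  (Krasner's lemma, Mathlib `IsKrasner`, + density of `ℚ` in
`ℚ_q`.)  Consequence: `lcf_Smooth` cochains = the Prelude's `IsLevelConstant` cochains. -/
def lcf_KrasnerStatement : Prop :=
  ∀ (q : ℕ) [Fact q.Prime] (E : IntermediateField ℚ_[q] (PadicAlgCl q)),
    FiniteDimensional ℚ_[q] E →
    ∃ F : IntermediateField ℚ (AlgebraicClosure ℚ), FiniteDimensional ℚ F ∧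
      ∀ τ : lcf_Gal q, localGaloisToGlobal q τ ∈ F.fixingSubgroup → τ ∈ E.fixingSubgroup

/-- **[KRASNER-CONV]** (easy converse) global levels are local levels. -/
def lcf_KrasnerConvStatement : Prop :=
  ∀ (q : ℕ) [Fact q.Prime] (F : IntermediateField ℚ (AlgebraicClosure ℚ)),
    FiniteDimensional ℚ F →
    ∃ E : IntermediateField ℚ_[q] (PadicAlgCl q), FiniteDimensional ℚ_[q] E ∧
      ∀ τ : lcf_Gal q, τ ∈ E.fixingSubgroup → localGaloisToGlobal q τ ∈ F.fixingSubgroup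

end Fermat.Agent.S55
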