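/-
S55 (wave 5), LOCAL side, leaf [H3-μ] (helper24).  Prefix `lh3m_`.

`lh3m_main : lcf_InvStatement → lcf_H3OmegaStatement → lcf_H3MuStatement`:
`H³(K_U, μ_p) = 0` from `H³(K_U, Ωˣ) = 0`, the divisibility of `Br(K_U)` and the Kummer sequence.

Proof.  Let `z` be a smooth 3-cocycle with values in `μ_p`.  By [H3-Ω] `z = d f` with `f` a smooth
2-cochain in `Ωˣ`; `f ^ p` is a smooth 2-cocycle, hence `f ^ p = h ^ p * d b` with `h` a smooth
2-cocycle and `b` a smooth 1-cochain (`Br` is divisible: (I1), (I2), (I5)).  Choose `p`-th roots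
`b'` of the (finitely many) values of `b`; then `f / (h * d b')` has values in `μ_p` and
coboundary `z`.
-/
import Mathlib
import Fermat.Agent.S55.Local.LDLeaves
import Fermat.Agent.S55.Local.H90

set_option autoImplicit false

noncomputable section

namespace Fermat.Agent.S55

open groupCohomology

variable {q : ℕ} [Fact q.Prime]

/-! ### Identities in the units of a field -/

theorem lh3m_units_d₂₃_mul {K : Type*} [Field K] (a b c d a' b' c' d' : Kˣ) :
    a * a' * (b * b') / (c * c' * (d * d')) = a * b / (c * d) * (a' * b' / (c' * d')) := by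
  apply Units.ext
  simp only [Units.val_mul, Units.val_div_eq_div_val]
  have := c.ne_zero; have := d.ne_zero; have := c'.ne_zero; have := d'.ne_zero
  field_simp

theorem lh3m_units_d₂₃_div {K : Type*} [Field K] (a b c d a' b' c' d' : Kˣ) :
    a / a' * (b / b') / (c / c' * (d / d')) = a * b / (c * d) / (a' * b' / (c' * d')) := by
  apply Units.ext
  simp only [Units.val_mul, Units.val_div_eq_div_val]
  have := c.ne_zero; have := d.ne_zero; have := c'.ne_zero; have := d'.ne_zero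
  have := a'.ne_zero; have := b'.ne_zero
  field_simp

/-- the identity behind `d ∘ d = 1`. -/
theorem lh3m_units_cancel {K : Type*} [Field K] (A B C D E F : Kˣ) :
    (A / B * C) * (B / D * E) / ((A / D * F) * (C / F * E)) = 1 := by
  apply Units.ext
  simp only [Units.val_mul, Units.val_div_eq_div_val, Units.val_one]
  have := A.ne_zero; have := B.ne_zero; have := C.ne_zero; have := D.ne_zero
  have := E.ne_zero; have := F.ne_zero
  field_simp

theorem lh3m_units_final {K : Type*} [Field K] (c h : Kˣ) : c / (h * (c / h)) = 1 := by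
  apply Units.ext
  simp only [Units.val_mul, Units.val_div_eq_div_val, Units.val_one]
  have := c.ne_zero; have := h.ne_zero
  field_simp

/-! ### Smooth cochains -/

/-- a smooth 1-cochain takes only finitely many values. -/
theorem lh3m_finite_range {X : Type*} {U : Subgroup (lcf_Gal q)} {b : ↥U → X}
    (hb : lcf_Smooth₁ U b) : (Set.range b).Finite := by
  obtain ⟨E, hE, h⟩ := hb
  have : FiniteDimensional ℚ_[q] ↥E := hE
  have hfin : Finite (↥E →ₐ[ℚ_[q]] PadicAlgCl q) := inferInstance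
  let φ : Set.range b → (↥E →ₐ[ℚ_[q]] PadicAlgCl q) :=
    fun x => lh90_res E ((x.2.choose : ↥U) : lcf_Gal q)
  have hφ : Function.Injective φ := by
    intro x y hxy
    apply Subtype.ext
    rw [← x.2.choose_spec, ← y.2.choose_spec]
    exact lh90_eq_of_res_eq h hxy
  have : Finite (Set.range b) := Finite.of_injective φ hφ
  exact Set.toFinite _

/-- a finite normal level containing a given level and a given finite set. -/
theorem lh3m_exists_normal (E : IntermediateField ℚ_[q] (PadicAlgCl q))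
    (hE : FiniteDimensional ℚ_[q] E) (V : Set (PadicAlgCl q)) (hV : V.Finite) :
    ∃ N : IntermediateField ℚ_[q] (PadicAlgCl q), FiniteDimensional ℚ_[q] N ∧ Normal ℚ_[q] N ∧
      E ≤ N ∧ V ⊆ N := by
  have : FiniteDimensional ℚ_[q] ↥E := hE
  have : Finite V := hV.to_subtype
  have hA : FiniteDimensional ℚ_[q] ↥(IntermediateField.adjoin ℚ_[q] V) :=
    IntermediateField.finiteDimensional_adjoin
      (fun x _ => Algebra.IsIntegral.isIntegral x)
  have hS : FiniteDimensional ℚ_[q] ↥(E ⊔ IntermediateField.adjoin ℚ_[q] V) :=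
    IntermediateField.finiteDimensional_sup E _
  refine ⟨IntermediateField.normalClosure ℚ_[q] ↥(E ⊔ IntermediateField.adjoin ℚ_[q] V)
    (PadicAlgCl q), inferInstance, inferInstance,
    le_sup_left.trans (IntermediateField.le_normalClosure _), ?_⟩
  intro x hx
  exact (le_sup_right.trans (IntermediateField.le_normalClosure _))
    (IntermediateField.subset_adjoin _ _ hx)

/-- the fixing subgroup of a normal subfield is stable under conjugation. -/
theorem lh3m_conj_mem (N : IntermediateField ℚ_[q] (PadicAlgCl q)) [hN : Normal ℚ_[q] N]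
    (h s : lcf_Gal q) (hs : s ∈ N.fixingSubgroup) : h⁻¹ * s * h ∈ N.fixingSubgroup := by
  rw [IntermediateField.mem_fixingSubgroup_iff] at hs ⊢
  intro x hx
  have hhx : h x ∈ N := by
    have := (IntermediateField.normal_iff_forall_map_le'.1 hN h)
    exact this ⟨x, hx, rfl⟩
  show h⁻¹ (s (h x)) = x
  rw [hs _ hhx]
  exact h.symm_apply_apply x

theorem lh3m_smooth₂_map₂ {X Y Z : Type*} (U : Subgroup (lcf_Gal q)) {f : ↥U × ↥U → X}
    {f' : ↥U × ↥U → Y} (hf : lcf_Smooth₂ U f) (hf' : lcf_Smooth₂ U f') (F : X → Y → Z) :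
    lcf_Smooth₂ U (fun x => F (f x) (f' x)) := by
  obtain ⟨E, hE, h⟩ := hf
  obtain ⟨E', hE', h'⟩ := hf'
  have : FiniteDimensional ℚ_[q] ↥E := hE
  have : FiniteDimensional ℚ_[q] ↥E' := hE'
  refine ⟨E ⊔ E', IntermediateField.finiteDimensional_sup E E', fun g g' s s' hs hs' => ?_⟩
  show F (f (g * s, g' * s')) (f' (g * s, g' * s')) = F (f (g, g')) (f' (g, g'))
  rw [h g g' s s' (IntermediateField.fixingSubgroup_antitone le_sup_left hs)
      (IntermediateField.fixingSubgroup_antitone le_sup_left hs'),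
    h' g g' s s' (IntermediateField.fixingSubgroup_antitone le_sup_right hs)
      (IntermediateField.fixingSubgroup_antitone le_sup_right hs')]

theorem lh3m_smooth₂_comp {X Y : Type*} (U : Subgroup (lcf_Gal q)) {f : ↥U × ↥U → X}
    (hf : lcf_Smooth₂ U f) (F : X → Y) : lcf_Smooth₂ U (fun x => F (f x)) := by
  obtain ⟨E, hE, h⟩ := hf
  exact ⟨E, hE, fun g g' s s' hs hs' => by
    show F (f (g * s, g' * s')) = F (f (g, g'))
    rw [h g g' s s' hs hs']⟩

theorem lh3m_smooth₁_comp {X Y : Type*} (U : Subgroup (lcf_Gal q)) {b : ↥U → X}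
    (hb : lcf_Smooth₁ U b) (F : X → Y) : lcf_Smooth₁ U (fun g => F (b g)) := by
  obtain ⟨E, hE, h⟩ := hb
  exact ⟨E, hE, fun g s hs => by show F (b (g * s)) = F (b g); rw [h g s hs]⟩

/-- the multiplicative coboundary of a 1-cochain. -/
def lh3m_d₁₂ (U : Subgroup (lcf_Gal q)) (b : ↥U → (PadicAlgCl q)ˣ) :
    ↥U × ↥U → (PadicAlgCl q)ˣ :=
  fun x => x.1 • b x.2 / b (x.1 * x.2) * b x.1

/-- the coboundary of a smooth 1-cochain is a smooth 2-cochain. -/
theorem lh3m_smooth_d₁₂ (U : Subgroup (lcf_Gal q)) {b : ↥U → (PadicAlgCl q)ˣ}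
    (hb : lcf_Smooth₁ U b) : lcf_Smooth₂ U (lh3m_d₁₂ U b) := by
  have hfin := lh3m_finite_range hb
  obtain ⟨E, hE, h⟩ := hb
  obtain ⟨N, hNf, hNn, hEN, hVN⟩ := lh3m_exists_normal E hE
    ((fun u : (PadicAlgCl q)ˣ => (u : PadicAlgCl q)) '' Set.range b) (hfin.image _)
  refine ⟨N, hNf, fun g g' s s' hs hs' => ?_⟩
  have hsE : (s : lcf_Gal q) ∈ E.fixingSubgroup := IntermediateField.fixingSubgroup_antitone hEN hs
  have hs'E : (s' : lcf_Gal q) ∈ E.fixingSubgroup :=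
    IntermediateField.fixingSubgroup_antitone hEN hs'
  -- `s` fixes the values of `b`
  have hfix : ∀ x : ↥U, s • b x = b x := by
    intro x
    apply Units.ext
    have hmem : ((b x : (PadicAlgCl q)ˣ) : PadicAlgCl q) ∈ N := hVN ⟨b x, ⟨x, rfl⟩, rfl⟩
    exact (IntermediateField.mem_fixingSubgroup_iff _ _).1 hs _ hmem
  -- conjugate of `s` by `g'`
  have hconj : ((g'⁻¹ * s * g' : ↥U) : lcf_Gal q) ∈ E.fixingSubgroup :=
    IntermediateField.fixingSubgroup_antitone hEN (lh3m_conj_mem N (g' : lcf_Gal q) s hs)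
  show (g * s) • b (g' * s') / b (g * s * (g' * s')) * b (g * s) =
    g • b g' / b (g * g') * b g
  have e1 : b (g' * s') = b g' := h g' s' hs'E
  have e2 : b (g * s) = b g := h g s hsE
  have e3 : b (g * s * (g' * s')) = b (g * g') := by
    have : g * s * (g' * s') = g * g' * (g'⁻¹ * s * g') * s' := by group
    rw [this, h _ s' hs'E, h _ _ hconj]
  rw [e1, e2, e3, mul_smul, hfix]

/-! ### Cocycle algebra -/

theorem lh3m_d₂₃_mul (U : Subgroup (lcf_Gal q)) (f f' : ↥U × ↥U → (PadicAlgCl q)ˣ) :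
    lcf_d₂₃ U (f * f') = lcf_d₂₃ U f * lcf_d₂₃ U f' := by
  funext x
  simp only [lcf_d₂₃, Pi.mul_apply, smul_mul']
  exact lh3m_units_d₂₃_mul _ _ _ _ _ _ _ _

theorem lh3m_d₂₃_div (U : Subgroup (lcf_Gal q)) (f f' : ↥U × ↥U → (PadicAlgCl q)ˣ) :
    lcf_d₂₃ U (f / f') = lcf_d₂₃ U f / lcf_d₂₃ U f' := by
  funext x
  simp only [lcf_d₂₃, Pi.div_apply, smul_div']
  exact lh3m_units_d₂₃_div _ _ _ _ _ _ _ _

theorem lh3m_d₂₃_one (U : Subgroup (lcf_Gal q)) :
    lcf_d₂₃ U (1 : ↥U × ↥U → (PadicAlgCl q)ˣ) = 1 := by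
  funext x
  simp [lcf_d₂₃]

theorem lh3m_d₂₃_pow (U : Subgroup (lcf_Gal q)) (f : ↥U × ↥U → (PadicAlgCl q)ˣ) (k : ℕ) :
    lcf_d₂₃ U (f ^ k) = lcf_d₂₃ U f ^ k := by
  induction k with
  | zero => rw [pow_zero, pow_zero, lh3m_d₂₃_one]
  | succ k ih => rw [pow_succ, pow_succ, lh3m_d₂₃_mul, ih]

theorem lh3m_isCocycle_iff (U : Subgroup (lcf_Gal q)) (f : ↥U × ↥U → (PadicAlgCl q)ˣ) :
    IsMulCocycle₂ f ↔ lcf_d₂₃ U f = 1 := by
  constructor
  · intro h
    funext ⟨g, g', j⟩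
    show g • f (g', j) * f (g, g' * j) / (f (g * g', j) * f (g, g')) = 1
    rw [div_eq_one]
    exact (h g g' j).symm
  · intro h g g' j
    have := congrFun h (g, g', j)
    change g • f (g', j) * f (g, g' * j) / (f (g * g', j) * f (g, g')) = 1 at this
    rw [div_eq_one] at this
    exact this.symm

theorem lh3m_d₂₃_d₁₂ (U : Subgroup (lcf_Gal q)) (b : ↥U → (PadicAlgCl q)ˣ) :
    lcf_d₂₃ U (lh3m_d₁₂ U b) = 1 := by
  funext ⟨g, h, j⟩
  show g • (h • b j / b (h * j) * b h) * (g • b (h * j) / b (g * (h * j)) * b g) /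
    (((g * h) • b j / b (g * h * j) * b (g * h)) * (g • b h / b (g * h) * b g)) = 1
  rw [smul_mul', smul_div', mul_smul, mul_assoc g h j]
  exact lh3m_units_cancel _ _ _ _ _ _

theorem lh3m_isCoc_mul {U : Subgroup (lcf_Gal q)} {f f' : ↥U × ↥U → (PadicAlgCl q)ˣ}
    (hf : lcf_IsCoc U f) (hf' : lcf_IsCoc U f') : lcf_IsCoc U (f * f') := by
  refine ⟨?_, lh3m_smooth₂_map₂ U hf.2 hf'.2 (fun a b => a * b)⟩
  rw [lh3m_isCocycle_iff, lh3m_d₂₃_mul, (lh3m_isCocycle_iff U f).1 hf.1,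
    (lh3m_isCocycle_iff U f').1 hf'.1, one_mul]

theorem lh3m_isCoc_div {U : Subgroup (lcf_Gal q)} {f f' : ↥U × ↥U → (PadicAlgCl q)ˣ}
    (hf : lcf_IsCoc U f) (hf' : lcf_IsCoc U f') : lcf_IsCoc U (f / f') := by
  refine ⟨?_, lh3m_smooth₂_map₂ U hf.2 hf'.2 (fun a b => a / b)⟩
  rw [lh3m_isCocycle_iff, lh3m_d₂₃_div, (lh3m_isCocycle_iff U f).1 hf.1,
    (lh3m_isCocycle_iff U f').1 hf'.1, div_one]

theorem lh3m_isCoc_one (U : Subgroup (lcf_Gal q)) :
    lcf_IsCoc U (1 : ↥U × ↥U → (PadicAlgCl q)ˣ) :=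
  ⟨(lh3m_isCocycle_iff U 1).2 (lh3m_d₂₃_one U), ⊥, inferInstance, fun _ _ _ _ _ _ => rfl⟩

theorem lh3m_isCoc_pow {U : Subgroup (lcf_Gal q)} {f : ↥U × ↥U → (PadicAlgCl q)ˣ}
    (hf : lcf_IsCoc U f) (k : ℕ) : lcf_IsCoc U (f ^ k) := by
  induction k with
  | zero => rw [pow_zero]; exact lh3m_isCoc_one U
  | succ k ih => rw [pow_succ]; exact lh3m_isCoc_mul ih hf

theorem lh3m_isCob_one (U : Subgroup (lcf_Gal q)) :
    lcf_IsCob U (1 : ↥U × ↥U → (PadicAlgCl q)ˣ) :=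
  ⟨fun _ => 1, ⟨⊥, inferInstance, fun _ _ _ => rfl⟩, fun g h => by simp⟩

/-! ### Consequences of the axioms of an invariant system -/

section Inv

variable {inv : lcf_InvType} (hinv : lcf_IsInvSystem inv)
include hinv

theorem lh3m_inv_one (U : Subgroup (lcf_Gal q)) (hU : lcf_IsOpen U) :
    inv q U (1 : ↥U × ↥U → (PadicAlgCl q)ˣ) = 0 :=
  (hinv.eq_zero_iff q U hU 1 (lh3m_isCoc_one U)).2 (lh3m_isCob_one U)

theorem lh3m_inv_pow (U : Subgroup (lcf_Gal q)) (hU : lcf_IsOpen U)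
    {f : ↥U × ↥U → (PadicAlgCl q)ˣ} (hf : lcf_IsCoc U f) (k : ℕ) :
    inv q U (f ^ k) = k • inv q U f := by
  induction k with
  | zero => rw [pow_zero, zero_smul]; exact lh3m_inv_one hinv U hU
  | succ k ih =>
    rw [pow_succ, hinv.add q U hU _ _ (lh3m_isCoc_pow hf k) hf, ih, succ_nsmul]

theorem lh3m_inv_div (U : Subgroup (lcf_Gal q)) (hU : lcf_IsOpen U)
    {f f' : ↥U × ↥U → (PadicAlgCl q)ˣ} (hf : lcf_IsCoc U f) (hf' : lcf_IsCoc U f') :
    inv q U (f / f') = inv q U f - inv q U f' := by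
  have h := hinv.add q U hU _ _ (lh3m_isCoc_div hf hf') hf'
  rw [div_mul_cancel] at h
  rw [h, add_sub_cancel_right]

end Inv

/-- `ℚ/ℤ` is divisible. -/
theorem lh3m_qz_divisible (n : ℕ) (hn : n ≠ 0) (t : lcf_QZ) : ∃ s : lcf_QZ, n • s = t := by
  obtain ⟨r, rfl⟩ := QuotientAddGroup.mk_surjective t
  refine ⟨lcf_qz (r / n), ?_⟩
  rw [← map_nsmul]
  have h : n • (r / (n : ℚ)) = r := by
    rw [nsmul_eq_mul]
    have : (n : ℚ) ≠ 0 := by exact_mod_cast hn
    field_simp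
  rw [h]
  rfl

/-- **divisibility of the Brauer group**: every smooth 2-cocycle is, up to a smooth coboundary,
an `n`-th power of a smooth 2-cocycle. -/
theorem lh3m_divisible {inv : lcf_InvType} (hinv : lcf_IsInvSystem inv)
    (U : Subgroup (lcf_Gal q)) (hU : lcf_IsOpen U) (n : ℕ) (hn : n ≠ 0)
    {c : ↥U × ↥U → (PadicAlgCl q)ˣ} (hc : lcf_IsCoc U c) :
    ∃ h : ↥U × ↥U → (PadicAlgCl q)ˣ, lcf_IsCoc U h ∧ lcf_IsCob U (c / h ^ n) := by
  obtain ⟨s, hs⟩ := lh3m_qz_divisible n hn (inv q U c)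
  obtain ⟨h, hh, hhs⟩ := hinv.surj q U hU s
  refine ⟨h, hh, (hinv.eq_zero_iff q U hU _ (lh3m_isCoc_div hc (lh3m_isCoc_pow hh n))).1 ?_⟩
  rw [lh3m_inv_div hinv U hU hc (lh3m_isCoc_pow hh n), lh3m_inv_pow hinv U hU hh, hhs, hs,
    sub_self]

/-! ### The main theorem -/

/-- a `p`-th root function on `Ωˣ`. -/
theorem lh3m_exists_root (p : ℕ) (hp : 0 < p) (x : (PadicAlgCl q)ˣ) :
    ∃ y : (PadicAlgCl q)ˣ, y ^ p = x := by
  obtain ⟨z, hz⟩ := IsAlgClosed.exists_pow_nat_eq (x : PadicAlgCl q) hp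
  have hz0 : z ≠ 0 := by
    rintro rfl
    rw [zero_pow hp.ne'] at hz
    exact x.ne_zero hz.symm
  refine ⟨Units.mk0 z hz0, ?_⟩
  apply Units.ext
  rw [Units.val_pow_eq_pow_val, Units.val_mk0, hz]

theorem lh3m_d₁₂_pow (U : Subgroup (lcf_Gal q)) (b : ↥U → (PadicAlgCl q)ˣ) (k : ℕ) :
    lh3m_d₁₂ U (fun g => b g ^ k) = lh3m_d₁₂ U b ^ k := by
  funext x
  show x.1 • (b x.2 ^ k) / b (x.1 * x.2) ^ k * b x.1 ^ k = (x.1 • b x.2 / b (x.1 * x.2) * b x.1) ^ k
  rw [mul_pow, div_pow, smul_pow']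

/-- **[H3-μ]** from an invariant system and [H3-Ω]. -/
theorem lh3m_of_inv {inv : lcf_InvType} (hinv : lcf_IsInvSystem inv)
    (hΩ : lcf_H3OmegaStatement) : lcf_H3MuStatement := by
  intro q _ p _ U hU z hz hzs hzp
  have hp0 : 0 < p := (Fact.out : p.Prime).pos
  obtain ⟨f, hfs, hfz⟩ := hΩ q U hU z hz hzs
  -- `c = f ^ p` is a smooth cocycle
  have hc : lcf_IsCoc U (f ^ p) := by
    refine ⟨?_, lh3m_smooth₂_comp U hfs (fun t => t ^ p)⟩
    rw [lh3m_isCocycle_iff, lh3m_d₂₃_pow, hfz]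
    funext x
    exact hzp x
  obtain ⟨h, hh, b, hb, hbc⟩ := lh3m_divisible hinv U hU p hp0.ne' hc
  -- `p`-th roots of the values of `b`
  let r : (PadicAlgCl q)ˣ → (PadicAlgCl q)ˣ := fun x => (lh3m_exists_root p hp0 x).choose
  have hr : ∀ x, r x ^ p = x := fun x => (lh3m_exists_root p hp0 x).choose_spec
  let b' : ↥U → (PadicAlgCl q)ˣ := fun g => r (b g)
  have hb' : lcf_Smooth₁ U b' := lh3m_smooth₁_comp U hb r
  have hdb' : lh3m_d₁₂ U b' ^ p = f ^ p / h ^ p := by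
    rw [← lh3m_d₁₂_pow]
    funext x
    show x.1 • (r (b x.2) ^ p) / r (b (x.1 * x.2)) ^ p * r (b x.1) ^ p = _
    rw [hr, hr, hr]
    exact hbc x.1 x.2
  refine ⟨f / (h * lh3m_d₁₂ U b'), ?_, fun x => ?_, ?_⟩
  · exact lh3m_smooth₂_map₂ U hfs
      (lh3m_smooth₂_map₂ U hh.2 (lh3m_smooth_d₁₂ U hb') (fun a b => a * b)) (fun a b => a / b)
  · have h1 := congrFun hdb' x
    show (f x / (h x * lh3m_d₁₂ U b' x)) ^ p = 1
    rw [div_pow, mul_pow]
    have h2 : lh3m_d₁₂ U b' x ^ p = f x ^ p / h x ^ p := h1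
    rw [h2]
    exact lh3m_units_final _ _
  · rw [lh3m_d₂₃_div, lh3m_d₂₃_mul, (lh3m_isCocycle_iff U h).1 hh.1, lh3m_d₂₃_d₁₂, hfz, mul_one,
      div_one]

/-- **[H3-μ]** -/
theorem lh3m_main : lcf_InvStatement → lcf_H3OmegaStatement → lcf_H3MuStatement :=
  fun ⟨_, hinv⟩ hΩ => lh3m_of_inv hinv hΩ

end Fermat.Agent.S55
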