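/-
S55 (wave 5), LOCAL side / BRIDGE: Krasner's lemma in the form "local levels = global levels".
Owner: helper23.  Prefix `kras_`.

* `kras_approx`    : every `α ∈ Ω = PadicAlgCl q` lies in `ℚ_q(ι b)` for some `b ∈ ℚ̄`
                     (`ι` the Prelude's `padicEmbedding`): Mathlib's Krasner lemma + continuity of
                     roots + density of `ℚ` in `ℚ_q`;
* `kras_main`      : [KRASNER]      `lcf_KrasnerStatement`;
* `kras_conv`      : [KRASNER-CONV] `lcf_KrasnerConvStatement`;
* `kras_br`        : `br_KrasnerStatement`;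
* `kras_finLevelL` : [FINLEVEL-L]   `br_FinLevelLStatement`;
* `kras_inflL`     : [INFL-L]       `br_InflLStatement`;
* `kras_smooth₁/₂/₃_of_level`, `kras_level_of_smooth₁/₂/₃` : the Prelude's level-constant cochains
  of the local Galois group are exactly the smooth ones.
-/
import Mathlib
import Fermat.Agent.S55.Local.LDLeaves
import Fermat.Agent.S55.Bridge.Defs

set_option autoImplicit false

namespace Fermat.Agent.S55

open Polynomial IntermediateField groupCohomology

/-- An automorphism fixing `x` fixes `K(x)` pointwise. -/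
theorem kras_fix_adjoin {K L : Type*} [Field K] [Field L] [Algebra K L] (τ : L ≃ₐ[K] L) (x : L)
    (hx : τ x = x) : τ ∈ (K⟮x⟯).fixingSubgroup := by
  rw [IntermediateField.mem_fixingSubgroup_iff]
  intro y hy
  have h : ((τ : L →ₐ[K] L).comp (K⟮x⟯).val) = (K⟮x⟯).val := by
    apply IntermediateField.adjoin_algHom_ext
    intro z hz
    rw [Set.mem_singleton_iff] at hz
    subst hz
    simpa using hx
  exact DFunLike.congr_fun h ⟨y, hy⟩

/-- An intermediate field with a primitive element `α` is `K(α)`. -/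
theorem kras_eq_adjoin {K L : Type*} [Field K] [Field L] [Algebra K L] (E : IntermediateField K L)
    (α : ↥E) (hα : K⟮α⟯ = ⊤) : E = K⟮(α : L)⟯ := by
  have h1 : IntermediateField.map E.val ⊤ = E := by
    rw [← AlgHom.fieldRange_eq_map, IntermediateField.fieldRange_val]
  have h2 : IntermediateField.map E.val (K⟮α⟯) = K⟮(α : L)⟯ := by
    rw [IntermediateField.adjoin_map]
    simp
  rw [hα, h1] at h2
  exact h2

variable (q : ℕ) [Fact q.Prime]

/-- `ℚ` is dense in `ℚ_q`. -/
theorem kras_denseRange : DenseRange (algebraMap ℚ ℚ_[q]) := by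
  have h : (algebraMap ℚ ℚ_[q] : ℚ → ℚ_[q]) = Rat.cast := by
    funext x
    exact eq_ratCast _ x
  rw [h]
  exact Padic.denseRange_ratCast q

/-- Every element of `PadicAlgCl q` that is algebraic over `ℚ` is in the range of the Prelude's
`padicEmbedding`. -/
theorem kras_mem_range (g : ℚ[X]) (hg : g ≠ 0) (β : PadicAlgCl q) (hβ : aeval β g = 0) :
    ∃ b : AlgebraicClosure ℚ, padicEmbedding q b = β := by
  have hs : (g.map (algebraMap ℚ (AlgebraicClosure ℚ))).Splits := IsAlgClosed.splits _
  have hroots := hs.roots_map (padicEmbedding q).toRingHom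
  have hmap : (g.map (algebraMap ℚ (AlgebraicClosure ℚ))).map (padicEmbedding q).toRingHom
      = g.map (algebraMap ℚ (PadicAlgCl q)) := by
    rw [Polynomial.map_map]
    congr 1
    exact Subsingleton.elim _ _
  rw [hmap] at hroots
  have hmem : β ∈ (g.map (algebraMap ℚ (PadicAlgCl q))).roots := by
    rw [Polynomial.mem_roots (Polynomial.map_ne_zero hg)]
    rw [Polynomial.IsRoot.def, Polynomial.eval_map_algebraMap]
    exact hβ
  rw [hroots, Multiset.mem_map] at hmem
  obtain ⟨b, _, hb⟩ := hmem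
  exact ⟨b, hb⟩

/-- A positive lower bound for the distance of `α` to its other conjugates. -/
theorem kras_sep (α : PadicAlgCl q) :
    ∃ δ : ℝ, 0 < δ ∧ ∀ a' : PadicAlgCl q, IsConjRoot ℚ_[q] α a' → α ≠ a' → δ ≤ ‖α - a'‖ := by
  classical
  have hint : IsIntegral ℚ_[q] α := Algebra.IsIntegral.isIntegral α
  set f := minpoly ℚ_[q] α with hf
  let S : Finset (PadicAlgCl q) := {x ∈ (f.rootSet (PadicAlgCl q)).toFinset | x ≠ α}
  by_cases hS : S.Nonempty
  · refine ⟨Finset.min' (S.image fun x => ‖α - x‖) (Finset.image_nonempty.mpr hS), ?_, ?_⟩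
    · simp only [Finset.lt_min'_iff, Finset.mem_image, forall_exists_index, and_imp,
        forall_apply_eq_imp_iff₂]
      rintro a' ha'
      simp only [Finset.mem_filter, Set.mem_toFinset, S] at ha'
      rw [norm_pos_iff, sub_ne_zero]
      exact ha'.2.symm
    · intro a' conj ne
      apply Finset.min'_le (S.image fun x => ‖α - x‖) (‖α - a'‖)
      apply Finset.mem_image_of_mem
      simp only [Finset.mem_filter, Set.mem_toFinset, S]
      rw [← (isConjRoot_iff_mem_minpoly_rootSet hint)]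
      exact ⟨conj, ne.symm⟩
  · refine ⟨1, one_pos, ?_⟩
    intro a' conj ne
    simp only [ne_eq, Finset.not_nonempty_iff_eq_empty, Finset.filter_eq_empty_iff,
      Set.mem_toFinset, not_not, S] at hS
    rw [isConjRoot_iff_mem_minpoly_rootSet hint] at conj
    exact (ne (hS conj).symm).elim

/-- **Approximation**: every element of `PadicAlgCl q` lies in `ℚ_q(ι b)` for some `b ∈ ℚ̄`. -/
theorem kras_approx (α : PadicAlgCl q) :
    ∃ b : AlgebraicClosure ℚ, α ∈ ℚ_[q]⟮padicEmbedding q b⟯ := by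
  classical
  have hint : IsIntegral ℚ_[q] α := Algebra.IsIntegral.isIntegral α
  set f := minpoly ℚ_[q] α with hf
  have fmon : f.Monic := minpoly.monic hint
  have fa0 : aeval α f = 0 := minpoly.aeval _ _
  have fnatdeg0 : f.natDegree ≠ 0 := (minpoly.natDegree_pos hint).ne'
  obtain ⟨δ, δpos, norm_sub_le⟩ := kras_sep q α
  have hε : (δ / (max ‖α‖ 1)) ^ f.natDegree / (f.natDegree + 1) > 0 := by positivity
  obtain ⟨g, gmon, gdeg, gcoeff⟩ :=
    exists_monic_and_natDegree_eq_and_norm_map_algebraMap_coeff_sub_lt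
      (kras_denseRange q) fmon hε
  obtain ⟨β, hβ, hab⟩ := exists_aroots_norm_sub_lt_of_norm_coeff_sub_lt
      hε fa0 fmon (gmon.map _) (gdeg ▸ (g.natDegree_map _)) gcoeff (IsAlgClosed.splits _)
  have hab : ‖α - β‖ < δ := by
    rw [← Real.rpow_natCast, ← mul_comm_div, div_self, one_mul,
        ← Real.rpow_mul (div_pos δpos (by positivity)).le, mul_inv_cancel₀] at hab
    · simpa [mul_assoc, div_mul_cancel₀ _ (by positivity : (max ‖α‖ 1) > 0).ne'] using hab
    · simp [fnatdeg0]
    · positivity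
  have hg0 : g ≠ 0 := gmon.ne_zero
  have hβ0 : aeval β g = 0 := by
    rw [Polynomial.mem_aroots] at hβ
    have := hβ.2
    rwa [Polynomial.aeval_map_algebraMap] at this
  obtain ⟨b, hb⟩ := kras_mem_range q g hg0 β hβ0
  refine ⟨b, ?_⟩
  rw [hb]
  have hβint : IsIntegral ℚ_[q] β := Algebra.IsIntegral.isIntegral β
  exact IsKrasner.krasner (minpoly.irreducible hint).separable (IsAlgClosed.splits _) hβint
    (fun a' h1 h2 => lt_of_lt_of_le hab (norm_sub_le a' h1 h2))

/-- The defining relation of `localGaloisToGlobal`, read backwards. -/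
theorem kras_loc_fix (b : AlgebraicClosure ℚ) (τ : lcf_Gal q)
    (h : τ (padicEmbedding q b) = padicEmbedding q b) : localGaloisToGlobal q τ b = b := by
  apply (padicEmbedding q).toRingHom.injective
  show padicEmbedding q (localGaloisToGlobal q τ b) = padicEmbedding q b
  rw [padicEmbedding_localGaloisToGlobal, h]

/-- **[KRASNER-CONV]** global levels are local levels. -/
theorem kras_conv : lcf_KrasnerConvStatement := by
  intro q _ F hF
  have := hF
  obtain ⟨b, hb⟩ := Field.exists_primitive_element ℚ ↥F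
  have hFb : F = ℚ⟮(b : AlgebraicClosure ℚ)⟯ := kras_eq_adjoin F b hb
  have hint : IsIntegral ℚ_[q] (padicEmbedding q (b : AlgebraicClosure ℚ)) :=
    Algebra.IsIntegral.isIntegral _
  refine ⟨ℚ_[q]⟮padicEmbedding q (b : AlgebraicClosure ℚ)⟯,
    IntermediateField.adjoin.finiteDimensional hint, ?_⟩
  intro τ hτ
  rw [hFb]
  apply kras_fix_adjoin
  apply kras_loc_fix
  rw [IntermediateField.mem_fixingSubgroup_iff] at hτ
  exact hτ _ (IntermediateField.mem_adjoin_simple_self _ _)

/-- **[KRASNER]** local levels are global levels. -/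
theorem kras_main : lcf_KrasnerStatement := by
  intro q _ E hE
  have := hE
  obtain ⟨α, hα⟩ := Field.exists_primitive_element ℚ_[q] ↥E
  have hEα : E = ℚ_[q]⟮(α : PadicAlgCl q)⟯ := kras_eq_adjoin E α hα
  obtain ⟨b, hb⟩ := kras_approx q (α : PadicAlgCl q)
  have hint : IsIntegral ℚ b :=
    ((AlgebraicClosure.isAlgebraic ℚ).isAlgebraic b).isIntegral
  refine ⟨ℚ⟮b⟯, IntermediateField.adjoin.finiteDimensional hint, ?_⟩
  intro τ hτ
  rw [IntermediateField.mem_fixingSubgroup_iff] at hτ
  have h1 : localGaloisToGlobal q τ b = b := hτ b (IntermediateField.mem_adjoin_simple_self _ _)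
  have h2 : τ (padicEmbedding q b) = padicEmbedding q b := by
    rw [← padicEmbedding_localGaloisToGlobal, h1]
  have h3 : τ ∈ (ℚ_[q]⟮padicEmbedding q b⟯).fixingSubgroup := kras_fix_adjoin τ _ h2
  rw [IntermediateField.mem_fixingSubgroup_iff] at h3
  rw [hEα]
  exact kras_fix_adjoin τ _ (h3 _ hb)

/-- **[KRASNER]**, bridge form. -/
theorem kras_br : br_KrasnerStatement := kras_main

/-- A finite normal extension of `ℚ_q` containing `E₀` whose fixing subgroup maps into the
fixing subgroup of `F`. -/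
theorem kras_cover (E₀ : IntermediateField ℚ_[q] (PadicAlgCl q)) [FiniteDimensional ℚ_[q] E₀]
    (F : IntermediateField ℚ (AlgebraicClosure ℚ)) [FiniteDimensional ℚ F] :
    ∃ E : IntermediateField ℚ_[q] (PadicAlgCl q), Normal ℚ_[q] E ∧ FiniteDimensional ℚ_[q] E ∧
      E₀ ≤ E ∧
      ∀ τ : lcf_Gal q, τ ∈ E.fixingSubgroup → localGaloisToGlobal q τ ∈ F.fixingSubgroup := by
  obtain ⟨E₁, hE₁, h₁⟩ := kras_conv q F inferInstance
  have := hE₁
  refine ⟨normalClosure ℚ_[q] ↥(E₀ ⊔ E₁) (PadicAlgCl q), inferInstance, inferInstance, ?_, ?_⟩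
  · exact le_sup_left.trans (IntermediateField.le_normalClosure _)
  · intro τ hτ
    apply h₁
    exact IntermediateField.fixingSubgroup_antitone
      (le_sup_right.trans (IntermediateField.le_normalClosure _)) hτ

/-- Two elements with the same restriction to `E` differ by an element fixing `E`. -/
theorem kras_res_eq (E : IntermediateField ℚ_[q] (PadicAlgCl q)) [Normal ℚ_[q] E]
    (g g' : br_Gq q) (h : br_resq q E g = br_resq q E g') : g⁻¹ * g' ∈ E.fixingSubgroup := by
  rw [← IntermediateField.restrictNormalHom_ker, MonoidHom.mem_ker, map_mul, map_inv]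
  show (br_resq q E g)⁻¹ * br_resq q E g' = 1
  rw [h, inv_mul_cancel]

/-- Restriction to `E` is invariant under right multiplication by elements fixing `E`. -/
theorem kras_res_mul (E : IntermediateField ℚ_[q] (PadicAlgCl q)) [Normal ℚ_[q] E]
    (g s : br_Gq q) (h : s ∈ E.fixingSubgroup) : br_resq q E (g * s) = br_resq q E g := by
  rw [← IntermediateField.restrictNormalHom_ker, MonoidHom.mem_ker] at h
  rw [map_mul]
  show br_resq q E g * AlgEquiv.restrictNormalHom E s = _
  rw [h, mul_one]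

/-- Restriction to a normal subfield is surjective. -/
theorem kras_res_surj (E : IntermediateField ℚ_[q] (PadicAlgCl q)) [Normal ℚ_[q] E] :
    Function.Surjective (br_resq q E) :=
  AlgEquiv.restrictNormalHom_surjective _

/-- The chosen lift of `res g` differs from `g` by an element of the fixing subgroup. -/
theorem kras_lift (E : IntermediateField ℚ_[q] (PadicAlgCl q)) [Normal ℚ_[q] E] (g : br_Gq q) :
    ∃ s : br_Gq q, s ∈ E.fixingSubgroup ∧
      Function.surjInv (kras_res_surj q E) (br_resq q E g) = g * s := by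
  refine ⟨g⁻¹ * Function.surjInv (kras_res_surj q E) (br_resq q E g), ?_, ?_⟩
  · exact kras_res_eq q E g _ (Function.surjInv_eq (kras_res_surj q E) _).symm
  · rw [mul_inv_cancel_left]

/-- **[FINLEVEL-L]** continuous local cochains factor through finite Galois quotients. -/
theorem kras_finLevelL : br_FinLevelLStatement := by
  intro q _ X E₀ hE₀
  have := hE₀
  refine ⟨?_, ?_, ?_⟩
  · rintro c ⟨F, hF, hc⟩
    have := hF
    obtain ⟨E, hEn, hEf, hle, hfix⟩ := kras_cover q E₀ F
    refine ⟨E, hEn, fun σ => c (Function.surjInv (kras_res_surj q E) σ), hle, hEf, ?_⟩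
    intro g
    obtain ⟨s, hs, hgs⟩ := kras_lift q E g
    show c g = c (Function.surjInv (kras_res_surj q E) (br_resq q E g))
    rw [hgs]
    exact (hc g s (hfix s hs)).symm
  · rintro c ⟨F, hF, hc⟩
    have := hF
    obtain ⟨E, hEn, hEf, hle, hfix⟩ := kras_cover q E₀ F
    refine ⟨E, hEn, fun σ => c (Function.surjInv (kras_res_surj q E) σ.1,
      Function.surjInv (kras_res_surj q E) σ.2), hle, hEf, ?_⟩
    intro g h
    obtain ⟨s, hs, hgs⟩ := kras_lift q E g
    obtain ⟨s', hs', hgs'⟩ := kras_lift q E h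
    show c (g, h) = c (Function.surjInv (kras_res_surj q E) (br_resq q E g),
      Function.surjInv (kras_res_surj q E) (br_resq q E h))
    rw [hgs, hgs']
    exact (hc g h s s' (hfix s hs) (hfix s' hs')).symm
  · rintro c ⟨F, hF, hc⟩
    have := hF
    obtain ⟨E, hEn, hEf, hle, hfix⟩ := kras_cover q E₀ F
    refine ⟨E, hEn, fun σ => c (Function.surjInv (kras_res_surj q E) σ.1,
      Function.surjInv (kras_res_surj q E) σ.2.1,
      Function.surjInv (kras_res_surj q E) σ.2.2), hle, hEf, ?_⟩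
    intro g h j
    obtain ⟨s, hs, hgs⟩ := kras_lift q E g
    obtain ⟨s', hs', hgs'⟩ := kras_lift q E h
    obtain ⟨s'', hs'', hgs''⟩ := kras_lift q E j
    show c (g, h, j) = c (Function.surjInv (kras_res_surj q E) (br_resq q E g),
      Function.surjInv (kras_res_surj q E) (br_resq q E h),
      Function.surjInv (kras_res_surj q E) (br_resq q E j))
    rw [hgs, hgs', hgs'']
    exact (hc g h j s s' s'' (hfix s hs) (hfix s' hs') (hfix s'' hs'')).symm

/-- **[INFL-L]** inflations from finite Galois quotients are continuous in the Prelude's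
sense. -/
theorem kras_inflL : br_InflLStatement := by
  intro q _ X E hEn hEf
  obtain ⟨F, hF, hfix⟩ := kras_main q E hEf
  refine ⟨?_, ?_, ?_⟩
  · intro c'
    refine ⟨F, hF, ?_⟩
    intro g s hs
    show c' (br_resq q E (g * s)) = c' (br_resq q E g)
    rw [kras_res_mul q E g s (hfix s hs)]
  · intro c'
    refine ⟨F, hF, ?_⟩
    intro g g' s s' hs hs'
    show c' (br_resq q E (g * s), br_resq q E (g' * s')) = c' (br_resq q E g, br_resq q E g')
    rw [kras_res_mul q E g s (hfix s hs), kras_res_mul q E g' s' (hfix s' hs')]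
  · intro c'
    refine ⟨F, hF, ?_⟩
    intro g g' g'' s s' s'' hs hs' hs''
    show c' (br_resq q E (g * s), br_resq q E (g' * s'), br_resq q E (g'' * s'')) =
      c' (br_resq q E g, br_resq q E g', br_resq q E g'')
    rw [kras_res_mul q E g s (hfix s hs), kras_res_mul q E g' s' (hfix s' hs'),
      kras_res_mul q E g'' s'' (hfix s'' hs'')]

section Smooth

variable {q}
variable {X : Type*}

/-- The Prelude's level-constant 1-cochains of the local Galois group are smooth on every
subgroup. -/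
theorem kras_smooth₁_of_level (U : Subgroup (lcf_Gal q)) (c : lcf_Gal q → X)
    (hc : IsLevelConstant₁ (localGaloisToGlobal q) c) :
    lcf_Smooth₁ U (fun g : ↥U => c (g : lcf_Gal q)) := by
  obtain ⟨F, hF, h⟩ := hc
  obtain ⟨E, hE, hfix⟩ := kras_conv q F hF
  exact ⟨E, hE, fun g s hs => h g s (hfix s hs)⟩

/-- Smooth 1-cochains on the full local Galois group are level-constant in the Prelude's
sense. -/
theorem kras_level_of_smooth₁ (c : lcf_Gal q → X)
    (hc : lcf_Smooth₁ (⊤ : Subgroup (lcf_Gal q)) (fun g => c (g : lcf_Gal q))) :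
    IsLevelConstant₁ (localGaloisToGlobal q) c := by
  obtain ⟨E, hE, h⟩ := hc
  obtain ⟨F, hF, hfix⟩ := kras_main q E hE
  exact ⟨F, hF, fun g s hs => h ⟨g, Subgroup.mem_top g⟩ ⟨s, Subgroup.mem_top s⟩ (hfix s hs)⟩

theorem kras_smooth₂_of_level (U : Subgroup (lcf_Gal q)) (c : lcf_Gal q × lcf_Gal q → X)
    (hc : IsLevelConstant₂ (localGaloisToGlobal q) c) :
    lcf_Smooth₂ U (fun x : ↥U × ↥U => c ((x.1 : lcf_Gal q), (x.2 : lcf_Gal q))) := by
  obtain ⟨F, hF, h⟩ := hc
  obtain ⟨E, hE, hfix⟩ := kras_conv q F hF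
  exact ⟨E, hE, fun g g' s s' hs hs' => h g g' s s' (hfix s hs) (hfix s' hs')⟩

theorem kras_level_of_smooth₂ (c : lcf_Gal q × lcf_Gal q → X)
    (hc : lcf_Smooth₂ (⊤ : Subgroup (lcf_Gal q))
      (fun x => c ((x.1 : lcf_Gal q), (x.2 : lcf_Gal q)))) :
    IsLevelConstant₂ (localGaloisToGlobal q) c := by
  obtain ⟨E, hE, h⟩ := hc
  obtain ⟨F, hF, hfix⟩ := kras_main q E hE
  exact ⟨F, hF, fun g g' s s' hs hs' =>
    h ⟨g, Subgroup.mem_top g⟩ ⟨g', Subgroup.mem_top g'⟩ ⟨s, Subgroup.mem_top s⟩
      ⟨s', Subgroup.mem_top s'⟩ (hfix s hs) (hfix s' hs')⟩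

theorem kras_smooth₃_of_level (U : Subgroup (lcf_Gal q))
    (c : lcf_Gal q × lcf_Gal q × lcf_Gal q → X)
    (hc : pt_IsLevel₃ (localGaloisToGlobal q) c) :
    lcf_Smooth₃ U (fun x : ↥U × ↥U × ↥U =>
      c ((x.1 : lcf_Gal q), (x.2.1 : lcf_Gal q), (x.2.2 : lcf_Gal q))) := by
  obtain ⟨F, hF, h⟩ := hc
  obtain ⟨E, hE, hfix⟩ := kras_conv q F hF
  exact ⟨E, hE, fun g g' g'' s s' s'' hs hs' hs'' =>
    h g g' g'' s s' s'' (hfix s hs) (hfix s' hs') (hfix s'' hs'')⟩

theorem kras_level_of_smooth₃ (c : lcf_Gal q × lcf_Gal q × lcf_Gal q → X)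
    (hc : lcf_Smooth₃ (⊤ : Subgroup (lcf_Gal q))
      (fun x => c ((x.1 : lcf_Gal q), (x.2.1 : lcf_Gal q), (x.2.2 : lcf_Gal q)))) :
    pt_IsLevel₃ (localGaloisToGlobal q) c := by
  obtain ⟨E, hE, h⟩ := hc
  obtain ⟨F, hF, hfix⟩ := kras_main q E hE
  exact ⟨F, hF, fun g g' g'' s s' s'' hs hs' hs'' =>
    h ⟨g, Subgroup.mem_top g⟩ ⟨g', Subgroup.mem_top g'⟩ ⟨g'', Subgroup.mem_top g''⟩
      ⟨s, Subgroup.mem_top s⟩ ⟨s', Subgroup.mem_top s'⟩ ⟨s'', Subgroup.mem_top s''⟩
      (hfix s hs) (hfix s' hs') (hfix s'' hs'')⟩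

end Smooth

end Fermat.Agent.S55
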