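/-
S55 (wave 5), LOCAL side: the CUT of local Tate duality [LD1] (`ld_LD1Statement`) and of the
local cohomological dimension [LCD] (`pt_LCDStatement`).  Owner of the interface: helper3.
Prefixes `ld1_`, `lcd_`.  Definitions and closed Props only.

GENERIC LOCAL SETTING: a group `H` with a homomorphism `r : H →* G_ℚ` (for the application:
`H = Gal(Ω/ℚ_q) = extArithLocalGroups S (Sum.inr q)`, `r = extArithLoc S (Sum.inr q)`),
`X : Rep (ZMod p) H` an ARBITRARY `H`-module (not necessarily restricted from `G_ℚ`);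
continuity = the Prelude's `IsLevelConstant r`.

* `ld1_T r = F_p(1)`, `ld1_D r X = X^*(1)` (Tate dual), `ld1_ev r X : X × X^*(1) → F_p(1)`;
* `ld1_Adm r X` : `X` is smooth;
* `ld1_IsPair11 r τ X P` : `P : H¹(X) → Dual H¹(X^*(1))` is `(x, y) ↦ τ [x ∪ y]`;
  `ld1_IsPair20 r τ X P` : `P : H²(X) → Dual H⁰(X^*(1))` is `(c, m) ↦ τ [c ∪ m]`,
  for a functional `τ : H²_cts(H, F_p(1)) → F_p` (the invariant map);
* `ld1_Surj11`, `ld1_Bij20` : such `P` exist and are surjective resp. bijective;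
* `ld1_CoverBase r τ` : every smooth finite `X` is a quotient of a smooth finite `I` with
  `ld1_Surj11` and `ld1_Bij20` (in the proof: `I = Ind_V^H F_p^d`, `V` open, trivial on `X, μ_p`).

PACKAGES:
* [L-DEV]  `ld1_DevStatement`  (generic, pure cochain algebra): `ld1_CoverBase → ∀ X, ld1_Surj11`;
* [L-BASE] `ld1_BaseStatement` (arithmetic + Shapiro): `ld1_CoverBase` for the local Galois
  groups and the invariant maps induced by a local invariant system;
* [L-ASM]  `ld1_AsmStatement`  : [L-DEV] + [L-BASE] ⇒ `ld_LD1Statement`;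
* [LCD-DEV] `lcd_DevStatement` (generic): `H³`-vanishing for the permutation modules
  `F_p[H/P]` (`P` open, trivial on `μ_p`) ⇒ `H³`-vanishing for all smooth finite `X`;
* [LCD-BASE] `lcd_BaseStatement` (Shapiro + [H3-μ]); [LCD-ASM] `lcd_AsmStatement`.
-/
import Fermat.Agent.S55.Local.LDLeaves
import Fermat.Agent.S55.Local.LDDefs
import Fermat.Agent.S55.PTDev
import Fermat.Agent.S55.Dev.Push

set_option autoImplicit false
set_option maxHeartbeats 1000000
set_option synthInstance.maxHeartbeats 400000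

noncomputable section

namespace Fermat.Agent.S55

open CategoryTheory Module groupCohomology ExtCitation

section Generic

variable {p : ℕ} [Fact p.Prime] {H : Type} [Group H] (r : H →* s55_GQ)

/-- The local `F_p(1)`. -/
abbrev ld1_T : Rep.{0, 0, 0} (ZMod p) H := Rep.res r (pt_T p)

/-- The local Tate dual `X^*(1)`. -/
abbrev ld1_D (X : Rep.{0, 0, 0} (ZMod p) H) : Rep.{0, 0, 0} (ZMod p) H :=
  X.dualTwist ((cycloChar p).comp r)

/-- The evaluation pairing `X × X^*(1) → F_p(1)`. -/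
def ld1_ev (X : Rep.{0, 0, 0} (ZMod p) H) :
    X →ₗ[ZMod p] ld1_D r X →ₗ[ZMod p] ld1_T (p := p) r :=
  (LinearMap.id : Module.Dual (ZMod p) X →ₗ[ZMod p] Module.Dual (ZMod p) X).flip

lemma ld1_ev_apply (X : Rep.{0, 0, 0} (ZMod p) H) (x : X) (f : ld1_D r X) :
    ld1_ev r X x f = (show Module.Dual (ZMod p) X from f) x := rfl

/-- Smooth local modules. -/
def ld1_Adm (X : Rep.{0, 0, 0} (ZMod p) H) : Prop :=
  ∀ x : X, ∃ F : IntermediateField ℚ (AlgebraicClosure ℚ), FiniteDimensional ℚ F ∧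
    ∀ s : H, r s ∈ F.fixingSubgroup → X.ρ s x = x

/-- The type of invariant functionals `H²_cts(H, F_p(1)) → F_p`. -/
abbrev ld1_Tau (p : ℕ) [Fact p.Prime] {H : Type} [Group H] (r : H →* s55_GQ) : Type :=
  continuousH2 r (ld1_T (p := p) r) →ₗ[ZMod p] ZMod p

/-- The class in the continuous `H¹` of a continuous 1-cocycle. -/
def ld1_cls1 (X : Rep.{0, 0, 0} (ZMod p) H) (z : H → X) (hz : z ∈ cocycles₁ X)
    (hl : IsLevelConstant₁ r z) : ↥(continuousH1 r X) :=
  ⟨(H1π X).hom ⟨z, hz⟩, (mem_continuousH1_iff r X _).2 ⟨⟨z, hz⟩, hl, rfl⟩⟩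

/-- `P` is the cup product pairing in degrees `(1,1)` followed by `τ`. -/
def ld1_IsPair11 (τ : ld1_Tau p r) (X : Rep.{0, 0, 0} (ZMod p) H)
    (P : ↥(continuousH1 r X) →ₗ[ZMod p]
      Module.Dual (ZMod p) ↥(continuousH1 r (ld1_D r X))) : Prop :=
  ∀ (z : H → X) (hz : z ∈ cocycles₁ X) (hzl : IsLevelConstant₁ r z)
    (y : H → ld1_D r X) (hy : y ∈ cocycles₁ (ld1_D r X)) (hyl : IsLevelConstant₁ r y)
    (hcoc : cup₁₁ (ld1_ev r X) z y ∈ levelCocycles₂ r (ld1_T (p := p) r)),
    P (ld1_cls1 r X z hz hzl) (ld1_cls1 r (ld1_D r X) y hy hyl) =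
      τ (continuousH2π _ _ ⟨_, hcoc⟩)

/-- `P` is the cup product pairing in degrees `(2,0)` followed by `τ`. -/
def ld1_IsPair20 (τ : ld1_Tau p r) (X : Rep.{0, 0, 0} (ZMod p) H)
    (P : continuousH2 r X →ₗ[ZMod p]
      Module.Dual (ZMod p) ↥((ld1_D r X).ρ.invariants)) : Prop :=
  ∀ (c : ↥(levelCocycles₂ r X)) (m : ↥((ld1_D r X).ρ.invariants))
    (hcoc : cup₂₀ (ld1_ev r X) (c : H × H → X) (m.1 : ld1_D r X) ∈
      levelCocycles₂ r (ld1_T (p := p) r)),
    P (continuousH2π _ _ c) m = τ (continuousH2π _ _ ⟨_, hcoc⟩)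

/-- Local duality in degrees `(1,1)` for `X`, weak form: the pairing map
`H¹(X) → Dual H¹(X^*(1))` exists and is surjective. -/
def ld1_Surj11 (τ : ld1_Tau p r) (X : Rep.{0, 0, 0} (ZMod p) H) : Prop :=
  ∃ P : ↥(continuousH1 r X) →ₗ[ZMod p] Module.Dual (ZMod p) ↥(continuousH1 r (ld1_D r X)),
    ld1_IsPair11 r τ X P ∧ Function.Surjective P

/-- Local duality in degrees `(2,0)` for `X`: the pairing map `H²(X) → Dual H⁰(X^*(1))` exists
and is bijective. -/
def ld1_Bij20 (τ : ld1_Tau p r) (X : Rep.{0, 0, 0} (ZMod p) H) : Prop :=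
  ∃ P : continuousH2 r X →ₗ[ZMod p] Module.Dual (ZMod p) ↥((ld1_D r X).ρ.invariants),
    ld1_IsPair20 r τ X P ∧ Function.Bijective P

/-- Every smooth finite module is a quotient of a smooth finite module for which local duality
holds in degrees `(1,1)` (surjectivity) and `(2,0)` (bijectivity). -/
def ld1_CoverBase (τ : ld1_Tau p r) : Prop :=
  ∀ (X : Rep.{0, 0, 0} (ZMod p) H) [FiniteDimensional (ZMod p) X], ld1_Adm r X →
    ∃ (I : Rep.{0, 0, 0} (ZMod p) H) (_ : FiniteDimensional (ZMod p) I) (f : I →ₗ[ZMod p] X),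
      ld1_Adm r I ∧ dev_Eqv f ∧ Function.Surjective f ∧ ld1_Surj11 r τ I ∧ ld1_Bij20 r τ I

/-- `H³`-vanishing for one local module: every continuous 3-cocycle is the coboundary of a
continuous 2-cochain. -/
def lcd_Van (X : Rep.{0, 0, 0} (ZMod p) H) : Prop :=
  ∀ z : H × H × H → X, pt_IsLevel₃ r z → pt_IsCocycle₃ X z →
    ∃ a : H × H → X, IsLevelConstant₂ r a ∧ (d₂₃ X).hom a = z

/-- Open subgroups of `H` (with respect to `r`). -/
def ld1_IsOpenSub (P : Subgroup H) : Prop :=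
  ∃ F : IntermediateField ℚ (AlgebraicClosure ℚ), FiniteDimensional ℚ F ∧
    ∀ s : H, r s ∈ F.fixingSubgroup → s ∈ P

end Generic

/-- **[L-DEV]** (generic local devissage, pure cochain algebra; Serre CG II.5.2): if every
smooth finite module has a cover by a module with `ld1_Surj11` and `ld1_Bij20`, then
`ld1_Surj11` holds for every smooth finite module.
PROOF (four-lemma): `0 → N -ι→ I -f→ X → 0`, dual sequence `0 → X' -f'→ I' -ι'→ N' → 0`.
Given `ψ ∈ Dual H¹(X')`: (1) `P²_N` is onto (cover of `N`, naturality, `H⁰(N') ↪ H⁰(I_N')`), so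
`ψ ∘ δ' = P²_N ν`, `δ' : H⁰(N') → H¹(X')` the connecting map; (2) `P²_I (ι ν) = 0` (naturality,
`δ' ∘ ι' = 0`), hence `ι ∘ n = d b̃` (`P²_I` injective), `z := f ∘ b̃` is a continuous cocycle of
`X`; (3) adjointness `τ [n ∪ m] = τ [z ∪ y_m]` (`n ∪ m - z ∪ y_m = d (b̃ ∪ m̃)`, `cup_d₁₀`), so
`ψ - P¹_X [z]` kills `im δ' = ker (H¹(X') → H¹(I'))`, hence `= χ ∘ f'_*`, `χ = P¹_I u`
(`P¹_I` onto), and `ψ = P¹_X ([z] + f_* u)` (naturality). -/
def ld1_DevStatement : Prop :=
  ∀ {p : ℕ} [Fact p.Prime] (H : Type) [Group H] (r : H →* s55_GQ) (τ : ld1_Tau p r),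
    ld1_CoverBase r τ →
    ∀ (X : Rep.{0, 0, 0} (ZMod p) H) [FiniteDimensional (ZMod p) X], ld1_Adm r X →
      ld1_Surj11 r τ X

/-- **[L-BASE]** (arithmetic + Shapiro): the local Galois group at `q`, with the invariant map
induced by a local invariant system, has `ld1_CoverBase`.
(`I = Ind_V^H F_p^d`; Shapiro in degrees 1, 2; `inv ∘ cor = inv` from (I1), (I2), (I3), (I5);
over `V`: `H²(V, μ_p) = Br(K_V)[p] ≅ F_p` by [KUM2], (I2), (I5); `H¹(V, μ_p) = K_Vˣ/p` by [KUM1],
finite by [FIN-KP], and `(χ, a) ↦ inv (a ^ δχ)` is left non-degenerate by [HILB-L].) -/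
def ld1_BaseStatement : Prop :=
  ∀ (inv : lcf_InvType) (ptinv : pt_InvFamily), lcf_IsInvSystem inv → ld_Compat inv ptinv →
    ∀ {p : ℕ} [Fact p.Prime], p ≠ 2 → ∀ (S : Finset Nat.Primes) (q : ↥S),
      ld1_CoverBase (extArithLoc S (Sum.inr q : extArithIndex S)) (ptinv p S (Sum.inr q))

/-- **[L-ASM]** assembly of [LD1]: transport from `ld1_D r (Rep.res r M)` to
`Rep.res r (M.dualTwist (cycloChar p))` (same carrier, same action), the archimedean place
(`H¹ = 0`, `H² = 0` for `p` odd: `Local/Arch.lean`), and the product over the places. -/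
def ld1_AsmStatement : Prop :=
  ld1_DevStatement → ld1_BaseStatement → ld_LD1Statement

/-- **[LCD-DEV]** (generic, pure cochain algebra = the local form of [H3-OF]): Sylow + flag.
If `H³` vanishes for the permutation modules `F_p[H/P]`, `P` open and trivial on `μ_p`, then
it vanishes for every smooth finite module. -/
def lcd_DevStatement : Prop :=
  ∀ {p : ℕ} [Fact p.Prime] (H : Type) [Group H] (r : H →* s55_GQ),
    (∀ P : Subgroup H, ld1_IsOpenSub r P → (∀ s ∈ P, cycloChar p (r s) = 1) →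
      lcd_Van r (Rep.ofMulAction (ZMod p) H (H ⧸ P))) →
    ∀ (X : Rep.{0, 0, 0} (ZMod p) H) [FiniteDimensional (ZMod p) X], ld1_Adm r X → lcd_Van r X

/-- **[LCD-BASE]** (Shapiro in degree 3 + [H3-μ]): `H³(ℚ_q, F_p[H/P]) = H³(P, F_p) = 0` for
every open subgroup `P` of the local Galois group which fixes `μ_p`. -/
def lcd_BaseStatement : Prop :=
  ∀ {p : ℕ} [Fact p.Prime], p ≠ 2 → ∀ (S : Finset Nat.Primes) (q : ↥S)
    (P : Subgroup (extArithLocalGroups S (Sum.inr q : extArithIndex S))),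
    ld1_IsOpenSub (extArithLoc S (Sum.inr q : extArithIndex S)) P →
    (∀ s ∈ P, cycloChar p (extArithLoc S (Sum.inr q : extArithIndex S) s) = 1) →
    lcd_Van (extArithLoc S (Sum.inr q : extArithIndex S))
      (Rep.ofMulAction (ZMod p) (extArithLocalGroups S (Sum.inr q : extArithIndex S))
        (extArithLocalGroups S (Sum.inr q : extArithIndex S) ⧸ P))

/-- **[LCD-BASE-OF]** [H3-μ] ⇒ [LCD-BASE]. -/
def lcd_BaseOfStatement : Prop := lcf_H3MuStatement → lcd_BaseStatement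

/-- **[LCD-ASM]** assembly of [LCD] (archimedean place: `larch_LCD_inl`). -/
def lcd_AsmStatement : Prop :=
  lcd_DevStatement → lcd_BaseStatement → pt_LCDStatement

end Fermat.Agent.S55
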