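/-
S55 (wave 5), LOCAL side: the CUT of [L-BASE] (`ld1_BaseStatement` of `LD1Defs.lean`).
Owner of the interface: helper3.  Prefixes `ld1_`, `lcf_`.  Definitions and closed Props only.

ROUTE.  `Γ = Gal(Ω/ℚ_q)`, `r = extArithLoc S (Sum.inr q)`, `τ = ptinv p S (Sum.inr q)`.
* [LB-COVER] (generic in `(H, r)`): every smooth finite `X` is a quotient of a permutation module
  `F_p[Z]`, `Z` a finite `H`-set with smooth action whose stabilizers fix `μ_p`
  (e.g. `Z = X × H / ker (χ ∘ r)` with the diagonal action, `e_(x, c) ↦ x`).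
* [LB-PERM11], [LB-PERM20] (Shapiro + arithmetic): for such `Z`, `F_p[Z]` has `ld1_Surj11`
  and `ld1_Bij20`.
  By helper9's generic Shapiro (`Bridge/ShapDefs.lean`: SHAP-INJ 1, 2, SHAP-SURJ 0, 1, 2, TR-INV)
  this reduces to three statements about open subgroups `U` fixing `μ_p` (the stabilizers), with
  TRIVIAL coefficients `ZMod p`, in the language of `LCFDefs.lean`:
  - [V20-INJ]  an `F_p`-valued smooth 2-cocycle `f` of `U` with `inv_U (ζ ^ f) = 0` is the
               coboundary of an `F_p`-valued smooth 1-cochain            ([KUM2], (I2));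
  - [V20-SURJ] there is an `F_p`-valued smooth 2-cocycle `f` with `inv_U (ζ ^ f) = 1/p`
               ((I1), (I2), (I5), `p`-th roots in `Ω`);
  - [V11]      for every nonzero smooth character `y : U → F_p` there is a smooth character
               `θ : U → F_p` with `inv_U (ζ ^ (θ ∪ y)) ≠ 0`            ([KUM1], [HILB-L], (I2));
  and [FIN-HOM] (finiteness of `H¹`).
* [L-CUPLEVEL], [L-PAIR-EX] (generic): the pairing maps exist and are given by the formula.
* [LB-ASM] : [LB-COVER] + [LB-PERM-ADM] + [LB-PERM11] + [LB-PERM20] ⇒ [L-BASE].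
-/
import Fermat.Agent.S55.Local.LD1Defs
import Fermat.Agent.S55.Bridge.ShapDefs

set_option autoImplicit false
set_option maxHeartbeats 1000000
set_option synthInstance.maxHeartbeats 400000

noncomputable section

namespace Fermat.Agent.S55

open CategoryTheory Module groupCohomology ExtCitation

section Generic

variable {H : Type} [Group H] (r : H →* s55_GQ)

/-- The action of `H` on `Z` is smooth: an open subgroup acts trivially. -/
def ld1_SmoothAct (Z : Type) [MulAction H Z] : Prop :=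
  ∃ F : IntermediateField ℚ (AlgebraicClosure ℚ), FiniteDimensional ℚ F ∧
    ∀ s : H, r s ∈ F.fixingSubgroup → ∀ z : Z, s • z = z

/-- The stabilizers of the points of `Z` act trivially on `μ_p`. -/
def ld1_ChiTriv (p : ℕ) [Fact p.Prime] (Z : Type) [MulAction H Z] : Prop :=
  ∀ (z : Z) (s : H), s • z = z → cycloChar p (r s) = 1

end Generic

/-- **[LB-COVER]** (generic, elementary): every smooth finite module is a quotient of the
permutation module of a finite `H`-set with smooth action and stabilizers fixing `μ_p`. -/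
def ld1_CoverStatement : Prop :=
  ∀ {p : ℕ} [Fact p.Prime] (H : Type) [Group H] (r : H →* s55_GQ)
    (X : Rep.{0, 0, 0} (ZMod p) H) [FiniteDimensional (ZMod p) X], ld1_Adm r X →
    ∃ (Z : Type) (_ : Fintype Z) (_ : MulAction H Z)
      (f : Rep.ofMulAction (ZMod p) H Z →ₗ[ZMod p] X),
      ld1_SmoothAct r Z ∧ ld1_ChiTriv r p Z ∧ dev_Eqv f ∧ Function.Surjective f

/-- **[L-CUPLEVEL]** (generic): cup products of continuous cocycles of a smooth finite module
with continuous cocycles (resp. invariants) of its Tate dual are continuous cocycles. -/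
def ld1_CupLevelStatement : Prop :=
  ∀ {p : ℕ} [Fact p.Prime] (H : Type) [Group H] (r : H →* s55_GQ)
    (X : Rep.{0, 0, 0} (ZMod p) H) [FiniteDimensional (ZMod p) X], ld1_Adm r X →
    (∀ (z : H → X) (y : H → ld1_D r X), z ∈ cocycles₁ X → IsLevelConstant₁ r z →
      y ∈ cocycles₁ (ld1_D r X) → IsLevelConstant₁ r y →
      cup₁₁ (ld1_ev r X) z y ∈ levelCocycles₂ r (ld1_T (p := p) r)) ∧
    (∀ (c : H × H → X) (m : ld1_D r X), c ∈ levelCocycles₂ r X →
      m ∈ (ld1_D r X).ρ.invariants →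
      cup₂₀ (ld1_ev r X) c m ∈ levelCocycles₂ r (ld1_T (p := p) r))

/-- **[L-PAIR-EX]** (generic): the pairing maps exist for every smooth finite module (the cup
product descends to the continuous cohomology classes: `cup_d₀₁`, `cup_d₁₀`). -/
def ld1_PairExStatement : Prop :=
  ∀ {p : ℕ} [Fact p.Prime] (H : Type) [Group H] (r : H →* s55_GQ) (τ : ld1_Tau p r)
    (X : Rep.{0, 0, 0} (ZMod p) H) [FiniteDimensional (ZMod p) X], ld1_Adm r X →
    (∃ P : ↥(continuousH1 r X) →ₗ[ZMod p] Module.Dual (ZMod p) ↥(continuousH1 r (ld1_D r X)),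
      ld1_IsPair11 r τ X P) ∧
    (∃ P : continuousH2 r X →ₗ[ZMod p] Module.Dual (ZMod p) ↥((ld1_D r X).ρ.invariants),
      ld1_IsPair20 r τ X P)

/-- **[LB-PERM-ADM]** (generic, elementary): permutation modules of finite sets with smooth
action are smooth. -/
def ld1_PermAdmStatement : Prop :=
  ∀ {p : ℕ} [Fact p.Prime] (H : Type) [Group H] (r : H →* s55_GQ)
    (Z : Type) [Fintype Z] [MulAction H Z], ld1_SmoothAct r Z →
    ld1_Adm r (Rep.ofMulAction (ZMod p) H Z)

/-- **[LB-PERM11]** (Shapiro + arithmetic): `ld1_Surj11` for the permutation modules of finite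
`Γ`-sets with smooth action and stabilizers fixing `μ_p`, `Γ = Gal(Ω/ℚ_q)`. -/
def ld1_Perm11Statement : Prop :=
  ∀ (inv : lcf_InvType) (ptinv : pt_InvFamily), lcf_IsInvSystem inv → ld_Compat inv ptinv →
    ∀ {p : ℕ} [Fact p.Prime], p ≠ 2 → ∀ (S : Finset Nat.Primes) (q : ↥S)
      (Z : Type) [Fintype Z] [MulAction (extArithLocalGroups S (Sum.inr q : extArithIndex S)) Z],
      ld1_SmoothAct (extArithLoc S (Sum.inr q : extArithIndex S)) Z →
      ld1_ChiTriv (extArithLoc S (Sum.inr q : extArithIndex S)) p Z →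
        ld1_Surj11 (extArithLoc S (Sum.inr q : extArithIndex S)) (ptinv p S (Sum.inr q))
          (Rep.ofMulAction (ZMod p) (extArithLocalGroups S (Sum.inr q : extArithIndex S)) Z)

/-- **[LB-PERM20]** (Shapiro + arithmetic): `ld1_Bij20` for the same modules. -/
def ld1_Perm20Statement : Prop :=
  ∀ (inv : lcf_InvType) (ptinv : pt_InvFamily), lcf_IsInvSystem inv → ld_Compat inv ptinv →
    ∀ {p : ℕ} [Fact p.Prime], p ≠ 2 → ∀ (S : Finset Nat.Primes) (q : ↥S)
      (Z : Type) [Fintype Z] [MulAction (extArithLocalGroups S (Sum.inr q : extArithIndex S)) Z],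
      ld1_SmoothAct (extArithLoc S (Sum.inr q : extArithIndex S)) Z →
      ld1_ChiTriv (extArithLoc S (Sum.inr q : extArithIndex S)) p Z →
        ld1_Bij20 (extArithLoc S (Sum.inr q : extArithIndex S)) (ptinv p S (Sum.inr q))
          (Rep.ofMulAction (ZMod p) (extArithLocalGroups S (Sum.inr q : extArithIndex S)) Z)

/-- **[LB-ASM]** [LB-COVER] + [LB-PERM-ADM] + [LB-PERM11] + [LB-PERM20] ⇒ [L-BASE]. -/
def ld1_BaseAsmStatement : Prop :=
  ld1_CoverStatement → ld1_PermAdmStatement → ld1_Perm11Statement → ld1_Perm20Statement →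
    ld1_BaseStatement

/-! ### The arithmetic leaves over an open subgroup `U` fixing `μ_p` (trivial coefficients) -/

/-- **[V20-INJ]** `H²(K_U, F_p) → Br(K_U)`, `f ↦ ζ ^ f`, is injective: a smooth `F_p`-valued
2-cocycle `f` of `U` with `inv_U (ζ ^ f) = 0` is the coboundary of a smooth `F_p`-valued
1-cochain.  ((I2) + [KUM2].) -/
def lcf_V20InjStatement : Prop :=
  ∀ (inv : lcf_InvType), lcf_IsInvSystem inv →
  ∀ (q : ℕ) [Fact q.Prime] (p : ℕ) [Fact p.Prime] (U : Subgroup (lcf_Gal q)), lcf_IsOpen U →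
    ∀ ζ : (PadicAlgCl q)ˣ, IsPrimitiveRoot ζ p → (∀ g : ↥U, g • ζ = ζ) →
    ∀ f : ↥U × ↥U → ZMod p, lcf_Smooth₂ U f →
      (∀ g h j : ↥U, f (h, j) - f (g * h, j) + f (g, h * j) - f (g, h) = 0) →
      inv q U (fun x => ζ ^ (f x).val) = 0 →
      ∃ b : ↥U → ZMod p, lcf_Smooth₁ U b ∧ ∀ g h : ↥U, b h - b (g * h) + b g = f (g, h)

/-- **[V20-SURJ]** there is a smooth `F_p`-valued 2-cocycle `f` of `U` with
`inv_U (ζ ^ f) = 1/p`.  ((I5), then (I1), (I2) and `p`-th roots in `Ω`.) -/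
def lcf_V20SurjStatement : Prop :=
  ∀ (inv : lcf_InvType), lcf_IsInvSystem inv →
  ∀ (q : ℕ) [Fact q.Prime] (p : ℕ) [Fact p.Prime] (U : Subgroup (lcf_Gal q)), lcf_IsOpen U →
    ∀ ζ : (PadicAlgCl q)ˣ, IsPrimitiveRoot ζ p → (∀ g : ↥U, g • ζ = ζ) →
    ∃ f : ↥U × ↥U → ZMod p, lcf_Smooth₂ U f ∧
      (∀ g h j : ↥U, f (h, j) - f (g * h, j) + f (g, h * j) - f (g, h) = 0) ∧
      inv q U (fun x => ζ ^ (f x).val) = lcf_qz (1 / (p : ℚ))

/-- **[V11]** (`p` odd) the pairing `H¹(K_U, F_p) × H¹(K_U, F_p) → Br(K_U)[p]`,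
`(θ, y) ↦ ζ ^ (θ ∪ y)`, is non-degenerate on the right: for every nonzero smooth character `y`
there is a smooth character `θ` with `inv_U (ζ ^ (θ ∪ y)) ≠ 0`.
(`ζ ^ y = (g ↦ g α / α)` with `a = α ^ p ∈ K_U` not a `p`-th power [KUM1]; `θ` from [HILB-L];
`ζ ^ (θ ∪ y) ~ (a ^ δθ) ^ ± 1`: with `b g = α ^ θ̃(g)` one has
`d b (g, h) = (ζ ^ y g) ^ θ̃(h) * (a ^ δθ) (g, h)`, and `θ ∪ y + y ∪ θ = - d (θ y)`.) -/
def lcf_V11Statement : Prop :=
  ∀ (inv : lcf_InvType), lcf_IsInvSystem inv →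
  ∀ (q : ℕ) [Fact q.Prime] (p : ℕ) [Fact p.Prime], p ≠ 2 →
    ∀ (U : Subgroup (lcf_Gal q)), lcf_IsOpen U →
    ∀ ζ : (PadicAlgCl q)ˣ, IsPrimitiveRoot ζ p → (∀ g : ↥U, g • ζ = ζ) →
    ∀ y : ↥U → ZMod p, lcf_Smooth₁ U y → (∀ g h : ↥U, y (g * h) = y g + y h) → y ≠ 0 →
      ∃ θ : ↥U → ZMod p, lcf_Smooth₁ U θ ∧ (∀ g h : ↥U, θ (g * h) = θ g + θ h) ∧
        inv q U (fun x => ζ ^ (θ x.1 * y x.2).val) ≠ 0

/-- **[LB-PERM11-OF]** the Shapiro assembly of [LB-PERM11].
PROOF: `y ∈ H¹(Γ, F_p[Z]')` with all Shapiro components `y_t` (`t ∈ T`, orbit representatives;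
characters of `Stab t` since the stabilizers fix `μ_p`) zero is zero (SHAP-INJ 1); if
`y_{t₀} ≠ 0`, take `θ` from [V11] for `U = Stab t₀` and `x` with components `θ` at `t₀`, `0`
elsewhere (SHAP-SURJ 1); by [TR-INV] and `ld_Compat`, `τ [x ∪ y] = p • inv_U (ζ ^ (θ ∪ y_{t₀}))
≠ 0`.  `H¹(Γ, F_p[Z]')` is finite by SHAP-INJ 1 and [FIN-HOM]; conclude with
`asm_surjective_of_nondeg`. -/
def ld1_Perm11OfStatement : Prop :=
  ld1_CupLevelStatement → ld1_PairExStatement → shp_Inj₁Statement → shp_Surj₁Statement →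
    shp_TrInvStatement → lcf_V11Statement → lcf_FinHomStatement → ld1_Perm11Statement

/-- **[LB-PERM20-OF]** the Shapiro assembly of [LB-PERM20].
PROOF: the invariants of `F_p[Z]'` have the basis `(m_t)_{t ∈ T}` (SHAP-SURJ 0); for a cocycle
`c`, `τ [c ∪ m_t] = p • inv_{Stab t} (ζ ^ c_t)` ([TR-INV], `ld_Compat`); injectivity by [V20-INJ]
and SHAP-INJ 2, surjectivity by [V20-SURJ] and SHAP-SURJ 2 (dual basis). -/
def ld1_Perm20OfStatement : Prop :=
  ld1_CupLevelStatement → ld1_PairExStatement → shp_Inj₂Statement → shp_Surj₀Statement →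
    shp_Surj₂Statement → shp_TrInvStatement → lcf_V20InjStatement → lcf_V20SurjStatement →
    ld1_Perm20Statement

end Fermat.Agent.S55
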