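/-
S55 (wave 5), LOCAL side, package [LCD-BASE] (helper24): the generic Shapiro step.
Prefix `lcdb_`.  Mathlib + `Bridge/ShapDefs` + `Bridge/ShapInj3` only.

* `lcdb_coord` : the coordinate system of the permutation module `k[X]` (`B = k` trivial,
  `π_x m = m.coeff x`);
* `lcdb_shapiro₃` : Shapiro's lemma in degree 3 for `k[Γ/P]`, injectivity, with levels: a
  3-cocycle of `Γ` in `k[Γ/P]` (constant mod `N`) whose component at the trivial coset,
  restricted to `P`, is the coboundary of a 2-cochain of `P` in `k` (constant mod `N`), is the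
  coboundary of a 2-cochain which is constant mod `N`.
-/
import Mathlib
import Fermat.Agent.S55.Bridge.ShapInj3

set_option autoImplicit false

noncomputable section

namespace Fermat.Agent.S55

open groupCohomology

/-- The coordinate system of a permutation module. -/
def lcdb_coord {k Γ X : Type} [CommRing k] [Group Γ] [MulAction Γ X] [Finite X] :
    shp_Coord X (Rep.ofMulAction k Γ X) (Rep.trivial k Γ k) where
  π x := (Finsupp.lapply x) ∘ₗ (MonoidAlgebra.coeffLinearEquiv k).toLinearMap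
  equiv g x m := by
    show ((Representation.ofMulAction k Γ X g m).coeff) (g • x) = (MonoidAlgebra.coeff m) x
    rw [Representation.ofMulAction_def]
    show (Finsupp.mapDomain (g • ·) (MonoidAlgebra.coeff m)) (g • x) = (MonoidAlgebra.coeff m) x
    exact Finsupp.mapDomain_apply (MulAction.injective g) _ _
  inj m h := by
    apply MonoidAlgebra.coeff_injective
    exact Finsupp.ext h
  surj f := ⟨(MonoidAlgebra.coeffLinearEquiv k).symm (Finsupp.equivFunOnFinite.symm f),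
    fun x => rfl⟩

theorem lcdb_coord_π {k Γ X : Type} [CommRing k] [Group Γ] [MulAction Γ X] [Finite X]
    (x : X) (m : Rep.ofMulAction k Γ X) :
    (lcdb_coord (k := k) (Γ := Γ) (X := X)).π x m = (MonoidAlgebra.coeff m) x := rfl

/-- Shapiro's lemma in degree 3 for the permutation module `k[Γ/P]`, injectivity. -/
theorem lcdb_shapiro₃ {k Γ : Type} [CommRing k] [Group Γ] (P : Subgroup Γ) [Finite (Γ ⧸ P)]
    (N : Subgroup Γ) [hNn : N.Normal] (hNP : N ≤ P)
    (z : Γ × Γ × Γ → Rep.ofMulAction k Γ (Γ ⧸ P))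
    (hz : ∀ x, shp_d₃ (MonoidHom.id Γ) (Rep.ofMulAction k Γ (Γ ⧸ P)) z x = 0)
    (hzc : shp_Const₃ (MonoidHom.id Γ) N z)
    (a₀ : Γ × Γ → k)
    (ha₀c : ∀ v w n n' : Γ, v ∈ P → w ∈ P → n ∈ N → n' ∈ N → a₀ (v * n, w * n') = a₀ (v, w))
    (ha₀ : ∀ u v w : Γ, u ∈ P → v ∈ P → w ∈ P →
      (MonoidAlgebra.coeff (z (u, v, w))) (QuotientGroup.mk 1 : Γ ⧸ P) =
        a₀ (v, w) - a₀ (u * v, w) + a₀ (u, v * w) - a₀ (u, v)) :
    ∃ a : Γ × Γ → Rep.ofMulAction k Γ (Γ ⧸ P), shp_Const₂ (MonoidHom.id Γ) N a ∧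
      ∀ x, shp_d₂ (MonoidHom.id Γ) (Rep.ofMulAction k Γ (Γ ⧸ P)) a x = z x := by
  classical
  have hN : ∀ s ∈ N, ∀ x : Γ ⧸ P, s • x = x := by
    intro s hs x
    induction x using QuotientGroup.induction_on with
    | H g =>
      rw [MulAction.Quotient.smul_mk, smul_eq_mul, QuotientGroup.eq]
      have h1 : (s * g)⁻¹ * g = g⁻¹ * s⁻¹ * (g⁻¹)⁻¹ := by group
      rw [h1]
      exact hNP (hNn.conj_mem s⁻¹ (N.inv_mem hs) g⁻¹)
  have hT : shp_Covers Γ ({(QuotientGroup.mk 1 : Γ ⧸ P)} : Set (Γ ⧸ P)) := by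
    intro x
    induction x using QuotientGroup.induction_on with
    | H g => exact ⟨_, rfl, g, by rw [MulAction.Quotient.smul_mk, smul_eq_mul, mul_one]⟩
  have hstab : ∀ v : Γ, v • (QuotientGroup.mk 1 : Γ ⧸ P) = QuotientGroup.mk 1 → v ∈ P := by
    intro v hv
    rw [MulAction.Quotient.smul_mk, smul_eq_mul, QuotientGroup.eq, mul_one, mul_one] at hv
    have := P.inv_mem hv
    rwa [inv_inv] at this
  refine shin_main₃ k Γ (Γ ⧸ P) (Rep.ofMulAction k Γ (Γ ⧸ P)) (Rep.trivial k Γ k) lcdb_coord N hN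
    _ hT z hz hzc (fun t x => a₀ ((x.1 : Γ), (x.2 : Γ))) ?_ ?_
  · intro t ht v w n n' hn hn'
    rw [Set.mem_singleton_iff] at ht
    subst ht
    exact ha₀c v.1 w.1 n.1 n'.1 (hstab _ v.2) (hstab _ w.2) hn hn'
  · intro t ht u v w
    rw [Set.mem_singleton_iff] at ht
    subst ht
    rw [lcdb_coord_π]
    exact ha₀ u.1 v.1 w.1 (hstab _ u.2) (hstab _ v.2) (hstab _ w.2)

end Fermat.Agent.S55
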