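/-
S55 (wave 5), LOCAL side, leaf [PTINV] = `ld_PtInvStatement` (helper18).  Prefix `ptinv_`.

Every local invariant system `inv` (only (I1) additivity and (I2) `inv f = 0 ↔ f` coboundary are
used) induces a family `ptinv : pt_InvFamily` of linear maps
`H²_cts(ℚ_q, F_p(1)) → F_p` with `inv_q (ζ ^ f) = ptinv_q [f] / p` in `ℚ/ℤ`.

* `ptinv_e`          : the embedding `ZMod p → ℚ/ℤ`, `a ↦ a / p`;
* `ptinv_exp`        : `a ↦ ζ_loc ^ a`, `ZMod p → (PadicAlgCl q)ˣ`;
* `ptinv_zeta_smul`  : `g ζ_loc = ζ_loc ^ χ(loc g)` (`χ` the mod `p` cyclotomic character);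
* `ptinv_loc_fix`    : global level ⇒ local level: for `F/ℚ` finite there is `E/ℚ_q` finite with
                       `localGaloisToGlobal (Gal(Ω/E)) ⊆ Gal(ℚ̄/F)`;
* `ptinv_mu_isCoc`   : `ζ ^ f` is a smooth multiplicative 2-cocycle if `f` is a continuous
                       2-cocycle with values in `F_p(1)`;
* `ptinv_mu_isCob`   : `ζ ^ f` is a smooth coboundary if `f` is a continuous coboundary;
* `ptinv_main`       : `ld_PtInvStatement`.
-/
import Mathlib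
import Fermat.Agent.S55.Local.LDDefs
import Fermat.Agent.S55.Adm

set_option autoImplicit false
set_option linter.style.haveILetI false
set_option maxHeartbeats 1000000
set_option synthInstance.maxHeartbeats 400000

noncomputable section

namespace Fermat.Agent.S55

open CategoryTheory Module groupCohomology ExtCitation

/-! ### The embedding `ZMod p → ℚ/ℤ` -/

section E

variable (p : ℕ) [Fact p.Prime]

theorem ptinv_qz_one : lcf_qz 1 = 0 :=
  (QuotientAddGroup.eq_zero_iff _).2 (AddSubgroup.mem_zmultiples 1)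

theorem ptinv_qz_intCast (m : ℤ) : lcf_qz (m : ℚ) = 0 :=
  (QuotientAddGroup.eq_zero_iff _).2 (AddSubgroup.mem_zmultiples_iff.2 ⟨m, by simp⟩)

theorem ptinv_qz_eq_zero_iff (x : ℚ) : lcf_qz x = 0 ↔ ∃ m : ℤ, (m : ℚ) = x := by
  constructor
  · intro h
    obtain ⟨m, hm⟩ := AddSubgroup.mem_zmultiples_iff.1 ((QuotientAddGroup.eq_zero_iff _).1 h)
    exact ⟨m, by simpa using hm⟩
  · rintro ⟨m, rfl⟩
    exact ptinv_qz_intCast m

/-- `a ↦ a / p`, as an additive map `ZMod p → ℚ/ℤ`. -/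
def ptinv_e : ZMod p →+ lcf_QZ :=
  ZMod.lift p ⟨zmultiplesHom lcf_QZ (lcf_qz (1 / (p : ℚ))), by
    have hp : (p : ℚ) ≠ 0 := Nat.cast_ne_zero.2 (Fact.out : p.Prime).ne_zero
    rw [zmultiplesHom_apply, ← map_zsmul]
    have : ((p : ℤ) • (1 / (p : ℚ))) = 1 := by
      rw [zsmul_eq_mul]
      push_cast
      field_simp
    rw [this]
    exact ptinv_qz_one⟩

theorem ptinv_e_intCast (m : ℤ) : ptinv_e p (m : ZMod p) = lcf_qz ((m : ℚ) / p) := by
  rw [ptinv_e, ZMod.lift_coe]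
  change zmultiplesHom lcf_QZ (lcf_qz (1 / (p : ℚ))) m = _
  rw [zmultiplesHom_apply, ← map_zsmul, zsmul_eq_mul, mul_one_div]

theorem ptinv_e_apply (a : ZMod p) : ptinv_e p a = lcf_qz ((a.val : ℚ) / p) := by
  haveI : NeZero p := ⟨(Fact.out : p.Prime).ne_zero⟩
  have h := ptinv_e_intCast p (a.val : ℤ)
  have h2 : (((a.val : ℕ) : ℤ) : ZMod p) = a := by
    rw [Int.cast_natCast, ZMod.natCast_zmod_val]
  rw [h2] at h
  rw [h, Int.cast_natCast]

theorem ptinv_e_injective : Function.Injective (ptinv_e p) := by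
  haveI : NeZero p := ⟨(Fact.out : p.Prime).ne_zero⟩
  have hp : (p : ℚ) ≠ 0 := Nat.cast_ne_zero.2 (Fact.out : p.Prime).ne_zero
  have hp0 : 0 < p := (Fact.out : p.Prime).pos
  rw [injective_iff_map_eq_zero]
  intro a ha
  rw [ptinv_e_apply, ptinv_qz_eq_zero_iff] at ha
  obtain ⟨m, hm⟩ := ha
  have h1 : ((a.val : ℤ) : ℚ) = ((m * p : ℤ) : ℚ) := by
    push_cast
    rw [hm]
    field_simp
  have h2 : (a.val : ℤ) = m * p := by exact_mod_cast h1
  have h3 : (a.val : ℤ) < p := by exact_mod_cast ZMod.val_lt a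
  have h4 : (0 : ℤ) ≤ a.val := Int.natCast_nonneg _
  have hp' : (0 : ℤ) < p := by exact_mod_cast hp0
  have h5 : m = 0 := by
    have hlt : m * p < 1 * p := by rw [one_mul, ← h2]; exact h3
    have hm1 : m < 1 := lt_of_mul_lt_mul_right hlt hp'.le
    have hm0 : 0 ≤ m := by
      by_contra hneg
      have : m ≤ -1 := by omega
      have : m * p ≤ -1 * p := mul_le_mul_of_nonneg_right this hp'.le
      omega
    omega
  rw [h5, zero_mul] at h2
  have h6 : a.val = 0 := by exact_mod_cast h2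
  exact (ZMod.val_eq_zero a).1 h6

theorem ptinv_e_range (t : lcf_QZ) (ht : p • t = 0) : ∃ a : ZMod p, ptinv_e p a = t := by
  have hp : (p : ℚ) ≠ 0 := Nat.cast_ne_zero.2 (Fact.out : p.Prime).ne_zero
  obtain ⟨x, rfl⟩ := QuotientAddGroup.mk'_surjective _ t
  change p • lcf_qz x = 0 at ht
  rw [← map_nsmul, ptinv_qz_eq_zero_iff] at ht
  obtain ⟨m, hm⟩ := ht
  refine ⟨(m : ZMod p), ?_⟩
  rw [ptinv_e_intCast, hm]
  change lcf_qz _ = lcf_qz x
  congr 1
  rw [nsmul_eq_mul]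
  field_simp

end E

/-! ### The exponential `ZMod p → Ωˣ` -/

section Exp

variable (p q : ℕ) [Fact p.Prime] [Fact q.Prime]

theorem ptinv_zetaLoc_pow : ld_zetaLoc p q ^ p = 1 := by
  apply Units.ext
  rw [Units.val_pow_eq_pow_val, Units.val_one]
  change (padicEmbedding q (ld_zeta p)) ^ p = 1
  rw [← map_pow, (ld_zeta_spec p).pow_eq_one, map_one]

/-- `a ↦ ζ_loc ^ a`. -/
def ptinv_exp (a : ZMod p) : (PadicAlgCl q)ˣ := ld_zetaLoc p q ^ a.val

theorem ptinv_exp_zero : ptinv_exp p q 0 = 1 := by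
  rw [ptinv_exp, ZMod.val_zero, pow_zero]

theorem ptinv_exp_add (a b : ZMod p) :
    ptinv_exp p q (a + b) = ptinv_exp p q a * ptinv_exp p q b := by
  haveI : NeZero p := ⟨(Fact.out : p.Prime).ne_zero⟩
  rw [ptinv_exp, ptinv_exp, ptinv_exp, ZMod.val_add, ← pow_add]
  exact (pow_eq_pow_mod _ (ptinv_zetaLoc_pow p q)).symm

theorem ptinv_exp_mul (c a : ZMod p) :
    ptinv_exp p q (c * a) = (ptinv_exp p q a) ^ c.val := by
  rw [ptinv_exp, ptinv_exp, ZMod.val_mul, ← pow_mul, mul_comm a.val]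
  exact (pow_eq_pow_mod _ (ptinv_zetaLoc_pow p q)).symm

theorem ptinv_exp_neg (a : ZMod p) : ptinv_exp p q (-a) = (ptinv_exp p q a)⁻¹ := by
  apply eq_inv_of_mul_eq_one_left
  rw [← ptinv_exp_add, neg_add_cancel, ptinv_exp_zero]

theorem ptinv_exp_sub (a b : ZMod p) :
    ptinv_exp p q (a - b) = ptinv_exp p q a / ptinv_exp p q b := by
  rw [sub_eq_add_neg, ptinv_exp_add, ptinv_exp_neg, div_eq_mul_inv]

/-- `g ζ_loc = ζ_loc ^ χ(loc g)`. -/
theorem ptinv_zeta_smul (g : lcf_Gal q) :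
    g • ld_zetaLoc p q =
      ld_zetaLoc p q ^ ((cycloChar p (localGaloisToGlobal q g) : ZMod p)).val := by
  apply Units.ext
  rw [AlgEquiv.smul_units_def, Units.coe_map, Units.val_pow_eq_pow_val]
  change g (padicEmbedding q (ld_zeta p)) = (padicEmbedding q (ld_zeta p)) ^ _
  rw [← padicEmbedding_localGaloisToGlobal, ← map_pow]
  congr 1
  have hu : IsUnit (ld_zeta p) := (ld_zeta_spec p).isUnit (Fact.out : p.Prime).ne_zero
  have ht : hu.unit ∈ rootsOfUnity p (AlgebraicClosure ℚ) := by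
    rw [mem_rootsOfUnity]
    apply Units.ext
    rw [Units.val_pow_eq_pow_val, IsUnit.unit_spec, (ld_zeta_spec p).pow_eq_one, Units.val_one]
  have h := adm_cyclo_spec p (localGaloisToGlobal q g) ht
  rw [IsUnit.unit_spec] at h
  exact h

theorem ptinv_smul_exp (g : lcf_Gal q) (a : ZMod p) :
    g • ptinv_exp p q a =
      ptinv_exp p q ((cycloChar p (localGaloisToGlobal q g) : ZMod p) * a) := by
  rw [ptinv_exp_mul, ptinv_exp, smul_pow', ptinv_zeta_smul, ← pow_mul, ← pow_mul, mul_comm]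

/-- **Global level ⇒ local level.** -/
theorem ptinv_loc_fix (F : IntermediateField ℚ (AlgebraicClosure ℚ)) [FiniteDimensional ℚ F] :
    ∃ E : IntermediateField ℚ_[q] (PadicAlgCl q), FiniteDimensional ℚ_[q] E ∧
      ∀ s : lcf_Gal q, s ∈ E.fixingSubgroup → localGaloisToGlobal q s ∈ F.fixingSubgroup := by
  classical
  obtain ⟨n, b, hb⟩ := Module.Finite.exists_fin (R := ℚ) (M := F)
  let T : Set (PadicAlgCl q) :=
    Set.range (fun i : Fin n => padicEmbedding q ((b i : F) : AlgebraicClosure ℚ))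
  haveI : Finite T := (Set.finite_range _).to_subtype
  refine ⟨IntermediateField.adjoin ℚ_[q] T,
    IntermediateField.finiteDimensional_adjoin (fun x _ => ?_), ?_⟩
  · exact Algebra.IsIntegral.isIntegral x
  · intro s hs
    rw [IntermediateField.mem_fixingSubgroup_iff] at hs ⊢
    have hfix : ∀ i, localGaloisToGlobal q s ((b i : F) : AlgebraicClosure ℚ) = (b i : F) := by
      intro i
      apply (padicEmbedding q).toRingHom.injective
      change padicEmbedding q (localGaloisToGlobal q s (b i : F)) = padicEmbedding q (b i : F)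
      rw [padicEmbedding_localGaloisToGlobal]
      exact hs _ (IntermediateField.subset_adjoin _ _ ⟨i, rfl⟩)
    have key : ((localGaloisToGlobal q s).toLinearMap ∘ₗ F.val.toLinearMap) =
        F.val.toLinearMap := by
      apply LinearMap.ext_on_range hb
      intro i
      exact hfix i
    intro x hx
    exact LinearMap.congr_fun key ⟨x, hx⟩

end Exp

/-! ### The multiplicative cochain `ζ ^ f` -/

section Mu

variable (p : ℕ) [Fact p.Prime] (S : Finset Nat.Primes) (q : ↥S)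

local notation "Gq" => extArithLocalGroups S (Sum.inr q : extArithIndex S)
local notation "locq" => extArithLoc S (Sum.inr q : extArithIndex S)
local notation "Tq" => Rep.res (extArithLoc S (Sum.inr q : extArithIndex S)) (pt_T p)

theorem ptinv_mu_apply (f : Gq × Gq → Tq)
    (x : ↥(⊤ : Subgroup (lcf_Gal (q.1 : ℕ))) × ↥(⊤ : Subgroup (lcf_Gal (q.1 : ℕ)))) :
    ld_mu p S q f x =
      ptinv_exp p (q.1 : ℕ) (f ((x.1 : lcf_Gal (q.1 : ℕ)), (x.2 : lcf_Gal (q.1 : ℕ)))) := rfl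

theorem ptinv_rho (g : lcf_Gal (q.1 : ℕ)) (a : Tq) :
    ptinv_exp p (q.1 : ℕ) ((Tq).ρ g a) = g • ptinv_exp p (q.1 : ℕ) a := by
  rw [ptinv_smul_exp]
  congr 1

theorem ptinv_mu_isMulCocycle (f : Gq × Gq → Tq) (hf : f ∈ cocycles₂ Tq) :
    IsMulCocycle₂ (ld_mu p S q f) := by
  intro g h j
  have h1 := (mem_cocycles₂_iff f).1 hf (g : lcf_Gal (q.1 : ℕ)) (h : lcf_Gal (q.1 : ℕ))
    (j : lcf_Gal (q.1 : ℕ))
  rw [ptinv_mu_apply, ptinv_mu_apply, ptinv_mu_apply, ptinv_mu_apply]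
  change ptinv_exp p (q.1 : ℕ) (f ((g : lcf_Gal (q.1 : ℕ)) * (h : lcf_Gal (q.1 : ℕ)),
      (j : lcf_Gal (q.1 : ℕ)))) *
      ptinv_exp p (q.1 : ℕ) (f ((g : lcf_Gal (q.1 : ℕ)), (h : lcf_Gal (q.1 : ℕ)))) =
    (g : lcf_Gal (q.1 : ℕ)) • ptinv_exp p (q.1 : ℕ)
        (f ((h : lcf_Gal (q.1 : ℕ)), (j : lcf_Gal (q.1 : ℕ)))) *
      ptinv_exp p (q.1 : ℕ) (f ((g : lcf_Gal (q.1 : ℕ)),
        (h : lcf_Gal (q.1 : ℕ)) * (j : lcf_Gal (q.1 : ℕ))))
  rw [← ptinv_exp_add, ← ptinv_rho, ← ptinv_exp_add]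
  exact congrArg (ptinv_exp p (q.1 : ℕ)) h1

theorem ptinv_mu_smooth (f : Gq × Gq → Tq) (hf : IsLevelConstant₂ locq f) :
    lcf_Smooth₂ ⊤ (ld_mu p S q f) := by
  obtain ⟨F, hF, h⟩ := hf
  haveI := hF
  obtain ⟨E, hE, hEF⟩ := ptinv_loc_fix (q.1 : ℕ) F
  refine ⟨E, hE, fun g g' s s' hs hs' => ?_⟩
  rw [ptinv_mu_apply, ptinv_mu_apply]
  exact congrArg (ptinv_exp p (q.1 : ℕ))
    (h (g : lcf_Gal (q.1 : ℕ)) (g' : lcf_Gal (q.1 : ℕ)) (s : lcf_Gal (q.1 : ℕ))
      (s' : lcf_Gal (q.1 : ℕ)) (hEF _ hs) (hEF _ hs'))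

theorem ptinv_mu_isCoc (f : Gq × Gq → Tq) (hf : f ∈ levelCocycles₂ locq Tq) :
    lcf_IsCoc ⊤ (ld_mu p S q f) :=
  ⟨ptinv_mu_isMulCocycle p S q f hf.1, ptinv_mu_smooth p S q f hf.2⟩

theorem ptinv_mu_add (f f' : Gq × Gq → Tq) :
    ld_mu p S q (f + f') = ld_mu p S q f * ld_mu p S q f' := by
  funext x
  rw [Pi.mul_apply, ptinv_mu_apply, ptinv_mu_apply, ptinv_mu_apply, Pi.add_apply]
  exact ptinv_exp_add p (q.1 : ℕ) _ _

theorem ptinv_mu_isCob (f : Gq × Gq → Tq) (hf : f ∈ levelCoboundaries₂ locq Tq) :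
    lcf_IsCob ⊤ (ld_mu p S q f) := by
  obtain ⟨b, hb, rfl⟩ := (mem_levelCoboundaries₂_iff _ _ f).1 hf
  refine ⟨fun g => ptinv_exp p (q.1 : ℕ) (b (g : lcf_Gal (q.1 : ℕ))), ?_, fun g h => ?_⟩
  · obtain ⟨F, hF, h⟩ := hb
    haveI := hF
    obtain ⟨E, hE, hEF⟩ := ptinv_loc_fix (q.1 : ℕ) F
    exact ⟨E, hE, fun g s hs => congrArg (ptinv_exp p (q.1 : ℕ))
      (h (g : lcf_Gal (q.1 : ℕ)) (s : lcf_Gal (q.1 : ℕ)) (hEF _ hs))⟩
  · rw [ptinv_mu_apply]
    change _ = ptinv_exp p (q.1 : ℕ) ((Tq).ρ (g : lcf_Gal (q.1 : ℕ)) (b (h : lcf_Gal (q.1 : ℕ))) -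
      b ((g : lcf_Gal (q.1 : ℕ)) * (h : lcf_Gal (q.1 : ℕ))) + b (g : lcf_Gal (q.1 : ℕ)))
    rw [ptinv_exp_add, ptinv_exp_sub, ptinv_rho]
    rfl

end Mu

/-! ### The induced invariant maps -/

section Family

variable (p : ℕ) [Fact p.Prime] (S : Finset Nat.Primes) (q : ↥S)
variable (inv : lcf_InvType) (hinv : lcf_IsInvSystem inv)

local notation "Gq" => extArithLocalGroups S (Sum.inr q : extArithIndex S)
local notation "locq" => extArithLoc S (Sum.inr q : extArithIndex S)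
local notation "Tq" => Rep.res (extArithLoc S (Sum.inr q : extArithIndex S)) (pt_T p)

theorem ptinv_isOpen_top (q : ℕ) [Fact q.Prime] : lcf_IsOpen (⊤ : Subgroup (lcf_Gal q)) :=
  ⟨⊥, inferInstance, le_top⟩

/-- `f ↦ inv (ζ ^ f)` on continuous cocycles. -/
def ptinv_Psi : ↥(levelCocycles₂ locq Tq) →+ lcf_QZ :=
  AddMonoidHom.mk' (fun f => inv (q.1 : ℕ) ⊤ (ld_mu p S q f.1)) (fun f f' => by
    change inv (q.1 : ℕ) ⊤ (ld_mu p S q (f.1 + f'.1)) = _
    rw [ptinv_mu_add]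
    exact hinv.add (q.1 : ℕ) ⊤ (ptinv_isOpen_top _) _ _ (ptinv_mu_isCoc p S q f.1 f.2)
      (ptinv_mu_isCoc p S q f'.1 f'.2))

theorem ptinv_Psi_apply (f : ↥(levelCocycles₂ locq Tq)) :
    ptinv_Psi p S q inv hinv f = inv (q.1 : ℕ) ⊤ (ld_mu p S q f.1) := rfl

theorem ptinv_Psi_torsion (f : ↥(levelCocycles₂ locq Tq)) :
    p • ptinv_Psi p S q inv hinv f = 0 := by
  rw [← map_nsmul]
  have h0 : p • f = 0 := by
    rw [← Nat.cast_smul_eq_nsmul (ZMod p), ZMod.natCast_self, zero_smul]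
  rw [h0, map_zero]

/-- the `ZMod p`-valued invariant on continuous cocycles. -/
def ptinv_Phi : ↥(levelCocycles₂ locq Tq) →ₗ[ZMod p] ZMod p :=
  AddMonoidHom.toZModLinearMap p
    (AddMonoidHom.mk'
      (fun f => Function.invFun (ptinv_e p) (ptinv_Psi p S q inv hinv f)) (fun f f' => by
        apply ptinv_e_injective p
        rw [Function.invFun_eq (ptinv_e_range p _ (ptinv_Psi_torsion p S q inv hinv (f + f'))),
          (ptinv_e p).map_add,
          Function.invFun_eq (ptinv_e_range p _ (ptinv_Psi_torsion p S q inv hinv f)),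
          Function.invFun_eq (ptinv_e_range p _ (ptinv_Psi_torsion p S q inv hinv f')),
          (ptinv_Psi p S q inv hinv).map_add]))

theorem ptinv_e_Phi (f : ↥(levelCocycles₂ locq Tq)) :
    ptinv_e p (ptinv_Phi p S q inv hinv f) = ptinv_Psi p S q inv hinv f :=
  Function.invFun_eq (ptinv_e_range p _ (ptinv_Psi_torsion p S q inv hinv f))

/-- the invariant map on `H²_cts(ℚ_q, F_p(1))`. -/
def ptinv_lin : continuousH2 locq Tq →ₗ[ZMod p] ZMod p :=
  Submodule.liftQ _ (ptinv_Phi p S q inv hinv) (by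
    intro f hf
    rw [LinearMap.mem_ker]
    apply ptinv_e_injective p
    rw [map_zero, ptinv_e_Phi, ptinv_Psi_apply]
    exact (hinv.eq_zero_iff (q.1 : ℕ) ⊤ (ptinv_isOpen_top _) _
      (ptinv_mu_isCoc p S q f.1 f.2)).2 (ptinv_mu_isCob p S q f.1 hf))

theorem ptinv_lin_mk (f : ↥(levelCocycles₂ locq Tq)) :
    ptinv_lin p S q inv hinv (continuousH2π _ _ f) = ptinv_Phi p S q inv hinv f := rfl

/-- the family of invariant maps induced by a local invariant system. -/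
def ptinv_fam : pt_InvFamily := fun p _ S v =>
  match v with
  | Sum.inl _ => 0
  | Sum.inr q => ptinv_lin p S q inv hinv

end Family

/-- **[PTINV]** every local invariant system induces a compatible family of invariant maps on
the Prelude's continuous `H²(ℚ_q, F_p(1))`. -/
theorem ptinv_main : ld_PtInvStatement := by
  intro inv hinv
  refine ⟨ptinv_fam inv hinv, ?_⟩
  intro p _ S q f hf
  change inv (q.1 : ℕ) ⊤ (ld_mu p S q f) =
    lcf_qz ((ZMod.val (ptinv_lin p S q inv hinv (continuousH2π _ _ ⟨f, hf⟩)) : ℚ) / (p : ℚ))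
  rw [← ptinv_e_apply, ptinv_lin_mk, ptinv_e_Phi, ptinv_Psi_apply]

end Fermat.Agent.S55
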