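/-
S55 (wave 5), LOCAL side: shared tools for the Shapiro assemblies [LB-PERM11-OF] and
[LB-PERM20-OF].  Owner: helper8.  Prefix `pco_`.

* `pco_decomp`, `pco_dual_apply`, `pco_dualOf` : elements of `k[Z]` and functionals on `k[Z]`
  in coordinates;
* `pco_coord'` : the coordinate system of the Tate dual `F_p[Z]^*(1)` (`B = F_p(1)`,
  `π'_z φ = φ (single z 1)`); the coordinate system of `F_p[Z]` itself is helper24's
  `lcdb_coord` (`B = F_p` trivial);
* `pco_π_ρ`, `pco_π'_ρ` : the action in coordinates;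
* `pco_ev_sum` : `ld1_ev a φ = ∑_z π_z a * π'_z φ`;
* `pco_exists_reps` : a finite set of representatives of the orbits (covering + independent);
* local: `pco_zeta_prim`, `pco_exp_sum`, `pco_smooth_local`, `pco_stab_isOpen`, `pco_zeta_fix`,
  `pco_exp_fix`, `pco_exists_level` (a normal open subgroup acting trivially, below given levels).
-/
import Mathlib
import Fermat.Agent.S55.Local.LD1Base
import Fermat.Agent.S55.Local.LcdBaseShap
import Fermat.Agent.S55.Local.PtInv
import Fermat.Agent.S55.Local.LD1DevPair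
import Fermat.Agent.S55.Local.Krasner
import Fermat.Agent.S55.Local.H3Mu
import Fermat.Agent.S55.UnrAbs1

set_option autoImplicit false
set_option maxHeartbeats 1000000
set_option synthInstance.maxHeartbeats 400000
set_option linter.style.haveILetI false
set_option linter.unusedVariables false

noncomputable section

namespace Fermat.Agent.S55

open CategoryTheory Module groupCohomology ExtCitation

set_option linter.unusedSectionVars false

/-! ### Permutation modules -/

section Perm

variable {k : Type} [CommRing k] {Z : Type} [Fintype Z]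

/-- Every element of `k[Z]` is the sum of its components. -/
theorem pco_decomp (m : MonoidAlgebra k Z) :
    m = ∑ z : Z, MonoidAlgebra.single z (m.coeff z) := by
  classical
  apply MonoidAlgebra.coeff_injective
  rw [MonoidAlgebra.coeff_sum]
  simp only [MonoidAlgebra.coeff_single]
  exact (Finsupp.univ_sum_single _).symm

theorem pco_single_eq_smul (z : Z) (c : k) :
    MonoidAlgebra.single z c = c • MonoidAlgebra.single z (1 : k) := by
  rw [MonoidAlgebra.smul_single', mul_one]

/-- A functional on `k[Z]` in coordinates. -/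
theorem pco_dual_apply (φ : Module.Dual k (MonoidAlgebra k Z)) (m : MonoidAlgebra k Z) :
    φ m = ∑ z : Z, m.coeff z * φ (MonoidAlgebra.single z (1 : k)) := by
  conv_lhs => rw [pco_decomp m]
  rw [map_sum]
  refine Finset.sum_congr rfl fun z _ => ?_
  rw [pco_single_eq_smul, map_smul, smul_eq_mul]

/-- The functional with given coordinates. -/
def pco_dualOf (f : Z → k) : Module.Dual k (MonoidAlgebra k Z) :=
  ∑ z : Z, f z • ((Finsupp.lapply z) ∘ₗ (MonoidAlgebra.coeffLinearEquiv k).toLinearMap)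

theorem pco_dualOf_apply (f : Z → k) (m : MonoidAlgebra k Z) :
    pco_dualOf f m = ∑ z : Z, f z * m.coeff z := by
  rw [pco_dualOf, LinearMap.sum_apply]
  rfl

theorem pco_dualOf_single (f : Z → k) (x : Z) :
    pco_dualOf f (MonoidAlgebra.single x (1 : k)) = f x := by
  classical
  rw [pco_dualOf_apply]
  simp only [MonoidAlgebra.coeff_single]
  rw [Finset.sum_eq_single x]
  · rw [Finsupp.single_eq_same, mul_one]
  · intro z _ hz
    rw [Finsupp.single_eq_of_ne hz, mul_zero]
  · intro h
    exact absurd (Finset.mem_univ x) h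

end Perm

section Generic

variable {p : ℕ} [Fact p.Prime] {H : Type} [Group H] (r : H →* s55_GQ)
variable (Z : Type) [Fintype Z] [MulAction H Z]

/-- The coordinate of a functional on the permutation module at the point `z`. -/
def pco_π' (z : Z) : ld1_D r (Rep.ofMulAction (ZMod p) H Z) →ₗ[ZMod p] ld1_T (p := p) r :=
  (LinearMap.applyₗ (R := ZMod p) (M := Rep.ofMulAction (ZMod p) H Z) (M₂ := ZMod p)
    (MonoidAlgebra.single z (1 : ZMod p)) :
    Module.Dual (ZMod p) (Rep.ofMulAction (ZMod p) H Z) →ₗ[ZMod p] ZMod p)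

theorem pco_π'_apply (z : Z) (φ : ld1_D r (Rep.ofMulAction (ZMod p) H Z)) :
    pco_π' r Z z φ =
      (show Module.Dual (ZMod p) (Rep.ofMulAction (ZMod p) H Z) from φ)
        (MonoidAlgebra.single z (1 : ZMod p)) := rfl

/-- The coordinate system of the Tate dual of a permutation module (`B = F_p(1)`). -/
def pco_coord' : shp_Coord Z (ld1_D r (Rep.ofMulAction (ZMod p) H Z)) (ld1_T (p := p) r) where
  π := pco_π' r Z
  equiv g z φ := by
    rw [pco_π'_apply, pco_π'_apply, ld1d_D_ρ]
    have h1 : (Rep.ofMulAction (ZMod p) H Z).ρ g⁻¹ (MonoidAlgebra.single (g • z) (1 : ZMod p)) =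
        MonoidAlgebra.single z (1 : ZMod p) := by
      show Representation.ofMulAction (ZMod p) H Z g⁻¹ _ = _
      rw [Representation.ofMulAction_single, inv_smul_smul]
    rw [h1]
    show _ = (pt_T p).ρ (r g) _
    rw [adm_T_ρ]
  inj φ h := by
    apply LinearMap.ext
    intro m
    show (show Module.Dual (ZMod p) (MonoidAlgebra (ZMod p) Z) from φ) m = 0
    rw [pco_dual_apply]
    refine Finset.sum_eq_zero fun z _ => ?_
    have := h z
    rw [pco_π'_apply] at this
    show _ * (show Module.Dual (ZMod p) (MonoidAlgebra (ZMod p) Z) from φ) _ = 0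
    rw [this, mul_zero]
  surj f := ⟨(pco_dualOf (k := ZMod p) f : Module.Dual (ZMod p) (MonoidAlgebra (ZMod p) Z)),
    fun x => pco_dualOf_single f x⟩

theorem pco_coord'_π (z : Z) (φ : ld1_D r (Rep.ofMulAction (ZMod p) H Z)) :
    (pco_coord' (p := p) r Z).π z φ =
      (show Module.Dual (ZMod p) (Rep.ofMulAction (ZMod p) H Z) from φ)
        (MonoidAlgebra.single z (1 : ZMod p)) := rfl

/-- The evaluation pairing in coordinates. -/
theorem pco_ev_sum (a : Rep.ofMulAction (ZMod p) H Z)
    (φ : ld1_D r (Rep.ofMulAction (ZMod p) H Z)) :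
    (ld1_ev r (Rep.ofMulAction (ZMod p) H Z) a φ : ZMod p) =
      ∑ z : Z, ((lcdb_coord (k := ZMod p) (Γ := H) (X := Z)).π z a : ZMod p) *
        ((pco_coord' (p := p) r Z).π z φ : ZMod p) := by
  rw [ld1_ev_apply]
  exact pco_dual_apply (show Module.Dual (ZMod p) (MonoidAlgebra (ZMod p) Z) from φ) a

/-- The action on `F_p[Z]` in coordinates. -/
theorem pco_π_ρ (g : H) (z : Z) (m : Rep.ofMulAction (ZMod p) H Z) :
    (lcdb_coord (k := ZMod p) (Γ := H) (X := Z)).π z ((Rep.ofMulAction (ZMod p) H Z).ρ g m) =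
      (lcdb_coord (k := ZMod p) (Γ := H) (X := Z)).π (g⁻¹ • z) m := by
  have h := (lcdb_coord (k := ZMod p) (Γ := H) (X := Z)).equiv g (g⁻¹ • z) m
  rw [smul_inv_smul] at h
  exact h

/-- The action on the Tate dual of `F_p[Z]` in coordinates. -/
theorem pco_π'_ρ (g : H) (z : Z) (φ : ld1_D r (Rep.ofMulAction (ZMod p) H Z)) :
    ((pco_coord' (p := p) r Z).π z ((ld1_D r (Rep.ofMulAction (ZMod p) H Z)).ρ g φ) : ZMod p) =
      ((cycloChar p (r g) : (ZMod p)ˣ) : ZMod p) *
        ((pco_coord' (p := p) r Z).π (g⁻¹ • z) φ : ZMod p) := by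
  have h := (pco_coord' (p := p) r Z).equiv g (g⁻¹ • z) φ
  rw [smul_inv_smul] at h
  rw [h]
  show (pt_T p).ρ (r g) _ = _
  rw [adm_T_ρ]
  rfl

/-- On the stabilizer of `z` (which fixes `μ_p`) the coordinate `π'_z` is invariant. -/
theorem pco_π'_ρ_stab (hχ : ld1_ChiTriv r p Z) (z : Z) (g : H) (hg : g • z = z)
    (φ : ld1_D r (Rep.ofMulAction (ZMod p) H Z)) :
    (pco_coord' (p := p) r Z).π z ((ld1_D r (Rep.ofMulAction (ZMod p) H Z)).ρ g φ) =
      (pco_coord' (p := p) r Z).π z φ := by
  have h := pco_π'_ρ r Z g z φ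
  have hz : g⁻¹ • z = z := by
    rw [inv_smul_eq_iff, hg]
  rw [hχ z g hg, Units.val_one, one_mul, hz] at h
  exact h

/-- On the stabilizer of `z` the coordinate `π_z` is invariant. -/
theorem pco_π_ρ_stab (z : Z) (g : H) (hg : g • z = z) (m : Rep.ofMulAction (ZMod p) H Z) :
    (lcdb_coord (k := ZMod p) (Γ := H) (X := Z)).π z ((Rep.ofMulAction (ZMod p) H Z).ρ g m) =
      (lcdb_coord (k := ZMod p) (Γ := H) (X := Z)).π z m := by
  have hz : g⁻¹ • z = z := by
    rw [inv_smul_eq_iff, hg]
  rw [pco_π_ρ, hz]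

end Generic

section Reps

/-- A set of representatives of the orbits. -/
theorem pco_exists_reps (Γ : Type) [Group Γ] (Z : Type) [MulAction Γ Z] [Fintype Z] :
    ∃ T : Finset Z, shp_Covers Γ (T : Set Z) ∧ shp_Indep Γ (T : Set Z) := by
  classical
  let s : Setoid Z := MulAction.orbitRel Γ Z
  refine ⟨Finset.univ.filter (fun z => (Quotient.mk s z).out = z), ?_, ?_⟩
  · intro x
    have h1 : Quotient.mk s (Quotient.mk s x).out = Quotient.mk s x := Quotient.out_eq _
    have h2 : s.r (Quotient.mk s x).out x := Quotient.exact h1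
    obtain ⟨g, hg⟩ := (MulAction.orbitRel_apply.1 h2 : (Quotient.mk s x).out ∈ MulAction.orbit Γ x)
    refine ⟨(Quotient.mk s x).out, ?_, g⁻¹, ?_⟩
    · rw [Finset.coe_filter]
      exact ⟨Finset.mem_univ _, by rw [h1]⟩
    · rw [← hg]
      exact inv_smul_smul g x
  · intro t ht t' ht' ⟨g, hg⟩
    rw [Finset.coe_filter] at ht ht'
    have h1 : Quotient.mk s t' = Quotient.mk s t := by
      apply Quotient.sound
      exact MulAction.orbitRel_apply.2 ⟨g, hg⟩
    rw [← ht.2, ← ht'.2, h1]

end Reps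

section Local

variable (p q : ℕ) [Fact p.Prime] [Fact q.Prime]

theorem pco_zeta_prim : IsPrimitiveRoot (ld_zetaLoc p q) p := by
  rw [← IsPrimitiveRoot.coe_units_iff]
  exact (ld_zeta_spec p).map_of_injective (padicEmbedding q).toRingHom.injective

theorem pco_exp_sum {ι : Type} (s : Finset ι) (f : ι → ZMod p) :
    ptinv_exp p q (∑ i ∈ s, f i) = ∏ i ∈ s, ptinv_exp p q (f i) := by
  classical
  induction s using Finset.induction_on with
  | empty => rw [Finset.sum_empty, Finset.prod_empty, ptinv_exp_zero]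
  | insert a s ha ih => rw [Finset.sum_insert ha, Finset.prod_insert ha, ptinv_exp_add, ih]

variable {q} (Z : Type) [MulAction (lcf_Gal q) Z]

/-- A smooth action (global level) is smooth for a local level. -/
theorem pco_smooth_local (hZ : ld1_SmoothAct (localGaloisToGlobal q) Z) :
    ∃ E : IntermediateField ℚ_[q] (PadicAlgCl q), FiniteDimensional ℚ_[q] E ∧
      ∀ s ∈ E.fixingSubgroup, ∀ z : Z, s • z = z := by
  obtain ⟨F, hF, h⟩ := hZ
  obtain ⟨E, hE, hEF⟩ := kras_conv q F hF
  exact ⟨E, hE, fun s hs z => h s (hEF s hs) z⟩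

/-- The stabilizers of a smooth action are open. -/
theorem pco_stab_isOpen (hZ : ld1_SmoothAct (localGaloisToGlobal q) Z) (z : Z) :
    lcf_IsOpen (MulAction.stabilizer (lcf_Gal q) z) := by
  obtain ⟨E, hE, h⟩ := pco_smooth_local Z hZ
  exact ⟨E, hE, fun s hs => MulAction.mem_stabilizer_iff.2 (h s hs z)⟩

/-- The stabilizers fix `ζ`. -/
theorem pco_zeta_fix (hχ : ld1_ChiTriv (localGaloisToGlobal q) p Z) (z : Z)
    (g : ↥(MulAction.stabilizer (lcf_Gal q) z)) : g • ld_zetaLoc p q = ld_zetaLoc p q := by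
  have h1 : cycloChar p (localGaloisToGlobal q (g : lcf_Gal q)) = 1 :=
    hχ z g (MulAction.mem_stabilizer_iff.1 g.2)
  have h2 := ptinv_zeta_smul p q (g : lcf_Gal q)
  rw [h1, Units.val_one, ZMod.val_one, pow_one] at h2
  exact h2

theorem pco_exp_fix (hχ : ld1_ChiTriv (localGaloisToGlobal q) p Z) (z : Z)
    (g : ↥(MulAction.stabilizer (lcf_Gal q) z)) (a : ZMod p) :
    g • ptinv_exp p q a = ptinv_exp p q a := by
  rw [ptinv_exp, smul_pow', pco_zeta_fix p Z hχ z g]

/-- Below every open level there is a NORMAL open subgroup, which is also open for the global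
levels (`kras_main`). -/
theorem pco_exists_level (E : IntermediateField ℚ_[q] (PadicAlgCl q))
    (hE : FiniteDimensional ℚ_[q] E) :
    ∃ N : Subgroup (lcf_Gal q), N.Normal ∧ N ≤ E.fixingSubgroup ∧ lcf_IsOpen N ∧
      ∃ F : IntermediateField ℚ (AlgebraicClosure ℚ), FiniteDimensional ℚ F ∧
        ∀ s : lcf_Gal q, localGaloisToGlobal q s ∈ F.fixingSubgroup → s ∈ N := by
  obtain ⟨Nf, hNfin, hNnorm, hEN, -⟩ := lh3m_exists_normal E hE ∅ Set.finite_empty
  obtain ⟨F, hF, hFN⟩ := kras_main q Nf hNfin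
  refine ⟨Nf.fixingSubgroup, ⟨fun n hn g => ?_⟩,
    IntermediateField.fixingSubgroup_antitone hEN, ⟨Nf, hNfin, le_refl _⟩, F, hF, hFN⟩
  have h := lh3m_conj_mem Nf g⁻¹ n hn
  rwa [inv_inv] at h

end Local

end Fermat.Agent.S55
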