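/-
S55 (Poitou-Tate), LOCAL layer, package [ARCH] = [C4]: the archimedean place.  Owner: helper27.
Prefix `larch_`.

PART 1 (generic, any finite group `H`, any commutative ring `k` in which `Nat.card H` is
invertible, any `A : Rep k H`): averaging over the group shows that every 1-cocycle is `d₀₁` of an
element, every 2-cocycle is `d₁₂` of a 1-cochain and every 3-cocycle (`pt_IsCocycle₃`) is `d₂₃` of
a 2-cochain.
PART 2: the archimedean decomposition group `archimedeanDecomposition = zpowers complexConjugation`
is finite of order dividing 2, and EVERY function on it (in 1, 2 or 3 variables) is level constant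
for `archimedeanLoc`.
PART 3: the exports for `v = Sum.inl u : extArithIndex S` and `p` odd.
-/
import Mathlib
import Fermat.Agent.S55.PTDev

set_option autoImplicit false
set_option maxHeartbeats 1000000
set_option synthInstance.maxHeartbeats 400000
open CategoryTheory Module groupCohomology ExtCitation

namespace Fermat.Agent.S55

/-! ### Part 1: averaging over a finite group -/

section Averaging

variable {k H : Type} [CommRing k] [Group H] [Fintype H] (A : Rep k H)

/-- Reindexing a sum over a finite group by a left translation. -/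
theorem larch_sum_mul_left {X : Type*} [AddCommMonoid X] (h : H) (f : H → X) :
    ∑ x : H, f (h * x) = ∑ x : H, f x :=
  Fintype.sum_equiv (Equiv.mulLeft h) _ _ (fun _ => rfl)

/-- **Averaging, degree 1**: if `|H|` is invertible in `k`, every 1-cocycle is a coboundary. -/
theorem larch_avg₁ (c : k) (hc : (Fintype.card H : k) * c = 1) (f : H → A)
    (hf : f ∈ cocycles₁ A) : (d₀₁ A).hom (-(c • ∑ x : H, f x)) = f := by
  rw [mem_cocycles₁_def] at hf
  funext g
  rw [d₀₁_hom_apply]
  have hsum : ∑ x : H, (A.ρ g (f x) - f (g * x) + f g) = 0 :=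
    Finset.sum_eq_zero fun x _ => hf g x
  rw [Finset.sum_add_distrib, Finset.sum_sub_distrib, larch_sum_mul_left g f,
    Finset.sum_const, Finset.card_univ, ← map_sum] at hsum
  have h2 : c • (A.ρ g (∑ x : H, f x) - ∑ x : H, f x + Fintype.card H • f g) = 0 := by
    rw [hsum, smul_zero]
  rw [smul_add, smul_sub, ← Nat.cast_smul_eq_nsmul k, smul_smul, mul_comm, hc, one_smul] at h2
  rw [map_neg, map_smul]
  have h3 : f g = -(c • A.ρ g (∑ x : H, f x) - c • ∑ x : H, f x) := eq_neg_of_add_eq_zero_right h2
  rw [h3]
  abel

/-- **Averaging, degree 2**: if `|H|` is invertible in `k`, every 2-cocycle is a coboundary. -/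
theorem larch_avg₂ (c : k) (hc : (Fintype.card H : k) * c = 1) (f : H × H → A)
    (hf : f ∈ cocycles₂ A) :
    (d₁₂ A).hom (fun g => c • ∑ x : H, f (g, x)) = f := by
  rw [mem_cocycles₂_def] at hf
  funext ⟨g, h⟩
  rw [d₁₂_hom_apply]
  have hsum : ∑ x : H, (A.ρ g (f (h, x)) - f (g * h, x) + f (g, h * x) - f (g, h)) = 0 :=
    Finset.sum_eq_zero fun x _ => hf g h x
  rw [Finset.sum_sub_distrib, Finset.sum_add_distrib, Finset.sum_sub_distrib,
    larch_sum_mul_left h (fun x => f (g, x)),
    Finset.sum_const, Finset.card_univ, ← map_sum] at hsum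
  have h2 : c • (A.ρ g (∑ x : H, f (h, x)) - ∑ x : H, f (g * h, x) + ∑ x : H, f (g, x)
      - Fintype.card H • f (g, h)) = 0 := by
    rw [hsum, smul_zero]
  rw [smul_sub, smul_add, smul_sub, ← Nat.cast_smul_eq_nsmul k, smul_smul, mul_comm, hc,
    one_smul] at h2
  simp only [map_smul]
  exact sub_eq_zero.1 h2

/-- **Averaging, degree 3**: if `|H|` is invertible in `k`, every 3-cocycle is a coboundary. -/
theorem larch_avg₃ (c : k) (hc : (Fintype.card H : k) * c = 1) (z : H × H × H → A)
    (hz : pt_IsCocycle₃ A z) :
    (d₂₃ A).hom (fun g => -(c • ∑ x : H, z (g.1, g.2, x))) = z := by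
  funext ⟨g, h, j⟩
  rw [d₂₃_hom_apply]
  have hsum : ∑ x : H, (A.ρ g (z (h, j, x)) - z (g * h, j, x) + z (g, h * j, x)
      - z (g, h, j * x) + z (g, h, j)) = 0 :=
    Finset.sum_eq_zero fun x _ => hz g h j x
  rw [Finset.sum_add_distrib, Finset.sum_sub_distrib, Finset.sum_add_distrib,
    Finset.sum_sub_distrib, larch_sum_mul_left j (fun x => z (g, h, x)),
    Finset.sum_const, Finset.card_univ, ← map_sum] at hsum
  have h2 : c • (A.ρ g (∑ x : H, z (h, j, x)) - ∑ x : H, z (g * h, j, x)
      + ∑ x : H, z (g, h * j, x) - ∑ x : H, z (g, h, x) + Fintype.card H • z (g, h, j)) = 0 := by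
    rw [hsum, smul_zero]
  rw [smul_add, smul_sub, smul_add, smul_sub, ← Nat.cast_smul_eq_nsmul k, smul_smul, mul_comm,
    hc, one_smul] at h2
  simp only [map_neg, map_smul]
  have h3 : z (g, h, j) = -(c • A.ρ g (∑ x : H, z (h, j, x)) - c • ∑ x : H, z (g * h, j, x)
      + c • ∑ x : H, z (g, h * j, x) - c • ∑ x : H, z (g, h, x)) :=
    eq_neg_of_add_eq_zero_right h2
  rw [h3]
  abel

end Averaging

/-! ### Part 2: the archimedean decomposition group -/

section ArchGroup

/-- Every element of the archimedean decomposition group is `1` or complex conjugation. -/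
theorem larch_eq_one_or_eq_gen (s : archimedeanDecomposition) :
    s = 1 ∨ s = archimedeanGen := by
  obtain ⟨n, hn⟩ := Subgroup.mem_zpowers_iff.1 s.2
  rcases Int.even_or_odd' n with ⟨m, rfl | rfl⟩
  · left
    apply Subtype.ext
    rw [← hn, zpow_mul, zpow_ofNat, complexConjugation_sq, one_zpow]
    rfl
  · right
    apply Subtype.ext
    rw [← hn, zpow_add, zpow_mul, zpow_ofNat, complexConjugation_sq, one_zpow, one_mul, zpow_one]
    rfl

theorem larch_gen_mul_gen : archimedeanGen * archimedeanGen = 1 :=
  Subtype.ext complexConjugation_mul_self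

instance larch_finite : Finite ↥archimedeanDecomposition := by
  classical
  refine Finite.of_injective (fun s : archimedeanDecomposition => decide (s = 1)) ?_
  intro s t hst
  have hst' : (s = 1) ↔ (t = 1) := by simpa using hst
  rcases larch_eq_one_or_eq_gen s with hs | hs
  · rw [hs, (hst'.1 hs)]
  · rcases larch_eq_one_or_eq_gen t with ht | ht
    · rw [ht, (hst'.2 ht)]
    · rw [hs, ht]

/-- The order of the archimedean decomposition group divides `2`. -/
theorem larch_card_dvd_two : Nat.card ↥archimedeanDecomposition ∣ 2 := by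
  rw [archimedeanDecomposition, Nat.card_zpowers]
  exact orderOf_dvd_of_pow_eq_one complexConjugation_sq

/-- For odd `p` the order of the archimedean decomposition group is invertible in `ZMod p`. -/
theorem larch_exists_inv {p : ℕ} [Fact p.Prime] (hp : p ≠ 2) :
    ∃ c : ZMod p, (Nat.card ↥archimedeanDecomposition : ZMod p) * c = 1 := by
  have hne : (Nat.card ↥archimedeanDecomposition : ZMod p) ≠ 0 := by
    intro h0
    have hdvd : p ∣ Nat.card ↥archimedeanDecomposition := (ZMod.natCast_eq_zero_iff _ _).1 h0
    have h2 : p ∣ 2 := hdvd.trans larch_card_dvd_two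
    exact hp ((Nat.prime_dvd_prime_iff_eq (Fact.out : p.Prime) Nat.prime_two).1 h2)
  exact ⟨(Nat.card ↥archimedeanDecomposition : ZMod p)⁻¹, mul_inv_cancel₀ hne⟩

/-- There is a number field `F` such that the only element of the archimedean decomposition group
fixing `F` is the identity. -/
theorem larch_exists_level :
    ∃ F : IntermediateField ℚ (AlgebraicClosure ℚ), FiniteDimensional ℚ F ∧
      ∀ s : archimedeanDecomposition, archimedeanLoc s ∈ F.fixingSubgroup → s = 1 := by
  by_cases hcc : complexConjugation = 1
  · refine ⟨⊥, inferInstance, fun s _ => ?_⟩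
    rcases larch_eq_one_or_eq_gen s with hs | hs
    · exact hs
    · rw [hs]
      exact Subtype.ext hcc
  · have hx : ∃ x : AlgebraicClosure ℚ, complexConjugation x ≠ x := by
      by_contra hall
      push Not at hall
      exact hcc (AlgEquiv.ext hall)
    obtain ⟨x, hx⟩ := hx
    have : Algebra.IsAlgebraic ℚ (AlgebraicClosure ℚ) := AlgebraicClosure.isAlgebraic ℚ
    have hint : IsIntegral ℚ x := (Algebra.IsAlgebraic.isAlgebraic x).isIntegral
    refine ⟨IntermediateField.adjoin ℚ {x}, IntermediateField.adjoin.finiteDimensional hint,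
      fun s hs => ?_⟩
    rcases larch_eq_one_or_eq_gen s with h1 | h1
    · exact h1
    · exfalso
      rw [h1] at hs
      have hfix := (IntermediateField.mem_fixingSubgroup_iff _ _).1 hs x
        (IntermediateField.mem_adjoin_simple_self ℚ x)
      exact hx hfix

/-- Every function on the archimedean decomposition group is level constant. -/
theorem larch_isLevelConstant₁ {X : Type*} (f : ↥archimedeanDecomposition → X) :
    IsLevelConstant₁ archimedeanLoc f := by
  obtain ⟨F, hF, h⟩ := larch_exists_level
  refine ⟨F, hF, fun g s hs => ?_⟩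
  rw [h s hs, mul_one]

/-- Every function of two variables on the archimedean decomposition group is level constant. -/
theorem larch_isLevelConstant₂ {X : Type*}
    (f : ↥archimedeanDecomposition × ↥archimedeanDecomposition → X) :
    IsLevelConstant₂ archimedeanLoc f := by
  obtain ⟨F, hF, h⟩ := larch_exists_level
  refine ⟨F, hF, fun g g' s s' hs hs' => ?_⟩
  rw [h s hs, h s' hs', mul_one, mul_one]

/-- Every function of three variables on the archimedean decomposition group is level constant. -/
theorem larch_isLevel₃ {X : Type*}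
    (f : ↥archimedeanDecomposition × ↥archimedeanDecomposition × ↥archimedeanDecomposition → X) :
    pt_IsLevel₃ archimedeanLoc f := by
  obtain ⟨F, hF, h⟩ := larch_exists_level
  refine ⟨F, hF, fun g g' g'' s s' s'' hs hs' hs'' => ?_⟩
  rw [h s hs, h s' hs', h s'' hs'', mul_one, mul_one, mul_one]

end ArchGroup

/-! ### Part 3: vanishing of the archimedean cohomology for odd `p` -/

section ArchVanishing

variable {p : ℕ} [Fact p.Prime] (A : Rep (ZMod p) ↥archimedeanDecomposition)

/-- `H¹(ℝ, A) = 0` for `p` odd, cochain form. -/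
theorem larch_cob₁ (hp : p ≠ 2) (f : ↥archimedeanDecomposition → A) (hf : f ∈ cocycles₁ A) :
    ∃ a : A, (d₀₁ A).hom a = f := by
  classical
  have : Fintype ↥archimedeanDecomposition := Fintype.ofFinite _
  obtain ⟨c, hc⟩ := larch_exists_inv (p := p) hp
  rw [Nat.card_eq_fintype_card] at hc
  exact ⟨_, larch_avg₁ A c hc f hf⟩

/-- `H²(ℝ, A) = 0` for `p` odd, cochain form (the cobounding cochain is level constant). -/
theorem larch_cob₂ (hp : p ≠ 2) (f : ↥archimedeanDecomposition × ↥archimedeanDecomposition → A)
    (hf : f ∈ cocycles₂ A) :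
    ∃ a : ↥archimedeanDecomposition → A,
      IsLevelConstant₁ archimedeanLoc a ∧ (d₁₂ A).hom a = f := by
  classical
  have : Fintype ↥archimedeanDecomposition := Fintype.ofFinite _
  obtain ⟨c, hc⟩ := larch_exists_inv (p := p) hp
  rw [Nat.card_eq_fintype_card] at hc
  exact ⟨_, larch_isLevelConstant₁ _, larch_avg₂ A c hc f hf⟩

/-- `H³(ℝ, A) = 0` for `p` odd, cochain form (the cobounding cochain is level constant). -/
theorem larch_cob₃ (hp : p ≠ 2)
    (z : ↥archimedeanDecomposition × ↥archimedeanDecomposition × ↥archimedeanDecomposition → A)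
    (hz : pt_IsCocycle₃ A z) :
    ∃ a : ↥archimedeanDecomposition × ↥archimedeanDecomposition → A,
      IsLevelConstant₂ archimedeanLoc a ∧ (d₂₃ A).hom a = z := by
  classical
  have : Fintype ↥archimedeanDecomposition := Fintype.ofFinite _
  obtain ⟨c, hc⟩ := larch_exists_inv (p := p) hp
  rw [Nat.card_eq_fintype_card] at hc
  exact ⟨_, larch_isLevelConstant₂ _, larch_avg₃ A c hc z hz⟩

/-- `H¹(ℝ, A) = 0` for `p` odd. -/
theorem larch_H1_eq_zero (hp : p ≠ 2) (x : H1 A) : x = 0 := by
  induction x using H1_induction_on with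
  | h f =>
    obtain ⟨a, ha⟩ := larch_cob₁ A hp f.1 f.2
    exact (H1π_eq_zero_iff f).2 ⟨a, ha⟩

/-- `H²_cts(ℝ, A) = 0` for `p` odd. -/
theorem larch_continuousH2_eq_zero (hp : p ≠ 2) (x : continuousH2 archimedeanLoc A) : x = 0 := by
  obtain ⟨f, rfl⟩ := Submodule.mkQ_surjective _ x
  obtain ⟨a, ha, hda⟩ := larch_cob₂ A hp f.1 f.2.1
  exact (continuousH2π_eq_zero_iff archimedeanLoc A f).2
    ((mem_levelCoboundaries₂_iff archimedeanLoc A _).2 ⟨a, ha, hda⟩)

end ArchVanishing

/-! ### Part 4: the exports at the archimedean place `v = Sum.inl u` of `extArithIndex S`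

All exports are stated for a variable place `v` together with `hv : v = Sum.inl u`; a consumer that
has done `rcases v with u | q` passes `rfl`. -/

section ArchExports

variable {p : ℕ} [Fact p.Prime] (S : Finset Nat.Primes)
  (M : Rep.{0, 0, 0} (ZMod p) s55_GQ) {v : extArithIndex S} {u : Unit}

/-- At the archimedean place every function is level constant (degree 1). -/
theorem larch_isLevelConstant₁_inl (hv : v = Sum.inl u) {X : Type*}
    (f : extArithLocalGroups S v → X) : IsLevelConstant₁ (extArithLoc S v) f := by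
  subst hv
  exact larch_isLevelConstant₁ f

/-- At the archimedean place every function is level constant (degree 2). -/
theorem larch_isLevelConstant₂_inl (hv : v = Sum.inl u) {X : Type*}
    (f : extArithLocalGroups S v × extArithLocalGroups S v → X) :
    IsLevelConstant₂ (extArithLoc S v) f := by
  subst hv
  exact larch_isLevelConstant₂ f

/-- At the archimedean place every function is level constant (degree 3). -/
theorem larch_isLevel₃_inl (hv : v = Sum.inl u) {X : Type*}
    (f : extArithLocalGroups S v × extArithLocalGroups S v × extArithLocalGroups S v → X) :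
    pt_IsLevel₃ (extArithLoc S v) f := by
  subst hv
  exact larch_isLevel₃ f

/-- **[ARCH], degree 3** = the case `v = Sum.inl u` of `pt_LCDStatement` (no hypothesis on `M`). -/
theorem larch_LCD_inl (hp : p ≠ 2) (hv : v = Sum.inl u)
    (z : extArithLocalGroups S v × extArithLocalGroups S v × extArithLocalGroups S v →
        Rep.res (extArithLoc S v) M)
    (hz : pt_IsCocycle₃ (Rep.res (extArithLoc S v) M) z) :
    ∃ a : extArithLocalGroups S v × extArithLocalGroups S v → Rep.res (extArithLoc S v) M,
      IsLevelConstant₂ (extArithLoc S v) a ∧ (d₂₃ (Rep.res (extArithLoc S v) M)).hom a = z := by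
  subst hv
  exact larch_cob₃ (Rep.res archimedeanLoc M) hp z hz

/-- **[ARCH], degree 2, cochain form**: at the archimedean place every 2-cocycle is the coboundary
of a level-constant 1-cochain. -/
theorem larch_cob₂_inl (hp : p ≠ 2) (hv : v = Sum.inl u)
    (f : extArithLocalGroups S v × extArithLocalGroups S v → Rep.res (extArithLoc S v) M)
    (hf : f ∈ cocycles₂ (Rep.res (extArithLoc S v) M)) :
    ∃ a : extArithLocalGroups S v → Rep.res (extArithLoc S v) M,
      IsLevelConstant₁ (extArithLoc S v) a ∧ (d₁₂ (Rep.res (extArithLoc S v) M)).hom a = f := by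
  subst hv
  exact larch_cob₂ (Rep.res archimedeanLoc M) hp f hf

/-- **[ARCH], degree 1, cochain form**: at the archimedean place every 1-cocycle is a
coboundary. -/
theorem larch_cob₁_inl (hp : p ≠ 2) (hv : v = Sum.inl u)
    (f : extArithLocalGroups S v → Rep.res (extArithLoc S v) M)
    (hf : f ∈ cocycles₁ (Rep.res (extArithLoc S v) M)) :
    ∃ a : Rep.res (extArithLoc S v) M, (d₀₁ (Rep.res (extArithLoc S v) M)).hom a = f := by
  subst hv
  exact larch_cob₁ (Rep.res archimedeanLoc M) hp f hf

/-- **[ARCH], degree 2**: `H²_cts(ℚ_∞, M) = 0` for `p` odd. -/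
theorem larch_continuousH2_inl_eq_zero (hp : p ≠ 2) (hv : v = Sum.inl u)
    (x : continuousH2 (extArithLoc S v) (Rep.res (extArithLoc S v) M)) : x = 0 := by
  subst hv
  exact larch_continuousH2_eq_zero (Rep.res archimedeanLoc M) hp x

/-- **[ARCH], degree 1**: `H¹(ℚ_∞, M) = 0` for `p` odd. -/
theorem larch_H1_inl_eq_zero (hp : p ≠ 2) (hv : v = Sum.inl u)
    (x : H1 (Rep.res (extArithLoc S v) M)) : x = 0 := by
  subst hv
  exact larch_H1_eq_zero (Rep.res archimedeanLoc M) hp x

/-- **[ARCH], degree 1**: `H¹_cts(ℚ_∞, M) = 0` for `p` odd, as elements of `asm_H1v`. -/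
theorem larch_asm_H1v_inl_eq_zero (hp : p ≠ 2) (hv : v = Sum.inl u)
    (x : ↥(asm_H1v S v M)) : x = 0 :=
  Subtype.ext (larch_H1_inl_eq_zero S M hp hv x.1)

/-- **[LCD] reduced to the finite places**: `pt_LCDStatement` holds as soon as its finite-place
cases `v = Sum.inr q` hold. -/
theorem larch_LCD_of_finite
    (h : ∀ {p : ℕ} [Fact p.Prime], p ≠ 2 → ∀ (S : Finset Nat.Primes), pPrime p ∈ S →
      ∀ (M : Rep.{0, 0, 0} (ZMod p) s55_GQ) [FiniteDimensional (ZMod p) M],
        s55_Smooth M → s55_UnramOutside S M →
        ∀ (v : extArithIndex S) (q : ↥S), v = Sum.inr q →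
        ∀ (z : extArithLocalGroups S v × extArithLocalGroups S v × extArithLocalGroups S v →
            Rep.res (extArithLoc S v) M),
          pt_IsLevel₃ (extArithLoc S v) z → pt_IsCocycle₃ (Rep.res (extArithLoc S v) M) z →
          ∃ a : extArithLocalGroups S v × extArithLocalGroups S v → Rep.res (extArithLoc S v) M,
            IsLevelConstant₂ (extArithLoc S v) a ∧
              (d₂₃ (Rep.res (extArithLoc S v) M)).hom a = z) :
    pt_LCDStatement := by
  intro p _ hp S hS M _ hsm hur v z hlev hz
  rcases v with u | q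
  · exact larch_LCD_inl S M hp rfl z hz
  · exact h hp S hS M hsm hur _ q rfl z hlev hz

end ArchExports

end Fermat.Agent.S55
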