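/-
S55 (wave 5), LOCAL side: the LEAVES of [INV-BUILD] (construction of the local invariant system
`lcf_InvStatement` of `LCFDefs.lean`).  Owner of the interface: helper3.  Prefix `lcf_`.

`lcf_IsUnrDatum U n θ φ ϖ` : "unramified datum of modulus `n`" for the open subgroup `U`:
  a smooth character `θ : U → ℤ/n` killing inertia, a Frobenius element `φ` with `θ φ = 1`,
  and a uniformizer `ϖ` of the fixed field `K_U`.  Its class is `u = ϖ ^ δθ = lcf_unrCoc U n θ ϖ`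
  (invariant `1/n`).

Leaves (closed Props):
* `lcf_UnrClassStatement` [UNR-CLASS] : `u ^ k ~ u' ^ k'`  iff  `k/n = k'/n'` in `ℚ/ℤ`
      (for two unramified data of moduli `n`, `n'` of the same `U`);
* `lcf_EFStatement`       [EF]        : the fundamental identity `e f = [K_U' : K_U]`;
* `lcf_ResUnrStatement`   [RES-UNR]   : `res_{U'} (ϖ ^ δθ) ~ (ϖ' ^ δθ') ^ [U : U']`;
* `lcf_ConjUnrStatement`  [CONJ-UNR]  : conjugation by `τ` carries unramified data to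
      unramified data;
* `lcf_SplitStatement` [SPLIT], `lcf_UnrCharStatement` [UNR-CHAR], `lcf_UnifStatement` [UNIF]
      are in `LCFLeaves.lean`.
`lcf_InvBuildStatement` [INV-BUILD] : these leaves give `lcf_InvStatement`.
-/
import Fermat.Agent.S55.Local.LCFLeaves

set_option autoImplicit false

noncomputable section

namespace Fermat.Agent.S55

open groupCohomology

/-- An unramified datum of modulus `n` for the subgroup `U`. -/
structure lcf_IsUnrDatum {q : ℕ} [Fact q.Prime] (U : Subgroup (lcf_Gal q)) (n : ℕ)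
    (θ : ↥U →* Multiplicative (ZMod n)) (φ : ↥U) (ϖ : (PadicAlgCl q)ˣ) : Prop where
  smooth : lcf_Smooth₁ U θ
  inert : ∀ s : ↥U, lcf_IsInert (s : lcf_Gal q) → θ s = 1
  frob : lcf_IsFrob U φ
  one : θ φ = Multiplicative.ofAdd 1
  unif : lcf_IsUnif U ϖ

/-- **[UNR-CLASS]** comparison of unramified classes: for unramified data of moduli `n` and `n'`
of the same open subgroup, `(ϖ ^ δθ) ^ k` and `(ϖ' ^ δθ') ^ k'` differ by a smooth coboundary
if and only if `k / n = k' / n'` in `ℚ/ℤ`.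
(Common modulus `n n'`; the unramified character of a given modulus is unique; change of modulus
`(a ^ δθ_{nm}) ^ m ~ a ^ δθ_n`; units are norms from unramified extensions; [UNR-INJ];
[SYM-NORM] for `(ϖ ^ δθ) ^ n = (N ϖ) ^ δθ`.) -/
def lcf_UnrClassStatement : Prop :=
  ∀ (q : ℕ) [Fact q.Prime] (U : Subgroup (lcf_Gal q)), lcf_IsOpen U →
    ∀ (n n' : ℕ) [NeZero n] [NeZero n'] (θ : ↥U →* Multiplicative (ZMod n)) (φ : ↥U)
      (ϖ : (PadicAlgCl q)ˣ) (θ' : ↥U →* Multiplicative (ZMod n')) (φ' : ↥U)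
      (ϖ' : (PadicAlgCl q)ˣ) (k k' : ℕ),
      lcf_IsUnrDatum U n θ φ ϖ → lcf_IsUnrDatum U n' θ' φ' ϖ' →
      (lcf_IsCob U ((lcf_unrCoc U n θ ϖ) ^ k / (lcf_unrCoc U n' θ' ϖ') ^ k') ↔
        lcf_qz ((k : ℚ) / (n : ℚ)) = lcf_qz ((k' : ℚ) / (n' : ℚ)))

/-- **[EF]** the fundamental identity for the extension `K_U' / K_U` of the fixed fields of two
open subgroups `U' ≤ U`: `e f = [U : U']`, where `|ϖ| = |ϖ'| ^ e` and `N' = N ^ f`. -/
def lcf_EFStatement : Prop :=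
  ∀ (q : ℕ) [Fact q.Prime] (U U' : Subgroup (lcf_Gal q)), U' ≤ U → lcf_IsOpen U' →
    ∀ ϖ ϖ' : (PadicAlgCl q)ˣ, lcf_IsUnif U ϖ → lcf_IsUnif U' ϖ' →
      ∃ e f : ℕ, ‖(ϖ : PadicAlgCl q)‖ = ‖(ϖ' : PadicAlgCl q)‖ ^ e ∧
        lcf_resCard U' = lcf_resCard U ^ f ∧ e * f = U'.relIndex U

/-- **[RES-UNR]** restriction of unramified classes: for open subgroups `U' ≤ U` and unramified
data of the same modulus `n` for `U` and for `U'`,
`res (ϖ ^ δθ) ~ (ϖ' ^ δθ') ^ [U : U']` (smooth coboundary on `U'`).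
(`θ|U' = f • θ'`, `ϖ = unit * ϖ' ^ e`, [EF], units are norms.) -/
def lcf_ResUnrStatement : Prop :=
  ∀ (q : ℕ) [Fact q.Prime] (U U' : Subgroup (lcf_Gal q)) (h : U' ≤ U), lcf_IsOpen U' →
    ∀ (n : ℕ) [NeZero n] (θ : ↥U →* Multiplicative (ZMod n)) (φ : ↥U)
      (ϖ : (PadicAlgCl q)ˣ) (θ' : ↥U' →* Multiplicative (ZMod n)) (φ' : ↥U')
      (ϖ' : (PadicAlgCl q)ˣ),
      lcf_IsUnrDatum U n θ φ ϖ → lcf_IsUnrDatum U' n θ' φ' ϖ' →
      lcf_IsCob U' (lcf_res h (lcf_unrCoc U n θ ϖ) / (lcf_unrCoc U' n θ' ϖ') ^ (U'.relIndex U))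

/-- **[CONJ-UNR]** conjugation by `τ ∈ Gal(Ω/ℚ_q)` carries an unramified datum of `U` to an
unramified datum of `U' = τ U τ⁻¹` (with uniformizer `τ ϖ` and character `θ ∘ (τ⁻¹ · τ)`). -/
def lcf_ConjUnrStatement : Prop :=
  ∀ (q : ℕ) [Fact q.Prime] (U U' : Subgroup (lcf_Gal q)) (τ : lcf_Gal q), lcf_IsOpen U →
    (∀ g : lcf_Gal q, g ∈ U' ↔ τ⁻¹ * g * τ ∈ U) →
    ∀ (n : ℕ) [NeZero n] (θ : ↥U →* Multiplicative (ZMod n)) (φ : ↥U)
      (ϖ : (PadicAlgCl q)ˣ), lcf_IsUnrDatum U n θ φ ϖ →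
      ∃ (θ' : ↥U' →* Multiplicative (ZMod n)) (φ' : ↥U'),
        lcf_IsUnrDatum U' n θ' φ' (τ • ϖ) ∧
        ∀ (g : ↥U) (g' : ↥U'), (g' : lcf_Gal q) = τ * g * τ⁻¹ → θ' g' = θ g

/-- **[INV-BUILD]** the local invariant system from its leaves. -/
def lcf_InvBuildStatement : Prop :=
  lcf_SplitStatement → lcf_UnrClassStatement → lcf_UnrCharStatement → lcf_UnifStatement →
    lcf_ResUnrStatement → lcf_ConjUnrStatement → lcf_InvStatement

end Fermat.Agent.S55
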