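/-
S55 (wave 5), LOCAL side, leaves [KUM1], [KUM2]: Kummer theory in degrees 1 and 2 for smooth
cochains of an open subgroup of the local Galois group, from Hilbert 90 (`H90.lean`).
Prefix `lkum_`.
-/
import Fermat.Agent.S55.Local.LDLeaves
import Fermat.Agent.S55.Local.H90

set_option autoImplicit false

noncomputable section

namespace Fermat.Agent.S55

open groupCohomology

variable {q : ℕ} [Fact q.Prime]

/-- A smooth cochain of level `E` is smooth of every larger level. -/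
theorem lkum_smooth_mono {X : Type*} {U : Subgroup (lcf_Gal q)} {b : ↥U → X}
    {E E' : IntermediateField ℚ_[q] (PadicAlgCl q)} (hEE' : E ≤ E')
    (h : ∀ g s : ↥U, (s : lcf_Gal q) ∈ E.fixingSubgroup → b (g * s) = b g) :
    ∀ g s : ↥U, (s : lcf_Gal q) ∈ E'.fixingSubgroup → b (g * s) = b g :=
  fun g s hs => h g s (IntermediateField.fixingSubgroup_antitone hEE' hs)

/-- The coboundary `g ↦ g x / x` of an element of `Ωˣ` is smooth. -/
theorem lkum_smooth_d0 (U : Subgroup (lcf_Gal q)) (x : (PadicAlgCl q)ˣ) :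
    lcf_Smooth₁ U (fun g : ↥U => g • x / x) := by
  have hint : IsIntegral ℚ_[q] (x : PadicAlgCl q) := Algebra.IsIntegral.isIntegral _
  refine ⟨IntermediateField.adjoin ℚ_[q] {(x : PadicAlgCl q)},
    IntermediateField.adjoin.finiteDimensional hint, fun g s hs => ?_⟩
  have hsx : (s : lcf_Gal q) (x : PadicAlgCl q) = x :=
    (IntermediateField.mem_fixingSubgroup_iff _ _).1 hs _
      (IntermediateField.mem_adjoin_simple_self ℚ_[q] _)
  have hsx' : s • x = x := Units.ext hsx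
  show (g * s) • x / x = g • x / x
  rw [mul_smul, hsx']

/-- The product of two smooth cochains is smooth. -/
theorem lkum_smooth_mul {U : Subgroup (lcf_Gal q)} {b b' : ↥U → (PadicAlgCl q)ˣ}
    (hb : lcf_Smooth₁ U b) (hb' : lcf_Smooth₁ U b') : lcf_Smooth₁ U (fun g => b g * b' g) := by
  obtain ⟨E, hE, h⟩ := hb
  obtain ⟨E', hE', h'⟩ := hb'
  have : FiniteDimensional ℚ_[q] ↥E := hE
  have : FiniteDimensional ℚ_[q] ↥E' := hE'
  refine ⟨E ⊔ E', IntermediateField.finiteDimensional_sup E E', fun g s hs => ?_⟩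
  show b (g * s) * b' (g * s) = b g * b' g
  rw [lkum_smooth_mono le_sup_left h g s hs, lkum_smooth_mono le_sup_right h' g s hs]

/-- The inverse of a smooth cochain is smooth. -/
theorem lkum_smooth_inv {U : Subgroup (lcf_Gal q)} {b : ↥U → (PadicAlgCl q)ˣ}
    (hb : lcf_Smooth₁ U b) : lcf_Smooth₁ U (fun g => (b g)⁻¹) := by
  obtain ⟨E, hE, h⟩ := hb
  exact ⟨E, hE, fun g s hs => by show (b (g * s))⁻¹ = (b g)⁻¹; rw [h g s hs]⟩

/-- A power of a smooth cochain is smooth. -/
theorem lkum_smooth_pow {U : Subgroup (lcf_Gal q)} {b : ↥U → (PadicAlgCl q)ˣ}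
    (hb : lcf_Smooth₁ U b) (n : ℕ) : lcf_Smooth₁ U (fun g => b g ^ n) := by
  obtain ⟨E, hE, h⟩ := hb
  exact ⟨E, hE, fun g s hs => by show b (g * s) ^ n = b g ^ n; rw [h g s hs]⟩

theorem lkum_aux_add {A : Type*} [AddCommGroup A] (a b c p y z : A) :
    a + -(p - y) - (b + -(p - z)) + (c + -(y - z)) = a - b + c := by
  abel

/-- A cancellation identity in a commutative group. -/
theorem lkum_aux {G : Type*} [CommGroup G] (A B C P Q Y : G) :
    A * (P / Q)⁻¹ / (B * (P / Y)⁻¹) * (C * (Q / Y)⁻¹) = A / B * C :=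
  lkum_aux_add (A := Additive G) (Additive.ofMul A) (Additive.ofMul B) (Additive.ofMul C)
    (Additive.ofMul P) (Additive.ofMul Q) (Additive.ofMul Y)

/-- **[KUM1]** Kummer theory in degree 1. -/
theorem lkum_kummer1 : lcf_Kummer1Statement := by
  intro q _ p _ U hU κ hsm hκ hp
  obtain ⟨α, hα⟩ := lh90_main q U hU κ hκ hsm
  refine ⟨α, fun g => ?_, hα⟩
  have h1 : g • α = κ g * α := by rw [hα g, div_mul_cancel]
  rw [smul_pow', h1, mul_pow, hp g, one_mul]

/-- **[KUM2]** Kummer theory in degree 2. -/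
theorem lkum_kummer2 : lcf_Kummer2Statement := by
  intro q _ p _ U hU f hf hcob
  obtain ⟨b, hb, hbf⟩ := hcob
  have hp0 : p ≠ 0 := (Fact.out : p.Prime).ne_zero
  -- `b ^ p` is a smooth 1-cocycle
  have hcoc : IsMulCocycle₁ (fun g : ↥U => b g ^ p) := by
    intro g h
    have h1 := congrArg (fun u : (PadicAlgCl q)ˣ => u ^ p) (hbf g h)
    simp only [hf, mul_pow, div_pow] at h1
    rw [← smul_pow'] at h1
    show b (g * h) ^ p = g • (b h ^ p) * b g ^ p
    rw [div_mul_eq_mul_div, div_eq_one] at h1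
    exact h1.symm
  obtain ⟨x, hx⟩ := lh90_main q U hU _ hcoc (lkum_smooth_pow hb p)
  -- a `p`-th root of `x`
  obtain ⟨y0, hy0⟩ := IsAlgClosed.exists_pow_nat_eq (x : PadicAlgCl q) (Nat.pos_of_ne_zero hp0)
  have hy0ne : y0 ≠ 0 := by
    rintro rfl
    rw [zero_pow hp0] at hy0
    exact x.ne_zero hy0.symm
  set y : (PadicAlgCl q)ˣ := Units.mk0 y0 hy0ne with hy
  have hyx : y ^ p = x := Units.ext (by rw [Units.val_pow_eq_pow_val]; exact hy0)
  refine ⟨fun g => b g * (g • y / y)⁻¹,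
    lkum_smooth_mul hb (lkum_smooth_inv (lkum_smooth_d0 U y)), fun g => ?_, fun g h => ?_⟩
  · show (b g * (g • y / y)⁻¹) ^ p = 1
    rw [mul_pow, inv_pow, div_pow, ← smul_pow', hyx, hx g, mul_inv_cancel]
  · show g • (b h * (h • y / y)⁻¹) / (b (g * h) * ((g * h) • y / y)⁻¹) * (b g * (g • y / y)⁻¹) =
      f (g, h)
    rw [← hbf g h, smul_mul', smul_inv', smul_div', mul_smul]
    exact lkum_aux _ _ _ _ _ _

end Fermat.Agent.S55
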