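import Fermat.Agent.S55.Local.LDLeaves
import Fermat.Agent.S55.Local.LCFLeaves

set_option autoImplicit false
set_option linter.style.haveILetI false
set_option linter.unusedSectionVars false

/-!
# S55 local side: the symbol `a ^ δθ` — basic calculus and additivity in `θ` ([SYM-ADD])

* `sym_t θ g` : the representative in `[0, n)` of `θ g`;
* `sym_unrCoc_apply`, `sym_unrCoc_pow`, `sym_unrCoc_mul`, `sym_unrCoc_one` : calculus of
  `lcf_unrCoc`;
* `sym_smooth₂_unrCoc`, `sym_isMulCocycle₂_unrCoc`, `sym_isCoc_unrCoc` : `a ^ δθ` is a smooth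
  2-cocycle for a smooth character `θ` and a `U`-fixed `a`;
* `sym_add : lcf_SymAddStatement`.
-/

noncomputable section

namespace Fermat.Agent.S55

open groupCohomology

section Arith

/-- The carry identity. -/
theorem sym_nat_carry (n : ℕ) (hn : 0 < n) (x l : ℕ) :
    (x % n + l) / n + x / n = (x + l) / n := by
  conv_rhs => rw [← Nat.div_add_mod x n, add_assoc, Nat.mul_add_div hn]
  exact add_comm _ _

/-- Both sides are `(A + B) / n`. -/
theorem sym_nat_carry₂ (n : ℕ) (hn : 0 < n) (A B : ℕ) :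
    (A % n + B % n) / n + A / n + B / n = (A + B) / n := by
  have h1 := sym_nat_carry n hn B (A % n)
  have h2 := sym_nat_carry n hn A B
  rw [add_comm (B % n)] at h1
  rw [add_comm B] at h1
  rw [add_right_comm, h1, h2]

/-- Rearranging powers of one element in a commutative group. -/
theorem sym_pow_aux {M : Type*} [CommGroup M] (a : M) {m1 m2 m3 m4 m5 m6 : ℕ}
    (key : m1 + m2 + m3 = m4 + m5 + m6) :
    (a ^ m3)⁻¹ / (a ^ m4)⁻¹ * (a ^ m2)⁻¹ = a ^ m1 / (a ^ m5 * a ^ m6) := by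
  rw [eq_div_iff_mul_eq']
  simp only [div_eq_mul_inv, ← zpow_natCast, ← zpow_neg, ← zpow_add]
  congr 1
  omega

end Arith

section Basic

variable {q : ℕ} [Fact q.Prime]

/-- The representative in `[0, n)` of `θ g`. -/
def sym_t {U : Subgroup (lcf_Gal q)} {n : ℕ} (θ : ↥U →* Multiplicative (ZMod n)) (g : ↥U) : ℕ :=
  (Multiplicative.toAdd (θ g)).val

variable {U : Subgroup (lcf_Gal q)} {n : ℕ} (θ θ' : ↥U →* Multiplicative (ZMod n))

theorem sym_unrCoc_apply (a : (PadicAlgCl q)ˣ) (g h : ↥U) :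
    lcf_unrCoc U n θ a (g, h) = a ^ ((sym_t θ g + sym_t θ h) / n) := rfl

theorem sym_t_lt [NeZero n] (g : ↥U) : sym_t θ g < n := ZMod.val_lt _

theorem sym_t_mul [NeZero n] (g h : ↥U) : sym_t θ (g * h) = (sym_t θ g + sym_t θ h) % n := by
  unfold sym_t
  rw [map_mul, toAdd_mul, ZMod.val_add]

theorem sym_t_one [NeZero n] : sym_t θ 1 = 0 := by
  unfold sym_t
  rw [map_one, toAdd_one, ZMod.val_zero]

theorem sym_t_mul_hom [NeZero n] (g : ↥U) : sym_t (θ * θ') g = (sym_t θ g + sym_t θ' g) % n := by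
  unfold sym_t
  rw [MonoidHom.mul_apply, toAdd_mul, ZMod.val_add]

theorem sym_t_eq_zero_iff [NeZero n] (g : ↥U) : sym_t θ g = 0 ↔ θ g = 1 := by
  unfold sym_t
  rw [ZMod.val_eq_zero]
  exact Iff.rfl

theorem sym_t_congr {g h : ↥U} (hgh : θ g = θ h) : sym_t θ g = sym_t θ h := by
  unfold sym_t
  rw [hgh]

theorem sym_unrCoc_pow (a : (PadicAlgCl q)ˣ) (k : ℕ) :
    (lcf_unrCoc U n θ a) ^ k = lcf_unrCoc U n θ (a ^ k) := by
  funext x
  change (a ^ _) ^ k = (a ^ k) ^ _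
  rw [← pow_mul, ← pow_mul, mul_comm]

theorem sym_unrCoc_mul (a b : (PadicAlgCl q)ˣ) :
    lcf_unrCoc U n θ (a * b) = lcf_unrCoc U n θ a * lcf_unrCoc U n θ b := by
  funext x
  change (a * b) ^ _ = a ^ _ * b ^ _
  rw [mul_pow]

theorem sym_unrCoc_one : lcf_unrCoc U n θ (1 : (PadicAlgCl q)ˣ) = 1 := by
  funext x
  change (1 : (PadicAlgCl q)ˣ) ^ _ = 1
  rw [one_pow]

theorem sym_unrCoc_inv (a : (PadicAlgCl q)ˣ) :
    lcf_unrCoc U n θ a⁻¹ = (lcf_unrCoc U n θ a)⁻¹ := by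
  funext x
  change a⁻¹ ^ _ = (a ^ _)⁻¹
  rw [inv_pow]

/-- A `U`-fixed element has `U`-fixed powers. -/
theorem sym_smul_pow {a : (PadicAlgCl q)ˣ} (ha : ∀ g : ↥U, g • a = a) (g : ↥U) (k : ℕ) :
    g • a ^ k = a ^ k := by
  rw [smul_pow', ha]

variable {θ θ'}

/-- `a ^ δθ` is smooth. -/
theorem sym_smooth₂_unrCoc (hθ : lcf_Smooth₁ U θ) (a : (PadicAlgCl q)ˣ) :
    lcf_Smooth₂ U (lcf_unrCoc U n θ a) := by
  obtain ⟨E, hE, h⟩ := hθ
  refine ⟨E, hE, fun g g' s s' hs hs' => ?_⟩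
  rw [sym_unrCoc_apply, sym_unrCoc_apply, sym_t_congr θ (h g s hs), sym_t_congr θ (h g' s' hs')]

/-- `a ^ δθ` is a multiplicative 2-cocycle for a `U`-fixed `a`. -/
theorem sym_isMulCocycle₂_unrCoc [NeZero n] {a : (PadicAlgCl q)ˣ} (ha : ∀ g : ↥U, g • a = a) :
    IsMulCocycle₂ (lcf_unrCoc U n θ a) := by
  intro g h j
  simp only [sym_unrCoc_apply]
  rw [sym_smul_pow ha, ← pow_add, ← pow_add, sym_t_mul, sym_t_mul]
  congr 1
  have hn : 0 < n := Nat.pos_of_ne_zero (NeZero.ne n)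
  have e1 := sym_nat_carry n hn (sym_t θ g + sym_t θ h) (sym_t θ j)
  have e2 := sym_nat_carry n hn (sym_t θ h + sym_t θ j) (sym_t θ g)
  rw [e1, add_comm ((sym_t θ h + sym_t θ j) / n), add_comm (sym_t θ g) ((sym_t θ h + sym_t θ j) % n),
    e2]
  congr 1
  ring

theorem sym_isCoc_unrCoc [NeZero n] (hθ : lcf_Smooth₁ U θ) {a : (PadicAlgCl q)ˣ}
    (ha : ∀ g : ↥U, g • a = a) : lcf_IsCoc U (lcf_unrCoc U n θ a) :=
  ⟨sym_isMulCocycle₂_unrCoc ha, sym_smooth₂_unrCoc hθ a⟩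

/-- Two smooth cochains have a common level. -/
theorem sym_common_level {X Y : Type*} {b : ↥U → X} {b' : ↥U → Y} (hb : lcf_Smooth₁ U b)
    (hb' : lcf_Smooth₁ U b') :
    ∃ E : IntermediateField ℚ_[q] (PadicAlgCl q), FiniteDimensional ℚ_[q] E ∧
      (∀ g s : ↥U, (s : lcf_Gal q) ∈ E.fixingSubgroup → b (g * s) = b g) ∧
      (∀ g s : ↥U, (s : lcf_Gal q) ∈ E.fixingSubgroup → b' (g * s) = b' g) := by
  obtain ⟨E, hE, h⟩ := hb
  obtain ⟨E', hE', h'⟩ := hb'
  haveI := hE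
  haveI := hE'
  refine ⟨E ⊔ E', IntermediateField.finiteDimensional_sup E E', fun g s hs => ?_, fun g s hs => ?_⟩
  · exact h g s (IntermediateField.fixingSubgroup_antitone le_sup_left hs)
  · exact h' g s (IntermediateField.fixingSubgroup_antitone le_sup_right hs)

end Basic

section Add

variable {q : ℕ} [Fact q.Prime]

/-- **[SYM-ADD]** the symbol `a ^ δθ` is additive in the character `θ`. -/
theorem sym_add : lcf_SymAddStatement := by
  intro q _ U _ n _ θ θ' a hθ hθ' ha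
  have hn : 0 < n := Nat.pos_of_ne_zero (NeZero.ne n)
  obtain ⟨E, hE, h, h'⟩ := sym_common_level hθ hθ'
  refine ⟨fun g => (a ^ ((sym_t θ g + sym_t θ' g) / n))⁻¹, ⟨E, hE, fun g s hs => ?_⟩,
    fun g k => ?_⟩
  · simp only
    rw [sym_t_congr θ (h g s hs), sym_t_congr θ' (h' g s hs)]
  · simp only [Pi.div_apply, Pi.mul_apply, sym_unrCoc_apply]
    rw [smul_inv', sym_smul_pow ha, sym_t_mul_hom, sym_t_mul_hom, sym_t_mul, sym_t_mul]
    set x := sym_t θ g
    set y := sym_t θ k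
    set x' := sym_t θ' g
    set y' := sym_t θ' k
    have e1 := sym_nat_carry₂ n hn (x + x') (y + y')
    have e2 := sym_nat_carry₂ n hn (x + y) (x' + y')
    have e3 : x + x' + (y + y') = x + y + (x' + y') := by ring
    have key : ((x + x') % n + (y + y') % n) / n + (x + x') / n + (y + y') / n =
        ((x + y) % n + (x' + y') % n) / n + (x + y) / n + (x' + y') / n := by
      rw [e1, e2, e3]
    exact sym_pow_aux a key

end Add

end Fermat.Agent.S55
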