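/-
S55 (wave 5), LOCAL side, package [INV-BUILD] = `lcf_InvBuildStatement`: the local invariant
system from its leaves ([SPLIT], [UNR-CLASS], [UNR-CHAR], [UNIF], [RES-UNR], [CONJ-UNR]).
Owner: helper27.  Prefix `linv_`.  Pure logic and cochain algebra, no arithmetic.

`inv_U f := k / n` whenever `f ~ (ϖ ^ δθ) ^ k` for an unramified datum `(n, θ, φ, ϖ)` of `U`
(`linv_P`); this is well defined by [UNR-CLASS] and defined on all smooth cocycles by [SPLIT].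
-/
import Fermat.Agent.S55.Local.InvLeaves
import Fermat.Agent.S55.Local.H3Mu
import Fermat.Agent.S55.Local.Kummer
import Fermat.Agent.S55.Local.SymAdd

set_option autoImplicit false

noncomputable section

namespace Fermat.Agent.S55

open groupCohomology

/-! ### Identities in commutative groups -/

theorem linv_aux_mul_add {A : Type*} [AddCommGroup A] (x x' y y' z z' : A) :
    x + x' - (y + y') + (z + z') = x - y + z + (x' - y' + z') := by
  abel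

theorem linv_aux_mul {G : Type*} [CommGroup G] (X X' Y Y' Z Z' : G) :
    X * X' / (Y * Y') * (Z * Z') = X / Y * Z * (X' / Y' * Z') :=
  linv_aux_mul_add (A := Additive G) (Additive.ofMul X) (Additive.ofMul X') (Additive.ofMul Y)
    (Additive.ofMul Y') (Additive.ofMul Z) (Additive.ofMul Z')

theorem linv_aux_inv_add {A : Type*} [AddCommGroup A] (x y z : A) :
    -x - -y + -z = -(x - y + z) := by
  abel

theorem linv_aux_inv {G : Type*} [CommGroup G] (X Y Z : G) :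
    X⁻¹ / Y⁻¹ * Z⁻¹ = (X / Y * Z)⁻¹ :=
  linv_aux_inv_add (A := Additive G) (Additive.ofMul X) (Additive.ofMul Y) (Additive.ofMul Z)

/-! ### The algebra of smooth coboundaries -/

section Cob

variable {q : ℕ} [Fact q.Prime] {U : Subgroup (lcf_Gal q)}

theorem linv_isCob_mul {f f' : ↥U × ↥U → (PadicAlgCl q)ˣ} (hf : lcf_IsCob U f)
    (hf' : lcf_IsCob U f') : lcf_IsCob U (f * f') := by
  obtain ⟨b, hb, hbf⟩ := hf
  obtain ⟨b', hb', hbf'⟩ := hf'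
  refine ⟨fun g => b g * b' g, lkum_smooth_mul hb hb', fun g h => ?_⟩
  show g • (b h * b' h) / (b (g * h) * b' (g * h)) * (b g * b' g) = f (g, h) * f' (g, h)
  rw [← hbf g h, ← hbf' g h, smul_mul']
  exact linv_aux_mul _ _ _ _ _ _

theorem linv_isCob_inv {f : ↥U × ↥U → (PadicAlgCl q)ˣ} (hf : lcf_IsCob U f) :
    lcf_IsCob U f⁻¹ := by
  obtain ⟨b, hb, hbf⟩ := hf
  refine ⟨fun g => (b g)⁻¹, lkum_smooth_inv hb, fun g h => ?_⟩
  show g • (b h)⁻¹ / (b (g * h))⁻¹ * (b g)⁻¹ = (f (g, h))⁻¹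
  rw [← hbf g h, smul_inv']
  exact linv_aux_inv _ _ _

theorem linv_isCob_div {f f' : ↥U × ↥U → (PadicAlgCl q)ˣ} (hf : lcf_IsCob U f)
    (hf' : lcf_IsCob U f') : lcf_IsCob U (f / f') := by
  rw [div_eq_mul_inv]
  exact linv_isCob_mul hf (linv_isCob_inv hf')

theorem linv_isCob_pow {f : ↥U × ↥U → (PadicAlgCl q)ˣ} (hf : lcf_IsCob U f) (k : ℕ) :
    lcf_IsCob U (f ^ k) := by
  induction k with
  | zero => rw [pow_zero]; exact lh3m_isCob_one U
  | succ k ih => rw [pow_succ]; exact linv_isCob_mul ih hf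

/-- A smooth coboundary is a smooth cocycle. -/
theorem linv_isCoc_of_isCob {f : ↥U × ↥U → (PadicAlgCl q)ˣ} (hf : lcf_IsCob U f) :
    lcf_IsCoc U f := by
  obtain ⟨b, hb, hbf⟩ := hf
  have hfb : f = lh3m_d₁₂ U b := by
    funext ⟨g, h⟩
    exact (hbf g h).symm
  rw [hfb]
  exact ⟨(lh3m_isCocycle_iff U _).2 (lh3m_d₂₃_d₁₂ U b), lh3m_smooth_d₁₂ U hb⟩

/-- Cohomologous cochains: if `f / f'` and `f'` are smooth coboundaries, so is `f`. -/
theorem linv_isCob_of_div {f f' : ↥U × ↥U → (PadicAlgCl q)ˣ} (h : lcf_IsCob U (f / f'))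
    (hf' : lcf_IsCob U f') : lcf_IsCob U f := by
  have := linv_isCob_mul h hf'
  rwa [div_mul_cancel] at this

end Cob

/-! ### Restriction -/

section Res

variable {q : ℕ} [Fact q.Prime] {U U' : Subgroup (lcf_Gal q)}

theorem linv_res_mul (h : U' ≤ U) (f f' : ↥U × ↥U → (PadicAlgCl q)ˣ) :
    lcf_res h (f * f') = lcf_res h f * lcf_res h f' := rfl

theorem linv_res_div (h : U' ≤ U) (f f' : ↥U × ↥U → (PadicAlgCl q)ˣ) :
    lcf_res h (f / f') = lcf_res h f / lcf_res h f' := rfl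

theorem linv_res_one (h : U' ≤ U) :
    lcf_res h (1 : ↥U × ↥U → (PadicAlgCl q)ˣ) = 1 := rfl

theorem linv_res_pow (h : U' ≤ U) (f : ↥U × ↥U → (PadicAlgCl q)ˣ) (k : ℕ) :
    lcf_res h (f ^ k) = lcf_res h f ^ k := rfl

/-- A subgroup containing an open subgroup is open. -/
theorem linv_isOpen_of_le (h : U' ≤ U) (hU' : lcf_IsOpen U') : lcf_IsOpen U := by
  obtain ⟨E, hE, hEU⟩ := hU'
  exact ⟨E, hE, hEU.trans h⟩

/-- The restriction of a smooth 1-cochain is smooth. -/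
theorem linv_smooth₁_res {X : Type*} (h : U' ≤ U) {b : ↥U → X} (hb : lcf_Smooth₁ U b) :
    lcf_Smooth₁ U' (fun g => b (Subgroup.inclusion h g)) := by
  obtain ⟨E, hE, hsm⟩ := hb
  refine ⟨E, hE, fun g s hs => ?_⟩
  show b (Subgroup.inclusion h (g * s)) = b (Subgroup.inclusion h g)
  rw [map_mul]
  exact hsm _ _ hs

/-- The restriction of a smooth 2-cochain is smooth. -/
theorem linv_smooth₂_res {X : Type*} (h : U' ≤ U) {f : ↥U × ↥U → X} (hf : lcf_Smooth₂ U f) :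
    lcf_Smooth₂ U' (lcf_res h f) := by
  obtain ⟨E, hE, hsm⟩ := hf
  refine ⟨E, hE, fun g g' s s' hs hs' => ?_⟩
  show f (Subgroup.inclusion h (g * s), Subgroup.inclusion h (g' * s')) =
    f (Subgroup.inclusion h g, Subgroup.inclusion h g')
  rw [map_mul, map_mul]
  exact hsm _ _ _ _ hs hs'

/-- The restriction of a smooth coboundary is a smooth coboundary. -/
theorem linv_isCob_res (h : U' ≤ U) {f : ↥U × ↥U → (PadicAlgCl q)ˣ} (hf : lcf_IsCob U f) :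
    lcf_IsCob U' (lcf_res h f) := by
  obtain ⟨b, hb, hbf⟩ := hf
  refine ⟨fun g => b (Subgroup.inclusion h g), linv_smooth₁_res h hb, fun g g' => ?_⟩
  show g • b (Subgroup.inclusion h g') / b (Subgroup.inclusion h (g * g')) *
    b (Subgroup.inclusion h g) = f (Subgroup.inclusion h g, Subgroup.inclusion h g')
  rw [map_mul, ← hbf]
  rfl

/-- The restriction of a smooth cocycle is a smooth cocycle. -/
theorem linv_isCoc_res (h : U' ≤ U) {f : ↥U × ↥U → (PadicAlgCl q)ˣ} (hf : lcf_IsCoc U f) :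
    lcf_IsCoc U' (lcf_res h f) := by
  refine ⟨fun g g' g'' => ?_, linv_smooth₂_res h hf.2⟩
  have := hf.1 (Subgroup.inclusion h g) (Subgroup.inclusion h g') (Subgroup.inclusion h g'')
  show f (Subgroup.inclusion h (g * g'), Subgroup.inclusion h g'') *
      f (Subgroup.inclusion h g, Subgroup.inclusion h g') =
    g • f (Subgroup.inclusion h g', Subgroup.inclusion h g'') *
      f (Subgroup.inclusion h g, Subgroup.inclusion h (g' * g''))
  rw [map_mul, map_mul]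
  exact this

end Res

/-! ### Arithmetic in `ℚ/ℤ` -/

section QZ

theorem linv_qz_intCast (m : ℤ) : lcf_qz (m : ℚ) = 0 :=
  (QuotientAddGroup.eq_zero_iff _).2 (AddSubgroup.mem_zmultiples_iff.2 ⟨m, by simp⟩)

theorem linv_qz_natCast (m : ℕ) : lcf_qz (m : ℚ) = 0 := by
  have := linv_qz_intCast (m : ℤ)
  simpa using this

theorem linv_qz_zero_div (n : ℕ) : lcf_qz ((0 : ℕ) / (n : ℚ)) = 0 := by
  rw [Nat.cast_zero, zero_div, map_zero]

/-- `k / n = (k m) / (n m)`. -/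
theorem linv_qz_scale (k n m : ℕ) (hm : m ≠ 0) :
    lcf_qz (((k * m : ℕ) : ℚ) / ((n * m : ℕ) : ℚ)) = lcf_qz ((k : ℚ) / (n : ℚ)) := by
  congr 1
  have hm' : (m : ℚ) ≠ 0 := Nat.cast_ne_zero.2 hm
  push_cast
  rw [mul_div_mul_right _ _ hm']

theorem linv_qz_scale' (k n m : ℕ) (hm : m ≠ 0) :
    lcf_qz (((k * m : ℕ) : ℚ) / ((m * n : ℕ) : ℚ)) = lcf_qz ((k : ℚ) / (n : ℚ)) := by
  rw [mul_comm m n]
  exact linv_qz_scale k n m hm

theorem linv_qz_add (k k' n : ℕ) :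
    lcf_qz (((k + k' : ℕ) : ℚ) / (n : ℚ)) = lcf_qz ((k : ℚ) / (n : ℚ)) + lcf_qz ((k' : ℚ) / (n : ℚ)) := by
  rw [← map_add]
  congr 1
  push_cast
  rw [add_div]

theorem linv_qz_nsmul (r k n : ℕ) :
    lcf_qz (((k * r : ℕ) : ℚ) / (n : ℚ)) = r • lcf_qz ((k : ℚ) / (n : ℚ)) := by
  rw [← map_nsmul]
  congr 1
  push_cast
  rw [nsmul_eq_mul]
  ring

/-- Every element of `ℚ/ℤ` is `k / n` with `k, n` natural numbers, `n ≠ 0`. -/
theorem linv_qz_surj (t : lcf_QZ) : ∃ (n k : ℕ), n ≠ 0 ∧ t = lcf_qz ((k : ℚ) / (n : ℚ)) := by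
  obtain ⟨r, rfl⟩ := QuotientAddGroup.mk'_surjective _ t
  have hden : (r.den : ℤ) ≠ 0 := by exact_mod_cast r.den_nz
  have hpos : (0 : ℤ) < r.den := by exact_mod_cast r.den_pos
  refine ⟨r.den, (r.num % r.den).toNat, r.den_nz, ?_⟩
  have h0 : 0 ≤ r.num % (r.den : ℤ) := Int.emod_nonneg _ hden
  have hcast : (((r.num % (r.den : ℤ)).toNat : ℕ) : ℚ) = ((r.num % (r.den : ℤ) : ℤ) : ℚ) := by
    have := Int.toNat_of_nonneg h0
    exact_mod_cast congrArg (fun z : ℤ => (z : ℚ)) this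
  have hr : r = (r.num : ℚ) / (r.den : ℚ) := (Rat.num_div_den r).symm
  have hsplit : (r.num : ℚ) = ((r.num % (r.den : ℤ) : ℤ) : ℚ) +
      ((r.den : ℤ) : ℚ) * ((r.num / (r.den : ℤ) : ℤ) : ℚ) := by
    exact_mod_cast congrArg (fun z : ℤ => (z : ℚ)) (Int.emod_add_mul_ediv r.num r.den).symm
  have hdq : (r.den : ℚ) ≠ 0 := Nat.cast_ne_zero.2 r.den_nz
  have key : r = ((r.num % (r.den : ℤ) : ℤ) : ℚ) / (r.den : ℚ) +
      ((r.num / (r.den : ℤ) : ℤ) : ℚ) := by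
    conv_lhs => rw [hr, hsplit]
    push_cast
    field_simp
  show lcf_qz r = _
  rw [hcast]
  conv_lhs => rw [key]
  rw [map_add, linv_qz_intCast, add_zero]

end QZ

/-! ### The invariant -/

section Inv

variable {q : ℕ} [Fact q.Prime]

/-- `f ~ (ϖ ^ δθ) ^ k` for some unramified datum `(n, θ, φ, ϖ)` with `t = k / n`. -/
def linv_P (U : Subgroup (lcf_Gal q)) (f : ↥U × ↥U → (PadicAlgCl q)ˣ) (t : lcf_QZ) : Prop :=
  ∃ (n : ℕ) (_ : NeZero n) (θ : ↥U →* Multiplicative (ZMod n)) (φ : ↥U)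
    (ϖ : (PadicAlgCl q)ˣ) (k : ℕ),
    lcf_IsUnrDatum U n θ φ ϖ ∧ lcf_IsCob U (f / (lcf_unrCoc U n θ ϖ) ^ k) ∧
      t = lcf_qz ((k : ℚ) / (n : ℚ))

theorem linv_P_mk {U : Subgroup (lcf_Gal q)} {f : ↥U × ↥U → (PadicAlgCl q)ˣ}
    {n : ℕ} [hn : NeZero n] {θ : ↥U →* Multiplicative (ZMod n)} {φ : ↥U}
    {ϖ : (PadicAlgCl q)ˣ} (k : ℕ) (hd : lcf_IsUnrDatum U n θ φ ϖ)
    (hc : lcf_IsCob U (f / (lcf_unrCoc U n θ ϖ) ^ k)) :
    linv_P U f (lcf_qz ((k : ℚ) / (n : ℚ))) :=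
  ⟨n, hn, θ, φ, ϖ, k, hd, hc, rfl⟩

/-- The class of an unramified datum is a smooth cocycle. -/
theorem linv_isCoc_datum {U : Subgroup (lcf_Gal q)} {n : ℕ} [NeZero n]
    {θ : ↥U →* Multiplicative (ZMod n)} {φ : ↥U} {ϖ : (PadicAlgCl q)ˣ}
    (hd : lcf_IsUnrDatum U n θ φ ϖ) : lcf_IsCoc U (lcf_unrCoc U n θ ϖ) :=
  sym_isCoc_unrCoc hd.smooth hd.unif.1

/-- [SPLIT] gives `linv_P` for every smooth cocycle. -/
theorem linv_P_exists (hS : lcf_SplitStatement) {U : Subgroup (lcf_Gal q)} (hU : lcf_IsOpen U)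
    {f : ↥U × ↥U → (PadicAlgCl q)ˣ} (hf : lcf_IsCoc U f) : ∃ t, linv_P U f t := by
  obtain ⟨n, hn, θ, φ, ϖ, k, h1, h2, h3, h4, h5, h6⟩ := hS q U hU f hf
  exact ⟨_, n, hn, θ, φ, ϖ, k, ⟨h1, h2, h3, h4, h5⟩, h6, rfl⟩

/-- [UNR-CHAR] + [UNIF] give an unramified datum of every modulus. -/
theorem linv_exists_datum (hC : lcf_UnrCharStatement) (hV : lcf_UnifStatement)
    {U : Subgroup (lcf_Gal q)} (hU : lcf_IsOpen U) (n : ℕ) [NeZero n] :
    ∃ (θ : ↥U →* Multiplicative (ZMod n)) (φ : ↥U) (ϖ : (PadicAlgCl q)ˣ),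
      lcf_IsUnrDatum U n θ φ ϖ := by
  obtain ⟨θ, φ, h1, h2, h3, h4⟩ := hC q U hU n
  obtain ⟨ϖ, hϖ⟩ := hV q U hU
  exact ⟨θ, φ, ϖ, h1, h2, h3, h4, hϖ⟩

/-- [UNR-CLASS] makes `linv_P` single valued. -/
theorem linv_P_unique (hK : lcf_UnrClassStatement) {U : Subgroup (lcf_Gal q)}
    (hU : lcf_IsOpen U) {f : ↥U × ↥U → (PadicAlgCl q)ˣ} {t t' : lcf_QZ}
    (ht : linv_P U f t) (ht' : linv_P U f t') : t = t' := by
  obtain ⟨n, hn, θ, φ, ϖ, k, hd, hc, rfl⟩ := ht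
  obtain ⟨n', hn', θ', φ', ϖ', k', hd', hc', rfl⟩ := ht'
  refine (hK q U hU n n' θ φ ϖ θ' φ' ϖ' k k' hd hd').1 ?_
  have := linv_isCob_div hc' hc
  rwa [div_div_div_cancel_left] at this

/-- Change of datum: if `f ~ u ^ k` and `k / n = k' / n'` then `f ~ u' ^ k'`. -/
theorem linv_change (hK : lcf_UnrClassStatement) {U : Subgroup (lcf_Gal q)}
    (hU : lcf_IsOpen U) {f : ↥U × ↥U → (PadicAlgCl q)ˣ}
    {n : ℕ} [NeZero n] {θ : ↥U →* Multiplicative (ZMod n)} {φ : ↥U} {ϖ : (PadicAlgCl q)ˣ}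
    {n' : ℕ} [NeZero n'] {θ' : ↥U →* Multiplicative (ZMod n')} {φ' : ↥U}
    {ϖ' : (PadicAlgCl q)ˣ} {k k' : ℕ}
    (hd : lcf_IsUnrDatum U n θ φ ϖ) (hd' : lcf_IsUnrDatum U n' θ' φ' ϖ')
    (hc : lcf_IsCob U (f / (lcf_unrCoc U n θ ϖ) ^ k))
    (hkk : lcf_qz ((k : ℚ) / (n : ℚ)) = lcf_qz ((k' : ℚ) / (n' : ℚ))) :
    lcf_IsCob U (f / (lcf_unrCoc U n' θ' ϖ') ^ k') := by
  have h1 := (hK q U hU n n' θ φ ϖ θ' φ' ϖ' k k' hd hd').2 hkk
  have := linv_isCob_mul hc h1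
  rwa [div_mul_div_cancel] at this

open Classical in
/-- **The invariant map**. -/
def linv_inv : lcf_InvType := fun _ _ U f =>
  if h : ∃ t, lcf_IsOpen U ∧ lcf_IsCoc U f ∧ linv_P U f t then h.choose else 0

/-- (*) the invariant can be computed with any datum. -/
theorem linv_inv_eq (hK : lcf_UnrClassStatement) {U : Subgroup (lcf_Gal q)}
    (hU : lcf_IsOpen U) {f : ↥U × ↥U → (PadicAlgCl q)ˣ} (hf : lcf_IsCoc U f) {t : lcf_QZ}
    (ht : linv_P U f t) : linv_inv q U f = t := by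
  have h : ∃ t, lcf_IsOpen U ∧ lcf_IsCoc U f ∧ linv_P U f t := ⟨t, hU, hf, ht⟩
  rw [linv_inv, dif_pos h]
  exact linv_P_unique hK hU h.choose_spec.2.2 ht

/-- (I1) additivity. -/
theorem linv_add (hS : lcf_SplitStatement) (hK : lcf_UnrClassStatement)
    (hC : lcf_UnrCharStatement) (hV : lcf_UnifStatement) {U : Subgroup (lcf_Gal q)}
    (hU : lcf_IsOpen U) {f f' : ↥U × ↥U → (PadicAlgCl q)ˣ} (hf : lcf_IsCoc U f)
    (hf' : lcf_IsCoc U f') :
    linv_inv q U (f * f') = linv_inv q U f + linv_inv q U f' := by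
  obtain ⟨t, ht⟩ := linv_P_exists hS hU hf
  obtain ⟨t', ht'⟩ := linv_P_exists hS hU hf'
  rw [linv_inv_eq hK hU hf ht, linv_inv_eq hK hU hf' ht']
  obtain ⟨n, hn, θ, φ, ϖ, k, hd, hc, rfl⟩ := ht
  obtain ⟨n', hn', θ', φ', ϖ', k', hd', hc', rfl⟩ := ht'
  have hn0 : n ≠ 0 := NeZero.ne n
  have hn0' : n' ≠ 0 := NeZero.ne n'
  have : NeZero (n * n') := ⟨mul_ne_zero hn0 hn0'⟩
  obtain ⟨θ₀, φ₀, ϖ₀, hD⟩ := linv_exists_datum hC hV hU (n * n')
  have h1 := linv_change hK hU hd hD hc (k' := k * n') (linv_qz_scale k n n' hn0').symm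
  have h2 := linv_change hK hU hd' hD hc' (k' := k' * n) (linv_qz_scale' k' n' n hn0).symm
  have h3 := linv_isCob_mul h1 h2
  rw [div_mul_div_comm, ← pow_add] at h3
  rw [linv_inv_eq hK hU (lh3m_isCoc_mul hf hf') (linv_P_mk _ hD h3), linv_qz_add,
    linv_qz_scale k n n' hn0', linv_qz_scale' k' n' n hn0]

/-- (I2) the kernel of the invariant. -/
theorem linv_eq_zero_iff (hS : lcf_SplitStatement) (hK : lcf_UnrClassStatement)
    {U : Subgroup (lcf_Gal q)} (hU : lcf_IsOpen U) {f : ↥U × ↥U → (PadicAlgCl q)ˣ}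
    (hf : lcf_IsCoc U f) : linv_inv q U f = 0 ↔ lcf_IsCob U f := by
  obtain ⟨t, ht⟩ := linv_P_exists hS hU hf
  rw [linv_inv_eq hK hU hf ht]
  obtain ⟨n, hn, θ, φ, ϖ, k, hd, hc, rfl⟩ := ht
  have hiff := hK q U hU n n θ φ ϖ θ φ ϖ k 0 hd hd
  rw [pow_zero, div_one, linv_qz_zero_div] at hiff
  rw [← hiff]
  constructor
  · intro h
    exact linv_isCob_of_div hc h
  · intro h
    have := linv_isCob_div h hc
    rwa [div_div_cancel] at this

/-- (I3) restriction. -/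
theorem linv_res (hS : lcf_SplitStatement) (hK : lcf_UnrClassStatement)
    (hC : lcf_UnrCharStatement) (hV : lcf_UnifStatement) (hR : lcf_ResUnrStatement)
    {U U' : Subgroup (lcf_Gal q)} (h : U' ≤ U) (hU' : lcf_IsOpen U')
    {f : ↥U × ↥U → (PadicAlgCl q)ˣ} (hf : lcf_IsCoc U f) :
    linv_inv q U' (lcf_res h f) = (U'.relIndex U) • linv_inv q U f := by
  have hU := linv_isOpen_of_le h hU'
  obtain ⟨t, ht⟩ := linv_P_exists hS hU hf
  rw [linv_inv_eq hK hU hf ht]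
  obtain ⟨n, hn, θ, φ, ϖ, k, hd, hc, rfl⟩ := ht
  obtain ⟨θ', φ', ϖ', hd'⟩ := linv_exists_datum hC hV hU' n
  have h1 := hR q U U' h hU' n θ φ ϖ θ' φ' ϖ' hd hd'
  have h2 := linv_isCob_pow h1 k
  have h3 := linv_isCob_res h hc
  rw [linv_res_div, linv_res_pow] at h3
  have h4 := linv_isCob_mul h3 h2
  rw [div_pow, div_mul_div_cancel, ← pow_mul, mul_comm] at h4
  rw [linv_inv_eq hK hU' (linv_isCoc_res h hf) (linv_P_mk _ hd' h4), linv_qz_nsmul]

/-- (I4) normalisation. -/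
theorem linv_unr (hK : lcf_UnrClassStatement) {U : Subgroup (lcf_Gal q)} (hU : lcf_IsOpen U)
    {n : ℕ} [NeZero n] {θ : ↥U →* Multiplicative (ZMod n)} {φ : ↥U} {ϖ : (PadicAlgCl q)ˣ}
    (hd : lcf_IsUnrDatum U n θ φ ϖ) :
    linv_inv q U (lcf_unrCoc U n θ ϖ) = lcf_qz (1 / (n : ℚ)) := by
  have h1 : lcf_IsCob U (lcf_unrCoc U n θ ϖ / (lcf_unrCoc U n θ ϖ) ^ 1) := by
    rw [pow_one, div_self']
    exact lh3m_isCob_one U
  rw [linv_inv_eq hK hU (linv_isCoc_datum hd) (linv_P_mk 1 hd h1), Nat.cast_one]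

/-- (I5) surjectivity. -/
theorem linv_surj (hK : lcf_UnrClassStatement) (hC : lcf_UnrCharStatement)
    (hV : lcf_UnifStatement) {U : Subgroup (lcf_Gal q)} (hU : lcf_IsOpen U) (t : lcf_QZ) :
    ∃ f : ↥U × ↥U → (PadicAlgCl q)ˣ, lcf_IsCoc U f ∧ linv_inv q U f = t := by
  obtain ⟨n, k, hn0, rfl⟩ := linv_qz_surj t
  have : NeZero n := ⟨hn0⟩
  obtain ⟨θ, φ, ϖ, hd⟩ := linv_exists_datum hC hV hU n
  have hcoc := lh3m_isCoc_pow (linv_isCoc_datum hd) k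
  have h1 : lcf_IsCob U ((lcf_unrCoc U n θ ϖ) ^ k / (lcf_unrCoc U n θ ϖ) ^ k) := by
    rw [div_self']
    exact lh3m_isCob_one U
  exact ⟨_, hcoc, linv_inv_eq hK hU hcoc (linv_P_mk k hd h1)⟩

end Inv

/-! ### Conjugation -/

section Conj

variable {q : ℕ} [Fact q.Prime] {U U' : Subgroup (lcf_Gal q)} (τ : lcf_Gal q)
  (hUU' : ∀ g : lcf_Gal q, g ∈ U' ↔ τ⁻¹ * g * τ ∈ U)

/-- Conjugation `U' → U`, `g ↦ τ⁻¹ g τ`. -/
def linv_conj : ↥U' →* ↥U where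
  toFun g := ⟨τ⁻¹ * g * τ, (hUU' g).1 g.2⟩
  map_one' := Subtype.ext (by simp)
  map_mul' a b := Subtype.ext (by
    show τ⁻¹ * ((a : lcf_Gal q) * b) * τ = τ⁻¹ * a * τ * (τ⁻¹ * b * τ)
    group)

theorem linv_conj_coe (g : ↥U') : ((linv_conj τ hUU' g : ↥U) : lcf_Gal q) = τ⁻¹ * g * τ := rfl

theorem linv_coe_eq_conj (g : ↥U') :
    (g : lcf_Gal q) = τ * (linv_conj τ hUU' g : ↥U) * τ⁻¹ := by
  rw [linv_conj_coe]
  group

/-- `g • τ • x = τ • (τ⁻¹ g τ) • x`. -/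
theorem linv_smul_smul (g : ↥U') (x : (PadicAlgCl q)ˣ) :
    g • (τ • x) = τ • ((linv_conj τ hUU' g : ↥U) • x) := by
  show (g : lcf_Gal q) • (τ • x) = τ • (((linv_conj τ hUU' g : ↥U) : lcf_Gal q) • x)
  rw [linv_conj_coe, ← mul_smul, ← mul_smul]
  congr 1
  group

/-- Conjugation carries the fixing subgroup of `τ E` into the fixing subgroup of `E`. -/
theorem linv_conj_mem_fixing (E : IntermediateField ℚ_[q] (PadicAlgCl q)) (g : lcf_Gal q)
    (hg : g ∈ (E.map τ.toAlgHom).fixingSubgroup) : τ⁻¹ * g * τ ∈ E.fixingSubgroup := by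
  rw [IntermediateField.mem_fixingSubgroup_iff] at hg ⊢
  intro x hx
  have h1 : g (τ x) = τ x := hg (τ x) ((IntermediateField.mem_map E).2 ⟨x, hx, rfl⟩)
  show τ⁻¹ (g (τ x)) = x
  rw [h1]
  exact τ.symm_apply_apply x

include hUU' in
/-- A conjugate of an open subgroup is open. -/
theorem linv_isOpen_conj (hU : lcf_IsOpen U) : lcf_IsOpen U' := by
  obtain ⟨E, hE, hEU⟩ := hU
  have : FiniteDimensional ℚ_[q] ↥E := hE
  refine ⟨E.map τ.toAlgHom, IntermediateField.finiteDimensional_map _, fun g hg => ?_⟩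
  exact (hUU' g).2 (hEU (linv_conj_mem_fixing τ E g hg))

/-- The conjugate of a smooth 1-cochain is smooth. -/
theorem linv_smooth₁_conj {X Y : Type*} {b : ↥U → X} (hb : lcf_Smooth₁ U b) (F : X → Y) :
    lcf_Smooth₁ U' (fun g => F (b (linv_conj τ hUU' g))) := by
  obtain ⟨E, hE, hsm⟩ := hb
  have : FiniteDimensional ℚ_[q] ↥E := hE
  refine ⟨E.map τ.toAlgHom, IntermediateField.finiteDimensional_map _, fun g s hs => ?_⟩
  show F (b (linv_conj τ hUU' (g * s))) = F (b (linv_conj τ hUU' g))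
  rw [map_mul, hsm _ _ (linv_conj_mem_fixing τ E _ hs)]

/-- The conjugate of a smooth coboundary is a smooth coboundary. -/
theorem linv_isCob_conj {f : ↥U × ↥U → (PadicAlgCl q)ˣ} (hf : lcf_IsCob U f) :
    lcf_IsCob U' (fun x => τ • f (linv_conj τ hUU' x.1, linv_conj τ hUU' x.2)) := by
  obtain ⟨b, hb, hbf⟩ := hf
  refine ⟨fun g => τ • b (linv_conj τ hUU' g), linv_smooth₁_conj τ hUU' hb (fun x => τ • x),
    fun g h => ?_⟩
  show g • (τ • b (linv_conj τ hUU' h)) / (τ • b (linv_conj τ hUU' (g * h))) *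
    (τ • b (linv_conj τ hUU' g)) = τ • f (linv_conj τ hUU' g, linv_conj τ hUU' h)
  rw [linv_smul_smul, map_mul, ← hbf, smul_mul', smul_div']

/-- The conjugate of the class of an unramified datum. -/
theorem linv_unrCoc_conj {n : ℕ} (θ : ↥U →* Multiplicative (ZMod n))
    (θ' : ↥U' →* Multiplicative (ZMod n)) (ϖ : (PadicAlgCl q)ˣ)
    (hθ : ∀ g : ↥U', θ' g = θ (linv_conj τ hUU' g)) (k : ℕ) :
    (lcf_unrCoc U' n θ' (τ • ϖ)) ^ k =
      fun x => τ • ((lcf_unrCoc U n θ ϖ) ^ k) (linv_conj τ hUU' x.1, linv_conj τ hUU' x.2) := by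
  funext ⟨g, h⟩
  show ((τ • ϖ) ^ (((θ' g).toAdd.val + (θ' h).toAdd.val) / n)) ^ k =
    τ • (ϖ ^ (((θ (linv_conj τ hUU' g)).toAdd.val + (θ (linv_conj τ hUU' h)).toAdd.val) / n)) ^ k
  rw [hθ g, hθ h, smul_pow', smul_pow']

include hUU' in
/-- (I6) invariance under conjugation. -/
theorem linv_conj_inv (hS : lcf_SplitStatement) (hK : lcf_UnrClassStatement)
    (hJ : lcf_ConjUnrStatement) (hU : lcf_IsOpen U)
    (f : ↥U × ↥U → (PadicAlgCl q)ˣ) (f' : ↥U' × ↥U' → (PadicAlgCl q)ˣ) (hf : lcf_IsCoc U f)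
    (hff' : ∀ (g h : ↥U) (g' h' : ↥U'), (g' : lcf_Gal q) = τ * g * τ⁻¹ →
      (h' : lcf_Gal q) = τ * h * τ⁻¹ → f' (g', h') = τ • f (g, h)) :
    linv_inv q U' f' = linv_inv q U f := by
  have hU' : lcf_IsOpen U' := linv_isOpen_conj τ hUU' hU
  obtain ⟨t, ht⟩ := linv_P_exists hS hU hf
  rw [linv_inv_eq hK hU hf ht]
  obtain ⟨n, hn, θ, φ, ϖ, k, hd, hc, rfl⟩ := ht
  obtain ⟨θ', φ', hd', hθθ'⟩ := hJ q U U' τ hU hUU' n θ φ ϖ hd
  have hθ : ∀ g : ↥U', θ' g = θ (linv_conj τ hUU' g) := fun g =>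
    hθθ' (linv_conj τ hUU' g) g (linv_coe_eq_conj τ hUU' g)
  have hf' : f' = fun x => τ • f (linv_conj τ hUU' x.1, linv_conj τ hUU' x.2) := by
    funext ⟨g, h⟩
    exact hff' _ _ g h (linv_coe_eq_conj τ hUU' g) (linv_coe_eq_conj τ hUU' h)
  have h1 := linv_isCob_conj τ hUU' hc
  have h2 : lcf_IsCob U' (f' / (lcf_unrCoc U' n θ' (τ • ϖ)) ^ k) := by
    rw [hf', linv_unrCoc_conj τ hUU' θ θ' ϖ hθ k]
    refine (congrArg (lcf_IsCob U') ?_).mp h1
    funext x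
    show τ • (f (linv_conj τ hUU' x.1, linv_conj τ hUU' x.2) /
        ((lcf_unrCoc U n θ ϖ) ^ k) (linv_conj τ hUU' x.1, linv_conj τ hUU' x.2)) =
      τ • f (linv_conj τ hUU' x.1, linv_conj τ hUU' x.2) /
        τ • ((lcf_unrCoc U n θ ϖ) ^ k) (linv_conj τ hUU' x.1, linv_conj τ hUU' x.2)
    rw [smul_div']
  have hcoc' : lcf_IsCoc U' f' := by
    have h3 := lh3m_isCoc_mul (linv_isCoc_of_isCob h2) (lh3m_isCoc_pow (linv_isCoc_datum hd') k)
    rwa [div_mul_cancel] at h3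
  exact linv_inv_eq hK hU' hcoc' (linv_P_mk k hd' h2)

end Conj

/-! ### The assembly -/

/-- **[INV-BUILD]** the local invariant system from its leaves. -/
theorem linv_main : lcf_InvBuildStatement := by
  intro hS hK hC hV hR hJ
  refine ⟨linv_inv, ?_, ?_, ?_, ?_, ?_, ?_⟩
  · intro q _ U hU f f' hf hf'
    exact linv_add hS hK hC hV hU hf hf'
  · intro q _ U hU f hf
    exact linv_eq_zero_iff hS hK hU hf
  · intro q _ U U' h hU' f hf
    exact linv_res hS hK hC hV hR h hU' hf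
  · intro q _ U hU n _ θ φ ϖ h1 h2 h3 h4 h5
    exact linv_unr hK hU ⟨h1, h2, h3, h4, h5⟩
  · intro q _ U hU t
    exact linv_surj hK hC hV hU t
  · intro q _ U U' τ hU hUU' f f' hf hff'
    exact linv_conj_inv τ hUU' hS hK hJ hU f f' hf hff'

end Fermat.Agent.S55
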