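/-
S55 (wave 5), LOCAL side, package [A8] = [SPLIT]: the leaf statements (closed Props) from which
`lcf_SplitStatement` (every class of `Br(K_U)` is a multiple of an unramified class) is
assembled.  Owner of the package: helper22.  Prefix `spl_`.

Setting as in `LCFDefs.lean`: `U` an open subgroup of `Γ = Gal(Ω/ℚ_q)`, `K = K_U = Ω^U`; for an
open subgroup `U' ≤ U` put `L = K_{U'}`, so `[L : K] = [U : U'] = U'.relIndex U`.

References: Serre, Local Fields, ch. XIII §3 (Prop. 6, 7, Thm. 1, 2); Cassels-Froehlich, ch. VI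
§1.1, 1.6; Neukirch, Class Field Theory, ch. II §2-5.
-/
import Fermat.Agent.S55.Local.LCFLeaves
import Fermat.Agent.S55.Local.LDLeaves

set_option autoImplicit false

noncomputable section

namespace Fermat.Agent.S55

open groupCohomology

section Defs

variable {q : ℕ} [Fact q.Prime]

/-- `U'` is a subgroup of `U` which is normalised by `U`. -/
def spl_IsNormalIn (U U' : Subgroup (lcf_Gal q)) : Prop :=
  U' ≤ U ∧ ∀ g : lcf_Gal q, g ∈ U → ∀ s : lcf_Gal q, s ∈ U' → g * s * g⁻¹ ∈ U'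

/-- The 2-cochain `f` on `U` is inflated from `U / U'`: it is invariant under right translation
of both arguments by elements of `U'`, and its values are fixed by `U'`.  (For a cocycle and
`U'` normal in `U`, invariance under left translations follows.) -/
def spl_IsInfl (U U' : Subgroup (lcf_Gal q)) (f : ↥U × ↥U → (PadicAlgCl q)ˣ) : Prop :=
  (∀ g h s s' : ↥U, (s : lcf_Gal q) ∈ U' → (s' : lcf_Gal q) ∈ U' →
      f (g * s, h * s') = f (g, h)) ∧
    ∀ g h s : ↥U, (s : lcf_Gal q) ∈ U' → s • f (g, h) = f (g, h)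

/-- Unramified data of order `n` for `U`: a smooth character `θ : U → ℤ/n` which is trivial on
inertia, and a Frobenius element `φ` of `U` with `θ φ = 1`. -/
def spl_IsUnrData (U : Subgroup (lcf_Gal q)) (n : ℕ) (θ : ↥U →* Multiplicative (ZMod n))
    (φ : ↥U) : Prop :=
  lcf_Smooth₁ U θ ∧ (∀ s : ↥U, lcf_IsInert (s : lcf_Gal q) → θ s = 1) ∧
    lcf_IsFrob U φ ∧ θ φ = Multiplicative.ofAdd 1

end Defs

/-- **[LEVEL]** every smooth 2-cocycle of `U` is inflated from a finite quotient `U / U'`,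
`U'` open and normal in `U`. -/
def spl_LevelStatement : Prop :=
  ∀ (q : ℕ) [Fact q.Prime] (U : Subgroup (lcf_Gal q)), lcf_IsOpen U →
    ∀ f : ↥U × ↥U → (PadicAlgCl q)ˣ, lcf_IsCoc U f →
      ∃ U' : Subgroup (lcf_Gal q), lcf_IsOpen U' ∧ spl_IsNormalIn U U' ∧ spl_IsInfl U U' f

/-- **[INF-RES-MID]** exactness of `H²(U/U', L^×) → H²(U, Ω^×) → H²(U', Ω^×)` in the middle:
a smooth 2-cocycle of `U` whose restriction to the open normal subgroup `U'` is a smooth
coboundary is cohomologous to a cocycle inflated from `U / U'`.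
(Inflation-restriction in degree 2; it needs `H¹(U', Ω^×) = 0`, i.e. Hilbert 90.) -/
def spl_InfResMidStatement : Prop :=
  ∀ (q : ℕ) [Fact q.Prime] (U U' : Subgroup (lcf_Gal q)) (h : U' ≤ U), lcf_IsOpen U' →
    spl_IsNormalIn U U' →
    ∀ c : ↥U × ↥U → (PadicAlgCl q)ˣ, lcf_IsCoc U c → lcf_IsCob U' (lcf_res h c) →
      ∃ c' : ↥U × ↥U → (PadicAlgCl q)ˣ, lcf_IsCoc U c' ∧ spl_IsInfl U U' c' ∧
        lcf_IsCob U (c / c')

/-- **[COUNT]** the classes in `Br(K_U)` which are inflated from `U / U'` (i.e. split by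
`L = K_{U'}`) form a group of order at most `[U : U'] = [L : K]`: there is a set of at most
`[U : U']` representatives.  (Second inequality `#H²(Gal(L/K), L^×) ∣ [L : K]` = [L3].) -/
def spl_CountStatement : Prop :=
  ∀ (q : ℕ) [Fact q.Prime] (U U' : Subgroup (lcf_Gal q)), lcf_IsOpen U' → spl_IsNormalIn U U' →
    ∃ S : Finset (↥U × ↥U → (PadicAlgCl q)ˣ), S.card ≤ U'.relIndex U ∧
      ∀ f : ↥U × ↥U → (PadicAlgCl q)ˣ, lcf_IsCoc U f → spl_IsInfl U U' f →
        ∃ r ∈ S, lcf_IsCob U (f / r)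

/-- **[UR-VAL]** the maximal unramified extension has the same value group: an element of `Ω^×`
which is fixed by the inertia subgroup of `U` has its norm in the value group of `K_U`.
(The fixed field of inertia is generated over `K_U` by roots of unity of order prime to `q`.) -/
def spl_UrValStatement : Prop :=
  ∀ (q : ℕ) [Fact q.Prime] (U : Subgroup (lcf_Gal q)), lcf_IsOpen U →
    ∀ ϖ : (PadicAlgCl q)ˣ, lcf_IsUnif U ϖ →
    ∀ x : (PadicAlgCl q)ˣ, (∀ s : ↥U, lcf_IsInert (s : lcf_Gal q) → s • x = x) →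
      ∃ k : ℤ, ‖(x : PadicAlgCl q)‖ = ‖(ϖ : PadicAlgCl q)‖ ^ k

/-- **[EF]** the fundamental identity `e f = [L : K]` for `K = K_U ⊆ L = K_{U'}`. -/
def spl_EFStatement : Prop :=
  ∀ (q : ℕ) [Fact q.Prime] (U U' : Subgroup (lcf_Gal q)), U' ≤ U → lcf_IsOpen U' →
    ∀ ϖ ϖ' : (PadicAlgCl q)ˣ, lcf_IsUnif U ϖ → lcf_IsUnif U' ϖ' →
      ∃ e f : ℕ, ‖(ϖ : PadicAlgCl q)‖ = ‖(ϖ' : PadicAlgCl q)‖ ^ e ∧
        lcf_resCard U' = lcf_resCard U ^ f ∧ e * f = U'.relIndex U

/-- **[UNR-UNIQ]** `U / (inertia)` is topologically generated by a Frobenius element: a smooth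
character of `U` into a finite cyclic group which is trivial on inertia and on a Frobenius
element is trivial. -/
def spl_UnrUniqStatement : Prop :=
  ∀ (q : ℕ) [Fact q.Prime] (U : Subgroup (lcf_Gal q)), lcf_IsOpen U →
    ∀ (n : ℕ) [NeZero n] (χ : ↥U →* Multiplicative (ZMod n)) (φ : ↥U),
      lcf_Smooth₁ U χ → (∀ s : ↥U, lcf_IsInert (s : lcf_Gal q) → χ s = 1) →
      lcf_IsFrob U φ → χ φ = 1 → ∀ g : ↥U, χ g = 1

/-- **[UNIT-NORM]** units are norms from unramified extensions: for unramified data `(θ, φ)`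
and a unit `u` of `K_U` the symbol `u ^ δθ` is a smooth coboundary. -/
def spl_UnitNormStatement : Prop :=
  ∀ (q : ℕ) [Fact q.Prime] (U : Subgroup (lcf_Gal q)), lcf_IsOpen U →
    ∀ (n : ℕ) [NeZero n] (θ : ↥U →* Multiplicative (ZMod n)) (φ : ↥U), spl_IsUnrData U n θ φ →
    ∀ u : (PadicAlgCl q)ˣ, (∀ g : ↥U, g • u = u) → ‖(u : PadicAlgCl q)‖ = 1 →
      lcf_IsCob U (lcf_unrCoc U n θ u)

/-- **[RES-UNR]** restriction of unramified classes: for open subgroups `U' ≤ U` the restriction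
to `U'` of the unramified class `ϖ ^ δθ` of `U` is `[U : U']` times the unramified class
`ϖ' ^ δθ'` of `U'` of the same order `n`.  (`θ|U' = θ' ^ f`, `ϖ = u ϖ' ^ e`, `e f = [U : U']`,
units are norms.)  This is also the input of (I3) for the invariant map. -/
def spl_ResUnrStatement : Prop :=
  ∀ (q : ℕ) [Fact q.Prime] (U U' : Subgroup (lcf_Gal q)) (h : U' ≤ U), lcf_IsOpen U' →
    ∀ (n : ℕ) [NeZero n] (θ : ↥U →* Multiplicative (ZMod n)) (φ : ↥U) (ϖ : (PadicAlgCl q)ˣ)
      (θ' : ↥U' →* Multiplicative (ZMod n)) (φ' : ↥U') (ϖ' : (PadicAlgCl q)ˣ),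
      spl_IsUnrData U n θ φ → lcf_IsUnif U ϖ → spl_IsUnrData U' n θ' φ' → lcf_IsUnif U' ϖ' →
      lcf_IsCob U' (lcf_res h (lcf_unrCoc U n θ ϖ) / (lcf_unrCoc U' n θ' ϖ') ^ (U'.relIndex U))

end Fermat.Agent.S55
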