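/-
S55 (Poitou-Tate), GLOBAL side, leaf [LOC-FUND] (local, absolute language).  Owner: helper28.
Prefix `lfund_`.

`lfund_main : spl_InfResMidStatement → gl_LocFundStatement` : for an open subgroup `U` and an open
normal subgroup `U' ≤ U` of index `n` there is a smooth 2-cocycle of `U`, inflated from `U / U'`
with values fixed by `U'`, of invariant `1 / n`.
PROOF: (I5) gives `f₀` with `inv_U f₀ = 1 / n`; (I3) `inv_U' (res f₀) = n • (1 / n) = 0`;
(I2) `res f₀` is a smooth coboundary; [INF-RES-MID] `f₀ ~ f` with `f` inflated from `U / U'`;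
(I1), (I2) `inv_U f = inv_U f₀`.
-/
import Mathlib
import Fermat.Agent.S55.Global.TowerDefs
import Fermat.Agent.S55.Local.SplitDefs
import Fermat.Agent.S55.Local.InvBuild

set_option autoImplicit false

namespace Fermat.Agent.S55

open groupCohomology

/-- `n • (1 / n) = 0` in `ℚ/ℤ`. -/
theorem lfund_nsmul_qz (n : ℕ) : n • lcf_qz (1 / (n : ℚ)) = 0 := by
  rcases Nat.eq_zero_or_pos n with h | h
  · rw [h, zero_smul]
  · rw [← map_nsmul]
    have h1 : n • (1 / (n : ℚ)) = ((1 : ℤ) : ℚ) := by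
      rw [nsmul_eq_mul]
      have : (n : ℚ) ≠ 0 := by exact_mod_cast h.ne'
      field_simp
      norm_num
    rw [h1]
    exact linv_qz_intCast 1

/-- Cohomologous smooth cocycles have the same invariant. -/
theorem lfund_inv_eq {inv : lcf_InvType} (hinv : lcf_IsInvSystem inv) {q : ℕ} [Fact q.Prime]
    (U : Subgroup (lcf_Gal q)) (hU : lcf_IsOpen U) {f f' : ↥U × ↥U → (PadicAlgCl q)ˣ}
    (hf : lcf_IsCoc U f) (hf' : lcf_IsCoc U f') (h : lcf_IsCob U (f / f')) :
    inv q U f = inv q U f' := by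
  have h1 := lh3m_inv_div hinv U hU hf hf'
  have h2 : inv q U (f / f') = 0 :=
    (hinv.eq_zero_iff q U hU _ (lh3m_isCoc_div hf hf')).2 h
  rw [h2] at h1
  exact (sub_eq_zero.1 h1.symm)

/-- **[LOC-FUND]** from [INF-RES-MID]. -/
theorem lfund_main : spl_InfResMidStatement → gl_LocFundStatement := by
  intro hmid inv hinv q _ U U' hU hU' hle hnorm
  obtain ⟨f₀, hf₀, hinv₀⟩ := hinv.surj q U hU (lcf_qz (1 / (U'.relIndex U : ℚ)))
  have hres : inv q U' (lcf_res hle f₀) = 0 := by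
    rw [hinv.res q U U' hle hU' f₀ hf₀, hinv₀]
    exact lfund_nsmul_qz _
  have hcob : lcf_IsCob U' (lcf_res hle f₀) :=
    (hinv.eq_zero_iff q U' hU' _ (linv_isCoc_res hle hf₀)).1 hres
  obtain ⟨f, hf, hinfl, hcob'⟩ := hmid q U U' hle hU' ⟨hle, hnorm⟩ f₀ hf₀ hcob
  refine ⟨f, hf, hinfl.1, ?_, ?_⟩
  · intro g g' u hu
    exact hinfl.2 g g' ⟨u, hle hu⟩ hu
  · rw [← lfund_inv_eq hinv U hU hf₀ hf hcob', hinv₀]

end Fermat.Agent.S55
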