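import Fermat.Agent.S55.Local.SplitDefs
import Fermat.Agent.S55.Local.H90
import Fermat.Agent.S55.FG.InfRes2Smooth
import Fermat.Agent.S55.FG.H2Rep

/-!
# S55 local side, package [SPLIT], leaf (SP4) = [INF-RES-MID]

`splm_main : spl_InfResMidStatement`: a smooth 2-cocycle of `U` whose restriction to the open
subgroup `U'` (normalised by `U`) is a smooth coboundary is cohomologous, by a smooth cochain, to
a cocycle inflated from `U / U'`.

Proof: the abstract statement `fgO_mid_core` (inflation-restriction in degree 2 with control of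
the level) applied to `G = U`, `H = U'`, `M = Gal(Ω/E) ∩ U` for a finite normal level `E`, with
Hilbert 90 for smooth cochains (`lh90_main`).
-/

set_option linter.style.haveILetI false
set_option linter.unusedSectionVars false
set_option linter.unusedVariables false
set_option linter.style.longLine false

namespace Fermat.Agent.S55

open groupCohomology

section

variable {q : ℕ} [Fact q.Prime]

/-- A finite normal level containing three given finite levels. -/
theorem splm_exists_normal (E₀ E₁ E₂ : IntermediateField ℚ_[q] (PadicAlgCl q))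
    (h₀ : FiniteDimensional ℚ_[q] E₀) (h₁ : FiniteDimensional ℚ_[q] E₁)
    (h₂ : FiniteDimensional ℚ_[q] E₂) :
    ∃ E : IntermediateField ℚ_[q] (PadicAlgCl q), FiniteDimensional ℚ_[q] E ∧ Normal ℚ_[q] E ∧
      E₀ ≤ E ∧ E₁ ≤ E ∧ E₂ ≤ E := by
  haveI := h₀
  haveI := h₁
  haveI := h₂
  haveI : FiniteDimensional ℚ_[q] ↥(E₀ ⊔ E₁) := IntermediateField.finiteDimensional_sup E₀ E₁
  haveI : FiniteDimensional ℚ_[q] ↥(E₀ ⊔ E₁ ⊔ E₂) :=
    IntermediateField.finiteDimensional_sup (E₀ ⊔ E₁) E₂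
  refine ⟨IntermediateField.normalClosure ℚ_[q] ↥(E₀ ⊔ E₁ ⊔ E₂) (PadicAlgCl q),
    inferInstance, inferInstance, ?_, ?_, ?_⟩
  · exact (le_sup_left.trans le_sup_left).trans (IntermediateField.le_normalClosure _)
  · exact (le_sup_right.trans le_sup_left).trans (IntermediateField.le_normalClosure _)
  · exact le_sup_right.trans (IntermediateField.le_normalClosure _)

/-- The fixing subgroup of a finite normal level is a normal subgroup. -/
theorem splm_normal (E : IntermediateField ℚ_[q] (PadicAlgCl q)) (hE : Normal ℚ_[q] E) :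
    E.fixingSubgroup.Normal := by
  haveI := hE
  haveI : IsGalois ℚ_[q] E := ⟨⟩
  infer_instance

/-- **[INF-RES-MID]** (SP4): inflation-restriction in degree 2 for smooth cochains of the local
Galois group. -/
theorem splm_main : spl_InfResMidStatement := by
  classical
  intro q _ U U' hle hopen hnorm c hc hcob
  obtain ⟨hcc, E₁, hE₁, hsm₁⟩ := hc
  obtain ⟨b₀, ⟨E₂, hE₂, hsm₂⟩, hb₀⟩ := hcob
  obtain ⟨E₀, hE₀, hfix₀⟩ := id hopen
  obtain ⟨E, hE, hEn, h0, h1, h2⟩ := splm_exists_normal E₀ E₁ E₂ hE₀ hE₁ hE₂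
  have hfix : E.fixingSubgroup ≤ U' := (IntermediateField.fixingSubgroup_le h0).trans hfix₀
  have hfix1 : E.fixingSubgroup ≤ E₁.fixingSubgroup := IntermediateField.fixingSubgroup_le h1
  have hfix2 : E.fixingSubgroup ≤ E₂.fixingSubgroup := IntermediateField.fixingSubgroup_le h2
  letI act : DistribMulAction ↥U (Additive (PadicAlgCl q)ˣ) := fgC_addAct ↥U (PadicAlgCl q)ˣ
  let H : Subgroup ↥U := U'.subgroupOf U
  let M : Subgroup ↥U := E.fixingSubgroup.subgroupOf U
  haveI hHn : H.Normal := ⟨fun n hn g => hnorm.2 (g : lcf_Gal q) g.2 (n : lcf_Gal q) hn⟩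
  haveI hEfn : E.fixingSubgroup.Normal := splm_normal E hEn
  haveI hMn : M.Normal := Subgroup.normal_subgroupOf
  have hMH : M ≤ H := fun x hx => hfix hx
  -- Hilbert 90 at level `M`
  have h90 : ∀ w : ↥U → Additive (PadicAlgCl q)ˣ,
      (∀ k ∈ H, ∀ k' ∈ H, w (k * k') = k • w k' + w k) →
      (∀ k ∈ H, ∀ n ∈ M, w (k * n) = w k) →
      ∃ x : Additive (PadicAlgCl q)ˣ, ∀ k ∈ H, k • x - x = w k := by
    intro w hw1 hw2
    have hcoc : IsMulCocycle₁ (fun k : ↥U' => (w ⟨(k : lcf_Gal q), hle k.2⟩).toMul) := by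
      intro g h
      exact congrArg Additive.toMul
        (hw1 ⟨(g : lcf_Gal q), hle g.2⟩ g.2 ⟨(h : lcf_Gal q), hle h.2⟩ h.2)
    have hsm : lcf_Smooth₁ U' (fun k : ↥U' => (w ⟨(k : lcf_Gal q), hle k.2⟩).toMul) := by
      refine ⟨E, hE, fun g s hs => ?_⟩
      exact congrArg Additive.toMul
        (hw2 ⟨(g : lcf_Gal q), hle g.2⟩ g.2 ⟨(s : lcf_Gal q), hle s.2⟩ hs)
    obtain ⟨x, hx⟩ := lh90_main q U' hopen _ hcoc hsm
    refine ⟨Additive.ofMul x, fun k hk => ?_⟩
    have := hx ⟨(k : lcf_Gal q), hk⟩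
    exact (congrArg Additive.ofMul this).symm
  -- the cochain `ψ` cobounding the restriction
  let ψ : ↥U → Additive (PadicAlgCl q)ˣ :=
    fun g => if hg : (g : lcf_Gal q) ∈ U' then Additive.ofMul (b₀ ⟨(g : lcf_Gal q), hg⟩) else 0
  have hψval : ∀ (k : ↥U) (hk : (k : lcf_Gal q) ∈ U'),
      ψ k = Additive.ofMul (b₀ ⟨(k : lcf_Gal q), hk⟩) := fun k hk => dif_pos hk
  have hψM : ∀ k ∈ H, ∀ n ∈ M, ψ (k * n) = ψ k := by
    intro k hk n hn
    have hkn : ((k * n : ↥U) : lcf_Gal q) ∈ U' := U'.mul_mem hk (hfix hn)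
    rw [hψval k hk, hψval (k * n) hkn]
    exact congrArg Additive.ofMul
      (hsm₂ ⟨(k : lcf_Gal q), hk⟩ ⟨(n : lcf_Gal q), hfix hn⟩ (hfix2 hn))
  have hψ : ∀ k ∈ H, ∀ k' ∈ H,
      k • ψ k' - ψ (k * k') + ψ k = Additive.ofMul (c (k, k')) := by
    intro k hk k' hk'
    have hkk : ((k * k' : ↥U) : lcf_Gal q) ∈ U' := U'.mul_mem hk hk'
    rw [hψval k hk, hψval k' hk', hψval (k * k') hkk]
    exact congrArg Additive.ofMul (hb₀ ⟨(k : lcf_Gal q), hk⟩ ⟨(k' : lcf_Gal q), hk'⟩)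
  have hF : IsCocycle₂ (fun p : ↥U × ↥U => Additive.ofMul (c p)) := fun g h j =>
    congrArg Additive.ofMul (hcc g h j)
  have hFM : ∀ g h : ↥U, ∀ n ∈ M, ∀ n' ∈ M,
      (fun p : ↥U × ↥U => Additive.ofMul (c p)) (g * n, h * n') =
        (fun p : ↥U × ↥U => Additive.ofMul (c p)) (g, h) := fun g h n hn n' hn' =>
    congrArg Additive.ofMul (hsm₁ g h n n' (hfix1 hn) (hfix1 hn'))
  obtain ⟨F', b, hF', hF'1, hF'2, hbM, hb⟩ :=
    fgO_mid_core H M hMH h90 (fun p : ↥U × ↥U => Additive.ofMul (c p)) hF hFM ψ hψM hψ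
  refine ⟨fun p => (F' p).toMul, ⟨?_, ?_⟩, ⟨?_, ?_⟩, ?_⟩
  · exact fun g h j => congrArg Additive.toMul (hF' g h j)
  · exact ⟨E, hE, fun g g' s s' hs hs' =>
      congrArg Additive.toMul (hF'1 g g' s (hfix hs) s' (hfix hs'))⟩
  · exact fun g h s s' hs hs' => congrArg Additive.toMul (hF'1 g h s hs s' hs')
  · exact fun g h s hs => congrArg Additive.toMul (hF'2 g h s hs)
  · refine ⟨fun g => (b g).toMul, ⟨E, hE, fun g s hs => ?_⟩, fun g h => ?_⟩
    · exact congrArg Additive.toMul (hbM g s hs)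
    · exact congrArg Additive.toMul (hb g h)

end

end Fermat.Agent.S55
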