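/-
S55 (Poitou-Tate), GLOBAL side, leaf [LOC-FUND], hypothesis-free form.  Owner: helper28.
Prefix `lfund_`.

`lfund_fin : gl_LocFundStatement` = `lfund_main` applied to helper19's `splm_main`
([INF-RES-MID]).
-/
import Mathlib
import Fermat.Agent.S55.Local.LocFund
import Fermat.Agent.S55.Local.SplInfRes

set_option autoImplicit false

namespace Fermat.Agent.S55

/-- **[LOC-FUND]**, hypothesis-free. -/
theorem lfund_fin : gl_LocFundStatement := lfund_main splm_main

end Fermat.Agent.S55
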