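/-
S55 (wave 5), LOCAL side, leaf **[UNR-H2U]**: `H²(unramified, units) = 0`, elementwise and in
the absolute setting of `LCFDefs.lean`.  Owner: helper29.  Prefix `unr_`.

`U' ≤ U` open subgroups of `Γ = Gal(Ω/ℚ_q)`, `U'` normal in `U`, `L = K_{U'}` unramified over
`K = K_U` (same value group).  Every 2-cocycle of `U` which is inflated from `U / U'` and takes
its values in the units (norm one) is the coboundary of a 1-cochain which is inflated from
`U / U'` and takes its values in the units.

Reference: Serre, Local Fields, ch. V §2 (Prop. 3) and ch. XII §3 (Lemma 2);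
Cassels-Froehlich, ch. VI §1.2 (Prop. 1).
-/
import Fermat.Agent.S55.Local.SplitDefs

set_option autoImplicit false

noncomputable section

namespace Fermat.Agent.S55

open groupCohomology

section Defs

variable {q : ℕ} [Fact q.Prime]

/-- `K_{U'} / K_U` is unramified (value group form): every element of `Ωˣ` which is fixed by
`U'` has the norm of an element which is fixed by `U`. -/
def unr_IsUnrLevel (U U' : Subgroup (lcf_Gal q)) : Prop :=
  ∀ x : (PadicAlgCl q)ˣ, (∀ s : ↥U', s • x = x) →
    ∃ y : (PadicAlgCl q)ˣ, (∀ g : ↥U, g • y = y) ∧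
      ‖(x : PadicAlgCl q)‖ = ‖(y : PadicAlgCl q)‖

end Defs

/-- **[UNR-H2U]** a unit-valued 2-cocycle inflated from an unramified finite level is the
coboundary of a unit-valued 1-cochain of the same level. -/
def unr_H2UStatement : Prop :=
  ∀ (q : ℕ) [Fact q.Prime] (U U' : Subgroup (lcf_Gal q)), lcf_IsOpen U' → spl_IsNormalIn U U' →
    unr_IsUnrLevel U U' →
    ∀ f : ↥U × ↥U → (PadicAlgCl q)ˣ, IsMulCocycle₂ f → spl_IsInfl U U' f →
      (∀ g h : ↥U, ‖(f (g, h) : PadicAlgCl q)‖ = 1) →
      ∃ b : ↥U → (PadicAlgCl q)ˣ,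
        (∀ g s : ↥U, (s : lcf_Gal q) ∈ U' → b (g * s) = b g) ∧
        (∀ g s : ↥U, (s : lcf_Gal q) ∈ U' → s • b g = b g) ∧
        (∀ g : ↥U, ‖(b g : PadicAlgCl q)‖ = 1) ∧
        ∀ g h : ↥U, g • b h / b (g * h) * b g = f (g, h)

end Fermat.Agent.S55
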