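/-
S55 (wave 5), LOCAL side, package [L3] = [A3] (second inequality), part 1: pure algebra.
Owner: helper2.  Prefix `l3d_`.  Mathlib + S55/FG only.

* `l3d_addAct`            : the additive action on `Additive M` of a multiplicative action;
* `l3d_pullH`             : functoriality of `fg_H2` in pairs (group, module);
* `l3d_card_congr`        : `fg_H2` of isomorphic pairs have the same cardinality;
* `l3d_H1Zero_congr`      : transport of `H¹ = 0` along an isomorphism of pairs;
* `l3d_card_dvd_of_sylow` : if `#H²(P, A) ∣ #P` for all Sylow subgroups then `#H²(G, A) ∣ #G`;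
* `l3d_cyclic_index`      : for a finite cyclic group `#H²(G, A) = [A^G : N_G A]`;
* `l3d_card_rep`          : Mathlib's `H2 (Rep.ofMulDistribMulAction G M)` and `fg_H2 G (Additive M)`
                            have the same cardinality.
-/
import Fermat.Agent.S55.FG.H2Card
import Fermat.Agent.S55.FG.Syl

set_option autoImplicit false
set_option linter.unusedSectionVars false
set_option linter.unusedVariables false
set_option linter.style.longLine false
set_option linter.style.haveILetI false

namespace Fermat.Agent.S55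

open groupCohomology

/-- A multiplicative distributive action gives a distributive action on `Additive`. -/
@[reducible] def l3d_addAct (G M : Type*) [Monoid G] [CommGroup M] [MulDistribMulAction G M] :
    DistribMulAction G (Additive M) where
  smul g a := Additive.ofMul (g • a.toMul)
  one_smul a := by
    show Additive.ofMul ((1 : G) • a.toMul) = a
    rw [one_smul]; rfl
  mul_smul m n a := by
    show Additive.ofMul ((m * n) • a.toMul) = Additive.ofMul (m • (n • a.toMul))
    rw [mul_smul]
  smul_zero m := by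
    show Additive.ofMul (m • (1 : M)) = 0
    rw [smul_one]; rfl
  smul_add m a b := by
    show Additive.ofMul (m • (a.toMul * b.toMul)) = _
    rw [smul_mul']; rfl

section Pull

variable {G G' A A' : Type*} [Group G] [Group G'] [AddCommGroup A] [AddCommGroup A']
  [DistribMulAction G A] [DistribMulAction G' A']

/-- Pullback of a 2-cochain along `α : G →* G'` and `φ : A' →+ A`. -/
def l3d_pull₂ (α : G →* G') (φ : A' →+ A) (f : G' × G' → A') : G × G → A :=
  fun p => φ (f (α p.1, α p.2))

theorem l3d_pull₂_apply (α : G →* G') (φ : A' →+ A) (f : G' × G' → A') (g h : G) :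
    l3d_pull₂ α φ f (g, h) = φ (f (α g, α h)) := rfl

theorem l3d_pull₂_isCocycle (α : G →* G') (φ : A' →+ A)
    (hc : ∀ (g : G) (a : A'), φ (α g • a) = g • φ a) {f : G' × G' → A'}
    (hf : IsCocycle₂ f) : IsCocycle₂ (l3d_pull₂ α φ f) := by
  intro g h j
  have e := hf (α g) (α h) (α j)
  simp only [l3d_pull₂_apply, map_mul]
  rw [← map_add, e, map_add, hc]

theorem l3d_pull₂_isCoboundary (α : G →* G') (φ : A' →+ A)
    (hc : ∀ (g : G) (a : A'), φ (α g • a) = g • φ a) {f : G' × G' → A'}
    (hf : IsCoboundary₂ f) : IsCoboundary₂ (l3d_pull₂ α φ f) := by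
  obtain ⟨x, hx⟩ := hf
  refine ⟨fun g => φ (x (α g)), fun g h => ?_⟩
  show g • φ (x (α h)) - φ (x (α (g * h))) + φ (x (α g)) = φ (f (α g, α h))
  rw [← hx, map_add, map_sub, hc, map_mul]

/-- Pullback on 2-cocycles. -/
def l3d_pullZ (α : G →* G') (φ : A' →+ A)
    (hc : ∀ (g : G) (a : A'), φ (α g • a) = g • φ a) : fg_Z2 G' A' →+ fg_Z2 G A where
  toFun f := ⟨l3d_pull₂ α φ (f : G' × G' → A'), l3d_pull₂_isCocycle α φ hc f.2⟩
  map_zero' := by
    apply Subtype.ext
    funext p
    show φ 0 = 0
    exact map_zero _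
  map_add' f f' := by
    apply Subtype.ext
    funext p
    show φ (_ + _) = φ _ + φ _
    exact map_add _ _ _

/-- Pullback on `H²`. -/
def l3d_pullH (α : G →* G') (φ : A' →+ A)
    (hc : ∀ (g : G) (a : A'), φ (α g • a) = g • φ a) : fg_H2 G' A' →+ fg_H2 G A :=
  QuotientAddGroup.map _ _ (l3d_pullZ α φ hc) (by
    intro f hf
    rw [AddSubgroup.mem_comap, AddSubgroup.mem_addSubgroupOf]
    rw [AddSubgroup.mem_addSubgroupOf] at hf
    exact l3d_pull₂_isCoboundary α φ hc hf)

theorem l3d_pullH_mk (α : G →* G') (φ : A' →+ A)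
    (hc : ∀ (g : G) (a : A'), φ (α g • a) = g • φ a) (f : fg_Z2 G' A') :
    l3d_pullH α φ hc (fg_H2mk G' A' f) = fg_H2mk G A (l3d_pullZ α φ hc f) := rfl

/-- Isomorphic pairs (group, module) have `H²` of the same cardinality. -/
theorem l3d_card_congr (e : G ≃* G') (φ : A ≃+ A')
    (h : ∀ (g : G) (a : A), φ (g • a) = e g • φ a) :
    Nat.card (fg_H2 G A) = Nat.card (fg_H2 G' A') := by
  have hc1 : ∀ (g : G) (a : A'), φ.symm.toAddMonoidHom (e.toMonoidHom g • a) =
      g • φ.symm.toAddMonoidHom a := by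
    intro g a
    show φ.symm (e g • a) = g • φ.symm a
    apply φ.injective
    rw [AddEquiv.apply_symm_apply, h, AddEquiv.apply_symm_apply]
  have hc2 : ∀ (g : G') (a : A), φ.toAddMonoidHom (e.symm.toMonoidHom g • a) =
      g • φ.toAddMonoidHom a := by
    intro g a
    show φ (e.symm g • a) = g • φ a
    rw [h, MulEquiv.apply_symm_apply]
  refine (Nat.card_congr
    { toFun := l3d_pullH e.toMonoidHom φ.symm.toAddMonoidHom hc1
      invFun := l3d_pullH e.symm.toMonoidHom φ.toAddMonoidHom hc2
      left_inv := ?_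
      right_inv := ?_ }).symm
  · intro x
    obtain ⟨f, rfl⟩ := fg_H2mk_surjective x
    rw [l3d_pullH_mk, l3d_pullH_mk]
    congr 1
    apply Subtype.ext
    funext p
    show φ (φ.symm ((f : G' × G' → A') (e (e.symm p.1), e (e.symm p.2)))) = _
    rw [AddEquiv.apply_symm_apply, MulEquiv.apply_symm_apply, MulEquiv.apply_symm_apply]
  · intro x
    obtain ⟨f, rfl⟩ := fg_H2mk_surjective x
    rw [l3d_pullH_mk, l3d_pullH_mk]
    congr 1
    apply Subtype.ext
    funext p
    show φ.symm (φ ((f : G × G → A) (e.symm (e p.1), e.symm (e p.2)))) = _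
    rw [AddEquiv.symm_apply_apply, MulEquiv.symm_apply_apply, MulEquiv.symm_apply_apply]

/-- Transport of `H¹ = 0` along an isomorphism of pairs. -/
theorem l3d_H1Zero_congr (e : G ≃* G') (φ : A ≃+ A')
    (h : ∀ (g : G) (a : A), φ (g • a) = e g • φ a)
    (h1 : ∀ f : G' → A', IsCocycle₁ f → IsCoboundary₁ f) :
    ∀ f : G → A, IsCocycle₁ f → IsCoboundary₁ f := by
  intro f hf
  have hf' : IsCocycle₁ (fun g' : G' => φ (f (e.symm g'))) := by
    intro g' h'
    show φ (f (e.symm (g' * h'))) = g' • φ (f (e.symm h')) + φ (f (e.symm g'))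
    rw [map_mul, hf, map_add, h, MulEquiv.apply_symm_apply]
  obtain ⟨x, hx⟩ := h1 _ hf'
  refine ⟨φ.symm x, fun g => ?_⟩
  apply φ.injective
  have := hx (e g)
  simp only [MulEquiv.symm_apply_apply] at this
  rw [map_sub, h, AddEquiv.apply_symm_apply, this]

end Pull

section Sylow

variable {G : Type*} [Group G] {A : Type*} [AddCommGroup A] [DistribMulAction G A]

theorem l3d_res_bot_isCoboundary (f : G × G → A) :
    IsCoboundary₂ (fg_res₂ (⊥ : Subgroup G) f) := by
  refine ⟨fun _ => f (1, 1), fun p q => ?_⟩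
  have hp : (p : G) = 1 := Subgroup.mem_bot.1 p.2
  have hq : (q : G) = 1 := Subgroup.mem_bot.1 q.2
  change p • f (1, 1) - f (1, 1) + f (1, 1) = f ((p : G), (q : G))
  rw [hp, hq, Subgroup.smul_def, hp, one_smul]
  abel

/-- **Sylow reduction for the order of `H²`**: if `#H²(P, A)` divides `#P` for every Sylow
subgroup `P` of the finite group `G`, then `#H²(G, A)` divides `#G`. -/
theorem l3d_card_dvd_of_sylow [Finite G]
    (h : ∀ (p : ℕ) [Fact p.Prime] (P : Sylow p G),
      Nat.card (fg_H2 (↥(P : Subgroup G)) A) ∣ Nat.card (↥(P : Subgroup G))) :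
    Nat.card (fg_H2 G A) ∣ Nat.card G := by
  classical
  set n := Nat.card G with hn
  have hn0 : n ≠ 0 := Nat.card_pos.ne'
  -- a choice of Sylow subgroups
  have hprime : ∀ p : ↥n.primeFactors, Fact (p : ℕ).Prime :=
    fun p => ⟨Nat.prime_of_mem_primeFactors p.2⟩
  let P : ∀ p : ↥n.primeFactors, Sylow (p : ℕ) G := fun p =>
    haveI := hprime p
    Classical.choice (inferInstance : Nonempty (Sylow (p : ℕ) G))
  let Φ : fg_H2 G A →+ (∀ p : ↥n.primeFactors, fg_H2 (↥((P p : Sylow (p : ℕ) G) : Subgroup G)) A) :=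
    AddMonoidHom.pi (fun p => fgC_resHom ((P p : Sylow (p : ℕ) G) : Subgroup G))
  have hΦ : Function.Injective Φ := by
    rw [injective_iff_map_eq_zero]
    intro x hx
    obtain ⟨f, rfl⟩ := fg_H2mk_surjective x
    rw [fg_H2mk_eq_zero_iff]
    refine fgS_H2_of_index f.2 (fun p hp => ?_)
    by_cases hpn : p ∣ n
    · have hmem : p ∈ n.primeFactors := Nat.mem_primeFactors.2 ⟨hp, hpn, hn0⟩
      haveI := hprime ⟨p, hmem⟩
      refine ⟨((P ⟨p, hmem⟩ : Sylow p G) : Subgroup G), Sylow.not_dvd_index _, ?_⟩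
      have h1 := congrFun hx ⟨p, hmem⟩
      change fgC_resHom _ (fg_H2mk G A f) = 0 at h1
      rw [fgC_resHom_mk, fg_H2mk_eq_zero_iff] at h1
      exact h1
    · refine ⟨⊥, ?_, l3d_res_bot_isCoboundary _⟩
      rw [Subgroup.index_bot]
      exact hpn
  have h1 := AddSubgroup.card_dvd_of_injective Φ hΦ
  rw [Nat.card_pi] at h1
  refine h1.trans ?_
  have h2 : (∏ p : ↥n.primeFactors, Nat.card (fg_H2 (↥((P p : Sylow (p : ℕ) G) : Subgroup G)) A)) ∣
      ∏ p : ↥n.primeFactors, (p : ℕ) ^ n.factorization (p : ℕ) := by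
    refine Finset.prod_dvd_prod_of_dvd _ _ (fun p _ => ?_)
    haveI := hprime p
    have := h (p : ℕ) (P p)
    rwa [Sylow.card_eq_multiplicity] at this
  refine h2.trans ?_
  rw [Finset.prod_coe_sort n.primeFactors (fun p => p ^ n.factorization p)]
  have h3 := Nat.prod_factorization_pow_eq_self hn0
  rw [Finsupp.prod, Nat.support_factorization] at h3
  rw [h3]

end Sylow

section Cyclic

variable {G : Type*} [Group G] [Finite G] {A : Type*} [AddCommGroup A] [DistribMulAction G A]

/-- **`H²` of a finite cyclic group**: if `j : X → A` parametrises the invariants and `N` is the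
preimage of the norms, then `[X : N] = #H²(G, A)`. -/
theorem l3d_cyclic_index (σ : G) (hσ : ∀ g, g ∈ Subgroup.zpowers σ) {X : Type*} [Group X]
    (j : X → A) (hj_mul : ∀ x y, j (x * y) = j x + j y) (hj_inv : ∀ x (g : G), g • j x = j x)
    (hj_surj : ∀ a : A, (∀ g : G, g • a = a) → ∃ x, j x = a) (N : Subgroup X)
    (hN : ∀ x, x ∈ N ↔ ∃ w : A, ∑ᶠ g : G, g • w = j x) :
    N.index = Nat.card (fg_H2 G A) := by
  set L := fgD_Log.ofGen σ hσ with hL
  have hj1 : j 1 = 0 := by
    have := hj_mul 1 1
    rw [mul_one] at this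
    exact left_eq_add.1 this
  let Φ : X →* Multiplicative (fg_H2 G A) :=
    { toFun := fun x => Multiplicative.ofAdd
        (fg_H2mk G A ⟨fgD_carry L (j x), fgD_carry_isCocycle L (hj_inv x)⟩)
      map_one' := by
        rw [← ofAdd_zero]
        congr 1
        rw [fg_H2mk_eq_zero_iff]
        show IsCoboundary₂ (fgD_carry L (j 1))
        rw [hj1]
        have : fgD_carry L (0 : A) = fun _ => (0 : A) := funext (fgD_carry_zero L)
        rw [this]
        exact fgD_isCoboundary₂_zero
      map_mul' := fun x y => by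
        rw [← ofAdd_add, ← map_add]
        congr 2
        apply Subtype.ext
        funext p
        show fgD_carry L (j (x * y)) p = fgD_carry L (j x) p + fgD_carry L (j y) p
        rw [hj_mul, fgD_carry_add] }
  have hΦ_apply : ∀ x, Φ x = Multiplicative.ofAdd
        (fg_H2mk G A ⟨fgD_carry L (j x), fgD_carry_isCocycle L (hj_inv x)⟩) := fun _ => rfl
  have hker : Φ.ker = N := by
    ext x
    rw [MonoidHom.mem_ker, hΦ_apply, hN, ← fgD_carry_isCoboundary_iff' L (hj_inv x),
      ← fg_H2mk_eq_zero_iff ⟨fgD_carry L (j x), fgD_carry_isCocycle L (hj_inv x)⟩]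
    exact Iff.rfl
  have hsurj : Function.Surjective Φ := by
    intro y
    obtain ⟨f, hf⟩ := fg_H2mk_surjective (Multiplicative.toAdd y)
    obtain ⟨x, hx⟩ := hj_surj (fgD_tr L (f : G × G → A)) (fgD_tr_inv L f.2)
    refine ⟨x, ?_⟩
    rw [hΦ_apply]
    apply Multiplicative.toAdd.injective
    rw [toAdd_ofAdd, ← hf]
    symm
    rw [← sub_eq_zero, ← map_sub, fg_H2mk_eq_zero_iff]
    show IsCoboundary₂ (fun p => (f : G × G → A) p - fgD_carry L (j x) p)
    rw [hx]
    exact fgD_cohomologous L f.2
  rw [← hker, Subgroup.index_ker, MonoidHom.range_eq_top.2 hsurj]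
  rw [Nat.card_congr (Subgroup.topEquiv (G := Multiplicative (fg_H2 G A))).toEquiv]
  exact Nat.card_congr Multiplicative.toAdd

end Cyclic

section Rep

attribute [local instance] l3d_addAct

variable (G M : Type) [Group G] [CommGroup M] [MulDistribMulAction G M]

theorem l3d_mem_cocycles₂_iff (f : G × G → Additive M) :
    f ∈ cocycles₂ (Rep.ofMulDistribMulAction G M) ↔ IsCocycle₂ f :=
  mem_cocycles₂_iff (A := Rep.ofMulDistribMulAction G M) f

theorem l3d_mem_coboundaries₂_iff (f : G × G → Additive M) :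
    f ∈ coboundaries₂ (Rep.ofMulDistribMulAction G M) ↔ IsCoboundary₂ f := by
  constructor
  · rintro ⟨x, rfl⟩
    exact ⟨x, fun _ _ => rfl⟩
  · rintro ⟨x, hx⟩
    exact ⟨x, funext fun p => hx p.1 p.2⟩

/-- The class map from `fg_Z2` to Mathlib's `H2`. -/
noncomputable def l3d_toH2 : fg_Z2 G (Additive M) →+ H2 (Rep.ofMulDistribMulAction G M) where
  toFun f := (H2π (Rep.ofMulDistribMulAction G M)).hom
    ⟨(f : G × G → Additive M), (l3d_mem_cocycles₂_iff G M _).2 f.2⟩
  map_zero' := by
    have : (⟨((0 : fg_Z2 G (Additive M)) : G × G → Additive M),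
        (l3d_mem_cocycles₂_iff G M _).2 (0 : fg_Z2 G (Additive M)).2⟩ :
        cocycles₂ (Rep.ofMulDistribMulAction G M)) = 0 := rfl
    rw [this, map_zero]
  map_add' f f' := by
    have : (⟨((f + f' : fg_Z2 G (Additive M)) : G × G → Additive M),
        (l3d_mem_cocycles₂_iff G M _).2 (f + f').2⟩ :
        cocycles₂ (Rep.ofMulDistribMulAction G M)) =
        ⟨(f : G × G → Additive M), (l3d_mem_cocycles₂_iff G M _).2 f.2⟩ +
        ⟨(f' : G × G → Additive M), (l3d_mem_cocycles₂_iff G M _).2 f'.2⟩ := rfl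
    rw [this, map_add]

theorem l3d_toH2_surjective : Function.Surjective (l3d_toH2 G M) := by
  intro y
  induction y using H2_induction_on with
  | h x =>
    exact ⟨⟨(x : G × G → Additive M), (l3d_mem_cocycles₂_iff G M _).1 x.2⟩, rfl⟩

theorem l3d_toH2_ker :
    (l3d_toH2 G M).ker = (fg_B2 G (Additive M)).addSubgroupOf (fg_Z2 G (Additive M)) := by
  ext f
  rw [AddMonoidHom.mem_ker, AddSubgroup.mem_addSubgroupOf]
  show (H2π (Rep.ofMulDistribMulAction G M)).hom _ = 0 ↔ _
  rw [H2π_eq_zero_iff]
  exact l3d_mem_coboundaries₂_iff G M _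

/-- Mathlib's `H²` of the representation on `Additive M` has the same cardinality as the
elementwise `fg_H2`. -/
theorem l3d_card_rep :
    Nat.card (H2 (Rep.ofMulDistribMulAction G M)) = Nat.card (fg_H2 G (Additive M)) := by
  have e1 := QuotientAddGroup.quotientKerEquivOfSurjective (l3d_toH2 G M)
    (l3d_toH2_surjective G M)
  have e2 := QuotientAddGroup.quotientAddEquivOfEq (l3d_toH2_ker G M)
  exact (Nat.card_congr (e2.symm.trans e1).toEquiv).symm

end Rep

end Fermat.Agent.S55
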