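/-
S55 (wave 5), LOCAL side, package [L3] = [A3] (second inequality), part 2: Galois plumbing.
Owner: helper2.  Prefix `l3d_`.

For a finite Galois extension `L/K` (plain fields), `G = Gal(L/K)`, `A = Additive Lˣ`:
* `l3d_cyclic_field`   : `G` cyclic ⇒ `[Kˣ : N Lˣ] = #H²(G, Lˣ)`;
* `l3d_card_fixing`    : `#H²(H, Lˣ) = #H²(Gal(L/E), Lˣ)` for `H = E.fixingSubgroup`;
* `l3d_H1Zero_fixing`  : Hilbert 90 for subgroups;
* `l3d_infData`        : the inflation datum of a normal intermediate field;
* `l3d_card_tower`     : `#H²(G, Lˣ) ∣ #H²(Gal(E/K), Eˣ) · #H²(Gal(L/E), Lˣ)`.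
-/
import Fermat.Agent.S55.Local.H2DvdAlg

set_option autoImplicit false
set_option linter.unusedSectionVars false
set_option linter.unusedVariables false
set_option linter.style.longLine false
set_option linter.style.haveILetI false

namespace Fermat.Agent.S55

open groupCohomology

/-- The action of `Gal(L/K)` on `Additive Lˣ`. -/
@[reducible] def l3d_galAct (K L : Type*) [Field K] [Field L] [Algebra K L] :
    DistribMulAction (L ≃ₐ[K] L) (Additive Lˣ) := l3d_addAct (L ≃ₐ[K] L) Lˣ

attribute [local instance] l3d_galAct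

section Field

variable (K L : Type) [Field K] [Field L] [Algebra K L] [FiniteDimensional K L] [IsGalois K L]

theorem l3d_smul_ofMul (g : L ≃ₐ[K] L) (u : Lˣ) :
    g • (Additive.ofMul u) = Additive.ofMul (Units.map (g : L →* L) u) := rfl

theorem l3d_toMul_finsum (w : Additive Lˣ) :
    ((Additive.toMul (∑ᶠ g : L ≃ₐ[K] L, g • w) : Lˣ) : L) =
      algebraMap K L (Algebra.norm K ((Additive.toMul w : Lˣ) : L)) := by
  rw [finsum_eq_sum_of_fintype, toMul_sum, Units.coe_prod, Algebra.norm_eq_prod_automorphisms]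
  rfl

/-- **Cyclic case**: `[Kˣ : N Lˣ] = #H²(Gal(L/K), Lˣ)`. -/
theorem l3d_cyclic_field (hc : IsCyclic (L ≃ₐ[K] L)) :
    (Units.map (Algebra.norm K : L →* K)).range.index =
      Nat.card (fg_H2 (L ≃ₐ[K] L) (Additive Lˣ)) := by
  obtain ⟨σ, hσ⟩ := IsCyclic.exists_generator (α := L ≃ₐ[K] L)
  refine l3d_cyclic_index σ hσ
    (fun x : Kˣ => Additive.ofMul (Units.map (algebraMap K L : K →* L) x)) ?_ ?_ ?_ _ ?_
  · intro x y
    rw [map_mul]
    rfl
  · intro x g
    rw [l3d_smul_ofMul]
    congr 1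
    apply Units.ext
    show g (algebraMap K L x) = algebraMap K L x
    exact g.commutes _
  · intro a ha
    have hfix : ∀ g : L ≃ₐ[K] L, g ((Additive.toMul a : Lˣ) : L) = ((Additive.toMul a : Lˣ) : L) := by
      intro g
      have := congrArg (fun b : Additive Lˣ => ((Additive.toMul b : Lˣ) : L)) (ha g)
      exact this
    have hbot := (IsGalois.mem_bot_iff_fixed (F := K) (E := L) _).2 hfix
    obtain ⟨k, hk⟩ := IntermediateField.mem_bot.1 hbot
    have hk0 : k ≠ 0 := by
      rintro rfl
      rw [map_zero] at hk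
      exact (Additive.toMul a : Lˣ).ne_zero hk.symm
    refine ⟨Units.mk0 k hk0, ?_⟩
    apply Additive.toMul.injective
    apply Units.ext
    exact hk
  · intro x
    rw [MonoidHom.mem_range]
    constructor
    · rintro ⟨w, rfl⟩
      refine ⟨Additive.ofMul w, ?_⟩
      apply Additive.toMul.injective
      apply Units.ext
      rw [l3d_toMul_finsum]
      rfl
    · rintro ⟨w, hw⟩
      refine ⟨Additive.toMul w, ?_⟩
      apply Units.ext
      apply (algebraMap K L).injective
      have := congrArg (fun b : Additive Lˣ => ((Additive.toMul b : Lˣ) : L)) hw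
      simp only [l3d_toMul_finsum] at this
      exact this

section Tower

variable (E : IntermediateField K L)

theorem l3d_fixing_compat (g : ↥E.fixingSubgroup) (a : Additive Lˣ) :
    (AddEquiv.refl (Additive Lˣ)) (g • a) =
      (IntermediateField.fixingSubgroupEquiv E g) • (AddEquiv.refl (Additive Lˣ)) a := rfl

/-- `#H²(H, Lˣ) = #H²(Gal(L/E), Lˣ)` for `H = E.fixingSubgroup`. -/
theorem l3d_card_fixing (H : Subgroup (L ≃ₐ[K] L)) (hH : H = E.fixingSubgroup) :
    Nat.card (fg_H2 (↥H) (Additive Lˣ)) = Nat.card (fg_H2 (L ≃ₐ[↥E] L) (Additive Lˣ)) := by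
  subst hH
  exact l3d_card_congr (IntermediateField.fixingSubgroupEquiv E) (AddEquiv.refl _)
    (l3d_fixing_compat K L E)

/-- Hilbert 90 in additive elementwise form. -/
theorem l3d_hilbert90 (f : (L ≃ₐ[K] L) → Additive Lˣ) (hf : IsCocycle₁ f) : IsCoboundary₁ f := by
  have hm : IsMulCocycle₁ (fun g => Additive.toMul (f g)) := fun g h =>
    congrArg Additive.toMul (hf g h)
  obtain ⟨x, hx⟩ := isMulCoboundary₁_of_isMulCocycle₁_of_aut_to_units _ hm
  exact ⟨Additive.ofMul x, fun g => congrArg Additive.ofMul (hx g)⟩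

/-- Hilbert 90 for subgroups of the Galois group. -/
theorem l3d_H1Zero_fixing (H : Subgroup (L ≃ₐ[K] L)) (hH : H = E.fixingSubgroup) :
    fg_H1Zero H (Additive Lˣ) := by
  subst hH
  exact l3d_H1Zero_congr (IntermediateField.fixingSubgroupEquiv E) (AddEquiv.refl _)
    (l3d_fixing_compat K L E) (l3d_hilbert90 (↥E) L)

/-- The inflation datum of a normal intermediate field. -/
noncomputable def l3d_infData [Normal K ↥E] :
    fgI_InfData (L ≃ₐ[K] L) (↥E ≃ₐ[K] ↥E) (Additive Lˣ) (Additive (↥E)ˣ) where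
  π := AlgEquiv.restrictNormalHom ↥E
  ι := MonoidHom.toAdditive (Units.map (algebraMap ↥E L : ↥E →* L))
  π_surj := AlgEquiv.restrictNormalHom_surjective L
  ι_inj := by
    intro a b hab
    have h1 := congrArg (fun c : Additive Lˣ => ((Additive.toMul c : Lˣ) : L)) hab
    apply Additive.toMul.injective
    apply Units.ext
    apply (algebraMap ↥E L).injective
    exact h1
  ι_smul := by
    intro g b
    apply Additive.toMul.injective
    apply Units.ext
    show algebraMap ↥E L ((AlgEquiv.restrictNormalHom ↥E g) ((Additive.toMul b : (↥E)ˣ) : ↥E)) =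
      g (algebraMap ↥E L ((Additive.toMul b : (↥E)ˣ) : ↥E))
    exact AlgEquiv.restrictNormal_commutes g ↥E _
  ι_range := by
    intro a ha
    have hmem : ((Additive.toMul a : Lˣ) : L) ∈ IntermediateField.fixedField E.fixingSubgroup := by
      rw [IntermediateField.mem_fixedField_iff]
      intro h hh
      have hπ : AlgEquiv.restrictNormalHom ↥E h = 1 := by
        rw [← MonoidHom.mem_ker, IntermediateField.restrictNormalHom_ker]
        exact hh
      have := congrArg (fun c : Additive Lˣ => ((Additive.toMul c : Lˣ) : L)) (ha h hπ)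
      exact this
    rw [IsGalois.fixedField_fixingSubgroup] at hmem
    have h0 : (⟨((Additive.toMul a : Lˣ) : L), hmem⟩ : ↥E) ≠ 0 := by
      intro h
      have := congrArg (fun y : ↥E => (y : L)) h
      exact (Additive.toMul a : Lˣ).ne_zero this
    refine ⟨Additive.ofMul (Units.mk0 ⟨((Additive.toMul a : Lˣ) : L), hmem⟩ h0), ?_⟩
    apply Additive.toMul.injective
    apply Units.ext
    rfl

/-- **Tower step**: `#H²(Gal(L/K), Lˣ) ∣ #H²(Gal(E/K), Eˣ) · #H²(Gal(L/E), Lˣ)`. -/
theorem l3d_card_tower [Normal K ↥E] :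
    Nat.card (fg_H2 (L ≃ₐ[K] L) (Additive Lˣ)) ∣
      Nat.card (fg_H2 (↥E ≃ₐ[K] ↥E) (Additive (↥E)ˣ)) *
        Nat.card (fg_H2 (L ≃ₐ[↥E] L) (Additive Lˣ)) := by
  have hker : (l3d_infData K L E).π.ker = E.fixingSubgroup :=
    IntermediateField.restrictNormalHom_ker E
  have h := fgC_card_aux (l3d_infData K L E) (l3d_H1Zero_fixing K L E _ hker)
  have h' := l3d_card_fixing K L E _ hker
  rw [h'] at h
  exact h

end Tower

end Field

end Fermat.Agent.S55
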