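/-
S55 (wave 5), LOCAL side, package [L3] = [A3]: the SECOND INEQUALITY
`#H²(Gal(L/K), Lˣ) ∣ [L : K]` for Galois extensions of local fields, from the first inequality
[L2] (`lcf_NormIndexStatement`, cyclic case) as a hypothesis.
Owner: helper2.  Prefix `l3d_`.

Route (Serre, Local Fields XIII §3 / Cassels-Froehlich VI 1.5):
* cyclic case: `#H² = [Kˣ : N Lˣ] = [L : K]` ([FG-CYC2] + [L2]);
* `p`-groups: induction on the order through a central subgroup of order `p`
  (inflation-restriction [FG-INFRES2], Hilbert 90);
* general case: restriction to Sylow subgroups ([FG-SYL]).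

EXPORT: `l3d_main : lcf_NormIndexStatement.{0,0} → lcf_H2DvdStatement`.
-/
import Fermat.Agent.S55.Local.H2DvdField
import Fermat.Agent.S55.Local.LCFLeaves
import Fermat.Agent.S55.Local.LFExt

set_option autoImplicit false
set_option linter.unusedSectionVars false
set_option linter.unusedVariables false
set_option linter.style.longLine false
set_option linter.style.haveILetI false

namespace Fermat.Agent.S55

open groupCohomology

attribute [local instance] l3d_galAct

section Inst

variable (K L : Type) [NormedField K] [NormedField L] [Algebra K L]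
  [lf_IsLocal K] [lf_IsLocalExt K L] (E : IntermediateField K L)

/-- An intermediate field of an extension of local fields is an extension of the base. -/
theorem l3d_ext_bot : lf_IsLocalExt K ↥E :=
  ⟨inferInstance, fun k => by
    show ‖((algebraMap K ↥E k : ↥E) : L)‖ = ‖k‖
    exact lf_norm_algebraMap (K := K) (L := L) k⟩

/-- An intermediate field of an extension of local fields is a local field. -/
theorem l3d_loc : lf_IsLocal ↥E :=
  haveI := l3d_ext_bot K L E
  lf_isLocal_of_ext K ↥E

/-- The top field is an extension of every intermediate field. -/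
theorem l3d_ext_top : lf_IsLocalExt ↥E L := ⟨inferInstance, fun _ => rfl⟩

end Inst

/-- **Cyclic case** of the second inequality (an equality), from [L2]. -/
theorem l3d_cyclic_local (hL2 : lcf_NormIndexStatement.{0, 0})
    (K L : Type) [NormedField K] [NormedField L] [Algebra K L]
    [lf_IsLocal K] [lf_IsLocal L] [lf_IsLocalExt K L] [IsGalois K L]
    (hc : IsCyclic (L ≃ₐ[K] L)) :
    Nat.card (fg_H2 (L ≃ₐ[K] L) (Additive Lˣ)) = Module.finrank K L := by
  rw [← l3d_cyclic_field K L hc]
  exact hL2 K L hc

/-- A nontrivial finite `p`-group has a central element of order `p`. -/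
theorem l3d_exists_central {G : Type*} [Group G] [Finite G] [Nontrivial G] (p : ℕ)
    [Fact p.Prime] (hG : IsPGroup p G) :
    ∃ z : G, z ∈ Subgroup.center G ∧ orderOf z = p := by
  classical
  haveI := hG.center_nontrivial
  haveI : Fintype (Subgroup.center G) := Fintype.ofFinite _
  have hc : IsPGroup p (Subgroup.center G) := hG.to_subgroup _
  obtain ⟨k, hk⟩ := hc.exists_card_eq
  have hk0 : k ≠ 0 := by
    rintro rfl
    rw [pow_zero] at hk
    have := (Nat.card_eq_one_iff_unique.1 hk).1
    exact not_nontrivial _ ‹Nontrivial (Subgroup.center G)›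
  have hdvd : p ∣ Fintype.card (Subgroup.center G) := by
    rw [← Nat.card_eq_fintype_card, hk]
    exact dvd_pow_self p hk0
  obtain ⟨z, hz⟩ := exists_prime_orderOf_dvd_card p hdvd
  exact ⟨(z : G), z.2, by rw [Subgroup.orderOf_coe, hz]⟩

/-- **`p`-group case** of the second inequality, by induction on the degree. -/
theorem l3d_pgroup (hL2 : lcf_NormIndexStatement.{0, 0}) (p : ℕ) [Fact p.Prime] (n : ℕ) :
    ∀ (K L : Type) [NormedField K] [NormedField L] [Algebra K L]
      [lf_IsLocal K] [lf_IsLocal L] [lf_IsLocalExt K L] [IsGalois K L],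
      Module.finrank K L = n → IsPGroup p (L ≃ₐ[K] L) →
      Nat.card (fg_H2 (L ≃ₐ[K] L) (Additive Lˣ)) ∣ n := by
  induction n using Nat.strong_induction_on with
  | _ n ih =>
    intro K L _ _ _ _ _ _ _ hn hp
    by_cases hG : Subsingleton (L ≃ₐ[K] L)
    · have h1 := l3d_cyclic_local hL2 K L isCyclic_of_subsingleton
      rw [h1, hn]
    · rw [not_subsingleton_iff_nontrivial] at hG
      obtain ⟨z, hz, hzp⟩ := l3d_exists_central p hp
      set C : Subgroup (L ≃ₐ[K] L) := Subgroup.zpowers z with hC
      have hCle : C ≤ Subgroup.center (L ≃ₐ[K] L) := Subgroup.zpowers_le.2 hz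
      haveI hCn : C.Normal := ⟨fun c hc g => by
        have hcc := Subgroup.mem_center_iff.1 (hCle hc) g
        rw [hcc, mul_inv_cancel_right]
        exact hc⟩
      set E : IntermediateField K L := IntermediateField.fixedField C with hE
      haveI hgal : IsGalois K ↥E := IsGalois.of_fixedField_normal_subgroup C
      haveI := l3d_ext_bot K L E
      haveI := l3d_loc K L E
      haveI := l3d_ext_top K L E
      have hdeg : Module.finrank ↥E L = p := by
        rw [hE, IntermediateField.finrank_fixedField_eq_card, hC, Nat.card_zpowers, hzp]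
      have hmul : Module.finrank K ↥E * Module.finrank ↥E L = n := by
        rw [Module.finrank_mul_finrank, hn]
      have hp1 : 1 < p := (Fact.out : p.Prime).one_lt
      have hnpos : 0 < n := by
        rw [← hn]
        exact Module.finrank_pos
      have hlt : Module.finrank K ↥E < n := by
        rw [hdeg] at hmul
        have hpos : 0 < Module.finrank K ↥E := Module.finrank_pos
        calc Module.finrank K ↥E = Module.finrank K ↥E * 1 := (mul_one _).symm
          _ < Module.finrank K ↥E * p := Nat.mul_lt_mul_of_pos_left hp1 hpos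
          _ = n := hmul
      have hbot := ih (Module.finrank K ↥E) hlt K ↥E rfl
        (hp.of_surjective (AlgEquiv.restrictNormalHom ↥E) (AlgEquiv.restrictNormalHom_surjective L))
      have hcyc : IsCyclic (L ≃ₐ[↥E] L) :=
        isCyclic_of_prime_card (p := p) (by rw [IsGalois.card_aut_eq_finrank, hdeg])
      have htop := l3d_cyclic_local hL2 ↥E L hcyc
      have ht := l3d_card_tower K L E
      rw [htop] at ht
      rw [← hmul]
      exact ht.trans (Nat.mul_dvd_mul_right hbot _)

/-- **The second inequality** in elementwise form. -/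
theorem l3d_general (hL2 : lcf_NormIndexStatement.{0, 0})
    (K L : Type) [NormedField K] [NormedField L] [Algebra K L]
    [lf_IsLocal K] [lf_IsLocal L] [lf_IsLocalExt K L] [IsGalois K L] :
    Nat.card (fg_H2 (L ≃ₐ[K] L) (Additive Lˣ)) ∣ Module.finrank K L := by
  rw [← IsGalois.card_aut_eq_finrank K L]
  apply l3d_card_dvd_of_sylow
  intro p _ P
  set E : IntermediateField K L :=
    IntermediateField.fixedField (P : Subgroup (L ≃ₐ[K] L)) with hE
  have hfix : (P : Subgroup (L ≃ₐ[K] L)) = E.fixingSubgroup :=
    (IntermediateField.fixingSubgroup_fixedField _).symm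
  have hcard : Module.finrank ↥E L = Nat.card ↥(P : Subgroup (L ≃ₐ[K] L)) :=
    IntermediateField.finrank_fixedField_eq_card _
  rw [l3d_card_fixing K L E _ hfix, ← hcard]
  haveI := l3d_ext_bot K L E
  haveI := l3d_loc K L E
  haveI := l3d_ext_top K L E
  refine l3d_pgroup hL2 p _ ↥E L rfl ?_
  have h1 : IsPGroup p ↥E.fixingSubgroup := hfix ▸ P.isPGroup'
  exact h1.of_equiv (IntermediateField.fixingSubgroupEquiv E)

/-- **[L3]**: the second inequality `#H²(Gal(L/K), Lˣ) ∣ [L : K]`, from [L2]. -/
theorem l3d_main : lcf_NormIndexStatement.{0, 0} → lcf_H2DvdStatement := by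
  intro hL2 K L _ _ _ _ _ _ _
  show Nat.card (H2 (Rep.ofMulDistribMulAction (L ≃ₐ[K] L) Lˣ)) ∣ Module.finrank K L
  rw [l3d_card_rep]
  exact l3d_general hL2 K L

end Fermat.Agent.S55
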