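/-
S55 (wave 5), LOCAL side, leaf [L2-V]: abstract core.
Owner: helper25.  Mathlib only.  Prefix `lu_`.

A *multiplicative filtration* `I 0 ⊇ I 1 ⊇ ...` of a complete ultrametric normed field `L` by
closed additive subgroups, stable under `G = Gal(L/K)`, with `I n * I k ⊆ I (n + k + 1)` and
with *cohomologically trivial graded pieces*, gives a subgroup `1 + I 0` of the units of `L`
with `Ĥ⁰ = 0` and `H¹ = 0` (successive approximation, in the form of Cantor's intersection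
theorem).
-/
import Mathlib

set_option autoImplicit false

noncomputable section

namespace Fermat.Agent.S55

open scoped BigOperators
open Metric Filter Topology

/-- A multiplicative filtration with cohomologically trivial graded pieces. -/
structure lu_Filt (K L : Type*) [Field K] [NormedField L] [Algebra K L]
    [FiniteDimensional K L] where
  /-- the filtration -/
  I : ℕ → AddSubgroup L
  anti : ∀ n, I (n + 1) ≤ I n
  stable : ∀ (n : ℕ) (σ : L ≃ₐ[K] L) (x : L), x ∈ I n → σ x ∈ I n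
  mul : ∀ (n k : ℕ) (x y : L), x ∈ I n → y ∈ I k → x * y ∈ I (n + k + 1)
  closed : ∀ n, IsClosed (I n : Set L)
  lt_one : ∀ x : L, x ∈ I 0 → ‖x‖ < 1
  inter : ∀ x : L, (∀ n, x ∈ I n) → x = 0
  h0 : ∀ (n : ℕ) (x : L), x ∈ I n → (∀ σ : L ≃ₐ[K] L, σ x = x) →
    ∃ y : L, y ∈ I n ∧ x - ∑ σ : L ≃ₐ[K] L, σ y ∈ I (n + 1)
  h1 : ∀ (n : ℕ) (a : (L ≃ₐ[K] L) → L), (∀ σ, a σ ∈ I n) →
    (∀ σ τ : L ≃ₐ[K] L, a (σ * τ) - σ (a τ) - a σ ∈ I (n + 1)) →
    ∃ b : L, b ∈ I n ∧ ∀ σ : L ≃ₐ[K] L, a σ - (σ b - b) ∈ I (n + 1)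

namespace lu_Filt

variable {K L : Type*} [Field K] [NormedField L] [Algebra K L] [FiniteDimensional K L]
variable (F : lu_Filt K L)

theorem mono {n k : ℕ} (h : n ≤ k) : F.I k ≤ F.I n := by
  induction h with
  | refl => exact le_rfl
  | step _ ih => exact (F.anti _).trans ih

theorem mem_zero {n : ℕ} {x : L} (hx : x ∈ F.I n) : x ∈ F.I 0 := F.mono (Nat.zero_le n) hx

theorem mul_mem_left {n k : ℕ} {x y : L} (hx : x ∈ F.I n) (hy : y ∈ F.I k) : x * y ∈ F.I n :=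
  F.mono (by omega) (F.mul n k x y hx hy)

theorem mul_mem_right {n k : ℕ} {x y : L} (hx : x ∈ F.I n) (hy : y ∈ F.I k) : x * y ∈ F.I k :=
  F.mono (by omega) (F.mul n k x y hx hy)

theorem mul_mem_succ {n k : ℕ} {x y : L} (hx : x ∈ F.I n) (hy : y ∈ F.I k) :
    x * y ∈ F.I (n + 1) :=
  F.mono (by omega) (F.mul n k x y hx hy)

theorem mul_mem_succ' {n k : ℕ} {x y : L} (hx : x ∈ F.I n) (hy : y ∈ F.I k) :
    x * y ∈ F.I (k + 1) :=
  F.mono (by omega) (F.mul n k x y hx hy)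

/-- `(1 + I 0) * I n ⊆ I n`. -/
theorem one_add_mul_mem {n : ℕ} {u x : L} (hu : u - 1 ∈ F.I 0) (hx : x ∈ F.I n) :
    u * x ∈ F.I n := by
  have h : u * x = x + (u - 1) * x := by ring
  rw [h]
  exact (F.I n).add_mem hx (F.mul_mem_right hu hx)

theorem pow_mem {n : ℕ} {x : L} (hx : x ∈ F.I n) (k : ℕ) : x ^ (k + 1) ∈ F.I n := by
  induction k with
  | zero => simpa using hx
  | succ k ih =>
    rw [pow_succ]
    exact F.mul_mem_left ih hx

theorem one_add_ne_zero {u : L} (hu : u - 1 ∈ F.I 0) : u ≠ 0 := by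
  intro h
  have h1 := F.lt_one _ hu
  rw [h, zero_sub, norm_neg, norm_one] at h1
  exact lt_irrefl _ h1

/-- `1 + I n` is stable under products. -/
theorem mul_sub_one_mem {n : ℕ} {u v : L} (hu : u - 1 ∈ F.I n) (hv : v - 1 ∈ F.I n) :
    u * v - 1 ∈ F.I n := by
  have h : u * v - 1 = (u - 1) + (v - 1) + (u - 1) * (v - 1) := by ring
  rw [h]
  exact (F.I n).add_mem ((F.I n).add_mem hu hv) (F.mul_mem_left hu hv)

/-- `1 + I n` is stable under inverses. -/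
theorem inv_sub_one_mem {n : ℕ} {u : L} (hu : u - 1 ∈ F.I n) : u⁻¹ - 1 ∈ F.I n := by
  set x : L := 1 - u with hx
  have hxI : x ∈ F.I n := by
    have : x = -(u - 1) := by rw [hx]; ring
    rw [this]
    exact (F.I n).neg_mem hu
  have hxn : ‖x‖ < 1 := F.lt_one _ (F.mem_zero hxI)
  have hu0 : u ≠ 0 := F.one_add_ne_zero (F.mem_zero hu)
  -- partial sums of the geometric series
  have hs : ∀ N : ℕ, (∑ k ∈ Finset.range N, x ^ (k + 1)) ∈ F.I n := fun N =>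
    (F.I n).sum_mem fun k _ => F.pow_mem hxI k
  have hlim : Tendsto (fun N : ℕ => ∑ k ∈ Finset.range N, x ^ (k + 1)) atTop (𝓝 (u⁻¹ - 1)) := by
    have h1 : ∀ N : ℕ, ∑ k ∈ Finset.range N, x ^ (k + 1) = (u⁻¹ - 1) - u⁻¹ * x ^ (N + 1) := by
      intro N
      induction N with
      | zero =>
        rw [Finset.sum_range_zero, zero_add, pow_one, hx]
        field_simp
        ring
      | succ N ih =>
        rw [Finset.sum_range_succ, ih]
        have : x ^ (N + 1 + 1) = x ^ (N + 1) * x := pow_succ _ _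
        rw [this, hx]
        field_simp
        ring
    have h2 : Tendsto (fun N : ℕ => x ^ (N + 1)) atTop (𝓝 0) :=
      (tendsto_pow_atTop_nhds_zero_of_norm_lt_one hxn).comp (tendsto_add_atTop_nat 1)
    have h3 : Tendsto (fun N : ℕ => (u⁻¹ - 1) - u⁻¹ * x ^ (N + 1)) atTop
        (𝓝 ((u⁻¹ - 1) - u⁻¹ * 0)) :=
      tendsto_const_nhds.sub (tendsto_const_nhds.mul h2)
    rw [mul_zero, sub_zero] at h3
    exact h3.congr fun N => (h1 N).symm
  exact (F.closed n).mem_of_tendsto hlim (Eventually.of_forall hs)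

theorem div_sub_one_mem {n : ℕ} {u v : L} (hu : u - 1 ∈ F.I n) (hv : v - 1 ∈ F.I n) :
    u / v - 1 ∈ F.I n := by
  rw [div_eq_mul_inv]
  exact F.mul_sub_one_mem hu (F.inv_sub_one_mem hv)

theorem map_sub_one_mem {n : ℕ} {u : L} (hu : u - 1 ∈ F.I n) (σ : L ≃ₐ[K] L) :
    σ u - 1 ∈ F.I n := by
  have : σ u - 1 = σ (u - 1) := by rw [map_sub, map_one]
  rw [this]
  exact F.stable n σ _ hu

/-- `∏ (1 + a i) ≡ 1 + ∑ a i` modulo `I (n + 1)` for `a i ∈ I n`. -/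
theorem prod_one_add {ι : Type*} (s : Finset ι) {n : ℕ} (a : ι → L) (ha : ∀ i ∈ s, a i ∈ F.I n) :
    (∏ i ∈ s, (1 + a i)) - 1 - ∑ i ∈ s, a i ∈ F.I (n + 1) ∧ (∏ i ∈ s, (1 + a i)) - 1 ∈ F.I n := by
  classical
  induction s using Finset.induction_on with
  | empty => simp
  | insert j s hj ih =>
    obtain ⟨ih1, ih2⟩ := ih fun i hi => ha i (Finset.mem_insert_of_mem hi)
    have haj := ha j (Finset.mem_insert_self j s)
    rw [Finset.prod_insert hj, Finset.sum_insert hj]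
    set P := ∏ i ∈ s, (1 + a i) with hP
    set Sg := ∑ i ∈ s, a i with hSg
    constructor
    · have h : (1 + a j) * P - 1 - (a j + Sg) = (P - 1 - Sg) + a j * (P - 1) := by ring
      rw [h]
      exact (F.I (n + 1)).add_mem ih1 (F.mul_mem_succ haj ih2)
    · have h : (1 + a j) * P - 1 = (P - 1) + a j + a j * (P - 1) := by ring
      rw [h]
      exact (F.I n).add_mem ((F.I n).add_mem ih2 haj) (F.mul_mem_left haj ih2)

/-! ### `H¹ = 0` -/

/-- One step of the successive approximation for `H¹`. -/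
theorem h1_step (c : (L ≃ₐ[K] L) → L) (hcoc : ∀ σ τ : L ≃ₐ[K] L, c (σ * τ) = σ (c τ) * c σ)
    (k : ℕ) (y : L) (hy : y - 1 ∈ F.I 0) (hyk : ∀ σ : L ≃ₐ[K] L, c σ * y - σ y ∈ F.I k) :
    ∃ y' : L, y' - 1 ∈ F.I 0 ∧ ∀ σ : L ≃ₐ[K] L, c σ * y' - σ y' ∈ F.I (k + 1) := by
  have hy0 : y ≠ 0 := F.one_add_ne_zero hy
  have hσy : ∀ σ : L ≃ₐ[K] L, σ y - 1 ∈ F.I 0 := fun σ => F.map_sub_one_mem hy σ
  have hσy0 : ∀ σ : L ≃ₐ[K] L, σ y ≠ 0 := fun σ => F.one_add_ne_zero (hσy σ)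
  set d : (L ≃ₐ[K] L) → L := fun σ => c σ * y / σ y with hd
  set a : (L ≃ₐ[K] L) → L := fun σ => d σ - 1 with ha
  have haI : ∀ σ, a σ ∈ F.I k := by
    intro σ
    have h : a σ = (σ y)⁻¹ * (c σ * y - σ y) := by
      simp only [ha, hd]
      field_simp [hσy0 σ]
    rw [h]
    exact F.one_add_mul_mem (F.inv_sub_one_mem (hσy σ)) (hyk σ)
  have hdcoc : ∀ σ τ : L ≃ₐ[K] L, d (σ * τ) = σ (d τ) * d σ := by
    intro σ τ
    simp only [hd, hcoc σ τ, AlgEquiv.mul_apply, map_div₀, map_mul]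
    have h1 := hσy0 σ
    have h2 : σ (τ y) ≠ 0 := by
      have := hσy0 (σ * τ)
      rwa [AlgEquiv.mul_apply] at this
    field_simp
  have hacoc : ∀ σ τ : L ≃ₐ[K] L, a (σ * τ) - σ (a τ) - a σ ∈ F.I (k + 1) := by
    intro σ τ
    have h : a (σ * τ) - σ (a τ) - a σ = σ (a τ) * a σ := by
      simp only [ha, hdcoc σ τ, map_sub, map_one]
      ring
    rw [h]
    exact F.mul_mem_succ (F.stable k σ _ (haI τ)) (haI σ)
  obtain ⟨b, hbI, hb⟩ := F.h1 k a haI hacoc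
  refine ⟨y * (1 + b), ?_, fun σ => ?_⟩
  · have h : y * (1 + b) - 1 = (y - 1) + y * b := by ring
    rw [h]
    exact (F.I 0).add_mem hy (F.mem_zero (F.one_add_mul_mem hy hbI))
  · have h : c σ * (y * (1 + b)) - σ (y * (1 + b)) =
        σ y * ((a σ - (σ b - b)) + a σ * b) := by
      simp only [ha, hd, map_mul, map_add, map_one]
      field_simp [hσy0 σ]
      ring
    rw [h]
    exact F.one_add_mul_mem (hσy σ)
      ((F.I (k + 1)).add_mem (hb σ) (F.mul_mem_succ (haI σ) hbI))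

omit [FiniteDimensional K L] in
theorem continuous_algEquiv (hiso : ∀ (σ : L ≃ₐ[K] L) (x : L), ‖σ x‖ = ‖x‖) (σ : L ≃ₐ[K] L) :
    Continuous (σ : L → L) :=
  (AddMonoidHomClass.isometry_of_norm σ (hiso σ)).continuous

theorem isClosed_one_add (n : ℕ) : IsClosed {y : L | y - 1 ∈ F.I n} :=
  (F.closed n).preimage (continuous_id.sub continuous_const)

theorem norm_le_two {y : L} (hy : y - 1 ∈ F.I 0) : ‖y‖ ≤ 2 := by
  have h1 := (F.lt_one _ hy).le
  have h2 : y = (y - 1) + 1 := by ring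
  calc ‖y‖ = ‖(y - 1) + 1‖ := by rw [← h2]
    _ ≤ ‖y - 1‖ + ‖(1 : L)‖ := norm_add_le _ _
    _ ≤ 1 + 1 := by rw [norm_one]; linarith
    _ = 2 := by norm_num

/-- **`H¹(G, 1 + I 0) = 0`.** -/
theorem h1_main [ProperSpace L] (hiso : ∀ (σ : L ≃ₐ[K] L) (x : L), ‖σ x‖ = ‖x‖)
    (c : (L ≃ₐ[K] L) → L) (hc : ∀ σ, c σ - 1 ∈ F.I 0)
    (hcoc : ∀ σ τ : L ≃ₐ[K] L, c (σ * τ) = σ (c τ) * c σ) :
    ∃ y : L, y - 1 ∈ F.I 0 ∧ ∀ σ : L ≃ₐ[K] L, c σ * y = σ y := by
  set S : ℕ → Set L := fun k => {y : L | y - 1 ∈ F.I 0 ∧ ∀ σ : L ≃ₐ[K] L, c σ * y - σ y ∈ F.I k}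
    with hS
  have hanti : ∀ k, S (k + 1) ⊆ S k := fun k y hy => ⟨hy.1, fun σ => F.anti k (hy.2 σ)⟩
  have hne : ∀ k, (S k).Nonempty := by
    intro k
    induction k with
    | zero =>
      refine ⟨1, by simp, fun σ => ?_⟩
      simpa using hc σ
    | succ k ih =>
      obtain ⟨y, hy1, hy2⟩ := ih
      obtain ⟨y', hy'1, hy'2⟩ := F.h1_step c hcoc k y hy1 hy2
      exact ⟨y', hy'1, hy'2⟩
  have hcl : ∀ k, IsClosed (S k) := by
    intro k
    have h1 : IsClosed {y : L | y - 1 ∈ F.I 0} := F.isClosed_one_add 0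
    have h2 : ∀ σ : L ≃ₐ[K] L, IsClosed {y : L | c σ * y - σ y ∈ F.I k} := fun σ =>
      (F.closed k).preimage ((continuous_const.mul continuous_id).sub
        (continuous_algEquiv hiso σ))
    have : S k = {y : L | y - 1 ∈ F.I 0} ∩ ⋂ σ : L ≃ₐ[K] L, {y : L | c σ * y - σ y ∈ F.I k} := by
      ext y
      simp [hS]
    rw [this]
    exact h1.inter (isClosed_iInter h2)
  have hcpt : IsCompact (S 0) := by
    refine (isCompact_closedBall (0 : L) 2).of_isClosed_subset (hcl 0) fun y hy => ?_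
    rw [mem_closedBall, dist_zero_right]
    exact F.norm_le_two hy.1
  obtain ⟨y, hy⟩ :=
    IsCompact.nonempty_iInter_of_sequence_nonempty_isCompact_isClosed S hanti hne hcpt hcl
  rw [Set.mem_iInter] at hy
  refine ⟨y, (hy 0).1, fun σ => ?_⟩
  have := F.inter (c σ * y - σ y) fun n => (hy n).2 σ
  exact sub_eq_zero.mp this

/-! ### `Ĥ⁰ = 0` -/

theorem prod_map_sub_one_mem {y : L} (hy : y - 1 ∈ F.I 0) :
    (∏ σ : L ≃ₐ[K] L, σ y) - 1 ∈ F.I 0 := by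
  have h := (F.prod_one_add (Finset.univ : Finset (L ≃ₐ[K] L)) (n := 0) (fun σ => σ y - 1)
    fun σ _ => F.map_sub_one_mem hy σ).2
  simpa using h

theorem map_prod_eq (y : L) (τ : L ≃ₐ[K] L) :
    τ (∏ σ : L ≃ₐ[K] L, σ y) = ∏ σ : L ≃ₐ[K] L, σ y := by
  rw [map_prod]
  exact Fintype.prod_equiv (Equiv.mulLeft τ) _ _ fun σ => rfl

/-- One step of the successive approximation for `Ĥ⁰`. -/
theorem h0_step (x : L) (hfix : ∀ σ : L ≃ₐ[K] L, σ x = x)
    (k : ℕ) (y : L) (hy : y - 1 ∈ F.I 0) (hyk : x - ∏ σ : L ≃ₐ[K] L, σ y ∈ F.I k) :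
    ∃ y' : L, y' - 1 ∈ F.I 0 ∧ x - ∏ σ : L ≃ₐ[K] L, σ y' ∈ F.I (k + 1) := by
  set N : L := ∏ σ : L ≃ₐ[K] L, σ y with hN
  have hN1 : N - 1 ∈ F.I 0 := F.prod_map_sub_one_mem hy
  have hN0 : N ≠ 0 := F.one_add_ne_zero hN1
  have hNfix : ∀ τ : L ≃ₐ[K] L, τ N = N := fun τ => map_prod_eq y τ
  set w : L := N⁻¹ * (x - N) with hw
  have hwI : w ∈ F.I k := F.one_add_mul_mem (F.inv_sub_one_mem hN1) hyk
  have hwfix : ∀ τ : L ≃ₐ[K] L, τ w = w := by
    intro τ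
    rw [hw, map_mul, map_inv₀, map_sub, hNfix τ, hfix τ]
  obtain ⟨z, hzI, hz⟩ := F.h0 k w hwI hwfix
  refine ⟨y * (1 + z), ?_, ?_⟩
  · have h : y * (1 + z) - 1 = (y - 1) + y * z := by ring
    rw [h]
    exact (F.I 0).add_mem hy (F.mem_zero (F.one_add_mul_mem hy hzI))
  · have hQ := (F.prod_one_add (Finset.univ : Finset (L ≃ₐ[K] L)) (n := k) (fun σ => σ z)
      fun σ _ => F.stable k σ z hzI).1
    set Q : L := ∏ σ : L ≃ₐ[K] L, (1 + σ z) with hQdef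
    have hprod : ∏ σ : L ≃ₐ[K] L, σ (y * (1 + z)) = N * Q := by
      simp only [map_mul, map_add, map_one, Finset.prod_mul_distrib, hN, hQdef]
    have h : x - N * Q =
        N * ((w - ∑ σ : L ≃ₐ[K] L, σ z) - (Q - 1 - ∑ σ : L ≃ₐ[K] L, σ z)) := by
      rw [hw]
      field_simp
      ring
    rw [hprod, h]
    exact F.one_add_mul_mem hN1 ((F.I (k + 1)).sub_mem hz hQ)

/-- **`Ĥ⁰(G, 1 + I 0) = 0`.** -/
theorem h0_main [ProperSpace L] (hiso : ∀ (σ : L ≃ₐ[K] L) (x : L), ‖σ x‖ = ‖x‖)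
    (x : L) (hx : x - 1 ∈ F.I 0) (hfix : ∀ σ : L ≃ₐ[K] L, σ x = x) :
    ∃ y : L, y - 1 ∈ F.I 0 ∧ x = ∏ σ : L ≃ₐ[K] L, σ y := by
  set S : ℕ → Set L := fun k => {y : L | y - 1 ∈ F.I 0 ∧ x - ∏ σ : L ≃ₐ[K] L, σ y ∈ F.I k}
    with hS
  have hanti : ∀ k, S (k + 1) ⊆ S k := fun k y hy => ⟨hy.1, F.anti k hy.2⟩
  have hne : ∀ k, (S k).Nonempty := by
    intro k
    induction k with
    | zero =>
      refine ⟨1, by simp, ?_⟩
      simpa using hx
    | succ k ih =>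
      obtain ⟨y, hy1, hy2⟩ := ih
      obtain ⟨y', hy'1, hy'2⟩ := F.h0_step x hfix k y hy1 hy2
      exact ⟨y', hy'1, hy'2⟩
  have hcl : ∀ k, IsClosed (S k) := by
    intro k
    have h1 : IsClosed {y : L | y - 1 ∈ F.I 0} := F.isClosed_one_add 0
    have h2 : IsClosed {y : L | x - ∏ σ : L ≃ₐ[K] L, σ y ∈ F.I k} :=
      (F.closed k).preimage (continuous_const.sub
        (continuous_finsetProd _ fun σ _ => continuous_algEquiv hiso σ))
    exact h1.inter h2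
  have hcpt : IsCompact (S 0) := by
    refine (isCompact_closedBall (0 : L) 2).of_isClosed_subset (hcl 0) fun y hy => ?_
    rw [mem_closedBall, dist_zero_right]
    exact F.norm_le_two hy.1
  obtain ⟨y, hy⟩ :=
    IsCompact.nonempty_iInter_of_sequence_nonempty_isCompact_isClosed S hanti hne hcpt hcl
  rw [Set.mem_iInter] at hy
  refine ⟨y, (hy 0).1, ?_⟩
  have := F.inter (x - ∏ σ : L ≃ₐ[K] L, σ y) fun n => (hy n).2
  exact sub_eq_zero.mp this

end lu_Filt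

end Fermat.Agent.S55
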