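/-
S55 (wave 5), LOCAL side, leaf [L2-V]: the normal-basis lattice.
Owner: helper25.  Prefix `lu_`.

For a Galois extension `L/K` of local fields, `b = IsGalois.normalBasis K L`, `r = ‖ϖ_K‖`:
the additive subgroups `I n = {x : all coordinates of x have norm ≤ r ^ (n + 1 + c)}` form a
multiplicative filtration with cohomologically trivial graded pieces (`lu_Filt`).
-/
import Fermat.Agent.S55.Local.LFDefs
import Fermat.Agent.S55.Local.LFExt
import Fermat.Agent.S55.Local.LFGal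
import Fermat.Agent.S55.Local.UnitsCore

set_option autoImplicit false
set_option linter.unusedSectionVars false

noncomputable section

namespace Fermat.Agent.S55

open scoped BigOperators
open Metric Filter Topology

universe u v

section Lattice

variable (K : Type u) (L : Type v) [NormedField K] [NormedField L] [Algebra K L]
  [lf_IsLocal K] [lf_IsLocal L] [lf_IsLocalExt K L] [IsGalois K L]

/-- The `σ`-coordinate of `x` in the normal basis. -/
def lu_co (x : L) (σ : L ≃ₐ[K] L) : K := (IsGalois.normalBasis K L).repr x σ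

variable {K L}

theorem lu_co_add (x y : L) (σ : L ≃ₐ[K] L) : lu_co K L (x + y) σ = lu_co K L x σ + lu_co K L y σ := by
  simp [lu_co]

theorem lu_co_neg (x : L) (σ : L ≃ₐ[K] L) : lu_co K L (-x) σ = -lu_co K L x σ := by
  simp [lu_co]

theorem lu_co_sub (x y : L) (σ : L ≃ₐ[K] L) : lu_co K L (x - y) σ = lu_co K L x σ - lu_co K L y σ := by
  simp [lu_co]

theorem lu_co_zero (σ : L ≃ₐ[K] L) : lu_co K L 0 σ = 0 := by
  simp [lu_co]

theorem lu_co_smul (a : K) (x : L) (σ : L ≃ₐ[K] L) : lu_co K L (a • x) σ = a * lu_co K L x σ := by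
  simp [lu_co]

theorem lu_co_sum {ι : Type*} (s : Finset ι) (f : ι → L) (σ : L ≃ₐ[K] L) :
    lu_co K L (∑ i ∈ s, f i) σ = ∑ i ∈ s, lu_co K L (f i) σ := by
  simp [lu_co]

theorem lu_co_basis [DecidableEq (L ≃ₐ[K] L)] (τ σ : L ≃ₐ[K] L) :
    lu_co K L (IsGalois.normalBasis K L τ) σ = if τ = σ then 1 else 0 := by
  rw [lu_co, Module.Basis.repr_self, Finsupp.single_apply]

theorem lu_sum_co (x : L) : ∑ σ : L ≃ₐ[K] L, lu_co K L x σ • IsGalois.normalBasis K L σ = x :=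
  (IsGalois.normalBasis K L).sum_repr x

theorem lu_eq_zero_of_co {x : L} (h : ∀ σ : L ≃ₐ[K] L, lu_co K L x σ = 0) : x = 0 := by
  rw [← lu_sum_co (K := K) x]
  exact Finset.sum_eq_zero fun σ _ => by rw [h σ, zero_smul]

theorem lu_map_basis (σ τ : L ≃ₐ[K] L) :
    σ (IsGalois.normalBasis K L τ) = IsGalois.normalBasis K L (σ * τ) := by
  rw [IsGalois.normalBasis_apply, IsGalois.normalBasis_apply (σ * τ), AlgEquiv.mul_apply]

/-- The Galois group permutes the coordinates. -/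
theorem lu_co_map (σ : L ≃ₐ[K] L) (x : L) (ρ : L ≃ₐ[K] L) :
    lu_co K L (σ x) ρ = lu_co K L x (σ⁻¹ * ρ) := by
  classical
  conv_lhs => rw [← lu_sum_co (K := K) x]
  rw [map_sum, lu_co_sum]
  have h : ∀ τ : L ≃ₐ[K] L, lu_co K L (σ (lu_co K L x τ • IsGalois.normalBasis K L τ)) ρ =
      if σ * τ = ρ then lu_co K L x τ else 0 := by
    intro τ
    rw [map_smul, lu_co_smul, lu_map_basis, lu_co_basis]
    split_ifs <;> simp
  simp only [h]
  rw [Finset.sum_eq_single (σ⁻¹ * ρ)]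
  · simp
  · intro τ _ hτ
    rw [if_neg]
    intro h'
    apply hτ
    rw [← h']
    group
  · intro h'
    exact absurd (Finset.mem_univ _) h'

theorem lu_norm_basis (σ : L ≃ₐ[K] L) :
    ‖IsGalois.normalBasis K L σ‖ = ‖IsGalois.normalBasis K L (1 : L ≃ₐ[K] L)‖ := by
  rw [IsGalois.normalBasis_apply]
  exact lf_norm_algEquiv σ _

/-- `‖x‖ ≤ A * C` if all coordinates of `x` have norm `≤ C`, where `A = ‖b 1‖`. -/
theorem lu_norm_le {x : L} {C : ℝ} (hC : 0 ≤ C) (h : ∀ σ : L ≃ₐ[K] L, ‖lu_co K L x σ‖ ≤ C) :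
    ‖x‖ ≤ C * ‖IsGalois.normalBasis K L (1 : L ≃ₐ[K] L)‖ := by
  conv_lhs => rw [← lu_sum_co (K := K) x]
  refine IsUltrametricDist.norm_sum_le_of_forall_le_of_nonneg
    (mul_nonneg hC (norm_nonneg _)) fun σ _ => ?_
  rw [Algebra.smul_def, norm_mul, lf_norm_algebraMap, lu_norm_basis]
  exact mul_le_mul_of_nonneg_right (h σ) (norm_nonneg _)

/-- The coordinates are continuous. -/
theorem lu_continuous_co (σ : L ≃ₐ[K] L) : Continuous fun x : L => lu_co K L x σ := by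
  let _ := lf_nontriviallyNormedField K
  let _ := lf_normedSpace K L
  exact LinearMap.continuous_of_finiteDimensional ((IsGalois.normalBasis K L).coord σ)

/-! ### the constant `c` and the filtration -/

variable (K L)

theorem lu_exists_c : ∃ c : ℕ,
    (∀ σ τ ρ : L ≃ₐ[K] L,
      ‖lu_co K L (IsGalois.normalBasis K L σ * IsGalois.normalBasis K L τ) ρ‖ *
        ‖lf_unif K‖ ^ c ≤ 1) ∧
    ‖IsGalois.normalBasis K L (1 : L ≃ₐ[K] L)‖ * ‖lf_unif K‖ ^ (c + 1) < 1 := by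
  classical
  set B0 : ℝ := 1 + ‖IsGalois.normalBasis K L (1 : L ≃ₐ[K] L)‖ +
    ∑ σ : L ≃ₐ[K] L, ∑ τ : L ≃ₐ[K] L, ∑ ρ : L ≃ₐ[K] L,
      ‖lu_co K L (IsGalois.normalBasis K L σ * IsGalois.normalBasis K L τ) ρ‖ with hB0
  have hsum_nonneg : 0 ≤ ∑ σ : L ≃ₐ[K] L, ∑ τ : L ≃ₐ[K] L, ∑ ρ : L ≃ₐ[K] L,
      ‖lu_co K L (IsGalois.normalBasis K L σ * IsGalois.normalBasis K L τ) ρ‖ :=
    Finset.sum_nonneg fun σ _ => Finset.sum_nonneg fun τ _ => Finset.sum_nonneg fun ρ _ =>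
      norm_nonneg _
  have hB1 : 1 ≤ B0 := by
    have := norm_nonneg (IsGalois.normalBasis K L (1 : L ≃ₐ[K] L))
    linarith
  have hBA : ‖IsGalois.normalBasis K L (1 : L ≃ₐ[K] L)‖ ≤ B0 := by linarith
  have hBs : ∀ σ τ ρ : L ≃ₐ[K] L,
      ‖lu_co K L (IsGalois.normalBasis K L σ * IsGalois.normalBasis K L τ) ρ‖ ≤ B0 := by
    intro σ τ ρ
    have h1 : ‖lu_co K L (IsGalois.normalBasis K L σ * IsGalois.normalBasis K L τ) ρ‖ ≤
        ∑ ρ' : L ≃ₐ[K] L,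
          ‖lu_co K L (IsGalois.normalBasis K L σ * IsGalois.normalBasis K L τ) ρ'‖ :=
      Finset.single_le_sum (f := fun ρ' : L ≃ₐ[K] L =>
        ‖lu_co K L (IsGalois.normalBasis K L σ * IsGalois.normalBasis K L τ) ρ'‖)
        (fun _ _ => norm_nonneg _) (Finset.mem_univ ρ)
    have h2 : (∑ ρ' : L ≃ₐ[K] L,
          ‖lu_co K L (IsGalois.normalBasis K L σ * IsGalois.normalBasis K L τ) ρ'‖) ≤
        ∑ τ' : L ≃ₐ[K] L, ∑ ρ' : L ≃ₐ[K] L,
          ‖lu_co K L (IsGalois.normalBasis K L σ * IsGalois.normalBasis K L τ') ρ'‖ :=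
      Finset.single_le_sum (f := fun τ' : L ≃ₐ[K] L => ∑ ρ' : L ≃ₐ[K] L,
          ‖lu_co K L (IsGalois.normalBasis K L σ * IsGalois.normalBasis K L τ') ρ'‖)
        (fun _ _ => Finset.sum_nonneg fun _ _ => norm_nonneg _) (Finset.mem_univ τ)
    have h3 : (∑ τ' : L ≃ₐ[K] L, ∑ ρ' : L ≃ₐ[K] L,
          ‖lu_co K L (IsGalois.normalBasis K L σ * IsGalois.normalBasis K L τ') ρ'‖) ≤
        ∑ σ' : L ≃ₐ[K] L, ∑ τ' : L ≃ₐ[K] L, ∑ ρ' : L ≃ₐ[K] L,
          ‖lu_co K L (IsGalois.normalBasis K L σ' * IsGalois.normalBasis K L τ') ρ'‖ :=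
      Finset.single_le_sum (f := fun σ' : L ≃ₐ[K] L => ∑ τ' : L ≃ₐ[K] L, ∑ ρ' : L ≃ₐ[K] L,
          ‖lu_co K L (IsGalois.normalBasis K L σ' * IsGalois.normalBasis K L τ') ρ'‖)
        (fun _ _ => Finset.sum_nonneg fun _ _ => Finset.sum_nonneg fun _ _ => norm_nonneg _)
        (Finset.mem_univ σ)
    have := norm_nonneg (IsGalois.normalBasis K L (1 : L ≃ₐ[K] L))
    linarith
  have hB0pos : 0 < B0 := lt_of_lt_of_le one_pos hB1
  obtain ⟨c, hc⟩ := exists_pow_lt_of_lt_one (inv_pos.mpr hB0pos) (lf_norm_unif_lt_one K)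
  have hrc : 0 ≤ ‖lf_unif K‖ ^ c := pow_nonneg (norm_nonneg _) c
  have hkey : B0 * ‖lf_unif K‖ ^ c < 1 := by
    have := mul_lt_mul_of_pos_left hc hB0pos
    rwa [mul_inv_cancel₀ hB0pos.ne'] at this
  refine ⟨c, fun σ τ ρ => ?_, ?_⟩
  · exact (mul_le_mul_of_nonneg_right (hBs σ τ ρ) hrc).trans hkey.le
  · rw [pow_succ, ← mul_assoc]
    have h1 : ‖IsGalois.normalBasis K L (1 : L ≃ₐ[K] L)‖ * ‖lf_unif K‖ ^ c < 1 :=
      lt_of_le_of_lt (mul_le_mul_of_nonneg_right hBA hrc) hkey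
    have h2 : 0 ≤ ‖IsGalois.normalBasis K L (1 : L ≃ₐ[K] L)‖ * ‖lf_unif K‖ ^ c :=
      mul_nonneg (norm_nonneg _) hrc
    calc ‖IsGalois.normalBasis K L (1 : L ≃ₐ[K] L)‖ * ‖lf_unif K‖ ^ c * ‖lf_unif K‖
        ≤ ‖IsGalois.normalBasis K L (1 : L ≃ₐ[K] L)‖ * ‖lf_unif K‖ ^ c * 1 :=
          mul_le_mul_of_nonneg_left (lf_norm_unif_lt_one K).le h2
      _ < 1 := by rwa [mul_one]

/-- The constant `c`. -/
def lu_c : ℕ := (lu_exists_c K L).choose

theorem lu_c_str (σ τ ρ : L ≃ₐ[K] L) :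
    ‖lu_co K L (IsGalois.normalBasis K L σ * IsGalois.normalBasis K L τ) ρ‖ *
      ‖lf_unif K‖ ^ lu_c K L ≤ 1 :=
  (lu_exists_c K L).choose_spec.1 σ τ ρ

theorem lu_c_norm :
    ‖IsGalois.normalBasis K L (1 : L ≃ₐ[K] L)‖ * ‖lf_unif K‖ ^ (lu_c K L + 1) < 1 :=
  (lu_exists_c K L).choose_spec.2

/-- The radius of the `n`-th step of the filtration. -/
def lu_rad (n : ℕ) : ℝ := ‖lf_unif K‖ ^ (n + 1 + lu_c K L)

theorem lu_rad_pos (n : ℕ) : 0 < lu_rad K L n := pow_pos (lf_norm_unif_pos K) _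

theorem lu_rad_succ_le (n : ℕ) : lu_rad K L (n + 1) ≤ lu_rad K L n := by
  unfold lu_rad
  exact pow_le_pow_of_le_one (norm_nonneg _) (lf_norm_unif_lt_one K).le (by omega)

/-- The filtration `I n = ϖ ^ (n + 1 + c) • (𝒪_K-span of the normal basis)`. -/
def lu_I (n : ℕ) : AddSubgroup L where
  carrier := {x | ∀ σ : L ≃ₐ[K] L, ‖lu_co K L x σ‖ ≤ lu_rad K L n}
  zero_mem' := fun σ => by
    rw [lu_co_zero, norm_zero]
    exact (lu_rad_pos K L n).le
  add_mem' := by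
    intro x y hx hy σ
    rw [lu_co_add]
    exact (lf_norm_add_le_max _ _).trans (max_le (hx σ) (hy σ))
  neg_mem' := by
    intro x hx σ
    rw [lu_co_neg, norm_neg]
    exact hx σ

variable {K L}

theorem lu_mem_I {n : ℕ} {x : L} :
    x ∈ lu_I K L n ↔ ∀ σ : L ≃ₐ[K] L, ‖lu_co K L x σ‖ ≤ lu_rad K L n := Iff.rfl

theorem lu_I_mul {n k : ℕ} {x y : L} (hx : x ∈ lu_I K L n) (hy : y ∈ lu_I K L k) :
    x * y ∈ lu_I K L (n + k + 1) := by
  intro ρ
  have hxy : x * y = ∑ σ : L ≃ₐ[K] L, ∑ τ : L ≃ₐ[K] L,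
      (lu_co K L x σ * lu_co K L y τ) •
        (IsGalois.normalBasis K L σ * IsGalois.normalBasis K L τ) := by
    conv_lhs => rw [← lu_sum_co (K := K) x, ← lu_sum_co (K := K) y]
    rw [Finset.sum_mul_sum]
    refine Finset.sum_congr rfl fun σ _ => Finset.sum_congr rfl fun τ _ => ?_
    rw [smul_mul_smul_comm]
  rw [hxy, lu_co_sum]
  refine IsUltrametricDist.norm_sum_le_of_forall_le_of_nonneg (lu_rad_pos K L _).le fun σ _ => ?_
  rw [lu_co_sum]
  refine IsUltrametricDist.norm_sum_le_of_forall_le_of_nonneg (lu_rad_pos K L _).le fun τ _ => ?_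
  rw [lu_co_smul, norm_mul, norm_mul]
  have h1 := hx σ
  have h2 := hy τ
  have h3 := lu_c_str K L σ τ ρ
  set s := ‖lu_co K L (IsGalois.normalBasis K L σ * IsGalois.normalBasis K L τ) ρ‖ with hs
  set r := ‖lf_unif K‖ with hr
  have hr0 : 0 ≤ r := norm_nonneg _
  unfold lu_rad at h1 h2 ⊢
  have e1 : r ^ (k + 1 + lu_c K L) = r ^ (k + 1) * r ^ lu_c K L := pow_add _ _ _
  have e2 : r ^ (n + k + 1 + 1 + lu_c K L) = r ^ (n + 1 + lu_c K L) * r ^ (k + 1) := by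
    rw [← pow_add]
    congr 1
    omega
  rw [e2]
  rw [e1] at h2
  calc ‖lu_co K L x σ‖ * ‖lu_co K L y τ‖ * s
      ≤ r ^ (n + 1 + lu_c K L) * (r ^ (k + 1) * r ^ lu_c K L) * s := by
        refine mul_le_mul_of_nonneg_right ?_ (norm_nonneg _)
        exact mul_le_mul h1 h2 (norm_nonneg _) (pow_nonneg hr0 _)
    _ = r ^ (n + 1 + lu_c K L) * r ^ (k + 1) * (s * r ^ lu_c K L) := by ring
    _ ≤ r ^ (n + 1 + lu_c K L) * r ^ (k + 1) * 1 :=
        mul_le_mul_of_nonneg_left h3 (mul_nonneg (pow_nonneg hr0 _) (pow_nonneg hr0 _))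
    _ = r ^ (n + 1 + lu_c K L) * r ^ (k + 1) := mul_one _

theorem lu_I_stable {n : ℕ} (σ : L ≃ₐ[K] L) {x : L} (hx : x ∈ lu_I K L n) :
    σ x ∈ lu_I K L n := by
  intro ρ
  rw [lu_co_map]
  exact hx _

theorem lu_I_closed (n : ℕ) : IsClosed (lu_I K L n : Set L) := by
  have : (lu_I K L n : Set L) =
      ⋂ σ : L ≃ₐ[K] L, (fun x : L => lu_co K L x σ) ⁻¹' closedBall (0 : K) (lu_rad K L n) := by
    ext x
    simp [lu_I, mem_closedBall, dist_zero_right]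
  rw [this]
  exact isClosed_iInter fun σ => isClosed_closedBall.preimage (lu_continuous_co σ)

theorem lu_I_lt_one {x : L} (hx : x ∈ lu_I K L 0) : ‖x‖ < 1 := by
  have h := lu_norm_le (lu_rad_pos K L 0).le hx
  have h2 := lu_c_norm K L
  unfold lu_rad at h
  have e : 0 + 1 + lu_c K L = lu_c K L + 1 := by omega
  rw [e, mul_comm] at h
  exact lt_of_le_of_lt h h2

theorem lu_I_inter {x : L} (hx : ∀ n, x ∈ lu_I K L n) : x = 0 := by
  apply lu_eq_zero_of_co (K := K)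
  intro σ
  rw [← norm_le_zero_iff]
  have hlim : Tendsto (fun n : ℕ => lu_rad K L n) atTop (𝓝 0) := by
    have h1 : Tendsto (fun n : ℕ => ‖lf_unif K‖ ^ n) atTop (𝓝 0) :=
      tendsto_pow_atTop_nhds_zero_of_lt_one (norm_nonneg _) (lf_norm_unif_lt_one K)
    have h2 : Tendsto (fun n : ℕ => n + 1 + lu_c K L) atTop atTop :=
      tendsto_atTop_mono (fun n => by show n ≤ n + 1 + lu_c K L; omega) tendsto_id
    exact h1.comp h2
  exact ge_of_tendsto' hlim fun n => hx n σ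

/-! ### the graded pieces are induced modules -/

theorem lu_co_smul_basis [DecidableEq (L ≃ₐ[K] L)] (α : K) (τ σ : L ≃ₐ[K] L) :
    lu_co K L (α • IsGalois.normalBasis K L τ) σ = if τ = σ then α else 0 := by
  rw [lu_co_smul, lu_co_basis]
  split_ifs <;> simp

theorem lu_I_h0 (n : ℕ) (x : L) (hx : x ∈ lu_I K L n) (hfix : ∀ σ : L ≃ₐ[K] L, σ x = x) :
    ∃ y : L, y ∈ lu_I K L n ∧ x - ∑ σ : L ≃ₐ[K] L, σ y ∈ lu_I K L (n + 1) := by
  classical
  have hconst : ∀ ρ : L ≃ₐ[K] L, lu_co K L x ρ = lu_co K L x 1 := by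
    intro ρ
    have h := lu_co_map (K := K) ρ x ρ
    rw [hfix ρ, inv_mul_cancel] at h
    exact h
  refine ⟨lu_co K L x 1 • IsGalois.normalBasis K L (1 : L ≃ₐ[K] L), ?_, ?_⟩
  · intro σ
    rw [lu_co_smul_basis]
    split_ifs
    · exact hx 1
    · rw [norm_zero]; exact (lu_rad_pos K L n).le
  · have h : ∑ σ : L ≃ₐ[K] L, σ (lu_co K L x 1 • IsGalois.normalBasis K L (1 : L ≃ₐ[K] L)) = x := by
      conv_rhs => rw [← lu_sum_co (K := K) x]
      refine Finset.sum_congr rfl fun σ _ => ?_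
      rw [map_smul, lu_map_basis, mul_one, hconst σ]
    rw [h, sub_self]
    exact (lu_I K L (n + 1)).zero_mem

theorem lu_I_h1 (n : ℕ) (a : (L ≃ₐ[K] L) → L) (ha : ∀ σ, a σ ∈ lu_I K L n)
    (hcoc : ∀ σ τ : L ≃ₐ[K] L, a (σ * τ) - σ (a τ) - a σ ∈ lu_I K L (n + 1)) :
    ∃ b : L, b ∈ lu_I K L n ∧ ∀ σ : L ≃ₐ[K] L, a σ - (σ b - b) ∈ lu_I K L (n + 1) := by
  classical
  set b : L := -∑ τ : L ≃ₐ[K] L, lu_co K L (a τ) τ • IsGalois.normalBasis K L τ with hb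
  have hbco : ∀ ρ : L ≃ₐ[K] L, lu_co K L b ρ = -lu_co K L (a ρ) ρ := by
    intro ρ
    rw [hb, lu_co_neg, lu_co_sum]
    simp only [lu_co_smul_basis]
    rw [Finset.sum_ite_eq' Finset.univ ρ fun τ => lu_co K L (a τ) τ]
    simp
  refine ⟨b, ?_, ?_⟩
  · intro ρ
    rw [hbco, norm_neg]
    exact ha ρ ρ
  · intro σ ρ
    have hD := hcoc σ (σ⁻¹ * ρ) ρ
    rw [mul_inv_cancel_left] at hD
    have e : lu_co K L (a σ - (σ b - b)) ρ =
        -lu_co K L (a ρ - σ (a (σ⁻¹ * ρ)) - a σ) ρ := by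
      simp only [lu_co_sub, lu_co_map, hbco]
      ring
    rw [e, norm_neg]
    exact hD

/-- **The normal-basis filtration** of a Galois extension of local fields. -/
def lu_filt (K : Type u) (L : Type v) [NormedField K] [NormedField L] [Algebra K L]
    [lf_IsLocal K] [lf_IsLocal L] [lf_IsLocalExt K L] [IsGalois K L] : lu_Filt K L where
  I := lu_I K L
  anti := fun n _ hx σ => (hx σ).trans (lu_rad_succ_le K L n)
  stable := fun _ σ _ hx => lu_I_stable σ hx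
  mul := fun _ _ _ _ hx hy => lu_I_mul hx hy
  closed := lu_I_closed
  lt_one := fun _ hx => lu_I_lt_one hx
  inter := fun _ hx => lu_I_inter hx
  h0 := lu_I_h0
  h1 := lu_I_h1

end Lattice

end Fermat.Agent.S55
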