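/-
S55 (wave 5), LOCAL side, leaf [L2-V] = `lcf_UnitsStatement`: final assembly.
Owner: helper25.  Prefix `lu_`.

`V = 1 + I 0` (normal-basis filtration) is a Galois-stable subgroup of finite index of the unit
group `U_L` with `Ĥ⁰(G, V) = 0` and `H¹(G, V) = 0`.
-/
import Fermat.Agent.S55.Local.UnitsLattice
import Fermat.Agent.S55.Local.LCFLeaves

set_option autoImplicit false
set_option linter.unusedSectionVars false

noncomputable section

namespace Fermat.Agent.S55

open scoped BigOperators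
open Metric Filter Topology

universe u v

section Main

variable (K : Type u) (L : Type v) [NormedField K] [NormedField L] [Algebra K L]
  [lf_IsLocal K] [lf_IsLocal L] [lf_IsLocalExt K L] [IsGalois K L]

/-- The subgroup `V = 1 + I 0` of `Lˣ`. -/
def lu_V : Subgroup Lˣ where
  carrier := {w | (w : L) - 1 ∈ lu_I K L 0}
  one_mem' := by
    change ((1 : Lˣ) : L) - 1 ∈ lu_I K L 0
    rw [Units.val_one, sub_self]
    exact (lu_I K L 0).zero_mem
  mul_mem' := by
    intro a b ha hb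
    change ((a * b : Lˣ) : L) - 1 ∈ lu_I K L 0
    rw [Units.val_mul]
    exact (lu_filt K L).mul_sub_one_mem ha hb
  inv_mem' := by
    intro a ha
    change ((a⁻¹ : Lˣ) : L) - 1 ∈ lu_I K L 0
    rw [Units.val_inv_eq_inv_val]
    exact (lu_filt K L).inv_sub_one_mem ha

variable {K L}

theorem lu_mem_V {w : Lˣ} : w ∈ lu_V K L ↔ (w : L) - 1 ∈ lu_I K L 0 := Iff.rfl

theorem lu_norm_eq_one {x : L} (hx : ‖x - 1‖ < 1) : ‖x‖ = 1 := by
  have h1 : ‖x‖ ≤ 1 := by
    have h : x = (x - 1) + 1 := by ring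
    rw [h]
    refine (lf_norm_add_le_max _ _).trans (max_le hx.le ?_)
    rw [norm_one]
  have h2 : (1 : ℝ) ≤ ‖x‖ := by
    by_contra hlt
    rw [not_le] at hlt
    have h : (1 : L) = x - (x - 1) := by ring
    have h3 : ‖(1 : L)‖ ≤ max ‖x‖ ‖x - 1‖ := by
      conv_lhs => rw [h]
      exact lf_norm_sub_le_max _ _
    rw [norm_one] at h3
    have := max_lt hlt hx
    linarith
  exact le_antisymm h1 h2

theorem lu_V_le_units : lu_V K L ≤ lf_units L := by
  intro w hw
  rw [lf_mem_units_iff]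
  exact lu_norm_eq_one (lu_I_lt_one (K := K) hw)

/-- `I 0` contains a ball around `0`. -/
theorem lu_exists_ball : ∃ ε : ℝ, 0 < ε ∧ ∀ x : L, ‖x‖ ≤ ε → x ∈ lu_I K L 0 := by
  have hnhds : (lu_I K L 0 : Set L) ∈ 𝓝 (0 : L) := by
    have : (lu_I K L 0 : Set L) =
        ⋂ σ : L ≃ₐ[K] L, (fun x : L => lu_co K L x σ) ⁻¹' closedBall (0 : K) (lu_rad K L 0) := by
      ext x
      simp [lu_I, mem_closedBall, dist_zero_right]
    rw [this]
    refine (Filter.iInter_mem).mpr fun σ => ?_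
    refine (lu_continuous_co σ).continuousAt.preimage_mem_nhds ?_
    rw [lu_co_zero]
    exact closedBall_mem_nhds _ (lu_rad_pos K L 0)
  obtain ⟨ε, hε, hball⟩ := Metric.mem_nhds_iff.mp hnhds
  refine ⟨ε / 2, half_pos hε, fun x hx => hball ?_⟩
  rw [mem_ball, dist_zero_right]
  linarith

/-- The higher unit groups have finite index in the unit group. -/
theorem lu_unitsLe_index (ε : ℝ) (hε : 0 < ε) :
    ((lf_unitsLe L ε hε.le).subgroupOf (lf_units L)).index ≠ 0 := by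
  classical
  have := lf_properSpace L
  have hc : IsCompact (closedBall (0 : L) 1) := isCompact_closedBall 0 1
  obtain ⟨t, -, ht⟩ := hc.elim_nhds_subcover (fun x => ball x ε)
    (fun x _ => ball_mem_nhds x hε)
  have hex : ∀ w : ↥(lf_units L), ∃ a : ↥t, ‖((w : Lˣ) : L) - (a : L)‖ < ε := by
    intro w
    have hw : ((w : Lˣ) : L) ∈ closedBall (0 : L) 1 := by
      rw [mem_closedBall, dist_zero_right]
      exact ((lf_mem_units_iff _).mp w.2).le
    obtain ⟨a, ha, hwa⟩ := Set.mem_iUnion₂.mp (ht hw)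
    refine ⟨⟨a, ha⟩, ?_⟩
    rw [mem_ball, dist_eq_norm] at hwa
    exact hwa
  choose f hf using hex
  have hfin : Finite (↥(lf_units L) ⧸ (lf_unitsLe L ε hε.le).subgroupOf (lf_units L)) := by
    refine Finite.of_injective
      (fun q : ↥(lf_units L) ⧸ (lf_unitsLe L ε hε.le).subgroupOf (lf_units L) =>
        f (Quotient.out q)) ?_
    intro q q' hqq
    simp only at hqq
    rw [← Quotient.out_eq q, ← Quotient.out_eq q']
    refine QuotientGroup.eq.mpr ?_
    set w := Quotient.out q with hw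
    set w' := Quotient.out q' with hw'
    rw [Subgroup.mem_subgroupOf, lf_mem_unitsLe_iff]
    have hw1 : ‖((w : Lˣ) : L)‖ = 1 := (lf_mem_units_iff _).mp w.2
    have hw'1 : ‖((w' : Lˣ) : L)‖ = 1 := (lf_mem_units_iff _).mp w'.2
    have hwne : ((w : Lˣ) : L) ≠ 0 := Units.ne_zero _
    have hdist : ‖((w' : Lˣ) : L) - ((w : Lˣ) : L)‖ ≤ ε := by
      have h1 := hf w
      have h2 := hf w'
      rw [← hqq] at h2
      have e : ((w' : Lˣ) : L) - ((w : Lˣ) : L) =
          (((w' : Lˣ) : L) - (f w : L)) - (((w : Lˣ) : L) - (f w : L)) := by ring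
      rw [e]
      exact (lf_norm_sub_le_max _ _).trans (max_le h2.le h1.le)
    have hval : (((w⁻¹ * w' : ↥(lf_units L)) : Lˣ) : L) = ((w : Lˣ) : L)⁻¹ * ((w' : Lˣ) : L) := by
      simp
    constructor
    · rw [hval, norm_mul, norm_inv, hw1, hw'1, inv_one, one_mul]
    · rw [hval]
      have e : ((w : Lˣ) : L)⁻¹ * ((w' : Lˣ) : L) - 1 =
          ((w : Lˣ) : L)⁻¹ * (((w' : Lˣ) : L) - ((w : Lˣ) : L)) := by
        field_simp
      rw [e, norm_mul, norm_inv, hw1, inv_one, one_mul]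
      exact hdist
  exact Subgroup.index_ne_zero_of_finite

theorem lu_V_index : ((lu_V K L).subgroupOf (lf_units L)).index ≠ 0 := by
  obtain ⟨ε, hε, hball⟩ := lu_exists_ball (K := K) (L := L)
  have hle : lf_unitsLe L ε hε.le ≤ lu_V K L := by
    intro w hw
    rw [lf_mem_unitsLe_iff] at hw
    exact hball _ hw.2
  have hle' : (lf_unitsLe L ε hε.le).subgroupOf (lf_units L) ≤
      (lu_V K L).subgroupOf (lf_units L) := fun w hw => hle hw
  have h0 := lu_unitsLe_index (L := L) ε hε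
  intro h
  have hdvd := Subgroup.index_dvd_of_le hle'
  rw [h, zero_dvd_iff] at hdvd
  exact h0 hdvd

theorem lu_V_stable (σ : L ≃ₐ[K] L) {x : Lˣ} (hx : x ∈ lu_V K L) :
    Units.map (σ : L →* L) x ∈ lu_V K L := by
  rw [lu_mem_V] at hx ⊢
  exact (lu_filt K L).map_sub_one_mem hx σ

theorem lu_V_h0 (x : Lˣ) (hx : x ∈ lu_V K L)
    (hfix : ∀ σ : L ≃ₐ[K] L, Units.map (σ : L →* L) x = x) :
    ∃ y : Lˣ, y ∈ lu_V K L ∧ x = ∏ᶠ σ : L ≃ₐ[K] L, Units.map (σ : L →* L) y := by
  have := lf_ext_properSpace K L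
  have hfix' : ∀ σ : L ≃ₐ[K] L, σ (x : L) = x := fun σ => congrArg Units.val (hfix σ)
  obtain ⟨Y, hY, hxY⟩ := (lu_filt K L).h0_main (fun σ z => lf_norm_algEquiv σ z) (x : L) hx hfix'
  refine ⟨Units.mk0 Y ((lu_filt K L).one_add_ne_zero hY), hY, ?_⟩
  rw [finprod_eq_prod_of_fintype]
  apply Units.ext
  rw [Units.coe_prod, hxY]
  rfl

theorem lu_V_h1 (c : (L ≃ₐ[K] L) → Lˣ) (hc : ∀ σ, c σ ∈ lu_V K L)
    (hcoc : ∀ σ τ : L ≃ₐ[K] L, c (σ * τ) = Units.map (σ : L →* L) (c τ) * c σ) :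
    ∃ y : Lˣ, y ∈ lu_V K L ∧ ∀ σ : L ≃ₐ[K] L, c σ = Units.map (σ : L →* L) y / y := by
  have := lf_ext_properSpace K L
  have hcoc' : ∀ σ τ : L ≃ₐ[K] L, ((c (σ * τ) : Lˣ) : L) = σ (c τ : L) * (c σ : L) := by
    intro σ τ
    rw [hcoc σ τ]
    rfl
  obtain ⟨Y, hY, hcY⟩ := (lu_filt K L).h1_main (fun σ z => lf_norm_algEquiv σ z)
    (fun σ => ((c σ : Lˣ) : L)) hc hcoc'
  have hY0 : Y ≠ 0 := (lu_filt K L).one_add_ne_zero hY
  refine ⟨Units.mk0 Y hY0, hY, fun σ => ?_⟩
  apply Units.ext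
  rw [Units.val_div_eq_div_val]
  change ((c σ : Lˣ) : L) = σ Y / Y
  rw [eq_div_iff hY0]
  exact hcY σ

end Main

/-- **[L2-V]** the units of a Galois extension of local fields contain a Galois-stable,
cohomologically trivial subgroup of finite index. -/
theorem lu_main : lcf_UnitsStatement.{u, v} := by
  intro K L _ _ _ _ _ _ _
  exact ⟨lu_V K L, lu_V_le_units, lu_V_index, fun σ x hx => lu_V_stable σ hx,
    lu_V_h0, lu_V_h1⟩

end Fermat.Agent.S55
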