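import Fermat.Agent.S55.Local.NormIndex
import Fermat.Agent.S55.Local.UnitsMain

/-!
# S55, LOCAL side, package [L2]: the norm index of a cyclic extension of local fields,
hypothesis-free (`lni_main` fed with `lu_main`, the package [L2-V]).
-/

set_option autoImplicit false

namespace Fermat.Agent.S55

universe u v

/-- **[L2]**: for a cyclic extension `L/K` of local fields, `[Kˣ : N Lˣ] = [L : K]`. -/
theorem lni_fin : lcf_NormIndexStatement.{u, v} := lni_main lu_main

/-- **[L2]**, unfolded. -/
theorem lni_index_eq (K : Type u) (L : Type v) [NormedField K] [NormedField L] [Algebra K L]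
    [lf_IsLocal K] [lf_IsLocal L] [lf_IsLocalExt K L] [IsGalois K L]
    (h : IsCyclic (L ≃ₐ[K] L)) :
    (Units.map (Algebra.norm K : L →* K)).range.index = Module.finrank K L :=
  lni_fin K L h

end Fermat.Agent.S55
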