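/-
S55 (wave 5), LOCAL side, package [L3] = [A3]: the second inequality, HYPOTHESIS-FREE
(`l3d_main` of `H2Dvd.lean` applied to helper14's `lni_fin` = [L2]).
Owner: helper2.  Prefix `l3d_`.
-/
import Fermat.Agent.S55.Local.H2Dvd
import Fermat.Agent.S55.Local.NormIndexFin

set_option autoImplicit false

namespace Fermat.Agent.S55

/-- **[L3]**: `#H²(Gal(L/K), Lˣ) ∣ [L : K]` for Galois extensions of local fields. -/
theorem l3d_fin : lcf_H2DvdStatement := l3d_main lni_fin

end Fermat.Agent.S55
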