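/-
S55 (wave 5), LOCAL side, leaf [UNIF]: the fixed field of an open subgroup of the local Galois
group has a uniformizer.  Prefix `lunif_`.
-/
import Fermat.Agent.S55.Local.LCFLeaves

set_option autoImplicit false

noncomputable section

namespace Fermat.Agent.S55

variable {q : ℕ} [Fact q.Prime]

/-- An intermediate field below a finite one is finite. -/
theorem lunif_finite_of_le {K E : IntermediateField ℚ_[q] (PadicAlgCl q)} (h : K ≤ E)
    (hE : FiniteDimensional ℚ_[q] E) : FiniteDimensional ℚ_[q] K :=
  FiniteDimensional.of_injective (IntermediateField.inclusion h).toLinearMap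
    (IntermediateField.inclusion h).injective

/-- The fixed field of a subgroup containing `Gal(Ω/E)` is contained in `E`. -/
theorem lunif_fixedField_le {U : Subgroup (lcf_Gal q)}
    {E : IntermediateField ℚ_[q] (PadicAlgCl q)} (h : E.fixingSubgroup ≤ U) :
    IntermediateField.fixedField U ≤ E := by
  have h1 := IntermediateField.fixedField_antitone h
  rwa [InfiniteGalois.fixedField_fixingSubgroup] at h1

/-- The fixed field of an open subgroup is finite over `ℚ_q`. -/
theorem lunif_finiteDimensional {U : Subgroup (lcf_Gal q)} (hU : lcf_IsOpen U) :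
    FiniteDimensional ℚ_[q] (IntermediateField.fixedField U) := by
  obtain ⟨E, hE, hEU⟩ := hU
  exact lunif_finite_of_le (lunif_fixedField_le hEU) hE

/-- A unit fixed by `U` lies in the fixed field of `U`. -/
theorem lunif_mem_fixedField {U : Subgroup (lcf_Gal q)} {x : (PadicAlgCl q)ˣ}
    (hx : ∀ g : ↥U, g • x = x) : (x : PadicAlgCl q) ∈ IntermediateField.fixedField U := by
  rw [IntermediateField.mem_fixedField_iff]
  intro f hf
  exact congrArg Units.val (hx ⟨f, hf⟩)

/-- An element of the fixed field of `U` is fixed by `U`. -/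
theorem lunif_smul_eq {U : Subgroup (lcf_Gal q)} {x : (PadicAlgCl q)ˣ}
    (hx : (x : PadicAlgCl q) ∈ IntermediateField.fixedField U) (g : ↥U) : g • x = x := by
  apply Units.ext
  exact (IntermediateField.mem_fixedField_iff U _).1 hx g g.2

/-- **[UNIF]** the fixed field of an open subgroup has a uniformizer. -/
theorem lunif_main : lcf_UnifStatement := by
  intro q _ U hU
  have : FiniteDimensional ℚ_[q] (IntermediateField.fixedField U) := lunif_finiteDimensional hU
  obtain ⟨ϖ, hϖ0, hϖ1, hϖ⟩ :=
    lf_IsLocal.exists_uniformizer (K := ↥(IntermediateField.fixedField U))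
  have hϖ0' : ((ϖ : ↥(IntermediateField.fixedField U)) : PadicAlgCl q) ≠ 0 := fun h =>
    hϖ0 (Subtype.ext h)
  refine ⟨Units.mk0 (ϖ : PadicAlgCl q) hϖ0', fun g => ?_, hϖ1, fun x hx => ?_⟩
  · exact lunif_smul_eq (x := Units.mk0 (ϖ : PadicAlgCl q) hϖ0') ϖ.2 g
  · have hxK := lunif_mem_fixedField hx
    have hx0 : (⟨(x : PadicAlgCl q), hxK⟩ : ↥(IntermediateField.fixedField U)) ≠ 0 := fun h =>
      x.ne_zero (congrArg Subtype.val h)
    obtain ⟨n, hn⟩ := hϖ ⟨(x : PadicAlgCl q), hxK⟩ hx0
    exact ⟨n, hn⟩

end Fermat.Agent.S55
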