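/-
S55 (wave 5), LOCAL side, package (SP5) [COUNT] of [SPLIT], part 1: the bridge from the
ABSOLUTE setting (open subgroups `U' ⊴ U` of `Gal(Ω/ℚ_q)`, smooth cochains with values in `Ωˣ`)
to the RELATIVE setting (the finite Galois extension `F/K`, `K = Ω^U`, `F = Ω^{U'}`, as types).
Owner: helper2.  Prefix `splc_`.

* `splc_Hyp U U'`   : `U' ≤ U` open, `U'` normal in `U`;
* `splc_K U`, `splc_F h` : the fields; `splc_finite`, `splc_normal`, `splc_isGalois`;
* `splc_pi H : ↥U →* Gal(F/K)` surjective (`splc_pi_surjective`) with kernel `U'`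
  (`splc_pi_eq_one_iff`), `splc_card_gal : #Gal(F/K) = [U : U']`, `splc_finrank`;
* `splc_D H : fgI_InfData ↥U Gal(F/K) (Additive Ωˣ) (Additive Fˣ)`;
* `splc_exists_of_infl` : an inflated cocycle is the inflation of a finite-level cocycle;
* `splc_isCob_of_isCoboundary` : the inflation of a finite-level coboundary is a smooth
  coboundary.
-/
import Fermat.Agent.S55.Local.H2DvdFin
import Fermat.Agent.S55.Local.Unif

set_option autoImplicit false
set_option linter.unusedSectionVars false
set_option linter.unusedVariables false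
set_option linter.style.longLine false
set_option linter.style.haveILetI false

noncomputable section

namespace Fermat.Agent.S55

open groupCohomology

attribute [local instance] l3d_galAct

variable {q : ℕ} [Fact q.Prime]

/-- A 2-cochain of `U` inflated from `U/U'`: constant on the cosets of `U'` in both variables,
with values fixed by `U'`. -/
def splc_IsInfl (U U' : Subgroup (lcf_Gal q)) (f : ↥U × ↥U → (PadicAlgCl q)ˣ) : Prop :=
  (∀ g g' s s' : ↥U, (s : lcf_Gal q) ∈ U' → (s' : lcf_Gal q) ∈ U' →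
    f (g * s, g' * s') = f (g, g')) ∧
  (∀ g g' s : ↥U, (s : lcf_Gal q) ∈ U' → s • f (g, g') = f (g, g'))

/-- The standing hypotheses: `U' ≤ U` are open subgroups and `U'` is normal in `U`. -/
structure splc_Hyp (U U' : Subgroup (lcf_Gal q)) : Prop where
  le : U' ≤ U
  open' : lcf_IsOpen U'
  normal : ∀ g ∈ U, ∀ s ∈ U', g * s * g⁻¹ ∈ U'

theorem splc_isClosed (U : Subgroup (lcf_Gal q)) (hU : lcf_IsOpen U) :
    IsClosed (U : Set (lcf_Gal q)) := by
  obtain ⟨E, hE, hEU⟩ := hU
  exact Subgroup.isClosed_of_isOpen U (Subgroup.isOpen_mono hEU E.fixingSubgroup_isOpen)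

theorem splc_fixing_fixed (U : Subgroup (lcf_Gal q)) (hU : lcf_IsOpen U) :
    (IntermediateField.fixedField U).fixingSubgroup = U :=
  InfiniteGalois.fixingSubgroup_fixedField ⟨U, splc_isClosed U hU⟩

/-- The base field `K = Ω^U`. -/
abbrev splc_K (U : Subgroup (lcf_Gal q)) : IntermediateField ℚ_[q] (PadicAlgCl q) :=
  IntermediateField.fixedField U

theorem splc_K_le {U U' : Subgroup (lcf_Gal q)} (h : U' ≤ U) : splc_K U ≤ splc_K U' :=
  IntermediateField.fixedField_antitone h

/-- The top field `F = Ω^{U'}` as an intermediate field of `Ω/K`. -/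
abbrev splc_F {U U' : Subgroup (lcf_Gal q)} (h : U' ≤ U) :
    IntermediateField ↥(splc_K U) (PadicAlgCl q) :=
  IntermediateField.extendScalars (splc_K_le h)

theorem splc_mem_F {U U' : Subgroup (lcf_Gal q)} (h : U' ≤ U) (x : PadicAlgCl q) :
    x ∈ splc_F h ↔ ∀ s ∈ U', s x = x :=
  IntermediateField.mem_fixedField_iff U' x

variable {U U' : Subgroup (lcf_Gal q)}

theorem splc_Hyp.openU (H : splc_Hyp U U') : lcf_IsOpen U := by
  obtain ⟨E, hE, hEU⟩ := H.open'
  exact ⟨E, hE, hEU.trans H.le⟩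

theorem splc_finiteK (H : splc_Hyp U U') : FiniteDimensional ℚ_[q] ↥(splc_K U) :=
  lunif_finiteDimensional H.openU

theorem splc_finite (H : splc_Hyp U U') : FiniteDimensional ↥(splc_K U) ↥(splc_F H.le) := by
  haveI : FiniteDimensional ℚ_[q] ↥(splc_K U') := lunif_finiteDimensional H.open'
  haveI : FiniteDimensional ℚ_[q] ↥(splc_F H.le) :=
    inferInstanceAs (FiniteDimensional ℚ_[q] ↥(splc_K U'))
  exact FiniteDimensional.right ℚ_[q] ↥(splc_K U) ↥(splc_F H.le)

/-- A `K`-automorphism of `Ω`, as an element of `U`. -/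
theorem splc_restrict_mem (H : splc_Hyp U U') (σ : PadicAlgCl q ≃ₐ[↥(splc_K U)] PadicAlgCl q) :
    (σ.restrictScalars ℚ_[q] : lcf_Gal q) ∈ U := by
  have h1 : (σ.restrictScalars ℚ_[q] : lcf_Gal q) ∈
      (IntermediateField.fixedField U).fixingSubgroup := by
    rintro ⟨k, hk⟩
    exact σ.commutes ⟨k, hk⟩
  rw [splc_fixing_fixed U H.openU] at h1
  exact h1

theorem splc_normal (H : splc_Hyp U U') : Normal ↥(splc_K U) ↥(splc_F H.le) := by
  rw [IntermediateField.normal_iff_forall_map_le']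
  intro σ x hx
  obtain ⟨y, hy, rfl⟩ := hx
  have hy' := (splc_mem_F H.le y).1 hy
  have hg := splc_restrict_mem H σ
  refine (splc_mem_F H.le _).2 (fun s hs => ?_)
  set g : lcf_Gal q := σ.restrictScalars ℚ_[q] with hgdef
  have h1 : g⁻¹ * s * g⁻¹⁻¹ ∈ U' := H.normal g⁻¹ (inv_mem hg) s hs
  rw [inv_inv] at h1
  have h2 := hy' _ h1
  have h3 : g ((g⁻¹ * s * g) y) = s (g y) := by
    show g (g⁻¹ (s (g y))) = s (g y)
    exact AlgEquiv.apply_symm_apply g _
  rw [h2] at h3
  exact h3.symm

theorem splc_isGalois (H : splc_Hyp U U') : IsGalois ↥(splc_K U) ↥(splc_F H.le) :=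
  haveI := splc_normal H
  ⟨⟩

/-- The projection `U → Gal(F/K)`. -/
def splc_pi (H : splc_Hyp U U') :
    ↥U →* (↥(splc_F H.le) ≃ₐ[↥(splc_K U)] ↥(splc_F H.le)) :=
  haveI := splc_normal H
  (AlgEquiv.restrictNormalHom ↥(splc_F H.le)).comp
    ((IntermediateField.fixingSubgroupEquiv (splc_K U)).toMonoidHom.comp
      (MulEquiv.subgroupCongr (splc_fixing_fixed U H.openU).symm).toMonoidHom)

theorem splc_pi_apply (H : splc_Hyp U U') (g : ↥U) (x : ↥(splc_F H.le)) :
    ((splc_pi H g x : ↥(splc_F H.le)) : PadicAlgCl q) = (g : lcf_Gal q) (x : PadicAlgCl q) := by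
  haveI := splc_normal H
  exact AlgEquiv.restrictNormalHom_apply (splc_F H.le) _ x

theorem splc_pi_surjective (H : splc_Hyp U U') : Function.Surjective (splc_pi H) := by
  haveI := splc_normal H
  intro τ
  obtain ⟨σ, hσ⟩ := AlgEquiv.restrictNormalHom_surjective (PadicAlgCl q) τ
  obtain ⟨g₁, hg₁⟩ := (IntermediateField.fixingSubgroupEquiv (splc_K U)).surjective σ
  obtain ⟨g, hg⟩ := (MulEquiv.subgroupCongr (splc_fixing_fixed U H.openU).symm).surjective g₁
  refine ⟨g, ?_⟩
  show (AlgEquiv.restrictNormalHom ↥(splc_F H.le))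
    ((IntermediateField.fixingSubgroupEquiv (splc_K U))
      ((MulEquiv.subgroupCongr (splc_fixing_fixed U H.openU).symm) g)) = τ
  rw [hg, hg₁, hσ]

theorem splc_pi_eq_one_iff (H : splc_Hyp U U') (g : ↥U) :
    splc_pi H g = 1 ↔ (g : lcf_Gal q) ∈ U' := by
  constructor
  · intro h
    rw [← splc_fixing_fixed U' H.open']
    rintro ⟨x, hx⟩
    have hxF : x ∈ splc_F H.le := hx
    have := splc_pi_apply H g ⟨x, hxF⟩
    rw [h] at this
    exact this.symm
  · intro h
    apply AlgEquiv.ext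
    intro x
    apply Subtype.ext
    rw [splc_pi_apply]
    exact (splc_mem_F H.le _).1 x.2 _ h

theorem splc_ker_pi (H : splc_Hyp U U') : (splc_pi H).ker = U'.subgroupOf U := by
  ext g
  rw [MonoidHom.mem_ker, splc_pi_eq_one_iff, Subgroup.mem_subgroupOf]

theorem splc_card_gal (H : splc_Hyp U U') :
    Nat.card (↥(splc_F H.le) ≃ₐ[↥(splc_K U)] ↥(splc_F H.le)) = U'.relIndex U := by
  have h1 := Subgroup.index_ker (splc_pi H)
  rw [MonoidHom.range_eq_top.2 (splc_pi_surjective H), splc_ker_pi] at h1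
  rw [Subgroup.relIndex, h1]
  exact (Nat.card_congr (Subgroup.topEquiv).toEquiv).symm

theorem splc_finrank (H : splc_Hyp U U') :
    Module.finrank ↥(splc_K U) ↥(splc_F H.le) = U'.relIndex U := by
  haveI := splc_finite H
  haveI := splc_isGalois H
  rw [← splc_card_gal H, IsGalois.card_aut_eq_finrank]

/-- The relative `H²` has order dividing `[U : U']` (the second inequality [L3]). -/
theorem splc_card_dvd (H : splc_Hyp U U') :
    Nat.card (fg_H2 (↥(splc_F H.le) ≃ₐ[↥(splc_K U)] ↥(splc_F H.le))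
      (Additive (↥(splc_F H.le))ˣ)) ∣ U'.relIndex U := by
  haveI := splc_finiteK H
  haveI := splc_finite H
  haveI := splc_isGalois H
  rw [← splc_finrank H]
  exact l3d_general lni_fin ↥(splc_K U) ↥(splc_F H.le)

end Fermat.Agent.S55
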