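/-
S55 (wave 5), LOCAL side, package (SP5) [COUNT] of [SPLIT]:
an inflated class of exact order `[U : U']` generates all classes inflated from `U/U'`.
Owner: helper2.  Prefix `splc_`.

EXPORT: `splc_main : splc_CountStatement` (hypothesis-free).
-/
import Fermat.Agent.S55.Local.SplCountBridge

set_option autoImplicit false
set_option linter.unusedSectionVars false
set_option linter.unusedVariables false
set_option linter.style.longLine false
set_option linter.style.haveILetI false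

noncomputable section

namespace Fermat.Agent.S55

open groupCohomology

attribute [local instance] l3d_galAct

variable {q : ℕ} [Fact q.Prime] {U U' : Subgroup (lcf_Gal q)}

theorem splc_toMul_smul (g : ↥U) (a : Additive (PadicAlgCl q)ˣ) :
    Additive.toMul (g • a) = g • Additive.toMul a := rfl

/-- The inflation datum of `U → Gal(F/K)`. -/
def splc_D (H : splc_Hyp U U') :
    fgI_InfData ↥U (↥(splc_F H.le) ≃ₐ[↥(splc_K U)] ↥(splc_F H.le))
      (Additive (PadicAlgCl q)ˣ) (Additive (↥(splc_F H.le))ˣ) where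
  π := splc_pi H
  ι := MonoidHom.toAdditive
    (Units.map (algebraMap ↥(splc_F H.le) (PadicAlgCl q) : ↥(splc_F H.le) →* PadicAlgCl q))
  π_surj := splc_pi_surjective H
  ι_inj := by
    intro a b hab
    have h1 := congrArg (fun c : Additive (PadicAlgCl q)ˣ =>
      ((Additive.toMul c : (PadicAlgCl q)ˣ) : PadicAlgCl q)) hab
    apply Additive.toMul.injective
    apply Units.ext
    apply (algebraMap ↥(splc_F H.le) (PadicAlgCl q)).injective
    exact h1
  ι_smul := by
    intro g b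
    apply Additive.toMul.injective
    apply Units.ext
    exact splc_pi_apply H g _
  ι_range := by
    intro a ha
    have hmem : ((Additive.toMul a : (PadicAlgCl q)ˣ) : PadicAlgCl q) ∈ splc_F H.le := by
      rw [splc_mem_F]
      intro s hs
      have hπ : splc_pi H ⟨s, H.le hs⟩ = 1 := (splc_pi_eq_one_iff H _).2 hs
      have := congrArg (fun c : Additive (PadicAlgCl q)ˣ =>
        ((Additive.toMul c : (PadicAlgCl q)ˣ) : PadicAlgCl q)) (ha ⟨s, H.le hs⟩ hπ)
      exact this
    have h0 : (⟨((Additive.toMul a : (PadicAlgCl q)ˣ) : PadicAlgCl q), hmem⟩ :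
        ↥(splc_F H.le)) ≠ 0 := by
      intro h
      have := congrArg (fun y : ↥(splc_F H.le) => (y : PadicAlgCl q)) h
      exact (Additive.toMul a : (PadicAlgCl q)ˣ).ne_zero this
    refine ⟨Additive.ofMul (Units.mk0 ⟨((Additive.toMul a : (PadicAlgCl q)ˣ) : PadicAlgCl q),
      hmem⟩ h0), ?_⟩
    apply Additive.toMul.injective
    apply Units.ext
    rfl

theorem splc_D_π (H : splc_Hyp U U') : (splc_D H).π = splc_pi H := rfl

/-- An inflated cochain depends only on the classes modulo `U'`. -/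
theorem splc_infl_congr (H : splc_Hyp U U') {f : ↥U × ↥U → (PadicAlgCl q)ˣ}
    (hf : splc_IsInfl U U' f) {g g' h h' : ↥U} (hg : splc_pi H g = splc_pi H g')
    (hh : splc_pi H h = splc_pi H h') : f (g, h) = f (g', h') := by
  have h1 : (g'⁻¹ * g : ↥U) = g'⁻¹ * g := rfl
  have hs : ((g'⁻¹ * g : ↥U) : lcf_Gal q) ∈ U' := by
    rw [← splc_pi_eq_one_iff H, map_mul, map_inv, hg, inv_mul_cancel]
  have hs' : ((h'⁻¹ * h : ↥U) : lcf_Gal q) ∈ U' := by
    rw [← splc_pi_eq_one_iff H, map_mul, map_inv, hh, inv_mul_cancel]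
  have := hf.1 g' h' _ _ hs hs'
  rw [mul_inv_cancel_left, mul_inv_cancel_left] at this
  exact this

/-- **Every inflated cocycle is the inflation of a finite-level cocycle.** -/
theorem splc_exists_of_infl (H : splc_Hyp U U') {f : ↥U × ↥U → (PadicAlgCl q)ˣ}
    (hc : IsMulCocycle₂ f) (hf : splc_IsInfl U U' f) :
    ∃ c : (↥(splc_F H.le) ≃ₐ[↥(splc_K U)] ↥(splc_F H.le)) ×
        (↥(splc_F H.le) ≃ₐ[↥(splc_K U)] ↥(splc_F H.le)) → Additive (↥(splc_F H.le))ˣ,
      IsCocycle₂ c ∧ ∀ g h : ↥U, Additive.ofMul (f (g, h)) = fgI_inf₂ (splc_D H) c (g, h) := by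
  set σ := Function.surjInv (splc_pi_surjective H) with hσ
  have hσπ : ∀ x, splc_pi H (σ x) = x := Function.surjInv_eq (splc_pi_surjective H)
  have hfix : ∀ x y, ∀ h : ↥U, (splc_D H).π h = 1 →
      h • (Additive.ofMul (f (σ x, σ y)) : Additive (PadicAlgCl q)ˣ) =
        Additive.ofMul (f (σ x, σ y)) := by
    intro x y h hh
    have hmem : (h : lcf_Gal q) ∈ U' := (splc_pi_eq_one_iff H h).1 hh
    exact congrArg Additive.ofMul (hf.2 (σ x) (σ y) h hmem)
  choose c hcdef using fun x y => (splc_D H).ι_range _ (hfix x y)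
  have hinf : ∀ g h : ↥U, Additive.ofMul (f (g, h)) =
      fgI_inf₂ (splc_D H) (fun p => c p.1 p.2) (g, h) := by
    intro g h
    rw [fgI_inf₂_apply]
    show _ = (splc_D H).ι (c (splc_pi H g) (splc_pi H h))
    rw [hcdef]
    congr 1
    exact splc_infl_congr H hf (hσπ _).symm (hσπ _).symm
  refine ⟨fun p => c p.1 p.2, ?_, hinf⟩
  intro x y z
  apply (splc_D H).ι_inj
  have hx := hσπ x
  have hy := hσπ y
  have hz := hσπ z
  have e := congrArg Additive.ofMul (hc (σ x) (σ y) (σ z))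
  have e1 : Additive.ofMul (f (σ x * σ y, σ z) * f (σ x, σ y)) =
      Additive.ofMul (f (σ x * σ y, σ z)) + Additive.ofMul (f (σ x, σ y)) := rfl
  have e2 : Additive.ofMul (σ x • f (σ y, σ z) * f (σ x, σ y * σ z)) =
      σ x • (Additive.ofMul (f (σ y, σ z)) : Additive (PadicAlgCl q)ˣ) +
        Additive.ofMul (f (σ x, σ y * σ z)) := rfl
  rw [e1, e2, hinf, hinf, hinf, hinf] at e
  simp only [fgI_inf₂_apply, splc_D_π, map_mul, hx, hy, hz] at e
  have hs : (splc_D H).ι (x • c y z) = σ x • (splc_D H).ι (c y z) := by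
    have := (splc_D H).ι_smul (σ x) (c y z)
    rw [splc_D_π, hx] at this
    exact this
  show (splc_D H).ι (c (x * y) z + c x y) = (splc_D H).ι (x • c y z + c x (y * z))
  rw [map_add, map_add, hs]
  exact e

/-- **The inflation of a finite-level coboundary is a smooth coboundary.** -/
theorem splc_isCob_of_isCoboundary (H : splc_Hyp U U')
    {c : (↥(splc_F H.le) ≃ₐ[↥(splc_K U)] ↥(splc_F H.le)) ×
        (↥(splc_F H.le) ≃ₐ[↥(splc_K U)] ↥(splc_F H.le)) → Additive (↥(splc_F H.le))ˣ}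
    (hc : IsCoboundary₂ c) :
    lcf_IsCob U (fun p => Additive.toMul (fgI_inf₂ (splc_D H) c p)) := by
  obtain ⟨β, hβ⟩ := hc
  refine ⟨fun g => Additive.toMul ((splc_D H).ι (β (splc_pi H g))), ?_, ?_⟩
  · refine ⟨IntermediateField.fixedField U', lunif_finiteDimensional H.open', ?_⟩
    intro g s hs
    rw [splc_fixing_fixed U' H.open'] at hs
    have h1 : splc_pi H s = 1 := (splc_pi_eq_one_iff H s).2 hs
    show Additive.toMul ((splc_D H).ι (β (splc_pi H (g * s)))) = _
    rw [map_mul, h1, mul_one]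
  · intro g h
    have e := congrArg (fun a => Additive.toMul ((splc_D H).ι a)) (hβ (splc_pi H g) (splc_pi H h))
    simp only [map_add, map_sub] at e
    rw [show (splc_D H).ι (splc_pi H g • β (splc_pi H h)) = g • (splc_D H).ι (β (splc_pi H h))
      from (splc_D H).ι_smul g _] at e
    show g • Additive.toMul ((splc_D H).ι (β (splc_pi H h))) /
        Additive.toMul ((splc_D H).ι (β (splc_pi H (g * h)))) *
        Additive.toMul ((splc_D H).ι (β (splc_pi H g))) =
      Additive.toMul ((splc_D H).ι (c (splc_pi H g, splc_pi H h)))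
    rw [← e, map_mul]
    rfl

/-- **(SP5) [COUNT]**: the classes inflated from `U/U'` form a group of order dividing
`[U : U']`; hence an inflated class of exact order `[U : U']` generates all of them. -/
def splc_CountStatement : Prop :=
  ∀ (q : ℕ) [Fact q.Prime] (U U' : Subgroup (lcf_Gal q)), lcf_IsOpen U' → U' ≤ U →
    (∀ g ∈ U, ∀ s ∈ U', g * s * g⁻¹ ∈ U') →
    ∀ c₀ f : ↥U × ↥U → (PadicAlgCl q)ˣ, IsMulCocycle₂ c₀ → splc_IsInfl U U' c₀ →
      IsMulCocycle₂ f → splc_IsInfl U U' f →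
      (∀ k : ℕ, lcf_IsCob U (c₀ ^ k) → U'.relIndex U ∣ k) →
      ∃ k : ℕ, lcf_IsCob U (f / c₀ ^ k)

/-- A finite abelian group of order dividing `N` is generated by any element of order
divisible by `N`. -/
theorem splc_generates {X : Type*} [AddCommGroup X] {N : ℕ} (hN : N ≠ 0)
    (hcard : Nat.card X ∣ N) (x₀ : X) (h0 : ∀ k : ℕ, k • x₀ = 0 → N ∣ k) (y : X) :
    ∃ k : ℕ, y = k • x₀ := by
  have hc0 : Nat.card X ≠ 0 := fun h => hN (by rw [h] at hcard; exact zero_dvd_iff.1 hcard)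
  haveI : Finite X := Nat.finite_of_card_ne_zero hc0
  have h1 : addOrderOf x₀ ∣ Nat.card X := addOrderOf_dvd_natCard x₀
  have h2 : N ∣ addOrderOf x₀ := h0 _ (addOrderOf_nsmul_eq_zero x₀)
  have h3 : addOrderOf x₀ = Nat.card X :=
    Nat.dvd_antisymm h1 (hcard.trans h2)
  have h4 : AddSubgroup.zmultiples x₀ = ⊤ := by
    apply AddSubgroup.eq_top_of_card_eq
    rw [Nat.card_zmultiples, h3]
  have h5 : y ∈ AddSubgroup.zmultiples x₀ := by rw [h4]; exact AddSubgroup.mem_top y
  rw [← mem_multiples_iff_mem_zmultiples] at h5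
  obtain ⟨k, hk⟩ := h5
  exact ⟨k, hk.symm⟩

/-- Generic form: if `#H²(G, A) ∣ N` and the class of `c₀` has order divisible by `N`, every
2-cocycle is cohomologous to a multiple of `c₀`. -/
theorem splc_generic {G A : Type*} [Group G] [AddCommGroup A] [DistribMulAction G A] {N : ℕ}
    (hN : N ≠ 0) (hcard : Nat.card (fg_H2 G A) ∣ N) {c₀ cf : G × G → A} (hc₀ : IsCocycle₂ c₀)
    (hcf : IsCocycle₂ cf) (h0 : ∀ k : ℕ, IsCoboundary₂ (k • c₀) → N ∣ k) :
    ∃ k : ℕ, IsCoboundary₂ (cf - k • c₀) := by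
  have hk0 : ∀ k : ℕ, k • fg_H2mk G A ⟨c₀, hc₀⟩ = 0 → N ∣ k := by
    intro k hk
    apply h0
    rw [← map_nsmul, fg_H2mk_eq_zero_iff] at hk
    exact hk
  obtain ⟨k, hk⟩ := splc_generates hN hcard _ hk0 (fg_H2mk G A ⟨cf, hcf⟩)
  refine ⟨k, ?_⟩
  have hk' : fg_H2mk G A (⟨cf, hcf⟩ - k • ⟨c₀, hc₀⟩ : fg_Z2 G A) = 0 := by
    rw [map_sub, map_nsmul, ← hk, sub_self]
  rw [fg_H2mk_eq_zero_iff] at hk'
  exact hk'

theorem splc_main : splc_CountStatement := by
  intro q _ U U' hU' hle hn c₀ f hc₀ hi₀ hf hif hord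
  have H : splc_Hyp U U' := ⟨hle, hU', hn⟩
  obtain ⟨c₀', hc₀', e₀⟩ := splc_exists_of_infl H hc₀ hi₀
  obtain ⟨cf, hcf, ef⟩ := splc_exists_of_infl H hf hif
  have hN : U'.relIndex U ≠ 0 := by
    rw [← splc_finrank H]
    haveI := splc_finite H
    exact Module.finrank_pos.ne'
  -- powers of `c₀` are inflations of multiples of `c₀'`
  have hpow : ∀ k : ℕ, (fun p => Additive.toMul (fgI_inf₂ (splc_D H) (k • c₀') p)) = c₀ ^ k := by
    intro k
    funext p
    obtain ⟨g, h⟩ := p
    show Additive.toMul ((splc_D H).ι (k • c₀' ((splc_D H).π g, (splc_D H).π h))) = (c₀ (g, h)) ^ k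
    rw [map_nsmul, ← fgI_inf₂_apply, ← e₀]
    rfl
  have hk0 : ∀ k : ℕ, IsCoboundary₂ (k • c₀') → U'.relIndex U ∣ k := by
    intro k hk
    apply hord
    have := splc_isCob_of_isCoboundary H hk
    rw [hpow k] at this
    exact this
  obtain ⟨k, hk⟩ := splc_generic hN (splc_card_dvd H) hc₀' hcf hk0
  refine ⟨k, ?_⟩
  have h1 := splc_isCob_of_isCoboundary H hk
  have h2 : (fun p => Additive.toMul (fgI_inf₂ (splc_D H) (cf - k • c₀') p)) = f / c₀ ^ k := by
    funext p
    obtain ⟨g, h⟩ := p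
    show Additive.toMul ((splc_D H).ι (cf ((splc_D H).π g, (splc_D H).π h) -
      k • c₀' ((splc_D H).π g, (splc_D H).π h))) = f (g, h) / (c₀ (g, h)) ^ k
    rw [map_sub, map_nsmul, ← fgI_inf₂_apply, ← fgI_inf₂_apply (splc_D H) c₀', ← e₀, ← ef]
    rfl
  rw [h2] at h1
  exact h1

end Fermat.Agent.S55
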