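import Mathlib
import Fermat.Agent.S55.Local.SplitDefs
import Fermat.Agent.S55.UnrAbs6

/-!
S55, LOCAL side, package [SPLIT], leaf **[UR-VAL]**: an element of `Ωˣ` fixed by the inertia
subgroup of `U` has its norm in the value group of `K_U`.
-/

set_option autoImplicit false

namespace Fermat.Agent.S55

section UrVal

variable {q : ℕ} [Fact q.Prime]

/-- explicit form of [UR-VAL] for elements of `Ω`. -/
theorem unr_abs_urVal (U : Subgroup (lcf_Gal q)) (hU : lcf_IsOpen U) (x : PadicAlgCl q)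
    (hx0 : x ≠ 0)
    (hx : ∀ s : ↥U, lcf_IsInert (s : lcf_Gal q) → (s : lcf_Gal q) x = x) :
    ∃ y : PadicAlgCl q, y ≠ 0 ∧ (∀ g : ↥U, (g : lcf_Gal q) y = y) ∧ ‖x‖ = ‖y‖ := by
  have hfin := unr_abs_finite U hU
  obtain ⟨M, ξ, hM, hξ, hmem⟩ := unr_abs_mem_adjoin_root U hU x hx
  obtain ⟨n, hn⟩ := unr_abs_adjoin_val (IntermediateField.fixedField U) M hM ξ hξ x hmem hx0
  have h0 : ((lf_unif ↥(IntermediateField.fixedField U) : ↥(IntermediateField.fixedField U)) :
      PadicAlgCl q) ≠ 0 := by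
    intro h
    exact lf_unif_ne_zero ↥(IntermediateField.fixedField U) (Subtype.ext h)
  refine ⟨((lf_unif ↥(IntermediateField.fixedField U) : ↥(IntermediateField.fixedField U)) :
      PadicAlgCl q) ^ n, zpow_ne_zero _ h0, ?_, ?_⟩
  · intro g
    rw [map_zpow₀]
    congr 1
    exact (lf_unif ↥(IntermediateField.fixedField U)).2 ⟨g, g.2⟩
  · rw [norm_zpow]
    exact hn

end UrVal

/-- **[UR-VAL]** -/
theorem unr_urVal_main : spl_UrValStatement := by
  intro q _ U hU ϖ hϖ x hx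
  obtain ⟨y, hy0, hyU, hxy⟩ := unr_abs_urVal U hU (x : PadicAlgCl q) x.ne_zero
    (fun s hs => by
      have := congrArg (fun u : (PadicAlgCl q)ˣ => (u : PadicAlgCl q)) (hx s hs)
      exact this)
  obtain ⟨k, hk⟩ := hϖ.2.2 (Units.mk0 y hy0) (fun g => by
    apply Units.ext
    rw [unr_abs_smul_units_val]
    exact hyU g)
  exact ⟨k, by rw [hxy]; exact hk⟩

end Fermat.Agent.S55
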