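import Mathlib
import Fermat.Agent.S55.Local.UnrH2UDefs
import Fermat.Agent.S55.Local.SplCount
import Fermat.Agent.S55.Local.SplUrVal
import Fermat.Agent.S55.UnrH2

/-!
S55, LOCAL side, leaf **[UNR-H2U]**: `H²(unramified, units) = 0` in the absolute setting.
-/

set_option autoImplicit false

namespace Fermat.Agent.S55

open groupCohomology

attribute [local instance] l3d_galAct

section H2U

variable {q : ℕ} [Fact q.Prime] {U U' : Subgroup (lcf_Gal q)}

/-- the inertia form of "`K_{U'} / K_U` is unramified" implies the value group form. -/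
theorem unr_isUnrLevel_of_inert (hU : lcf_IsOpen U)
    (h : ∀ s : ↥U, lcf_IsInert (s : lcf_Gal q) → (s : lcf_Gal q) ∈ U') :
    unr_IsUnrLevel U U' := by
  intro x hx
  obtain ⟨y, hy0, hyU, hxy⟩ := unr_abs_urVal U hU (x : PadicAlgCl q) x.ne_zero
    (fun s hs => by
      have := congrArg (fun u : (PadicAlgCl q)ˣ => (u : PadicAlgCl q)) (hx ⟨s, h s hs⟩)
      exact this)
  refine ⟨Units.mk0 y hy0, fun g => ?_, hxy⟩
  apply Units.ext
  rw [unr_abs_smul_units_val]
  exact hyU g

/-- the finite level is an unramified extension of local fields. -/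
theorem unr_h2u_isUnram (H : splc_Hyp U U') (hu : unr_IsUnrLevel U U') :
    haveI := splc_finiteK H
    haveI := splc_finite H
    unr_IsUnram ↥(splc_K U) ↥(splc_F H.le) := by
  have := splc_finiteK H
  have := splc_finite H
  intro x hx0
  have hx0' : ((x : ↥(splc_F H.le)) : PadicAlgCl q) ≠ 0 := by
    intro h
    exact hx0 (Subtype.ext h)
  obtain ⟨y, hyU, hxy⟩ := hu (Units.mk0 _ hx0') (fun s => by
    apply Units.ext
    exact (splc_mem_F H.le _).1 x.2 s s.2)
  have hyK : (y : PadicAlgCl q) ∈ splc_K U := by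
    intro g
    have := congrArg (fun u : (PadicAlgCl q)ˣ => (u : PadicAlgCl q)) (hyU ⟨g, g.2⟩)
    exact this
  have hy0 : (⟨(y : PadicAlgCl q), hyK⟩ : ↥(splc_K U)) ≠ 0 := by
    intro h
    exact y.ne_zero (congrArg Subtype.val h)
  obtain ⟨n, hn⟩ := lf_exists_norm_eq_zpow hy0
  refine ⟨n, ?_⟩
  rw [← hn]
  exact hxy

end H2U

/-- **[UNR-H2U]** -/
theorem unr_h2u_main : unr_H2UStatement := by
  intro q _ U U' hU' hn hu f hc hf h1
  have H : splc_Hyp U U' := ⟨hn.1, hU', hn.2⟩
  have := splc_finiteK H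
  have := splc_finite H
  have := splc_isGalois H
  have hur := unr_h2u_isUnram H hu
  obtain ⟨c, hcc, hcf⟩ := splc_exists_of_infl H hc hf
  have hc1 : ∀ p, ‖((Additive.toMul (c p) : (↥(splc_F H.le))ˣ) : ↥(splc_F H.le))‖ = 1 := by
    rintro ⟨x, y⟩
    obtain ⟨g, rfl⟩ := splc_pi_surjective H x
    obtain ⟨h, rfl⟩ := splc_pi_surjective H y
    have e := congrArg (fun a : Additive (PadicAlgCl q)ˣ =>
      ‖((Additive.toMul a : (PadicAlgCl q)ˣ) : PadicAlgCl q)‖) (hcf g h)
    beta_reduce at e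
    rw [fgI_inf₂_apply] at e
    have e2 : ‖((Additive.toMul (Additive.ofMul (f (g, h))) : (PadicAlgCl q)ˣ) : PadicAlgCl q)‖
        = 1 := h1 g h
    rw [e2] at e
    exact e.symm
  obtain ⟨β, hβ1, hβ⟩ := unr_h2_units hur c hcc hc1
  refine ⟨fun g => Additive.toMul ((splc_D H).ι (β (splc_pi H g))), ?_, ?_, ?_, ?_⟩
  · intro g s hs
    have h1 : splc_pi H s = 1 := (splc_pi_eq_one_iff H s).2 hs
    show Additive.toMul ((splc_D H).ι (β (splc_pi H (g * s)))) = _
    rw [map_mul, h1, mul_one]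
  · intro g s hs
    have h1 : splc_pi H s = 1 := (splc_pi_eq_one_iff H s).2 hs
    have e := (splc_D H).ι_smul s (β (splc_pi H g))
    rw [splc_D_π, h1, one_smul] at e
    exact (congrArg Additive.toMul e).symm
  · intro g
    exact hβ1 (splc_pi H g)
  · intro g h
    have e := congrArg (fun a => Additive.toMul ((splc_D H).ι a)) (hβ (splc_pi H g) (splc_pi H h))
    simp only [map_add, map_sub] at e
    rw [show (splc_D H).ι (splc_pi H g • β (splc_pi H h)) = g • (splc_D H).ι (β (splc_pi H h))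
      from (splc_D H).ι_smul g _] at e
    have e3 : Additive.toMul ((splc_D H).ι (c (splc_pi H g, splc_pi H h))) = f (g, h) := by
      have := hcf g h
      rw [fgI_inf₂_apply] at this
      exact (congrArg Additive.toMul this).symm
    show g • Additive.toMul ((splc_D H).ι (β (splc_pi H h))) /
        Additive.toMul ((splc_D H).ι (β (splc_pi H (g * h)))) *
        Additive.toMul ((splc_D H).ι (β (splc_pi H g))) = f (g, h)
    rw [← e3, ← e, map_mul]
    rfl

/-- corollary: a unit-valued 2-cocycle inflated from an unramified finite level is a smooth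
coboundary. -/
theorem unr_h2u_isCob {q : ℕ} [Fact q.Prime] (U U' : Subgroup (lcf_Gal q)) (hU' : lcf_IsOpen U')
    (hn : spl_IsNormalIn U U') (hu : unr_IsUnrLevel U U') (f : ↥U × ↥U → (PadicAlgCl q)ˣ)
    (hc : IsMulCocycle₂ f) (hf : spl_IsInfl U U' f)
    (h1 : ∀ g h : ↥U, ‖(f (g, h) : PadicAlgCl q)‖ = 1) : lcf_IsCob U f := by
  obtain ⟨b, hb1, -, -, hb⟩ := unr_h2u_main q U U' hU' hn hu f hc hf h1
  obtain ⟨E, hE, hEU⟩ := hU'
  exact ⟨b, ⟨E, hE, fun g s hs => hb1 g s (hEU hs)⟩, hb⟩

end Fermat.Agent.S55
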