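/-
S55 (wave 5), LOCAL side, leaf [CONJ-UNR] = `lcf_ConjUnrStatement`: conjugation by `τ ∈ Gal(Ω/ℚ_q)`
carries an unramified datum of `U` to an unramified datum of `U' = τ U τ⁻¹`.
Owner: helper27.  Prefix `lconj_`.

`θ' := θ ∘ (g ↦ τ⁻¹ g τ)`, `φ' := τ φ τ⁻¹`, uniformizer `τ ϖ`.  The residue fields of the fixed
fields of `U` and `U'` have the same cardinality because `τ` induces an isometric isomorphism
`K_U ≅ K_U'`.
-/
import Fermat.Agent.S55.Local.InvBuild
import Fermat.Agent.S55.UnrAbs1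

set_option autoImplicit false

noncomputable section

namespace Fermat.Agent.S55

open groupCohomology

section Conj

variable {q : ℕ} [Fact q.Prime] {U U' : Subgroup (lcf_Gal q)} (τ : lcf_Gal q)
  (hUU' : ∀ g : lcf_Gal q, g ∈ U' ↔ τ⁻¹ * g * τ ∈ U)

include hUU' in
/-- `τ` maps the fixed field of `U` into the fixed field of `U'`. -/
theorem lconj_map_mem {x : PadicAlgCl q} (hx : x ∈ IntermediateField.fixedField U) :
    τ x ∈ IntermediateField.fixedField U' := by
  rw [IntermediateField.mem_fixedField_iff] at hx ⊢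
  intro g hg
  have h1 : (τ⁻¹ * g * τ) x = x := hx _ ((hUU' g).1 hg)
  have h2 : τ ((τ⁻¹ * g * τ) x) = g (τ x) := by
    show τ (τ⁻¹ (g (τ x))) = g (τ x)
    exact τ.apply_symm_apply _
  rw [← h2, h1]

include hUU' in
/-- `τ⁻¹` maps the fixed field of `U'` into the fixed field of `U`. -/
theorem lconj_symm_mem {x : PadicAlgCl q} (hx : x ∈ IntermediateField.fixedField U') :
    τ.symm x ∈ IntermediateField.fixedField U := by
  rw [IntermediateField.mem_fixedField_iff] at hx ⊢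
  intro g hg
  have hg' : τ * g * τ⁻¹ ∈ U' := by
    rw [hUU']
    have : τ⁻¹ * (τ * g * τ⁻¹) * τ = g := by group
    rw [this]
    exact hg
  have h1 : (τ * g * τ⁻¹) x = x := hx _ hg'
  have h2 : τ.symm ((τ * g * τ⁻¹) x) = g (τ.symm x) := by
    show τ.symm (τ (g (τ⁻¹ x))) = g (τ.symm x)
    rw [τ.symm_apply_apply]
    rfl
  rw [← h2, h1]

/-- The isomorphism of the valuation rings of the fixed fields of `U` and `U'` induced by `τ`. -/
def lconj_ringEquiv :
    ↥(NormedField.valuation (K := ↥(IntermediateField.fixedField U))).valuationSubring ≃+*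
      ↥(NormedField.valuation (K := ↥(IntermediateField.fixedField U'))).valuationSubring where
  toFun x := ⟨⟨τ ((x : ↥(IntermediateField.fixedField U)) : PadicAlgCl q),
      lconj_map_mem τ hUU' (x : ↥(IntermediateField.fixedField U)).2⟩, by
    have hx : ‖((x : ↥(IntermediateField.fixedField U)) : PadicAlgCl q)‖₊ ≤ 1 := x.2
    show ‖τ ((x : ↥(IntermediateField.fixedField U)) : PadicAlgCl q)‖₊ ≤ 1
    rw [← NNReal.coe_le_coe, coe_nnnorm, unr_abs_norm_map]
    exact_mod_cast hx⟩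
  invFun y := ⟨⟨τ.symm ((y : ↥(IntermediateField.fixedField U')) : PadicAlgCl q),
      lconj_symm_mem τ hUU' (y : ↥(IntermediateField.fixedField U')).2⟩, by
    have hy : ‖((y : ↥(IntermediateField.fixedField U')) : PadicAlgCl q)‖₊ ≤ 1 := y.2
    show ‖τ.symm ((y : ↥(IntermediateField.fixedField U')) : PadicAlgCl q)‖₊ ≤ 1
    rw [← NNReal.coe_le_coe, coe_nnnorm, unr_abs_norm_map]
    exact_mod_cast hy⟩
  left_inv x := by
    apply Subtype.ext
    apply Subtype.ext
    exact τ.symm_apply_apply _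
  right_inv y := by
    apply Subtype.ext
    apply Subtype.ext
    exact τ.apply_symm_apply _
  map_mul' x y := by
    apply Subtype.ext
    apply Subtype.ext
    exact map_mul τ _ _
  map_add' x y := by
    apply Subtype.ext
    apply Subtype.ext
    exact map_add τ _ _

set_option maxHeartbeats 2000000 in
set_option synthInstance.maxHeartbeats 400000 in
include hUU' in
/-- Conjugate subgroups have residue fields of the same cardinality. -/
theorem lconj_resCard : lcf_resCard U' = lcf_resCard U := by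
  have e := IsLocalRing.ResidueField.mapEquiv (lconj_ringEquiv τ hUU')
  exact (Nat.card_congr e.toEquiv).symm

include hUU' in
/-- A conjugate of an element of `U` lies in `U'`. -/
theorem lconj_mem (g : ↥U) : τ * g * τ⁻¹ ∈ U' := by
  rw [hUU']
  have : τ⁻¹ * (τ * g * τ⁻¹) * τ = g := by group
  rw [this]
  exact g.2

/-- `τ⁻¹ (τ g τ⁻¹) τ = g`. -/
theorem lconj_conj_eq (g : ↥U) (g' : ↥U') (hg : (g' : lcf_Gal q) = τ * g * τ⁻¹) :
    linv_conj τ hUU' g' = g := by
  apply Subtype.ext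
  rw [linv_conj_coe, hg]
  group

/-- A conjugate of an inert element is inert. -/
theorem lconj_isInert (s : lcf_Gal q) (hs : lcf_IsInert s) : lcf_IsInert (τ⁻¹ * s * τ) := by
  intro x hx
  have hτx : ‖τ x‖ ≤ 1 := by rw [unr_abs_norm_map]; exact hx
  have h1 := hs (τ x) hτx
  have h2 : (τ⁻¹ * s * τ) x - x = τ.symm (s (τ x) - τ x) := by
    rw [map_sub, τ.symm_apply_apply]
    rfl
  rw [h2, unr_abs_norm_map]
  exact h1

end Conj

/-- **[CONJ-UNR]** `lcf_ConjUnrStatement`. -/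
theorem lconj_main : lcf_ConjUnrStatement := by
  intro q _ U U' τ hU hUU' n _ θ φ ϖ hd
  refine ⟨θ.comp (linv_conj τ hUU'), ⟨τ * φ * τ⁻¹, lconj_mem τ hUU' φ⟩,
    ⟨?_, ?_, ?_, ?_, ?_, ?_, ?_⟩, ?_⟩
  · -- smooth
    exact linv_smooth₁_conj τ hUU' hd.smooth id
  · -- inert
    intro s hs
    exact hd.inert (linv_conj τ hUU' s) (lconj_isInert τ (s : lcf_Gal q) hs)
  · -- Frobenius
    intro x hx
    show ‖(τ * (φ : lcf_Gal q) * τ⁻¹) x - x ^ lcf_resCard U'‖ < 1
    rw [lconj_resCard τ hUU']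
    have hy : ‖τ.symm x‖ ≤ 1 := by rw [unr_abs_norm_map]; exact hx
    have h1 := hd.frob (τ.symm x) hy
    have h2 : (τ * (φ : lcf_Gal q) * τ⁻¹) x - x ^ lcf_resCard U =
        τ ((φ : lcf_Gal q) (τ.symm x) - τ.symm x ^ lcf_resCard U) := by
      rw [map_sub, map_pow, τ.apply_symm_apply]
      rfl
    rw [h2, unr_abs_norm_map]
    exact h1
  · -- `θ' φ' = 1`
    show θ (linv_conj τ hUU' ⟨τ * φ * τ⁻¹, lconj_mem τ hUU' φ⟩) = Multiplicative.ofAdd 1
    rw [lconj_conj_eq τ hUU' φ ⟨τ * φ * τ⁻¹, lconj_mem τ hUU' φ⟩ rfl]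
    exact hd.one
  · -- `τ ϖ` is fixed by `U'`
    intro g
    rw [linv_smul_smul τ hUU' g ϖ, hd.unif.1]
  · -- `‖τ ϖ‖ < 1`
    show ‖τ (ϖ : PadicAlgCl q)‖ < 1
    rw [unr_abs_norm_map]
    exact hd.unif.2.1
  · -- the value group
    intro x hx
    have hfix : ∀ g : ↥U, g • (τ⁻¹ • x) = τ⁻¹ • x := by
      intro g
      have h1 := hx ⟨τ * g * τ⁻¹, lconj_mem τ hUU' g⟩
      have h2 : (τ * (g : lcf_Gal q) * τ⁻¹) • x = x := h1
      show (g : lcf_Gal q) • (τ⁻¹ • x) = τ⁻¹ • x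
      rw [← mul_smul]
      conv_rhs => rw [← h2]
      rw [← mul_smul]
      congr 1
      group
    obtain ⟨m, hm⟩ := hd.unif.2.2 (τ⁻¹ • x) hfix
    refine ⟨m, ?_⟩
    have e1 : ‖((τ⁻¹ • x : (PadicAlgCl q)ˣ) : PadicAlgCl q)‖ = ‖(x : PadicAlgCl q)‖ :=
      unr_abs_norm_map τ⁻¹ _
    have e2 : ‖((τ • ϖ : (PadicAlgCl q)ˣ) : PadicAlgCl q)‖ = ‖(ϖ : PadicAlgCl q)‖ :=
      unr_abs_norm_map τ _
    rw [e2, ← e1]
    exact hm
  · -- compatibility
    intro g g' hg
    show θ (linv_conj τ hUU' g') = θ g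
    rw [lconj_conj_eq τ hUU' g g' hg]

end Fermat.Agent.S55
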