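/-
S55 (wave 5), LOCAL side, leaf [EF]: the fundamental identity `e f = [L : K]`, abstract core.
Owner: helper25.  Prefix `lef_`.

Counting proof.  For an extension `L/K` of local fields (`n = [L : K]`, `Q = #k_K`, `Q' = #k_L`,
`‖ϖ_K‖ = ‖ϖ_L‖ ^ e`):
* `[O_L : ϖ_K O_L] = Q' ^ e`   (filtration by the powers of `ϖ_L`),
* `[O_L : ϖ_K O_L] = Q ^ n`    (`O_L` is commensurable with the lattice spanned by a basis),
* `Q' = Q ^ f`                 (`k_L` is a vector space over `k_K`).
-/
import Fermat.Agent.S55.Local.LFDefs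
import Fermat.Agent.S55.Local.LFExt
import Fermat.Agent.S55.UnrCyc

set_option autoImplicit false
set_option linter.unusedSectionVars false

noncomputable section

namespace Fermat.Agent.S55

open scoped BigOperators

/-! ### cancellation of indices -/

section Cancel

variable {G : Type*} [AddCommGroup G]

/-- If `Λ₀ ≤ m O ≤ O ≤ Λ` and `m Λ ≤ Λ` for an injective endomorphism `m`, and `Λ₀` has finite
index in `Λ`, then `[O : m O] = [Λ : m Λ]`. -/
theorem lef_relIndex_cancel (m : G →+ G) (hm : Function.Injective m) (Λ O Λ₀ : AddSubgroup G)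
    (h1 : Λ₀ ≤ O.map m) (h2 : O.map m ≤ O) (h3 : O ≤ Λ) (h4 : Λ.map m ≤ Λ)
    (h0 : Λ₀.relIndex Λ ≠ 0) :
    (O.map m).relIndex O = (Λ.map m).relIndex Λ := by
  have hOΛ : O.map m ≤ Λ.map m := AddSubgroup.map_mono h3
  have e1 : Λ₀.relIndex (O.map m) * (O.map m).relIndex O = Λ₀.relIndex O :=
    AddSubgroup.relIndex_mul_relIndex _ _ _ h1 h2
  have e2 : Λ₀.relIndex O * O.relIndex Λ = Λ₀.relIndex Λ :=
    AddSubgroup.relIndex_mul_relIndex _ _ _ (h1.trans h2) h3
  have e3 : Λ₀.relIndex (O.map m) * (O.map m).relIndex (Λ.map m) = Λ₀.relIndex (Λ.map m) :=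
    AddSubgroup.relIndex_mul_relIndex _ _ _ h1 hOΛ
  have e4 : Λ₀.relIndex (Λ.map m) * (Λ.map m).relIndex Λ = Λ₀.relIndex Λ :=
    AddSubgroup.relIndex_mul_relIndex _ _ _ (h1.trans hOΛ) h4
  have e5 : (O.map m).relIndex (Λ.map m) = O.relIndex Λ :=
    AddSubgroup.relIndex_map_map_of_injective O Λ hm
  rw [e5] at e3
  have hX : Λ₀.relIndex (O.map m) ≠ 0 := by
    intro h
    rw [h, zero_mul] at e1
    rw [← e1, zero_mul] at e2
    exact h0 e2.symm
  have hY : O.relIndex Λ ≠ 0 := by
    intro h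
    rw [h, mul_zero] at e2
    exact h0 e2.symm
  have e6 : Λ₀.relIndex (O.map m) * O.relIndex Λ * (O.map m).relIndex O
      = Λ₀.relIndex (O.map m) * O.relIndex Λ * (Λ.map m).relIndex Λ := by
    calc Λ₀.relIndex (O.map m) * O.relIndex Λ * (O.map m).relIndex O
        = (Λ₀.relIndex (O.map m) * (O.map m).relIndex O) * O.relIndex Λ := by ring
      _ = Λ₀.relIndex Λ := by rw [e1, e2]
      _ = Λ₀.relIndex (O.map m) * O.relIndex Λ * (Λ.map m).relIndex Λ := by rw [e3, e4]
  exact Nat.eq_of_mul_eq_mul_left (Nat.pos_of_ne_zero (mul_ne_zero hX hY)) e6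

end Cancel

/-! ### lattices -/

section Lat

variable {K : Type*} [NormedField K] [lf_IsLocal K] {ι : Type*} {E : Type*}
  [AddCommGroup E] [Module K E]

/-- The lattice of all `x` whose coordinates have norm `≤ ‖t‖`. -/
def lef_lat (co : E ≃ₗ[K] (ι → K)) (t : K) : AddSubgroup E where
  carrier := {x | ∀ i, ‖co x i‖ ≤ ‖t‖}
  zero_mem' := by
    intro i
    simp
  add_mem' := by
    intro a b ha hb i
    rw [map_add, Pi.add_apply]
    exact (lf_norm_add_le_max _ _).trans (max_le (ha i) (hb i))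
  neg_mem' := by
    intro a ha i
    rw [map_neg, Pi.neg_apply, norm_neg]
    exact ha i

theorem lef_mem_lat (co : E ≃ₗ[K] (ι → K)) (t : K) (x : E) :
    x ∈ lef_lat co t ↔ ∀ i, ‖co x i‖ ≤ ‖t‖ := Iff.rfl

theorem lef_lat_mono (co : E ≃ₗ[K] (ι → K)) {t t' : K} (h : ‖t‖ ≤ ‖t'‖) :
    lef_lat co t ≤ lef_lat co t' := fun _ hx i => (hx i).trans h

theorem lef_lat_congr (co : E ≃ₗ[K] (ι → K)) {t t' : K} (h : ‖t‖ = ‖t'‖) :
    lef_lat co t = lef_lat co t' :=
  le_antisymm (lef_lat_mono co h.le) (lef_lat_mono co h.ge)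

/-- scalar multiplication as an additive endomorphism. -/
def lef_mul (E : Type*) [AddCommGroup E] [Module K E] (c : K) : E →+ E :=
  (LinearMap.lsmul K E c).toAddMonoidHom

@[simp]
theorem lef_mul_apply (c : K) (x : E) : lef_mul E c x = c • x := rfl

theorem lef_mul_injective {c : K} (hc : c ≠ 0) : Function.Injective (lef_mul E c) := by
  intro x y h
  simp only [lef_mul_apply] at h
  exact smul_right_injective E hc h

theorem lef_lat_map (co : E ≃ₗ[K] (ι → K)) (t : K) {c : K} (hc : c ≠ 0) :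
    (lef_lat co t).map (lef_mul E c) = lef_lat co (c * t) := by
  ext x
  constructor
  · rintro ⟨y, hy, rfl⟩
    intro i
    rw [lef_mul_apply, map_smul, Pi.smul_apply, smul_eq_mul, norm_mul, norm_mul]
    exact mul_le_mul_of_nonneg_left (hy i) (norm_nonneg _)
  · intro hx
    refine ⟨c⁻¹ • x, ?_, ?_⟩
    · intro i
      rw [map_smul, Pi.smul_apply, smul_eq_mul, norm_mul, norm_inv]
      have h := hx i
      rw [norm_mul] at h
      have hpos : 0 < ‖c‖ := norm_pos_iff.mpr hc
      rw [inv_mul_le_iff₀ hpos]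
      exact h
    · rw [lef_mul_apply, smul_smul, mul_inv_cancel₀ hc, one_smul]

/-- the residue field of a local field. -/
abbrev lef_k (K : Type*) [NormedField K] [lf_IsLocal K] : Type _ :=
  IsLocalRing.ResidueField (NormedField.valuation (K := K)).valuationSubring

theorem lef_card_k (K : Type*) [NormedField K] [lf_IsLocal K] :
    Nat.card (lef_k K) = unr_resCard K := rfl

/-- an element of norm `≤ 1` as an element of the valuation ring. -/
def lef_int (K : Type*) [NormedField K] [lf_IsLocal K] (x : K) (hx : ‖x‖ ≤ 1) :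
    (NormedField.valuation (K := K)).valuationSubring :=
  ⟨x, (Valuation.mem_valuationSubring_iff _ _).2 ((unr_normed_val_le_one_iff x).2 hx)⟩

theorem lef_norm_div_le {t : K} (ht : t ≠ 0) {y : K} (hy : ‖y‖ ≤ ‖t‖) : ‖y / t‖ ≤ 1 := by
  rw [norm_div]
  exact (div_le_one (norm_pos_iff.mpr ht)).mpr hy

/-- reduction of the coordinates modulo the maximal ideal. -/
def lef_red (co : E ≃ₗ[K] (ι → K)) (t : K) (ht : t ≠ 0) :
    ↥(lef_lat co t) →+ (ι → lef_k K) where
  toFun x := fun i => IsLocalRing.residue _ (lef_int K (co x i / t) (lef_norm_div_le ht (x.2 i)))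
  map_zero' := by
    funext i
    rw [Pi.zero_apply, ← map_zero (IsLocalRing.residue _)]
    congr 1
    apply Subtype.ext
    simp [lef_int]
  map_add' x y := by
    funext i
    rw [Pi.add_apply, ← map_add (IsLocalRing.residue _)]
    congr 1
    apply Subtype.ext
    simp [lef_int, add_div]

theorem lef_red_surjective (co : E ≃ₗ[K] (ι → K)) (t : K) (ht : t ≠ 0) :
    Function.Surjective (lef_red co t ht) := by
  intro w
  choose a ha using fun i => IsLocalRing.residue_surjective (w i)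
  have ha1 : ∀ i, ‖((a i : (NormedField.valuation (K := K)).valuationSubring) : K)‖ ≤ 1 :=
    fun i => (unr_normed_val_le_one_iff _).1 ((Valuation.mem_valuationSubring_iff _ _).1 (a i).2)
  have hmem : co.symm (fun i => t * (a i : K)) ∈ lef_lat co t := by
    intro i
    rw [LinearEquiv.apply_symm_apply, norm_mul]
    calc ‖t‖ * ‖((a i : (NormedField.valuation (K := K)).valuationSubring) : K)‖
        ≤ ‖t‖ * 1 := mul_le_mul_of_nonneg_left (ha1 i) (norm_nonneg _)
      _ = ‖t‖ := mul_one _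
  refine ⟨⟨_, hmem⟩, ?_⟩
  funext i
  rw [← ha i]
  change IsLocalRing.residue _ _ = _
  congr 1
  apply Subtype.ext
  simp only [lef_int, LinearEquiv.apply_symm_apply]
  field_simp

theorem lef_red_ker (co : E ≃ₗ[K] (ι → K)) (t : K) (ht : t ≠ 0) :
    (lef_red co t ht).ker = (lef_lat co (t * lf_unif K)).addSubgroupOf (lef_lat co t) := by
  ext x
  rw [AddMonoidHom.mem_ker, AddSubgroup.mem_addSubgroupOf, lef_mem_lat]
  have hpos : 0 < ‖t‖ := norm_pos_iff.mpr ht
  constructor
  · intro h i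
    have hi := congrFun h i
    change IsLocalRing.residue _ _ = 0 at hi
    rw [unr_residue_eq_zero_iff, unr_normed_val_lt_one_iff] at hi
    have h2 := lf_norm_le_unif_of_lt_one hi
    simp only [lef_int] at h2
    rw [norm_div, div_le_iff₀ hpos] at h2
    rw [norm_mul, mul_comm]
    exact h2
  · intro h
    funext i
    change IsLocalRing.residue _ _ = 0
    rw [unr_residue_eq_zero_iff, unr_normed_val_lt_one_iff]
    simp only [lef_int]
    rw [norm_div, div_lt_one hpos]
    have hi := h i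
    rw [norm_mul] at hi
    calc ‖co (x : E) i‖ ≤ ‖t‖ * ‖lf_unif K‖ := hi
      _ < ‖t‖ * 1 := mul_lt_mul_of_pos_left (lf_norm_unif_lt_one K) hpos
      _ = ‖t‖ := mul_one _

/-- **index of `ϖ Λ` in `Λ`**. -/
theorem lef_lat_relIndex [Finite ι] (co : E ≃ₗ[K] (ι → K)) (t : K) (ht : t ≠ 0) :
    (lef_lat co (t * lf_unif K)).relIndex (lef_lat co t) = unr_resCard K ^ Nat.card ι := by
  rw [AddSubgroup.relIndex, ← lef_red_ker co t ht, AddSubgroup.index_ker,
    AddMonoidHom.range_eq_top.mpr (lef_red_surjective co t ht)]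
  rw [Nat.card_congr (AddSubgroup.topEquiv (G := ι → lef_k K)).toEquiv, Nat.card_fun]
  rfl

theorem lef_lat_relIndex_pow [Finite ι] (co : E ≃ₗ[K] (ι → K)) (t : K) (ht : t ≠ 0) (k : ℕ) :
    (lef_lat co (t * lf_unif K ^ k)).relIndex (lef_lat co t)
      = (unr_resCard K ^ Nat.card ι) ^ k := by
  induction k with
  | zero => rw [pow_zero, mul_one, AddSubgroup.relIndex_self, pow_zero]
  | succ k ih =>
    have hk : t * lf_unif K ^ k ≠ 0 := mul_ne_zero ht (pow_ne_zero _ (lf_unif_ne_zero K))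
    have h1 := lef_lat_relIndex co (t * lf_unif K ^ k) hk
    have hle1 : lef_lat co (t * lf_unif K ^ k * lf_unif K) ≤ lef_lat co (t * lf_unif K ^ k) := by
      apply lef_lat_mono
      rw [norm_mul]
      calc ‖t * lf_unif K ^ k‖ * ‖lf_unif K‖ ≤ ‖t * lf_unif K ^ k‖ * 1 :=
            mul_le_mul_of_nonneg_left (lf_norm_unif_lt_one K).le (norm_nonneg _)
        _ = ‖t * lf_unif K ^ k‖ := mul_one _
    have hle2 : lef_lat co (t * lf_unif K ^ k) ≤ lef_lat co t := by
      apply lef_lat_mono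
      rw [norm_mul, norm_pow]
      calc ‖t‖ * ‖lf_unif K‖ ^ k ≤ ‖t‖ * 1 :=
            mul_le_mul_of_nonneg_left (pow_le_one₀ (norm_nonneg _) (lf_norm_unif_lt_one K).le)
              (norm_nonneg _)
        _ = ‖t‖ := mul_one _
    have h2 := AddSubgroup.relIndex_mul_relIndex _ _ _ hle1 hle2
    rw [h1, ih] at h2
    rw [pow_succ, ← mul_assoc, ← h2, pow_succ, mul_comm]

end Lat

end Fermat.Agent.S55
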