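/-
S55 (wave 5), LOCAL side, leaf [EF]: the fundamental identity `e f = [L : K]` for an extension
of local fields (normed-field model `lf_`).
Owner: helper25.  Prefix `lef_`.
-/
import Fermat.Agent.S55.Local.EFCore

set_option autoImplicit false
set_option linter.unusedSectionVars false

noncomputable section

namespace Fermat.Agent.S55

open scoped BigOperators

section Ext

variable (K : Type*) (L : Type*) [NormedField K] [NormedField L] [Algebra K L]
  [lf_IsLocal K] [lf_IsLocal L] [lf_IsLocalExt K L]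

/-- coordinates of `L` over `K`. -/
def lef_coK : L ≃ₗ[K] (Fin (Module.finrank K L) → K) := (Module.finBasis K L).equivFun

/-- the trivial coordinate of `L` over `L`. -/
def lef_coL : L ≃ₗ[L] (Unit → L) := (LinearEquiv.funUnique Unit L L).symm

variable {L}

theorem lef_mem_ball (s x : L) : x ∈ lef_lat (lef_coL L) s ↔ ‖x‖ ≤ ‖s‖ := by
  rw [lef_mem_lat]
  constructor
  · intro h
    exact h ()
  · intro h _
    exact h

variable {K}

theorem lef_sum_coK (x : L) :
    ∑ i, lef_coK K L x i • Module.finBasis K L i = x :=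
  (Module.finBasis K L).sum_equivFun x

variable (K L)

/-- the unit ball contains a small lattice. -/
theorem lef_exists_small : ∃ a : ℕ,
    lef_lat (lef_coK K L) (lf_unif K ^ a) ≤ lef_lat (lef_coL L) 1 := by
  classical
  set D : ℝ := 1 + ∑ i, ‖Module.finBasis K L i‖ with hD
  have hD1 : 1 ≤ D := by
    have : 0 ≤ ∑ i, ‖Module.finBasis K L i‖ := Finset.sum_nonneg fun i _ => norm_nonneg _
    linarith
  have hDi : ∀ i, ‖Module.finBasis K L i‖ ≤ D := by
    intro i
    have h1 : ‖Module.finBasis K L i‖ ≤ ∑ j, ‖Module.finBasis K L j‖ :=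
      Finset.single_le_sum (f := fun j => ‖Module.finBasis K L j‖)
        (fun j _ => norm_nonneg _) (Finset.mem_univ i)
    linarith
  have hDpos : 0 < D := lt_of_lt_of_le one_pos hD1
  obtain ⟨a, ha⟩ := exists_pow_lt_of_lt_one (inv_pos.mpr hDpos) (lf_norm_unif_lt_one K)
  refine ⟨a, fun x hx => ?_⟩
  rw [lef_mem_ball, norm_one]
  rw [lef_mem_lat] at hx
  rw [← lef_sum_coK (K := K) x]
  refine IsUltrametricDist.norm_sum_le_of_forall_le_of_nonneg zero_le_one fun i _ => ?_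
  rw [Algebra.smul_def, norm_mul, lf_norm_algebraMap]
  have h1 := hx i
  rw [norm_pow] at h1
  calc ‖lef_coK K L x i‖ * ‖Module.finBasis K L i‖
      ≤ ‖lf_unif K‖ ^ a * D :=
        mul_le_mul h1 (hDi i) (norm_nonneg _) (pow_nonneg (norm_nonneg _) _)
    _ ≤ D⁻¹ * D := mul_le_mul_of_nonneg_right ha.le hDpos.le
    _ = 1 := inv_mul_cancel₀ hDpos.ne'

/-- the unit ball is contained in a big lattice. -/
theorem lef_exists_big : ∃ c : ℕ,
    lef_lat (lef_coL L) 1 ≤ lef_lat (lef_coK K L) ((lf_unif K ^ c)⁻¹) := by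
  classical
  let _ := lf_nontriviallyNormedField K
  let _ := lf_normedSpace K L
  have hb : ∀ i, ∃ C : ℝ, 0 < C ∧ ∀ x : L, ‖lef_coK K L x i‖ ≤ C * ‖x‖ := by
    intro i
    have hcont : Continuous ((Module.finBasis K L).coord i) :=
      LinearMap.continuous_of_finiteDimensional _
    obtain ⟨C, hC, hCb⟩ := SemilinearMapClass.bound_of_continuous
      ((Module.finBasis K L).coord i) hcont
    exact ⟨C, hC, fun x => hCb x⟩
  choose C hC hCb using hb
  set D : ℝ := 1 + ∑ i, C i with hD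
  have hsum : 0 ≤ ∑ i, C i := Finset.sum_nonneg fun i _ => (hC i).le
  have hD1 : 1 ≤ D := by linarith
  have hDi : ∀ i, C i ≤ D := by
    intro i
    have h1 : C i ≤ ∑ j, C j :=
      Finset.single_le_sum (f := fun j => C j) (fun j _ => (hC j).le) (Finset.mem_univ i)
    linarith
  have hDpos : 0 < D := lt_of_lt_of_le one_pos hD1
  obtain ⟨c, hc⟩ := exists_pow_lt_of_lt_one (inv_pos.mpr hDpos) (lf_norm_unif_lt_one K)
  refine ⟨c, fun x hx => ?_⟩
  rw [lef_mem_ball, norm_one] at hx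
  rw [lef_mem_lat]
  intro i
  rw [norm_inv, norm_pow]
  have hpos : 0 < ‖lf_unif K‖ ^ c := pow_pos (lf_norm_unif_pos K) c
  have h2 : D ≤ (‖lf_unif K‖ ^ c)⁻¹ := by
    rw [le_inv_comm₀ hDpos hpos]
    exact hc.le
  calc ‖lef_coK K L x i‖ ≤ C i * ‖x‖ := hCb i x
    _ ≤ D * 1 := mul_le_mul (hDi i) hx (norm_nonneg _) hDpos.le
    _ = D := mul_one _
    _ ≤ (‖lf_unif K‖ ^ c)⁻¹ := h2

theorem lef_mul_algebraMap (c : K) :
    lef_mul (K := L) L (algebraMap K L c) = lef_mul (K := K) L c := by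
  ext x
  simp only [lef_mul_apply]
  exact algebraMap_smul L c x

/-- **The index of `ϖ_K O_L` in `O_L` is `Q ^ n`.** -/
theorem lef_ball_relIndex :
    (lef_lat (lef_coL L) (algebraMap K L (lf_unif K))).relIndex (lef_lat (lef_coL L) 1)
      = unr_resCard K ^ Module.finrank K L := by
  obtain ⟨a, ha⟩ := lef_exists_small K L
  obtain ⟨c, hc⟩ := lef_exists_big K L
  have hπ : lf_unif K ≠ 0 := lf_unif_ne_zero K
  have hπ' : algebraMap K L (lf_unif K) ≠ 0 := by
    rw [Ne, map_eq_zero]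
    exact hπ
  have hπn : ‖lf_unif K‖ ≤ 1 := (lf_norm_unif_lt_one K).le
  have hpc : lf_unif K ^ c ≠ 0 := pow_ne_zero _ hπ
  have ht₁ : (lf_unif K ^ c)⁻¹ ≠ 0 := inv_ne_zero hpc
  have hmO : (lef_lat (lef_coL L) 1).map (lef_mul (K := K) L (lf_unif K))
      = lef_lat (lef_coL L) (algebraMap K L (lf_unif K)) := by
    rw [← lef_mul_algebraMap, lef_lat_map (lef_coL L) 1 hπ', mul_one]
  have hmΛ : (lef_lat (lef_coK K L) ((lf_unif K ^ c)⁻¹)).map (lef_mul (K := K) L (lf_unif K))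
      = lef_lat (lef_coK K L) ((lf_unif K ^ c)⁻¹ * lf_unif K) := by
    rw [lef_lat_map (lef_coK K L) _ hπ, mul_comm]
  have hΛ₀ : lef_lat (lef_coK K L) (lf_unif K ^ (a + 1))
      = (lef_lat (lef_coK K L) (lf_unif K ^ a)).map (lef_mul (K := K) L (lf_unif K)) := by
    rw [lef_lat_map (lef_coK K L) _ hπ, pow_succ, mul_comm]
  have hΛ₀' : lef_lat (lef_coK K L) (lf_unif K ^ (a + 1))
      = lef_lat (lef_coK K L) ((lf_unif K ^ c)⁻¹ * lf_unif K ^ (c + a + 1)) := by
    have h : (lf_unif K ^ c)⁻¹ * lf_unif K ^ (c + a + 1) = lf_unif K ^ (a + 1) := by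
      rw [add_assoc, pow_add, ← mul_assoc, inv_mul_cancel₀ hpc, one_mul]
    rw [h]
  have key := lef_relIndex_cancel (lef_mul (K := K) L (lf_unif K)) (lef_mul_injective hπ)
    (lef_lat (lef_coK K L) ((lf_unif K ^ c)⁻¹)) (lef_lat (lef_coL L) 1)
    (lef_lat (lef_coK K L) (lf_unif K ^ (a + 1)))
    (by rw [hΛ₀]; exact AddSubgroup.map_mono ha)
    (by
      rw [hmO]
      apply lef_lat_mono
      rw [lf_norm_algebraMap, norm_one]
      exact hπn)
    hc
    (by
      rw [hmΛ]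
      apply lef_lat_mono
      rw [norm_mul]
      calc ‖(lf_unif K ^ c)⁻¹‖ * ‖lf_unif K‖ ≤ ‖(lf_unif K ^ c)⁻¹‖ * 1 :=
            mul_le_mul_of_nonneg_left hπn (norm_nonneg _)
        _ = ‖(lf_unif K ^ c)⁻¹‖ := mul_one _)
    (by
      rw [hΛ₀', lef_lat_relIndex_pow (lef_coK K L) _ ht₁]
      have hQ : unr_resCard K ≠ 0 := by
        have := unr_resCard_ge_two K
        omega
      exact pow_ne_zero _ (pow_ne_zero _ hQ))
  rw [hmO, hmΛ, lef_lat_relIndex (lef_coK K L) _ ht₁, Nat.card_fin] at key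
  exact key

/-- the ramification exponent. -/
theorem lef_exists_e : ∃ e : ℕ, ‖lf_unif K‖ = ‖lf_unif L‖ ^ e := by
  have hπ' : algebraMap K L (lf_unif K) ≠ 0 := by
    rw [Ne, map_eq_zero]
    exact lf_unif_ne_zero K
  obtain ⟨m, hm⟩ := lf_exists_norm_eq_zpow hπ'
  rw [lf_norm_algebraMap] at hm
  have hpos := lf_norm_unif_pos L
  have hlt := lf_norm_unif_lt_one L
  have hm0 : 0 ≤ m := by
    by_contra hcon
    rw [not_le] at hcon
    have : (1 : ℝ) ≤ ‖lf_unif L‖ ^ m := by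
      obtain ⟨k, rfl⟩ : ∃ k : ℕ, m = -k := ⟨(-m).toNat, by omega⟩
      rw [zpow_neg, zpow_natCast]
      exact (one_le_inv₀ (pow_pos hpos k)).mpr (pow_le_one₀ hpos.le hlt.le)
    rw [← hm] at this
    exact absurd (lf_norm_unif_lt_one K) (not_lt.2 this)
  obtain ⟨e, rfl⟩ : ∃ e : ℕ, m = e := ⟨m.toNat, by omega⟩
  exact ⟨e, by rw [hm, zpow_natCast]⟩

/-- `Q' ^ e = Q ^ n`. -/
theorem lef_pow_eq (e : ℕ) (he : ‖lf_unif K‖ = ‖lf_unif L‖ ^ e) :
    unr_resCard L ^ e = unr_resCard K ^ Module.finrank K L := by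
  rw [← lef_ball_relIndex K L]
  have h1 : lef_lat (lef_coL L) (algebraMap K L (lf_unif K))
      = lef_lat (lef_coL L) (1 * lf_unif L ^ e) := by
    apply lef_lat_congr
    rw [lf_norm_algebraMap, one_mul, norm_pow]
    exact he
  rw [h1, lef_lat_relIndex_pow (lef_coL L) 1 one_ne_zero, Nat.card_unique, pow_one]

/-- `Q' = Q ^ f`. -/
theorem lef_exists_f : ∃ f : ℕ, unr_resCard L = unr_resCard K ^ f := by
  have hn : ∀ k : K, ‖algebraMap K L k‖ = ‖k‖ := fun k => lf_norm_algebraMap k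
  have := unr_isLocalHom_mapInt (K := K) (L := L) hn
  let _ : Algebra (lef_k K) (lef_k L) :=
    (IsLocalRing.ResidueField.map (unr_mapInt (K := K) (L := L) hn)).toAlgebra
  have : Finite (lef_k L) := unr_lf_finite_residue' L
  have : Module.Finite (lef_k K) (lef_k L) := Module.Finite.of_finite
  exact ⟨Module.finrank (lef_k K) (lef_k L),
    Module.natCard_eq_pow_finrank (K := lef_k K) (V := lef_k L)⟩

/-- **The fundamental identity** `e f = [L : K]` for an extension of local fields. -/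
theorem lef_ef : ∃ e f : ℕ, ‖lf_unif K‖ = ‖lf_unif L‖ ^ e ∧
    unr_resCard L = unr_resCard K ^ f ∧ e * f = Module.finrank K L := by
  obtain ⟨e, he⟩ := lef_exists_e K L
  obtain ⟨f, hf⟩ := lef_exists_f K L
  refine ⟨e, f, he, hf, ?_⟩
  have h := lef_pow_eq K L e he
  rw [hf, ← pow_mul] at h
  have h2 := Nat.pow_right_injective (unr_resCard_ge_two K) h
  rw [← h2, mul_comm]

end Ext

end Fermat.Agent.S55
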