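/-
S55 (wave 5), LOCAL side, leaf [EF]: the fundamental identity `e f = [U : U']` for open
subgroups `U' ≤ U` of the local Galois group (absolute form).
Owner: helper25.  Prefix `lef_`.
-/
import Fermat.Agent.S55.Local.EFMain
import Fermat.Agent.S55.Local.SplitDefs
import Fermat.Agent.S55.Local.InvLeaves
import Fermat.Agent.S55.UnrAbs1

set_option autoImplicit false
set_option linter.unusedSectionVars false
set_option linter.style.haveILetI false

noncomputable section

namespace Fermat.Agent.S55

open scoped BigOperators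

/-- two generators `< 1` of the same value group are equal. -/
theorem lef_eq_of_zpow {a b : ℝ} (ha0 : 0 < a) (ha1 : a < 1) (hb0 : 0 < b) (hb1 : b < 1)
    (m k : ℤ) (h1 : a = b ^ m) (h2 : b = a ^ k) : a = b := by
  have h3 : a ^ (1 : ℤ) = a ^ (k * m) := by
    rw [zpow_one, zpow_mul, ← h2, ← h1]
  have h4 : (1 : ℤ) = k * m := zpow_right_injective₀ ha0 ha1.ne h3
  have hm : m = 1 ∨ m = -1 := by
    have : m * k = 1 := by rw [mul_comm]; exact h4.symm
    exact Int.eq_one_or_neg_one_of_mul_eq_one this
  rcases hm with rfl | rfl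
  · rw [h1, zpow_one]
  · exfalso
    rw [zpow_neg, zpow_one] at h1
    have : 1 < a := by
      rw [h1]
      exact (one_lt_inv₀ hb0).mpr hb1
    exact absurd ha1 (not_lt.2 this.le)

section Abs

variable {q : ℕ} [Fact q.Prime]

theorem lef_isOpen_of_le {U U' : Subgroup (lcf_Gal q)} (h : U' ≤ U) (hU' : lcf_IsOpen U') :
    lcf_IsOpen U := by
  obtain ⟨E, hE, hEU⟩ := hU'
  exact ⟨E, hE, hEU.trans h⟩

theorem lef_mem_fixedField (U : Subgroup (lcf_Gal q)) (x : (PadicAlgCl q)ˣ)
    (hx : ∀ g : ↥U, g • x = x) : (x : PadicAlgCl q) ∈ IntermediateField.fixedField U := by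
  intro g
  have := congrArg (fun u : (PadicAlgCl q)ˣ => (u : PadicAlgCl q)) (hx g)
  exact this

/-- the norm of a uniformizer of `U` is the norm of the chosen uniformizer of the fixed
field. -/
theorem lef_norm_unif (U : Subgroup (lcf_Gal q)) (hU : lcf_IsOpen U) (ϖ : (PadicAlgCl q)ˣ)
    (hϖ : lcf_IsUnif U ϖ) :
    haveI := unr_abs_finite U hU
    ‖(ϖ : PadicAlgCl q)‖ = ‖lf_unif ↥(IntermediateField.fixedField U)‖ := by
  haveI := unr_abs_finite U hU
  obtain ⟨hfix, hlt, hgen⟩ := hϖ
  have hmem := lef_mem_fixedField U ϖ hfix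
  have hne : (⟨(ϖ : PadicAlgCl q), hmem⟩ : ↥(IntermediateField.fixedField U)) ≠ 0 := by
    intro h
    have := congrArg (fun u : ↥(IntermediateField.fixedField U) => (u : PadicAlgCl q)) h
    exact ϖ.ne_zero this
  obtain ⟨m, hm⟩ := lf_exists_norm_eq_zpow hne
  have hπ0 : ((lf_unif ↥(IntermediateField.fixedField U) : ↥(IntermediateField.fixedField U)) :
      PadicAlgCl q) ≠ 0 := by
    intro h
    apply lf_unif_ne_zero ↥(IntermediateField.fixedField U)
    exact Subtype.ext h
  obtain ⟨k, hk⟩ := hgen (Units.mk0 _ hπ0) (by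
    intro g
    apply Units.ext
    exact (lf_unif ↥(IntermediateField.fixedField U)).2 g)
  exact lef_eq_of_zpow (norm_pos_iff.mpr ϖ.ne_zero) hlt
    (lf_norm_unif_pos _) (lf_norm_unif_lt_one _) m k hm hk

/-- **[EF]** in the form of `SplitDefs.lean`. -/
theorem lef_main : spl_EFStatement := by
  intro q _ U U' hle hU' ϖ ϖ' hϖ hϖ'
  have hU : lcf_IsOpen U := lef_isOpen_of_le hle hU'
  haveI := unr_abs_finite U hU
  haveI := unr_abs_finite U' hU'
  have hKL : IntermediateField.fixedField U ≤ IntermediateField.fixedField U' :=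
    IntermediateField.fixedField_antitone hle
  letI alg : Algebra ↥(IntermediateField.fixedField U) ↥(IntermediateField.fixedField U') :=
    (IntermediateField.inclusion hKL).toRingHom.toAlgebra
  haveI tower : IsScalarTower ℚ_[q] ↥(IntermediateField.fixedField U)
      ↥(IntermediateField.fixedField U') :=
    IsScalarTower.of_algebraMap_eq fun x => rfl
  haveI fin : FiniteDimensional ↥(IntermediateField.fixedField U)
      ↥(IntermediateField.fixedField U') :=
    FiniteDimensional.right ℚ_[q] _ _
  haveI ext : lf_IsLocalExt ↥(IntermediateField.fixedField U)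
      ↥(IntermediateField.fixedField U') :=
    { finite := fin
      norm_algebraMap := fun _ => rfl }
  obtain ⟨e, f, he, hf, hef⟩ := lef_ef ↥(IntermediateField.fixedField U)
    ↥(IntermediateField.fixedField U')
  refine ⟨e, f, ?_, hf, ?_⟩
  · rw [lef_norm_unif U hU ϖ hϖ, lef_norm_unif U' hU' ϖ' hϖ']
    exact he
  · rw [hef]
    have hK : Module.finrank ℚ_[q] ↥(IntermediateField.fixedField U) = U.index := by
      rw [IntermediateField.finrank_eq_fixingSubgroup_index (PadicAlgCl q)
        (IntermediateField.fixedField U),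
        unr_abs_fixing_fixed U hU]
    have hL : Module.finrank ℚ_[q] ↥(IntermediateField.fixedField U') = U'.index := by
      rw [IntermediateField.finrank_eq_fixingSubgroup_index (PadicAlgCl q)
        (IntermediateField.fixedField U'),
        unr_abs_fixing_fixed U' hU']
    have h1 := Module.finrank_mul_finrank ℚ_[q] ↥(IntermediateField.fixedField U)
      ↥(IntermediateField.fixedField U')
    rw [hK, hL] at h1
    have h2 := Subgroup.relIndex_mul_index hle
    have h3 : U.index ≠ 0 := by
      rw [← hK]
      exact Module.finrank_pos.ne'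
    rw [← h1, mul_comm] at h2
    exact (Nat.eq_of_mul_eq_mul_left (Nat.pos_of_ne_zero h3) h2).symm

/-- **[EF]** in the form of `InvLeaves.lean`. -/
theorem lef_main' : lcf_EFStatement := lef_main

end Abs

end Fermat.Agent.S55
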