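/-
S55 (wave 5), LOCAL side, package (SP5) [COUNT] of [SPLIT] in the shape of `SplitDefs.lean`:
the classes inflated from `U/U'` have a set of at most `[U : U']` representatives.
Owner: helper2.  Prefix `splc_`.

EXPORTS (hypothesis-free):
* `splc_count : spl_CountStatement`          (VERBATIM the Prop of `SplitDefs.lean`);
* `splc_gen   : spl_IsInfl`-form of `splc_main` (an inflated class of exact order `[U : U']`
  generates all inflated classes).
-/
import Fermat.Agent.S55.Local.SplCount
import Fermat.Agent.S55.Local.SplitDefs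

set_option autoImplicit false
set_option linter.unusedSectionVars false
set_option linter.unusedVariables false
set_option linter.style.longLine false
set_option linter.style.haveILetI false

noncomputable section

namespace Fermat.Agent.S55

open groupCohomology

attribute [local instance] l3d_galAct

/-- Generic form: a finite `H²` has a finite set of cocycle representatives. -/
theorem splc_generic_reps {G A : Type*} [Group G] [AddCommGroup A] [DistribMulAction G A]
    (hfin : Finite (fg_H2 G A)) :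
    ∃ T : Finset (G × G → A), T.card ≤ Nat.card (fg_H2 G A) ∧ (∀ r ∈ T, IsCocycle₂ r) ∧
      ∀ c : G × G → A, IsCocycle₂ c → ∃ r ∈ T, IsCoboundary₂ (c - r) := by
  classical
  haveI : Fintype (fg_H2 G A) := Fintype.ofFinite _
  choose rep hrep using fun x : fg_H2 G A => fg_H2mk_surjective x
  refine ⟨Finset.univ.image (fun x => ((rep x : fg_Z2 G A) : G × G → A)), ?_, ?_, ?_⟩
  · refine (Finset.card_image_le).trans ?_
    rw [Finset.card_univ, Nat.card_eq_fintype_card]
  · intro r hr
    obtain ⟨x, _, rfl⟩ := Finset.mem_image.1 hr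
    exact (rep x).2
  · intro c hc
    refine ⟨((rep (fg_H2mk G A ⟨c, hc⟩) : fg_Z2 G A) : G × G → A),
      Finset.mem_image.2 ⟨_, Finset.mem_univ _, rfl⟩, ?_⟩
    have h0 : fg_H2mk G A (⟨c, hc⟩ - rep (fg_H2mk G A ⟨c, hc⟩)) = 0 := by
      rw [map_sub, hrep, sub_self]
    rw [fg_H2mk_eq_zero_iff] at h0
    exact h0

variable {q : ℕ} [Fact q.Prime] {U U' : Subgroup (lcf_Gal q)}

theorem splc_isInfl_iff (f : ↥U × ↥U → (PadicAlgCl q)ˣ) :
    spl_IsInfl U U' f ↔ splc_IsInfl U U' f := Iff.rfl

/-- **(SP5) [COUNT]**, VERBATIM the Prop of `SplitDefs.lean`. -/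
theorem splc_count : spl_CountStatement := by
  classical
  intro q _ U U' hU' hn
  have H : splc_Hyp U U' := ⟨hn.1, hU', hn.2⟩
  have hN : U'.relIndex U ≠ 0 := by
    rw [← splc_finrank H]
    haveI := splc_finite H
    exact Module.finrank_pos.ne'
  have hdvd := splc_card_dvd H
  have hc0 : Nat.card (fg_H2 (↥(splc_F H.le) ≃ₐ[↥(splc_K U)] ↥(splc_F H.le))
      (Additive (↥(splc_F H.le))ˣ)) ≠ 0 :=
    fun h => hN (by rw [h] at hdvd; exact zero_dvd_iff.1 hdvd)
  obtain ⟨T, hTcard, hTcoc, hT⟩ := splc_generic_reps (Nat.finite_of_card_ne_zero hc0)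
  refine ⟨T.image (fun r p => Additive.toMul (fgI_inf₂ (splc_D H) r p)), ?_, ?_⟩
  · exact (Finset.card_image_le).trans (hTcard.trans (Nat.le_of_dvd (Nat.pos_of_ne_zero hN) hdvd))
  · intro f hf hif
    obtain ⟨cf, hcf, ef⟩ := splc_exists_of_infl H hf.1 hif
    obtain ⟨r, hr, hcob⟩ := hT cf hcf
    refine ⟨_, Finset.mem_image.2 ⟨r, hr, rfl⟩, ?_⟩
    have h1 := splc_isCob_of_isCoboundary H hcob
    have h2 : (fun p => Additive.toMul (fgI_inf₂ (splc_D H) (cf - r) p)) =
        f / (fun p => Additive.toMul (fgI_inf₂ (splc_D H) r p)) := by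
      funext p
      obtain ⟨g, h⟩ := p
      show Additive.toMul ((splc_D H).ι (cf ((splc_D H).π g, (splc_D H).π h) -
        r ((splc_D H).π g, (splc_D H).π h))) =
          f (g, h) / Additive.toMul ((splc_D H).ι (r ((splc_D H).π g, (splc_D H).π h)))
      rw [map_sub, ← fgI_inf₂_apply, ← ef]
      rfl
    rw [h2] at h1
    exact h1

/-- `splc_main` in the language of `SplitDefs.lean`: an inflated class of exact order
`[U : U']` generates all inflated classes. -/
theorem splc_gen (q : ℕ) [Fact q.Prime] (U U' : Subgroup (lcf_Gal q)) (hU' : lcf_IsOpen U')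
    (hn : spl_IsNormalIn U U') (c₀ f : ↥U × ↥U → (PadicAlgCl q)ˣ) (hc₀ : IsMulCocycle₂ c₀)
    (hi₀ : spl_IsInfl U U' c₀) (hf : IsMulCocycle₂ f) (hif : spl_IsInfl U U' f)
    (hord : ∀ k : ℕ, lcf_IsCob U (c₀ ^ k) → U'.relIndex U ∣ k) :
    ∃ k : ℕ, lcf_IsCob U (f / c₀ ^ k) :=
  splc_main q U U' hU' hn.1 hn.2 c₀ f hc₀ hi₀ hf hif hord

end Fermat.Agent.S55
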