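/-
S55 (wave 5), LOCAL side, package [A8] = [SPLIT], leaf [LEVEL]: every smooth 2-cocycle of an open
subgroup `U` is inflated from a finite quotient `U / U'`, `U'` open and normal.
Owner: helper22.  Prefix `spll_`.

Proof.  Let `f` be right-invariant under `Gal(Ω/E)`, and `Gal(Ω/E₀) ≤ U`.  Let `N` be a finite
normal extension of `ℚ_q` containing `E` and `E₀`, and `U' = Gal(Ω/N)`; it is normal in the whole
Galois group.  For `s ∈ U'` the cocycle identity for `(s, g, h)` reads
`f (s g, h) f (s, g) = s • f (g, h) f (s, g h)`; here `f (s g, h) = f (g (g⁻¹ s g), h) = f (g, h)`,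
`f (s, g) = f (1, g) = f (1, 1)` and `f (s, g h) = f (1, g h) = f (1, 1)`, whence
`s • f (g, h) = f (g, h)`.
-/
import Fermat.Agent.S55.Local.SplitDefs
import Fermat.Agent.S55.Local.H3Mu

set_option autoImplicit false

noncomputable section

namespace Fermat.Agent.S55

open groupCohomology

/-- A cocycle which is right-invariant under the fixing subgroup of a finite normal `N`
(with `Gal(Ω/N) ≤ U`) has its values fixed by `Gal(Ω/N)`. -/
theorem spll_fixed {q : ℕ} [Fact q.Prime] {U : Subgroup (lcf_Gal q)}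
    (N : IntermediateField ℚ_[q] (PadicAlgCl q)) [Normal ℚ_[q] N]
    {f : ↥U × ↥U → (PadicAlgCl q)ˣ} (hcoc : IsMulCocycle₂ f)
    (hsm : ∀ g h s s' : ↥U, (s : lcf_Gal q) ∈ N.fixingSubgroup →
      (s' : lcf_Gal q) ∈ N.fixingSubgroup → f (g * s, h * s') = f (g, h))
    (g h s : ↥U) (hs : (s : lcf_Gal q) ∈ N.fixingSubgroup) : s • f (g, h) = f (g, h) := by
  have h1 : ∀ x : ↥U, f (1, x) = f (1, 1) := by
    intro x
    have := hcoc 1 1 x
    simp only [mul_one, one_mul, one_smul] at this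
    exact (mul_left_cancel this).symm
  have h2 : f (s * g, h) = f (g, h) := by
    have hs' : ((g⁻¹ * s * g : ↥U) : lcf_Gal q) ∈ N.fixingSubgroup :=
      lh3m_conj_mem N (g : lcf_Gal q) (s : lcf_Gal q) hs
    have := hsm g h (g⁻¹ * s * g) 1 hs' (one_mem _)
    rw [mul_one] at this
    rw [← this]
    congr 2
    group
  have h3 : ∀ x : ↥U, f (s, x) = f (1, x) := by
    intro x
    have := hsm 1 x s 1 hs (one_mem _)
    simpa using this
  have h4 := hcoc s g h
  rw [h2, h3, h3, h1 g, h1 (g * h)] at h4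
  exact (mul_right_cancel h4).symm

/-- **[LEVEL]** -/
theorem spll_main : spl_LevelStatement := by
  intro q _ U hU f hf
  obtain ⟨hcoc, E, hE, hsm⟩ := hf
  obtain ⟨E₀, hE₀, hE₀U⟩ := hU
  have : FiniteDimensional ℚ_[q] ↥E := hE
  have : FiniteDimensional ℚ_[q] ↥E₀ := hE₀
  obtain ⟨N, hNfin, hNnorm, hEN, -⟩ := lh3m_exists_normal (E ⊔ E₀)
    (IntermediateField.finiteDimensional_sup E E₀) ∅ Set.finite_empty
  have hNE : N.fixingSubgroup ≤ E.fixingSubgroup :=
    IntermediateField.fixingSubgroup_antitone (le_sup_left.trans hEN)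
  have hNU : N.fixingSubgroup ≤ U :=
    (IntermediateField.fixingSubgroup_antitone (le_sup_right.trans hEN)).trans hE₀U
  have hconj : ∀ g s : lcf_Gal q, s ∈ N.fixingSubgroup → g * s * g⁻¹ ∈ N.fixingSubgroup := by
    intro g s hs
    have := lh3m_conj_mem N g⁻¹ s hs
    simpa using this
  have hsm' : ∀ g h s s' : ↥U, (s : lcf_Gal q) ∈ N.fixingSubgroup →
      (s' : lcf_Gal q) ∈ N.fixingSubgroup → f (g * s, h * s') = f (g, h) :=
    fun g h s s' hs hs' => hsm g h s s' (hNE hs) (hNE hs')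
  exact ⟨N.fixingSubgroup, ⟨N, hNfin, le_rfl⟩, ⟨hNU, fun g _ s hs => hconj g s hs⟩, hsm',
    fun g h s hs => spll_fixed N hcoc hsm' g h s hs⟩

end Fermat.Agent.S55
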