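import Mathlib
import Fermat.Agent.S55.Local.SplitDefs
import Fermat.Agent.S55.UnrAbs6

/-!
S55, LOCAL side, package [SPLIT], leaf **[UNR-UNIQ]**: a smooth character of `U` into a finite
cyclic group which is trivial on inertia and on a Frobenius element is trivial.  Consequently a
smooth character which is trivial on inertia is determined by its value at a Frobenius element.
-/

set_option autoImplicit false

namespace Fermat.Agent.S55

section UnrUniq

variable {q : ℕ} [Fact q.Prime]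

/-- the kernel of a smooth character of an open subgroup is open. -/
theorem unr_abs_ker_isOpen {X : Type*} [Group X] (U : Subgroup (lcf_Gal q)) (hU : lcf_IsOpen U)
    (χ : ↥U →* X) (hχ : lcf_Smooth₁ U χ) : lcf_IsOpen (χ.ker.map U.subtype) := by
  obtain ⟨E₀, hE₀, hE₀U⟩ := hU
  obtain ⟨E, hE, hsm⟩ := hχ
  refine ⟨E ⊔ E₀, inferInstance, ?_⟩
  intro s hs
  have hs0 : s ∈ E₀.fixingSubgroup :=
    IntermediateField.fixingSubgroup_antitone (le_sup_right : E₀ ≤ E ⊔ E₀) hs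
  have hs1 : s ∈ E.fixingSubgroup :=
    IntermediateField.fixingSubgroup_antitone (le_sup_left : E ≤ E ⊔ E₀) hs
  refine ⟨⟨s, hE₀U hs0⟩, ?_, rfl⟩
  rw [SetLike.mem_coe, MonoidHom.mem_ker]
  have := hsm 1 ⟨s, hE₀U hs0⟩ hs1
  rw [one_mul, map_one] at this
  exact this

/-- general form of [UNR-UNIQ], for characters with values in any group. -/
theorem unr_abs_unrUniq {X : Type*} [Group X] (U : Subgroup (lcf_Gal q)) (hU : lcf_IsOpen U)
    (χ : ↥U →* X) (φ : ↥U) (hχ : lcf_Smooth₁ U χ)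
    (hin : ∀ s : ↥U, lcf_IsInert (s : lcf_Gal q) → χ s = 1)
    (hφ : lcf_IsFrob U φ) (hχφ : χ φ = 1) (g : ↥U) : χ g = 1 := by
  have hU₁ := unr_abs_ker_isOpen U hU χ hχ
  have hle : IntermediateField.fixedField (χ.ker.map U.subtype)
      ≤ IntermediateField.fixedField U := by
    intro x hx
    have hx' : ∀ s : ↥U, χ s = 1 → (s : lcf_Gal q) x = x := by
      intro s hs
      exact hx ⟨(s : lcf_Gal q), ⟨s, hs, rfl⟩⟩
    intro g
    exact unr_abs_fixed_of_frob U hU φ hφ x (fun s hs => hx' s (hin s hs)) (hx' φ hχφ) ⟨g, g.2⟩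
  have h1 : (g : lcf_Gal q) ∈ (IntermediateField.fixedField (χ.ker.map U.subtype)).fixingSubgroup := by
    refine IntermediateField.fixingSubgroup_antitone hle ?_
    rw [unr_abs_fixing_fixed U hU]
    exact g.2
  rw [unr_abs_fixing_fixed _ hU₁] at h1
  obtain ⟨g', hg', hgg'⟩ := h1
  have : g' = g := Subtype.ext hgg'
  rw [← this]
  exact hg'

/-- **uniqueness of unramified characters**: two smooth characters (with values in a commutative
group) which are trivial on inertia and agree at a Frobenius element are equal. -/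
theorem unr_abs_unrChar_unique {X : Type*} [CommGroup X] (U : Subgroup (lcf_Gal q))
    (hU : lcf_IsOpen U) (χ₁ χ₂ : ↥U →* X) (φ : ↥U) (h₁ : lcf_Smooth₁ U χ₁)
    (h₂ : lcf_Smooth₁ U χ₂)
    (hin₁ : ∀ s : ↥U, lcf_IsInert (s : lcf_Gal q) → χ₁ s = 1)
    (hin₂ : ∀ s : ↥U, lcf_IsInert (s : lcf_Gal q) → χ₂ s = 1)
    (hφ : lcf_IsFrob U φ) (hχφ : χ₁ φ = χ₂ φ) : χ₁ = χ₂ := by
  have hsm : lcf_Smooth₁ U (χ₁ / χ₂) := by
    obtain ⟨E₁, hE₁, hs₁⟩ := h₁
    obtain ⟨E₂, hE₂, hs₂⟩ := h₂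
    refine ⟨E₁ ⊔ E₂, inferInstance, fun g s hs => ?_⟩
    have e1 := hs₁ g s (IntermediateField.fixingSubgroup_antitone (le_sup_left : E₁ ≤ E₁ ⊔ E₂) hs)
    have e2 := hs₂ g s
      (IntermediateField.fixingSubgroup_antitone (le_sup_right : E₂ ≤ E₁ ⊔ E₂) hs)
    rw [MonoidHom.div_apply, MonoidHom.div_apply, e1, e2]
  ext g
  have := unr_abs_unrUniq U hU (χ₁ / χ₂) φ hsm
    (fun s hs => by rw [MonoidHom.div_apply, hin₁ s hs, hin₂ s hs, div_one]) hφ
    (by rw [MonoidHom.div_apply, hχφ, div_self']) g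
  rw [MonoidHom.div_apply, div_eq_one] at this
  exact this

/-- every element of `U` agrees with a power of the Frobenius on any given element of `Ω`
which is fixed by inertia. -/
theorem unr_abs_exists_frob_pow (U : Subgroup (lcf_Gal q)) (hU : lcf_IsOpen U) (φ : ↥U)
    (hφ : lcf_IsFrob U φ) (x : PadicAlgCl q)
    (hx : ∀ s : ↥U, lcf_IsInert (s : lcf_Gal q) → (s : lcf_Gal q) x = x) (g : ↥U) :
    ∃ j : ℕ, (g : lcf_Gal q) x = ((φ ^ j : ↥U) : lcf_Gal q) x := by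
  have hfin := unr_abs_finite U hU
  obtain ⟨M, ξ, hM, hξ, hmem⟩ := unr_abs_mem_adjoin_root U hU x hx
  obtain ⟨σ, hσ⟩ := unr_abs_exists_over_K U g
  obtain ⟨j, hj⟩ := (unr_abs_finite_level (IntermediateField.fixedField U) M hM ξ hξ).2 σ
  have h1 : (g : lcf_Gal q) ξ = ξ ^ (lcf_resCard U ^ j) := by
    rw [← hσ]; exact hj
  have h2 := unr_abs_frob_pow_root U φ hφ M hM ξ hξ.pow_eq_one j
  have h3 : (((φ ^ j)⁻¹ * g : ↥U) : lcf_Gal q) ξ = ξ := by
    rw [Subgroup.coe_mul, AlgEquiv.mul_apply, h1, ← h2, Subgroup.coe_inv]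
    exact AlgEquiv.symm_apply_apply ((φ ^ j : ↥U) : lcf_Gal q) ξ
  have h4 := unr_abs_fix_adjoin U ((φ ^ j)⁻¹ * g) ξ x h3 hmem
  rw [Subgroup.coe_mul, AlgEquiv.mul_apply, Subgroup.coe_inv] at h4
  refine ⟨j, ?_⟩
  have h6 := congrArg ((φ ^ j : ↥U) : lcf_Gal q) h4
  have h7 : ((φ ^ j : ↥U) : lcf_Gal q) ((((φ ^ j : ↥U) : lcf_Gal q))⁻¹ ((g : lcf_Gal q) x))
      = (g : lcf_Gal q) x :=
    AlgEquiv.apply_symm_apply ((φ ^ j : ↥U) : lcf_Gal q) ((g : lcf_Gal q) x)
  exact h7.symm.trans h6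

end UnrUniq

/-- **[UNR-UNIQ]** -/
theorem unr_unrUniq_main : spl_UnrUniqStatement := by
  intro q _ U hU n _ χ φ hχ hin hφ hχφ g
  exact unr_abs_unrUniq U hU χ φ hχ hin hφ hχφ g

end Fermat.Agent.S55
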