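import Fermat.Agent.S55.Local.SymNorm
import Fermat.Agent.S55.Local.H90

set_option autoImplicit false

/-!
# S55 local side: [SYM-NORM], hypothesis-free

`sym_norm_main : lcf_SymNormStatement`, from `sym_norm` and the smooth Hilbert 90 `lh90_main`.
-/

namespace Fermat.Agent.S55

/-- **[SYM-NORM]** the norm residue property of the symbol `a ^ δθ`. -/
theorem sym_norm_main : lcf_SymNormStatement := sym_norm lh90_main

end Fermat.Agent.S55
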