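/-
S55 (wave 5), LOCAL side, package [A8] = [SPLIT]: the assembly
`spl_main_of : <leaves> → lcf_SplitStatement`.  Owner: helper22.  Prefix `spl_`.

Proof.  Let `f` be a smooth 2-cocycle of `U`.  By [LEVEL] it is inflated from `U / U'` for an
open subgroup `U'`, normal in `U`; put `N = [U : U']`.  Let `c = ϖ ^ δθ` be the unramified class
of order `N` of `U`.  By [RES-UNR] its restriction to `U'` is cohomologous to
`(ϖ' ^ δθ') ^ N = (ϖ' ^ N) ^ δθ'`, which is a coboundary since `ϖ' ^ N` is the norm of `ϖ'`.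
By [INF-RES-MID] `c` is cohomologous to a cocycle `c₁` inflated from `U / U'`.  By [UNR-INJ] the
powers `c₁ ^ i`, `i < N`, are pairwise not cohomologous; by [COUNT] there are at most `N` classes
of inflated cocycles.  Hence every inflated cocycle, in particular `f`, is cohomologous to a
power of `c₁`, hence to a power of `c`.  (The last step is taken in the form `spl_GenStatement`,
which follows from the counting form `spl_CountStatement` by `spl_gen_of_count`.)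
-/
import Fermat.Agent.S55.Local.SplitDefs
import Fermat.Agent.S55.Local.InvLeaves
import Fermat.Agent.S55.Local.SymMain
import Fermat.Agent.S55.Local.Kummer
import Fermat.Agent.S55.Local.H90
import Fermat.Agent.S55.UnrAbs1

set_option autoImplicit false

noncomputable section

namespace Fermat.Agent.S55

open groupCohomology

variable {q : ℕ} [Fact q.Prime] {U : Subgroup (lcf_Gal q)}

/-! ### Identities in commutative groups -/

theorem spl_aux_mul_add {A : Type*} [AddCommGroup A] (a b c a' b' c' : A) :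
    (a + a') - (b + b') + (c + c') = (a - b + c) + (a' - b' + c') := by
  abel

theorem spl_aux_mul {G : Type*} [CommGroup G] (a b c a' b' c' : G) :
    (a * a') / (b * b') * (c * c') = (a / b * c) * (a' / b' * c') :=
  spl_aux_mul_add (A := Additive G) (Additive.ofMul a) (Additive.ofMul b) (Additive.ofMul c)
    (Additive.ofMul a') (Additive.ofMul b') (Additive.ofMul c')

theorem spl_aux_inv_add {A : Type*} [AddCommGroup A] (a b c : A) :
    (-a) - (-b) + (-c) = -(a - b + c) := by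
  abel

theorem spl_aux_inv {G : Type*} [CommGroup G] (a b c : G) :
    a⁻¹ / b⁻¹ * c⁻¹ = (a / b * c)⁻¹ :=
  spl_aux_inv_add (A := Additive G) (Additive.ofMul a) (Additive.ofMul b) (Additive.ofMul c)

/-! ### Smooth cochains, coboundaries, cocycles, inflated cochains: closure properties -/

theorem spl_smooth₁_one : lcf_Smooth₁ U (1 : ↥U → (PadicAlgCl q)ˣ) :=
  ⟨⊥, inferInstance, fun _ _ _ => rfl⟩

theorem spl_isCob_one : lcf_IsCob U (1 : ↥U × ↥U → (PadicAlgCl q)ˣ) :=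
  ⟨1, spl_smooth₁_one, fun g h => by simp⟩

theorem spl_isCob_mul {f f' : ↥U × ↥U → (PadicAlgCl q)ˣ} (hf : lcf_IsCob U f)
    (hf' : lcf_IsCob U f') : lcf_IsCob U (f * f') := by
  obtain ⟨b, hb, e⟩ := hf
  obtain ⟨b', hb', e'⟩ := hf'
  refine ⟨b * b', lkum_smooth_mul hb hb', fun g h => ?_⟩
  simp only [Pi.mul_apply, smul_mul']
  rw [← e g h, ← e' g h]
  exact spl_aux_mul _ _ _ _ _ _

theorem spl_isCob_inv {f : ↥U × ↥U → (PadicAlgCl q)ˣ} (hf : lcf_IsCob U f) :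
    lcf_IsCob U f⁻¹ := by
  obtain ⟨b, hb, e⟩ := hf
  refine ⟨b⁻¹, lkum_smooth_inv hb, fun g h => ?_⟩
  simp only [Pi.inv_apply, smul_inv']
  rw [← e g h]
  exact spl_aux_inv _ _ _

theorem spl_isCob_div {f f' : ↥U × ↥U → (PadicAlgCl q)ˣ} (hf : lcf_IsCob U f)
    (hf' : lcf_IsCob U f') : lcf_IsCob U (f / f') := by
  rw [div_eq_mul_inv]
  exact spl_isCob_mul hf (spl_isCob_inv hf')

theorem spl_isCob_pow {f : ↥U × ↥U → (PadicAlgCl q)ˣ} (hf : lcf_IsCob U f) (k : ℕ) :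
    lcf_IsCob U (f ^ k) := by
  induction k with
  | zero => rw [pow_zero]; exact spl_isCob_one
  | succ k ih => rw [pow_succ]; exact spl_isCob_mul ih hf

theorem spl_isMulCocycle₂_pow {f : ↥U × ↥U → (PadicAlgCl q)ˣ} (hf : IsMulCocycle₂ f) (k : ℕ) :
    IsMulCocycle₂ (f ^ k) := by
  intro g h j
  simp only [Pi.pow_apply]
  rw [← mul_pow, hf g h j, mul_pow, smul_pow']

theorem spl_smooth₂_pow {f : ↥U × ↥U → (PadicAlgCl q)ˣ} (hf : lcf_Smooth₂ U f) (k : ℕ) :
    lcf_Smooth₂ U (f ^ k) := by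
  obtain ⟨E, hE, h⟩ := hf
  exact ⟨E, hE, fun g g' s s' hs hs' => by
    simp only [Pi.pow_apply]
    rw [h g g' s s' hs hs']⟩

theorem spl_isCoc_pow {f : ↥U × ↥U → (PadicAlgCl q)ˣ} (hf : lcf_IsCoc U f) (k : ℕ) :
    lcf_IsCoc U (f ^ k) :=
  ⟨spl_isMulCocycle₂_pow hf.1 k, spl_smooth₂_pow hf.2 k⟩

theorem spl_isInfl_pow {U' : Subgroup (lcf_Gal q)} {f : ↥U × ↥U → (PadicAlgCl q)ˣ}
    (hf : spl_IsInfl U U' f) (k : ℕ) : spl_IsInfl U U' (f ^ k) := by
  refine ⟨fun g h s s' hs hs' => ?_, fun g h s hs => ?_⟩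
  · simp only [Pi.pow_apply]
    rw [hf.1 g h s s' hs hs']
  · simp only [Pi.pow_apply]
    rw [smul_pow', hf.2 g h s hs]

/-! ### Finiteness of the index -/

theorem spl_relIndex_ne_zero {U' : Subgroup (lcf_Gal q)} (hU' : lcf_IsOpen U')
    (U : Subgroup (lcf_Gal q)) (hle : U' ≤ U) : U'.relIndex U ≠ 0 := by
  have h1 : Finite (lcf_Gal q ⧸ U') :=
    Subgroup.quotient_finite_of_isOpen U' (unr_abs_isOpen U' hU')
  have h2 : U'.index ≠ 0 := Subgroup.index_ne_zero_of_finite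
  exact fun h0 => h2 (Nat.eq_zero_of_zero_dvd (h0 ▸ Subgroup.relIndex_dvd_index_of_le hle))

/-! ### The counting argument -/

/-- The counting argument: if the inflated classes have at most `N` representatives and `c₁` is
an inflated cocycle whose powers `c₁ ^ i` are a coboundary only for `N ∣ i`, then every inflated
cocycle is cohomologous to a power of `c₁`. -/
theorem spl_count {U' : Subgroup (lcf_Gal q)} {N : ℕ}
    (S : Finset (↥U × ↥U → (PadicAlgCl q)ˣ)) (hScard : S.card ≤ N)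
    (hS : ∀ f : ↥U × ↥U → (PadicAlgCl q)ˣ, lcf_IsCoc U f → spl_IsInfl U U' f →
      ∃ r ∈ S, lcf_IsCob U (f / r))
    (c₁ : ↥U × ↥U → (PadicAlgCl q)ˣ) (hc₁ : lcf_IsCoc U c₁) (hinfl : spl_IsInfl U U' c₁)
    (hord : ∀ k : ℕ, lcf_IsCob U (c₁ ^ k) → N ∣ k)
    (f : ↥U × ↥U → (PadicAlgCl q)ˣ) (hf : lcf_IsCoc U f) (hfinfl : spl_IsInfl U U' f) :
    ∃ k : ℕ, lcf_IsCob U (f / c₁ ^ k) := by
  classical
  -- representatives of the powers of `c₁`
  have hex : ∀ i : Fin N, ∃ r : ↥S, lcf_IsCob U (c₁ ^ (i : ℕ) / (r : ↥U × ↥U → (PadicAlgCl q)ˣ)) := by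
    intro i
    obtain ⟨r, hr, h⟩ := hS (c₁ ^ (i : ℕ)) (spl_isCoc_pow hc₁ _) (spl_isInfl_pow hinfl _)
    exact ⟨⟨r, hr⟩, h⟩
  choose ρ hρ using hex
  have hinj : Function.Injective ρ := by
    -- it is enough to treat `j ≤ i`
    have key : ∀ i j : Fin N, (j : ℕ) ≤ (i : ℕ) → ρ i = ρ j → i = j := by
      intro i j hji hij
      have h1 : lcf_IsCob U (c₁ ^ ((i : ℕ) - (j : ℕ))) := by
        have h2 := spl_isCob_div (hρ i) (hij ▸ hρ j)
        have h3 : c₁ ^ (i : ℕ) / (ρ i : ↥U × ↥U → (PadicAlgCl q)ˣ) /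
            (c₁ ^ (j : ℕ) / (ρ i : ↥U × ↥U → (PadicAlgCl q)ˣ)) = c₁ ^ ((i : ℕ) - (j : ℕ)) := by
          rw [div_div_div_cancel_right, div_eq_iff_eq_mul, ← pow_add, Nat.sub_add_cancel hji]
        rwa [h3] at h2
      have h4 := hord _ h1
      have h5 : (i : ℕ) - (j : ℕ) < N := lt_of_le_of_lt (Nat.sub_le _ _) i.2
      have h6 : (i : ℕ) - (j : ℕ) = 0 := Nat.eq_zero_of_dvd_of_lt h4 h5
      exact Fin.ext (by omega)
    intro i j hij
    rcases le_total (j : ℕ) (i : ℕ) with h | h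
    · exact key i j h hij
    · exact (key j i h hij.symm).symm
  have hsurj : Function.Surjective ρ := by
    have hle : Fintype.card ↥S ≤ Fintype.card (Fin N) := by
      rw [Fintype.card_fin, Fintype.card_coe]
      exact hScard
    exact (Function.Injective.bijective_of_nat_card_le hinj (by
      rw [Nat.card_eq_fintype_card, Nat.card_eq_fintype_card]; exact hle)).2
  obtain ⟨r, hr, h⟩ := hS f hf hfinfl
  obtain ⟨i, hi⟩ := hsurj ⟨r, hr⟩
  refine ⟨(i : ℕ), ?_⟩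
  have h1 := hρ i
  rw [hi] at h1
  have h2 := spl_isCob_div h h1
  have h3 : f / r / (c₁ ^ (i : ℕ) / r) = f / c₁ ^ (i : ℕ) := div_div_div_cancel_right _ _ _
  rwa [h3] at h2

/-! ### Inflated cochains are smooth -/

theorem spl_isInfl_smooth {U' : Subgroup (lcf_Gal q)} (hU' : lcf_IsOpen U')
    {f : ↥U × ↥U → (PadicAlgCl q)ˣ} (hf : spl_IsInfl U U' f) : lcf_Smooth₂ U f := by
  obtain ⟨E, hE, hEU'⟩ := hU'
  exact ⟨E, hE, fun g g' s s' hs hs' => hf.1 g g' s s' (hEU' hs) (hEU' hs')⟩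

/-! ### The generation statement -/

/-- **[COUNT], generation form** (this is the text of helper2's `splc_CountStatement`): an
inflated cocycle `c₀` whose powers `c₀ ^ k` are smooth coboundaries only for `[U : U'] ∣ k`
generates all inflated classes. -/
def spl_GenStatement : Prop :=
  ∀ (q : ℕ) [Fact q.Prime] (U U' : Subgroup (lcf_Gal q)), lcf_IsOpen U' → U' ≤ U →
    (∀ g ∈ U, ∀ s ∈ U', g * s * g⁻¹ ∈ U') →
    ∀ c₀ f : ↥U × ↥U → (PadicAlgCl q)ˣ, IsMulCocycle₂ c₀ → spl_IsInfl U U' c₀ →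
      IsMulCocycle₂ f → spl_IsInfl U U' f →
      (∀ k : ℕ, lcf_IsCob U (c₀ ^ k) → U'.relIndex U ∣ k) → ∃ k : ℕ, lcf_IsCob U (f / c₀ ^ k)

/-- The generation form of [COUNT] follows from the counting form by the pigeonhole principle. -/
theorem spl_gen_of_count (hCount : spl_CountStatement) : spl_GenStatement := by
  intro q _ U U' hU' hle hn c₀ f hc₀ hc₀i hf hfi hord
  obtain ⟨S, hScard, hS⟩ := hCount q U U' hU' ⟨hle, hn⟩
  exact spl_count S hScard hS c₀ ⟨hc₀, spl_isInfl_smooth hU' hc₀i⟩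
    hc₀i hord f ⟨hf, spl_isInfl_smooth hU' hfi⟩ hfi

/-! ### The assembly -/

/-- **[SPLIT] from its leaves.** -/
theorem spl_main_of (hLevel : spl_LevelStatement) (hMid : spl_InfResMidStatement)
    (hGen : spl_GenStatement) (hRes : lcf_ResUnrStatement) (hChar : lcf_UnrCharStatement)
    (hUnif : lcf_UnifStatement) (hInj : lcf_UnrInjStatement) : lcf_SplitStatement := by
  intro q _ U hU f hf
  obtain ⟨U', hU'open, hU'n, hfinfl⟩ := hLevel q U hU f hf
  have hle : U' ≤ U := hU'n.1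
  have hN : U'.relIndex U ≠ 0 := spl_relIndex_ne_zero hU'open U hle
  have : NeZero (U'.relIndex U) := ⟨hN⟩
  obtain ⟨θ, φ, hθs, hθi, hφ, hθφ⟩ := hChar q U hU (U'.relIndex U)
  obtain ⟨ϖ, hϖ⟩ := hUnif q U hU
  obtain ⟨θ', φ', hθ's, hθ'i, hφ', hθ'φ'⟩ := hChar q U' hU'open (U'.relIndex U)
  obtain ⟨ϖ', hϖ'⟩ := hUnif q U' hU'open
  have hres := hRes q U U' hle hU'open (U'.relIndex U) θ φ ϖ θ' φ' ϖ' ⟨hθs, hθi, hφ, hθφ, hϖ⟩
    ⟨hθ's, hθ'i, hφ', hθ'φ', hϖ'⟩
  -- `(ϖ' ^ δθ') ^ N` is a coboundary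
  have hc'N : lcf_IsCob U' ((lcf_unrCoc U' (U'.relIndex U) θ' ϖ') ^ (U'.relIndex U)) := by
    rw [sym_unrCoc_pow]
    refine sym_norm_mpr hθ's hθ'φ' (y := ϖ') (fun g _ => hϖ'.1 g) ?_
    have h1 : ∀ i ∈ Finset.range (U'.relIndex U), φ' ^ i • ϖ' = ϖ' := fun i _ => hϖ'.1 _
    rw [Finset.prod_congr rfl h1, Finset.prod_const, Finset.card_range]
  have hresc : lcf_IsCob U' (lcf_res hle (lcf_unrCoc U (U'.relIndex U) θ ϖ)) := by
    have h1 := spl_isCob_mul hres hc'N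
    rwa [div_mul_cancel] at h1
  have hcCoc : lcf_IsCoc U (lcf_unrCoc U (U'.relIndex U) θ ϖ) := sym_isCoc_unrCoc hθs hϖ.1
  obtain ⟨c₁, hc₁, hc₁infl, hcc₁⟩ := hMid q U U' hle hU'open hU'n _ hcCoc hresc
  -- the order of `c₁`
  have hord : ∀ k : ℕ, lcf_IsCob U (c₁ ^ k) → U'.relIndex U ∣ k := by
    intro k hk
    apply hInj q U hU (U'.relIndex U) θ φ ϖ k hθs hθi hφ hθφ hϖ
    have h1 := spl_isCob_mul (spl_isCob_pow hcc₁ k) hk
    rwa [div_pow, div_mul_cancel] at h1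
  obtain ⟨k, hk⟩ := hGen q U U' hU'open hle hU'n.2 c₁ f hc₁.1 hc₁infl hf.1 hfinfl hord
  refine ⟨U'.relIndex U, inferInstance, θ, φ, ϖ, k, hθs, hθi, hφ, hθφ, hϖ, ?_⟩
  have h1 := spl_isCob_div hk (spl_isCob_pow hcc₁ k)
  have h2 : f / c₁ ^ k / (lcf_unrCoc U (U'.relIndex U) θ ϖ / c₁) ^ k =
      f / (lcf_unrCoc U (U'.relIndex U) θ ϖ) ^ k := by
    rw [div_pow, div_div_div_cancel_right]
  rwa [h2] at h1

end Fermat.Agent.S55
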