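import Fermat.Agent.S55.Local.SymMain
import Fermat.Agent.S55.UnrAbs1

set_option autoImplicit false
set_option linter.style.haveILetI false
set_option linter.unusedSectionVars false

/-!
# S55 local side: auxiliary lemmas for [UNR-INJ]

* `uinj_dvd_of_pow_sub_one_dvd` : `(q ^ a - 1) ∣ (q ^ b - 1) → a ∣ b`;
* `uinj_frob_pow` : powers of a Frobenius-like automorphism;
* `uinj_inert` : two automorphisms inducing the same power map on the residue field differ by an
  inert automorphism;
* `uinj_resCard_pow`, `uinj_sub_one_dvd` : the residue field of a finite extension of `ℚ_q` has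
  `q ^ a` elements; if `x ↦ x ^ M` is the identity on it then `q ^ a - 1 ∣ M - 1`.
-/

noncomputable section

namespace Fermat.Agent.S55

section Arith

theorem uinj_dvd_of_pow_sub_one_dvd (q a b : ℕ) (hq : 2 ≤ q)
    (h : (q ^ a - 1) ∣ (q ^ b - 1)) : a ∣ b := by
  have h1 := Nat.pow_sub_one_gcd_pow_sub_one q a b
  rw [Nat.gcd_eq_left h] at h1
  have h2 : q ^ a = q ^ Nat.gcd a b := by
    have e1 : 1 ≤ q ^ a := Nat.one_le_pow _ _ (by omega)
    have e2 : 1 ≤ q ^ Nat.gcd a b := Nat.one_le_pow _ _ (by omega)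
    omega
  have h3 : a = Nat.gcd a b := Nat.pow_right_injective hq h2
  rw [h3]
  exact Nat.gcd_dvd_right a b

end Arith

section Frob

variable {q : ℕ} [Fact q.Prime]

/-- In the unit ball, `a ≡ b` implies `a ^ k ≡ b ^ k`. -/
theorem uinj_pow_sub_pow_lt (a b : PadicAlgCl q) (ha : ‖a‖ ≤ 1) (hb : ‖b‖ ≤ 1)
    (hab : ‖a - b‖ < 1) (k : ℕ) : ‖a ^ k - b ^ k‖ < 1 := by
  have h := unr_val_pow_sub_pow_le (NormedField.valuation (K := PadicAlgCl q)) a b
    ((unr_normed_val_le_one_iff a).2 ha) ((unr_normed_val_le_one_iff b).2 hb) k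
  rw [← unr_normed_val_lt_one_iff]
  exact lt_of_le_of_lt h ((unr_normed_val_lt_one_iff _).2 hab)

/-- Powers of a Frobenius-like automorphism. -/
theorem uinj_frob_pow (σ : lcf_Gal q) (N : ℕ)
    (h : ∀ x : PadicAlgCl q, ‖x‖ ≤ 1 → ‖σ x - x ^ N‖ < 1) (m : ℕ) :
    ∀ x : PadicAlgCl q, ‖x‖ ≤ 1 → ‖(σ ^ m) x - x ^ (N ^ m)‖ < 1 := by
  induction m with
  | zero =>
    intro x _
    rw [pow_zero, pow_zero, pow_one, AlgEquiv.one_apply, sub_self, norm_zero]
    exact zero_lt_one
  | succ m ih =>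
    intro x hx
    have hσx : ‖σ x‖ ≤ 1 := by rw [unr_abs_norm_map]; exact hx
    have hxN : ‖x ^ N‖ ≤ 1 := by
      rw [norm_pow]
      exact pow_le_one₀ (norm_nonneg _) hx
    have h1 := ih (σ x) hσx
    have h2 := uinj_pow_sub_pow_lt (σ x) (x ^ N) hσx hxN (h x hx) (N ^ m)
    have e1 : (σ ^ (m + 1)) x = (σ ^ m) (σ x) := by
      rw [pow_succ, AlgEquiv.mul_apply]
    have e2 : x ^ N ^ (m + 1) = (x ^ N) ^ N ^ m := by
      rw [← pow_mul, pow_succ, mul_comm]
    rw [e1, e2]
    have e3 : (σ ^ m) (σ x) - (x ^ N) ^ N ^ m =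
        ((σ ^ m) (σ x) - (σ x) ^ N ^ m) + ((σ x) ^ N ^ m - (x ^ N) ^ N ^ m) := by ring
    rw [e3]
    exact lt_of_le_of_lt (IsUltrametricDist.norm_add_le_max _ _) (max_lt h1 h2)

/-- Two automorphisms inducing the same power map on the residue field differ by an inert
automorphism. -/
theorem uinj_inert (σ τ : lcf_Gal q) (M : ℕ)
    (hσ : ∀ x : PadicAlgCl q, ‖x‖ ≤ 1 → ‖σ x - x ^ M‖ < 1)
    (hτ : ∀ x : PadicAlgCl q, ‖x‖ ≤ 1 → ‖τ x - x ^ M‖ < 1) : lcf_IsInert (τ⁻¹ * σ) := by
  intro x hx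
  have e1 : (τ⁻¹ * σ) x - x = τ⁻¹ (σ x - τ x) := by
    rw [AlgEquiv.mul_apply, map_sub]
    congr 1
    rw [← AlgEquiv.mul_apply, inv_mul_cancel, AlgEquiv.one_apply]
  rw [e1, unr_abs_norm_map]
  have e2 : σ x - τ x = (σ x - x ^ M) - (τ x - x ^ M) := by ring
  rw [e2]
  rw [sub_eq_add_neg]
  refine lt_of_le_of_lt (IsUltrametricDist.norm_add_le_max _ _) (max_lt (hσ x hx) ?_)
  rw [norm_neg]
  exact hτ x hx

end Frob

section Res

variable (K : Type*) [NormedField K] [lf_IsLocal K]

/-- If `‖(q : K)‖ < 1` for a prime `q`, the residue field of `K` has `q ^ a` elements. -/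
theorem uinj_resCard_pow {q : ℕ} (hq : q.Prime) (hqK : ‖(q : K)‖ < 1) :
    ∃ a : ℕ, 0 < a ∧ unr_resCard K = q ^ a := by
  classical
  haveI := unr_lf_finite_residue' K
  letI := Fintype.ofFinite
    (IsLocalRing.ResidueField (NormedField.valuation (K := K)).valuationSubring)
  set v := NormedField.valuation (K := K) with hv
  have h0 : ((q : ℕ) : IsLocalRing.ResidueField v.valuationSubring) = 0 := by
    have h1 : IsLocalRing.residue v.valuationSubring ((q : ℕ) : v.valuationSubring) = 0 := by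
      rw [unr_residue_eq_zero_iff]
      have : (((q : ℕ) : v.valuationSubring) : K) = (q : K) := by simp
      rw [this]
      exact (unr_normed_val_lt_one_iff _).2 hqK
    rwa [map_natCast] at h1
  have h2 : ringChar (IsLocalRing.ResidueField v.valuationSubring) ∣ q := ringChar.dvd h0
  have h3 : ringChar (IsLocalRing.ResidueField v.valuationSubring) = q := by
    rcases (Nat.dvd_prime hq).1 h2 with h | h
    · exact absurd h (CharP.ringChar_ne_one)
    · exact h
  obtain ⟨n, _, hn⟩ := FiniteField.card (IsLocalRing.ResidueField v.valuationSubring)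
    (ringChar (IsLocalRing.ResidueField v.valuationSubring))
  refine ⟨n, n.pos, ?_⟩
  unfold unr_resCard
  rw [Nat.card_eq_fintype_card, ← h3]
  convert hn

/-- If `x ↦ x ^ M` is the identity on the residue field of `K`, then `#k - 1 ∣ M - 1`. -/
theorem uinj_sub_one_dvd (M : ℕ) (hM : 0 < M) (h : ∀ x : K, ‖x‖ ≤ 1 → ‖x ^ M - x‖ < 1) :
    (unr_resCard K - 1) ∣ (M - 1) := by
  classical
  haveI := unr_lf_finite_residue' K
  letI := Fintype.ofFinite
    (IsLocalRing.ResidueField (NormedField.valuation (K := K)).valuationSubring)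
  set v := NormedField.valuation (K := K) with hv
  have hk : ∀ x : IsLocalRing.ResidueField v.valuationSubring, x ^ M = x := by
    intro x
    obtain ⟨y, rfl⟩ := IsLocalRing.residue_surjective x
    rw [← map_pow, ← sub_eq_zero, ← map_sub, unr_residue_eq_zero_iff]
    have := h (y : K) ((unr_normed_val_le_one_iff _).1 y.2)
    exact (unr_normed_val_lt_one_iff _).2 this
  obtain ⟨g, hg⟩ := IsCyclic.exists_generator
    (α := (IsLocalRing.ResidueField v.valuationSubring)ˣ)
  have ho : orderOf g = unr_resCard K - 1 := by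
    rw [orderOf_eq_card_of_forall_mem_zpowers hg, Nat.card_eq_fintype_card, Fintype.card_units]
    unfold unr_resCard
    rw [Nat.card_eq_fintype_card]
  have hgM : g ^ (M - 1) = 1 := by
    have h1 : g ^ M = g := Units.ext (by rw [Units.val_pow_eq_pow_val]; exact hk _)
    have h2 : g ^ (M - 1) * g = 1 * g := by
      rw [← pow_succ, Nat.sub_add_cancel hM, h1, one_mul]
    exact mul_right_cancel h2
  rw [← ho]
  exact orderOf_dvd_of_pow_eq_one hgM

end Res

end Fermat.Agent.S55
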