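/-
S55 (wave 5), LOCAL side, leaf [RES-UNR] = `lcf_ResUnrStatement` (`InvLeaves.lean`):
restriction of unramified classes.  Owner: helper22.  Prefix `splr_`.

For open subgroups `U' ≤ U` and unramified data `(n, θ, φ, ϖ)` of `U`, `(n, θ', φ', ϖ')` of `U'`:
`res (ϖ ^ δθ) ~ (ϖ' ^ δθ') ^ [U : U']`.

Proof.  [EF] gives `e, f` with `|ϖ| = |ϖ'| ^ e`, `N' = N ^ f`, `e f = [U : U']`.
(1) `φ'` and `φ ^ f` both induce `x ↦ x ^ (N ^ f)` on the residue field, so `φ ^ (-f) φ'` is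
    inert and `θ φ' = f`; by uniqueness of unramified characters `θ|U' = θ' ^ f`.
(2) `res (ϖ ^ δθ) = ϖ ^ δ(θ|U') = ϖ ^ δ(θ' ^ f) ~ (ϖ ^ δθ') ^ f` by [SYM-ADD].
(3) `ϖ = v ϖ' ^ e` with `v` a unit of `K_U'`, so `ϖ ^ δθ' = v ^ δθ' * (ϖ' ^ δθ') ^ e`, and
    `v ^ δθ' ~ 1` by [UNIT-NORM].
-/
import Fermat.Agent.S55.Local.InvLeaves
import Fermat.Agent.S55.Local.SplitAsm
import Fermat.Agent.S55.Local.SplUnrUniq
import Fermat.Agent.S55.Local.UnrInjAux

set_option autoImplicit false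

noncomputable section

namespace Fermat.Agent.S55

open groupCohomology

variable {q : ℕ} [Fact q.Prime]

/-! ### Group identities -/

theorem splr_aux₁_add {A : Type*} [AddCommGroup A] (a b c : A) (k : ℕ) :
    (a - (b + c)) + (b - k • c) = a - (k + 1) • c := by
  rw [succ_nsmul]
  abel

theorem splr_aux₁ {G : Type*} [CommGroup G] (a b c : G) (k : ℕ) :
    (a / (b * c)) * (b / c ^ k) = a / c ^ (k + 1) :=
  splr_aux₁_add (A := Additive G) (Additive.ofMul a) (Additive.ofMul b) (Additive.ofMul c) k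

theorem splr_aux₂_add {A : Type*} [AddCommGroup A] (a b c d : A) (e f : ℕ) (hb : b = d + e • c) :
    (a - f • b) + f • d = a - (e * f) • c := by
  subst hb
  rw [smul_add, ← mul_smul, mul_comm f e]
  abel

theorem splr_aux₂ {G : Type*} [CommGroup G] (a b c d : G) (e f : ℕ) (hb : b = d * c ^ e) :
    (a / b ^ f) * d ^ f = a / c ^ (e * f) :=
  splr_aux₂_add (A := Additive G) (Additive.ofMul a) (Additive.ofMul b) (Additive.ofMul c)
    (Additive.ofMul d) e f (congrArg Additive.ofMul hb)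

/-! ### The symbol and powers of the character -/

theorem splr_smooth₁_pow {U : Subgroup (lcf_Gal q)} {n : ℕ}
    {θ : ↥U →* Multiplicative (ZMod n)} (hθ : lcf_Smooth₁ U θ) (k : ℕ) :
    lcf_Smooth₁ U (θ ^ k : ↥U →* Multiplicative (ZMod n)) := by
  obtain ⟨E, hE, h⟩ := hθ
  exact ⟨E, hE, fun g s hs => by rw [MonoidHom.pow_apply, MonoidHom.pow_apply, h g s hs]⟩

theorem splr_unrCoc_one_char (U : Subgroup (lcf_Gal q)) (n : ℕ) (a : (PadicAlgCl q)ˣ) :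
    lcf_unrCoc U n (1 : ↥U →* Multiplicative (ZMod n)) a = 1 := by
  funext x
  change a ^ (((0 : ZMod n).val + (0 : ZMod n).val) / n) = 1
  rw [ZMod.val_zero, add_zero, Nat.zero_div, pow_zero]

/-- `a ^ δ(θ ^ k) ~ (a ^ δθ) ^ k`. -/
theorem splr_sym_pow {U : Subgroup (lcf_Gal q)} (hU : lcf_IsOpen U) {n : ℕ} [NeZero n]
    {θ : ↥U →* Multiplicative (ZMod n)} (hθ : lcf_Smooth₁ U θ) {a : (PadicAlgCl q)ˣ}
    (ha : ∀ g : ↥U, g • a = a) (k : ℕ) :
    lcf_IsCob U (lcf_unrCoc U n (θ ^ k) a / (lcf_unrCoc U n θ a) ^ k) := by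
  induction k with
  | zero =>
    rw [pow_zero, pow_zero, splr_unrCoc_one_char, div_one]
    exact spl_isCob_one
  | succ k ih =>
    have h1 := sym_add q U hU n (θ ^ k) θ a (splr_smooth₁_pow hθ k) hθ ha
    have h2 := spl_isCob_mul h1 ih
    rw [splr_aux₁] at h2
    rwa [pow_succ]

/-! ### Restriction of the character -/

theorem splr_res_unrCoc {U U' : Subgroup (lcf_Gal q)} (h : U' ≤ U) (n : ℕ)
    (θ : ↥U →* Multiplicative (ZMod n)) (a : (PadicAlgCl q)ˣ) :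
    lcf_res h (lcf_unrCoc U n θ a) = lcf_unrCoc U' n (θ.comp (Subgroup.inclusion h)) a := rfl

theorem splr_smooth₁_comp {U U' : Subgroup (lcf_Gal q)} (h : U' ≤ U) {n : ℕ}
    {θ : ↥U →* Multiplicative (ZMod n)} (hθ : lcf_Smooth₁ U θ) :
    lcf_Smooth₁ U' (θ.comp (Subgroup.inclusion h)) := by
  obtain ⟨E, hE, hs⟩ := hθ
  refine ⟨E, hE, fun g s hs' => ?_⟩
  rw [MonoidHom.comp_apply, MonoidHom.comp_apply, map_mul]
  exact hs _ _ hs'

/-- The value of `θ` at a Frobenius element of `U'`, when `N' = N ^ f`. -/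
theorem splr_theta_frob {U U' : Subgroup (lcf_Gal q)} (h : U' ≤ U) {n : ℕ}
    {θ : ↥U →* Multiplicative (ZMod n)} {φ : ↥U} {φ' : ↥U'}
    (hin : ∀ s : ↥U, lcf_IsInert (s : lcf_Gal q) → θ s = 1)
    (hφ : lcf_IsFrob U φ) (hφ' : lcf_IsFrob U' φ') (f : ℕ)
    (hcard : lcf_resCard U' = lcf_resCard U ^ f) :
    θ (Subgroup.inclusion h φ') = θ φ ^ f := by
  have h1 := uinj_frob_pow (φ : lcf_Gal q) (lcf_resCard U) hφ f
  have h2 : ∀ x : PadicAlgCl q, ‖x‖ ≤ 1 →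
      ‖(φ' : lcf_Gal q) x - x ^ (lcf_resCard U ^ f)‖ < 1 := by
    intro x hx
    rw [← hcard]
    exact hφ' x hx
  have h3 := uinj_inert (φ' : lcf_Gal q) ((φ : lcf_Gal q) ^ f) (lcf_resCard U ^ f) h2 h1
  have h4 : θ ((φ ^ f)⁻¹ * Subgroup.inclusion h φ') = 1 := hin _ h3
  rw [map_mul, map_inv, inv_mul_eq_one, map_pow] at h4
  exact h4.symm

/-! ### [RES-UNR] -/

/-- **[RES-UNR]** from [EF] and [UNIT-NORM] (uniqueness of unramified characters and [SYM-ADD]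
are consumed). -/
theorem splr_main (hEF : lcf_EFStatement) (hUN : spl_UnitNormStatement) :
    lcf_ResUnrStatement := by
  intro q _ U U' h hU' n _ θ φ ϖ θ' φ' ϖ' hD hD'
  obtain ⟨e, f, hnorm, hcard, hef⟩ := hEF q U U' h hU' ϖ ϖ' hD.unif hD'.unif
  -- (1) the restriction of `θ` is `θ' ^ f`
  have hθ : θ.comp (Subgroup.inclusion h) = θ' ^ f := by
    refine unr_abs_unrChar_unique U' hU' _ _ φ' (splr_smooth₁_comp h hD.smooth)
      (splr_smooth₁_pow hD'.smooth f) (fun s hs => hD.inert _ hs) (fun s hs => ?_) hD'.frob ?_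
    · rw [MonoidHom.pow_apply, hD'.inert s hs, one_pow]
    · rw [MonoidHom.comp_apply, MonoidHom.pow_apply,
        splr_theta_frob h hD.inert hD.frob hD'.frob f hcard, hD.one, hD'.one]
  -- `ϖ` is fixed by `U'`
  have hϖ : ∀ g : ↥U', g • ϖ = ϖ := fun g => hD.unif.1 (Subgroup.inclusion h g)
  -- (2)
  have h2 : lcf_IsCob U' (lcf_res h (lcf_unrCoc U n θ ϖ) / (lcf_unrCoc U' n θ' ϖ) ^ f) := by
    rw [splr_res_unrCoc, hθ]
    exact splr_sym_pow hU' hD'.smooth hϖ f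
  -- (3) the unit `v = ϖ / ϖ' ^ e`
  have hv1 : ∀ g : ↥U', g • (ϖ / ϖ' ^ e) = ϖ / ϖ' ^ e := by
    intro g
    rw [smul_div', smul_pow', hϖ g, hD'.unif.1 g]
  have hv2 : ‖((ϖ / ϖ' ^ e : (PadicAlgCl q)ˣ) : PadicAlgCl q)‖ = 1 := by
    rw [Units.val_div_eq_div_val, Units.val_pow_eq_pow_val, norm_div, norm_pow, ← hnorm]
    exact div_self (norm_ne_zero_iff.2 ϖ.ne_zero)
  have h3 := hUN q U' hU' n θ' φ' ⟨hD'.smooth, hD'.inert, hD'.frob, hD'.one⟩ (ϖ / ϖ' ^ e) hv1 hv2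
  have h4 : lcf_unrCoc U' n θ' ϖ =
      lcf_unrCoc U' n θ' (ϖ / ϖ' ^ e) * (lcf_unrCoc U' n θ' ϖ') ^ e := by
    rw [sym_unrCoc_pow, ← sym_unrCoc_mul, div_mul_cancel]
  have h5 := spl_isCob_mul h2 (spl_isCob_pow h3 f)
  rw [splr_aux₂ _ _ _ _ e f h4, hef] at h5
  exact h5

end Fermat.Agent.S55
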