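import Fermat.Agent.S55.Local.UnrInjAux
import Fermat.Agent.S55.UnrAbs4

set_option autoImplicit false
set_option linter.style.haveILetI false
set_option linter.unusedSectionVars false

/-!
# S55 local side: [UNR-INJ]

`uinj_main : lcf_UnrInjStatement`: for an unramified character `θ : U → ℤ/n` with
`θ (Frobenius) = 1` and a uniformizer `ϖ`, `(ϖ ^ δθ) ^ k` is a smooth coboundary only if `n ∣ k`.
(`uinj_of` is the same statement with the existence of Frobenius elements in open subgroups as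
a hypothesis.)
-/

noncomputable section

namespace Fermat.Agent.S55

open groupCohomology

section Act

variable {q : ℕ} [Fact q.Prime] {U : Subgroup (lcf_Gal q)} {n : ℕ} [NeZero n]
  (θ : ↥U →* Multiplicative (ZMod n)) (φ : ↥U)

/-- The fixed field of `ker θ`. -/
abbrev uinj_L : IntermediateField ℚ_[q] (PadicAlgCl q) :=
  IntermediateField.fixedField (sym_ker θ)

/-- Elements of `U` map the fixed field of `ker θ` to itself. -/
theorem uinj_mem (σ : lcf_Gal q) (hσ : σ ∈ U) {x : PadicAlgCl q} (hx : x ∈ uinj_L θ) :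
    σ x ∈ uinj_L θ := by
  rw [IntermediateField.mem_fixedField_iff] at hx ⊢
  rintro h ⟨hU, hh⟩
  have h1 : σ⁻¹ * h * σ ∈ sym_ker θ := by
    refine ⟨U.mul_mem (U.mul_mem (U.inv_mem hσ) hU) hσ, ?_⟩
    have : (⟨σ⁻¹ * h * σ, U.mul_mem (U.mul_mem (U.inv_mem hσ) hU) hσ⟩ : ↥U) =
        (⟨σ, hσ⟩ : ↥U)⁻¹ * ⟨h, hU⟩ * ⟨σ, hσ⟩ := rfl
    rw [this, map_mul, map_mul, hh, mul_one, map_inv, inv_mul_cancel]
  have h2 := hx _ h1
  rw [AlgEquiv.mul_apply, AlgEquiv.mul_apply] at h2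
  have h3 := congrArg σ h2
  rw [← AlgEquiv.mul_apply, mul_inv_cancel, AlgEquiv.one_apply] at h3
  exact h3

variable {θ φ}

theorem uinj_pow_n_fix (hφ1 : θ φ = Multiplicative.ofAdd 1) {x : PadicAlgCl q}
    (hx : x ∈ uinj_L θ) : ((φ : lcf_Gal q) ^ n) x = x := by
  rw [IntermediateField.mem_fixedField_iff] at hx
  refine hx _ ⟨U.pow_mem φ.2 n, ?_⟩
  have : (⟨(φ : lcf_Gal q) ^ n, U.pow_mem φ.2 n⟩ : ↥U) = φ ^ n := rfl
  rw [this]
  exact sym_theta_pow_n θ φ hφ1

theorem uinj_pow_mul_fix (hφ1 : θ φ = Multiplicative.ofAdd 1) {x : PadicAlgCl q}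
    (hx : x ∈ uinj_L θ) (k : ℕ) : ((φ : lcf_Gal q) ^ (n * k)) x = x := by
  induction k with
  | zero => rw [mul_zero, pow_zero, AlgEquiv.one_apply]
  | succ k ih =>
    rw [Nat.mul_succ, pow_add, AlgEquiv.mul_apply, uinj_pow_n_fix hφ1 hx, ih]

theorem uinj_pow_mod (hφ1 : θ φ = Multiplicative.ofAdd 1) {x : PadicAlgCl q}
    (hx : x ∈ uinj_L θ) (m : ℕ) : ((φ : lcf_Gal q) ^ m) x = ((φ : lcf_Gal q) ^ (m % n)) x := by
  conv_lhs => rw [← Nat.mod_add_div m n, pow_add, AlgEquiv.mul_apply, uinj_pow_mul_fix hφ1 hx]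

variable (θ φ)

/-- The action of `ℤ/n` on the fixed field of `ker θ` through the powers of `φ`. -/
@[reducible] def uinj_act (hφ1 : θ φ = Multiplicative.ofAdd 1) :
    MulSemiringAction (Multiplicative (ZMod n)) ↥(uinj_L θ) where
  smul i x := ⟨((φ : lcf_Gal q) ^ (Multiplicative.toAdd i).val) (x : PadicAlgCl q),
    uinj_mem θ _ (U.pow_mem φ.2 _) x.2⟩
  one_smul x := by
    apply Subtype.ext
    change ((φ : lcf_Gal q) ^ (Multiplicative.toAdd (1 : Multiplicative (ZMod n))).val)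
      (x : PadicAlgCl q) = x
    rw [toAdd_one, ZMod.val_zero, pow_zero, AlgEquiv.one_apply]
  mul_smul i j x := by
    apply Subtype.ext
    change ((φ : lcf_Gal q) ^ (Multiplicative.toAdd (i * j)).val) (x : PadicAlgCl q) =
      ((φ : lcf_Gal q) ^ (Multiplicative.toAdd i).val)
        (((φ : lcf_Gal q) ^ (Multiplicative.toAdd j).val) (x : PadicAlgCl q))
    rw [← AlgEquiv.mul_apply, ← pow_add, toAdd_mul, ZMod.val_add, ← uinj_pow_mod hφ1 x.2]
  smul_zero i := by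
    apply Subtype.ext
    exact map_zero _
  smul_add i x y := by
    apply Subtype.ext
    exact map_add _ _ _
  smul_one i := by
    apply Subtype.ext
    exact map_one _
  smul_mul i x y := by
    apply Subtype.ext
    exact map_mul _ _ _

theorem uinj_act_coe (hφ1 : θ φ = Multiplicative.ofAdd 1) (i : Multiplicative (ZMod n))
    (x : ↥(uinj_L θ)) :
    letI := uinj_act θ φ hφ1
    ((i • x : ↥(uinj_L θ)) : PadicAlgCl q) =
      ((φ : lcf_Gal q) ^ (Multiplicative.toAdd i).val) (x : PadicAlgCl q) := rfl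

end Act

section Faithful

variable {q : ℕ} [Fact q.Prime]

theorem uinj_norm_q_lt_one (E : IntermediateField ℚ_[q] (PadicAlgCl q)) :
    ‖((q : ℕ) : ↥E)‖ < 1 := by
  have h1 : ‖((q : ℕ) : ↥E)‖ = ‖(((q : ℕ) : ↥E) : PadicAlgCl q)‖ := rfl
  have h2 : (((q : ℕ) : ↥E) : PadicAlgCl q) = ((((q : ℕ) : ℚ_[q])) : PadicAlgCl q) := by
    simp
  rw [h1, h2, PadicAlgCl.norm_extends]
  exact Padic.norm_p_lt_one

variable {U : Subgroup (lcf_Gal q)} {n : ℕ} [NeZero n]
  {θ : ↥U →* Multiplicative (ZMod n)} {φ : ↥U}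

/-- **Faithfulness on the residue field**: if `θ` is trivial on inertia, a power `φ ^ m`,
`0 < m < n`, of the Frobenius element acts nontrivially on the residue field of the fixed
field of `ker θ`. -/
theorem uinj_faithful (hU : lcf_IsOpen U) (hθ : lcf_Smooth₁ U θ)
    (hin : ∀ s : ↥U, lcf_IsInert (s : lcf_Gal q) → θ s = 1)
    (hfrob : lcf_IsFrob U φ) (hφ1 : θ φ = Multiplicative.ofAdd 1)
    (hF : ∃ φ' : ↥(sym_ker θ), lcf_IsFrob (sym_ker θ) φ')
    (m : ℕ) (hm0 : 0 < m) (hmn : m < n) :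
    ∃ x : PadicAlgCl q, x ∈ uinj_L θ ∧ ‖x‖ ≤ 1 ∧ ‖((φ : lcf_Gal q) ^ m) x - x‖ = 1 := by
  by_contra hcon
  have hlt : ∀ x ∈ uinj_L θ, ‖x‖ ≤ 1 → ‖((φ : lcf_Gal q) ^ m) x - x‖ < 1 := by
    intro x hx hx1
    have h1 : ‖((φ : lcf_Gal q) ^ m) x - x‖ ≤ 1 := by
      rw [sub_eq_add_neg]
      refine le_trans (IsUltrametricDist.norm_add_le_max _ _) (max_le ?_ ?_)
      · rw [unr_abs_norm_map]; exact hx1
      · rw [norm_neg]; exact hx1
    refine lt_of_le_of_ne h1 (fun h => hcon ⟨x, hx, hx1, h⟩)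
  have hV : lcf_IsOpen (sym_ker θ) := sym_isOpen_ker θ hU hθ
  obtain ⟨φ', hφ'⟩ := hF
  haveI := unr_abs_finite U hU
  haveI := unr_abs_finite (sym_ker θ) hV
  have hq : q.Prime := Fact.out
  obtain ⟨a, ha0, ha⟩ := uinj_resCard_pow ↥(IntermediateField.fixedField U) hq
    (uinj_norm_q_lt_one _)
  obtain ⟨a', ha'0, ha'⟩ := uinj_resCard_pow ↥(uinj_L θ) hq (uinj_norm_q_lt_one _)
  have hNa : lcf_resCard U = q ^ a := ha
  have hNa' : lcf_resCard (sym_ker θ) = q ^ a' := ha'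
  have hNpos : 0 < lcf_resCard U ^ m := by
    rw [hNa]
    exact pow_pos (pow_pos hq.pos _) _
  -- `x ^ (N ^ m) ≡ x` on the unit ball of `L`
  have hpow : ∀ x : ↥(uinj_L θ), ‖x‖ ≤ 1 → ‖x ^ (lcf_resCard U ^ m) - x‖ < 1 := by
    intro x hx
    have h1 := uinj_frob_pow (φ : lcf_Gal q) (lcf_resCard U) hfrob m (x : PadicAlgCl q) hx
    have h2 := hlt (x : PadicAlgCl q) x.2 hx
    have e1 : ‖x ^ (lcf_resCard U ^ m) - x‖ =
        ‖(x : PadicAlgCl q) ^ (lcf_resCard U ^ m) - (x : PadicAlgCl q)‖ := rfl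
    have e2 : (x : PadicAlgCl q) ^ (lcf_resCard U ^ m) - (x : PadicAlgCl q) =
        (((φ : lcf_Gal q) ^ m) (x : PadicAlgCl q) - (x : PadicAlgCl q)) +
          -(((φ : lcf_Gal q) ^ m) (x : PadicAlgCl q) -
            (x : PadicAlgCl q) ^ (lcf_resCard U ^ m)) := by ring
    rw [e1, e2]
    refine lt_of_le_of_lt (IsUltrametricDist.norm_add_le_max _ _) (max_lt h2 ?_)
    rw [norm_neg]
    exact h1
  have hdvd := uinj_sub_one_dvd ↥(uinj_L θ) (lcf_resCard U ^ m) hNpos hpow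
  rw [ha', hNa, ← pow_mul] at hdvd
  obtain ⟨m', hm'⟩ := uinj_dvd_of_pow_sub_one_dvd q a' (a * m) hq.two_le hdvd
  have hNN : lcf_resCard U ^ m = lcf_resCard (sym_ker θ) ^ m' := by
    rw [hNa, hNa', ← pow_mul, ← pow_mul, hm']
  -- the inert element
  have h1 := uinj_frob_pow (φ : lcf_Gal q) (lcf_resCard U) hfrob m
  have h2 := uinj_frob_pow (φ' : lcf_Gal q) (lcf_resCard (sym_ker θ)) hφ' m'
  rw [← hNN] at h2
  have hinert := uinj_inert _ _ _ h1 h2
  have hφ'U : (φ' : lcf_Gal q) ∈ U := sym_ker_le θ φ'.2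
  set s : ↥U := (⟨(φ' : lcf_Gal q), hφ'U⟩ ^ m')⁻¹ * φ ^ m with hs
  have hs1 : θ s = 1 := hin s hinert
  have hs2 : θ s = Multiplicative.ofAdd ((m : ℕ) : ZMod n) := by
    rw [hs, map_mul, map_inv, map_pow, sym_theta_pow θ φ hφ1]
    have : θ ⟨(φ' : lcf_Gal q), hφ'U⟩ = 1 := φ'.2.2
    rw [this, one_pow, inv_one, one_mul]
  rw [hs2] at hs1
  have h3 : ((m : ℕ) : ZMod n) = 0 := by
    have := congrArg Multiplicative.toAdd hs1
    simpa using this
  rw [ZMod.natCast_eq_zero_iff] at h3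
  exact absurd (Nat.le_of_dvd hm0 h3) (not_le.2 hmn)

end Faithful

section Main

variable {q : ℕ} [Fact q.Prime] {U : Subgroup (lcf_Gal q)} {n : ℕ} [NeZero n]
  {θ : ↥U →* Multiplicative (ZMod n)} {φ : ↥U}

/-- **The fixed field of `ker θ` is unramified over the fixed field of `U`**: the norm of a
`ker θ`-fixed unit is an integral power of the norm of a uniformizer of `K_U`. -/
theorem uinj_unram (hU : lcf_IsOpen U) (hθ : lcf_Smooth₁ U θ)
    (hin : ∀ s : ↥U, lcf_IsInert (s : lcf_Gal q) → θ s = 1)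
    (hfrob : lcf_IsFrob U φ) (hφ1 : θ φ = Multiplicative.ofAdd 1)
    (hF : ∃ φ' : ↥(sym_ker θ), lcf_IsFrob (sym_ker θ) φ') (h1n : 1 < n)
    {ϖ : (PadicAlgCl q)ˣ} (hϖ : lcf_IsUnif U ϖ)
    (y : (PadicAlgCl q)ˣ) (hy : ∀ g : ↥U, θ g = 1 → g • y = y) :
    ∃ j : ℤ, ‖(y : PadicAlgCl q)‖ = ‖(ϖ : PadicAlgCl q)‖ ^ j := by
  classical
  letI := uinj_act θ φ hφ1
  have hyL : (y : PadicAlgCl q) ∈ uinj_L θ := by
    rw [IntermediateField.mem_fixedField_iff]
    rintro s ⟨hsU, hs⟩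
    have := hy ⟨s, hsU⟩ hs
    exact congrArg Units.val this
  set y' : ↥(uinj_L θ) := ⟨(y : PadicAlgCl q), hyL⟩ with hy'
  have hy0 : y' ≠ 0 := by
    intro h
    have := congrArg Subtype.val h
    exact y.ne_zero this
  have hinv : ∀ (g : Multiplicative (ZMod n)) (x : ↥(uinj_L θ)),
      NormedField.valuation (g • x) = NormedField.valuation x := by
    intro g x
    rw [NormedField.valuation_apply, NormedField.valuation_apply]
    apply NNReal.eq
    exact unr_abs_norm_map _ _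
  have hfaith : ∀ g : Multiplicative (ZMod n), g ≠ 1 → ∃ x : ↥(uinj_L θ),
      NormedField.valuation x ≤ 1 ∧ NormedField.valuation (g • x - x) = 1 := by
    intro g hg
    have hm0 : 0 < (Multiplicative.toAdd g).val := by
      rw [Nat.pos_iff_ne_zero, Ne, ZMod.val_eq_zero]
      intro h
      exact hg (by rw [← ofAdd_toAdd g, h]; rfl)
    obtain ⟨x, hxL, hx1, hx2⟩ := uinj_faithful hU hθ hin hfrob hφ1 hF
      (Multiplicative.toAdd g).val hm0 (ZMod.val_lt _)
    refine ⟨⟨x, hxL⟩, (unr_normed_val_le_one_iff _).2 hx1, ?_⟩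
    rw [NormedField.valuation_apply]
    apply NNReal.eq
    exact hx2
  obtain ⟨c, _, hc⟩ := unr_exists_trace_val (NormedField.valuation (K := ↥(uinj_L θ)))
    hinv hfaith y' hy0
  set T : ↥(uinj_L θ) := ∑ g : Multiplicative (ZMod n), g • (c * y') with hT
  have hTn : ‖(T : PadicAlgCl q)‖ = ‖(y : PadicAlgCl q)‖ := by
    rw [NormedField.valuation_apply, NormedField.valuation_apply] at hc
    exact congrArg NNReal.toReal hc
  have hT0 : (T : PadicAlgCl q) ≠ 0 := by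
    intro h
    rw [h, norm_zero] at hTn
    exact y.ne_zero (norm_eq_zero.1 hTn.symm)
  -- `T` is fixed by the action
  have hTfix : ∀ h : Multiplicative (ZMod n), h • T = T := by
    intro h
    rw [hT, Finset.smul_sum]
    refine Fintype.sum_equiv (Equiv.mulLeft h) _ _ (fun g => ?_)
    rw [Equiv.coe_mulLeft, mul_smul]
  have hTφ : (φ : lcf_Gal q) (T : PadicAlgCl q) = T := by
    have h1 := congrArg Subtype.val (hTfix (Multiplicative.ofAdd (1 : ZMod n)))
    rw [uinj_act_coe, toAdd_ofAdd, ZMod.val_one'' (by omega), pow_one] at h1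
    exact h1
  set Tu : (PadicAlgCl q)ˣ := Units.mk0 (T : PadicAlgCl q) hT0 with hTu
  have hTk : ∀ g : ↥U, θ g = 1 → g • Tu = Tu := by
    intro g hg
    apply Units.ext
    have := T.2
    rw [IntermediateField.mem_fixedField_iff] at this
    exact this (g : lcf_Gal q) ⟨g.2, hg⟩
  have hTφ' : φ • Tu = Tu := Units.ext hTφ
  have hTpow : ∀ i : ℕ, φ ^ i • Tu = Tu := by
    intro i
    induction i with
    | zero => rw [pow_zero, one_smul]
    | succ i ih => rw [pow_succ, mul_smul, hTφ', ih]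
  have hTU : ∀ g : ↥U, g • Tu = Tu := by
    intro g
    rw [sym_smul_eq hφ1 hTk g, hTpow]
  obtain ⟨j, hj⟩ := hϖ.2.2 Tu hTU
  exact ⟨j, by rw [← hTn]; exact hj⟩

/-- **[UNR-INJ]**, with the existence of Frobenius elements as a hypothesis. -/
theorem uinj_of
    (hF : ∀ (q : ℕ) [Fact q.Prime] (V : Subgroup (lcf_Gal q)), lcf_IsOpen V →
      ∃ φ : ↥V, lcf_IsFrob V φ) : lcf_UnrInjStatement := by
  intro q _ U hU n _ θ φ ϖ k hθ hin hfrob hφ1 hϖ hcob
  rcases Nat.lt_or_ge 1 n with h1n | h1n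
  · rw [sym_unrCoc_pow] at hcob
    have hfix : ∀ g : ↥U, g • ϖ ^ k = ϖ ^ k := by
      intro g
      rw [smul_pow', hϖ.1 g]
    obtain ⟨y, hy, hprod⟩ := (sym_norm_main q U hU n θ φ (ϖ ^ k) hθ hφ1 hfix).1 hcob
    obtain ⟨j, hj⟩ := uinj_unram hU hθ hin hfrob hφ1
      (hF q (sym_ker θ) (sym_isOpen_ker θ hU hθ)) h1n hϖ y hy
    have hnorm : ‖(ϖ : PadicAlgCl q)‖ ^ k = ‖(y : PadicAlgCl q)‖ ^ n := by
      have h1 := congrArg (fun u : (PadicAlgCl q)ˣ => ‖(u : PadicAlgCl q)‖) hprod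
      simp only [Units.val_pow_eq_pow_val, norm_pow, Units.coe_prod, norm_prod] at h1
      rw [h1]
      have h2 : ∀ i ∈ Finset.range n,
          ‖((φ ^ i • y : (PadicAlgCl q)ˣ) : PadicAlgCl q)‖ = ‖(y : PadicAlgCl q)‖ := by
        intro i _
        exact unr_abs_norm_map _ _
      rw [Finset.prod_congr rfl h2, Finset.prod_const, Finset.card_range]
    rw [hj, ← zpow_natCast, ← zpow_natCast, ← zpow_mul] at hnorm
    have hϖ0 : 0 < ‖(ϖ : PadicAlgCl q)‖ := norm_pos_iff.2 ϖ.ne_zero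
    have hinj := zpow_right_injective₀ hϖ0 (ne_of_lt hϖ.2.1) hnorm
    exact Int.natCast_dvd_natCast.1 ⟨j, by rw [hinj, mul_comm]⟩
  · have hn : 0 < n := Nat.pos_of_ne_zero (NeZero.ne n)
    have : n = 1 := by omega
    rw [this]
    exact one_dvd k

/-- **[UNR-INJ]** the unramified classes have the expected order. -/
theorem uinj_main : lcf_UnrInjStatement :=
  uinj_of (fun _ _ V hV => unr_abs_exists_frob V hV)

/-- **[UNR-INJ]** from **[UNR-CHAR]** (kept for consumers of the announced shape). -/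
theorem uinj_of_unrChar (_h : lcf_UnrCharStatement) : lcf_UnrInjStatement := uinj_main

end Main

end Fermat.Agent.S55
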