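/-
S55 (wave 5), LOCAL side, package [A8] = [SPLIT]: the wiring of the landed leaves.
Owner: helper22.  Prefix `spl_`.

`spl_main : lcf_EFStatement → spl_UnitNormStatement → lcf_SplitStatement`
(all other leaves are consumed: [LEVEL] `spll_main`, [INF-RES-MID] `splm_main` (helper19),
[COUNT] `splc_gen` (helper2), [UNR-INJ] `uinj_main` (helper6), [UNR-CHAR] `unr_abs_unrChar`
(helper29), [UNIF] `lunif_main` (helper5), [UNR-UNIQ] (helper29) and [SYM-ADD] (helper6) inside
`splr_main`).
-/
import Fermat.Agent.S55.Local.SplitAsm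
import Fermat.Agent.S55.Local.SplLevel
import Fermat.Agent.S55.Local.SplResUnr
import Fermat.Agent.S55.Local.SplInfRes
import Fermat.Agent.S55.Local.SplCountFin
import Fermat.Agent.S55.Local.UnrInj
import Fermat.Agent.S55.Local.Unif

set_option autoImplicit false

noncomputable section

namespace Fermat.Agent.S55

open groupCohomology

/-- [COUNT] in the generation form. -/
theorem spl_gen_fin : spl_GenStatement :=
  fun q _ U U' hU' hle hn c₀ f hc₀ hi₀ hf hif hord =>
    splc_gen q U U' hU' ⟨hle, hn⟩ c₀ f hc₀ hi₀ hf hif hord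

/-- **[SPLIT]** from [RES-UNR]. -/
theorem spl_main_of_resUnr (hRes : lcf_ResUnrStatement) : lcf_SplitStatement :=
  spl_main_of spll_main splm_main spl_gen_fin hRes unr_abs_unrChar lunif_main uinj_main

/-- **[SPLIT]** from [EF] and [UNIT-NORM]. -/
theorem spl_main (hEF : lcf_EFStatement) (hUN : spl_UnitNormStatement) : lcf_SplitStatement :=
  spl_main_of_resUnr (splr_main hEF hUN)

end Fermat.Agent.S55
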