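import Fermat.Agent.S55.Local.UnrClass
import Fermat.Agent.S55.Local.SplUnrUniq
import Fermat.Agent.S55.Local.UnrH2U

set_option autoImplicit false
set_option linter.style.haveILetI false
set_option linter.unusedSectionVars false

/-!
# S55 local side: [UNR-CLASS], hypothesis-free

`ucl_fin : lcf_UnrClassStatement`, from `ucl_main`, [UNR-UNIQ] (`unr_unrUniq_main`) and
[UNIT-NORM] (`ucl_unitNorm`, a corollary of `unr_h2u_isCob`: a unit-valued cocycle inflated
from an unramified level is a coboundary).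
-/

noncomputable section

namespace Fermat.Agent.S55

open groupCohomology

section UnitNorm

variable {q : ℕ} [Fact q.Prime] {U : Subgroup (lcf_Gal q)} {n : ℕ} [NeZero n]

theorem ucl_ker_normalIn (θ : ↥U →* Multiplicative (ZMod n)) : spl_IsNormalIn U (sym_ker θ) := by
  refine ⟨sym_ker_le θ, fun g hg s hs => ?_⟩
  obtain ⟨hsU, hs1⟩ := hs
  refine ⟨U.mul_mem (U.mul_mem hg hsU) (U.inv_mem hg), ?_⟩
  have e : (⟨g * s * g⁻¹, U.mul_mem (U.mul_mem hg hsU) (U.inv_mem hg)⟩ : ↥U) =
      ⟨g, hg⟩ * ⟨s, hsU⟩ * (⟨g, hg⟩ : ↥U)⁻¹ := rfl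
  rw [e, map_mul, map_mul, hs1, mul_one, map_inv, mul_inv_cancel]

theorem ucl_unrCoc_infl (θ : ↥U →* Multiplicative (ZMod n)) {a : (PadicAlgCl q)ˣ}
    (ha : ∀ g : ↥U, g • a = a) : spl_IsInfl U (sym_ker θ) (lcf_unrCoc U n θ a) := by
  constructor
  · intro g h s s' hs hs'
    have e1 : θ (g * s) = θ g := by
      obtain ⟨hsU, hs1⟩ := hs
      rw [map_mul]
      have : θ s = 1 := hs1
      rw [this, mul_one]
    have e2 : θ (h * s') = θ h := by
      obtain ⟨hsU, hs1⟩ := hs'
      rw [map_mul]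
      have : θ s' = 1 := hs1
      rw [this, mul_one]
    rw [sym_unrCoc_apply, sym_unrCoc_apply, sym_t_congr θ e1, sym_t_congr θ e2]
  · intro g h s _
    rw [sym_unrCoc_apply]
    exact sym_smul_pow ha s _

/-- **[UNIT-NORM]** units are norms from unramified extensions: `u ^ δθ ~ 1`. -/
theorem ucl_unitNorm : spl_UnitNormStatement := by
  intro q _ U hU n _ θ φ hD u hu hu1
  obtain ⟨hθ, hin, -, -⟩ := hD
  refine unr_h2u_isCob U (sym_ker θ) (sym_isOpen_ker θ hU hθ) (ucl_ker_normalIn θ)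
    (unr_isUnrLevel_of_inert hU (fun s hs => ⟨s.2, hin s hs⟩)) _
    (sym_isMulCocycle₂_unrCoc hu) (ucl_unrCoc_infl θ hu) (fun g h => ?_)
  rw [sym_unrCoc_apply, Units.val_pow_eq_pow_val, norm_pow, hu1, one_pow]

end UnitNorm

/-- **[UNR-CLASS]** comparison of unramified classes, hypothesis-free. -/
theorem ucl_fin : lcf_UnrClassStatement := ucl_main unr_unrUniq_main ucl_unitNorm

end Fermat.Agent.S55
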