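/-
S55 (wave 5), LOCAL side: [RES-UNR], [SPLIT] and [L-INV] HYPOTHESIS-FREE.
Owner: helper22.  Prefix `spl_` / `splr_`.

* `splr_fin : lcf_ResUnrStatement`  = `splr_main` applied to [EF] (helper25) and [UNIT-NORM]
  (helper6 / helper29);
* `spl_fin  : lcf_SplitStatement`   = `spl_main_of_resUnr splr_fin`;
* `spl_inv_fin : lcf_InvStatement`  = helper27's `linv_main` applied to the six leaves
  ([SPLIT], [UNR-CLASS] helper6, [UNR-CHAR] helper29, [UNIF] helper5, [RES-UNR], [CONJ-UNR]
  helper27): **the local invariant system exists**.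
-/
import Fermat.Agent.S55.Local.SplitMain
import Fermat.Agent.S55.Local.EFAbs
import Fermat.Agent.S55.Local.UnrClassFin
import Fermat.Agent.S55.Local.ConjUnr
import Fermat.Agent.S55.Local.InvBuild

set_option autoImplicit false

noncomputable section

namespace Fermat.Agent.S55

/-- **[RES-UNR]**, hypothesis-free. -/
theorem splr_fin : lcf_ResUnrStatement := splr_main lef_main' ucl_unitNorm

/-- **[SPLIT]**, hypothesis-free. -/
theorem spl_fin : lcf_SplitStatement := spl_main_of_resUnr splr_fin

/-- **[L-INV]**, hypothesis-free: the local invariant system. -/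
theorem spl_inv_fin : lcf_InvStatement :=
  linv_main spl_fin ucl_fin unr_abs_unrChar lunif_main splr_fin lconj_main

end Fermat.Agent.S55
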