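/-
# S55 / Local / [LOC-H3U]  (leaf of helper17's cut `Global/H3FDefs.lean`; owner: helper29)

    theorem h3u_main : h3f_LocH3Statement → h3f_LocH3UStatement

(`h3f_LocH3UStatement`, `h3f_LocH3Statement` VERBATIM from `Global/H3FDefs.lean`.)

Route (helper26, board #1048).  [LOC-H3] (with the invariant system `spl_inv_fin`) gives a
2-cochain `f`, inflated from `U / U'`, with `d f = z`.  The values of `f` are fixed by `U'`, so
(`unr_IsUnrLevel`) `‖f (g, h)‖ = ‖y‖` with `y` fixed by `U`, hence `= ‖ϖ‖ ^ n (g, h)` for a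
uniformizer `ϖ` of `K_U` (`unr_abs_unif`).  The function `n : U × U → ℤ` is inflated from
`U / U'` and `d n = 0` because `z` is unit valued and the Galois action preserves the norm.  So
`ϖ ^ n` is a 2-cocycle (`ϖ` is fixed by `U`), inflated from `U / U'`, and `f' := f / ϖ ^ n` is
unit valued, inflated, with `d f' = z`.
-/
import Fermat.Agent.S55.Global.H3FDefs
import Fermat.Agent.S55.Local.SplitFin
import Fermat.Agent.S55.UnrAbs1

set_option autoImplicit false

namespace Fermat.Agent.S55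

noncomputable section

section tools

variable {q : ℕ} [Fact q.Prime]

/-- The Galois action on units preserves the norm. -/
theorem h3u_norm_smul (U : Subgroup (lcf_Gal q)) (g : ↥U) (x : (PadicAlgCl q)ˣ) :
    ‖((g • x : (PadicAlgCl q)ˣ) : PadicAlgCl q)‖ = ‖(x : PadicAlgCl q)‖ := by
  rw [unr_abs_smul_units_val]
  exact unr_abs_norm_map _ _

/-- Powers of a uniformizer with equal norms have equal exponents. -/
theorem h3u_zpow_inj {r : ℝ} (h0 : 0 < r) (h1 : r < 1) {m n : ℤ} (h : r ^ m = r ^ n) :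
    m = n :=
  zpow_right_injective₀ h0 h1.ne h

/-- An open subgroup contained in `U` makes `U` open. -/
theorem h3u_isOpen_of_le {U U' : Subgroup (lcf_Gal q)} (h : U' ≤ U) (hU' : lcf_IsOpen U') :
    lcf_IsOpen U := by
  obtain ⟨E, hE, hEU⟩ := hU'
  exact ⟨E, hE, hEU.trans h⟩

/-- The action of `U` on an integral power of a fixed unit. -/
theorem h3u_smul_zpow (U : Subgroup (lcf_Gal q)) (g : ↥U) (ϖ : (PadicAlgCl q)ˣ)
    (hϖ : g • ϖ = ϖ) (n : ℤ) : g • ϖ ^ n = ϖ ^ n := by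
  rw [smul_zpow', hϖ]

/-- The commutative group identity behind `d (f / ϖ ^ n) = d f`. -/
theorem h3u_comm_aux {G : Type*} [CommGroup G] (a b c d w : G) (i j k l : ℤ)
    (h : i + j = k + l) :
    (a / w ^ i) * (b / w ^ j) / ((c / w ^ k) * (d / w ^ l)) = a * b / (c * d) := by
  have e : (a / w ^ i) * (b / w ^ j) / ((c / w ^ k) * (d / w ^ l)) =
      a * b / (c * d) * (w ^ (k + l) / w ^ (i + j)) := by
    rw [zpow_add, zpow_add]
    simp only [div_eq_mul_inv, mul_inv_rev, inv_inv]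
    ac_rfl
  rw [e, h, div_self', mul_one]

end tools

section main

/-- **[LOC-H3U]** from [LOC-H3]. -/
theorem h3u_main (hLoc : h3f_LocH3Statement) : h3f_LocH3UStatement := by
  classical
  intro q _ U U' hU' hN hunr z hz hzi hz1
  obtain ⟨inv, hinv⟩ := spl_inv_fin
  obtain ⟨f, ⟨hf1, hf2⟩, hfd⟩ := hLoc inv hinv q U U' hU' hN z hz hzi
  have hU : lcf_IsOpen U := h3u_isOpen_of_le hN.1 hU'
  obtain ⟨ϖ, hϖfix, hϖlt, hϖval⟩ := unr_abs_unif q U hU
  have hϖpos : 0 < ‖(ϖ : PadicAlgCl q)‖ := norm_pos_iff.2 ϖ.ne_zero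
  -- the exponents
  have hex : ∀ x : ↥U × ↥U, ∃ n : ℤ, ‖(f x : PadicAlgCl q)‖ = ‖(ϖ : PadicAlgCl q)‖ ^ n := by
    rintro ⟨g, h⟩
    obtain ⟨y, hy, hxy⟩ := hunr (f (g, h)) (fun s => hf2 g h ⟨s, hN.1 s.2⟩ s.2)
    obtain ⟨n, hn⟩ := hϖval y hy
    exact ⟨n, hxy.trans hn⟩
  choose n hn using hex
  -- `n` is inflated
  have hninfl : ∀ g h s s' : ↥U, (s : lcf_Gal q) ∈ U' → (s' : lcf_Gal q) ∈ U' →
      n (g * s, h * s') = n (g, h) := by
    intro g h s s' hs hs'
    apply h3u_zpow_inj hϖpos hϖlt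
    rw [← hn, ← hn, hf1 g h s s' hs hs']
  -- `d n = 0`
  have hnd : ∀ g h k : ↥U, n (h, k) + n (g, h * k) = n (g * h, k) + n (g, h) := by
    intro g h k
    apply h3u_zpow_inj hϖpos hϖlt
    have e := congrFun hfd (g, h, k)
    have e' : g • f (h, k) * f (g, h * k) = z (g, h, k) * (f (g * h, k) * f (g, h)) := by
      have : lcf_d₂₃ U f (g, h, k) =
          g • f (h, k) * f (g, h * k) / (f (g * h, k) * f (g, h)) := rfl
      rw [this] at e
      rw [← e, div_mul_cancel]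
    have e'' := congrArg (fun u : (PadicAlgCl q)ˣ => ‖(u : PadicAlgCl q)‖) e'
    simp only [Units.val_mul, norm_mul] at e''
    rw [h3u_norm_smul, hz1, one_mul, hn, hn, hn, hn] at e''
    rw [zpow_add₀ hϖpos.ne', zpow_add₀ hϖpos.ne']
    exact e''
  -- the corrected cochain
  refine ⟨fun x => f x / ϖ ^ n x, ⟨?_, ?_⟩, ?_, ?_⟩
  · intro g h s s' hs hs'
    show f (g * s, h * s') / ϖ ^ n (g * s, h * s') = f (g, h) / ϖ ^ n (g, h)
    rw [hf1 g h s s' hs hs', hninfl g h s s' hs hs']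
  · intro g h s hs
    show s • (f (g, h) / ϖ ^ n (g, h)) = f (g, h) / ϖ ^ n (g, h)
    rw [smul_div', hf2 g h s hs, h3u_smul_zpow U s ϖ (hϖfix s)]
  · intro x
    show ‖((f x / ϖ ^ n x : (PadicAlgCl q)ˣ) : PadicAlgCl q)‖ = 1
    rw [Units.val_div_eq_div_val, norm_div, Units.val_zpow_eq_zpow_val, norm_zpow, hn x]
    exact div_self (zpow_ne_zero _ hϖpos.ne')
  · funext x
    obtain ⟨g, h, k⟩ := x
    have e := congrFun hfd (g, h, k)
    rw [← e]
    show g • (f (h, k) / ϖ ^ n (h, k)) * (f (g, h * k) / ϖ ^ n (g, h * k)) /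
        ((f (g * h, k) / ϖ ^ n (g * h, k)) * (f (g, h) / ϖ ^ n (g, h))) =
      g • f (h, k) * f (g, h * k) / (f (g * h, k) * f (g, h))
    rw [smul_div', h3u_smul_zpow U g ϖ (hϖfix g)]
    exact h3u_comm_aux _ _ _ _ ϖ _ _ _ _ (hnd g h k)

end main

end

end Fermat.Agent.S55
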