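/-
S55 (wave 5), LOCAL side, leaf [FIN-KP] = `lcf_FinKpStatement`: finiteness of `Kˣ/Kˣᵖ` for the
fixed field `K` of an open subgroup of the local Galois group.  Owner: helper27.  Prefix `lfk_`.

ROUTE.  (1) In a complete nontrivially normed field in which `p ≠ 0`, the `p`-th powers form a
neighbourhood of `1` (inverse function theorem for `x ↦ x ^ p` at `1`).  (2) The closed unit ball
of a local field is covered by finitely many balls of any given radius (`lf_exists_finset_approx`).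
(3) `Kˣ = ϖ ^ ℤ × 𝒪ˣ` and `ℤ = pℤ + {0, .., p - 1}`.
-/
import Fermat.Agent.S55.Local.LDLeaves
import Fermat.Agent.S55.Local.Unif

set_option autoImplicit false

noncomputable section

namespace Fermat.Agent.S55

open Metric Filter Topology

/-- A cancellation identity in a commutative group. -/
theorem lfk_aux {G : Type*} [CommGroup G] (A B C U : G) :
    A * B * (C * (U * B⁻¹)) = A * C * U := by
  rw [mul_mul_mul_comm, mul_left_comm B U, mul_inv_cancel, mul_one]

section Abstract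

variable (K : Type*) [NormedField K] [lf_IsLocal K]

/-- In a local field in which `p ≠ 0`, every element close to `1` is a `p`-th power. -/
theorem lfk_exists_ball_pow (p : ℕ) (hp : (p : K) ≠ 0) :
    ∃ ε : ℝ, 0 < ε ∧ ∀ x : K, ‖x - 1‖ < ε → ∃ y : K, y ^ p = x := by
  let _ := lf_nontriviallyNormedField K
  have hd : HasStrictDerivAt (fun x : K => x ^ p) ((p : K) * (1 : K) ^ (p - 1)) 1 :=
    hasStrictDerivAt_pow p 1
  have hne : (p : K) * (1 : K) ^ (p - 1) ≠ 0 := by
    rw [one_pow, mul_one]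
    exact hp
  have hmap := hd.map_nhds_eq hne
  have hrange : Set.range (fun x : K => x ^ p) ∈ 𝓝 ((1 : K) ^ p) := by
    rw [← hmap]
    exact Filter.range_mem_map
  rw [one_pow] at hrange
  obtain ⟨ε, hε, hball⟩ := Metric.mem_nhds_iff.mp hrange
  refine ⟨ε, hε, fun x hx => ?_⟩
  have hx' : x ∈ ball (1 : K) ε := by
    rw [mem_ball, dist_eq_norm]
    exact hx
  exact hball hx'

/-- **[FIN-KP], abstract form**: in a local field in which `p ≠ 0` (and `p ≠ 0` in `ℕ`), the group
`Kˣ/Kˣᵖ` has a finite system of representatives. -/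
theorem lfk_finKp_abs (p : ℕ) (hp0 : p ≠ 0) (hp : (p : K) ≠ 0) :
    ∃ s : Finset Kˣ, ∀ a : Kˣ, ∃ c ∈ s, ∃ b : Kˣ, a = c * b ^ p := by
  classical
  obtain ⟨ε, hε, hpow⟩ := lfk_exists_ball_pow K p hp
  have hlt := lf_norm_unif_lt_one K
  have hpos := lf_norm_unif_pos K
  obtain ⟨m, hm⟩ := exists_pow_lt_of_lt_one (lt_min hε one_pos) hlt
  obtain ⟨t, ht⟩ := lf_exists_finset_approx K m
  -- the finite set of representatives
  let tu : Finset Kˣ := t.image (fun a : K => if h : a = 0 then (1 : Kˣ) else Units.mk0 a h)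
  refine ⟨(Finset.range p ×ˢ tu).image (fun ic => lf_unifUnit K ^ ic.1 * ic.2), fun a => ?_⟩
  -- decompose `a = ϖ ^ n * u`
  obtain ⟨n, hn⟩ : ∃ n : ℤ, n = lf_ordFun K a := ⟨_, rfl⟩
  obtain ⟨u, hu⟩ : ∃ u : Kˣ, u = a * (lf_unifUnit K ^ n)⁻¹ := ⟨_, rfl⟩
  have hu1 : ‖(u : K)‖ = 1 := by
    rw [← lf_mem_units_iff, lf_mem_units_iff_ordFun, hu, lf_ordFun_mul, lf_ordFun_inv, ← hn]
    have : lf_ordFun K (lf_unifUnit K ^ n) = n := by
      have h1 := congrArg Multiplicative.toAdd (map_zpow (lf_ord K) (lf_unifUnit K) n)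
      rw [lf_ord_apply, lf_ord_apply, lf_ordFun_unifUnit] at h1
      rw [show lf_ordFun K (lf_unifUnit K ^ n) = Multiplicative.toAdd
        (Multiplicative.ofAdd (lf_ordFun K (lf_unifUnit K ^ n))) from rfl, h1, toAdd_zpow]
      simp
    rw [this]
    exact sub_self n |>.symm ▸ (by ring)
  -- approximate `u`
  obtain ⟨a0, ha0t, ha0⟩ := ht (u : K) hu1.le
  have hlt1 : ‖(u : K) - a0‖ < 1 := lt_of_le_of_lt ha0 (lt_of_lt_of_le hm (min_le_right _ _))
  have hltε : ‖(u : K) - a0‖ < ε := lt_of_le_of_lt ha0 (lt_of_lt_of_le hm (min_le_left _ _))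
  have ha0n : ‖a0‖ = 1 := by
    have h1 : ‖a0‖ ≤ 1 := by
      have : a0 = (u : K) - ((u : K) - a0) := by ring
      rw [this]
      exact (lf_norm_sub_le_max _ _).trans (max_le hu1.le hlt1.le)
    by_contra hne
    have h2 : ‖a0‖ < 1 := lt_of_le_of_ne h1 hne
    have h3 : ‖(u : K)‖ < 1 := by
      have : (u : K) = ((u : K) - a0) + a0 := by ring
      rw [this]
      exact (lf_norm_add_le_max _ _).trans_lt (max_lt hlt1 h2)
    rw [hu1] at h3
    exact lt_irrefl _ h3
  have ha0ne : a0 ≠ 0 := by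
    rintro rfl
    rw [norm_zero] at ha0n
    exact zero_ne_one ha0n
  -- `u / a0` is a `p`-th power
  have hquot : ‖(u : K) / a0 - 1‖ < ε := by
    have : (u : K) / a0 - 1 = ((u : K) - a0) / a0 := by field_simp
    rw [this, norm_div, ha0n, div_one]
    exact hltε
  obtain ⟨y, hy⟩ := hpow _ hquot
  have hyne : y ≠ 0 := by
    rintro rfl
    rw [zero_pow hp0] at hy
    exact (div_ne_zero u.ne_zero ha0ne) hy.symm
  -- assemble
  refine ⟨lf_unifUnit K ^ (n % p).toNat * Units.mk0 a0 ha0ne, ?_,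
    lf_unifUnit K ^ (n / p) * Units.mk0 y hyne, ?_⟩
  · refine Finset.mem_image.mpr ⟨((n % p).toNat, Units.mk0 a0 ha0ne),
      Finset.mem_product.mpr ⟨?_, ?_⟩, rfl⟩
    · rw [Finset.mem_range]
      have h1 : n % (p : ℤ) < p := Int.emod_lt_of_pos _ (by exact_mod_cast Nat.pos_of_ne_zero hp0)
      have h2 : 0 ≤ n % (p : ℤ) := Int.emod_nonneg _ (by exact_mod_cast hp0)
      omega
    · refine Finset.mem_image.mpr ⟨a0, ha0t, ?_⟩
      rw [dif_neg ha0ne]
  · have h2 : 0 ≤ n % (p : ℤ) := Int.emod_nonneg _ (by exact_mod_cast hp0)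
    have hnat : ((n % (p : ℤ)).toNat : ℤ) = n % p := Int.toNat_of_nonneg h2
    have hsplit : lf_unifUnit K ^ n =
        lf_unifUnit K ^ (n % p).toNat * (lf_unifUnit K ^ (n / p)) ^ p := by
      rw [← zpow_natCast (lf_unifUnit K) (n % p).toNat, hnat, ← zpow_natCast _ p, ← zpow_mul,
        ← zpow_add, mul_comm (n / (p : ℤ)) p, Int.emod_add_mul_ediv]
    have hyu : (Units.mk0 y hyne) ^ p = u * (Units.mk0 a0 ha0ne)⁻¹ := by
      apply Units.ext
      rw [Units.val_pow_eq_pow_val, Units.val_mk0, hy, Units.val_mul, Units.val_inv_eq_inv_val,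
        Units.val_mk0, div_eq_mul_inv]
    have ha : a = lf_unifUnit K ^ n * u := by
      rw [hu, mul_comm a, ← mul_assoc, mul_inv_cancel, one_mul]
    rw [mul_pow, hyu, ha, hsplit]
    exact (lfk_aux _ _ _ _).symm

end Abstract

section Concrete

variable {q : ℕ} [Fact q.Prime]

/-- **[FIN-KP]** finiteness of `Kˣ/Kˣᵖ` for the fixed field of an open subgroup, for every natural
number `p ≠ 0`. -/
theorem lfk_finKp_nat (p : ℕ) (hp0 : p ≠ 0) (U : Subgroup (lcf_Gal q)) (hU : lcf_IsOpen U) :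
    ∃ s : Finset (PadicAlgCl q)ˣ, ∀ a : (PadicAlgCl q)ˣ, (∀ g : ↥U, g • a = a) →
      ∃ c ∈ s, ∃ b : (PadicAlgCl q)ˣ, (∀ g : ↥U, g • b = b) ∧ a = c * b ^ p := by
  classical
  have hfd : FiniteDimensional ℚ_[q] (IntermediateField.fixedField U) :=
    lunif_finiteDimensional hU
  have hpK : ((p : ℕ) : ↥(IntermediateField.fixedField U)) ≠ 0 := by
    intro h
    have h1 := congrArg (fun x : ↥(IntermediateField.fixedField U) => (x : PadicAlgCl q)) h
    have h2 : ((p : ↥(IntermediateField.fixedField U)) : PadicAlgCl q) = (p : PadicAlgCl q) :=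
      map_natCast (IntermediateField.fixedField U).val p
    have h3 : (p : PadicAlgCl q) = 0 := h2.symm.trans h1
    exact hp0 (by exact_mod_cast h3)
  obtain ⟨s, hs⟩ := lfk_finKp_abs (↥(IntermediateField.fixedField U)) p hp0 hpK
  let φ : (↥(IntermediateField.fixedField U))ˣ →* (PadicAlgCl q)ˣ :=
    Units.map ((IntermediateField.fixedField U).val : _ →* PadicAlgCl q)
  have hφfix : ∀ (x : (↥(IntermediateField.fixedField U))ˣ) (g : ↥U), g • φ x = φ x :=
    fun x g => lunif_smul_eq (x := φ x) (x : ↥(IntermediateField.fixedField U)).2 g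
  refine ⟨s.image φ, fun a ha => ?_⟩
  have haK := lunif_mem_fixedField ha
  have ha0 : (⟨(a : PadicAlgCl q), haK⟩ : ↥(IntermediateField.fixedField U)) ≠ 0 := fun h =>
    a.ne_zero (congrArg Subtype.val h)
  obtain ⟨c, hc, b, hab⟩ := hs (Units.mk0 _ ha0)
  refine ⟨φ c, Finset.mem_image_of_mem φ hc, φ b, hφfix b, ?_⟩
  have h1 := congrArg φ hab
  rw [map_mul, map_pow] at h1
  rw [← h1]
  exact Units.ext rfl

/-- **[FIN-KP]** `lcf_FinKpStatement`. -/
theorem lfk_finKp : lcf_FinKpStatement := by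
  intro q _ p _ U hU
  exact lfk_finKp_nat p (Fact.out : p.Prime).ne_zero U hU

end Concrete

end Fermat.Agent.S55
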