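/-
S55 (wave 5), LOCAL side, leaf [FIN-HOM] = `lcf_FinHomStatement`: an open subgroup `U` of the local
Galois group has only finitely many smooth characters of order `p`.
Owner: helper27.  Prefix `lfk_`.

ROUTE.  `ζ` a primitive `p`-th root of unity of `Ω`, `U' = U ∩ Stab(ζ)` (open; `g ^ (p - 1) ∈ U'`
for every `g ∈ U`, hence a character of order `p` of `U` is determined by its restriction to `U'`).
For a smooth character `θ` of `U` the map `κ = ζ ^ θ` is a smooth 1-cocycle on `U'`, hence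
(`lkum_kummer1`) `κ g = g α / α` with `α ^ p ∈ K_{U'}`; by [FIN-KP] (`lfk_finKp`) `α` can be
normalised so that `α ^ p` lies in a fixed finite set `s`.  So `θ ↦ α` is an injection of the set
of smooth characters into the finite set `{x : x ^ p ∈ s}`.
-/
import Fermat.Agent.S55.Local.FinKp
import Fermat.Agent.S55.Local.Kummer

set_option autoImplicit false

noncomputable section

namespace Fermat.Agent.S55

open groupCohomology

variable {q : ℕ} [Fact q.Prime]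

/-- `Ω` contains a primitive `p`-th root of unity. -/
theorem lfk_exists_zeta (q : ℕ) [Fact q.Prime] (p : ℕ) [Fact p.Prime] :
    ∃ ζ : (PadicAlgCl q)ˣ, IsPrimitiveRoot ζ p := by
  have : NeZero p := ⟨(Fact.out : p.Prime).ne_zero⟩
  have : NeZero (p : PadicAlgCl q) := ⟨by exact_mod_cast (Fact.out : p.Prime).ne_zero⟩
  obtain ⟨ζ, hζ⟩ := HasEnoughRootsOfUnity.exists_primitiveRoot (PadicAlgCl q) p
  have hu : IsUnit ζ := hζ.isUnit (Fact.out : p.Prime).ne_zero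
  refine ⟨hu.unit, ?_⟩
  rw [← IsPrimitiveRoot.coe_units_iff]
  exact hζ

/-- The `(p - 1)`-st power of every automorphism fixes a primitive `p`-th root of unity. -/
theorem lfk_pow_smul_zeta {p : ℕ} [Fact p.Prime] {ζ : (PadicAlgCl q)ˣ} (hζ : IsPrimitiveRoot ζ p)
    (g : lcf_Gal q) : (g ^ (p - 1)) • ζ = ζ := by
  have : NeZero p := ⟨(Fact.out : p.Prime).ne_zero⟩
  have hζ' : IsPrimitiveRoot (ζ : PadicAlgCl q) p := IsPrimitiveRoot.coe_units_iff.2 hζ
  have h1 := hζ'.autToPow_spec ℚ_[q] (g ^ (p - 1))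
  rw [map_pow, ZMod.units_pow_card_sub_one_eq_one, Units.val_one, ZMod.val_one, pow_one] at h1
  exact Units.ext h1.symm

/-- The subgroup `U ∩ Stab(ζ)`. -/
def lfk_stab (U : Subgroup (lcf_Gal q)) (ζ : (PadicAlgCl q)ˣ) : Subgroup (lcf_Gal q) :=
  U ⊓ MulAction.stabilizer (lcf_Gal q) ζ

theorem lfk_stab_le (U : Subgroup (lcf_Gal q)) (ζ : (PadicAlgCl q)ˣ) : lfk_stab U ζ ≤ U :=
  inf_le_left

theorem lfk_stab_smul (U : Subgroup (lcf_Gal q)) (ζ : (PadicAlgCl q)ˣ) (g : ↥(lfk_stab U ζ)) :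
    g • ζ = ζ :=
  MulAction.mem_stabilizer_iff.1 g.2.2

/-- `U ∩ Stab(ζ)` is open. -/
theorem lfk_stab_isOpen {U : Subgroup (lcf_Gal q)} (hU : lcf_IsOpen U) (ζ : (PadicAlgCl q)ˣ) :
    lcf_IsOpen (lfk_stab U ζ) := by
  obtain ⟨E, hE, hEU⟩ := hU
  have : FiniteDimensional ℚ_[q] ↥E := hE
  have hint : IsIntegral ℚ_[q] (ζ : PadicAlgCl q) := Algebra.IsIntegral.isIntegral _
  have : FiniteDimensional ℚ_[q] ↥(IntermediateField.adjoin ℚ_[q] {(ζ : PadicAlgCl q)}) :=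
    IntermediateField.adjoin.finiteDimensional hint
  refine ⟨E ⊔ IntermediateField.adjoin ℚ_[q] {(ζ : PadicAlgCl q)},
    IntermediateField.finiteDimensional_sup _ _, fun g hg => ⟨?_, ?_⟩⟩
  · exact hEU (IntermediateField.fixingSubgroup_antitone le_sup_left hg)
  · have h1 := IntermediateField.fixingSubgroup_antitone
      (le_sup_right : IntermediateField.adjoin ℚ_[q] {(ζ : PadicAlgCl q)} ≤ _) hg
    have h2 : g (ζ : PadicAlgCl q) = ζ :=
      (IntermediateField.mem_fixingSubgroup_iff _ _).1 h1 _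
        (IntermediateField.mem_adjoin_simple_self ℚ_[q] _)
    exact MulAction.mem_stabilizer_iff.2 (Units.ext h2)

/-- For `g ∈ U`, `g ^ (p - 1) ∈ U ∩ Stab(ζ)`. -/
theorem lfk_pow_mem_stab {p : ℕ} [Fact p.Prime] {ζ : (PadicAlgCl q)ˣ} (hζ : IsPrimitiveRoot ζ p)
    (U : Subgroup (lcf_Gal q)) (g : ↥U) : (g : lcf_Gal q) ^ (p - 1) ∈ lfk_stab U ζ :=
  ⟨U.pow_mem g.2 _, MulAction.mem_stabilizer_iff.2 (lfk_pow_smul_zeta hζ g)⟩

/-- Every element of `Multiplicative (ZMod p)` is killed by `p`. -/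
theorem lfk_pow_p_eq_one {p : ℕ} [Fact p.Prime] (x : Multiplicative (ZMod p)) : x ^ p = 1 := by
  show Multiplicative.ofAdd (p • Multiplicative.toAdd x) = Multiplicative.ofAdd 0
  rw [nsmul_eq_mul, ZMod.natCast_self, zero_mul]

/-- Two characters of order `p` of `U` which agree on `U ∩ Stab(ζ)` are equal. -/
theorem lfk_eq_of_eq_on_stab {p : ℕ} [Fact p.Prime] {ζ : (PadicAlgCl q)ˣ}
    (hζ : IsPrimitiveRoot ζ p) (U : Subgroup (lcf_Gal q))
    (θ θ' : ↥U →* Multiplicative (ZMod p))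
    (h : ∀ g : ↥U, (g : lcf_Gal q) ∈ lfk_stab U ζ → θ g = θ' g) : θ = θ' := by
  ext g
  have hp1 : 1 ≤ p := (Fact.out : p.Prime).one_lt.le
  have h1 : θ (g ^ (p - 1)) = θ' (g ^ (p - 1)) :=
    h (g ^ (p - 1)) (by
      rw [Subgroup.coe_pow]
      exact lfk_pow_mem_stab hζ U g)
  rw [map_pow, map_pow] at h1
  have h2 : ∀ x : Multiplicative (ZMod p), x = (x ^ (p - 1))⁻¹ := by
    intro x
    rw [eq_inv_iff_mul_eq_one, ← pow_succ', Nat.sub_add_cancel hp1, lfk_pow_p_eq_one]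
  have h3 : θ g = θ' g := by rw [h2 (θ g), h1, ← h2 (θ' g)]
  exact congrArg Multiplicative.toAdd h3

/-- The cochain `κ = ζ ^ θ` on `U ∩ Stab(ζ)` attached to a character `θ` of `U`. -/
def lfk_kappa {p : ℕ} (U : Subgroup (lcf_Gal q)) (ζ : (PadicAlgCl q)ˣ)
    (θ : ↥U →* Multiplicative (ZMod p)) : ↥(lfk_stab U ζ) → (PadicAlgCl q)ˣ :=
  fun g => ζ ^ (Multiplicative.toAdd (θ (Subgroup.inclusion (lfk_stab_le U ζ) g))).val

theorem lfk_kappa_pow {p : ℕ} [Fact p.Prime] {ζ : (PadicAlgCl q)ˣ} (hζ : IsPrimitiveRoot ζ p)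
    (U : Subgroup (lcf_Gal q)) (θ : ↥U →* Multiplicative (ZMod p)) (g : ↥(lfk_stab U ζ)) :
    lfk_kappa U ζ θ g ^ p = 1 := by
  rw [lfk_kappa, ← pow_mul, mul_comm, pow_mul, hζ.pow_eq_one, one_pow]

theorem lfk_kappa_isCocycle {p : ℕ} [Fact p.Prime] {ζ : (PadicAlgCl q)ˣ}
    (hζ : IsPrimitiveRoot ζ p) (U : Subgroup (lcf_Gal q)) (θ : ↥U →* Multiplicative (ZMod p)) :
    IsMulCocycle₁ (lfk_kappa U ζ θ) := by
  intro g h
  have hg : g • lfk_kappa U ζ θ h = lfk_kappa U ζ θ h := by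
    rw [lfk_kappa, smul_pow', lfk_stab_smul U ζ g]
  rw [hg]
  show ζ ^ (Multiplicative.toAdd (θ (Subgroup.inclusion (lfk_stab_le U ζ) (g * h)))).val =
    ζ ^ (Multiplicative.toAdd (θ (Subgroup.inclusion (lfk_stab_le U ζ) h))).val *
      ζ ^ (Multiplicative.toAdd (θ (Subgroup.inclusion (lfk_stab_le U ζ) g))).val
  rw [map_mul, map_mul, toAdd_mul, ZMod.val_add, ← pow_eq_pow_mod _ hζ.pow_eq_one, pow_add,
    mul_comm]

theorem lfk_kappa_smooth {p : ℕ} (U : Subgroup (lcf_Gal q)) (ζ : (PadicAlgCl q)ˣ)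
    (θ : ↥U →* Multiplicative (ZMod p)) (hθ : lcf_Smooth₁ U θ) :
    lcf_Smooth₁ (lfk_stab U ζ) (lfk_kappa U ζ θ) := by
  obtain ⟨E, hE, h⟩ := hθ
  refine ⟨E, hE, fun g s hs => ?_⟩
  show ζ ^ (Multiplicative.toAdd (θ (Subgroup.inclusion (lfk_stab_le U ζ) (g * s)))).val =
    ζ ^ (Multiplicative.toAdd (θ (Subgroup.inclusion (lfk_stab_le U ζ) g))).val
  rw [map_mul (Subgroup.inclusion (lfk_stab_le U ζ)) g s,
    h (Subgroup.inclusion (lfk_stab_le U ζ) g) (Subgroup.inclusion (lfk_stab_le U ζ) s) hs]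

/-- The set of `p`-th roots of the elements of a finite set of units is finite. -/
theorem lfk_finite_roots (p : ℕ) (hp0 : p ≠ 0) (s : Finset (PadicAlgCl q)ˣ) :
    {x : (PadicAlgCl q)ˣ | x ^ p ∈ s}.Finite := by
  classical
  have hsub : {x : (PadicAlgCl q)ˣ | x ^ p ∈ s} ⊆
      ⋃ c ∈ (s : Set (PadicAlgCl q)ˣ), (Units.val ⁻¹'
        ((Polynomial.nthRoots p (c : PadicAlgCl q)).toFinset : Set (PadicAlgCl q))) := by
    intro x hx
    refine Set.mem_biUnion (x := x ^ p) hx ?_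
    rw [Set.mem_preimage, Finset.mem_coe, Multiset.mem_toFinset,
      Polynomial.mem_nthRoots (Nat.pos_of_ne_zero hp0), Units.val_pow_eq_pow_val]
  refine Set.Finite.subset (Set.Finite.biUnion s.finite_toSet fun c _ => ?_) hsub
  exact Set.Finite.preimage Units.val_injective.injOn (Finset.finite_toSet _)

/-- Kummer theory + [FIN-KP]: there is a finite set `R` of units such that for every smooth
character `θ` of `U` the cocycle `ζ ^ θ` on `U ∩ Stab(ζ)` is the coboundary of an element of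
`R`. -/
theorem lfk_exists_root {p : ℕ} [Fact p.Prime] {U : Subgroup (lcf_Gal q)} (hU : lcf_IsOpen U)
    {ζ : (PadicAlgCl q)ˣ} (hζ : IsPrimitiveRoot ζ p) :
    ∃ R : Set (PadicAlgCl q)ˣ, R.Finite ∧ ∀ θ : ↥U →* Multiplicative (ZMod p),
      lcf_Smooth₁ U θ → ∃ x ∈ R, ∀ g : ↥(lfk_stab U ζ), lfk_kappa U ζ θ g = g • x / x := by
  have hp0 : p ≠ 0 := (Fact.out : p.Prime).ne_zero
  have hopen := lfk_stab_isOpen hU ζ
  obtain ⟨s, hs⟩ := lfk_finKp q p (lfk_stab U ζ) hopen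
  refine ⟨{x | x ^ p ∈ s}, lfk_finite_roots p hp0 s, fun θ hθ => ?_⟩
  obtain ⟨α, hαfix, hα⟩ := lkum_kummer1 q p (lfk_stab U ζ) hopen (lfk_kappa U ζ θ)
    (lfk_kappa_smooth U ζ θ hθ) (lfk_kappa_isCocycle hζ U θ) (lfk_kappa_pow hζ U θ)
  obtain ⟨c, hc, b, hb, hαc⟩ := hs (α ^ p) hαfix
  refine ⟨α / b, ?_, fun g => ?_⟩
  · show (α / b) ^ p ∈ s
    rw [div_pow, hαc, mul_div_cancel_right]
    exact hc
  · rw [hα g, smul_div', hb g, div_div_div_cancel_right]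

/-- **[FIN-HOM]** `lcf_FinHomStatement`: an open subgroup has only finitely many smooth characters
of order `p`. -/
theorem lfk_finHom : lcf_FinHomStatement := by
  intro q _ p _ U hU
  obtain ⟨ζ, hζ⟩ := lfk_exists_zeta q p
  obtain ⟨R, hR, hex⟩ := lfk_exists_root hU hζ
  choose! F hFR hF using hex
  refine Set.Finite.of_injOn (f := F) (t := R) (fun θ hθ => hFR θ hθ) ?_ hR
  intro θ hθ θ' hθ' hFF
  refine lfk_eq_of_eq_on_stab hζ U θ θ' fun g hg => ?_
  have h1 := hF θ hθ ⟨g, hg⟩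
  have h2 := hF θ' hθ' ⟨g, hg⟩
  rw [← hFF] at h2
  have h3 : lfk_kappa U ζ θ ⟨g, hg⟩ = lfk_kappa U ζ θ' ⟨g, hg⟩ := h1.trans h2.symm
  have h4 : (Multiplicative.toAdd (θ g)).val = (Multiplicative.toAdd (θ' g)).val :=
    hζ.pow_inj (ZMod.val_lt _) (ZMod.val_lt _) h3
  exact congrArg Multiplicative.ofAdd (ZMod.val_injective p h4)

end Fermat.Agent.S55
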