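/-
S55 (wave 5), LOCAL side, leaf [HILB-R] (right non-degeneracy of the norm residue symbol of
exponent `p`) together with the DICTIONARY between open subgroups `U' ≤ U` of the local Galois
group and the finite extension `K_{U'} / K_U` of local fields.  Owner: helper11.  Prefix `hilb_`.

* `hilb_fix_fixed`, `hilb_finite` : `U` open ⇒ `Gal(Ω / K_U) = U`, `K_U / ℚ_q` finite;
* `hilb_top U U' h` : `K_{U'}` as an intermediate field of `Ω / K_U`; `hilb_res` : restriction of
  `σ ∈ U` to `K_{U'}` (for `U'` normal in `U`); `hilb_isGalois`, `hilb_resHom_surjective`,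
  `hilb_res_eq_one_iff` : `K_{U'} / K_U` is Galois with group `U / U'`;
* for a smooth character `θ : U → ℤ/n` with `θ σ = 1` : `hilb_isCyclic`, `hilb_finrank`,
  `hilb_norm_eq` (the norm is `∏_{i<n} σ^i`);
* `hilb_exists_not_norm`, `hilb_R`.
-/
import Fermat.Agent.S55.Local.SymMain

set_option autoImplicit false
set_option linter.unusedSectionVars false

noncomputable section

namespace Fermat.Agent.S55

open groupCohomology

section Dict

variable {q : ℕ} [Fact q.Prime]

theorem hilb_isClosed (U : Subgroup (lcf_Gal q)) (hU : lcf_IsOpen U) :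
    IsClosed (U : Set (lcf_Gal q)) := by
  obtain ⟨E, hE, hEU⟩ := hU
  exact Subgroup.isClosed_of_isOpen U (Subgroup.isOpen_mono hEU E.fixingSubgroup_isOpen)

theorem hilb_fix_fixed (U : Subgroup (lcf_Gal q)) (hU : lcf_IsOpen U) :
    (IntermediateField.fixedField U).fixingSubgroup = U :=
  InfiniteGalois.fixingSubgroup_fixedField ⟨U, hilb_isClosed U hU⟩

theorem hilb_finite (U : Subgroup (lcf_Gal q)) (hU : lcf_IsOpen U) :
    FiniteDimensional ℚ_[q] (IntermediateField.fixedField U) := by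
  obtain ⟨E, hE, hEU⟩ := hU
  have h1 : IntermediateField.fixedField U ≤ E := by
    have := IntermediateField.fixedField_antitone hEU
    rwa [InfiniteGalois.fixedField_fixingSubgroup] at this
  exact FiniteDimensional.of_injective (IntermediateField.inclusion h1).toLinearMap
    (IntermediateField.inclusion_injective h1)

/-- The fixed field of `U' ≤ U` as an intermediate field over the fixed field of `U`. -/
def hilb_top (U U' : Subgroup (lcf_Gal q)) (h : U' ≤ U) :
    IntermediateField ↥(IntermediateField.fixedField U) (PadicAlgCl q) :=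
  IntermediateField.extendScalars (F := IntermediateField.fixedField U)
    (E := IntermediateField.fixedField U') (IntermediateField.fixedField_antitone h)

theorem hilb_mem_top {U U' : Subgroup (lcf_Gal q)} (h : U' ≤ U) (x : PadicAlgCl q) :
    x ∈ hilb_top U U' h ↔ ∀ u ∈ U', u x = x := by
  unfold hilb_top
  rw [IntermediateField.mem_extendScalars, IntermediateField.mem_fixedField_iff]

theorem hilb_top_finite (U U' : Subgroup (lcf_Gal q)) (h : U' ≤ U) (hU' : lcf_IsOpen U') :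
    FiniteDimensional ↥(IntermediateField.fixedField U) ↥(hilb_top U U' h) := by
  have h1 := hilb_finite U' hU'
  have h2 : FiniteDimensional ℚ_[q] ↥(hilb_top U U' h) := h1
  exact FiniteDimensional.right ℚ_[q] ↥(IntermediateField.fixedField U) ↥(hilb_top U U' h)

/-- The restriction of `σ ∈ U` to the fixed field of a normal subgroup `U'` of `U`. -/
def hilb_res (U U' : Subgroup (lcf_Gal q)) (h : U' ≤ U)
    (hn : ∀ g ∈ U, ∀ u ∈ U', g⁻¹ * u * g ∈ U') (σ : ↥U) :
    ↥(hilb_top U U' h) ≃ₐ[↥(IntermediateField.fixedField U)] ↥(hilb_top U U' h) where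
  toFun x := ⟨(σ : lcf_Gal q) (x : PadicAlgCl q), by
    rw [hilb_mem_top]
    intro u hu
    have h1 := (hilb_mem_top h _).1 x.2 _ (hn σ σ.2 u hu)
    have h2 : u ((σ : lcf_Gal q) (x : PadicAlgCl q)) =
        (σ : lcf_Gal q) (((σ : lcf_Gal q)⁻¹ * u * σ) (x : PadicAlgCl q)) := by
      simp [AlgEquiv.mul_apply]
    rw [h2, h1]⟩
  invFun x := ⟨(σ : lcf_Gal q)⁻¹ (x : PadicAlgCl q), by
    rw [hilb_mem_top]
    intro u hu
    have h0 := hn (σ⁻¹ : ↥U) (σ⁻¹ : ↥U).2 u hu
    have h1 := (hilb_mem_top h _).1 x.2 _ h0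
    have h2 : u ((σ : lcf_Gal q)⁻¹ (x : PadicAlgCl q)) =
        (σ : lcf_Gal q)⁻¹ (((((σ⁻¹ : ↥U) : lcf_Gal q))⁻¹ * u * ((σ⁻¹ : ↥U) : lcf_Gal q))
          (x : PadicAlgCl q)) := by
      simp [AlgEquiv.mul_apply]
    rw [h2, h1]⟩
  left_inv x := by
    apply Subtype.ext
    simp
  right_inv x := by
    apply Subtype.ext
    simp
  map_mul' x y := by
    apply Subtype.ext
    simp
  map_add' x y := by
    apply Subtype.ext
    simp
  commutes' k := by
    apply Subtype.ext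
    have := (IntermediateField.mem_fixedField_iff U _).1 k.2 σ σ.2
    exact this

variable {U U' : Subgroup (lcf_Gal q)} (h : U' ≤ U)
  (hn : ∀ g ∈ U, ∀ u ∈ U', g⁻¹ * u * g ∈ U')

@[simp]
theorem hilb_res_coe (σ : ↥U) (x : ↥(hilb_top U U' h)) :
    ((hilb_res U U' h hn σ x : ↥(hilb_top U U' h)) : PadicAlgCl q) =
      (σ : lcf_Gal q) (x : PadicAlgCl q) := rfl

theorem hilb_res_mul (σ τ : ↥U) :
    hilb_res U U' h hn (σ * τ) = hilb_res U U' h hn σ * hilb_res U U' h hn τ := by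
  ext x
  rfl

theorem hilb_res_one : hilb_res U U' h hn 1 = 1 := by
  ext x
  rfl

/-- The restriction homomorphism `U → Gal(K_{U'}/K_U)`. -/
def hilb_resHom : ↥U →* (↥(hilb_top U U' h) ≃ₐ[↥(IntermediateField.fixedField U)]
    ↥(hilb_top U U' h)) where
  toFun := hilb_res U U' h hn
  map_one' := hilb_res_one h hn
  map_mul' := hilb_res_mul h hn

theorem hilb_resHom_apply (σ : ↥U) : hilb_resHom h hn σ = hilb_res U U' h hn σ := rfl

theorem hilb_res_pow (σ : ↥U) (i : ℕ) :
    hilb_res U U' h hn (σ ^ i) = hilb_res U U' h hn σ ^ i :=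
  map_pow (hilb_resHom h hn) σ i

/-- The kernel of the restriction is `U'`. -/
theorem hilb_res_eq_one_iff (hU' : lcf_IsOpen U') (σ : ↥U) :
    hilb_res U U' h hn σ = 1 ↔ (σ : lcf_Gal q) ∈ U' := by
  constructor
  · intro hσ
    rw [← hilb_fix_fixed U' hU']
    intro x
    have h1 := congrArg (fun f => ((f ⟨x.1, (hilb_mem_top h _).2
      (fun u hu => (IntermediateField.mem_fixedField_iff U' _).1 x.2 u hu)⟩ :
      ↥(hilb_top U U' h)) : PadicAlgCl q)) hσ
    exact h1
  · intro hσ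
    ext x
    exact (hilb_mem_top h _).1 x.2 _ hσ

include hn in
/-- An element of the top field fixed by the restrictions of all elements of `U` lies in the
bottom field. -/
theorem hilb_fixed_bot : IntermediateField.fixedField
    (⊤ : Subgroup (↥(hilb_top U U' h) ≃ₐ[↥(IntermediateField.fixedField U)]
      ↥(hilb_top U U' h))) = ⊥ := by
  rw [eq_bot_iff]
  intro x hx
  rw [IntermediateField.mem_fixedField_iff] at hx
  rw [IntermediateField.mem_bot]
  have hxU : (x : PadicAlgCl q) ∈ IntermediateField.fixedField U := by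
    rw [IntermediateField.mem_fixedField_iff]
    intro g hg
    have := hx (hilb_res U U' h hn ⟨g, hg⟩) (Subgroup.mem_top _)
    exact congrArg Subtype.val this
  exact ⟨⟨x, hxU⟩, Subtype.ext rfl⟩

include hn in
theorem hilb_isGalois (hU' : lcf_IsOpen U') :
    IsGalois ↥(IntermediateField.fixedField U) ↥(hilb_top U U' h) := by
  have := hilb_top_finite U U' h hU'
  exact IsGalois.of_fixedField_eq_bot _ _ (hilb_fixed_bot h hn)

/-- The restriction `U → Gal(K_{U'}/K_U)` is surjective. -/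
theorem hilb_resHom_surjective (hU' : lcf_IsOpen U') :
    Function.Surjective (hilb_resHom h hn) := by
  have := hilb_top_finite U U' h hU'
  rw [← MonoidHom.range_eq_top]
  have h1 : IntermediateField.fixedField (hilb_resHom h hn).range = ⊥ := by
    rw [eq_bot_iff]
    intro x hx
    rw [IntermediateField.mem_fixedField_iff] at hx
    rw [IntermediateField.mem_bot]
    have hxU : (x : PadicAlgCl q) ∈ IntermediateField.fixedField U := by
      rw [IntermediateField.mem_fixedField_iff]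
      intro g hg
      have := hx (hilb_res U U' h hn ⟨g, hg⟩) ⟨⟨g, hg⟩, rfl⟩
      exact congrArg Subtype.val this
    exact ⟨⟨x, hxU⟩, Subtype.ext rfl⟩
  have h2 := IntermediateField.fixingSubgroup_fixedField (hilb_resHom h hn).range
  rw [h1] at h2
  rw [← h2]
  exact IntermediateField.fixingSubgroup_bot

end Dict

section Cyc

variable {q : ℕ} [Fact q.Prime] {U : Subgroup (lcf_Gal q)} {n : ℕ} [NeZero n]
  (θ : ↥U →* Multiplicative (ZMod n)) (σ : ↥U)

theorem hilb_ker_normal : ∀ g ∈ U, ∀ u ∈ sym_ker θ, g⁻¹ * u * g ∈ sym_ker θ := by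
  rintro g hg u ⟨hu, hu1⟩
  refine ⟨U.mul_mem (U.mul_mem (U.inv_mem hg) hu) hg, ?_⟩
  have : (⟨g⁻¹ * u * g, U.mul_mem (U.mul_mem (U.inv_mem hg) hu) hg⟩ : ↥U) =
      (⟨g, hg⟩ : ↥U)⁻¹ * ⟨u, hu⟩ * ⟨g, hg⟩ := rfl
  rw [this, map_mul, map_mul, hu1, map_inv, mul_one, inv_mul_cancel]

/-- The cyclic extension cut out by `θ`, over the fixed field of `U`. -/
abbrev hilb_L : IntermediateField ↥(IntermediateField.fixedField U) (PadicAlgCl q) :=
  hilb_top U (sym_ker θ) (sym_ker_le θ)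

/-- The restriction of `g ∈ U` to the field cut out by `θ`. -/
abbrev hilb_r (g : ↥U) : ↥(hilb_L θ) ≃ₐ[↥(IntermediateField.fixedField U)] ↥(hilb_L θ) :=
  hilb_res U (sym_ker θ) (sym_ker_le θ) (hilb_ker_normal θ) g

variable {θ σ}

theorem hilb_r_eq_pow (hU : lcf_IsOpen U) (hθ : lcf_Smooth₁ U θ)
    (hσ : θ σ = Multiplicative.ofAdd 1) (g : ↥U) :
    hilb_r θ g = hilb_r θ σ ^ sym_t θ g := by
  have h1 : θ ((σ ^ sym_t θ g)⁻¹ * g) = 1 := by
    rw [map_mul, map_inv, ← sym_theta_eq θ σ hσ g, inv_mul_cancel]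
  have h2 : hilb_r θ ((σ ^ sym_t θ g)⁻¹ * g) = 1 :=
    (hilb_res_eq_one_iff _ _ (sym_isOpen_ker θ hU hθ) _).2 (sym_coe_mem_ker θ h1)
  have h3 : g = σ ^ sym_t θ g * ((σ ^ sym_t θ g)⁻¹ * g) := by
    rw [mul_inv_cancel_left]
  conv_lhs => rw [h3]
  unfold hilb_r at h2 ⊢
  rw [hilb_res_mul, h2, mul_one, hilb_res_pow]

theorem hilb_isCyclic (hU : lcf_IsOpen U) (hθ : lcf_Smooth₁ U θ)
    (hσ : θ σ = Multiplicative.ofAdd 1) :
    IsCyclic (↥(hilb_L θ) ≃ₐ[↥(IntermediateField.fixedField U)] ↥(hilb_L θ)) := by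
  refine ⟨hilb_r θ σ, fun τ => ?_⟩
  obtain ⟨g, rfl⟩ := hilb_resHom_surjective (sym_ker_le θ) (hilb_ker_normal θ)
    (sym_isOpen_ker θ hU hθ) τ
  refine ⟨(sym_t θ g : ℤ), ?_⟩
  show hilb_r θ σ ^ (sym_t θ g : ℤ) = hilb_r θ g
  rw [zpow_natCast, ← hilb_r_eq_pow hU hθ hσ]

theorem hilb_r_pow_eq_one_iff (hU : lcf_IsOpen U) (hθ : lcf_Smooth₁ U θ)
    (hσ : θ σ = Multiplicative.ofAdd 1) (i : ℕ) : hilb_r θ σ ^ i = 1 ↔ n ∣ i := by
  unfold hilb_r
  rw [← hilb_res_pow, hilb_res_eq_one_iff _ _ (sym_isOpen_ker θ hU hθ)]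
  constructor
  · rintro ⟨_, h1⟩
    have h2 : θ (σ ^ i) = 1 := h1
    rw [sym_theta_pow θ σ hσ] at h2
    exact (ZMod.natCast_eq_zero_iff i n).1 (by simpa using h2)
  · intro hi
    refine sym_coe_mem_ker θ ?_
    rw [sym_theta_pow θ σ hσ, (ZMod.natCast_eq_zero_iff i n).2 hi]
    rfl

theorem hilb_orderOf (hU : lcf_IsOpen U) (hθ : lcf_Smooth₁ U θ)
    (hσ : θ σ = Multiplicative.ofAdd 1) : orderOf (hilb_r θ σ) = n := by
  apply Nat.dvd_antisymm
  · exact orderOf_dvd_of_pow_eq_one ((hilb_r_pow_eq_one_iff hU hθ hσ n).2 dvd_rfl)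
  · exact (hilb_r_pow_eq_one_iff hU hθ hσ _).1 (pow_orderOf_eq_one _)

theorem hilb_pow_bijective (hU : lcf_IsOpen U) (hθ : lcf_Smooth₁ U θ)
    (hσ : θ σ = Multiplicative.ofAdd 1) :
    Function.Bijective (fun i : Fin n => hilb_r θ σ ^ (i : ℕ)) := by
  constructor
  · intro i j hij
    apply Fin.ext
    have hi : (i : ℕ) ∈ Set.Iio (orderOf (hilb_r θ σ)) := by
      rw [hilb_orderOf hU hθ hσ]; exact i.2
    have hj : (j : ℕ) ∈ Set.Iio (orderOf (hilb_r θ σ)) := by
      rw [hilb_orderOf hU hθ hσ]; exact j.2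
    exact pow_injOn_Iio_orderOf hi hj hij
  · intro τ
    obtain ⟨g, rfl⟩ := hilb_resHom_surjective (sym_ker_le θ) (hilb_ker_normal θ)
      (sym_isOpen_ker θ hU hθ) τ
    refine ⟨⟨sym_t θ g, sym_t_lt θ g⟩, ?_⟩
    show hilb_r θ σ ^ sym_t θ g = hilb_r θ g
    rw [← hilb_r_eq_pow hU hθ hσ]

theorem hilb_finrank (hU : lcf_IsOpen U) (hθ : lcf_Smooth₁ U θ)
    (hσ : θ σ = Multiplicative.ofAdd 1) :
    Module.finrank ↥(IntermediateField.fixedField U) ↥(hilb_L θ) = n := by
  have := hilb_top_finite U _ (sym_ker_le θ) (sym_isOpen_ker θ hU hθ)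
  have := hilb_isGalois (sym_ker_le θ) (hilb_ker_normal θ) (sym_isOpen_ker θ hU hθ)
  rw [← IsGalois.card_aut_eq_finrank,
    Nat.card_congr (Equiv.ofBijective _ (hilb_pow_bijective hU hθ hσ)).symm, Nat.card_fin]

/-- The norm from the field cut out by `θ` is the product over the powers of `σ`. -/
theorem hilb_norm_eq (hU : lcf_IsOpen U) (hθ : lcf_Smooth₁ U θ)
    (hσ : θ σ = Multiplicative.ofAdd 1) (y : ↥(hilb_L θ)) :
    ((Algebra.norm ↥(IntermediateField.fixedField U) y : ↥(IntermediateField.fixedField U)) :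
      PadicAlgCl q) = ∏ i ∈ Finset.range n, ((σ ^ i : ↥U) : lcf_Gal q) (y : PadicAlgCl q) := by
  have := hilb_top_finite U _ (sym_ker_le θ) (sym_isOpen_ker θ hU hθ)
  have := hilb_isGalois (sym_ker_le θ) (hilb_ker_normal θ) (sym_isOpen_ker θ hU hθ)
  have h1 := Algebra.norm_eq_prod_automorphisms ↥(IntermediateField.fixedField U) y
  have h2 := (hilb_pow_bijective hU hθ hσ).prod_comp (fun τ => τ y)
  have h3 := Fin.prod_univ_eq_prod_range (fun i => (hilb_r θ σ ^ i) y) n
  have h4 : ((algebraMap ↥(IntermediateField.fixedField U) ↥(hilb_L θ)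
      (Algebra.norm ↥(IntermediateField.fixedField U) y) : ↥(hilb_L θ)) : PadicAlgCl q) =
      ((Algebra.norm ↥(IntermediateField.fixedField U) y : ↥(IntermediateField.fixedField U)) :
      PadicAlgCl q) := rfl
  rw [← h4, h1, ← h2, h3]
  rw [← IntermediateField.coe_val, map_prod]
  refine Finset.prod_congr rfl (fun i _ => ?_)
  unfold hilb_r
  rw [← hilb_res_pow]
  rfl

end Cyc

section Main

variable {q : ℕ} [Fact q.Prime]

/-- A nontrivial character with values in `ℤ/p` takes the value `1`. -/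
theorem hilb_exists_gen {p : ℕ} [Fact p.Prime] {U : Subgroup (lcf_Gal q)}
    {θ : ↥U →* Multiplicative (ZMod p)} (hne : θ ≠ 1) :
    ∃ σ : ↥U, θ σ = Multiplicative.ofAdd 1 := by
  have h1 : ∃ g : ↥U, θ g ≠ 1 := by
    by_contra hall
    exact hne (MonoidHom.ext fun g => by
      by_contra hg
      exact hall ⟨g, hg⟩)
  obtain ⟨g, hg⟩ := h1
  set k : ZMod p := Multiplicative.toAdd (θ g) with hk
  have hk0 : k ≠ 0 := fun h0 => hg (by
    have : θ g = Multiplicative.ofAdd k := rfl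
    rw [this, h0]; rfl)
  refine ⟨g ^ (k⁻¹).val, ?_⟩
  have h2 : θ g = Multiplicative.ofAdd k := rfl
  rw [map_pow, h2, ← ofAdd_nsmul, nsmul_eq_mul, ZMod.natCast_zmod_val, inv_mul_cancel₀ hk0]

/-- For a smooth character `θ` of `U` with `θ σ = 1 ∈ ℤ/n`, `n > 1`, there is a `U`-fixed element
which is not a norm from the field cut out by `θ`. -/
theorem hilb_exists_not_norm (hL2 : lcf_NormIndexStatement.{0, 0}) {U : Subgroup (lcf_Gal q)}
    (hU : lcf_IsOpen U) {n : ℕ} [NeZero n] (h1n : n ≠ 1) {θ : ↥U →* Multiplicative (ZMod n)}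
    {σ : ↥U} (hθ : lcf_Smooth₁ U θ) (hσ : θ σ = Multiplicative.ofAdd 1) :
    ∃ a : (PadicAlgCl q)ˣ, (∀ g : ↥U, g • a = a) ∧
      ¬ ∃ y : (PadicAlgCl q)ˣ, (∀ g : ↥U, θ g = 1 → g • y = y) ∧
        a = ∏ i ∈ Finset.range n, (σ ^ i) • y := by
  have hfinK := hilb_finite U hU
  have hfinL := hilb_top_finite U _ (sym_ker_le θ) (sym_isOpen_ker θ hU hθ)
  have hgal := hilb_isGalois (sym_ker_le θ) (hilb_ker_normal θ) (sym_isOpen_ker θ hU hθ)
  have hidx := hL2 ↥(IntermediateField.fixedField U) ↥(hilb_L θ) (hilb_isCyclic hU hθ hσ)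
  rw [hilb_finrank hU hθ hσ] at hidx
  have h2 : ∃ a₀ : (↥(IntermediateField.fixedField U))ˣ,
      a₀ ∉ (Units.map (Algebra.norm ↥(IntermediateField.fixedField U) :
        ↥(hilb_L θ) →* ↥(IntermediateField.fixedField U))).range := by
    by_contra hall
    have h3 : (Units.map (Algebra.norm ↥(IntermediateField.fixedField U) :
        ↥(hilb_L θ) →* ↥(IntermediateField.fixedField U))).range = ⊤ :=
      eq_top_iff.2 (fun x _ => by
        by_contra hx
        exact hall ⟨x, hx⟩)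
    rw [h3, Subgroup.index_top] at hidx
    exact h1n hidx.symm
  obtain ⟨a₀, ha₀⟩ := h2
  have ha0 : ((a₀ : ↥(IntermediateField.fixedField U)) : PadicAlgCl q) ≠ 0 := fun h0 =>
    a₀.ne_zero (Subtype.ext h0)
  refine ⟨Units.mk0 _ ha0, fun g => ?_, ?_⟩
  · apply Units.ext
    exact (IntermediateField.mem_fixedField_iff U _).1
      (a₀ : ↥(IntermediateField.fixedField U)).2 g g.2
  · rintro ⟨y, hy, hay⟩
    apply ha₀
    have hyL : (y : PadicAlgCl q) ∈ hilb_L θ := by
      rw [hilb_mem_top]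
      rintro u ⟨hu, hu1⟩
      exact congrArg Units.val (hy ⟨u, hu⟩ hu1)
    have hy0 : (⟨(y : PadicAlgCl q), hyL⟩ : ↥(hilb_L θ)) ≠ 0 := fun h0 =>
      y.ne_zero (congrArg Subtype.val h0)
    refine ⟨Units.mk0 _ hy0, ?_⟩
    apply Units.ext
    apply Subtype.ext
    show ((Algebra.norm ↥(IntermediateField.fixedField U)
      (⟨(y : PadicAlgCl q), hyL⟩ : ↥(hilb_L θ)) : ↥(IntermediateField.fixedField U)) :
      PadicAlgCl q) = ((a₀ : ↥(IntermediateField.fixedField U)) : PadicAlgCl q)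
    rw [hilb_norm_eq hU hθ hσ]
    have h4 := congrArg Units.val hay
    rw [Units.coe_prod] at h4
    exact h4.symm

/-- **[HILB-R]** from the norm index theorem [L2] and the norm residue property [SYM-NORM]. -/
theorem hilb_R (hL2 : lcf_NormIndexStatement.{0, 0}) (hSN : lcf_SymNormStatement) :
    lcf_HilbRStatement := by
  intro q _ p _ U hU θ hθ hne
  obtain ⟨σ, hσ⟩ := hilb_exists_gen hne
  obtain ⟨a, ha, hnot⟩ := hilb_exists_not_norm hL2 hU (Fact.out : p.Prime).one_lt.ne' hθ hσ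
  exact ⟨a, ha, fun hcob => hnot ((hSN q U hU p θ σ a hθ hσ ha).1 hcob)⟩

end Main

end Fermat.Agent.S55
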