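/-
S55 (wave 5), LOCAL side, leaf [HILB-L] (left non-degeneracy of the norm residue symbol of
exponent `p`, `p` odd, `μ_p ⊂ K_U`).  Owner: helper11.  Prefix `hilb_`.

* `hilb_isCob_one/mul/inv/div` : smooth coboundaries form a group;
* `hilb_kum hζ hζU β hβ` : the Kummer character `g ↦ log_ζ (g β / β)` of a `p`-th root `β` of an
  element of `K_U`, with `hilb_kum_spec`, `hilb_kum_smul`, `hilb_kum_smooth`,
  `hilb_kum_eq_one_iff`, `hilb_kum_mul`;
* `hilb_symbol_neg` : `(-b, θ_b) = 0` (`-b` is the norm of `-β`);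
* `hilb_left : [HILB-R] → [SYM-ADD] → [HILB-L]` (skew-symmetry of the symbol).
-/
import Fermat.Agent.S55.Local.HilbR
import Fermat.Agent.S55.Local.Kummer

set_option autoImplicit false
set_option linter.unusedSectionVars false

noncomputable section

namespace Fermat.Agent.S55

open groupCohomology

section Grp

theorem hilb_grp_mul_add {A : Type*} [AddCommGroup A] (a b c a' b' c' : A) :
    (a + a') - (b + b') + (c + c') = (a - b + c) + (a' - b' + c') := by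
  abel

theorem hilb_grp_mul {G : Type*} [CommGroup G] (A B C A' B' C' : G) :
    (A * A') / (B * B') * (C * C') = (A / B * C) * (A' / B' * C') :=
  hilb_grp_mul_add (A := Additive G) (Additive.ofMul A) (Additive.ofMul B) (Additive.ofMul C)
    (Additive.ofMul A') (Additive.ofMul B') (Additive.ofMul C')

theorem hilb_grp_inv_add {A : Type*} [AddCommGroup A] (a b c : A) :
    (-a) - (-b) + (-c) = -(a - b + c) := by
  abel

theorem hilb_grp_inv {G : Type*} [CommGroup G] (A B C : G) :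
    A⁻¹ / B⁻¹ * C⁻¹ = (A / B * C)⁻¹ :=
  hilb_grp_inv_add (A := Additive G) (Additive.ofMul A) (Additive.ofMul B) (Additive.ofMul C)

end Grp

section Cob

variable {q : ℕ} [Fact q.Prime] {U : Subgroup (lcf_Gal q)}

theorem hilb_isCob_one : lcf_IsCob U (1 : ↥U × ↥U → (PadicAlgCl q)ˣ) := by
  refine ⟨fun _ => 1, ⟨⊥, inferInstance, fun _ _ _ => rfl⟩, fun g h => ?_⟩
  simp

theorem hilb_isCob_mul {f f' : ↥U × ↥U → (PadicAlgCl q)ˣ} (hf : lcf_IsCob U f)
    (hf' : lcf_IsCob U f') : lcf_IsCob U (f * f') := by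
  obtain ⟨b, hb, h⟩ := hf
  obtain ⟨b', hb', h'⟩ := hf'
  refine ⟨fun g => b g * b' g, lkum_smooth_mul hb hb', fun g k => ?_⟩
  simp only [Pi.mul_apply]
  rw [← h g k, ← h' g k, smul_mul']
  exact hilb_grp_mul _ _ _ _ _ _

theorem hilb_isCob_inv {f : ↥U × ↥U → (PadicAlgCl q)ˣ} (hf : lcf_IsCob U f) :
    lcf_IsCob U f⁻¹ := by
  obtain ⟨b, hb, h⟩ := hf
  refine ⟨fun g => (b g)⁻¹, lkum_smooth_inv hb, fun g k => ?_⟩
  simp only [Pi.inv_apply]
  rw [← h g k, smul_inv']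
  exact hilb_grp_inv _ _ _

theorem hilb_isCob_div {f f' : ↥U × ↥U → (PadicAlgCl q)ˣ} (hf : lcf_IsCob U f)
    (hf' : lcf_IsCob U f') : lcf_IsCob U (f / f') := by
  rw [div_eq_mul_inv]
  exact hilb_isCob_mul hf (hilb_isCob_inv hf')

/-- The symbol of the trivial character is trivial. -/
theorem hilb_unrCoc_triv {n : ℕ} [NeZero n] (a : (PadicAlgCl q)ˣ) :
    lcf_unrCoc U n (1 : ↥U →* Multiplicative (ZMod n)) a = 1 := by
  funext x
  have hn : 0 < n := Nat.pos_of_ne_zero (NeZero.ne n)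
  show a ^ (((Multiplicative.toAdd (1 : Multiplicative (ZMod n))).val +
    (Multiplicative.toAdd (1 : Multiplicative (ZMod n))).val) / n) = 1
  rw [toAdd_one, ZMod.val_zero, add_zero, Nat.zero_div, pow_zero]

end Cob

section Kum

variable {q : ℕ} [Fact q.Prime] {p : ℕ} [Fact p.Prime] {U : Subgroup (lcf_Gal q)}
  {ζ : (PadicAlgCl q)ˣ}

theorem hilb_zeta_pow_val_add (hζ : IsPrimitiveRoot ζ p) (k k' : ZMod p) :
    ζ ^ (k + k').val = ζ ^ k.val * ζ ^ k'.val := by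
  rw [ZMod.val_add, ← pow_add, ← Nat.div_add_mod (k.val + k'.val) p, pow_add, pow_mul,
    hζ.pow_eq_one, one_pow, one_mul, Nat.mul_add_mod]
  rw [Nat.mod_mod]

theorem hilb_zeta_pow_val_inj (hζ : IsPrimitiveRoot ζ p) {k k' : ZMod p}
    (h : ζ ^ k.val = ζ ^ k'.val) : k = k' :=
  ZMod.val_injective p (hζ.pow_inj (ZMod.val_lt k) (ZMod.val_lt k') h)

theorem hilb_exists_exp (hζ : IsPrimitiveRoot ζ p) (β : (PadicAlgCl q)ˣ)
    (hβ : ∀ g : ↥U, g • β ^ p = β ^ p) (g : ↥U) : ∃ k : ZMod p, g • β / β = ζ ^ k.val := by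
  have h1 : (g • β / β) ^ p = 1 := by
    rw [div_pow, ← smul_pow', hβ, div_self']
  have hζ' : IsPrimitiveRoot (ζ : PadicAlgCl q) p := IsPrimitiveRoot.coe_units_iff.2 hζ
  have h2 : (((g • β / β : (PadicAlgCl q)ˣ) : PadicAlgCl q)) ^ p = 1 := by
    rw [← Units.val_pow_eq_pow_val, h1, Units.val_one]
  obtain ⟨i, hi, hix⟩ := hζ'.eq_pow_of_pow_eq_one h2
  refine ⟨(i : ZMod p), ?_⟩
  apply Units.ext
  rw [ZMod.val_natCast_of_lt hi, Units.val_pow_eq_pow_val, hix]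

/-- The Kummer character of a `p`-th root `β` of an element of `K_U` (`μ_p ⊂ K_U`). -/
def hilb_kum (hζ : IsPrimitiveRoot ζ p) (hζU : ∀ g : ↥U, g • ζ = ζ) (β : (PadicAlgCl q)ˣ)
    (hβ : ∀ g : ↥U, g • β ^ p = β ^ p) : ↥U →* Multiplicative (ZMod p) where
  toFun g := Multiplicative.ofAdd (hilb_exists_exp hζ β hβ g).choose
  map_one' := by
    have h2 : ζ ^ (hilb_exists_exp hζ β hβ (1 : ↥U)).choose.val = ζ ^ (0 : ZMod p).val := by
      rw [← (hilb_exists_exp hζ β hβ (1 : ↥U)).choose_spec, one_smul, div_self', ZMod.val_zero,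
        pow_zero]
    rw [hilb_zeta_pow_val_inj hζ h2]
    rfl
  map_mul' g h := by
    have h4 : (g * h) • β / β = g • (h • β / β) * (g • β / β) := by
      rw [smul_div', mul_smul, div_mul_div_cancel]
    have h5 : ζ ^ (hilb_exists_exp hζ β hβ (g * h)).choose.val =
        ζ ^ ((hilb_exists_exp hζ β hβ g).choose + (hilb_exists_exp hζ β hβ h).choose).val := by
      rw [← (hilb_exists_exp hζ β hβ (g * h)).choose_spec, h4, hilb_zeta_pow_val_add hζ,
        ← (hilb_exists_exp hζ β hβ g).choose_spec]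
      conv_lhs => rw [(hilb_exists_exp hζ β hβ h).choose_spec, smul_pow', hζU]
      rw [mul_comm]
    rw [hilb_zeta_pow_val_inj hζ h5]
    rfl

variable (hζ : IsPrimitiveRoot ζ p) (hζU : ∀ g : ↥U, g • ζ = ζ) (β : (PadicAlgCl q)ˣ)
    (hβ : ∀ g : ↥U, g • β ^ p = β ^ p)

theorem hilb_kum_spec (g : ↥U) : g • β / β = ζ ^ sym_t (hilb_kum hζ hζU β hβ) g :=
  (hilb_exists_exp hζ β hβ g).choose_spec

theorem hilb_kum_smul (g : ↥U) : g • β = ζ ^ sym_t (hilb_kum hζ hζU β hβ) g * β := by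
  rw [← hilb_kum_spec hζ hζU β hβ g, div_mul_cancel]

theorem hilb_kum_eq_of (g h : ↥U) (hgh : g • β / β = h • β / β) :
    hilb_kum hζ hζU β hβ g = hilb_kum hζ hζU β hβ h := by
  rw [hilb_kum_spec hζ hζU β hβ g, hilb_kum_spec hζ hζU β hβ h] at hgh
  have := hilb_zeta_pow_val_inj hζ hgh
  exact congrArg Multiplicative.ofAdd this

theorem hilb_kum_smooth : lcf_Smooth₁ U (hilb_kum hζ hζU β hβ) := by
  obtain ⟨E, hE, h⟩ := lkum_smooth_d0 U β
  exact ⟨E, hE, fun g s hs => hilb_kum_eq_of hζ hζU β hβ _ _ (h g s hs)⟩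

theorem hilb_kum_eq_one_iff (g : ↥U) : hilb_kum hζ hζU β hβ g = 1 ↔ g • β = β := by
  constructor
  · intro h
    have h1 := hilb_kum_smul hζ hζU β hβ g
    rw [(sym_t_eq_zero_iff _ g).2 h, pow_zero, one_mul] at h1
    exact h1
  · intro h
    have h1 : g • β / β = (1 : ↥U) • β / β := by rw [h, one_smul]
    rw [hilb_kum_eq_of hζ hζU β hβ _ _ h1, map_one]

theorem hilb_kum_mul (β' : (PadicAlgCl q)ˣ) (hβ' : ∀ g : ↥U, g • β' ^ p = β' ^ p)
    (hββ' : ∀ g : ↥U, g • (β * β') ^ p = (β * β') ^ p) :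
    hilb_kum hζ hζU (β * β') hββ' = hilb_kum hζ hζU β hβ * hilb_kum hζ hζU β' hβ' := by
  ext g
  have h1 := hilb_kum_spec hζ hζU (β * β') hββ' g
  have h2 := hilb_kum_spec hζ hζU β hβ g
  have h3 := hilb_kum_spec hζ hζU β' hβ' g
  have h4 : g • (β * β') / (β * β') = (g • β / β) * (g • β' / β') := by
    rw [smul_mul', mul_div_mul_comm]
  rw [h1, h2, h3] at h4
  unfold sym_t at h4
  rw [← hilb_zeta_pow_val_add hζ] at h4
  have h5 := hilb_zeta_pow_val_inj hζ h4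
  exact congrArg Multiplicative.ofAdd h5

/-- `-β ^ p` is the norm of `-β` (`p` odd). -/
theorem hilb_neg_norm (hp2 : p ≠ 2) {σ : ↥U}
    (hσ : hilb_kum hζ hζU β hβ σ = Multiplicative.ofAdd 1) :
    -(β ^ p) = ∏ i ∈ Finset.range p, (σ ^ i) • (-β) := by
  have hodd : Odd p := (Fact.out : p.Prime).odd_of_ne_two hp2
  have h1 : ∀ i ∈ Finset.range p, (σ ^ i) • (-β) = -1 * (ζ ^ i * β) := by
    intro i hi
    have h2 : (σ ^ i) • (-β) = -((σ ^ i) • β) :=
      Units.ext (map_neg ((σ ^ i : ↥U) : lcf_Gal q) (β : PadicAlgCl q))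
    rw [h2, hilb_kum_smul hζ hζU β hβ, sym_t_pow _ σ hσ, Nat.mod_eq_of_lt (Finset.mem_range.1 hi),
      neg_one_mul]
  rw [Finset.prod_congr rfl h1, Finset.prod_mul_distrib, Finset.prod_mul_distrib,
    Finset.prod_const, Finset.prod_const, Finset.card_range, Finset.prod_pow_eq_pow_sum,
    hodd.neg_one_pow, Finset.sum_range_id]
  obtain ⟨m, hm⟩ := hodd
  have h3 : p * (p - 1) / 2 = p * m := by
    have : p - 1 = 2 * m := by omega
    rw [this, ← mul_assoc, mul_comm p 2, mul_assoc, Nat.mul_div_cancel_left _ (by norm_num)]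
  rw [h3, pow_mul, hζ.pow_eq_one, one_pow, one_mul, neg_one_mul]

/-- `[-b, b] = 0`: the symbol of `-β ^ p` with the Kummer character of `β` is trivial. -/
theorem hilb_symbol_neg (hp2 : p ≠ 2) :
    lcf_IsCob U (lcf_unrCoc U p (hilb_kum hζ hζU β hβ) (-(β ^ p))) := by
  by_cases h1 : hilb_kum hζ hζU β hβ = 1
  · rw [h1, hilb_unrCoc_triv]
    exact hilb_isCob_one
  · obtain ⟨σ, hσ⟩ := hilb_exists_gen h1
    refine sym_norm_mpr (hilb_kum_smooth hζ hζU β hβ) hσ (y := -β) (fun g hg => ?_)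
      (hilb_neg_norm hζ hζU β hβ hp2 hσ)
    have h2 := (hilb_kum_eq_one_iff hζ hζU β hβ g).1 hg
    have h3 : g • (-β) = -(g • β) :=
      Units.ext (map_neg (g : lcf_Gal q) (β : PadicAlgCl q))
    rw [h3, h2]

end Kum

section MainL

variable {q : ℕ} [Fact q.Prime]

theorem hilb_exists_root {p : ℕ} [Fact p.Prime] (a : (PadicAlgCl q)ˣ) :
    ∃ α : (PadicAlgCl q)ˣ, α ^ p = a := by
  obtain ⟨z, hz⟩ := IsAlgClosed.exists_pow_nat_eq (a : PadicAlgCl q) (Fact.out : p.Prime).pos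
  have hz0 : z ≠ 0 := by
    rintro rfl
    rw [zero_pow (Fact.out : p.Prime).ne_zero] at hz
    exact a.ne_zero hz.symm
  exact ⟨Units.mk0 z hz0, Units.ext hz⟩

/-- **[HILB-L]** from [HILB-R] and [SYM-ADD]. -/
theorem hilb_left (hR : lcf_HilbRStatement) (hSA : lcf_SymAddStatement) : lcf_HilbLStatement := by
  intro q _ p _ hp2 U hU ζ hζ hζU a ha hnot
  obtain ⟨α, hα⟩ := hilb_exists_root (p := p) a
  have hαU : ∀ g : ↥U, g • α ^ p = α ^ p := fun g => by rw [hα, ha]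
  have hθα : hilb_kum hζ hζU α hαU ≠ 1 := by
    intro h1
    refine hnot ⟨α, fun g => ?_, hα⟩
    exact (hilb_kum_eq_one_iff hζ hζU α hαU g).1 (by rw [h1]; rfl)
  obtain ⟨b, hb, hbnot⟩ := hR q p U hU _ (hilb_kum_smooth hζ hζU α hαU) hθα
  obtain ⟨β, hβ⟩ := hilb_exists_root (p := p) b
  have hβU : ∀ g : ↥U, g • β ^ p = β ^ p := fun g => by rw [hβ, hb]
  have hαβU : ∀ g : ↥U, g • (α * β) ^ p = (α * β) ^ p := fun g => by
    rw [mul_pow, smul_mul', hαU, hβU]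
  refine ⟨hilb_kum hζ hζU β hβU, hilb_kum_smooth hζ hζU β hβU, fun hcob => hbnot ?_⟩
  -- the four symbols
  have hnegU : ∀ g : ↥U, g • (-(a * b)) = -(a * b) := fun g => by
    have : g • (-(a * b)) = -(g • (a * b)) :=
      Units.ext (map_neg (g : lcf_Gal q) ((a * b : (PadicAlgCl q)ˣ) : PadicAlgCl q))
    rw [this, smul_mul', ha, hb]
  have c1 := hilb_symbol_neg hζ hζU α hαU hp2
  have c2 := hilb_symbol_neg hζ hζU β hβU hp2
  have c3 := hilb_symbol_neg hζ hζU (α * β) hαβU hp2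
  rw [hα] at c1
  rw [hβ] at c2
  rw [mul_pow, hα, hβ, hilb_kum_mul hζ hζU α hαU β hβU hαβU] at c3
  have c4 := hSA q U hU p (hilb_kum hζ hζU α hαU) (hilb_kum hζ hζU β hβU) (-(a * b))
    (hilb_kum_smooth hζ hζU α hαU) (hilb_kum_smooth hζ hζU β hβU) hnegU
  have e1 : -(a * b) = -a * b := by rw [neg_mul]
  have e2 : -(a * b) = a * -b := by rw [mul_neg]
  have c5 := hilb_isCob_div c3 c4
  have e3 : lcf_unrCoc U p (hilb_kum hζ hζU α hαU * hilb_kum hζ hζU β hβU) (-(a * b)) /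
      (lcf_unrCoc U p (hilb_kum hζ hζU α hαU * hilb_kum hζ hζU β hβU) (-(a * b)) /
        (lcf_unrCoc U p (hilb_kum hζ hζU α hαU) (-(a * b)) *
          lcf_unrCoc U p (hilb_kum hζ hζU β hβU) (-(a * b)))) =
      (lcf_unrCoc U p (hilb_kum hζ hζU α hαU) (-a) * lcf_unrCoc U p (hilb_kum hζ hζU α hαU) b) *
        (lcf_unrCoc U p (hilb_kum hζ hζU β hβU) a *
          lcf_unrCoc U p (hilb_kum hζ hζU β hβU) (-b)) := by
    rw [div_div_cancel]
    conv_lhs => rw [e1, sym_unrCoc_mul]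
    conv_lhs => rw [← e1, e2, sym_unrCoc_mul]
  rw [e3] at c5
  have c6 := hilb_isCob_div (hilb_isCob_div (hilb_isCob_div c5 c1) c2) hcob
  have e4 : (lcf_unrCoc U p (hilb_kum hζ hζU α hαU) (-a) *
      lcf_unrCoc U p (hilb_kum hζ hζU α hαU) b) *
        (lcf_unrCoc U p (hilb_kum hζ hζU β hβU) a *
          lcf_unrCoc U p (hilb_kum hζ hζU β hβU) (-b)) /
      lcf_unrCoc U p (hilb_kum hζ hζU α hαU) (-a) /
      lcf_unrCoc U p (hilb_kum hζ hζU β hβU) (-b) /
      lcf_unrCoc U p (hilb_kum hζ hζU β hβU) a =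
      lcf_unrCoc U p (hilb_kum hζ hζU α hαU) b := by
    generalize lcf_unrCoc U p (hilb_kum hζ hζU α hαU) (-a) = A
    generalize lcf_unrCoc U p (hilb_kum hζ hζU α hαU) b = B
    generalize lcf_unrCoc U p (hilb_kum hζ hζU β hβU) a = C
    generalize lcf_unrCoc U p (hilb_kum hζ hζU β hβU) (-b) = D
    rw [div_div, div_div, div_eq_iff_eq_mul]
    ac_rfl
  rw [e4] at c6
  exact c6

end MainL

end Fermat.Agent.S55
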