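/-
S55 (wave 5), LOCAL side: the leaves [HILB-R] and [HILB-L], unconditionally.
Owner: helper11.  Prefix `hilb_`.
-/
import Fermat.Agent.S55.Local.HilbL
import Fermat.Agent.S55.Local.NormIndexFin

set_option autoImplicit false

namespace Fermat.Agent.S55

/-- **[HILB-R]** right non-degeneracy of the norm residue symbol of exponent `p`. -/
theorem hilb_R_main : lcf_HilbRStatement := hilb_R lni_fin.{0, 0} sym_norm_main

/-- **[HILB-L]** left non-degeneracy of the norm residue symbol of exponent `p` (`p` odd). -/
theorem hilb_L_main : lcf_HilbLStatement := hilb_left hilb_R_main sym_add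

end Fermat.Agent.S55
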