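/-
S55 (wave 5), LOCAL side: **[V11]** `lcf_V11Statement` (right non-degeneracy of the cup product
pairing `H¹(K_U, F_p) × H¹(K_U, F_p) → Br(K_U)[p]` for an open subgroup `U` fixing `μ_p`, `p` odd).
Owner: helper3.  Prefix `lv11_`.

PROOF.  `κ := ζ ^ y` is a smooth homomorphism `U → μ_p`; by [KUM1] `κ g = g α / α` with
`a := α ^ p ∈ K_U`, and `a` is not a `p`-th power in `K_U` because `y ≠ 0`.  [HILB-L] gives a
smooth character `θ` with `a ^ δθ` not a smooth coboundary.  With `c g := (ζ ^ (θ g y g) α ^ θ̃(g))⁻¹`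
one has `d c = ζ ^ (θ ∪ y) / a ^ δθ`, so `ζ ^ (θ ∪ y)` is a smooth cocycle which is not a smooth
coboundary, and (I2) gives `inv (ζ ^ (θ ∪ y)) ≠ 0`.
-/
import Fermat.Agent.S55.Local.LD1Base
import Fermat.Agent.S55.Local.HilbMain
import Fermat.Agent.S55.Local.Kummer
import Fermat.Agent.S55.Local.InvBuild
import Fermat.Agent.S55.Local.SymMain

set_option autoImplicit false

noncomputable section

namespace Fermat.Agent.S55

open groupCohomology

/-! ### Two identities in commutative groups -/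

theorem lv11_aux_add {A : Type*} [AddCommGroup A] (e1 e2 e3 e4 ag ah agh P : A)
    (h : ag + ah = agh + P) :
    -(e1 + (e2 + ah)) - -(e4 + e3 + e2 + e1 + agh) + -(e4 + ag) = e3 - P := by
  have hP : P = ag + ah - agh := by rw [h]; abel
  rw [hP]
  abel

theorem lv11_aux {G : Type*} [CommGroup G] (e1 e2 e3 e4 ag ah agh P : G)
    (h : ag * ah = agh * P) :
    (e1 * (e2 * ah))⁻¹ / (e4 * e3 * e2 * e1 * agh)⁻¹ * (e4 * ag)⁻¹ = e3 / P :=
  lv11_aux_add (A := Additive G) (Additive.ofMul e1) (Additive.ofMul e2) (Additive.ofMul e3)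
    (Additive.ofMul e4) (Additive.ofMul ag) (Additive.ofMul ah) (Additive.ofMul agh)
    (Additive.ofMul P) h

/-! ### The exponential `a ↦ ζ ^ a` on `ZMod p` -/

section Exp

variable {M : Type*} [Monoid M] {p : ℕ} [NeZero p]

set_option linter.unusedSectionVars false

/-- `ζ ^ a` for `a : ZMod p`. -/
def lv11_E (ζ : M) (a : ZMod p) : M := ζ ^ a.val

theorem lv11_pow_mod {ζ : M} (hζ : ζ ^ p = 1) (m : ℕ) : ζ ^ (m % p) = ζ ^ m := by
  conv_rhs => rw [← Nat.mod_add_div m p]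
  rw [pow_add, pow_mul, hζ, one_pow, mul_one]

theorem lv11_E_natCast {ζ : M} (hζ : ζ ^ p = 1) (m : ℕ) : lv11_E ζ ((m : ℕ) : ZMod p) = ζ ^ m := by
  unfold lv11_E
  rw [ZMod.val_natCast, lv11_pow_mod hζ]

theorem lv11_E_add {ζ : M} (hζ : ζ ^ p = 1) (a b : ZMod p) :
    lv11_E ζ (a + b) = lv11_E ζ a * lv11_E ζ b := by
  unfold lv11_E
  rw [ZMod.val_add, lv11_pow_mod hζ, pow_add]

theorem lv11_E_zero (ζ : M) : lv11_E ζ (0 : ZMod p) = 1 := by
  unfold lv11_E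
  rw [ZMod.val_zero, pow_zero]

theorem lv11_E_nat_mul {ζ : M} (hζ : ζ ^ p = 1) (m : ℕ) (a : ZMod p) :
    lv11_E ζ ((m : ZMod p) * a) = lv11_E ζ a ^ m := by
  induction m with
  | zero => rw [Nat.cast_zero, zero_mul, lv11_E_zero, pow_zero]
  | succ m ih => rw [Nat.cast_succ, add_mul, one_mul, lv11_E_add hζ, ih, pow_succ]

theorem lv11_E_val_mul {ζ : M} (hζ : ζ ^ p = 1) (t a : ZMod p) :
    lv11_E ζ (t * a) = lv11_E ζ a ^ t.val := by
  conv_lhs => rw [← ZMod.natCast_zmod_val t]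
  exact lv11_E_nat_mul hζ t.val a

end Exp

theorem lv11_E_eq_one_iff {M : Type*} [CommMonoid M] {p : ℕ} [Fact p.Prime] {ζ : M}
    (hζ : IsPrimitiveRoot ζ p) (a : ZMod p) : lv11_E ζ a = 1 ↔ a = 0 := by
  constructor
  · intro h
    have h1 : p ∣ a.val := (hζ.pow_eq_one_iff_dvd _).1 h
    have h2 : a.val = 0 := Nat.eq_zero_of_dvd_of_lt h1 (ZMod.val_lt a)
    exact (ZMod.val_eq_zero a).1 h2
  · rintro rfl
    exact lv11_E_zero ζ

/-! ### The theorem -/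

section Main

variable {q : ℕ} [Fact q.Prime] {p : ℕ} [Fact p.Prime] {U : Subgroup (lcf_Gal q)}

theorem lv11_smul_E {ζ : (PadicAlgCl q)ˣ} (hζU : ∀ g : ↥U, g • ζ = ζ) (g : ↥U) (a : ZMod p) :
    g • lv11_E ζ a = lv11_E ζ a := by
  unfold lv11_E
  rw [smul_pow', hζU]

/-- The cobounding cochain. -/
def lv11_c (ζ α : (PadicAlgCl q)ˣ) (θ : ↥U →* Multiplicative (ZMod p)) (y : ↥U → ZMod p)
    (g : ↥U) : (PadicAlgCl q)ˣ :=
  (lv11_E ζ (Multiplicative.toAdd (θ g) * y g) * α ^ sym_t θ g)⁻¹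

theorem lv11_c_smooth (ζ α : (PadicAlgCl q)ˣ) {θ : ↥U →* Multiplicative (ZMod p)}
    {y : ↥U → ZMod p} (hθ : lcf_Smooth₁ U θ) (hy : lcf_Smooth₁ U y) :
    lcf_Smooth₁ U (lv11_c ζ α θ y) := by
  obtain ⟨E, hE, h1, h2⟩ := sym_common_level hθ hy
  refine ⟨E, hE, fun g s hs => ?_⟩
  unfold lv11_c sym_t
  rw [h1 g s hs, h2 g s hs]

/-- The key identity: `d c = ζ ^ (θ ∪ y) / a ^ δθ`. -/
theorem lv11_key {ζ α : (PadicAlgCl q)ˣ} (hζ : ζ ^ p = 1) (hζU : ∀ g : ↥U, g • ζ = ζ)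
    (θ : ↥U →* Multiplicative (ZMod p)) {y : ↥U → ZMod p}
    (hyadd : ∀ g h : ↥U, y (g * h) = y g + y h)
    (hα : ∀ g : ↥U, g • α = lv11_E ζ (y g) * α) (g h : ↥U) :
    g • lv11_c ζ α θ y h / lv11_c ζ α θ y (g * h) * lv11_c ζ α θ y g =
      lv11_E ζ (Multiplicative.toAdd (θ g) * y h) / lcf_unrCoc U p θ (α ^ p) (g, h) := by
  have e0 : lv11_E ζ (y g) ^ sym_t θ h = lv11_E ζ (Multiplicative.toAdd (θ h) * y g) :=
    (lv11_E_val_mul hζ (Multiplicative.toAdd (θ h)) (y g)).symm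
  unfold lv11_c
  rw [smul_inv', smul_mul', lv11_smul_E hζU, smul_pow', hα g, mul_pow, e0, sym_unrCoc_apply]
  -- expand `θ (g h) y (g h)`
  have e1 : Multiplicative.toAdd (θ (g * h)) * y (g * h) =
      Multiplicative.toAdd (θ g) * y g + Multiplicative.toAdd (θ g) * y h +
        Multiplicative.toAdd (θ h) * y g + Multiplicative.toAdd (θ h) * y h := by
    rw [map_mul, toAdd_mul, hyadd]
    ring
  rw [e1, lv11_E_add hζ, lv11_E_add hζ, lv11_E_add hζ]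
  -- the exponents of `α`
  have e2 : α ^ sym_t θ g * α ^ sym_t θ h =
      α ^ sym_t θ (g * h) * (α ^ p) ^ ((sym_t θ g + sym_t θ h) / p) := by
    rw [← pow_mul, ← pow_add, ← pow_add, sym_t_mul, Nat.mod_add_div]
  exact lv11_aux _ _ _ _ _ _ _ _ e2

/-- **[V11]**. -/
theorem lv11_main : lcf_V11Statement := by
  intro inv hinv q _ p _ hp2 U hU ζ hζ hζU y hys hyadd hy0
  have hζp : ζ ^ p = 1 := hζ.pow_eq_one
  -- the Kummer cocycle
  have hκsm : lcf_Smooth₁ U (fun g : ↥U => lv11_E ζ (y g)) := lh3m_smooth₁_comp U hys _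
  have hκcoc : IsMulCocycle₁ (fun g : ↥U => lv11_E ζ (y g)) := by
    intro g h
    show lv11_E ζ (y (g * h)) = g • lv11_E ζ (y h) * lv11_E ζ (y g)
    rw [hyadd, lv11_E_add hζp, lv11_smul_E hζU, mul_comm]
  have hκp : ∀ g : ↥U, lv11_E ζ (y g) ^ p = 1 := by
    intro g
    unfold lv11_E
    rw [← pow_mul, mul_comm, pow_mul, hζp, one_pow]
  obtain ⟨α, hαU, hα⟩ := lkum_kummer1 q p U hU _ hκsm hκcoc hκp
  have hα' : ∀ g : ↥U, g • α = lv11_E ζ (y g) * α := fun g => by rw [hα g, div_mul_cancel]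
  -- `a = α ^ p` is not a `p`-th power
  have hnot : ¬ ∃ b : (PadicAlgCl q)ˣ, (∀ g : ↥U, g • b = b) ∧ b ^ p = α ^ p := by
    rintro ⟨b, hbU, hb⟩
    have h1 : (α / b) ^ p = 1 := by rw [div_pow, hb, div_self']
    obtain ⟨j, -, hj⟩ := hζ.eq_pow_of_mem_rootsOfUnity ((mem_rootsOfUnity p _).2 h1)
    have hαb : α = ζ ^ j * b := by rw [hj, div_mul_cancel]
    have hαfix : ∀ g : ↥U, g • α = α := by
      intro g
      rw [hαb, smul_mul', smul_pow', hζU, hbU]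
    apply hy0
    funext g
    have h2 : lv11_E ζ (y g) = 1 := by rw [hα g, hαfix g, div_self']
    exact (lv11_E_eq_one_iff hζ (y g)).1 h2
  obtain ⟨θ, hθs, hθ⟩ := hilb_L_main q p hp2 U hU ζ hζ hζU (α ^ p) hαU hnot
  refine ⟨fun g => Multiplicative.toAdd (θ g), lh3m_smooth₁_comp U hθs _,
    fun g h => by
      show Multiplicative.toAdd (θ (g * h)) = Multiplicative.toAdd (θ g) + Multiplicative.toAdd (θ h)
      rw [map_mul, toAdd_mul], fun hinv0 => hθ ?_⟩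
  -- the cocycle `F = ζ ^ (θ ∪ y)`
  have hcob : lcf_IsCob U ((fun x : ↥U × ↥U =>
      ζ ^ (Multiplicative.toAdd (θ x.1) * y x.2).val) / lcf_unrCoc U p θ (α ^ p)) :=
    ⟨lv11_c ζ α θ y, lv11_c_smooth ζ α hθs hys, fun g h => lv11_key hζp hζU θ hyadd hα' g h⟩
  have hunr : lcf_IsCoc U (lcf_unrCoc U p θ (α ^ p)) := sym_isCoc_unrCoc hθs hαU
  have hF : lcf_IsCoc U (fun x : ↥U × ↥U =>
      ζ ^ (Multiplicative.toAdd (θ x.1) * y x.2).val) := by
    have h := lh3m_isCoc_mul (linv_isCoc_of_isCob hcob) hunr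
    rwa [div_mul_cancel] at h
  have hFcob := (hinv.eq_zero_iff q U hU _ hF).1 hinv0
  -- `a ^ δθ = F / (F / a ^ δθ)`
  have h := linv_isCob_div hFcob hcob
  rwa [div_div_cancel] at h

end Main

end Fermat.Agent.S55
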