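/-
S55 (wave 5), LOCAL side, leaves [V20-INJ] and [V20-SURJ] of [L-BASE]:
`H²(K_U, F_p) → Br(K_U)[p]`, `f ↦ ζ ^ f`, is injective and hits the class of invariant `1/p`.
Owner: helper25.  Prefix `lv20_`.
-/
import Fermat.Agent.S55.Local.LD1Base
import Fermat.Agent.S55.Local.Kummer
import Fermat.Agent.S55.Local.H3Mu

set_option autoImplicit false
set_option linter.unusedSectionVars false

noncomputable section

namespace Fermat.Agent.S55

open groupCohomology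

/-! ### the exponential `ZMod p → μ_p` -/

section Exp

variable {M : Type*} [CommGroup M] {p : ℕ} [Fact p.Prime]

/-- `k ↦ ζ ^ k`. -/
def lv20_exp (ζ : M) (k : ZMod p) : M := ζ ^ k.val

theorem lv20_exp_add {ζ : M} (hζ : ζ ^ p = 1) (a b : ZMod p) :
    lv20_exp ζ (a + b) = lv20_exp ζ a * lv20_exp ζ b := by
  unfold lv20_exp
  rw [ZMod.val_add, ← pow_add, pow_eq_pow_mod (a.val + b.val) hζ]

theorem lv20_exp_zero (ζ : M) : lv20_exp ζ (0 : ZMod p) = 1 := by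
  unfold lv20_exp
  rw [ZMod.val_zero, pow_zero]

theorem lv20_exp_pow (ζ : M) (hζ : ζ ^ p = 1) (a : ZMod p) : lv20_exp ζ a ^ p = 1 := by
  unfold lv20_exp
  rw [← pow_mul, mul_comm, pow_mul, hζ, one_pow]

theorem lv20_exp_sub {ζ : M} (hζ : ζ ^ p = 1) (a b : ZMod p) :
    lv20_exp ζ (a - b) = lv20_exp ζ a / lv20_exp ζ b := by
  rw [eq_div_iff_mul_eq', mul_comm, ← lv20_exp_add hζ, add_sub_cancel]

theorem lv20_exp_injective {ζ : M} (hζ : IsPrimitiveRoot ζ p) :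
    Function.Injective (lv20_exp (p := p) ζ) := by
  intro a b h
  exact ZMod.val_injective p (hζ.pow_inj (ZMod.val_lt a) (ZMod.val_lt b) h)

end Exp

section Log

variable {q : ℕ} [Fact q.Prime] {p : ℕ} [Fact p.Prime]

theorem lv20_exists_log {ζ : (PadicAlgCl q)ˣ} (hζ : IsPrimitiveRoot ζ p)
    (u : (PadicAlgCl q)ˣ) (hu : u ^ p = 1) : ∃ k : ZMod p, lv20_exp ζ k = u := by
  have hp0 : 0 < p := (Fact.out : p.Prime).pos
  have hζ' : IsPrimitiveRoot (ζ : PadicAlgCl q) p := IsPrimitiveRoot.coe_units_iff.2 hζ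
  have hu' : (u : PadicAlgCl q) ^ p = 1 := by
    rw [← Units.val_pow_eq_pow_val, hu, Units.val_one]
  obtain ⟨i, hi, hiu⟩ := hζ'.eq_pow_of_pow_eq_one hu'
  refine ⟨(i : ZMod p), ?_⟩
  unfold lv20_exp
  apply Units.ext
  rw [ZMod.val_natCast, Nat.mod_eq_of_lt hi, Units.val_pow_eq_pow_val]
  exact hiu

/-- the discrete logarithm to the base `ζ` (junk outside `μ_p`). -/
def lv20_log (ζ : (PadicAlgCl q)ˣ) (u : (PadicAlgCl q)ˣ) : ZMod p := by
  classical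
  exact if h : ∃ k : ZMod p, lv20_exp ζ k = u then h.choose else 0

theorem lv20_exp_log {ζ : (PadicAlgCl q)ˣ} (hζ : IsPrimitiveRoot ζ p)
    (u : (PadicAlgCl q)ˣ) (hu : u ^ p = 1) : lv20_exp ζ (lv20_log (p := p) ζ u) = u := by
  classical
  have h := lv20_exists_log hζ u hu
  unfold lv20_log
  rw [dif_pos h]
  exact h.choose_spec

end Log

section Main

variable {q : ℕ} [Fact q.Prime] {p : ℕ} [Fact p.Prime]

theorem lv20_smul_exp (U : Subgroup (lcf_Gal q)) {ζ : (PadicAlgCl q)ˣ}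
    (hζU : ∀ g : ↥U, g • ζ = ζ) (g : ↥U) (k : ZMod p) :
    g • lv20_exp ζ k = lv20_exp ζ k := by
  unfold lv20_exp
  rw [smul_pow', hζU g]

/-- `ζ ^ f` is a smooth cocycle if `f` is a smooth `F_p`-valued cocycle. -/
theorem lv20_isCoc_exp (U : Subgroup (lcf_Gal q)) {ζ : (PadicAlgCl q)ˣ}
    (hζ : IsPrimitiveRoot ζ p) (hζU : ∀ g : ↥U, g • ζ = ζ) (f : ↥U × ↥U → ZMod p)
    (hfs : lcf_Smooth₂ U f)
    (hfc : ∀ g h j : ↥U, f (h, j) - f (g * h, j) + f (g, h * j) - f (g, h) = 0) :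
    lcf_IsCoc U (fun x => lv20_exp ζ (f x)) := by
  refine ⟨?_, lh3m_smooth₂_comp U hfs (lv20_exp ζ)⟩
  intro g h j
  show lv20_exp ζ (f (g * h, j)) * lv20_exp ζ (f (g, h))
    = g • lv20_exp ζ (f (h, j)) * lv20_exp ζ (f (g, h * j))
  rw [lv20_smul_exp U hζU, ← lv20_exp_add hζ.pow_eq_one, ← lv20_exp_add hζ.pow_eq_one]
  congr 1
  have := hfc g h j
  linear_combination -this

/-- **[V20-INJ]**. -/
theorem lv20_inj : lcf_V20InjStatement := by
  intro inv hinv q _ p _ U hU ζ hζ hζU f hfs hfc h0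
  have hcoc := lv20_isCoc_exp U hζ hζU f hfs hfc
  have hcob : lcf_IsCob U (fun x => lv20_exp ζ (f x)) :=
    (hinv.eq_zero_iff q U hU _ hcoc).1 h0
  obtain ⟨b, hbs, hbp, hb⟩ := lkum_kummer2 q p U hU _
    (fun x => lv20_exp_pow ζ hζ.pow_eq_one (f x)) hcob
  refine ⟨fun g => lv20_log ζ (b g), lh3m_smooth₁_comp U hbs (lv20_log ζ), fun g h => ?_⟩
  apply lv20_exp_injective hζ
  rw [lv20_exp_add hζ.pow_eq_one, lv20_exp_sub hζ.pow_eq_one, lv20_exp_log hζ _ (hbp h),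
    lv20_exp_log hζ _ (hbp (g * h)), lv20_exp_log hζ _ (hbp g)]
  have h1 := hb g h
  have h2 : g • b h = b h := by
    rw [← lv20_exp_log hζ _ (hbp h), lv20_smul_exp U hζU]
  rw [h2] at h1
  exact h1

theorem lv20_qz_nsmul (p : ℕ) (hp : p ≠ 0) : p • lcf_qz (1 / (p : ℚ)) = 0 := by
  rw [← map_nsmul, nsmul_eq_mul]
  have h : (p : ℚ) * (1 / (p : ℚ)) = 1 := by
    have : (p : ℚ) ≠ 0 := by exact_mod_cast hp
    field_simp
  rw [h]
  exact (QuotientAddGroup.eq_zero_iff _).2 (AddSubgroup.mem_zmultiples 1)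

/-- **[V20-SURJ]**. -/
theorem lv20_surj : lcf_V20SurjStatement := by
  intro inv hinv q _ p _ U hU ζ hζ hζU
  have hp0 : 0 < p := (Fact.out : p.Prime).pos
  obtain ⟨F₀, hF₀, hinvF₀⟩ := hinv.surj q U hU (lcf_qz (1 / (p : ℚ)))
  -- `F₀ ^ p` is a smooth coboundary
  have h1 : inv q U (F₀ ^ p) = 0 := by
    rw [lh3m_inv_pow hinv U hU hF₀ p, hinvF₀]
    exact lv20_qz_nsmul p hp0.ne'
  obtain ⟨c, hcs, hc⟩ := (hinv.eq_zero_iff q U hU _ (lh3m_isCoc_pow hF₀ p)).1 h1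
  -- a smooth `p`-th root of `c`
  choose ρ hρ using fun x : (PadicAlgCl q)ˣ => lh3m_exists_root (q := q) p hp0 x
  have hc's : lcf_Smooth₁ U (fun g => ρ (c g)) := lh3m_smooth₁_comp U hcs ρ
  have hDs : lcf_Smooth₂ U (lh3m_d₁₂ U (fun g => ρ (c g))) := lh3m_smooth_d₁₂ U hc's
  have hDcoc : lcf_IsCoc U (lh3m_d₁₂ U (fun g => ρ (c g))) :=
    ⟨(lh3m_isCocycle_iff U _).2 (lh3m_d₂₃_d₁₂ U _), hDs⟩
  have hDcob : lcf_IsCob U (lh3m_d₁₂ U (fun g => ρ (c g))) :=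
    ⟨fun g => ρ (c g), hc's, fun g h => rfl⟩
  have hDp : lh3m_d₁₂ U (fun g => ρ (c g)) ^ p = F₀ ^ p := by
    rw [← lh3m_d₁₂_pow]
    funext x
    show x.1 • (ρ (c x.2) ^ p) / ρ (c (x.1 * x.2)) ^ p * ρ (c x.1) ^ p = (F₀ ^ p) x
    rw [hρ, hρ, hρ]
    exact hc x.1 x.2
  have hF₁ : lcf_IsCoc U (F₀ / lh3m_d₁₂ U (fun g => ρ (c g))) := lh3m_isCoc_div hF₀ hDcoc
  have hF₁p : ∀ x, (F₀ / lh3m_d₁₂ U (fun g => ρ (c g))) x ^ p = 1 := by
    intro x
    have := congrFun hDp x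
    simp only [Pi.pow_apply] at this
    rw [Pi.div_apply, div_pow, this, div_self']
  have hinvF₁ : inv q U (F₀ / lh3m_d₁₂ U (fun g => ρ (c g))) = lcf_qz (1 / (p : ℚ)) := by
    rw [lh3m_inv_div hinv U hU hF₀ hDcoc, hinvF₀,
      (hinv.eq_zero_iff q U hU _ hDcoc).2 hDcob, sub_zero]
  have hexp : (fun x => lv20_exp ζ
      (lv20_log (p := p) ζ ((F₀ / lh3m_d₁₂ U (fun g => ρ (c g))) x)))
      = F₀ / lh3m_d₁₂ U (fun g => ρ (c g)) := by
    funext x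
    exact lv20_exp_log hζ _ (hF₁p x)
  refine ⟨fun x => lv20_log ζ ((F₀ / lh3m_d₁₂ U (fun g => ρ (c g))) x),
    lh3m_smooth₂_comp U hF₁.2 (lv20_log ζ), fun g h j => ?_, ?_⟩
  · have hcc := hF₁.1 g h j
    rw [← hexp] at hcc
    simp only at hcc
    rw [lv20_smul_exp U hζU, ← lv20_exp_add hζ.pow_eq_one, ← lv20_exp_add hζ.pow_eq_one] at hcc
    have := lv20_exp_injective hζ hcc
    linear_combination -this
  · show inv q U (fun x => lv20_exp ζ _) = _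
    rw [hexp]
    exact hinvF₁

end Main

end Fermat.Agent.S55
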