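/-
S55 (fifth wave), package [SEC-LOCIDX] (helper24), part 1: the ABSTRACT calculus of the index of
the `n`-th powers.  Prefix `lpx_`.

For a commutative group `G` and `n : ℕ` put
  `lpx_hq G n = [G : Gⁿ] / #G[n]`        (a rational number; `lpx_Fin G n`: both are finite).
This is the Herbrand quotient of `(0, x ↦ xⁿ)` on `Additive G`, so it is multiplicative in short
exact sequences (helper26's `herb_q_mul`), equal to `1` on finite groups and to `n` on `ℤ`.
Also: the index of the `n`-th powers of a finite product is the product of the indices.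
-/
import Fermat.Agent.S55.Global.HerbBasic

set_option autoImplicit false

namespace Fermat.Agent.S55

noncomputable section

/-! ### Finite products and isomorphisms -/

/-- The index of a product of subgroups (dependent version of `Subgroup.index_pi`). -/
theorem lpx_index_pi {ι : Type*} [Fintype ι] {G : ι → Type*} [∀ i, Group (G i)]
    (H : ∀ i, Subgroup (G i)) :
    (Subgroup.pi Set.univ H).index = ∏ i, (H i).index := by
  simp_rw [Subgroup.index, ← Nat.card_pi]
  refine Nat.card_congr
    ((Quotient.congrRight (fun x y ↦ ?_)).trans (Setoid.piQuotientEquiv _).symm)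
  rw [QuotientGroup.leftRel_pi]

theorem lpx_range_pow_pi {ι : Type*} {G : ι → Type*} [∀ i, CommGroup (G i)] (n : ℕ) :
    (powMonoidHom n : (∀ i, G i) →* (∀ i, G i)).range =
      Subgroup.pi Set.univ (fun i => (powMonoidHom n : G i →* G i).range) := by
  ext x
  simp only [MonoidHom.mem_range, powMonoidHom_apply, Subgroup.mem_pi, Set.mem_univ,
    forall_true_left]
  constructor
  · rintro ⟨y, rfl⟩ i
    exact ⟨y i, rfl⟩
  · intro h
    choose y hy using h
    exact ⟨y, funext hy⟩

/-- The index of the `n`-th powers of a finite product. -/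
theorem lpx_index_pow_pi {ι : Type*} [Fintype ι] {G : ι → Type*} [∀ i, CommGroup (G i)]
    (n : ℕ) :
    (powMonoidHom n : (∀ i, G i) →* (∀ i, G i)).range.index =
      ∏ i, (powMonoidHom n : G i →* G i).range.index := by
  rw [lpx_range_pow_pi, lpx_index_pi]

/-- The index of the `n`-th powers is invariant under isomorphisms. -/
theorem lpx_index_pow_congr {G G' : Type*} [CommGroup G] [CommGroup G'] (e : G ≃* G') (n : ℕ) :
    (powMonoidHom n : G →* G).range.index = (powMonoidHom n : G' →* G').range.index := by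
  rw [← Subgroup.index_map_equiv (powMonoidHom n : G →* G).range e]
  congr 1
  ext x
  simp only [Subgroup.mem_map, MonoidHom.mem_range, powMonoidHom_apply, exists_exists_eq_and]
  constructor
  · rintro ⟨y, rfl⟩
    exact ⟨e y, by simp⟩
  · rintro ⟨y, rfl⟩
    exact ⟨e.symm y, by simp⟩

/-- The number of `n`-torsion elements is invariant under isomorphisms. -/
theorem lpx_card_ker_congr {G G' : Type*} [CommGroup G] [CommGroup G'] (e : G ≃* G') (n : ℕ) :
    Nat.card (powMonoidHom n : G →* G).ker = Nat.card (powMonoidHom n : G' →* G').ker := by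
  refine Nat.card_congr (Equiv.subtypeEquiv e.toEquiv fun x => ?_)
  simp only [MonoidHom.mem_ker, powMonoidHom_apply, MulEquiv.toEquiv_eq_coe, EquivLike.coe_coe]
  rw [← map_pow]
  exact (map_eq_one_iff e e.injective).symm

/-! ### The quotient `[G : Gⁿ] / #G[n]` -/

section hq

variable (G : Type*) [CommGroup G] (n : ℕ)

/-- Both `[G : Gⁿ]` and `#G[n]` are finite. -/
def lpx_Fin : Prop :=
  (powMonoidHom n : G →* G).range.index ≠ 0 ∧ Nat.card (powMonoidHom n : G →* G).ker ≠ 0

/-- The rational number `[G : Gⁿ] / #G[n]`. -/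
def lpx_hq : ℚ :=
  ((powMonoidHom n : G →* G).range.index : ℚ) / (Nat.card (powMonoidHom n : G →* G).ker : ℚ)

/-- The `n`-th power map on `Additive G`. -/
def lpx_addPow : Additive G →+ Additive G := MonoidHom.toAdditive (powMonoidHom n : G →* G)

theorem lpx_herb_idx_zero :
    herb_idx (0 : Additive G →+ Additive G) (lpx_addPow G n) =
      (powMonoidHom n : G →* G).range.index := by
  unfold herb_idx
  have h1 : (0 : Additive G →+ Additive G).ker = ⊤ := by
    ext x; simp
  rw [h1, AddSubgroup.relIndex_top_right]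
  have h2 : (lpx_addPow G n).range = Subgroup.toAddSubgroup (powMonoidHom n : G →* G).range := by
    ext x
    exact Iff.rfl
  rw [h2, Subgroup.index_toAddSubgroup]

theorem lpx_herb_idx_pow :
    herb_idx (lpx_addPow G n) (0 : Additive G →+ Additive G) =
      Nat.card (powMonoidHom n : G →* G).ker := by
  unfold herb_idx
  have h1 : (0 : Additive G →+ Additive G).range = ⊥ := by
    ext x
    simp only [AddMonoidHom.mem_range, AddMonoidHom.zero_apply, exists_const,
      AddSubgroup.mem_bot]
    exact eq_comm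
  rw [h1, AddSubgroup.relIndex_bot_left]
  exact Nat.card_congr (Equiv.subtypeEquiv Additive.toMul fun x => Iff.rfl)

theorem lpx_fin_iff : lpx_Fin G n ↔ herb_Fin (0 : Additive G →+ Additive G) (lpx_addPow G n) := by
  unfold lpx_Fin herb_Fin
  rw [lpx_herb_idx_zero, lpx_herb_idx_pow]

theorem lpx_hq_eq : lpx_hq G n = herb_q (0 : Additive G →+ Additive G) (lpx_addPow G n) := by
  unfold lpx_hq herb_q
  rw [lpx_herb_idx_zero, lpx_herb_idx_pow]

variable {G n}

/-- The index of the `n`-th powers from `lpx_hq`. -/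
theorem lpx_index_eq (h : lpx_Fin G n) (c : ℕ) (hc : lpx_hq G n = c) :
    (powMonoidHom n : G →* G).range.index = c * Nat.card (powMonoidHom n : G →* G).ker := by
  unfold lpx_hq at hc
  have h2 : (Nat.card (powMonoidHom n : G →* G).ker : ℚ) ≠ 0 := Nat.cast_ne_zero.2 h.2
  rw [div_eq_iff h2] at hc
  exact_mod_cast hc

end hq

/-! ### Exact sequences -/

section exact

variable {G' G G'' : Type*} [CommGroup G'] [CommGroup G] [CommGroup G'']

/-- Multiplicativity in short exact sequences. -/
theorem lpx_exact (i : G' →* G) (π : G →* G'') (hi : Function.Injective i)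
    (hπ : Function.Surjective π) (hex : π.ker = i.range) (n : ℕ)
    (h' : lpx_Fin G' n) (h'' : lpx_Fin G'' n) :
    lpx_Fin G n ∧ lpx_hq G n = lpx_hq G' n * lpx_hq G'' n := by
  rw [lpx_fin_iff] at h' h'' ⊢
  rw [lpx_hq_eq, lpx_hq_eq, lpx_hq_eq]
  have hex' : (MonoidHom.toAdditive π).ker = (MonoidHom.toAdditive i).range := by
    ext x
    have := SetLike.ext_iff.1 hex (Additive.toMul x)
    exact this
  have hfi : ∀ a, (MonoidHom.toAdditive i) ((0 : Additive G' →+ Additive G') a) =
      (0 : Additive G →+ Additive G) ((MonoidHom.toAdditive i) a) := fun a => by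
    simp
  have hgi : ∀ a, (MonoidHom.toAdditive i) (lpx_addPow G' n a) =
      lpx_addPow G n ((MonoidHom.toAdditive i) a) := fun a =>
    map_pow i (Additive.toMul a) n
  have hfπ : ∀ a, (MonoidHom.toAdditive π) ((0 : Additive G →+ Additive G) a) =
      (0 : Additive G'' →+ Additive G'') ((MonoidHom.toAdditive π) a) := fun a => by
    simp
  have hgπ : ∀ a, (MonoidHom.toAdditive π) (lpx_addPow G n a) =
      lpx_addPow G'' n ((MonoidHom.toAdditive π) a) := fun a =>
    map_pow π (Additive.toMul a) n
  have hfg : ∀ a, (0 : Additive G →+ Additive G) (lpx_addPow G n a) = 0 := fun _ => rfl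
  have hgf : ∀ a, lpx_addPow G n ((0 : Additive G →+ Additive G) a) = 0 := fun _ => by
    simp
  exact ⟨herb_fin_mid (MonoidHom.toAdditive i) (MonoidHom.toAdditive π) hi hπ hex' _ _ _ _ _ _
      hfi hgi hfπ hgπ hfg hgf h' h'',
    herb_q_mul (MonoidHom.toAdditive i) (MonoidHom.toAdditive π) hi hπ hex' _ _ _ _ _ _
      hfi hgi hfπ hgπ hfg hgf h' h''⟩

/-- Finite groups. -/
theorem lpx_finite (G : Type*) [CommGroup G] [Finite G] (n : ℕ) :
    lpx_Fin G n ∧ lpx_hq G n = 1 := by
  rw [lpx_fin_iff, lpx_hq_eq]
  have : Finite (Additive G) := inferInstanceAs (Finite G)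
  refine ⟨herb_fin_of_finite _ _, herb_q_finite _ _ (fun _ => rfl) fun _ => ?_⟩
  simp

/-- The group `ℤ`. -/
theorem lpx_int (n : ℕ) (hn : n ≠ 0) :
    lpx_Fin (Multiplicative ℤ) n ∧ lpx_hq (Multiplicative ℤ) n = n := by
  have hidx : (powMonoidHom n : Multiplicative ℤ →* Multiplicative ℤ).range.index = n := by
    have h1 : (powMonoidHom n : Multiplicative ℤ →* Multiplicative ℤ).range =
        AddSubgroup.toSubgroup (AddSubgroup.zmultiples (n : ℤ)) := by
      ext x
      simp only [MonoidHom.mem_range, powMonoidHom_apply]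
      constructor
      · rintro ⟨y, rfl⟩
        show Multiplicative.toAdd (y ^ n) ∈ AddSubgroup.zmultiples (n : ℤ)
        rw [toAdd_pow, AddSubgroup.mem_zmultiples_iff]
        exact ⟨Multiplicative.toAdd y, by rw [smul_eq_mul, nsmul_eq_mul, mul_comm]⟩
      · intro hx
        have hx' : Multiplicative.toAdd x ∈ AddSubgroup.zmultiples (n : ℤ) := hx
        rw [AddSubgroup.mem_zmultiples_iff] at hx'
        obtain ⟨k, hk⟩ := hx'
        refine ⟨Multiplicative.ofAdd k, ?_⟩
        apply Multiplicative.toAdd.injective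
        rw [toAdd_pow, ← hk, toAdd_ofAdd, smul_eq_mul, nsmul_eq_mul, mul_comm]
    rw [h1, AddSubgroup.index_toSubgroup, Int.index_zmultiples, Int.natAbs_natCast]
  have hker : Nat.card (powMonoidHom n : Multiplicative ℤ →* Multiplicative ℤ).ker = 1 := by
    rw [Nat.card_eq_one_iff_unique]
    refine ⟨⟨fun a b => ?_⟩, ⟨1⟩⟩
    have key : ∀ x : (powMonoidHom n : Multiplicative ℤ →* Multiplicative ℤ).ker,
        (x : Multiplicative ℤ) = 1 := by
      intro x
      have hx : (x : Multiplicative ℤ) ^ n = 1 := x.2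
      apply Multiplicative.toAdd.injective
      have h2 : n • Multiplicative.toAdd (x : Multiplicative ℤ) = 0 := by
        rw [← toAdd_pow, hx]; rfl
      rw [nsmul_eq_mul] at h2
      rcases mul_eq_zero.1 h2 with h | h
      · exact absurd (by exact_mod_cast h) hn
      · exact h
    exact Subtype.ext ((key a).trans (key b).symm)
  refine ⟨⟨by rw [hidx]; exact hn, by rw [hker]; exact one_ne_zero⟩, ?_⟩
  unfold lpx_hq
  rw [hidx, hker]
  simp

/-- A subgroup of finite index (given by an injection) has the same quotient. -/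
theorem lpx_of_finite_index (i : G' →* G) (hi : Function.Injective i)
    (hidx : i.range.index ≠ 0) (n : ℕ) (h' : lpx_Fin G' n) :
    lpx_Fin G n ∧ lpx_hq G n = lpx_hq G' n := by
  have hfi : i.range.FiniteIndex := ⟨hidx⟩
  have : Finite (G ⧸ i.range) := Subgroup.finite_quotient_of_finiteIndex
  obtain ⟨h1, h2⟩ := lpx_finite (G ⧸ i.range) n
  obtain ⟨h3, h4⟩ := lpx_exact i (QuotientGroup.mk' i.range) hi
    (QuotientGroup.mk'_surjective _) (QuotientGroup.ker_mk' _) n h' h1
  exact ⟨h3, by rw [h4, h2, mul_one]⟩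

/-- A group with a surjection onto `ℤ`. -/
theorem lpx_of_ord (i : G' →* G) (hi : Function.Injective i) (ord : G →* Multiplicative ℤ)
    (hord : Function.Surjective ord) (hex : ord.ker = i.range) (n : ℕ) (hn : n ≠ 0)
    (h' : lpx_Fin G' n) :
    lpx_Fin G n ∧ lpx_hq G n = n * lpx_hq G' n := by
  obtain ⟨h1, h2⟩ := lpx_int n hn
  obtain ⟨h3, h4⟩ := lpx_exact i ord hi hord hex n h' h1
  exact ⟨h3, by rw [h4, h2, mul_comm]⟩

/-- A group on which `x ↦ xⁿ` is injective. -/
theorem lpx_of_injective (n : ℕ) (hinj : Function.Injective (powMonoidHom n : G →* G))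
    (hidx : (powMonoidHom n : G →* G).range.index ≠ 0) :
    lpx_Fin G n ∧ lpx_hq G n = (powMonoidHom n : G →* G).range.index := by
  have hker : Nat.card (powMonoidHom n : G →* G).ker = 1 := by
    rw [(MonoidHom.ker_eq_bot_iff _).2 hinj]
    exact Subgroup.card_bot
  refine ⟨⟨hidx, by rw [hker]; exact one_ne_zero⟩, ?_⟩
  unfold lpx_hq
  rw [hker]
  simp

end exact

end

end Fermat.Agent.S55
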