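/-
S55 (fifth wave), package [SEC-LOCIDX] (helper24), part 2: the `n`-th powers in the unit groups
of a local field (normed-field model `lf_`).  Prefix `lpx_`.

For a local field `L` and `n : ℕ` with `(n : L) ≠ 0`:
* `‖uⁿ - 1‖ = ‖n‖ ‖u - 1‖` for `‖u - 1‖ < ‖n‖`  (`lpx_norm_pow_sub_one`);
* every `x` near `1` has an `n`-th root near `1`  (`lpx_exists_root`, inverse function theorem);
* for small `ρ`, `x ↦ xⁿ` maps `U_ρ = {‖u - 1‖ ≤ ρ}` bijectively onto `U_{‖n‖ ρ}`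
  (`lpx_pow_unitsLe`);
* `[U_{‖t‖} : U_{‖c‖ ‖t‖}] = [O : c O]`  (`lpx_index_unitsLe`);
* hence `[Lˣ : Lˣⁿ] = n · [O : n O] · #μ_n(L)`  (`lpx_index_units`).
-/
import Fermat.Agent.S55.Local.PowIdxAbs
import Fermat.Agent.S55.Local.UnitsMain
import Fermat.Agent.S55.Local.EFMain

set_option autoImplicit false

namespace Fermat.Agent.S55

open Metric Filter Topology

noncomputable section

section norm

variable (L : Type*) [NormedField L] [lf_IsLocal L]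

theorem lpx_norm_natCast_le_one (n : ℕ) : ‖(n : L)‖ ≤ 1 :=
  IsUltrametricDist.norm_natCast_le_one L n

variable {L}

theorem lpx_norm_le_one_of_sub {u : L} (h : ‖u - 1‖ ≤ 1) : ‖u‖ ≤ 1 := by
  have e : u = (u - 1) + 1 := by ring
  rw [e]
  exact (lf_norm_add_le_max _ _).trans (max_le h (by rw [norm_one]))

theorem lpx_norm_eq_one_of_sub {u : L} (h : ‖u - 1‖ < 1) : ‖u‖ = 1 := by
  have e : u = (u - 1) + 1 := by ring
  rw [e, IsUltrametricDist.norm_add_eq_max_of_norm_ne_norm (by rw [norm_one]; exact h.ne),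
    norm_one]
  exact max_eq_right h.le

theorem lpx_norm_pow_sub_one_le {u : L} (h : ‖u - 1‖ ≤ 1) (i : ℕ) :
    ‖u ^ i - 1‖ ≤ ‖u - 1‖ := by
  induction i with
  | zero => simp
  | succ i ih =>
    have e : u ^ (i + 1) - 1 = u ^ i * (u - 1) + (u ^ i - 1) := by ring
    rw [e]
    refine (lf_norm_add_le_max _ _).trans (max_le ?_ ih)
    rw [norm_mul, norm_pow]
    calc ‖u‖ ^ i * ‖u - 1‖ ≤ 1 * ‖u - 1‖ :=
          mul_le_mul_of_nonneg_right
            (pow_le_one₀ (norm_nonneg _) (lpx_norm_le_one_of_sub h)) (norm_nonneg _)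
      _ = ‖u - 1‖ := one_mul _

/-- `‖uⁿ - 1‖ = ‖n‖ ‖u - 1‖` for `u` close to `1`. -/
theorem lpx_norm_pow_sub_one (n : ℕ) {u : L} (h : ‖u - 1‖ < ‖(n : L)‖) :
    ‖u ^ n - 1‖ = ‖(n : L)‖ * ‖u - 1‖ := by
  have hn1 : ‖(n : L)‖ ≤ 1 := lpx_norm_natCast_le_one L n
  have hu : ‖u - 1‖ ≤ 1 := h.le.trans hn1
  have e : u ^ n - 1 = (u - 1) * ∑ i ∈ Finset.range n, u ^ i := (mul_geom_sum u n).symm
  have e2 : ∑ i ∈ Finset.range n, u ^ i = (n : L) + ∑ i ∈ Finset.range n, (u ^ i - 1) := by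
    rw [Finset.sum_sub_distrib]
    simp
  have h3 : ‖∑ i ∈ Finset.range n, (u ^ i - 1)‖ ≤ ‖u - 1‖ :=
    IsUltrametricDist.norm_sum_le_of_forall_le_of_nonneg (norm_nonneg _)
      (fun i _ => lpx_norm_pow_sub_one_le hu i)
  have h4 : ‖(n : L) + ∑ i ∈ Finset.range n, (u ^ i - 1)‖ = ‖(n : L)‖ := by
    rw [IsUltrametricDist.norm_add_eq_max_of_norm_ne_norm (ne_of_gt (lt_of_le_of_lt h3 h))]
    exact max_eq_left (h3.trans h.le)
  rw [e, norm_mul, e2, h4, mul_comm]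

variable (L)

/-- Every element close to `1` has an `n`-th root close to `1`. -/
theorem lpx_exists_root (n : ℕ) (hn : (n : L) ≠ 0) (ρ₀ : ℝ) (hρ₀ : 0 < ρ₀) :
    ∃ ε : ℝ, 0 < ε ∧ ∀ x : L, ‖x - 1‖ < ε → ∃ y : L, ‖y - 1‖ < ρ₀ ∧ y ^ n = x := by
  let _ := lf_nontriviallyNormedField L
  have hd : HasStrictDerivAt (fun x : L => x ^ n) ((n : L) * (1 : L) ^ (n - 1)) 1 :=
    hasStrictDerivAt_pow n 1
  have hne : (n : L) * (1 : L) ^ (n - 1) ≠ 0 := by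
    rw [one_pow, mul_one]
    exact hn
  have hmap := hd.map_nhds_eq hne
  have himg : (fun x : L => x ^ n) '' (ball (1 : L) ρ₀) ∈ 𝓝 ((1 : L) ^ n) := by
    rw [← hmap]
    exact Filter.image_mem_map (ball_mem_nhds _ hρ₀)
  rw [one_pow] at himg
  obtain ⟨ε, hε, hball⟩ := Metric.mem_nhds_iff.mp himg
  refine ⟨ε, hε, fun x hx => ?_⟩
  have hx' : x ∈ ball (1 : L) ε := by
    rw [mem_ball, dist_eq_norm]
    exact hx
  obtain ⟨y, hy, hyx⟩ := hball hx'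
  rw [mem_ball, dist_eq_norm] at hy
  exact ⟨y, hy, hyx⟩

end norm

section units

variable (L : Type*) [NormedField L] [lf_IsLocal L]

/-- For small `ρ` the `n`-th power map is injective on `U_ρ`. -/
theorem lpx_pow_injective (n : ℕ) (hn : (n : L) ≠ 0) (ρ : ℝ) (hρ : 0 ≤ ρ)
    (hρn : ρ < ‖(n : L)‖) :
    Function.Injective (powMonoidHom n : ↥(lf_unitsLe L ρ hρ) →* ↥(lf_unitsLe L ρ hρ)) := by
  rw [injective_iff_map_eq_one]
  intro u hu
  have h1 : ((u : Lˣ) : L) ^ n = 1 := by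
    have := congrArg (fun z : ↥(lf_unitsLe L ρ hρ) => ((z : Lˣ) : L)) hu
    simpa using this
  have h2 := lpx_norm_pow_sub_one n (u := ((u : Lˣ) : L)) (lt_of_le_of_lt u.2.2 hρn)
  rw [h1, sub_self, norm_zero] at h2
  have h3 : ‖((u : Lˣ) : L) - 1‖ = 0 := by
    rcases mul_eq_zero.1 h2.symm with h | h
    · exact absurd (norm_eq_zero.1 h) hn
    · exact h
  apply Subtype.ext
  apply Units.ext
  have h4 := norm_eq_zero.1 h3
  rw [sub_eq_zero] at h4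
  simpa using h4

/-- For small `ρ` the `n`-th power map is a bijection of `U_ρ` onto `U_{‖n‖ρ}`. -/
theorem lpx_pow_unitsLe (n : ℕ) (hn : (n : L) ≠ 0) :
    ∃ ρ₁ : ℝ, 0 < ρ₁ ∧ ∀ (ρ : ℝ) (hρ : 0 ≤ ρ), ρ < ρ₁ →
      Function.Injective (powMonoidHom n : ↥(lf_unitsLe L ρ hρ) →* ↥(lf_unitsLe L ρ hρ)) ∧
      (powMonoidHom n : ↥(lf_unitsLe L ρ hρ) →* ↥(lf_unitsLe L ρ hρ)).range =
        (lf_unitsLe L (‖(n : L)‖ * ρ) (mul_nonneg (norm_nonneg _) hρ)).subgroupOf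
          (lf_unitsLe L ρ hρ) := by
  have hnpos : 0 < ‖(n : L)‖ := norm_pos_iff.2 hn
  have hn1 : ‖(n : L)‖ ≤ 1 := lpx_norm_natCast_le_one L n
  obtain ⟨ε, hε, hroot⟩ := lpx_exists_root L n hn ‖(n : L)‖ hnpos
  refine ⟨min ‖(n : L)‖ ε, lt_min hnpos hε, fun ρ hρ hρ1 => ?_⟩
  have hρn : ρ < ‖(n : L)‖ := lt_of_lt_of_le hρ1 (min_le_left _ _)
  have hρε : ρ < ε := lt_of_lt_of_le hρ1 (min_le_right _ _)
  refine ⟨lpx_pow_injective L n hn ρ hρ hρn, ?_⟩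
  ext u
  rw [Subgroup.mem_subgroupOf, MonoidHom.mem_range]
  constructor
  · rintro ⟨v, rfl⟩
    refine ⟨(lf_unitsLe L ρ hρ).pow_mem v.2 n |>.1, ?_⟩
    show ‖(((v : Lˣ) ^ n : Lˣ) : L) - 1‖ ≤ ‖(n : L)‖ * ρ
    rw [Units.val_pow_eq_pow_val, lpx_norm_pow_sub_one n (lt_of_le_of_lt v.2.2 hρn)]
    exact mul_le_mul_of_nonneg_left v.2.2 (norm_nonneg _)
  · rintro ⟨hu1, hu2⟩
    have hlt : ‖((u : Lˣ) : L) - 1‖ < ε := by
      refine lt_of_le_of_lt hu2 (lt_of_le_of_lt ?_ hρε)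
      calc ‖(n : L)‖ * ρ ≤ 1 * ρ := mul_le_mul_of_nonneg_right hn1 hρ
        _ = ρ := one_mul _
    obtain ⟨y, hy, hyu⟩ := hroot _ hlt
    have hy1 : ‖y‖ = 1 := lpx_norm_eq_one_of_sub (lt_of_lt_of_le hy hn1)
    have hy0 : y ≠ 0 := by
      intro h
      rw [h, norm_zero] at hy1
      exact zero_ne_one hy1
    have hyρ : ‖y - 1‖ ≤ ρ := by
      have h5 := lpx_norm_pow_sub_one n hy
      rw [hyu] at h5
      rw [h5] at hu2
      exact le_of_mul_le_mul_left hu2 hnpos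
    refine ⟨⟨Units.mk0 y hy0, hy1, hyρ⟩, ?_⟩
    apply Subtype.ext
    apply Units.ext
    show ((Units.mk0 y hy0 ^ n : Lˣ) : L) = ((u : Lˣ) : L)
    rw [Units.val_pow_eq_pow_val, Units.val_mk0, hyu]

/-- The bijection `U_{‖t‖} → O`, `u ↦ (u - 1) / t`. -/
def lpx_unitsEquiv (t : L) (ht : t ≠ 0) (ht1 : ‖t‖ < 1) :
    ↥(lf_unitsLe L ‖t‖ (norm_nonneg t)) ≃ ↥(lef_lat (lef_coL L) (1 : L)) where
  toFun u := ⟨(((u : Lˣ) : L) - 1) / t, by
    rw [lef_mem_ball, norm_one, norm_div, div_le_one (norm_pos_iff.2 ht)]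
    exact u.2.2⟩
  invFun x := ⟨Units.mk0 (1 + t * (x : L)) (by
      intro h
      have hx : ‖(x : L)‖ ≤ 1 := by
        have := (lef_mem_ball (1 : L) (x : L)).1 x.2
        rwa [norm_one] at this
      have h1 : ‖(1 + t * (x : L)) - 1‖ < 1 := by
        rw [add_sub_cancel_left, norm_mul]
        calc ‖t‖ * ‖(x : L)‖ ≤ ‖t‖ * 1 := mul_le_mul_of_nonneg_left hx (norm_nonneg _)
          _ = ‖t‖ := mul_one _
          _ < 1 := ht1
      have h2 := lpx_norm_eq_one_of_sub h1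
      rw [h, norm_zero] at h2
      exact zero_ne_one h2), by
    have hx : ‖(x : L)‖ ≤ 1 := by
      have := (lef_mem_ball (1 : L) (x : L)).1 x.2
      rwa [norm_one] at this
    have h0 : ‖(1 + t * (x : L)) - 1‖ ≤ ‖t‖ := by
      rw [add_sub_cancel_left, norm_mul]
      calc ‖t‖ * ‖(x : L)‖ ≤ ‖t‖ * 1 := mul_le_mul_of_nonneg_left hx (norm_nonneg _)
        _ = ‖t‖ := mul_one _
    exact ⟨lpx_norm_eq_one_of_sub (lt_of_le_of_lt h0 ht1), h0⟩⟩
  left_inv u := by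
    apply Subtype.ext
    apply Units.ext
    show 1 + t * ((((u : Lˣ) : L) - 1) / t) = ((u : Lˣ) : L)
    field_simp
    ring
  right_inv x := by
    apply Subtype.ext
    show ((1 + t * (x : L)) - 1) / t = (x : L)
    field_simp
    ring

/-- `[U_{‖t‖} : U_{‖c‖‖t‖}] = [O : c O]`. -/
theorem lpx_index_unitsLe (c t : L) (ht : t ≠ 0) (ht1 : ‖t‖ < 1) :
    ((lf_unitsLe L (‖c‖ * ‖t‖) (mul_nonneg (norm_nonneg _) (norm_nonneg _))).subgroupOf
        (lf_unitsLe L ‖t‖ (norm_nonneg t))).index =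
      (lef_lat (lef_coL L) c).relIndex (lef_lat (lef_coL L) (1 : L)) := by
  unfold AddSubgroup.relIndex Subgroup.index AddSubgroup.index
  refine Nat.card_congr (Quotient.congr (lpx_unitsEquiv L t ht ht1) fun u v => ?_)
  have htpos : 0 < ‖t‖ := norm_pos_iff.2 ht
  show QuotientGroup.leftRel _ u v ↔ QuotientAddGroup.leftRel _ _ _
  rw [QuotientGroup.leftRel_apply, QuotientAddGroup.leftRel_apply, Subgroup.mem_subgroupOf,
    AddSubgroup.mem_addSubgroupOf, lef_mem_ball, lf_mem_unitsLe_iff]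
  have hu1 : ‖((u : Lˣ) : L)‖ = 1 := u.2.1
  have hv1 : ‖((v : Lˣ) : L)‖ = 1 := v.2.1
  have e1 : (((u⁻¹ * v : ↥(lf_unitsLe L ‖t‖ (norm_nonneg t))) : Lˣ) : L) =
      ((u : Lˣ) : L)⁻¹ * ((v : Lˣ) : L) := by
    simp
  have e2 : ((u : Lˣ) : L)⁻¹ * ((v : Lˣ) : L) - 1 =
      ((u : Lˣ) : L)⁻¹ * (((v : Lˣ) : L) - ((u : Lˣ) : L)) := by
    have := (u : Lˣ).ne_zero
    field_simp
  have e3 : ((-(lpx_unitsEquiv L t ht ht1 u) + lpx_unitsEquiv L t ht ht1 v :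
      ↥(lef_lat (lef_coL L) (1 : L))) : L) = (((v : Lˣ) : L) - ((u : Lˣ) : L)) / t := by
    show -((((u : Lˣ) : L) - 1) / t) + (((v : Lˣ) : L) - 1) / t = _
    ring
  rw [e1, e2, e3, norm_mul, norm_mul, norm_inv, hu1, hv1, inv_one, one_mul, one_mul, norm_div,
    div_le_iff₀ htpos]
  exact ⟨fun h => h.2, fun h => ⟨rfl, h⟩⟩

/-- **The index of the `n`-th powers of a local field**:
`[Lˣ : Lˣⁿ] = n · [O : n O] · #μ_n(L)`. -/
theorem lpx_index_units (n : ℕ) (hn : (n : L) ≠ 0) :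
    (powMonoidHom n : Lˣ →* Lˣ).range.index =
      n * (lef_lat (lef_coL L) (n : L)).relIndex (lef_lat (lef_coL L) (1 : L)) *
        Nat.card (powMonoidHom n : Lˣ →* Lˣ).ker := by
  have hn0 : n ≠ 0 := by
    rintro rfl
    exact hn Nat.cast_zero
  have hnpos : 0 < ‖(n : L)‖ := norm_pos_iff.2 hn
  obtain ⟨ρ₁, hρ₁, hρ⟩ := lpx_pow_unitsLe L n hn
  obtain ⟨m, hm⟩ := exists_pow_lt_of_lt_one hρ₁ (lf_norm_unif_lt_one L)
  have hπ0 := lf_unif_ne_zero L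
  have hπpos := lf_norm_unif_pos L
  have hπ1 := lf_norm_unif_lt_one L
  set t : L := lf_unif L ^ (m + 1) with ht_def
  have ht : t ≠ 0 := pow_ne_zero _ hπ0
  have htnorm : ‖t‖ = ‖lf_unif L‖ ^ m * ‖lf_unif L‖ := by
    rw [ht_def, norm_pow, pow_succ]
  have htle : ‖t‖ ≤ ‖lf_unif L‖ ^ m := by
    rw [htnorm]
    calc ‖lf_unif L‖ ^ m * ‖lf_unif L‖ ≤ ‖lf_unif L‖ ^ m * 1 :=
          mul_le_mul_of_nonneg_left hπ1.le (pow_nonneg hπpos.le _)
      _ = ‖lf_unif L‖ ^ m := mul_one _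
  have ht1 : ‖t‖ < 1 := by
    rw [htnorm]
    calc ‖lf_unif L‖ ^ m * ‖lf_unif L‖ ≤ 1 * ‖lf_unif L‖ :=
          mul_le_mul_of_nonneg_right (pow_le_one₀ hπpos.le hπ1.le) hπpos.le
      _ = ‖lf_unif L‖ := one_mul _
      _ < 1 := hπ1
  have htρ : ‖t‖ < ρ₁ := lt_of_le_of_lt htle hm
  have htpos : 0 < ‖t‖ := norm_pos_iff.2 ht
  obtain ⟨hinj, hrange⟩ := hρ ‖t‖ (norm_nonneg t) htρ
  -- the index of the `n`-th powers of `V = U_{‖t‖}`
  have hidxV : (powMonoidHom n : ↥(lf_unitsLe L ‖t‖ (norm_nonneg t)) →* _).range.index =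
      (lef_lat (lef_coL L) (n : L)).relIndex (lef_lat (lef_coL L) (1 : L)) := by
    rw [hrange]
    exact lpx_index_unitsLe L (n : L) t ht ht1
  have hle : lf_unitsLe L (‖(n : L)‖ * ‖t‖) (mul_nonneg (norm_nonneg _) (norm_nonneg _)) ≤
      lf_unitsLe L ‖t‖ (norm_nonneg t) := by
    intro u hu
    refine ⟨hu.1, hu.2.trans ?_⟩
    calc ‖(n : L)‖ * ‖t‖ ≤ 1 * ‖t‖ :=
          mul_le_mul_of_nonneg_right (lpx_norm_natCast_le_one L n) (norm_nonneg _)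
      _ = ‖t‖ := one_mul _
  have hN : (lef_lat (lef_coL L) (n : L)).relIndex (lef_lat (lef_coL L) (1 : L)) ≠ 0 := by
    rw [← lpx_index_unitsLe L (n : L) t ht ht1]
    have h1 := lu_unitsLe_index (L := L) (‖(n : L)‖ * ‖t‖) (mul_pos hnpos htpos)
    have h2 := Subgroup.relIndex_mul_relIndex _ _ _ hle
      (lf_unitsLe_le_units (K := L) (r := ‖t‖) (hr := norm_nonneg t))
    intro h0
    apply h1
    show (lf_unitsLe L (‖(n : L)‖ * ‖t‖) _).relIndex (lf_units L) = 0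
    rw [← h2]
    show ((lf_unitsLe L (‖(n : L)‖ * ‖t‖) _).subgroupOf _).index * _ = 0
    rw [h0, zero_mul]
  obtain ⟨hV, hqV⟩ := lpx_of_injective n hinj (by rw [hidxV]; exact hN)
  rw [hidxV] at hqV
  -- the unit group
  obtain ⟨hO, hqO⟩ := lpx_of_finite_index
    (Subgroup.inclusion (lf_unitsLe_le_units (K := L) (r := ‖t‖) (hr := norm_nonneg t)))
    (Subgroup.inclusion_injective _)
    (by
      rw [Subgroup.inclusion_range]
      exact lu_unitsLe_index (L := L) ‖t‖ htpos) n hV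
  rw [hqV] at hqO
  -- the multiplicative group
  obtain ⟨hL, hqL⟩ := lpx_of_ord (lf_units L).subtype (Subgroup.subtype_injective _) (lf_ord L)
    (lf_ord_surjective L) (by rw [lf_ker_ord, Subgroup.range_subtype]) n hn0 hO
  rw [hqO] at hqL
  exact lpx_index_eq hL _ (by rw [hqL]; push_cast; ring)

/-- The `n`-torsion of `Lˣ` when `L` contains a primitive `n`-th root of unity. -/
theorem lpx_card_ker_of_root (F : Type*) [Field F] (n : ℕ) (hn0 : n ≠ 0) (ζ : F)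
    (hζ : IsPrimitiveRoot ζ n) : Nat.card (powMonoidHom n : Fˣ →* Fˣ).ker = n := by
  have : NeZero n := ⟨hn0⟩
  have h1 : (powMonoidHom n : Fˣ →* Fˣ).ker = rootsOfUnity n F := by
    ext x
    rw [MonoidHom.mem_ker, powMonoidHom_apply, mem_rootsOfUnity]
  rw [h1]
  exact hζ.card_rootsOfUnity

/-- `[Lˣ : Lˣⁿ] = n² · [O : n O]` if `L` contains a primitive `n`-th root of unity. -/
theorem lpx_index_units_root (n : ℕ) (hn : (n : L) ≠ 0) (ζ : L) (hζ : IsPrimitiveRoot ζ n) :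
    (powMonoidHom n : Lˣ →* Lˣ).range.index =
      n ^ 2 * (lef_lat (lef_coL L) (n : L)).relIndex (lef_lat (lef_coL L) (1 : L)) := by
  have hn0 : n ≠ 0 := by
    rintro rfl
    exact hn Nat.cast_zero
  rw [lpx_index_units L n hn, lpx_card_ker_of_root L n hn0 ζ hζ]
  ring

end units

end

end Fermat.Agent.S55
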