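/-
S55 (fifth wave), package [SEC-LOCIDX] (helper24), part 3: the index of the `p`-th powers in the
concrete local fields (finite intermediate fields of `PadicAlgCl q / ℚ_[q]`, fixed fields of open
subgroups of the local Galois group).  Prefix `lpx_`.

* `lpx_index_field` : `[Eˣ : Eˣᵖ] = p ^ (2 + [E : ℚ_q] · [q = p])` for `E ∋ ζ_p`;
* `lpx_index_fix`   : the same for `jcoh_fix U`, `U` open, with `[E : ℚ_q] = [G : U]`.
-/
import Fermat.Agent.S55.Local.PowIdxUnits
import Fermat.Agent.S55.Local.LFPadic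
import Fermat.Agent.S55.Global.JCohLayer

set_option autoImplicit false

namespace Fermat.Agent.S55

noncomputable section

section padic

variable (q : ℕ) [Fact q.Prime]

/-- The valuation ring of `ℚ_[q]` is `ℤ_[q]`. -/
def lpx_padicIntEquiv :
    ↥(NormedField.valuation (K := ℚ_[q])).valuationSubring ≃+* ℤ_[q] where
  toFun x := ⟨x.1, (unr_normed_val_le_one_iff _).1
    ((Valuation.mem_valuationSubring_iff _ _).1 x.2)⟩
  invFun x := ⟨x.1, (Valuation.mem_valuationSubring_iff _ _).2
    ((unr_normed_val_le_one_iff _).2 x.2)⟩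
  left_inv _ := rfl
  right_inv _ := rfl
  map_mul' _ _ := rfl
  map_add' _ _ := rfl

/-- The residue field of `ℚ_[q]` has `q` elements. -/
theorem lpx_resCard_padic : unr_resCard ℚ_[q] = q := by
  unfold unr_resCard
  rw [Nat.card_congr (IsLocalRing.ResidueField.mapEquiv (lpx_padicIntEquiv q)).toEquiv,
    Nat.card_congr (PadicInt.residueField (p := q)).toEquiv, Nat.card_zmod]

/-- The chosen uniformizer of `ℚ_[q]` has the norm of `q`. -/
theorem lpx_norm_unif_padic : ‖lf_unif ℚ_[q]‖ = ‖(q : ℚ_[q])‖ := by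
  have hq : (q : ℚ_[q]) ≠ 0 := by exact_mod_cast (Fact.out : q.Prime).ne_zero
  have hq1 : (1 : ℝ) < q := by exact_mod_cast (Fact.out : q.Prime).one_lt
  have hq0 : (0 : ℝ) < q := by linarith
  have hϖ := lf_unif_ne_zero ℚ_[q]
  have h1 := lf_norm_unif_lt_one ℚ_[q]
  obtain ⟨m, hm⟩ := lf_exists_norm_eq_zpow hq
  have hv := Padic.norm_eq_zpow_neg_valuation hϖ
  rw [Padic.norm_p, hv, ← zpow_mul, ← zpow_neg_one] at hm
  have h2 : (-1 : ℤ) = -(lf_unif ℚ_[q]).valuation * m :=
    zpow_right_injective₀ hq0 hq1.ne' hm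
  have h3 : (lf_unif ℚ_[q]).valuation * m = 1 := by linarith
  have h4 : 0 < (lf_unif ℚ_[q]).valuation := by
    by_contra hcon
    rw [not_lt] at hcon
    have : (1 : ℝ) ≤ (q : ℝ) ^ (-(lf_unif ℚ_[q]).valuation) :=
      one_le_zpow₀ hq1.le (by omega)
    rw [← hv] at this
    exact absurd h1 (not_lt.2 this)
  have h5 : (lf_unif ℚ_[q]).valuation = 1 := by
    rcases Int.eq_one_or_neg_one_of_mul_eq_one h3 with h | h
    · exact h
    · omega
  rw [hv, h5, Padic.norm_p, zpow_neg_one]

variable {q}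

/-- **The index of the `p`-th powers of a `q`-adic field containing `ζ_p`.** -/
theorem lpx_index_field (E : IntermediateField ℚ_[q] (PadicAlgCl q))
    [FiniteDimensional ℚ_[q] ↥E] (p : ℕ) (hp : p.Prime) (ζ : ↥E) (hζ : IsPrimitiveRoot ζ p) :
    (powMonoidHom p : (↥E)ˣ →* (↥E)ˣ).range.index =
      p ^ (2 + if q = p then Module.finrank ℚ_[q] ↥E else 0) := by
  have hpE : ((p : ℕ) : ↥E) ≠ 0 := Nat.cast_ne_zero.2 hp.ne_zero
  rw [lpx_index_units_root (↥E) p hpE ζ hζ]
  have hnorm : ‖((p : ℕ) : ↥E)‖ = ‖((p : ℕ) : ℚ_[q])‖ := by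
    rw [← lf_norm_algebraMap (K := ℚ_[q]) (L := ↥E) ((p : ℕ) : ℚ_[q]), map_natCast]
  by_cases h : q = p
  · subst h
    rw [if_pos rfl]
    have e1 : lef_lat (lef_coL ↥E) ((q : ℕ) : ↥E) =
        lef_lat (lef_coL ↥E) (algebraMap ℚ_[q] ↥E (lf_unif ℚ_[q])) := by
      apply lef_lat_congr
      rw [hnorm, lf_norm_algebraMap, lpx_norm_unif_padic]
    rw [e1, lef_ball_relIndex ℚ_[q] ↥E, lpx_resCard_padic, ← pow_add]
  · rw [if_neg h, add_zero]
    have e1 : lef_lat (lef_coL ↥E) ((p : ℕ) : ↥E) = lef_lat (lef_coL ↥E) (1 : ↥E) := by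
      apply lef_lat_congr
      rw [hnorm, norm_one, Padic.norm_natCast_eq_one_iff]
      exact (Nat.coprime_primes (Fact.out : q.Prime) hp).2 h
    rw [e1, AddSubgroup.relIndex_self, mul_one]

end padic

section fix

variable {q : ℕ} [Fact q.Prime]

/-- The units of the fixed field of `U` are the units of `Ω` fixed by `U`. -/
def lpx_fixEquiv (U : Subgroup (lcf_Gal q)) :
    (↥(IntermediateField.fixedField U))ˣ ≃* ↥(jcoh_fix U) where
  toFun u := ⟨Units.map ((IntermediateField.fixedField U).val :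
      ↥(IntermediateField.fixedField U) →* PadicAlgCl q) u,
    (jcoh_mem_fixedField_iff U _).1 (u : ↥(IntermediateField.fixedField U)).2⟩
  invFun a := Units.mk0 ⟨((a : (PadicAlgCl q)ˣ) : PadicAlgCl q),
      (jcoh_mem_fixedField_iff U _).2 a.2⟩ (by
    intro h
    exact (a : (PadicAlgCl q)ˣ).ne_zero (congrArg Subtype.val h))
  left_inv u := by
    apply Units.ext
    apply Subtype.ext
    rfl
  right_inv a := by
    apply Subtype.ext
    apply Units.ext
    rfl
  map_mul' u v := by
    apply Subtype.ext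
    apply Units.ext
    simp

/-- **The index of the `p`-th powers of the units fixed by an open subgroup `U`** whose fixed
field contains `ζ_p`: `[A : Aᵖ] = p ^ (2 + [G : U] · [q = p])`. -/
theorem lpx_index_fix (U : Subgroup (lcf_Gal q)) (hU : lcf_IsOpen U) (p : ℕ) (hp : p.Prime)
    (ζ : PadicAlgCl q) (hζ : IsPrimitiveRoot ζ p) (hζU : ∀ g ∈ U, g ζ = ζ) :
    (powMonoidHom p : ↥(jcoh_fix U) →* ↥(jcoh_fix U)).range.index =
      p ^ (2 + if q = p then U.index else 0) := by
  have := jcoh_fixed_finite U hU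
  have hζE : ζ ∈ IntermediateField.fixedField U := by
    rw [IntermediateField.mem_fixedField_iff]
    exact hζU
  have hζ' : IsPrimitiveRoot (⟨ζ, hζE⟩ : ↥(IntermediateField.fixedField U)) p :=
    IsPrimitiveRoot.of_map_of_injective
      (f := (IntermediateField.fixedField U).val) hζ Subtype.val_injective
  rw [← lpx_index_pow_congr (lpx_fixEquiv U) p,
    lpx_index_field (IntermediateField.fixedField U) p hp _ hζ',
    IntermediateField.finrank_eq_fixingSubgroup_index, jcoh_fixing_fixed U hU]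

end fix

end

end Fermat.Agent.S55
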