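/-
S55 (fifth wave), package [KEX-LOCCOUNT] (helper18): the number of smooth characters
`U → F_p` of an open subgroup `U` of the local Galois group fixing `μ_p` is at most
`p ^ (2 + [q = p] · [Γ : U])`.

`kxlc_main : kex_LocCountStatement` (`Global/KExDefs.lean`, verbatim), hypothesis-free.

Route: `θ ↦ κ_θ = ζ ^ θ` is a smooth homomorphism `U → μ_p`, hence `κ_θ (g) = g α / α` with
`a_θ := α ^ p ∈ K_Uˣ` ([KUM1], `lkum_kummer1`); the class of `a_θ` in `K_Uˣ / K_Uˣᵖ` determines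
`θ` (`a_θ = a_θ' c ^ p` ⟹ `α = ω α' c`, `ω ∈ μ_p ⊆ K_U`), and
`[K_Uˣ : K_Uˣᵖ] = p ^ (2 + [q = p] [Γ : U])` (`lpx_index_fix`, helper24).
-/
import Fermat.Agent.S55.Global.KExDefs
import Fermat.Agent.S55.Local.PowIdxPadic
import Fermat.Agent.S55.Local.Kummer

set_option autoImplicit false
set_option linter.style.haveILetI false

namespace Fermat.Agent.S55

open groupCohomology

noncomputable section

variable {q : ℕ} [Fact q.Prime]

/-- The Kummer cocycle `ζ ^ θ` of a character. -/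
def kxlc_kappa {p : ℕ} (U : Subgroup (lcf_Gal q)) (ζ : (PadicAlgCl q)ˣ) (θ : ↥U → ZMod p) :
    ↥U → (PadicAlgCl q)ˣ :=
  fun g => ζ ^ (θ g).val

section

variable {p : ℕ} [Fact p.Prime] (U : Subgroup (lcf_Gal q)) (ζ : (PadicAlgCl q)ˣ)
  (hζ : IsPrimitiveRoot ζ p) (hζU : ∀ g : ↥U, g • ζ = ζ)

include hζ in
theorem kxlc_zeta_pow_add (a b : ZMod p) : ζ ^ (a + b).val = ζ ^ a.val * ζ ^ b.val := by
  rw [← pow_add]
  have h1 : (a + b).val ≡ a.val + b.val [MOD p] := by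
    rw [ZMod.val_add]
    exact Nat.mod_modEq _ _
  obtain ⟨c, hc⟩ | ⟨c, hc⟩ : (∃ c, a.val + b.val = (a + b).val + p * c) ∨
      ∃ c, (a + b).val = a.val + b.val + p * c := by
    rcases le_total (a + b).val (a.val + b.val) with hle | hle
    · left
      obtain ⟨c, hc⟩ := (Nat.modEq_iff_dvd' hle).1 h1
      exact ⟨c, by omega⟩
    · right
      obtain ⟨c, hc⟩ := (Nat.modEq_iff_dvd' hle).1 h1.symm
      exact ⟨c, by omega⟩
  · rw [hc, pow_add, pow_mul, hζ.pow_eq_one, one_pow, mul_one]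
  · rw [hc, pow_add, pow_mul, hζ.pow_eq_one, one_pow, mul_one]

include hζ in
theorem kxlc_zeta_pow_inj (a b : ZMod p) (h : ζ ^ a.val = ζ ^ b.val) : a = b := by
  have h1 := hζ.pow_inj (ZMod.val_lt a) (ZMod.val_lt b) h
  exact ZMod.val_injective p h1

include hζ hζU in
theorem kxlc_kappa_isCoc (θ : ↥U → ZMod p) (hθ : kl_IsHom θ) :
    IsMulCocycle₁ (kxlc_kappa U ζ θ) := by
  intro g h
  show ζ ^ (θ (g * h)).val = g • (ζ ^ (θ h).val) * ζ ^ (θ g).val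
  rw [smul_pow', hζU g, hθ g h, kxlc_zeta_pow_add ζ hζ, mul_comm]

omit [Fact p.Prime] in
theorem kxlc_kappa_smooth (θ : ↥U → ZMod p) (hθ : lcf_Smooth₁ U θ) :
    lcf_Smooth₁ U (kxlc_kappa U ζ θ) := by
  obtain ⟨E, hE, h⟩ := hθ
  exact ⟨E, hE, fun g s hs => by show ζ ^ (θ (g * s)).val = ζ ^ (θ g).val; rw [h g s hs]⟩

omit [Fact p.Prime] in
include hζ in
theorem kxlc_kappa_pow (θ : ↥U → ZMod p) (g : ↥U) : kxlc_kappa U ζ θ g ^ p = 1 := by
  show (ζ ^ (θ g).val) ^ p = 1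
  rw [← pow_mul, mul_comm, pow_mul, hζ.pow_eq_one, one_pow]

include hζ hζU in
/-- [KUM1] for a character. -/
theorem kxlc_exists (hU : lcf_IsOpen U) (θ : ↥U → ZMod p) (hθ : kl_IsHom θ)
    (hθs : lcf_Smooth₁ U θ) :
    ∃ α : (PadicAlgCl q)ˣ, α ^ p ∈ jcoh_fix U ∧ ∀ g : ↥U, ζ ^ (θ g).val = g • α / α := by
  obtain ⟨α, h1, h2⟩ := lkum_kummer1 q p U hU (kxlc_kappa U ζ θ) (kxlc_kappa_smooth U ζ θ hθs)
    (kxlc_kappa_isCoc U ζ hζ hζU θ hθ) (kxlc_kappa_pow U ζ hζ θ)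
  exact ⟨α, fun g hg => h1 ⟨g, hg⟩, h2⟩

include hζ hζU in
/-- The `p`-th roots of unity are fixed by `U`. -/
theorem kxlc_root_fixed (ω : (PadicAlgCl q)ˣ) (hω : ω ^ p = 1) (g : ↥U) : g • ω = ω := by
  haveI : NeZero p := ⟨(Fact.out : p.Prime).ne_zero⟩
  have h1 : IsPrimitiveRoot (ζ : PadicAlgCl q) p := hζ.map_of_injective (f := Units.coeHom _)
    Units.val_injective
  have h2 : (ω : PadicAlgCl q) ^ p = 1 := by
    rw [← Units.val_pow_eq_pow_val, hω, Units.val_one]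
  obtain ⟨i, -, hi⟩ := h1.eq_pow_of_pow_eq_one h2
  have h3 : ω = ζ ^ i := by
    apply Units.ext
    rw [Units.val_pow_eq_pow_val, hi]
  rw [h3, smul_pow', hζU g]

end

/-- **[KEX-LOCCOUNT]** -/
theorem kxlc_main : kex_LocCountStatement := by
  classical
  intro q _ p _ _ U hU ζ hζ hζU
  have hp : p.Prime := Fact.out
  set P : Subgroup ↥(jcoh_fix U) := (powMonoidHom p : ↥(jcoh_fix U) →* ↥(jcoh_fix U)).range
    with hP
  have hidx : P.index = p ^ (2 + if q = p then U.index else 0) := by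
    refine lpx_index_fix U hU p hp (ζ : PadicAlgCl q)
      (hζ.map_of_injective (f := Units.coeHom _) Units.val_injective) (fun g hg => ?_)
    have h1 := hζU ⟨g, hg⟩
    exact congrArg (fun u : (PadicAlgCl q)ˣ => (u : PadicAlgCl q)) h1
  have hfin : Finite (↥(jcoh_fix U) ⧸ P) := by
    apply Nat.finite_of_card_ne_zero
    rw [← Subgroup.index_eq_card, hidx]
    exact pow_ne_zero _ hp.ne_zero
  -- the Kummer element of a character
  have hex : ∀ θ : {θ : ↥U → ZMod p // kl_IsHom θ ∧ lcf_Smooth₁ U θ},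
      ∃ α : (PadicAlgCl q)ˣ, α ^ p ∈ jcoh_fix U ∧
        ∀ g : ↥U, ζ ^ ((θ : ↥U → ZMod p) g).val = g • α / α :=
    fun θ => kxlc_exists U ζ hζ hζU hU θ.1 θ.2.1 θ.2.2
  choose α hα1 hα2 using hex
  let Φ : {θ : ↥U → ZMod p // kl_IsHom θ ∧ lcf_Smooth₁ U θ} → ↥(jcoh_fix U) ⧸ P :=
    fun θ => QuotientGroup.mk ⟨α θ ^ p, hα1 θ⟩
  have hinj : Function.Injective Φ := by
    intro θ θ' h
    have h1 : (⟨α θ ^ p, hα1 θ⟩ : ↥(jcoh_fix U))⁻¹ * ⟨α θ' ^ p, hα1 θ'⟩ ∈ P :=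
      QuotientGroup.eq.1 h
    obtain ⟨c, hc⟩ := h1
    have hc' : (c : (PadicAlgCl q)ˣ) ^ p = (α θ ^ p)⁻¹ * α θ' ^ p := by
      have := congrArg (fun u : ↥(jcoh_fix U) => (u : (PadicAlgCl q)ˣ)) hc
      simpa using this
    -- `ω := α' / (α c)` is a `p`-th root of unity
    set ω : (PadicAlgCl q)ˣ := α θ' / (α θ * c) with hω
    have hωp : ω ^ p = 1 := by
      rw [hω, div_pow, mul_pow, hc', ← mul_assoc, mul_inv_cancel, one_mul, div_self']
    have hα' : α θ' = α θ * c * ω := by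
      rw [hω]
      exact (mul_div_cancel _ _).symm
    apply Subtype.ext
    funext g
    apply kxlc_zeta_pow_inj ζ hζ
    have hcg : g • (c : (PadicAlgCl q)ˣ) = c := c.2 g g.2
    have hωg : g • ω = ω := kxlc_root_fixed U ζ hζ hζU ω hωp g
    rw [hα2 θ g, hα2 θ' g, hα', smul_mul', smul_mul', hcg, hωg, mul_div_mul_right_eq_div,
      mul_div_mul_right_eq_div]
  calc Nat.card {θ : ↥U → ZMod p // kl_IsHom θ ∧ lcf_Smooth₁ U θ}
      ≤ Nat.card (↥(jcoh_fix U) ⧸ P) := Nat.card_le_card_of_injective Φ hinj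
    _ = P.index := (Subgroup.index_eq_card P).symm
    _ = p ^ (2 + if q = p then U.index else 0) := hidx

end

end Fermat.Agent.S55
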