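/-
S55 (Poitou-Tate), GLOBAL side, package [K-EX], local leaf [KEX-UNR-PERP] (helper12).
Prefix `kxup_`.

    theorem kxup_main : kex_UnrPerpStatement          (hypothesis-free)

ROUTE (valid for every open `U`, ramified or not).  `P` := the smooth characters `U → F_p`
(finite by `lfk_finHom`, `#P ≤ p²` by `kxlc_main`, `q ≠ p`), `pair (θ, η) = inv (ζ ^ (θ ∪ η))`:
bi-additive and right non-degenerate (`kxp_main`), `p`-torsion, ANTISYMMETRIC
(`θ ∪ η + η ∪ θ = - d (θ η)`), hence `pair (t, t) = 0` (`p` odd).  `t₀` := the unramified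
character with `t₀ (Frob) = 1` (`unr_abs_unrChar`), `I := F_p t₀`: isotropic, `#I = p`,
`#P ≤ #I²`; the Lagrangian criterion `kex_la_lagrangian_raw` gives `I^⊥ ⊆ I`, and `η ∈ I^⊥`
because the elements of `I` are unramified.
-/
import Mathlib
import Fermat.Agent.S55.Global.KExDefs
import Fermat.Agent.S55.Global.KExLinAlg
import Fermat.Agent.S55.Global.KExPair
import Fermat.Agent.S55.Local.KExLocCount
import Fermat.Agent.S55.Local.PtInv
import Fermat.Agent.S55.Local.H3Mu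
import Fermat.Agent.S55.Local.FinKpHom
import Fermat.Agent.S55.UnrAbs4

set_option autoImplicit false
set_option linter.style.haveILetI false
set_option linter.unusedVariables false
set_option linter.unusedSectionVars false
set_option maxHeartbeats 1000000
set_option synthInstance.maxHeartbeats 400000

noncomputable section

namespace Fermat.Agent.S55

section Tools

variable {q : ℕ} [Fact q.Prime] {p : ℕ} [Fact p.Prime]

/-- The smooth characters `U → F_p`. -/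
def kxup_P (U : Subgroup (lcf_Gal q)) : Submodule (ZMod p) (↥U → ZMod p) where
  carrier := {θ | kl_IsHom θ ∧ lcf_Smooth₁ U θ}
  add_mem' := by
    rintro θ θ' ⟨h1, E₁, hE₁, h₁⟩ ⟨h2, E₂, hE₂, h₂⟩
    haveI := hE₁
    haveI := hE₂
    refine ⟨fun g h => ?_, E₁ ⊔ E₂, IntermediateField.finiteDimensional_sup E₁ E₂,
      fun g s hs => ?_⟩
    · show θ (g * h) + θ' (g * h) = θ g + θ' g + (θ h + θ' h)
      rw [h1 g h, h2 g h]
      ring
    · show θ (g * s) + θ' (g * s) = θ g + θ' g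
      rw [h₁ g s (IntermediateField.fixingSubgroup_antitone le_sup_left hs),
        h₂ g s (IntermediateField.fixingSubgroup_antitone le_sup_right hs)]
  zero_mem' := ⟨fun _ _ => (add_zero (0 : ZMod p)).symm, ⊥, inferInstance, fun _ _ _ => rfl⟩
  smul_mem' := by
    rintro c θ ⟨h1, E₁, hE₁, h₁⟩
    refine ⟨fun g h => ?_, E₁, hE₁, fun g s hs => ?_⟩
    · show c * θ (g * h) = c * θ g + c * θ h
      rw [h1 g h, mul_add]
    · show c * θ (g * s) = c * θ g
      rw [h₁ g s hs]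

theorem kxup_mem_P {U : Subgroup (lcf_Gal q)} {θ : ↥U → ZMod p} :
    θ ∈ kxup_P (p := p) U ↔ kl_IsHom θ ∧ lcf_Smooth₁ U θ := Iff.rfl

/-- `P` is finite. -/
theorem kxup_finite (U : Subgroup (lcf_Gal q)) (hU : lcf_IsOpen U) :
    Finite ↥(kxup_P (p := p) U) := by
  have hfin := lfk_finHom q p U hU
  haveI : Finite ↥{θ : ↥U →* Multiplicative (ZMod p) | lcf_Smooth₁ U θ} := hfin.to_subtype
  let F : ↥(kxup_P (p := p) U) → ↥{θ : ↥U →* Multiplicative (ZMod p) | lcf_Smooth₁ U θ} :=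
    fun θ => ⟨MonoidHom.mk' (fun g => Multiplicative.ofAdd (θ.1 g)) (fun g h => by
        show Multiplicative.ofAdd (θ.1 (g * h)) =
          Multiplicative.ofAdd (θ.1 g) * Multiplicative.ofAdd (θ.1 h)
        rw [θ.2.1 g h]
        rfl), by
      obtain ⟨E, hE, h⟩ := θ.2.2
      exact ⟨E, hE, fun g s hs => by
        show Multiplicative.ofAdd (θ.1 (g * s)) = Multiplicative.ofAdd (θ.1 g)
        rw [h g s hs]⟩⟩
  refine Finite.of_injective F ?_
  intro θ θ' h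
  apply Subtype.ext
  funext g
  have h1 := congrArg (fun x : ↥{θ : ↥U →* Multiplicative (ZMod p) | lcf_Smooth₁ U θ} =>
    Multiplicative.toAdd ((x : ↥U →* Multiplicative (ZMod p)) g)) h
  exact h1

variable (inv : lcf_InvType) (U : Subgroup (lcf_Gal q)) (ζ : (PadicAlgCl q)ˣ)

/-- The local pairing. -/
def kxup_pair (θ η : ↥U → ZMod p) : lcf_QZ :=
  inv q U (fun x => ζ ^ (θ x.1 * η x.2).val)

variable {inv U ζ}

/-- The pairing is `p`-torsion. -/
theorem kxup_torsion (hinv : lcf_IsInvSystem inv) (hU : lcf_IsOpen U)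
    (hζ : IsPrimitiveRoot ζ p) (hζU : ∀ g : ↥U, g • ζ = ζ) {θ η : ↥U → ZMod p}
    (hθ : θ ∈ kxup_P (p := p) U) (hη : η ∈ kxup_P (p := p) U) :
    p • kxup_pair inv U ζ θ η = 0 := by
  have hc := kxp_isCoc U hζ hζU θ η hθ.1 hθ.2 hη.1 hη.2
  unfold kxup_pair
  rw [← lh3m_inv_pow hinv U hU hc p]
  have h1 : (fun x : ↥U × ↥U => ζ ^ (θ x.1 * η x.2).val) ^ p = 1 := by
    funext x
    show (ζ ^ (θ x.1 * η x.2).val) ^ p = 1
    rw [← pow_mul, mul_comm, pow_mul, hζ.pow_eq_one, one_pow]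
  rw [h1]
  exact lh3m_inv_one hinv U hU

/-- **Antisymmetry** of the pairing. -/
theorem kxup_anti (hinv : lcf_IsInvSystem inv) (hU : lcf_IsOpen U)
    (hζ : IsPrimitiveRoot ζ p) (hζU : ∀ g : ↥U, g • ζ = ζ) {θ η : ↥U → ZMod p}
    (hθ : θ ∈ kxup_P (p := p) U) (hη : η ∈ kxup_P (p := p) U) :
    kxup_pair inv U ζ θ η + kxup_pair inv U ζ η θ = 0 := by
  have hc1 := kxp_isCoc U hζ hζU θ η hθ.1 hθ.2 hη.1 hη.2
  have hc2 := kxp_isCoc U hζ hζU η θ hη.1 hη.2 hθ.1 hθ.2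
  unfold kxup_pair
  rw [← hinv.add q U hU _ _ hc1 hc2]
  refine (hinv.eq_zero_iff q U hU _ (lh3m_isCoc_mul hc1 hc2)).2 ?_
  obtain ⟨E₁, hE₁, h₁⟩ := hθ.2
  obtain ⟨E₂, hE₂, h₂⟩ := hη.2
  haveI := hE₁
  haveI := hE₂
  refine ⟨fun g => lv20_exp ζ (-(θ g * η g)), ⟨E₁ ⊔ E₂,
    IntermediateField.finiteDimensional_sup E₁ E₂, fun g s hs => ?_⟩, fun g h => ?_⟩
  · show lv20_exp ζ (-(θ (g * s) * η (g * s))) = lv20_exp ζ (-(θ g * η g))
    rw [h₁ g s (IntermediateField.fixingSubgroup_antitone le_sup_left hs),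
      h₂ g s (IntermediateField.fixingSubgroup_antitone le_sup_right hs)]
  · show g • lv20_exp ζ (-(θ h * η h)) / lv20_exp ζ (-(θ (g * h) * η (g * h))) *
        lv20_exp ζ (-(θ g * η g)) =
      lv20_exp ζ (θ g * η h) * lv20_exp ζ (η g * θ h)
    rw [lv20_smul_exp U hζU, ← lv20_exp_sub hζ.pow_eq_one, ← lv20_exp_add hζ.pow_eq_one,
      ← lv20_exp_add hζ.pow_eq_one, hθ.1 g h, hη.1 g h]
    congr 1
    ring

/-- An element killed by `2` and by an odd number vanishes. -/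
theorem kxup_odd_torsion {A : Type*} [AddCommGroup A] (x : A) (n : ℕ) (hn : n % 2 = 1)
    (h1 : x + x = 0) (h2 : n • x = 0) : x = 0 := by
  have h3 : n = (n / 2) * 2 + 1 := by omega
  have h4 : (2 : ℕ) • x = 0 := by rw [two_smul]; exact h1
  rw [h3, add_smul, one_smul, mul_smul, h4, smul_zero, zero_add] at h2
  exact h2

/-- The pairing of a character with itself vanishes (`p` odd). -/
theorem kxup_self (hinv : lcf_IsInvSystem inv) (hp2 : p ≠ 2) (hU : lcf_IsOpen U)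
    (hζ : IsPrimitiveRoot ζ p) (hζU : ∀ g : ↥U, g • ζ = ζ) {θ : ↥U → ZMod p}
    (hθ : θ ∈ kxup_P (p := p) U) : kxup_pair inv U ζ θ θ = 0 := by
  have h1 := kxup_anti hinv hU hζ hζU hθ hθ
  have h2 := kxup_torsion hinv hU hζ hζU hθ hθ
  have hodd : p % 2 = 1 := by
    rcases (Fact.out : p.Prime).eq_two_or_odd with h | h
    · exact absurd h hp2
    · exact h
  exact kxup_odd_torsion _ p hodd h1 h2

end Tools

/-- **[KEX-UNR-PERP]** -/
theorem kxup_main : kex_UnrPerpStatement := by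
  classical
  intro inv hinv q _ p _ hp2 hqp U hU ζ hζ hζU η hη hηs hperp
  haveI : NeZero p := ⟨(Fact.out : p.Prime).ne_zero⟩
  haveI : Finite ↥(kxup_P (p := p) U) := kxup_finite U hU
  obtain ⟨hadd1, hadd2, hnd⟩ := kxp_main inv hinv q p hp2 U hU ζ hζ hζU
  -- the unramified character `t₀`
  obtain ⟨θ₀, φ, hsm, hunr, hfrob, hθφ⟩ := unr_abs_unrChar q U hU p
  set t₀ : ↥U → ZMod p := fun g => (θ₀ g).toAdd with ht₀
  have ht₀P : t₀ ∈ kxup_P (p := p) U := by
    refine ⟨fun g h => ?_, ?_⟩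
    · show (θ₀ (g * h)).toAdd = (θ₀ g).toAdd + (θ₀ h).toAdd
      rw [map_mul, toAdd_mul]
    · obtain ⟨E, hE, h⟩ := hsm
      exact ⟨E, hE, fun g s hs => by
        show (θ₀ (g * s)).toAdd = (θ₀ g).toAdd
        rw [h g s hs]⟩
  have ht₀unr : kex_IsUnr U t₀ := by
    intro s hs
    show (θ₀ s).toAdd = 0
    rw [hunr s hs]
    rfl
  have ht₀ne : (⟨t₀, ht₀P⟩ : ↥(kxup_P (p := p) U)) ≠ 0 := by
    intro h0
    have h1 : t₀ φ = 0 := congrFun (congrArg Subtype.val h0) φ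
    have h2 : t₀ φ = 1 := by
      show (θ₀ φ).toAdd = 1
      rw [hθφ]
      rfl
    rw [h2] at h1
    exact one_ne_zero h1
  -- the raw pairing on `P`
  set B : ↥(kxup_P (p := p) U) → ↥(kxup_P (p := p) U) → lcf_QZ :=
    fun a b => kxup_pair inv U ζ b.1 a.1 with hB
  have hl : ∀ t t' y : ↥(kxup_P (p := p) U), B (t + t') y = B t y + B t' y := fun t t' y =>
    hadd2 y.1 t.1 t'.1 y.2.1 y.2.2 t.2.1 t.2.2 t'.2.1 t'.2.2
  have hr : ∀ t y y' : ↥(kxup_P (p := p) U), B t (y + y') = B t y + B t y' := fun t y y' =>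
    hadd1 y.1 y'.1 t.1 y.2.1 y.2.2 y'.2.1 y'.2.2 t.2.1 t.2.2
  have hv : ∀ t y : ↥(kxup_P (p := p) U), ∃ c, ptinv_e p c = B t y := fun t y =>
    ptinv_e_range p _ (kxup_torsion hinv hU hζ hζU y.2 t.2)
  set I : Submodule (ZMod p) ↥(kxup_P (p := p) U) :=
    Submodule.span (ZMod p) {(⟨t₀, ht₀P⟩ : ↥(kxup_P (p := p) U))} with hI
  have hIunr : ∀ i ∈ I, kex_IsUnr U (i : ↥U → ZMod p) := by
    intro i hi s hs
    obtain ⟨a, rfl⟩ := Submodule.mem_span_singleton.1 hi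
    show a * t₀ s = 0
    rw [ht₀unr s hs, mul_zero]
  have hmem : (⟨η, ⟨hη, hηs⟩⟩ : ↥(kxup_P (p := p) U)) ∈ I := by
    refine kex_la_lagrangian_raw (ptinv_e p) (ptinv_e_injective p) B hl hr hv I ?_ ?_ ?_ _ ?_
    · -- non-degeneracy
      intro i _ hi0
      have hi0' : (i : ↥U → ZMod p) ≠ 0 := fun h => hi0 (Subtype.ext h)
      obtain ⟨θ, hθ, hθs, hne⟩ := hnd i.1 i.2.1 i.2.2 hi0'
      refine ⟨⟨θ, ⟨hθ, hθs⟩⟩, fun h0 => hne ?_⟩
      have h1 := kxup_anti hinv hU hζ hζU (θ := θ) (η := i.1) ⟨hθ, hθs⟩ i.2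
      have h2 : kxup_pair inv U ζ i.1 θ = 0 := h0
      rw [h2, add_zero] at h1
      exact h1
    · -- isotropy
      intro i hi i' hi'
      obtain ⟨a, rfl⟩ := Submodule.mem_span_singleton.1 hi
      obtain ⟨b, rfl⟩ := Submodule.mem_span_singleton.1 hi'
      rw [← kex_la_bil_eq_zero_iff (ptinv_e p) (ptinv_e_injective p) B hl hr hv]
      have h0 : kex_la_bil (ptinv_e p) (ptinv_e_injective p) B hl hr hv ⟨t₀, ht₀P⟩ ⟨t₀, ht₀P⟩ = 0 :=
        (kex_la_bil_eq_zero_iff (ptinv_e p) (ptinv_e_injective p) B hl hr hv _ _).2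
          (kxup_self hinv hp2 hU hζ hζU ht₀P)
      simp only [map_smul, LinearMap.smul_apply, h0, smul_zero]
    · -- the count
      have h1 := kxlc_main q p hp2 U hU ζ hζ hζU
      rw [if_neg hqp, add_zero] at h1
      have h2 : Nat.card ↥(kxup_P (p := p) U) ≤ p ^ 2 := h1
      have h3 : Nat.card ↥I = p := by
        rw [Module.natCard_eq_pow_finrank (K := ZMod p) (V := ↥I), Nat.card_zmod,
          finrank_span_singleton ht₀ne, pow_one]
      rw [h3]
      exact h2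
    · -- `η` is orthogonal to `I`
      intro i hi
      exact hperp i.1 i.2.1 i.2.2 (hIunr i hi)
  exact hIunr _ hmem

end Fermat.Agent.S55
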