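/-
S55 (fifth wave), GLOBAL side, package [K-EX], local leaf [KEX-ARTNZ] (helper23).
Prefix `kxz_`.

  theorem kxz_main : kex_ArtNzStatement

Route: `unr_abs_unrChar` gives the unramified character `θ : U → ℤ/p` with `θ (Frob) = 1`; `q` is
a uniformizer of the fixed field of `U ⊇` inertia (`eoi_qu_isUnif`); `q ^ δθ = lcf_unrCoc U p θ q`
by definition; (I4): the invariant is `1/p ≠ 0`.
-/
import Mathlib
import Fermat.Agent.S55.Global.KExArtDefs
import Fermat.Agent.S55.Global.EcoObInvLoc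
import Fermat.Agent.S55.UnrAbs4

set_option autoImplicit false
set_option linter.style.haveILetI false

namespace Fermat.Agent.S55

open groupCohomology

noncomputable section

theorem kxz_qz_ne_zero (p : ℕ) (hp : 2 ≤ p) : lcf_qz (1 / (p : ℚ)) ≠ 0 := by
  intro h
  have h1 : (1 / (p : ℚ)) ∈ AddSubgroup.zmultiples (1 : ℚ) :=
    (QuotientAddGroup.eq_zero_iff _).1 h
  obtain ⟨k, hk⟩ := AddSubgroup.mem_zmultiples_iff.1 h1
  have hp0 : (p : ℚ) ≠ 0 := by
    have : 0 < p := by omega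
    exact_mod_cast this.ne'
  have h2 : (k : ℚ) * p = 1 := by
    rw [zsmul_eq_mul, mul_one] at hk
    rw [hk]
    field_simp
  have h3 : k * (p : ℤ) = 1 := by exact_mod_cast h2
  have h4 : (p : ℤ) ∣ 1 := ⟨k, by rw [mul_comm]; exact h3.symm⟩
  have h5 : p ∣ 1 := by exact_mod_cast h4
  have h6 := Nat.dvd_one.1 h5
  omega

/-- **[KEX-ARTNZ]** -/
theorem kxz_main : kex_ArtNzStatement := by
  intro inv hinv q _ p _ U hU hin
  haveI : NeZero p := ⟨(Fact.out : p.Prime).ne_zero⟩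
  obtain ⟨θ, φ, hsm, hunr, hfrob, hθφ⟩ := unr_abs_unrChar q U hU p
  refine ⟨fun g => (θ g).toAdd, ?_, ?_, ?_, ?_⟩
  · intro g h
    show (θ (g * h)).toAdd = (θ g).toAdd + (θ h).toAdd
    rw [map_mul, toAdd_mul]
  · obtain ⟨E, hE, h⟩ := hsm
    exact ⟨E, hE, fun g s hs => by
      show (θ (g * s)).toAdd = (θ g).toAdd
      rw [h g s hs]⟩
  · intro s hs
    show (θ s).toAdd = 0
    rw [hunr s hs]
    rfl
  · have h1 : kex_artLoc inv q U (fun g => (θ g).toAdd) =
        inv q U (lcf_unrCoc U p θ (eoi_qu q)) := rfl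
    rw [h1, hinv.unr q U hU p θ φ (eoi_qu q) hsm hunr hfrob hθφ (eoi_qu_isUnif U hin)]
    exact kxz_qz_ne_zero p (Fact.out : p.Prime).two_le

end

end Fermat.Agent.S55
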