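/-
S55 (wave 5), LOCAL side: the TAME SYMBOL calculus, general exponent `n` (for [R-CYC], (RC1) and
(RC2)).  Owner: helper11.  Prefix `tame_`.

Setting: `U` an open subgroup of `lcf_Gal q`, `ζ ∈ Ωˣ` a `U`-fixed primitive `n`-th root of unity.
`tame_IsKum U n ζ β θ` says that `θ : U → ℤ/n` is the Kummer character of `β`
(`g β = ζ ^ θ(g) β`); `tame_kum` constructs it when `β ^ n` is `U`-fixed.  The symbol of `a` and
`θ` is the class of `lcf_unrCoc U n θ a = a ^ δθ`.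

* `tame_cob_of_orbit` : the orbit lemma (explicit cobounding cochain `g ↦ ∏_{i < t_g} W i`);
* `tame_cob_pow` : `(c ^ n, θ) = 0`;  `tame_neg` : `(-b, θ_b) = 0` (`n` odd);
  `tame_skew` : `(b, θ_a) + (a, θ_b) = 0` (`n` odd);
* for an invariant system `inv`: `tame_inv_eq_of_cob`, `tame_inv_cob`, bilinearity
  `tame_inv_mul_left/_pow_left/_zpow_left/_inv_left/_mul_right/_pow_right`, `tame_inv_self`,
  `tame_inv_skew`, and the tame formula `tame_inv_formula`:
  `inv (π ^ j u, θ_π) = - inv (π, θ_u)`;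
* `tame_kum_inert`, `tame_kum_frob` : the Kummer character of a unit is unramified (`n` prime to
  `q`) and `ζ ^ θ_u(Frob) ≡ υ ^ (N - 1)`;
* `tame_inv_unr` : the unramified formula `inv (a, θ₁ ^ k) = ord(a) k / n` (from [UNIT-NORM]).
-/
import Fermat.Agent.S55.Local.HilbL
import Fermat.Agent.S55.Local.InvBuild
import Fermat.Agent.S55.Local.SplitDefs
import Fermat.Agent.S55.UnrAbs4

set_option autoImplicit false
set_option linter.unusedSectionVars false

noncomputable section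

namespace Fermat.Agent.S55

open groupCohomology

section Orbit

variable {q : ℕ} [Fact q.Prime] {U : Subgroup (lcf_Gal q)} {n : ℕ} [NeZero n]
  {θ : ↥U →* Multiplicative (ZMod n)}

/-- Products of a periodic sequence over a range. -/
theorem tame_prod_range {M : Type*} [CommMonoid M] (W : ℕ → M) (hper : ∀ i, W (i + n) = W i)
    (m : ℕ) :
    ∏ i ∈ Finset.range m, W i =
      (∏ i ∈ Finset.range n, W i) ^ (m / n) * ∏ i ∈ Finset.range (m % n), W i := by
  have hn : 0 < n := Nat.pos_of_ne_zero (NeZero.ne n)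
  induction m using Nat.strong_induction_on with
  | _ m ih =>
    rcases Nat.lt_or_ge m n with hlt | hge
    · rw [Nat.div_eq_of_lt hlt, Nat.mod_eq_of_lt hlt, pow_zero, one_mul]
    · have hm : m = n + (m - n) := by omega
      have h1 : ∏ i ∈ Finset.range (m - n), W (n + i) = ∏ i ∈ Finset.range (m - n), W i := by
        refine Finset.prod_congr rfl (fun i _ => ?_)
        rw [add_comm, hper]
      conv_lhs => rw [hm, Finset.prod_range_add, h1, ih (m - n) (by omega)]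
      rw [Nat.div_eq_sub_div hn hge, Nat.mod_eq_sub_mod hge, pow_succ]
      ac_rfl

/-- **The orbit lemma**: if `W : ℕ → Ωˣ` is `n`-periodic and `g • W i = W (t_g + i)`, then the
symbol of `∏_{i<n} W i` with `θ` is a smooth coboundary (with cobounding cochain
`g ↦ ∏_{i < t_g} W i`). -/
theorem tame_cob_of_orbit (hθ : lcf_Smooth₁ U θ) (W : ℕ → (PadicAlgCl q)ˣ)
    (hper : ∀ i, W (i + n) = W i) (hact : ∀ (g : ↥U) (i : ℕ), g • W i = W (sym_t θ g + i)) :
    lcf_IsCob U (lcf_unrCoc U n θ (∏ i ∈ Finset.range n, W i)) := by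
  obtain ⟨E, hE, h⟩ := hθ
  refine ⟨fun g => ∏ i ∈ Finset.range (sym_t θ g), W i, ⟨E, hE, fun g s hs => ?_⟩,
    fun g k => ?_⟩
  · simp only
    rw [sym_t_congr θ (h g s hs)]
  · simp only [sym_unrCoc_apply]
    have h1 : g • ∏ i ∈ Finset.range (sym_t θ k), W i =
        ∏ i ∈ Finset.range (sym_t θ k), W (sym_t θ g + i) := by
      rw [Finset.smul_prod']
      exact Finset.prod_congr rfl (fun i _ => hact g i)
    have h2 := tame_prod_range W hper (sym_t θ g + sym_t θ k)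
    rw [Finset.prod_range_add, ← h1, ← sym_t_mul] at h2
    rw [div_mul_eq_mul_div, mul_comm, h2, mul_div_cancel_right]

/-- The symbol of an `n`-th power of a `U`-fixed element is trivial. -/
theorem tame_cob_pow (hθ : lcf_Smooth₁ U θ) {c : (PadicAlgCl q)ˣ} (hc : ∀ g : ↥U, g • c = c) :
    lcf_IsCob U (lcf_unrCoc U n θ (c ^ n)) := by
  have h := tame_cob_of_orbit hθ (fun _ => c) (fun _ => rfl) (fun g _ => hc g)
  rwa [Finset.prod_const, Finset.card_range] at h

end Orbit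

section Kum

variable {q : ℕ} [Fact q.Prime] {U : Subgroup (lcf_Gal q)} {n : ℕ} [NeZero n]
  {ζ : (PadicAlgCl q)ˣ}

/-- `θ` is the Kummer character of `β` with respect to the root of unity `ζ`:
`g β = ζ ^ θ(g) β` for all `g ∈ U`. -/
def tame_IsKum (U : Subgroup (lcf_Gal q)) (n : ℕ) (ζ β : (PadicAlgCl q)ˣ)
    (θ : ↥U →* Multiplicative (ZMod n)) : Prop :=
  ∀ g : ↥U, g • β = ζ ^ sym_t θ g * β

theorem tame_zeta_pow_val_add (hζ : IsPrimitiveRoot ζ n) (k k' : ZMod n) :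
    ζ ^ (k + k').val = ζ ^ k.val * ζ ^ k'.val := by
  rw [ZMod.val_add, ← pow_add, ← Nat.div_add_mod (k.val + k'.val) n, pow_add, pow_mul,
    hζ.pow_eq_one, one_pow, one_mul, Nat.mul_add_mod]
  rw [Nat.mod_mod]

theorem tame_zeta_pow_val_inj (hζ : IsPrimitiveRoot ζ n) {k k' : ZMod n}
    (h : ζ ^ k.val = ζ ^ k'.val) : k = k' :=
  ZMod.val_injective n (hζ.pow_inj (ZMod.val_lt k) (ZMod.val_lt k') h)

theorem tame_zeta_pow_mod (hζ : IsPrimitiveRoot ζ n) (i : ℕ) : ζ ^ (i % n) = ζ ^ i := by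
  conv_rhs => rw [← Nat.div_add_mod i n, pow_add, pow_mul, hζ.pow_eq_one, one_pow, one_mul]

theorem tame_exists_exp (hζ : IsPrimitiveRoot ζ n) (β : (PadicAlgCl q)ˣ)
    (hβ : ∀ g : ↥U, g • β ^ n = β ^ n) (g : ↥U) : ∃ k : ZMod n, g • β / β = ζ ^ k.val := by
  have h1 : (g • β / β) ^ n = 1 := by
    rw [div_pow, ← smul_pow', hβ, div_self']
  have hζ' : IsPrimitiveRoot (ζ : PadicAlgCl q) n := IsPrimitiveRoot.coe_units_iff.2 hζ
  have h2 : (((g • β / β : (PadicAlgCl q)ˣ) : PadicAlgCl q)) ^ n = 1 := by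
    rw [← Units.val_pow_eq_pow_val, h1, Units.val_one]
  obtain ⟨i, hi, hix⟩ := hζ'.eq_pow_of_pow_eq_one h2
  refine ⟨(i : ZMod n), ?_⟩
  apply Units.ext
  rw [ZMod.val_natCast_of_lt hi, Units.val_pow_eq_pow_val, hix]

/-- The Kummer character of an `n`-th root `β` of an element of `K_U` (`μ_n ⊂ K_U`). -/
def tame_kum (hζ : IsPrimitiveRoot ζ n) (hζU : ∀ g : ↥U, g • ζ = ζ) (β : (PadicAlgCl q)ˣ)
    (hβ : ∀ g : ↥U, g • β ^ n = β ^ n) : ↥U →* Multiplicative (ZMod n) where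
  toFun g := Multiplicative.ofAdd (tame_exists_exp hζ β hβ g).choose
  map_one' := by
    have h2 : ζ ^ (tame_exists_exp hζ β hβ (1 : ↥U)).choose.val = ζ ^ (0 : ZMod n).val := by
      rw [← (tame_exists_exp hζ β hβ (1 : ↥U)).choose_spec, one_smul, div_self', ZMod.val_zero,
        pow_zero]
    rw [tame_zeta_pow_val_inj hζ h2]
    rfl
  map_mul' g h := by
    have h4 : (g * h) • β / β = g • (h • β / β) * (g • β / β) := by
      rw [smul_div', mul_smul, div_mul_div_cancel]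
    have h5 : ζ ^ (tame_exists_exp hζ β hβ (g * h)).choose.val =
        ζ ^ ((tame_exists_exp hζ β hβ g).choose + (tame_exists_exp hζ β hβ h).choose).val := by
      rw [← (tame_exists_exp hζ β hβ (g * h)).choose_spec, h4, tame_zeta_pow_val_add hζ,
        ← (tame_exists_exp hζ β hβ g).choose_spec]
      conv_lhs => rw [(tame_exists_exp hζ β hβ h).choose_spec, smul_pow', hζU]
      rw [mul_comm]
    rw [tame_zeta_pow_val_inj hζ h5]
    rfl

theorem tame_kum_isKum (hζ : IsPrimitiveRoot ζ n) (hζU : ∀ g : ↥U, g • ζ = ζ)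
    (β : (PadicAlgCl q)ˣ) (hβ : ∀ g : ↥U, g • β ^ n = β ^ n) :
    tame_IsKum U n ζ β (tame_kum hζ hζU β hβ) := by
  intro g
  have h : g • β / β = ζ ^ sym_t (tame_kum hζ hζU β hβ) g :=
    (tame_exists_exp hζ β hβ g).choose_spec
  rw [← h, div_mul_cancel]

variable {β β' : (PadicAlgCl q)ˣ} {θ θ' : ↥U →* Multiplicative (ZMod n)}

theorem tame_isKum_pow_fixed (hζ : IsPrimitiveRoot ζ n)
    (h : tame_IsKum U n ζ β θ) (g : ↥U) : g • β ^ n = β ^ n := by
  rw [smul_pow', h g, mul_pow, ← pow_mul, mul_comm (sym_t θ g) n, pow_mul, hζ.pow_eq_one, one_pow,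
    one_mul]

theorem tame_isKum_apply_eq (hζ : IsPrimitiveRoot ζ n) (h : tame_IsKum U n ζ β θ) {g g' : ↥U}
    (hgg' : g • β = g' • β) : θ g = θ g' := by
  rw [h g, h g'] at hgg'
  have h1 := mul_right_cancel hgg'
  exact congrArg Multiplicative.ofAdd (tame_zeta_pow_val_inj hζ h1)

/-- A Kummer character is smooth. -/
theorem tame_isKum_smooth (hζ : IsPrimitiveRoot ζ n) (h : tame_IsKum U n ζ β θ) :
    lcf_Smooth₁ U θ := by
  obtain ⟨E, hE, hs⟩ := lkum_smooth_d0 U β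
  refine ⟨E, hE, fun g s hsE => tame_isKum_apply_eq hζ h ?_⟩
  have := hs g s hsE
  simp only at this
  exact div_left_injective this

/-- The Kummer character is unique. -/
theorem tame_isKum_unique (hζ : IsPrimitiveRoot ζ n) (h : tame_IsKum U n ζ β θ)
    (h' : tame_IsKum U n ζ β θ') : θ = θ' := by
  ext g
  have h1 : ζ ^ sym_t θ g = ζ ^ sym_t θ' g := mul_right_cancel ((h g).symm.trans (h' g))
  exact congrArg Multiplicative.ofAdd (tame_zeta_pow_val_inj hζ h1)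

theorem tame_isKum_eq_one_iff (h : tame_IsKum U n ζ β θ) (hζ : IsPrimitiveRoot ζ n) (g : ↥U) :
    θ g = 1 ↔ g • β = β := by
  constructor
  · intro hg
    rw [h g, (sym_t_eq_zero_iff θ g).2 hg, pow_zero, one_mul]
  · intro hg
    have h1 : g • β = (1 : ↥U) • β := by rw [hg, one_smul]
    rw [tame_isKum_apply_eq hζ h h1, map_one]

/-- The Kummer character of a product is the product of the Kummer characters. -/
theorem tame_isKum_mul (hζ : IsPrimitiveRoot ζ n) (h : tame_IsKum U n ζ β θ)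
    (h' : tame_IsKum U n ζ β' θ') : tame_IsKum U n ζ (β * β') (θ * θ') := by
  intro g
  rw [smul_mul', h g, h' g, sym_t_mul_hom, tame_zeta_pow_mod hζ, pow_add]
  ac_rfl

/-- The Kummer character of a `U`-fixed element is trivial. -/
theorem tame_isKum_one_of_fixed (hβ : ∀ g : ↥U, g • β = β) :
    tame_IsKum U n ζ β (1 : ↥U →* Multiplicative (ZMod n)) := by
  intro g
  rw [hβ g, (sym_t_eq_zero_iff _ g).2 rfl, pow_zero, one_mul]

/-- `(-b, θ_b) = 0` for odd `n`: the symbol of `-β ^ n` with the Kummer character of `β` is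
a smooth coboundary (cobounding cochain `g ↦ ∏_{i < t_g} (-ζ^i β)`). -/
theorem tame_neg (hn : Odd n) (hζ : IsPrimitiveRoot ζ n) (hζU : ∀ g : ↥U, g • ζ = ζ)
    (h : tame_IsKum U n ζ β θ) : lcf_IsCob U (lcf_unrCoc U n θ (-(β ^ n))) := by
  have hW := tame_cob_of_orbit (tame_isKum_smooth hζ h) (fun i => -1 * (ζ ^ i * β))
    (fun i => by
      show -1 * (ζ ^ (i + n) * β) = -1 * (ζ ^ i * β)
      rw [pow_add, hζ.pow_eq_one, mul_one])
    (fun g i => by
      show g • (-1 * (ζ ^ i * β)) = -1 * (ζ ^ (sym_t θ g + i) * β)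
      have h2 : g • (-1 * (ζ ^ i * β)) = -(g • (ζ ^ i * β)) := by
        rw [neg_one_mul]
        exact Units.ext (map_neg (g : lcf_Gal q)
          ((ζ ^ i * β : (PadicAlgCl q)ˣ) : PadicAlgCl q))
      rw [h2, smul_mul', smul_pow', hζU, h g, neg_one_mul, pow_add]
      congr 1
      ac_rfl)
  have hprod : ∏ i ∈ Finset.range n, (-1 * (ζ ^ i * β) : (PadicAlgCl q)ˣ) = -(β ^ n) := by
    rw [Finset.prod_mul_distrib, Finset.prod_mul_distrib,
      Finset.prod_const, Finset.prod_const, Finset.card_range, Finset.prod_pow_eq_pow_sum,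
      hn.neg_one_pow, Finset.sum_range_id]
    obtain ⟨m, hm⟩ := hn
    have h3 : n * (n - 1) / 2 = n * m := by
      have : n - 1 = 2 * m := by omega
      rw [this, ← mul_assoc, mul_comm n 2, mul_assoc, Nat.mul_div_cancel_left _ (by norm_num)]
    rw [h3, pow_mul, hζ.pow_eq_one, one_pow, one_mul, neg_one_mul]
  rwa [hprod] at hW

theorem tame_smul_neg (g : ↥U) (x : (PadicAlgCl q)ˣ) : g • (-x) = -(g • x) :=
  Units.ext (map_neg (g : lcf_Gal q) (x : PadicAlgCl q))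

/-- **Skew-symmetry** of the symbol (odd `n`): `(b, θ_α) + (a, θ_β) = 0` for `a = α ^ n`,
`b = β ^ n`. -/
theorem tame_skew (hn : Odd n) (hU : lcf_IsOpen U) (hζ : IsPrimitiveRoot ζ n)
    (hζU : ∀ g : ↥U, g • ζ = ζ) {α : (PadicAlgCl q)ˣ} (hα : tame_IsKum U n ζ α θ)
    (hβ : tame_IsKum U n ζ β θ') :
    lcf_IsCob U (lcf_unrCoc U n θ (β ^ n) * lcf_unrCoc U n θ' (α ^ n)) := by
  set a := α ^ n with ha
  set b := β ^ n with hb
  have haU : ∀ g : ↥U, g • a = a := tame_isKum_pow_fixed hζ hα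
  have hbU : ∀ g : ↥U, g • b = b := tame_isKum_pow_fixed hζ hβ
  have hnegU : ∀ g : ↥U, g • (-(a * b)) = -(a * b) := fun g => by
    rw [tame_smul_neg, smul_mul', haU, hbU]
  have c1 := tame_neg hn hζ hζU hα
  have c2 := tame_neg hn hζ hζU hβ
  have c3 := tame_neg hn hζ hζU (tame_isKum_mul hζ hα hβ)
  rw [mul_pow, ← ha, ← hb] at c3
  rw [← ha] at c1
  rw [← hb] at c2
  have c4 := sym_add q U hU n θ θ' (-(a * b)) (tame_isKum_smooth hζ hα)
    (tame_isKum_smooth hζ hβ) hnegU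
  have e1 : -(a * b) = -a * b := by rw [neg_mul]
  have e2 : -(a * b) = a * -b := by rw [mul_neg]
  have c5 := hilb_isCob_div c3 c4
  have e3 : lcf_unrCoc U n (θ * θ') (-(a * b)) /
      (lcf_unrCoc U n (θ * θ') (-(a * b)) /
        (lcf_unrCoc U n θ (-(a * b)) * lcf_unrCoc U n θ' (-(a * b)))) =
      (lcf_unrCoc U n θ (-a) * lcf_unrCoc U n θ b) *
        (lcf_unrCoc U n θ' a * lcf_unrCoc U n θ' (-b)) := by
    rw [div_div_cancel]
    conv_lhs => rw [e1, sym_unrCoc_mul]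
    conv_lhs => rw [← e1, e2, sym_unrCoc_mul]
  rw [e3] at c5
  have c6 := hilb_isCob_div (hilb_isCob_div c5 c1) c2
  have e4 : (lcf_unrCoc U n θ (-a) * lcf_unrCoc U n θ b) *
        (lcf_unrCoc U n θ' a * lcf_unrCoc U n θ' (-b)) /
      lcf_unrCoc U n θ (-a) / lcf_unrCoc U n θ' (-b) =
      lcf_unrCoc U n θ b * lcf_unrCoc U n θ' a := by
    generalize lcf_unrCoc U n θ (-a) = A
    generalize lcf_unrCoc U n θ b = B
    generalize lcf_unrCoc U n θ' a = C
    generalize lcf_unrCoc U n θ' (-b) = D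
    rw [div_div, div_eq_iff_eq_mul]
    ac_rfl
  rw [e4] at c6
  exact c6

end Kum

section Inv

variable {q : ℕ} [Fact q.Prime] {U : Subgroup (lcf_Gal q)} {n : ℕ} [NeZero n]
  {inv : lcf_InvType}

/-- Cohomologous smooth cocycles have the same invariant. -/
theorem tame_inv_eq_of_cob (hinv : lcf_IsInvSystem inv) (hU : lcf_IsOpen U)
    {f f' : ↥U × ↥U → (PadicAlgCl q)ˣ} (hf' : lcf_IsCoc U f') (h : lcf_IsCob U (f / f')) :
    inv q U f = inv q U f' := by
  have h1 := hinv.add q U hU (f / f') f' (linv_isCoc_of_isCob h) hf'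
  rw [div_mul_cancel] at h1
  rw [h1, (hinv.eq_zero_iff q U hU (f / f') (linv_isCoc_of_isCob h)).2 h, zero_add]

/-- The product of two smooth cocycles is a smooth cocycle. -/
theorem tame_isCoc_mul {f f' : ↥U × ↥U → (PadicAlgCl q)ˣ} (hf : lcf_IsCoc U f)
    (hf' : lcf_IsCoc U f') : lcf_IsCoc U (f * f') := by
  obtain ⟨hc, E, hE, h⟩ := hf
  obtain ⟨hc', E', hE', h'⟩ := hf'
  have : FiniteDimensional ℚ_[q] ↥E := hE
  have : FiniteDimensional ℚ_[q] ↥E' := hE'
  refine ⟨fun g k j => ?_, E ⊔ E', IntermediateField.finiteDimensional_sup E E',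
    fun g g' s s' hs hs' => ?_⟩
  · simp only [Pi.mul_apply]
    rw [smul_mul', mul_mul_mul_comm, hc g k j, hc' g k j, mul_mul_mul_comm]
  · simp only [Pi.mul_apply]
    rw [h g g' s s' (IntermediateField.fixingSubgroup_antitone le_sup_left hs)
        (IntermediateField.fixingSubgroup_antitone le_sup_left hs'),
      h' g g' s s' (IntermediateField.fixingSubgroup_antitone le_sup_right hs)
        (IntermediateField.fixingSubgroup_antitone le_sup_right hs')]

/-- The invariant of a smooth coboundary is zero. -/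
theorem tame_inv_cob (hinv : lcf_IsInvSystem inv) (hU : lcf_IsOpen U)
    {f : ↥U × ↥U → (PadicAlgCl q)ˣ} (h : lcf_IsCob U f) : inv q U f = 0 :=
  (hinv.eq_zero_iff q U hU f (linv_isCoc_of_isCob h)).2 h

variable {θ θ' : ↥U →* Multiplicative (ZMod n)} {a a' : (PadicAlgCl q)ˣ}

/-- The symbol is additive in the first argument. -/
theorem tame_inv_mul_left (hinv : lcf_IsInvSystem inv) (hU : lcf_IsOpen U)
    (hθ : lcf_Smooth₁ U θ) (ha : ∀ g : ↥U, g • a = a) (ha' : ∀ g : ↥U, g • a' = a') :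
    inv q U (lcf_unrCoc U n θ (a * a')) =
      inv q U (lcf_unrCoc U n θ a) + inv q U (lcf_unrCoc U n θ a') := by
  rw [sym_unrCoc_mul]
  exact hinv.add q U hU _ _ (sym_isCoc_unrCoc hθ ha) (sym_isCoc_unrCoc hθ ha')

/-- The symbol is additive in the second argument (the character). -/
theorem tame_inv_mul_right (hinv : lcf_IsInvSystem inv) (hU : lcf_IsOpen U)
    (hθ : lcf_Smooth₁ U θ) (hθ' : lcf_Smooth₁ U θ') (ha : ∀ g : ↥U, g • a = a) :
    inv q U (lcf_unrCoc U n (θ * θ') a) =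
      inv q U (lcf_unrCoc U n θ a) + inv q U (lcf_unrCoc U n θ' a) := by
  have h1 := sym_add q U hU n θ θ' a hθ hθ' ha
  have h2 : lcf_IsCoc U (lcf_unrCoc U n θ a * lcf_unrCoc U n θ' a) :=
    tame_isCoc_mul (sym_isCoc_unrCoc hθ ha) (sym_isCoc_unrCoc hθ' ha)
  rw [tame_inv_eq_of_cob hinv hU h2 h1]
  exact hinv.add q U hU _ _ (sym_isCoc_unrCoc hθ ha) (sym_isCoc_unrCoc hθ' ha)

/-- The symbol with the trivial character is zero. -/
theorem tame_inv_one (hinv : lcf_IsInvSystem inv) (hU : lcf_IsOpen U) (a : (PadicAlgCl q)ˣ) :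
    inv q U (lcf_unrCoc U n (1 : ↥U →* Multiplicative (ZMod n)) a) = 0 := by
  rw [hilb_unrCoc_triv]
  exact tame_inv_cob hinv hU hilb_isCob_one

/-- The symbol of `1` is zero. -/
theorem tame_inv_unrCoc_one (hinv : lcf_IsInvSystem inv) (hU : lcf_IsOpen U)
    (θ : ↥U →* Multiplicative (ZMod n)) : inv q U (lcf_unrCoc U n θ 1) = 0 := by
  rw [sym_unrCoc_one]
  exact tame_inv_cob hinv hU hilb_isCob_one

/-- The symbol of a power (first argument). -/
theorem tame_inv_pow_left (hinv : lcf_IsInvSystem inv) (hU : lcf_IsOpen U)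
    (hθ : lcf_Smooth₁ U θ) (ha : ∀ g : ↥U, g • a = a) (k : ℕ) :
    inv q U (lcf_unrCoc U n θ (a ^ k)) = k • inv q U (lcf_unrCoc U n θ a) := by
  induction k with
  | zero => rw [pow_zero, zero_smul]; exact tame_inv_unrCoc_one hinv hU θ
  | succ k ih =>
    rw [pow_succ, tame_inv_mul_left hinv hU hθ (fun g => sym_smul_pow ha g k) ha, ih, succ_nsmul]

/-- The symbol of an inverse (first argument). -/
theorem tame_inv_inv_left (hinv : lcf_IsInvSystem inv) (hU : lcf_IsOpen U)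
    (hθ : lcf_Smooth₁ U θ) (ha : ∀ g : ↥U, g • a = a) :
    inv q U (lcf_unrCoc U n θ a⁻¹) = - inv q U (lcf_unrCoc U n θ a) := by
  have ha' : ∀ g : ↥U, g • a⁻¹ = a⁻¹ := fun g => by rw [smul_inv', ha]
  have h1 := tame_inv_mul_left hinv hU hθ ha ha'
  rw [mul_inv_cancel, tame_inv_unrCoc_one hinv hU θ] at h1
  exact eq_neg_of_add_eq_zero_right h1.symm

/-- The symbol of a zpow (first argument). -/
theorem tame_inv_zpow_left (hinv : lcf_IsInvSystem inv) (hU : lcf_IsOpen U)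
    (hθ : lcf_Smooth₁ U θ) (ha : ∀ g : ↥U, g • a = a) (k : ℤ) :
    inv q U (lcf_unrCoc U n θ (a ^ k)) = k • inv q U (lcf_unrCoc U n θ a) := by
  cases k with
  | ofNat k =>
    rw [Int.ofNat_eq_natCast, zpow_natCast, natCast_zsmul]
    exact tame_inv_pow_left hinv hU hθ ha k
  | negSucc k =>
    rw [zpow_negSucc, negSucc_zsmul,
      tame_inv_inv_left hinv hU hθ (fun g => sym_smul_pow ha g (k + 1)),
      tame_inv_pow_left hinv hU hθ ha]

/-- The symbol of an `n`-th power of a `U`-fixed element is zero. -/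
theorem tame_inv_pow_n (hinv : lcf_IsInvSystem inv) (hU : lcf_IsOpen U)
    (hθ : lcf_Smooth₁ U θ) {c : (PadicAlgCl q)ˣ} (hc : ∀ g : ↥U, g • c = c) :
    inv q U (lcf_unrCoc U n θ (c ^ n)) = 0 :=
  tame_inv_cob hinv hU (tame_cob_pow hθ hc)

variable {ζ α β : (PadicAlgCl q)ˣ}

/-- `(-b, θ_b) = 0` in terms of invariants. -/
theorem tame_inv_neg (hinv : lcf_IsInvSystem inv) (hU : lcf_IsOpen U) (hn : Odd n)
    (hζ : IsPrimitiveRoot ζ n) (hζU : ∀ g : ↥U, g • ζ = ζ) (h : tame_IsKum U n ζ β θ) :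
    inv q U (lcf_unrCoc U n θ (-(β ^ n))) = 0 :=
  tame_inv_cob hinv hU (tame_neg hn hζ hζU h)

/-- `(b, θ_b) = 0` for odd `n`. -/
theorem tame_inv_self (hinv : lcf_IsInvSystem inv) (hU : lcf_IsOpen U) (hn : Odd n)
    (hζ : IsPrimitiveRoot ζ n) (hζU : ∀ g : ↥U, g • ζ = ζ) (h : tame_IsKum U n ζ β θ) :
    inv q U (lcf_unrCoc U n θ (β ^ n)) = 0 := by
  have hθ := tame_isKum_smooth hζ h
  have hb := tame_isKum_pow_fixed hζ h
  have hm1 : ∀ g : ↥U, g • (-1 : (PadicAlgCl q)ˣ) = -1 := fun g => by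
    rw [tame_smul_neg, smul_one]
  have h1 : β ^ n = (-1) ^ n * -(β ^ n) := by
    rw [hn.neg_one_pow, neg_one_mul, neg_neg]
  have hnb : ∀ g : ↥U, g • (-(β ^ n)) = -(β ^ n) := fun g => by rw [tame_smul_neg, hb]
  rw [h1, tame_inv_mul_left hinv hU hθ (fun g => sym_smul_pow hm1 g n) hnb,
    tame_inv_pow_n hinv hU hθ hm1, tame_inv_neg hinv hU hn hζ hζU h, add_zero]

/-- **Skew-symmetry** in terms of invariants: `(a, θ_β) = - (b, θ_α)`. -/
theorem tame_inv_skew (hinv : lcf_IsInvSystem inv) (hU : lcf_IsOpen U) (hn : Odd n)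
    (hζ : IsPrimitiveRoot ζ n) (hζU : ∀ g : ↥U, g • ζ = ζ) (hα : tame_IsKum U n ζ α θ)
    (hβ : tame_IsKum U n ζ β θ') :
    inv q U (lcf_unrCoc U n θ' (α ^ n)) = - inv q U (lcf_unrCoc U n θ (β ^ n)) := by
  have h1 := tame_inv_cob hinv hU (tame_skew hn hU hζ hζU hα hβ)
  rw [hinv.add q U hU _ _
    (sym_isCoc_unrCoc (tame_isKum_smooth hζ hα) (tame_isKum_pow_fixed hζ hβ))
    (sym_isCoc_unrCoc (tame_isKum_smooth hζ hβ) (tame_isKum_pow_fixed hζ hα))] at h1
  exact eq_neg_of_add_eq_zero_right h1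

/-- **The tame formula** (odd `n`): for `ϖ₀ ^ n = π` with Kummer character `θ` and
`υ ^ n = u` with Kummer character `θ'`, `(π ^ j * u, θ) = - (π, θ')`. -/
theorem tame_inv_formula (hinv : lcf_IsInvSystem inv) (hU : lcf_IsOpen U) (hn : Odd n)
    (hζ : IsPrimitiveRoot ζ n) (hζU : ∀ g : ↥U, g • ζ = ζ) (hα : tame_IsKum U n ζ α θ)
    (hβ : tame_IsKum U n ζ β θ') (j : ℤ) :
    inv q U (lcf_unrCoc U n θ ((α ^ n) ^ j * β ^ n)) =
      - inv q U (lcf_unrCoc U n θ' (α ^ n)) := by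
  have hθ := tame_isKum_smooth hζ hα
  have ha := tame_isKum_pow_fixed hζ hα
  have hb := tame_isKum_pow_fixed hζ hβ
  have haj : ∀ g : ↥U, g • (α ^ n) ^ j = (α ^ n) ^ j := fun g => by
    rw [smul_zpow', ha]
  rw [tame_inv_mul_left hinv hU hθ haj hb, tame_inv_zpow_left hinv hU hθ ha,
    tame_inv_self hinv hU hn hζ hζU hα, smul_zero, zero_add,
    tame_inv_skew hinv hU hn hζ hζU hα hβ, neg_neg]

/-- The symbol of a power of the character. -/
theorem tame_inv_pow_right (hinv : lcf_IsInvSystem inv) (hU : lcf_IsOpen U)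
    (hθ : lcf_Smooth₁ U θ) (ha : ∀ g : ↥U, g • a = a) (k : ℕ) :
    inv q U (lcf_unrCoc U n (θ ^ k) a) = k • inv q U (lcf_unrCoc U n θ a) := by
  induction k with
  | zero => rw [pow_zero, zero_smul]; exact tame_inv_one hinv hU a
  | succ k ih =>
    have hk : lcf_Smooth₁ U (θ ^ k) := by
      obtain ⟨E, hE, h⟩ := hθ
      exact ⟨E, hE, fun g s hs => by
        show (θ ^ k) (g * s) = (θ ^ k) g
        rw [MonoidHom.pow_apply, MonoidHom.pow_apply, h g s hs]⟩
    rw [pow_succ, tame_inv_mul_right hinv hU hk hθ ha, ih, succ_nsmul]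

end Inv

section Unr

variable {q : ℕ} [Fact q.Prime] {U : Subgroup (lcf_Gal q)} {n : ℕ} [NeZero n]
  {ζ υ : (PadicAlgCl q)ˣ} {θ : ↥U →* Multiplicative (ZMod n)}

/-- The Kummer character of a unit is unramified (for `n` prime to the residue
characteristic): it is trivial on inertia. -/
theorem tame_kum_inert (hnq : ‖(n : PadicAlgCl q)‖ = 1) (hζ : IsPrimitiveRoot ζ n)
    (h : tame_IsKum U n ζ υ θ) (hυ : ‖(υ : PadicAlgCl q)‖ = 1) (s : ↥U)
    (hs : lcf_IsInert (s : lcf_Gal q)) : θ s = 1 := by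
  have h1 := hs (υ : PadicAlgCl q) hυ.le
  have h2 : (s : lcf_Gal q) (υ : PadicAlgCl q) =
      (ζ : PadicAlgCl q) ^ sym_t θ s * (υ : PadicAlgCl q) := by
    have := congrArg Units.val (h s)
    rwa [Units.val_mul, Units.val_pow_eq_pow_val] at this
  have h3 : (s : lcf_Gal q) (υ : PadicAlgCl q) - υ =
      ((ζ : PadicAlgCl q) ^ sym_t θ s - 1) * υ := by
    rw [h2]; ring
  rw [h3, norm_mul, hυ, mul_one] at h1
  have h4 : (ζ : PadicAlgCl q) ^ sym_t θ s = 1 := by
    refine unr_abs_root_eq n hnq _ 1 ?_ (one_pow n) h1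
    rw [← pow_mul, mul_comm, pow_mul, ← Units.val_pow_eq_pow_val, hζ.pow_eq_one, Units.val_one,
      one_pow]
  have h5 : ζ ^ sym_t θ s = ζ ^ (0 : ZMod n).val := by
    apply Units.ext
    rw [Units.val_pow_eq_pow_val, h4, ZMod.val_zero, pow_zero, Units.val_one]
  exact congrArg Multiplicative.ofAdd (tame_zeta_pow_val_inj hζ h5)

/-- The value at a Frobenius element of the Kummer character of a unit `u = υ ^ n`:
`ζ ^ θ(φ) ≡ υ ^ (N - 1)` modulo the maximal ideal, `N` the cardinality of the residue field. -/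
theorem tame_kum_frob (h : tame_IsKum U n ζ υ θ) (hυ : ‖(υ : PadicAlgCl q)‖ = 1) (φ : ↥U)
    (hφ : lcf_IsFrob U φ) (hN : 0 < lcf_resCard U) :
    ‖(ζ : PadicAlgCl q) ^ sym_t θ φ - (υ : PadicAlgCl q) ^ (lcf_resCard U - 1)‖ < 1 := by
  have h1 := hφ (υ : PadicAlgCl q) hυ.le
  have h2 : (φ : lcf_Gal q) (υ : PadicAlgCl q) =
      (ζ : PadicAlgCl q) ^ sym_t θ φ * (υ : PadicAlgCl q) := by
    have := congrArg Units.val (h φ)
    rwa [Units.val_mul, Units.val_pow_eq_pow_val] at this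
  have h3 : (φ : lcf_Gal q) (υ : PadicAlgCl q) - (υ : PadicAlgCl q) ^ lcf_resCard U =
      ((ζ : PadicAlgCl q) ^ sym_t θ φ - (υ : PadicAlgCl q) ^ (lcf_resCard U - 1)) * υ := by
    rw [h2, sub_mul, ← pow_succ, Nat.sub_add_cancel hN]
  rw [h3, norm_mul, hυ, mul_one] at h1
  exact h1

variable {inv : lcf_InvType}

/-- **The unramified formula**: for unramified data `(θ₁, φ)` of order `n`, a uniformizer `ϖ`
and a `U`-fixed `a` with `‖a‖ = ‖ϖ‖ ^ j`, the symbol `(a, θ₁ ^ k)` has invariant `j k / n`.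
(From (I1), (I2), (I4), [SYM-ADD] and [UNIT-NORM].) -/
theorem tame_inv_unr (hUN : spl_UnitNormStatement) (hinv : lcf_IsInvSystem inv)
    (hU : lcf_IsOpen U) {θ₁ : ↥U →* Multiplicative (ZMod n)} {φ : ↥U}
    (hdat : spl_IsUnrData U n θ₁ φ) {ϖ : (PadicAlgCl q)ˣ} (hϖ : lcf_IsUnif U ϖ)
    {a : (PadicAlgCl q)ˣ} (ha : ∀ g : ↥U, g • a = a) (j : ℤ)
    (haj : ‖(a : PadicAlgCl q)‖ = ‖(ϖ : PadicAlgCl q)‖ ^ j) (k : ℕ) :
    inv q U (lcf_unrCoc U n (θ₁ ^ k) a) = lcf_qz ((j : ℚ) * (k : ℚ) / (n : ℚ)) := by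
  obtain ⟨hθ, hin, hfrob, hφ1⟩ := hdat
  have hϖU : ∀ g : ↥U, g • ϖ = ϖ := hϖ.1
  have hϖj : ∀ g : ↥U, g • ϖ ^ j = ϖ ^ j := fun g => by rw [smul_zpow', hϖU]
  set u : (PadicAlgCl q)ˣ := a / ϖ ^ j with hu
  have huU : ∀ g : ↥U, g • u = u := fun g => by rw [hu, smul_div', ha, hϖj]
  have hu1 : ‖(u : PadicAlgCl q)‖ = 1 := by
    rw [hu, Units.val_div_eq_div_val, norm_div, haj, Units.val_zpow_eq_zpow_val, norm_zpow]
    exact div_self (zpow_ne_zero _ (norm_ne_zero_iff.2 ϖ.ne_zero))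
  have hau : a = ϖ ^ j * u := by rw [hu, mul_div_cancel]
  have h1 : inv q U (lcf_unrCoc U n θ₁ a) = j • lcf_qz (1 / (n : ℚ)) := by
    rw [hau, tame_inv_mul_left hinv hU hθ hϖj huU, tame_inv_zpow_left hinv hU hθ hϖU,
      hinv.unr q U hU n θ₁ φ ϖ hθ hin hfrob hφ1 hϖ,
      tame_inv_cob hinv hU (hUN q U hU n θ₁ φ ⟨hθ, hin, hfrob, hφ1⟩ u huU hu1), add_zero]
  rw [tame_inv_pow_right hinv hU hθ ha, h1, ← map_zsmul, ← map_nsmul]
  congr 1
  rw [nsmul_eq_mul, zsmul_eq_mul]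
  ring

end Unr

end Fermat.Agent.S55
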