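import Fermat.Agent.S55.Local.SymAdd

set_option autoImplicit false
set_option linter.style.haveILetI false
set_option linter.unusedSectionVars false

/-!
# S55 local side: the norm residue property of the symbol `a ^ δθ` ([SYM-NORM])

`sym_norm : lcf_H90Statement → lcf_SymNormStatement`: for a smooth character `θ : U → ℤ/n`,
`σ ∈ U` with `θ σ = 1` and a `U`-fixed `a`, the cocycle `a ^ δθ` is a smooth coboundary iff
`a = ∏_{i<n} σ^i • y` for some `y` fixed by `ker θ`.
-/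

noncomputable section

namespace Fermat.Agent.S55

open groupCohomology

section Ker

variable {q : ℕ} [Fact q.Prime] {U : Subgroup (lcf_Gal q)} {n : ℕ}

/-- The kernel of a character of `U`, as a subgroup of the local Galois group. -/
def sym_ker (θ : ↥U →* Multiplicative (ZMod n)) : Subgroup (lcf_Gal q) where
  carrier := {s | ∃ hs : s ∈ U, θ ⟨s, hs⟩ = 1}
  one_mem' := ⟨U.one_mem, map_one θ⟩
  mul_mem' := by
    rintro s t ⟨hs, hs1⟩ ⟨ht, ht1⟩
    refine ⟨U.mul_mem hs ht, ?_⟩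
    have : (⟨s * t, U.mul_mem hs ht⟩ : ↥U) = ⟨s, hs⟩ * ⟨t, ht⟩ := rfl
    rw [this, map_mul, hs1, ht1, one_mul]
  inv_mem' := by
    rintro s ⟨hs, hs1⟩
    refine ⟨U.inv_mem hs, ?_⟩
    have : (⟨s⁻¹, U.inv_mem hs⟩ : ↥U) = (⟨s, hs⟩ : ↥U)⁻¹ := rfl
    rw [this, map_inv, hs1, inv_one]

variable (θ : ↥U →* Multiplicative (ZMod n))

theorem sym_mem_ker {s : lcf_Gal q} : s ∈ sym_ker θ ↔ ∃ hs : s ∈ U, θ ⟨s, hs⟩ = 1 := Iff.rfl

theorem sym_ker_le : sym_ker θ ≤ U := fun _ hs => hs.1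

theorem sym_coe_mem_ker {g : ↥U} (hg : θ g = 1) : (g : lcf_Gal q) ∈ sym_ker θ := ⟨g.2, hg⟩

theorem sym_theta_inclusion (h : ↥(sym_ker θ)) : θ (Subgroup.inclusion (sym_ker_le θ) h) = 1 :=
  h.2.2

/-- The kernel of a smooth character of an open subgroup is open. -/
theorem sym_isOpen_ker (hU : lcf_IsOpen U) (hθ : lcf_Smooth₁ U θ) : lcf_IsOpen (sym_ker θ) := by
  obtain ⟨E, hE, hEU⟩ := hU
  obtain ⟨E', hE', h⟩ := hθ
  haveI := hE
  haveI := hE'
  refine ⟨E ⊔ E', IntermediateField.finiteDimensional_sup E E', fun s hs => ?_⟩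
  have hsU : s ∈ U := hEU (IntermediateField.fixingSubgroup_antitone le_sup_left hs)
  refine ⟨hsU, ?_⟩
  have := h 1 ⟨s, hsU⟩ (IntermediateField.fixingSubgroup_antitone le_sup_right hs)
  rwa [one_mul, map_one] at this

end Ker

section Pow

variable {q : ℕ} [Fact q.Prime] {U : Subgroup (lcf_Gal q)} {n : ℕ} [NeZero n]
  (θ : ↥U →* Multiplicative (ZMod n)) (σ : ↥U)

theorem sym_theta_pow (hσ : θ σ = Multiplicative.ofAdd 1) (i : ℕ) :
    θ (σ ^ i) = Multiplicative.ofAdd (i : ZMod n) := by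
  rw [map_pow, hσ, ← ofAdd_nsmul, nsmul_one]

theorem sym_t_pow (hσ : θ σ = Multiplicative.ofAdd 1) (i : ℕ) : sym_t θ (σ ^ i) = i % n := by
  unfold sym_t
  rw [sym_theta_pow θ σ hσ, toAdd_ofAdd, ZMod.val_natCast]

theorem sym_theta_eq (hσ : θ σ = Multiplicative.ofAdd 1) (g : ↥U) :
    θ g = θ (σ ^ sym_t θ g) := by
  rw [sym_theta_pow θ σ hσ]
  unfold sym_t
  rw [ZMod.natCast_zmod_val]
  rfl

theorem sym_theta_pow_n (hσ : θ σ = Multiplicative.ofAdd 1) : θ (σ ^ n) = 1 := by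
  rw [sym_theta_pow θ σ hσ, ZMod.natCast_self]
  rfl

variable {θ σ}

/-- `ker θ`-fixed elements are moved by `g` as by `σ ^ (θ g)`. -/
theorem sym_smul_eq (hσ : θ σ = Multiplicative.ofAdd 1) {y : (PadicAlgCl q)ˣ}
    (hy : ∀ g : ↥U, θ g = 1 → g • y = y) (g : ↥U) : g • y = σ ^ sym_t θ g • y := by
  have h1 : θ ((σ ^ sym_t θ g)⁻¹ * g) = 1 := by
    rw [map_mul, map_inv, ← sym_theta_eq θ σ hσ g, inv_mul_cancel]
  have h2 := hy _ h1
  rw [mul_smul, inv_smul_eq_iff] at h2
  exact h2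

theorem sym_pow_smul_mod (hσ : θ σ = Multiplicative.ofAdd 1) {y : (PadicAlgCl q)ˣ}
    (hy : ∀ g : ↥U, θ g = 1 → g • y = y) (i : ℕ) : σ ^ i • y = σ ^ (i % n) • y := by
  rw [sym_smul_eq hσ hy (σ ^ i), sym_t_pow θ σ hσ]

theorem sym_smul_pow_smul (hσ : θ σ = Multiplicative.ofAdd 1) {y : (PadicAlgCl q)ˣ}
    (hy : ∀ g : ↥U, θ g = 1 → g • y = y) (g : ↥U) (i : ℕ) :
    g • σ ^ i • y = σ ^ (sym_t θ g + i) • y := by
  rw [← mul_smul, sym_smul_eq hσ hy (g * σ ^ i), sym_t_mul, sym_t_pow θ σ hσ, Nat.add_mod_mod,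
    ← sym_pow_smul_mod hσ hy]

/-- Products of the orbit of `y` over a range. -/
theorem sym_prod_range (hσ : θ σ = Multiplicative.ofAdd 1) {y a : (PadicAlgCl q)ˣ}
    (hy : ∀ g : ↥U, θ g = 1 → g • y = y) (ha : a = ∏ i ∈ Finset.range n, σ ^ i • y) (m : ℕ) :
    ∏ i ∈ Finset.range m, σ ^ i • y = a ^ (m / n) * ∏ i ∈ Finset.range (m % n), σ ^ i • y := by
  have hn : 0 < n := Nat.pos_of_ne_zero (NeZero.ne n)
  induction m using Nat.strong_induction_on with
  | _ m ih =>
    rcases Nat.lt_or_ge m n with hlt | hge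
    · rw [Nat.div_eq_of_lt hlt, Nat.mod_eq_of_lt hlt, pow_zero, one_mul]
    · have hm : m = n + (m - n) := by omega
      have h1 : ∏ i ∈ Finset.range (m - n), σ ^ (n + i) • y =
          ∏ i ∈ Finset.range (m - n), σ ^ i • y := by
        refine Finset.prod_congr rfl (fun i _ => ?_)
        rw [sym_pow_smul_mod hσ hy (n + i), Nat.add_mod_left, ← sym_pow_smul_mod hσ hy]
      conv_lhs => rw [hm, Finset.prod_range_add, ← ha, h1, ih (m - n) (by omega)]
      rw [Nat.div_eq_sub_div hn hge, Nat.mod_eq_sub_mod hge, pow_succ]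
      ac_rfl

end Pow

section Converse

variable {q : ℕ} [Fact q.Prime] {U : Subgroup (lcf_Gal q)} {n : ℕ} [NeZero n]
  {θ : ↥U →* Multiplicative (ZMod n)} {σ : ↥U}

/-- **[SYM-NORM], (⇐)**: if `a` is the norm of a `ker θ`-fixed element, then `a ^ δθ` is a smooth
coboundary. -/
theorem sym_norm_mpr (hθ : lcf_Smooth₁ U θ) (hσ : θ σ = Multiplicative.ofAdd 1)
    {y a : (PadicAlgCl q)ˣ} (hy : ∀ g : ↥U, θ g = 1 → g • y = y)
    (ha : a = ∏ i ∈ Finset.range n, σ ^ i • y) : lcf_IsCob U (lcf_unrCoc U n θ a) := by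
  obtain ⟨E, hE, h⟩ := hθ
  refine ⟨fun g => ∏ i ∈ Finset.range (sym_t θ g), σ ^ i • y, ⟨E, hE, fun g s hs => ?_⟩,
    fun g k => ?_⟩
  · simp only
    rw [sym_t_congr θ (h g s hs)]
  · simp only [sym_unrCoc_apply]
    have h1 : g • ∏ i ∈ Finset.range (sym_t θ k), σ ^ i • y =
        ∏ i ∈ Finset.range (sym_t θ k), σ ^ (sym_t θ g + i) • y := by
      rw [Finset.smul_prod']
      exact Finset.prod_congr rfl (fun i _ => sym_smul_pow_smul hσ hy g i)
    have h2 := sym_prod_range hσ hy ha (sym_t θ g + sym_t θ k)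
    rw [Finset.prod_range_add, ← h1, ← sym_t_mul] at h2
    rw [div_mul_eq_mul_div, mul_comm, h2, mul_div_cancel_right]

end Converse

section Direct

variable {q : ℕ} [Fact q.Prime] {U : Subgroup (lcf_Gal q)} {n : ℕ} [NeZero n]
  {θ : ↥U →* Multiplicative (ZMod n)} {σ : ↥U}

/-- The coboundary of `g ↦ g • x / x` is trivial. -/
theorem sym_d_d0 (x : (PadicAlgCl q)ˣ) (g h : ↥U) :
    g • (h • x / x) / ((g * h) • x / x) * (g • x / x) = 1 := by
  rw [smul_div', ← mul_smul, div_div_div_comm, div_self', one_div, inv_mul_cancel]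

/-- **[SYM-NORM], (⇒)**: if `a ^ δθ` is the coboundary of a cochain `b` (whose restriction to
`ker θ` is the coboundary of an element `x`), then `a` is a norm. -/
theorem sym_norm_mp_aux (h1 : 1 < n) (hσ : θ σ = Multiplicative.ofAdd 1) {a : (PadicAlgCl q)ˣ}
    (b : ↥U → (PadicAlgCl q)ˣ)
    (hb : ∀ g h : ↥U, g • b h / b (g * h) * b g = lcf_unrCoc U n θ a (g, h))
    (x : (PadicAlgCl q)ˣ) (hx : ∀ h : ↥U, θ h = 1 → b h = h • x / x) :
    ∃ y : (PadicAlgCl q)ˣ, (∀ g : ↥U, θ g = 1 → g • y = y) ∧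
      a = ∏ i ∈ Finset.range n, (σ ^ i) • y := by
  have hn : 0 < n := Nat.pos_of_ne_zero (NeZero.ne n)
  -- the normalised cochain
  set b' : ↥U → (PadicAlgCl q)ˣ := fun g => b g / (g • x / x) with hb'
  have hd : ∀ g h : ↥U, g • b' h / b' (g * h) * b' g = lcf_unrCoc U n θ a (g, h) := by
    intro g h
    have e := sym_d_d0 x g h
    simp only [hb']
    rw [smul_div', div_div_div_comm, div_mul_div_comm, hb g h, e, div_one]
  have hker : ∀ h : ↥U, θ h = 1 → b' h = 1 := by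
    intro h hh
    simp only [hb']
    rw [hx h hh, div_self']
  have hf1 : ∀ g h : ↥U, θ h = 1 → lcf_unrCoc U n θ a (g, h) = 1 := by
    intro g h hh
    rw [sym_unrCoc_apply, (sym_t_eq_zero_iff θ h).2 hh, add_zero,
      Nat.div_eq_of_lt (sym_t_lt θ g), pow_zero]
  have hf2 : ∀ g h : ↥U, θ h = 1 → lcf_unrCoc U n θ a (h, g) = 1 := by
    intro g h hh
    rw [sym_unrCoc_apply, (sym_t_eq_zero_iff θ h).2 hh, zero_add,
      Nat.div_eq_of_lt (sym_t_lt θ g), pow_zero]
  have hright : ∀ g h : ↥U, θ h = 1 → b' (g * h) = b' g := by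
    intro g h hh
    have := hd g h
    rw [hf1 g h hh, hker h hh, smul_one, one_div, inv_mul_eq_one] at this
    exact this
  have hleft : ∀ g h : ↥U, θ h = 1 → h • b' g = b' (h * g) := by
    intro g h hh
    have := hd h g
    rw [hf2 g h hh, hker h hh, mul_one, div_eq_one] at this
    exact this
  have hfix : ∀ g h : ↥U, θ h = 1 → h • b' g = b' g := by
    intro g h hh
    rw [hleft g h hh]
    have e : h * g = g * (g⁻¹ * h * g) := by group
    have e2 : θ (g⁻¹ * h * g) = 1 := by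
      rw [map_mul, map_mul, hh, mul_one, map_inv, inv_mul_cancel]
    rw [e, hright g _ e2]
  refine ⟨b' σ, fun g hg => hfix σ g hg, ?_⟩
  -- the product of the coboundary identities along the powers of `σ`
  have hprod : ∏ i ∈ Finset.range n, (σ ^ i • b' σ / b' (σ ^ (i + 1)) * b' (σ ^ i)) =
      ∏ i ∈ Finset.range n, lcf_unrCoc U n θ a (σ ^ i, σ) :=
    Finset.prod_congr rfl (fun i _ => by
      have := hd (σ ^ i) σ
      rwa [← pow_succ] at this)
  have htel : ∏ i ∈ Finset.range n, (b' (σ ^ i) / b' (σ ^ (i + 1))) = 1 := by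
    rw [Finset.prod_range_div' (fun i => b' (σ ^ i)), pow_zero, hker 1 (map_one θ),
      hker (σ ^ n) (sym_theta_pow_n θ σ hσ), div_one]
  have hlhs : ∏ i ∈ Finset.range n, (σ ^ i • b' σ / b' (σ ^ (i + 1)) * b' (σ ^ i)) =
      ∏ i ∈ Finset.range n, σ ^ i • b' σ := by
    have : ∀ i ∈ Finset.range n, σ ^ i • b' σ / b' (σ ^ (i + 1)) * b' (σ ^ i) =
        σ ^ i • b' σ * (b' (σ ^ i) / b' (σ ^ (i + 1))) := by
      intro i _
      rw [div_mul_eq_mul_div, mul_div_assoc]
    rw [Finset.prod_congr rfl this, Finset.prod_mul_distrib, htel, mul_one]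
  have hσ1 : sym_t θ σ = 1 := by
    have := sym_t_pow θ σ hσ 1
    rwa [pow_one, Nat.mod_eq_of_lt h1] at this
  have hrhs : ∏ i ∈ Finset.range n, lcf_unrCoc U n θ a (σ ^ i, σ) = a := by
    rw [Finset.prod_eq_single (n - 1)]
    · rw [sym_unrCoc_apply, sym_t_pow θ σ hσ, hσ1, Nat.mod_eq_of_lt (by omega),
        Nat.sub_add_cancel hn, Nat.div_self hn, pow_one]
    · intro i hi hne
      rw [Finset.mem_range] at hi
      rw [sym_unrCoc_apply, sym_t_pow θ σ hσ, hσ1, Nat.mod_eq_of_lt hi,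
        Nat.div_eq_of_lt (by omega), pow_zero]
    · intro h
      exfalso
      apply h
      rw [Finset.mem_range]
      omega
  rw [← hrhs, ← hprod, hlhs]

end Direct

section Main

/-- **[SYM-NORM]** the norm residue property of the symbol `a ^ δθ`, from smooth Hilbert 90. -/
theorem sym_norm (h90 : lcf_H90Statement) : lcf_SymNormStatement := by
  intro q _ U hU n _ θ σ a hθ hσ ha
  constructor
  · rintro ⟨b, hbs, hb⟩
    rcases Nat.lt_or_ge 1 n with h1 | h1
    · -- restrict `b` to the kernel of `θ` and apply Hilbert 90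
      have hle := sym_ker_le θ
      set c : ↥(sym_ker θ) → (PadicAlgCl q)ˣ := fun h => b (Subgroup.inclusion hle h) with hc
      have hcc : IsMulCocycle₁ c := by
        intro h h'
        have e := hb (Subgroup.inclusion hle h) (Subgroup.inclusion hle h')
        rw [sym_unrCoc_apply, (sym_t_eq_zero_iff θ _).2 (sym_theta_inclusion θ h),
          (sym_t_eq_zero_iff θ _).2 (sym_theta_inclusion θ h'), add_zero, Nat.zero_div,
          pow_zero, div_mul_eq_mul_div, div_eq_one] at e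
        simp only [hc]
        rw [map_mul]
        exact e.symm
      have hcs : lcf_Smooth₁ (sym_ker θ) c := by
        obtain ⟨E, hE, h⟩ := hbs
        refine ⟨E, hE, fun g s hs => ?_⟩
        simp only [hc]
        rw [map_mul]
        exact h _ _ hs
      obtain ⟨x, hx⟩ := h90 q (sym_ker θ) (sym_isOpen_ker θ hU hθ) c hcc hcs
      refine sym_norm_mp_aux h1 hσ b hb x (fun h hh => ?_)
      exact hx ⟨(h : lcf_Gal q), sym_coe_mem_ker θ hh⟩
    · have hn1 : n = 1 := by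
        have := Nat.pos_of_ne_zero (NeZero.ne n)
        omega
      subst hn1
      refine ⟨a, fun g _ => ha g, ?_⟩
      rw [Finset.prod_range_one, pow_zero, one_smul]
  · rintro ⟨y, hy, hay⟩
    exact sym_norm_mpr hθ hσ hy hay

end Main

end Fermat.Agent.S55
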