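/-
S55 (wave 5), LOCAL side, package [A8] = [SPLIT], leaf [UNIT-NORM]:
units are norms from unramified extensions, in the absolute setting.

`sun_main : spl_UrValStatement → spl_UnitNormStatement`.

Route: `L = Ω ^ (ker θ)` is a complete discretely valued field on which `ℤ/n` acts through the
powers of the Frobenius element `φ` (`θ φ = 1`); the action is faithful because `ker θ` is closed,
and a uniformizer of `K_U` generates the value group of `L` by [UR-VAL] (`ker θ` contains the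
inertia subgroup of `U`).  The abstract unramified package (`unr_normed_norm_surj`) then gives
`u = ∏_{i<n} φ^i y` with `y ∈ L`, `‖y‖ = 1`, and `sym_norm_mpr` concludes.
Owner: helper7.  Prefix `sun_`.
-/
import Fermat.Agent.S55.Local.SplitDefs
import Fermat.Agent.S55.Local.SymNorm
import Fermat.Agent.S55.UnrAbs1
import Fermat.Agent.S55.UnrNormed

set_option autoImplicit false
set_option linter.style.haveILetI false
set_option linter.unusedSectionVars false

noncomputable section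

namespace Fermat.Agent.S55

open groupCohomology

section Field

variable {q : ℕ} [Fact q.Prime] {U : Subgroup (lcf_Gal q)} {n : ℕ} [NeZero n]
  (θ : ↥U →* Multiplicative (ZMod n)) (φ : ↥U)

/-- The fixed field of the kernel of the character `θ`. -/
abbrev sun_L : IntermediateField ℚ_[q] (PadicAlgCl q) :=
  IntermediateField.fixedField (sym_ker θ)

theorem sun_mem_L {x : PadicAlgCl q} :
    x ∈ sun_L θ ↔ ∀ g : ↥U, θ g = 1 → (g : lcf_Gal q) x = x := by
  constructor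
  · intro hx g hg
    exact hx ⟨(g : lcf_Gal q), sym_coe_mem_ker θ hg⟩
  · rintro hx ⟨s, hsU, hs⟩
    exact hx ⟨s, hsU⟩ hs

/-- `L` is stable under `U`. -/
theorem sun_map_mem_L (g : ↥U) {x : PadicAlgCl q} (hx : x ∈ sun_L θ) :
    (g : lcf_Gal q) x ∈ sun_L θ := by
  rw [sun_mem_L] at hx ⊢
  intro s hs
  have h1 : θ (g⁻¹ * s * g) = 1 := by
    rw [map_mul, map_mul, hs, mul_one, map_inv, inv_mul_cancel]
  have h2 := hx _ h1
  have h3 : ((g⁻¹ * s * g : ↥U) : lcf_Gal q) x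
      = (g : lcf_Gal q)⁻¹ ((s : lcf_Gal q) ((g : lcf_Gal q) x)) := rfl
  rw [h3] at h2
  have h4 : (g : lcf_Gal q) ((g : lcf_Gal q)⁻¹ ((s : lcf_Gal q) ((g : lcf_Gal q) x)))
      = (s : lcf_Gal q) ((g : lcf_Gal q) x) := by
    rw [← AlgEquiv.mul_apply, mul_inv_cancel, AlgEquiv.one_apply]
  rw [h2] at h4
  exact h4.symm

variable {θ φ}

/-- On `L`, every `g ∈ U` acts as the power `φ ^ (θ g)` of the Frobenius element. -/
theorem sun_apply_eq_pow (hφ : θ φ = Multiplicative.ofAdd 1) {x : PadicAlgCl q}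
    (hx : x ∈ sun_L θ) (g : ↥U) :
    (g : lcf_Gal q) x = ((φ ^ sym_t θ g : ↥U) : lcf_Gal q) x := by
  have h1 : θ ((φ ^ sym_t θ g)⁻¹ * g) = 1 := by
    rw [map_mul, map_inv, ← sym_theta_eq θ φ hφ g, inv_mul_cancel]
  have h2 := (sun_mem_L θ).1 hx _ h1
  have h3 : (((φ ^ sym_t θ g)⁻¹ * g : ↥U) : lcf_Gal q) x
      = ((φ ^ sym_t θ g : ↥U) : lcf_Gal q)⁻¹ ((g : lcf_Gal q) x) := rfl
  rw [h3] at h2
  have h4 : ((φ ^ sym_t θ g : ↥U) : lcf_Gal q)
      (((φ ^ sym_t θ g : ↥U) : lcf_Gal q)⁻¹ ((g : lcf_Gal q) x)) = (g : lcf_Gal q) x := by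
    rw [← AlgEquiv.mul_apply, mul_inv_cancel, AlgEquiv.one_apply]
  rw [h2] at h4
  exact h4.symm

theorem sun_pow_apply_mod (hφ : θ φ = Multiplicative.ofAdd 1) {x : PadicAlgCl q}
    (hx : x ∈ sun_L θ) (i : ℕ) :
    ((φ ^ i : ↥U) : lcf_Gal q) x = ((φ ^ (i % n) : ↥U) : lcf_Gal q) x := by
  rw [sun_apply_eq_pow hφ hx (φ ^ i), sym_t_pow θ φ hφ]

end Field

section Action

variable {q : ℕ} [Fact q.Prime] {U : Subgroup (lcf_Gal q)} {n : ℕ} [NeZero n]
  (θ : ↥U →* Multiplicative (ZMod n)) (φ : ↥U)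

/-- The action of `a ∈ ℤ/n` on `L`: the power `φ ^ a` of the Frobenius element. -/
def sun_smul (a : Multiplicative (ZMod n)) (x : ↥(sun_L θ)) : ↥(sun_L θ) :=
  ⟨((φ ^ (Multiplicative.toAdd a).val : ↥U) : lcf_Gal q) x.1, sun_map_mem_L θ _ x.2⟩

theorem sun_coe_smul (a : Multiplicative (ZMod n)) (x : ↥(sun_L θ)) :
    ((sun_smul θ φ a x : ↥(sun_L θ)) : PadicAlgCl q)
      = ((φ ^ (Multiplicative.toAdd a).val : ↥U) : lcf_Gal q) x.1 := rfl

/-- `ℤ/n` acts on `L` through the powers of `φ`. -/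
@[reducible] def sun_act (hφ : θ φ = Multiplicative.ofAdd 1) :
    MulSemiringAction (Multiplicative (ZMod n)) ↥(sun_L θ) where
  smul := sun_smul θ φ
  one_smul := fun x => by
    apply Subtype.ext
    show ((sun_smul θ φ 1 x : ↥(sun_L θ)) : PadicAlgCl q) = x.1
    rw [sun_coe_smul, toAdd_one, ZMod.val_zero, pow_zero]
    rfl
  mul_smul := fun a b x => by
    apply Subtype.ext
    show ((sun_smul θ φ (a * b) x : ↥(sun_L θ)) : PadicAlgCl q)
      = ((sun_smul θ φ a (sun_smul θ φ b x) : ↥(sun_L θ)) : PadicAlgCl q)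
    rw [sun_coe_smul, sun_coe_smul, sun_coe_smul, toAdd_mul, ZMod.val_add,
      ← sun_pow_apply_mod hφ x.2, pow_add]
    rfl
  smul_zero := fun a => by
    apply Subtype.ext
    show ((sun_smul θ φ a 0 : ↥(sun_L θ)) : PadicAlgCl q) = 0
    rw [sun_coe_smul]
    exact map_zero _
  smul_add := fun a x y => by
    apply Subtype.ext
    show ((sun_smul θ φ a (x + y) : ↥(sun_L θ)) : PadicAlgCl q)
      = ((sun_smul θ φ a x : ↥(sun_L θ)) : PadicAlgCl q)
        + ((sun_smul θ φ a y : ↥(sun_L θ)) : PadicAlgCl q)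
    rw [sun_coe_smul, sun_coe_smul, sun_coe_smul]
    exact map_add _ _ _
  smul_one := fun a => by
    apply Subtype.ext
    show ((sun_smul θ φ a 1 : ↥(sun_L θ)) : PadicAlgCl q) = 1
    rw [sun_coe_smul]
    exact map_one _
  smul_mul := fun a x y => by
    apply Subtype.ext
    show ((sun_smul θ φ a (x * y) : ↥(sun_L θ)) : PadicAlgCl q)
      = ((sun_smul θ φ a x : ↥(sun_L θ)) : PadicAlgCl q)
        * ((sun_smul θ φ a y : ↥(sun_L θ)) : PadicAlgCl q)
    rw [sun_coe_smul, sun_coe_smul, sun_coe_smul]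
    exact map_mul _ _ _

theorem sun_act_coe (hφ : θ φ = Multiplicative.ofAdd 1) (a : Multiplicative (ZMod n))
    (x : ↥(sun_L θ)) :
    letI := sun_act θ φ hφ
    ((a • x : ↥(sun_L θ)) : PadicAlgCl q)
      = ((φ ^ (Multiplicative.toAdd a).val : ↥U) : lcf_Gal q) x.1 := rfl

/-- The action is faithful: `ker θ` is closed, so an element of `U` acting trivially on
`L = Ω ^ (ker θ)` lies in `ker θ`. -/
theorem sun_faithful (hU : lcf_IsOpen U) (hθ : lcf_Smooth₁ U θ)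
    (hφ : θ φ = Multiplicative.ofAdd 1) :
    letI := sun_act θ φ hφ
    FaithfulSMul (Multiplicative (ZMod n)) ↥(sun_L θ) := by
  letI := sun_act θ φ hφ
  refine ⟨fun {a b} H => ?_⟩
  have hfix := unr_abs_fixing_fixed (sym_ker θ) (sym_isOpen_ker θ hU hθ)
  set g : ↥U := (φ ^ (Multiplicative.toAdd b).val)⁻¹ * φ ^ (Multiplicative.toAdd a).val with hg
  have hmem : (g : lcf_Gal q) ∈ (IntermediateField.fixedField (sym_ker θ)).fixingSubgroup := by
    rw [IntermediateField.mem_fixingSubgroup_iff]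
    intro x hx
    have h1 := congrArg (fun y : ↥(sun_L θ) => (y : PadicAlgCl q)) (H ⟨x, hx⟩)
    simp only [sun_act_coe] at h1
    have h2 : (g : lcf_Gal q) x = ((φ ^ (Multiplicative.toAdd b).val : ↥U) : lcf_Gal q)⁻¹
        (((φ ^ (Multiplicative.toAdd a).val : ↥U) : lcf_Gal q) x) := rfl
    rw [h2, h1, ← AlgEquiv.mul_apply, inv_mul_cancel, AlgEquiv.one_apply]
  rw [hfix] at hmem
  obtain ⟨hgU, hg1⟩ := hmem
  have hg1' : θ g = 1 := hg1
  rw [hg, map_mul, map_inv, inv_mul_eq_one, sym_theta_pow θ φ hφ, sym_theta_pow θ φ hφ,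
    ZMod.natCast_zmod_val, ZMod.natCast_zmod_val] at hg1'
  exact hg1'.symm

end Action

section Main

variable {q : ℕ} [Fact q.Prime] {U : Subgroup (lcf_Gal q)} {n : ℕ} [NeZero n]
  {θ : ↥U →* Multiplicative (ZMod n)} {φ : ↥U}

/-- Products over `ℤ/n` are products over `range n`. -/
theorem sun_prod_zmod {M : Type*} [CommMonoid M] (f : ℕ → M) :
    ∏ a : Multiplicative (ZMod n), f (Multiplicative.toAdd a).val
      = ∏ i ∈ Finset.range n, f i := by
  refine Finset.prod_bij' (fun a _ => (Multiplicative.toAdd a).val)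
    (fun i _ => Multiplicative.ofAdd (i : ZMod n)) ?_ ?_ ?_ ?_ ?_
  · intro a _
    exact Finset.mem_range.2 (ZMod.val_lt _)
  · intro i _
    exact Finset.mem_univ _
  · intro a _
    show Multiplicative.ofAdd (((Multiplicative.toAdd a).val : ℕ) : ZMod n) = a
    rw [ZMod.natCast_zmod_val]
    rfl
  · intro i hi
    show (Multiplicative.toAdd (Multiplicative.ofAdd (i : ZMod n))).val = i
    rw [toAdd_ofAdd]
    exact ZMod.val_natCast_of_lt (Finset.mem_range.1 hi)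
  · intro a _
    rfl

/-- **Units are norms from `L = Ω ^ (ker θ)`**, as soon as the uniformizer `ϖ` of `K_U` generates
the value group of `L`. -/
theorem sun_unit_norm_of_disc (hU : lcf_IsOpen U) (hθ : lcf_Smooth₁ U θ)
    (hφ : θ φ = Multiplicative.ofAdd 1) (ϖ : (PadicAlgCl q)ˣ) (hϖ : lcf_IsUnif U ϖ)
    (hdisc : ∀ x : (PadicAlgCl q)ˣ, (∀ g : ↥U, θ g = 1 → g • x = x) →
      ∃ k : ℤ, ‖(x : PadicAlgCl q)‖ = ‖(ϖ : PadicAlgCl q)‖ ^ k)
    (u : (PadicAlgCl q)ˣ) (hu : ∀ g : ↥U, g • u = u) (hu1 : ‖(u : PadicAlgCl q)‖ = 1) :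
    ∃ y : (PadicAlgCl q)ˣ, (∀ g : ↥U, θ g = 1 → g • y = y) ∧ ‖(y : PadicAlgCl q)‖ = 1 ∧
      u = ∏ i ∈ Finset.range n, φ ^ i • y := by
  classical
  haveI hfin : FiniteDimensional ℚ_[q] ↥(sun_L θ) :=
    unr_abs_finite (sym_ker θ) (sym_isOpen_ker θ hU hθ)
  haveI hloc : lf_IsLocal ↥(sun_L θ) := lf_isLocal_intermediate _
  letI := sun_act θ φ hφ
  haveI := sun_faithful θ φ hU hθ hφ
  obtain ⟨S, hS⟩ := lf_IsLocal.finite_residue (K := ↥(sun_L θ))
  -- fixed elements of `U` lie in `L`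
  have hmemL : ∀ x : (PadicAlgCl q)ˣ, (∀ g : ↥U, g • x = x) → (x : PadicAlgCl q) ∈ sun_L θ := by
    intro x hx
    rw [sun_mem_L]
    intro g _
    exact congrArg (fun t : (PadicAlgCl q)ˣ => (t : PadicAlgCl q)) (hx g)
  have hfixU : ∀ (x : (PadicAlgCl q)ˣ) (hx : ∀ g : ↥U, g • x = x) (a : Multiplicative (ZMod n)),
      a • (⟨(x : PadicAlgCl q), hmemL x hx⟩ : ↥(sun_L θ)) = ⟨(x : PadicAlgCl q), hmemL x hx⟩ := by
    intro x hx a
    apply Subtype.ext
    rw [sun_act_coe]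
    exact congrArg (fun t : (PadicAlgCl q)ˣ => (t : PadicAlgCl q)) (hx _)
  obtain ⟨x, hx1, hx⟩ := unr_normed_norm_surj (G := Multiplicative (ZMod n))
    (⟨(ϖ : PadicAlgCl q), hmemL ϖ hϖ.1⟩ : ↥(sun_L θ))
    (fun a x => by
      show ‖((a • x : ↥(sun_L θ)) : PadicAlgCl q)‖ = ‖(x : PadicAlgCl q)‖
      rw [sun_act_coe]
      exact unr_abs_norm_map _ _)
    (hfixU ϖ hϖ.1) hϖ.2.1
    (fun h => ϖ.ne_zero (congrArg Subtype.val h))
    (fun x hx0 => by
      have hx0' : (x : PadicAlgCl q) ≠ 0 := fun h => hx0 (Subtype.ext h)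
      obtain ⟨k, hk⟩ := hdisc (Units.mk0 (x : PadicAlgCl q) hx0') (fun g hg => by
        apply Units.ext
        rw [unr_abs_smul_units_val]
        exact (sun_mem_L θ).1 x.2 g hg)
      exact ⟨k, hk⟩)
    S hS ⟨(u : PadicAlgCl q), hmemL u hu⟩ (hfixU u hu) hu1
  have hx0 : (x : PadicAlgCl q) ≠ 0 := by
    intro h
    have : ‖(x : PadicAlgCl q)‖ = 1 := hx1
    rw [h, norm_zero] at this
    exact zero_ne_one this
  refine ⟨Units.mk0 (x : PadicAlgCl q) hx0, fun g hg => ?_, hx1, ?_⟩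
  · apply Units.ext
    rw [unr_abs_smul_units_val]
    exact (sun_mem_L θ).1 x.2 g hg
  · apply Units.ext
    rw [Units.coe_prod]
    have h1 : ((∏ a : Multiplicative (ZMod n), a • x : ↥(sun_L θ)) : PadicAlgCl q)
        = (u : PadicAlgCl q) := congrArg (fun t : ↥(sun_L θ) => (t : PadicAlgCl q)) hx
    rw [← h1]
    have h2 : ((∏ a : Multiplicative (ZMod n), a • x : ↥(sun_L θ)) : PadicAlgCl q)
        = ∏ a : Multiplicative (ZMod n), ((a • x : ↥(sun_L θ)) : PadicAlgCl q) :=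
      map_prod (sun_L θ).val _ _
    rw [h2]
    simp only [sun_act_coe]
    rw [sun_prod_zmod (fun i => ((φ ^ i : ↥U) : lcf_Gal q) (x : PadicAlgCl q))]
    rfl

/-- **Units are norms from unramified extensions** (absolute form, against [UR-VAL]): for
unramified data `(θ, φ)` of order `n`, every unit `u` of `K_U` is `∏_{i<n} φ^i y` for a unit `y`
of `L = Ω ^ (ker θ)`. -/
theorem sun_unit_norm (hUV : spl_UrValStatement) (hU : lcf_IsOpen U)
    (hdat : spl_IsUnrData U n θ φ)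
    (u : (PadicAlgCl q)ˣ) (hu : ∀ g : ↥U, g • u = u) (hu1 : ‖(u : PadicAlgCl q)‖ = 1) :
    ∃ y : (PadicAlgCl q)ˣ, (∀ g : ↥U, θ g = 1 → g • y = y) ∧ ‖(y : PadicAlgCl q)‖ = 1 ∧
      u = ∏ i ∈ Finset.range n, φ ^ i • y := by
  obtain ⟨hθ, hinert, -, hφ⟩ := hdat
  obtain ⟨ϖ, hϖ⟩ := unr_abs_unif q U hU
  exact sun_unit_norm_of_disc (φ := φ) hU hθ hφ ϖ hϖ
    (fun x hx => hUV q U hU ϖ hϖ x (fun s hs => hx s (hinert s hs))) u hu hu1

/-- **[UNIT-NORM]** against [UR-VAL]. -/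
theorem sun_main : spl_UrValStatement → spl_UnitNormStatement := by
  intro hUV q _ U hU n _ θ φ hdat u hu hu1
  obtain ⟨y, hy, -, hprod⟩ := sun_unit_norm hUV hU hdat u hu hu1
  exact sym_norm_mpr hdat.1 hdat.2.2.2 hy hprod

/-- [UNIT-NORM] for an unramified datum in the sense of `InvLeaves.lean` is the same statement:
`lcf_IsUnrDatum U n θ φ ϖ` contains `spl_IsUnrData U n θ φ`. -/
theorem sun_unrData_of_smooth (hθ : lcf_Smooth₁ U θ)
    (hinert : ∀ s : ↥U, lcf_IsInert (s : lcf_Gal q) → θ s = 1) (hF : lcf_IsFrob U φ)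
    (hφ : θ φ = Multiplicative.ofAdd 1) : spl_IsUnrData U n θ φ :=
  ⟨hθ, hinert, hF, hφ⟩

end Main

end Fermat.Agent.S55
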