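/-
S55 (wave 5), LOCAL side, package [A8] = [SPLIT], leaf [UNIT-NORM], hypothesis-free form.

`sun_unitNorm : spl_UnitNormStatement`.

The only input of `SplUnitNorm.lean` was: a uniformizer of `K_U` generates the value group of
`L = Ω ^ (ker θ)`.  Here this is proved directly for unramified data `(θ, φ)`:
* `ker θ` is open, so it contains a Frobenius element `ψ` (`unr_abs_exists_frob`), acting on the
  residue field of `Ω` as `x ↦ x ^ N'`, `N' = N ^ f` the cardinality of the residue field of `L`;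
* `ψ⁻¹ φ ^ f` is inert, hence killed by `θ`, i.e. `n ∣ f`;
* if `φ ^ k` (`0 < k < n`) acted trivially on the residue field of `L`, all its `N ^ f` elements
  would be roots of `X ^ (N ^ k) - X`; so `ℤ/n` acts faithfully on the residue field of `L`;
* Dedekind independence (`unr_exists_trace_val`): every value of `L` is the value of a trace,
  which lies in `K_U`.
Owner: helper7.  Prefix `sun_`.
-/
import Fermat.Agent.S55.Local.SplUnitNorm
import Fermat.Agent.S55.UnrAbs4
import Fermat.Agent.S55.UnrTriv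
import Fermat.Agent.S55.UnrLFFrob

set_option autoImplicit false
set_option linter.style.haveILetI false
set_option linter.unusedSectionVars false

noncomputable section

namespace Fermat.Agent.S55

open groupCohomology

section Frob

theorem sun_norm_eq_of_val_eq {L : Type*} [NormedField L] [IsUltrametricDist L] (a b : L)
    (h : NormedField.valuation a = NormedField.valuation b) : ‖a‖ = ‖b‖ :=
  le_antisymm ((unr_normed_val_le_iff a b).1 h.le) ((unr_normed_val_le_iff b a).1 h.ge)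

variable {q : ℕ} [Fact q.Prime] {U : Subgroup (lcf_Gal q)}

theorem sun_norm_sub_le (x y : PadicAlgCl q) : ‖x - y‖ ≤ max ‖x‖ ‖y‖ := by
  rw [sub_eq_add_neg]
  exact (IsUltrametricDist.norm_add_le_max x (-y)).trans (by rw [norm_neg])

/-- The powers of a Frobenius element act as the powers of `x ↦ x ^ N` on the residue field. -/
theorem sun_frob_pow {φ : ↥U} (hφ : lcf_IsFrob U φ) (f : ℕ) (x : PadicAlgCl q) (hx : ‖x‖ ≤ 1) :
    ‖((φ ^ f : ↥U) : lcf_Gal q) x - x ^ (lcf_resCard U ^ f)‖ < 1 := by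
  induction f with
  | zero =>
    rw [pow_zero, pow_zero, pow_one]
    show ‖x - x‖ < 1
    rw [sub_self, norm_zero]
    exact one_pos
  | succ f ih =>
    set y : PadicAlgCl q := ((φ ^ f : ↥U) : lcf_Gal q) x with hy
    have hy1 : ‖y‖ ≤ 1 := by rw [hy, unr_abs_norm_map]; exact hx
    have e1 : ((φ ^ (f + 1) : ↥U) : lcf_Gal q) x = (φ : lcf_Gal q) y := by
      rw [pow_succ']
      rfl
    have e2 : x ^ (lcf_resCard U ^ (f + 1)) = (x ^ (lcf_resCard U ^ f)) ^ lcf_resCard U := by
      rw [pow_succ, pow_mul]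
    have e3 : (φ : lcf_Gal q) y - (x ^ (lcf_resCard U ^ f)) ^ lcf_resCard U
        = ((φ : lcf_Gal q) y - y ^ lcf_resCard U)
          + (y ^ lcf_resCard U - (x ^ (lcf_resCard U ^ f)) ^ lcf_resCard U) := by ring
    rw [e1, e2, e3]
    refine lt_of_le_of_lt (IsUltrametricDist.norm_add_le_max _ _) (max_lt (hφ y hy1) ?_)
    have hx' : ‖x ^ (lcf_resCard U ^ f)‖ ≤ 1 := by
      rw [norm_pow]
      exact pow_le_one₀ (norm_nonneg _) hx
    have := unr_val_pow_sub_pow_le (NormedField.valuation (K := PadicAlgCl q)) y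
      (x ^ (lcf_resCard U ^ f)) ((unr_normed_val_le_one_iff y).2 hy1)
      ((unr_normed_val_le_one_iff _).2 hx') (lcf_resCard U)
    rw [unr_normed_val_le_iff] at this
    exact lt_of_le_of_lt this ih

end Frob

section ResCard

/-- A finite field all of whose elements are roots of `X ^ m - X` has at most `m` elements. -/
theorem sun_card_le_of_pow_eq (M : Type*) [Field M] [Finite M] (m : ℕ) (hm : 1 < m)
    (h : ∀ z : M, z ^ m = z) : Nat.card M ≤ m := by
  classical
  haveI := Fintype.ofFinite M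
  rw [Nat.card_eq_fintype_card]
  have h0 : (Polynomial.X ^ m - Polynomial.X : Polynomial M) ≠ 0 :=
    FiniteField.X_pow_card_sub_X_ne_zero M hm
  have h1 := Polynomial.card_le_degree_of_subset_roots
    (p := (Polynomial.X ^ m - Polynomial.X : Polynomial M)) (Z := Finset.univ) (fun z _ => by
      rw [Polynomial.mem_roots h0, Polynomial.IsRoot.def, Polynomial.eval_sub,
        Polynomial.eval_pow, Polynomial.eval_X, h z, sub_self])
  rw [FiniteField.X_pow_card_sub_X_natDegree_eq M hm, Finset.card_univ] at h1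
  exact h1

/-- A finite field containing a finite field `k` has `#k ^ f` elements. -/
theorem sun_card_pow_of_ringHom {k l : Type*} [Field k] [Field l] [Finite k] [Finite l]
    (ρ : k →+* l) : ∃ f : ℕ, 0 < f ∧ Nat.card l = Nat.card k ^ f := by
  letI := ρ.toAlgebra
  exact ⟨Module.finrank k l, Module.finrank_pos, Module.natCard_eq_pow_finrank⟩

variable {q : ℕ} [Fact q.Prime]

theorem sun_isOpen_of_le {U V : Subgroup (lcf_Gal q)} (h : V ≤ U) (hV : lcf_IsOpen V) :
    lcf_IsOpen U := by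
  obtain ⟨E, hE, hEV⟩ := hV
  exact ⟨E, hE, hEV.trans h⟩

theorem sun_two_le_resCard {U : Subgroup (lcf_Gal q)} (hU : lcf_IsOpen U) :
    2 ≤ lcf_resCard U := by
  haveI := unr_abs_finite U hU
  haveI : lf_IsLocal ↥(IntermediateField.fixedField U) := lf_isLocal_intermediate _
  exact unr_resCard_ge_two ↥(IntermediateField.fixedField U)

/-- The residue field of `K_V` is an extension of the residue field of `K_U` (`V ≤ U`):
its cardinality is a power. -/
theorem sun_resCard_pow {U V : Subgroup (lcf_Gal q)} (h : V ≤ U) (hV : lcf_IsOpen V) :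
    ∃ f : ℕ, 0 < f ∧ lcf_resCard V = lcf_resCard U ^ f := by
  have hU : lcf_IsOpen U := sun_isOpen_of_le h hV
  haveI := unr_abs_finite U hU
  haveI := unr_abs_finite V hV
  haveI hK : lf_IsLocal ↥(IntermediateField.fixedField U) := lf_isLocal_intermediate _
  haveI hL : lf_IsLocal ↥(IntermediateField.fixedField V) := lf_isLocal_intermediate _
  have hle : IntermediateField.fixedField U ≤ IntermediateField.fixedField V :=
    IntermediateField.fixedField_antitone h
  letI : Algebra ↥(IntermediateField.fixedField U) ↥(IntermediateField.fixedField V) :=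
    (IntermediateField.inclusion hle).toRingHom.toAlgebra
  have hn : ∀ k : ↥(IntermediateField.fixedField U),
      ‖algebraMap ↥(IntermediateField.fixedField U) ↥(IntermediateField.fixedField V) k‖ = ‖k‖ :=
    fun k => rfl
  haveI := unr_isLocalHom_mapInt hn
  haveI : Finite (IsLocalRing.ResidueField (NormedField.valuation
        (K := ↥(IntermediateField.fixedField U))).valuationSubring) :=
    unr_lf_finite_residue' _
  haveI : Finite (IsLocalRing.ResidueField (NormedField.valuation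
        (K := ↥(IntermediateField.fixedField V))).valuationSubring) :=
    unr_lf_finite_residue' _
  exact sun_card_pow_of_ringHom (IsLocalRing.ResidueField.map (unr_mapInt hn))

/-- If all integers of `K_V` satisfy `x ^ m ≡ x`, the residue field of `K_V` has at most `m`
elements. -/
theorem sun_resCard_le {V : Subgroup (lcf_Gal q)} (hV : lcf_IsOpen V) (m : ℕ) (hm : 1 < m)
    (h : ∀ x : PadicAlgCl q, x ∈ IntermediateField.fixedField V → ‖x‖ ≤ 1 → ‖x ^ m - x‖ < 1) :
    lcf_resCard V ≤ m := by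
  haveI := unr_abs_finite V hV
  haveI hL : lf_IsLocal ↥(IntermediateField.fixedField V) := lf_isLocal_intermediate _
  haveI : Finite (IsLocalRing.ResidueField (NormedField.valuation
        (K := ↥(IntermediateField.fixedField V))).valuationSubring) :=
    unr_lf_finite_residue' _
  refine sun_card_le_of_pow_eq _ m hm (fun z => ?_)
  obtain ⟨x, rfl⟩ := IsLocalRing.residue_surjective z
  rw [← map_pow, ← sub_eq_zero, ← map_sub, unr_residue_eq_zero_iff, unr_normed_val_lt_one_iff]
  exact h x.1.1 x.1.2 ((unr_normed_val_le_one_iff _).1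
    ((Valuation.mem_valuationSubring_iff _ _).1 x.2))

end ResCard

section Faithful

variable {q : ℕ} [Fact q.Prime] {U : Subgroup (lcf_Gal q)} {n : ℕ} [NeZero n]
  {θ : ↥U →* Multiplicative (ZMod n)} {φ : ↥U}

/-- The residue degree of `L = Ω ^ (ker θ)` over `K_U` is divisible by `n`: if `ψ` is a Frobenius
element of `ker θ`, then `ψ⁻¹ φ ^ f` is inert. -/
theorem sun_dvd_of_resCard (hU : lcf_IsOpen U) (hdat : spl_IsUnrData U n θ φ) (f : ℕ)
    (hf : lcf_resCard (sym_ker θ) = lcf_resCard U ^ f) : n ∣ f := by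
  obtain ⟨hθ, hinert, hF, hφ⟩ := hdat
  have hV : lcf_IsOpen (sym_ker θ) := sym_isOpen_ker θ hU hθ
  obtain ⟨ψ, hψ⟩ := unr_abs_exists_frob (sym_ker θ) hV
  set ψU : ↥U := Subgroup.inclusion (sym_ker_le θ) ψ with hψU
  have hs : lcf_IsInert ((ψU⁻¹ * φ ^ f : ↥U) : lcf_Gal q) := by
    intro x hx
    have e1 : ((ψU⁻¹ * φ ^ f : ↥U) : lcf_Gal q) x
        = (ψ : lcf_Gal q)⁻¹ (((φ ^ f : ↥U) : lcf_Gal q) x) := rfl
    have e2 : ‖(ψ : lcf_Gal q)⁻¹ (((φ ^ f : ↥U) : lcf_Gal q) x) - x‖
        = ‖((φ ^ f : ↥U) : lcf_Gal q) x - (ψ : lcf_Gal q) x‖ := by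
      rw [← unr_abs_norm_map (ψ : lcf_Gal q), map_sub, ← AlgEquiv.mul_apply, mul_inv_cancel,
        AlgEquiv.one_apply]
    have e3 : ((φ ^ f : ↥U) : lcf_Gal q) x - (ψ : lcf_Gal q) x
        = (((φ ^ f : ↥U) : lcf_Gal q) x - x ^ (lcf_resCard U ^ f))
          - ((ψ : lcf_Gal q) x - x ^ lcf_resCard (sym_ker θ)) := by
      rw [hf]; ring
    rw [e1, e2, e3]
    refine lt_of_le_of_lt (sun_norm_sub_le _ _) (max_lt ?_ ?_)
    · exact sun_frob_pow hF f x hx
    · exact hψ x hx
  have h1 := hinert _ hs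
  rw [map_mul, map_inv, hψU, sym_theta_inclusion θ ψ, inv_one, one_mul,
    sym_theta_pow θ φ hφ] at h1
  exact (ZMod.natCast_eq_zero_iff f n).1 (Multiplicative.ofAdd.injective h1)

/-- `ℤ/n` acts faithfully on the residue field of `L = Ω ^ (ker θ)`. -/
theorem sun_faithful_res (hU : lcf_IsOpen U) (hdat : spl_IsUnrData U n θ φ)
    (a : Multiplicative (ZMod n)) (ha : a ≠ 1) :
    ∃ x : PadicAlgCl q, x ∈ sun_L θ ∧ ‖x‖ ≤ 1 ∧
      ‖((φ ^ (Multiplicative.toAdd a).val : ↥U) : lcf_Gal q) x - x‖ = 1 := by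
  have hV : lcf_IsOpen (sym_ker θ) := sym_isOpen_ker θ hU hdat.1
  obtain ⟨f, hf0, hf⟩ := sun_resCard_pow (sym_ker_le θ) hV
  have hnf : n ∣ f := sun_dvd_of_resCard hU hdat f hf
  have hN2 := sun_two_le_resCard hU
  set k : ℕ := (Multiplicative.toAdd a).val with hk
  have hk0 : 0 < k := by
    rw [hk, ZMod.val_pos]
    intro h0
    exact ha (Multiplicative.toAdd.injective h0)
  have hkn : k < n := ZMod.val_lt _
  have hkf : k < f := lt_of_lt_of_le hkn (Nat.le_of_dvd hf0 hnf)
  by_contra hcon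
  push Not at hcon
  have hle : lcf_resCard (sym_ker θ) ≤ lcf_resCard U ^ k := by
    refine sun_resCard_le hV _ (Nat.one_lt_pow hk0.ne' hN2) (fun x hxL hx => ?_)
    have h1 : ‖((φ ^ k : ↥U) : lcf_Gal q) x - x‖ < 1 := by
      refine lt_of_le_of_ne ?_ (hcon x hxL hx)
      refine le_trans (sun_norm_sub_le _ _) (max_le ?_ hx)
      rw [unr_abs_norm_map]
      exact hx
    have e : x ^ (lcf_resCard U ^ k) - x
        = (((φ ^ k : ↥U) : lcf_Gal q) x - x)
          - (((φ ^ k : ↥U) : lcf_Gal q) x - x ^ (lcf_resCard U ^ k)) := by ring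
    rw [e]
    exact lt_of_le_of_lt (sun_norm_sub_le _ _)
      (max_lt h1 (sun_frob_pow hdat.2.2.1 k x hx))
  rw [hf] at hle
  exact absurd hle (not_le.2 (Nat.pow_lt_pow_right hN2 hkf))

/-- **The value group of `L = Ω ^ (ker θ)`** is generated by a uniformizer of `K_U`
([UR-VAL] at the finite unramified level cut out by `θ`). -/
theorem sun_disc (hU : lcf_IsOpen U) (hdat : spl_IsUnrData U n θ φ)
    (ϖ : (PadicAlgCl q)ˣ) (hϖ : lcf_IsUnif U ϖ)
    (x : (PadicAlgCl q)ˣ) (hx : ∀ g : ↥U, θ g = 1 → g • x = x) :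
    ∃ k : ℤ, ‖(x : PadicAlgCl q)‖ = ‖(ϖ : PadicAlgCl q)‖ ^ k := by
  classical
  have hφ := hdat.2.2.2
  haveI hfin : FiniteDimensional ℚ_[q] ↥(sun_L θ) :=
    unr_abs_finite (sym_ker θ) (sym_isOpen_ker θ hU hdat.1)
  haveI hloc : lf_IsLocal ↥(sun_L θ) := lf_isLocal_intermediate _
  letI := sun_act θ φ hφ
  have hxL : (x : PadicAlgCl q) ∈ sun_L θ := by
    rw [sun_mem_L]
    intro g hg
    exact congrArg (fun t : (PadicAlgCl q)ˣ => (t : PadicAlgCl q)) (hx g hg)
  have hinv : ∀ (g : Multiplicative (ZMod n)) (y : ↥(sun_L θ)),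
      NormedField.valuation (g • y) = NormedField.valuation y := by
    intro g y
    rw [NormedField.valuation_apply, NormedField.valuation_apply, ← NNReal.coe_inj,
      coe_nnnorm, coe_nnnorm]
    show ‖((g • y : ↥(sun_L θ)) : PadicAlgCl q)‖ = ‖(y : PadicAlgCl q)‖
    rw [sun_act_coe]
    exact unr_abs_norm_map _ _
  have hfaith : ∀ g : Multiplicative (ZMod n), g ≠ 1 → ∃ y : ↥(sun_L θ),
      NormedField.valuation y ≤ 1 ∧ NormedField.valuation (g • y - y) = 1 := by
    intro g hg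
    obtain ⟨y, hyL, hy1, hy⟩ := sun_faithful_res hU hdat g hg
    exact ⟨⟨y, hyL⟩, (unr_normed_val_le_one_iff _).2 hy1, (unr_normed_val_eq_one_iff _).2 hy⟩
  have hx0 : (⟨(x : PadicAlgCl q), hxL⟩ : ↥(sun_L θ)) ≠ 0 := fun h =>
    x.ne_zero (congrArg Subtype.val h)
  obtain ⟨c, -, hc⟩ := unr_exists_trace_val (NormedField.valuation (K := ↥(sun_L θ))) hinv hfaith
    ⟨(x : PadicAlgCl q), hxL⟩ hx0
  obtain ⟨t, ht⟩ : ∃ t : ↥(sun_L θ),
      t = ∑ g : Multiplicative (ZMod n), g • (c * ⟨(x : PadicAlgCl q), hxL⟩) := ⟨_, rfl⟩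
  rw [← ht] at hc
  have hnorm : ‖(t : PadicAlgCl q)‖ = ‖(x : PadicAlgCl q)‖ := sun_norm_eq_of_val_eq _ _ hc
  have ht0 : (t : PadicAlgCl q) ≠ 0 := by
    intro h
    rw [h, norm_zero] at hnorm
    exact x.ne_zero (norm_eq_zero.1 hnorm.symm)
  have htfix : ∀ g : Multiplicative (ZMod n), g • t = t := fun g => by
    rw [ht]
    exact unr_smul_sum _ g
  obtain ⟨k, hk⟩ := hϖ.2.2 (Units.mk0 (t : PadicAlgCl q) ht0) (fun g => by
    apply Units.ext
    rw [unr_abs_smul_units_val]
    show (g : lcf_Gal q) (t : PadicAlgCl q) = (t : PadicAlgCl q)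
    rw [sun_apply_eq_pow hφ t.2 g]
    exact congrArg (fun y : ↥(sun_L θ) => (y : PadicAlgCl q)) (htfix (θ g)))
  exact ⟨k, by rw [← hnorm]; exact hk⟩

end Faithful

section Final

variable {q : ℕ} [Fact q.Prime] {U : Subgroup (lcf_Gal q)} {n : ℕ} [NeZero n]
  {θ : ↥U →* Multiplicative (ZMod n)} {φ : ↥U}

/-- **Units are norms from unramified extensions** (absolute form, hypothesis-free): for
unramified data `(θ, φ)` of order `n`, every unit `u` of `K_U` is `∏_{i<n} φ^i y` for a unit `y`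
of `L = Ω ^ (ker θ)`. -/
theorem sun_unit_norm_free (hU : lcf_IsOpen U) (hdat : spl_IsUnrData U n θ φ)
    (u : (PadicAlgCl q)ˣ) (hu : ∀ g : ↥U, g • u = u) (hu1 : ‖(u : PadicAlgCl q)‖ = 1) :
    ∃ y : (PadicAlgCl q)ˣ, (∀ g : ↥U, θ g = 1 → g • y = y) ∧ ‖(y : PadicAlgCl q)‖ = 1 ∧
      u = ∏ i ∈ Finset.range n, φ ^ i • y := by
  obtain ⟨ϖ, hϖ⟩ := unr_abs_unif q U hU
  exact sun_unit_norm_of_disc (φ := φ) hU hdat.1 hdat.2.2.2 ϖ hϖ
    (fun x hx => sun_disc hU hdat ϖ hϖ x hx) u hu hu1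

/-- **[UNIT-NORM]**, hypothesis-free. -/
theorem sun_unitNorm : spl_UnitNormStatement := by
  intro q _ U hU n _ θ φ hdat u hu hu1
  obtain ⟨y, hy, -, hprod⟩ := sun_unit_norm_free hU hdat u hu hu1
  exact sym_norm_mpr hdat.1 hdat.2.2.2 hy hprod

end Final

end Fermat.Agent.S55
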