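/-
S55 (wave 5), LOCAL side: the two LOCAL FORMULAS for [R-CYC] in Frobenius form, hypothesis-free.
Owner: helper11.  Prefix `tame_`.

* `tame_inv_unr_frob` (unramified place): `θ` smooth and trivial on inertia, `φ` a Frobenius,
  `‖a‖ = ‖ϖ‖ ^ j`  ⟹  `inv (a ^ δθ) = j θ(φ) / n`;
* `tame_inv_tame` (tamely ramified place, `n` odd and prime to `q`, `μ_n ⊂ K_U`): `θ` the Kummer
  character of `α`, `π = α ^ n` a uniformizer, `‖a‖ = ‖π‖ ^ j`,
  `ζ ^ k ≡ (a / π ^ j) ^ ((N - 1) / n)`  ⟹  `inv (a ^ δθ) = - k / n`.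
-/
import Fermat.Agent.S55.Local.Tame
import Fermat.Agent.S55.Local.SplUnitNorm
import Fermat.Agent.S55.Local.SplUrVal
import Fermat.Agent.S55.Local.SplUnrUniq
import Fermat.Agent.S55.Local.UnrInjAux

set_option autoImplicit false
set_option linter.unusedSectionVars false

noncomputable section

namespace Fermat.Agent.S55

open groupCohomology

section Unr

variable {q : ℕ} [Fact q.Prime] {U : Subgroup (lcf_Gal q)} {n : ℕ} [NeZero n]
  {inv : lcf_InvType}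

/-- **[UNIT-NORM]**, hypothesis-free. -/
theorem tame_unitNorm : spl_UnitNormStatement := sun_main unr_urVal_main

/-- Two Frobenius elements have the same value under a smooth character killing inertia. -/
theorem tame_frob_eq {X : Type*} [Group X] (χ : ↥U →* X)
    (hin : ∀ s : ↥U, lcf_IsInert (s : lcf_Gal q) → χ s = 1) {φ φ' : ↥U}
    (hφ : lcf_IsFrob U φ) (hφ' : lcf_IsFrob U φ') : χ φ = χ φ' := by
  have h1 : lcf_IsInert (((φ'⁻¹ * φ : ↥U)) : lcf_Gal q) :=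
    uinj_inert (φ : lcf_Gal q) (φ' : lcf_Gal q) (lcf_resCard U) hφ hφ'
  have h2 := hin _ h1
  rw [map_mul, map_inv, inv_mul_eq_one] at h2
  exact h2.symm

/-- **The unramified formula, Frobenius form**: for a smooth character `θ : U → ℤ/n` which is
trivial on inertia, a Frobenius element `φ`, a uniformizer `ϖ` and a `U`-fixed `a` with
`‖a‖ = ‖ϖ‖ ^ j`, the symbol `(a, θ)` has invariant `j θ(φ) / n`. -/
theorem tame_inv_unr_frob (hinv : lcf_IsInvSystem inv) (hU : lcf_IsOpen U)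
    {θ : ↥U →* Multiplicative (ZMod n)} (hθ : lcf_Smooth₁ U θ)
    (hin : ∀ s : ↥U, lcf_IsInert (s : lcf_Gal q) → θ s = 1) {φ : ↥U} (hφ : lcf_IsFrob U φ)
    {ϖ : (PadicAlgCl q)ˣ} (hϖ : lcf_IsUnif U ϖ) {a : (PadicAlgCl q)ˣ}
    (ha : ∀ g : ↥U, g • a = a) (j : ℤ)
    (haj : ‖(a : PadicAlgCl q)‖ = ‖(ϖ : PadicAlgCl q)‖ ^ j) :
    inv q U (lcf_unrCoc U n θ a) = lcf_qz ((j : ℚ) * (sym_t θ φ : ℚ) / (n : ℚ)) := by
  obtain ⟨θ₁, φ₁, hθ₁, hin₁, hφ₁, h11⟩ := unr_abs_unrChar q U hU n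
  have h1φ : θ₁ φ = Multiplicative.ofAdd 1 := by
    rw [tame_frob_eq θ₁ hin₁ hφ hφ₁, h11]
  have hk : lcf_Smooth₁ U (θ₁ ^ sym_t θ φ) := by
    obtain ⟨E, hE, h⟩ := hθ₁
    exact ⟨E, hE, fun g s hs => by
      show (θ₁ ^ sym_t θ φ) (g * s) = (θ₁ ^ sym_t θ φ) g
      rw [MonoidHom.pow_apply, MonoidHom.pow_apply, h g s hs]⟩
  have heq : θ = θ₁ ^ sym_t θ φ := by
    refine unr_abs_unrChar_unique U hU θ (θ₁ ^ sym_t θ φ) φ hθ hk hin (fun s hs => ?_) hφ ?_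
    · rw [MonoidHom.pow_apply, hin₁ s hs, one_pow]
    · rw [MonoidHom.pow_apply, h1φ, ← ofAdd_nsmul, nsmul_one]
      unfold sym_t
      rw [ZMod.natCast_zmod_val]
      rfl
  conv_lhs => rw [heq]
  exact tame_inv_unr tame_unitNorm hinv hU ⟨hθ₁, hin₁, hφ, h1φ⟩ hϖ ha j haj _

end Unr

section TameF

variable {q : ℕ} [Fact q.Prime] {U : Subgroup (lcf_Gal q)} {n : ℕ} [NeZero n]
  {inv : lcf_InvType} {ζ α : (PadicAlgCl q)ˣ} {θ : ↥U →* Multiplicative (ZMod n)}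

theorem tame_exists_root (n : ℕ) [NeZero n] (a : (PadicAlgCl q)ˣ) :
    ∃ α : (PadicAlgCl q)ˣ, α ^ n = a := by
  have hn : 0 < n := Nat.pos_of_ne_zero (NeZero.ne n)
  obtain ⟨z, hz⟩ := IsAlgClosed.exists_pow_nat_eq (a : PadicAlgCl q) hn
  have hz0 : z ≠ 0 := by
    rintro rfl
    rw [zero_pow hn.ne'] at hz
    exact a.ne_zero hz.symm
  exact ⟨Units.mk0 z hz0, Units.ext hz⟩

/-- `n` divides `N - 1` when `μ_n ⊂ K_U` (`n` prime to `q`). -/
theorem tame_dvd_resCard_sub_one (hnq : ‖(n : PadicAlgCl q)‖ = 1) (hζ : IsPrimitiveRoot ζ n)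
    (hζU : ∀ g : ↥U, g • ζ = ζ) {φ : ↥U} (hφ : lcf_IsFrob U φ) (hN : 0 < lcf_resCard U) :
    n ∣ lcf_resCard U - 1 := by
  have h1 := unr_abs_frob_root U φ hφ n hnq (ζ : PadicAlgCl q)
    (by rw [← Units.val_pow_eq_pow_val, hζ.pow_eq_one, Units.val_one])
  have h2 : (φ : lcf_Gal q) (ζ : PadicAlgCl q) = ζ := congrArg Units.val (hζU φ)
  rw [h2] at h1
  have h3 : ζ ^ lcf_resCard U = ζ ^ 1 := by
    apply Units.ext
    rw [Units.val_pow_eq_pow_val, ← h1, pow_one]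
  have h4 : ζ ^ (lcf_resCard U - 1) = 1 := by
    have h5 : ζ ^ (lcf_resCard U - 1) * ζ ^ 1 = ζ ^ 1 := by
      rw [← pow_add, Nat.sub_add_cancel hN, h3]
    exact mul_eq_right.1 h5
  exact (hζ.pow_eq_one_iff_dvd _).1 h4

/-- **The tame formula, Frobenius form** (`n` odd and prime to `q`, `μ_n ⊂ K_U`): let `θ` be
the Kummer character of `α`, where `π = α ^ n` is a uniformizer of `K_U`.  For a `U`-fixed `a`
with `‖a‖ = ‖π‖ ^ j` and `k ∈ ℤ/n` with `ζ ^ k ≡ (a / π ^ j) ^ ((N - 1) / n)` modulo the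
maximal ideal, the symbol `(a, θ)` has invariant `- k / n`. -/
theorem tame_inv_tame (hinv : lcf_IsInvSystem inv) (hU : lcf_IsOpen U) (hn : Odd n)
    (hnq : ‖(n : PadicAlgCl q)‖ = 1) (hζ : IsPrimitiveRoot ζ n) (hζU : ∀ g : ↥U, g • ζ = ζ)
    (hα : tame_IsKum U n ζ α θ) (hunif : lcf_IsUnif U (α ^ n)) {φ : ↥U}
    (hφ : lcf_IsFrob U φ) (hN : 0 < lcf_resCard U) {a : (PadicAlgCl q)ˣ}
    (ha : ∀ g : ↥U, g • a = a) (j : ℤ)
    (haj : ‖(a : PadicAlgCl q)‖ = ‖((α ^ n : (PadicAlgCl q)ˣ) : PadicAlgCl q)‖ ^ j) (k : ZMod n)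
    (hk : ‖(ζ : PadicAlgCl q) ^ k.val -
      ((a / (α ^ n) ^ j : (PadicAlgCl q)ˣ) : PadicAlgCl q) ^ ((lcf_resCard U - 1) / n)‖ < 1) :
    inv q U (lcf_unrCoc U n θ a) = - lcf_qz ((k.val : ℚ) / (n : ℚ)) := by
  have hπU : ∀ g : ↥U, g • α ^ n = α ^ n := tame_isKum_pow_fixed hζ hα
  have hπj : ∀ g : ↥U, g • (α ^ n) ^ j = (α ^ n) ^ j := fun g => by rw [smul_zpow', hπU]
  set u : (PadicAlgCl q)ˣ := a / (α ^ n) ^ j with hu
  have huU : ∀ g : ↥U, g • u = u := fun g => by rw [hu, smul_div', ha, hπj]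
  have hu1 : ‖(u : PadicAlgCl q)‖ = 1 := by
    rw [hu, Units.val_div_eq_div_val, norm_div, haj, Units.val_zpow_eq_zpow_val, norm_zpow]
    exact div_self (zpow_ne_zero _ (norm_ne_zero_iff.2 (α ^ n).ne_zero))
  obtain ⟨β, hβ⟩ := tame_exists_root n u
  have hβU : ∀ g : ↥U, g • β ^ n = β ^ n := fun g => by rw [hβ, huU]
  have hβK := tame_kum_isKum hζ hζU β hβU
  have hβ1 : ‖(β : PadicAlgCl q)‖ = 1 := by
    have h1 : ‖(β : PadicAlgCl q)‖ ^ n = 1 := by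
      rw [← norm_pow, ← Units.val_pow_eq_pow_val, hβ, hu1]
    exact (pow_eq_one_iff_of_nonneg (norm_nonneg _) (NeZero.ne n)).1 h1
  have hau : a = (α ^ n) ^ j * β ^ n := by rw [hβ, hu, mul_div_cancel]
  have hdvd := tame_dvd_resCard_sub_one hnq hζ hζU hφ hN
  -- the value of the Kummer character of `u` at Frobenius
  have hfrob := tame_kum_frob hβK hβ1 φ hφ hN
  have hpow : (β : PadicAlgCl q) ^ (lcf_resCard U - 1) =
      (u : PadicAlgCl q) ^ ((lcf_resCard U - 1) / n) := by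
    conv_lhs => rw [← Nat.mul_div_cancel' hdvd, pow_mul, ← Units.val_pow_eq_pow_val, hβ]
  rw [hpow] at hfrob
  have hzz : ‖(ζ : PadicAlgCl q) ^ sym_t (tame_kum hζ hζU β hβU) φ - (ζ : PadicAlgCl q) ^ k.val‖
      < 1 := by
    have e : (ζ : PadicAlgCl q) ^ sym_t (tame_kum hζ hζU β hβU) φ - (ζ : PadicAlgCl q) ^ k.val =
        ((ζ : PadicAlgCl q) ^ sym_t (tame_kum hζ hζU β hβU) φ -
          (u : PadicAlgCl q) ^ ((lcf_resCard U - 1) / n)) +
        -((ζ : PadicAlgCl q) ^ k.val - (u : PadicAlgCl q) ^ ((lcf_resCard U - 1) / n)) := by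
      ring
    rw [e]
    refine lt_of_le_of_lt (IsUltrametricDist.norm_add_le_max _ _) (max_lt hfrob ?_)
    rw [norm_neg]
    exact hk
  have hζn : ∀ i : ℕ, ((ζ : PadicAlgCl q) ^ i) ^ n = 1 := fun i => by
    rw [← pow_mul, mul_comm, pow_mul, ← Units.val_pow_eq_pow_val, hζ.pow_eq_one, Units.val_one,
      one_pow]
  have heq := unr_abs_root_eq n hnq _ _ (hζn _) (hζn _) hzz
  have hval : sym_t (tame_kum hζ hζU β hβU) φ = k.val := by
    have h5 : ζ ^ sym_t (tame_kum hζ hζU β hβU) φ = ζ ^ k.val := by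
      apply Units.ext
      rw [Units.val_pow_eq_pow_val, Units.val_pow_eq_pow_val, heq]
    exact congrArg ZMod.val (tame_zeta_pow_val_inj hζ h5)
  rw [hau, tame_inv_formula hinv hU hn hζ hζU hα hβK j,
    tame_inv_unr_frob hinv hU (tame_isKum_smooth hζ hβK)
      (fun s hs => tame_kum_inert hnq hζ hβK hβ1 s hs) hφ hunif hπU 1 (by rw [zpow_one]),
    hval]
  congr 2
  push_cast
  ring

end TameF

end Fermat.Agent.S55
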