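/-
S55 (wave 5), LOCAL side, package [R-CYC]: the two local leaves [RC-UNR] and [RC-TAME] of
`Global/RecCycDefs.lean`, VERBATIM and hypothesis-free.  Owner: helper11.  Prefix `tame_`.

* `tame_unr_main  : rcy_UnrStatement`   (from `tame_inv_unr_frob`);
* `tame_tame_main : rcy_TameStatement`  (from `tame_inv_tame`);
* `tame_main : rcy_UnrStatement → rcy_TameStatement` (the name used by the assembly).
-/
import Fermat.Agent.S55.Local.TameLoc
import Fermat.Agent.S55.Local.SplUnitNormFree
import Fermat.Agent.S55.Global.RecCycDefs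

set_option autoImplicit false
set_option linter.unusedSectionVars false

noncomputable section

namespace Fermat.Agent.S55

open groupCohomology

/-- **[RC-UNR]**, hypothesis-free: the unramified symbol. -/
theorem tame_unr_main : rcy_UnrStatement := by
  intro inv hinv q _ U hU n _ θ φ ϖ a j hθ hin hφ hϖ ha haj
  rw [tame_inv_unr_frob hinv hU hθ hin hφ hϖ ha j haj]
  congr 1
  unfold sym_t
  push_cast
  rfl

/-- `lcf_qz` only depends on the numerator modulo the denominator. -/
theorem tame_qz_natCast_mod (n : ℕ) [NeZero n] (t : ℕ) :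
    lcf_qz ((((t : ZMod n).val : ℕ) : ℚ) / (n : ℚ)) = lcf_qz ((t : ℚ) / (n : ℚ)) := by
  have hn : (n : ℚ) ≠ 0 := Nat.cast_ne_zero.2 (NeZero.ne n)
  rw [ZMod.val_natCast]
  have h1 : (t : ℚ) = ((t % n : ℕ) : ℚ) + (n : ℚ) * ((t / n : ℕ) : ℚ) := by
    exact_mod_cast (Nat.mod_add_div t n).symm
  have h2 : (t : ℚ) / (n : ℚ) = ((t % n : ℕ) : ℚ) / (n : ℚ) + ((t / n : ℕ) : ℚ) := by
    rw [h1]
    field_simp
  rw [h2, map_add, linv_qz_natCast, add_zero]

/-- **[RC-TAME]**, hypothesis-free: the tame symbol. -/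
theorem tame_tame_main : rcy_TameStatement := by
  intro inv hinv q _ U hU n _ hn hnq ζ β a θ j t hζ hζU hβ hunif ha haj hk
  have hq : q.Prime := Fact.out
  obtain ⟨φ, hφ⟩ := unr_abs_exists_frob U hU
  have hN : 0 < lcf_resCard U := lt_of_lt_of_le (by norm_num) (sun_two_le_resCard hU)
  have hnq' : ‖(n : PadicAlgCl q)‖ = 1 := by
    have h1 : (n : PadicAlgCl q) = algebraMap ℚ_[q] (PadicAlgCl q) (n : ℚ_[q]) := by
      rw [map_natCast]
    rw [h1, PadicAlgCl.norm_extends, Padic.norm_natCast_eq_one_iff]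
    exact hnq.symm
  have hζΩ : (ζ : PadicAlgCl q) ^ n = 1 := by
    have := hζ.pow_eq_one
    rw [← Units.val_pow_eq_pow_val, this, Units.val_one]
  have hpow : (ζ : PadicAlgCl q) ^ (t : ZMod n).val = ((ζ ^ t : (PadicAlgCl q)ˣ) : PadicAlgCl q) := by
    rw [ZMod.val_natCast, Units.val_pow_eq_pow_val]
    conv_rhs => rw [← Nat.mod_add_div t n]
    rw [pow_add, pow_mul, hζΩ, one_pow, mul_one]
  have hk' : ‖(ζ : PadicAlgCl q) ^ (t : ZMod n).val -
      ((a / (β ^ n) ^ j : (PadicAlgCl q)ˣ) : PadicAlgCl q) ^ ((lcf_resCard U - 1) / n)‖ < 1 := by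
    rw [hpow, norm_sub_rev, ← Units.val_pow_eq_pow_val]
    exact hk
  rw [tame_inv_tame hinv hU hn hnq' hζ hζU hβ hunif hφ hN ha j haj (t : ZMod n) hk',
    tame_qz_natCast_mod, neg_div, map_neg]

/-- **[RC-TAME]** in the form asked for by the assembly. -/
theorem tame_main : rcy_UnrStatement → rcy_TameStatement := fun _ => tame_tame_main

example : rcy_UnrStatement := tame_unr_main
example : rcy_TameStatement := tame_tame_main

end Fermat.Agent.S55
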