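/-
S55 (fifth wave), GLOBAL side, package [K-EX], local leaf [KEX-TAME] (helper23).
Prefix `kxt_`.

  theorem kxt_main : kex_TameStatement

Route: `θ` := the character `t` as a `MonoidHom`; the Kummer exponent `η` of `β` is additive and
smooth; `lv11_key` (helper3): `ζ ^ (t ∪ η) / (β ^ p) ^ δθ` is a smooth coboundary, so
`inv (ζ ^ (t ∪ η)) = inv ((β ^ p) ^ δθ)`; `β ^ p = q ^ n · u`, `u` a `U`-fixed unit;
`inv (u ^ δθ) = 0` by the unramified formula [RC-UNR] (`tame_unr_main`, helper11) with `j = 0`;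
bilinearity (`tame_inv_mul_left`, `tame_inv_zpow_left`).
-/
import Mathlib
import Fermat.Agent.S55.Global.KExArtDefs
import Fermat.Agent.S55.Local.V11
import Fermat.Agent.S55.Local.Tame
import Fermat.Agent.S55.Local.TameMain
import Fermat.Agent.S55.Local.Unif
import Fermat.Agent.S55.UnrAbs4

set_option autoImplicit false
set_option linter.style.haveILetI false

namespace Fermat.Agent.S55

open groupCohomology

noncomputable section

section

variable {q : ℕ} [Fact q.Prime] {p : ℕ} [Fact p.Prime] {U : Subgroup (lcf_Gal q)}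

/-- A homomorphism `U → ZMod p` as a `MonoidHom`. -/
def kxt_hom (t : ↥U → ZMod p) (ht : kl_IsHom t) : ↥U →* Multiplicative (ZMod p) where
  toFun g := Multiplicative.ofAdd (t g)
  map_one' := by
    have h := ht 1 1
    rw [mul_one] at h
    have h0 : t 1 = 0 := by
      have := congrArg (fun x => x - t 1) h
      simpa using this.symm
    rw [h0]
    rfl
  map_mul' g h := by
    rw [ht g h]
    rfl

theorem kxt_hom_toAdd (t : ↥U → ZMod p) (ht : kl_IsHom t) (g : ↥U) :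
    Multiplicative.toAdd (kxt_hom t ht g) = t g := rfl

theorem kxt_hom_smooth (t : ↥U → ZMod p) (ht : kl_IsHom t) (hs : lcf_Smooth₁ U t) :
    lcf_Smooth₁ U (kxt_hom t ht) := by
  obtain ⟨E, hE, h⟩ := hs
  exact ⟨E, hE, fun g s hsE => by
    show Multiplicative.ofAdd (t (g * s)) = Multiplicative.ofAdd (t g)
    rw [h g s hsE]⟩

/-- The Kummer exponent is additive. -/
theorem kxt_kum_add {ζ β : (PadicAlgCl q)ˣ} (hζ : IsPrimitiveRoot ζ p)
    (hζU : ∀ g : ↥U, g • ζ = ζ) (η : ↥U → ZMod p)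
    (hβ : ∀ τ : ↥U, τ • β = ζ ^ (η τ).val * β) : kl_IsHom η := by
  intro g h
  have h1 : (g * h) • β = ζ ^ (η h).val * (ζ ^ (η g).val * β) := by
    rw [mul_smul, hβ h, smul_mul', smul_pow', hζU, hβ g]
  rw [hβ (g * h), ← mul_assoc] at h1
  have h2 : ζ ^ (η (g * h)).val = ζ ^ (η g + η h).val := by
    rw [tame_zeta_pow_val_add hζ, mul_right_cancel h1, mul_comm]
  exact tame_zeta_pow_val_inj hζ h2

theorem kxt_qLoc_smul (g : ↥U) : g • kex_qLoc q = kex_qLoc q := by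
  apply Units.ext
  show (g : lcf_Gal q) ((q : ℕ) : PadicAlgCl q) = ((q : ℕ) : PadicAlgCl q)
  rw [map_natCast]

theorem kxt_qLoc_val : ((kex_qLoc q : (PadicAlgCl q)ˣ) : PadicAlgCl q) = ((q : ℕ) : PadicAlgCl q) :=
  rfl

end

/-- **[KEX-TAME]** -/
theorem kxt_main : kex_TameStatement := by
  intro inv hinv q _ p _ hp2 U hU ζ hζ hζU t ht hts htunr η β hβ n hn
  have hζp : ζ ^ p = 1 := hζ.pow_eq_one
  have hη : kl_IsHom η := kxt_kum_add hζ hζU η hβ
  have hθs : lcf_Smooth₁ U (kxt_hom t ht) := kxt_hom_smooth t ht hts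
  have hKum : tame_IsKum U p ζ β (kxt_hom η hη) := fun g => hβ g
  have hηs' : lcf_Smooth₁ U (kxt_hom η hη) := tame_isKum_smooth hζ hKum
  have hηs : lcf_Smooth₁ U η := by
    obtain ⟨E, hE, h⟩ := hηs'
    exact ⟨E, hE, fun g s hsE => Multiplicative.ofAdd.injective (h g s hsE)⟩
  have hβU : ∀ g : ↥U, g • β ^ p = β ^ p := tame_isKum_pow_fixed hζ hKum
  -- the V11 computation
  have hcob : lcf_IsCob U ((fun x : ↥U × ↥U =>
      ζ ^ (Multiplicative.toAdd (kxt_hom t ht x.1) * η x.2).val) /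
        lcf_unrCoc U p (kxt_hom t ht) (β ^ p)) :=
    ⟨lv11_c ζ β (kxt_hom t ht) η, lv11_c_smooth ζ β hθs hηs,
      fun g h => lv11_key hζp hζU (kxt_hom t ht) hη hβ g h⟩
  have hunr : lcf_IsCoc U (lcf_unrCoc U p (kxt_hom t ht) (β ^ p)) := sym_isCoc_unrCoc hθs hβU
  have h1 : inv q U (fun x : ↥U × ↥U => ζ ^ (t x.1 * η x.2).val) =
      inv q U (lcf_unrCoc U p (kxt_hom t ht) (β ^ p)) :=
    tame_inv_eq_of_cob hinv hU hunr hcob
  rw [h1]
  -- `β ^ p = q ^ n * u`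
  have hqU : ∀ g : ↥U, g • kex_qLoc q = kex_qLoc q := fun g => kxt_qLoc_smul g
  have hqnU : ∀ g : ↥U, g • kex_qLoc q ^ n = kex_qLoc q ^ n := fun g => by
    rw [smul_zpow', hqU]
  have huU : ∀ g : ↥U, g • (β ^ p / kex_qLoc q ^ n) = β ^ p / kex_qLoc q ^ n := fun g => by
    rw [smul_div', hβU, hqnU]
  have hq0 : ‖((q : ℕ) : PadicAlgCl q)‖ ≠ 0 := by
    rw [norm_ne_zero_iff]
    exact Nat.cast_ne_zero.2 (Fact.out : q.Prime).ne_zero
  have hu1 : ‖((β ^ p / kex_qLoc q ^ n : (PadicAlgCl q)ˣ) : PadicAlgCl q)‖ = 1 := by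
    rw [Units.val_div_eq_div_val, norm_div, hn, Units.val_zpow_eq_zpow_val, norm_zpow,
      kxt_qLoc_val]
    exact div_self (zpow_ne_zero n hq0)
  have hdec : β ^ p = kex_qLoc q ^ n * (β ^ p / kex_qLoc q ^ n) := by
    rw [mul_div_cancel]
  obtain ⟨φ, hφ⟩ := unr_abs_exists_frob U hU
  obtain ⟨ϖ, hϖ⟩ := lunif_main q U hU
  have hin : ∀ s : ↥U, lcf_IsInert (s : lcf_Gal q) → kxt_hom t ht s = 1 := by
    intro s hs
    show Multiplicative.ofAdd (t s) = 1
    rw [htunr s hs]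
    rfl
  have hu0 : inv q U (lcf_unrCoc U p (kxt_hom t ht) (β ^ p / kex_qLoc q ^ n)) = 0 := by
    rw [tame_unr_main inv hinv q U hU p (kxt_hom t ht) φ ϖ _ 0 hθs hin hφ hϖ huU
      (by rw [hu1, zpow_zero])]
    simp
  rw [hdec, tame_inv_mul_left hinv hU hθs hqnU huU, tame_inv_zpow_left hinv hU hθs hqU, hu0,
    add_zero]
  rfl

end

end Fermat.Agent.S55
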