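/-
S55 (wave 5), LOCAL side, package [H3-Ω], part 1: pure algebra on inflation data
(`fgI_InfData` of the finite-group toolkit).  Prefix `lh3_`.

* `lh3_sub`  : restriction of inflation data to a subgroup of the quotient and its preimage;
* `lh3_quot` : two inflation data for the same group, one finer than the other, induce
               inflation data between the two quotients;
* elementwise 3-cocycles and the coboundary of 2-cochains, inflation of 3-cochains.
-/
import Fermat.Agent.S55.FG.InfRes2Mid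

set_option autoImplicit false

noncomputable section

namespace Fermat.Agent.S55

open groupCohomology

section Sub

variable {G Q A B : Type*} [Group G] [Group Q] [AddCommGroup A] [AddCommGroup B]
  [DistribMulAction G A] [DistribMulAction Q B]

/-- Restriction of inflation data to a subgroup `H` of the quotient and its preimage `U`. -/
def lh3_sub (D : fgI_InfData G Q A B) (U : Subgroup G) (H : Subgroup Q)
    (hUH : ∀ g, g ∈ U ↔ D.π g ∈ H) : fgI_InfData ↥U ↥H A B where
  π := (D.π.comp U.subtype).codRestrict H (fun g => (hUH g).1 g.2)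
  ι := D.ι
  π_surj := by
    rintro ⟨k, hk⟩
    obtain ⟨g, rfl⟩ := D.π_surj k
    exact ⟨⟨g, (hUH g).2 hk⟩, rfl⟩
  ι_inj := D.ι_inj
  ι_smul := fun g b => D.ι_smul (g : G) b
  ι_range := fun a ha => D.ι_range a (fun h hh =>
    ha ⟨h, (hUH h).2 (by rw [hh]; exact H.one_mem)⟩ (Subtype.ext hh))

@[simp] theorem lh3_sub_π_coe (D : fgI_InfData G Q A B) (U : Subgroup G) (H : Subgroup Q)
    (hUH : ∀ g, g ∈ U ↔ D.π g ∈ H) (g : ↥U) :
    (((lh3_sub D U H hUH).π g : ↥H) : Q) = D.π (g : G) := rfl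

@[simp] theorem lh3_sub_ι (D : fgI_InfData G Q A B) (U : Subgroup G) (H : Subgroup Q)
    (hUH : ∀ g, g ∈ U ↔ D.π g ∈ H) (b : B) : (lh3_sub D U H hUH).ι b = D.ι b := rfl

end Sub

section Quot

variable {G Q Q' A B B' : Type*} [Group G] [Group Q] [Group Q'] [AddCommGroup A]
  [AddCommGroup B] [AddCommGroup B'] [DistribMulAction G A] [DistribMulAction Q B]
  [DistribMulAction Q' B']

/-- The homomorphism between the quotients. -/
def lh3_quotπ (D : fgI_InfData G Q A B) (D' : fgI_InfData G Q' A B')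
    (h : D'.π.ker ≤ D.π.ker) : Q' →* Q :=
  D'.π.liftOfRightInverse (Function.surjInv D'.π_surj) (Function.rightInverse_surjInv D'.π_surj)
    ⟨D.π, h⟩

theorem lh3_quotπ_apply (D : fgI_InfData G Q A B) (D' : fgI_InfData G Q' A B')
    (h : D'.π.ker ≤ D.π.ker) (g : G) : lh3_quotπ D D' h (D'.π g) = D.π g :=
  MonoidHom.liftOfRightInverse_comp_apply _ _ _ _ g

theorem lh3_quot_exists (D : fgI_InfData G Q A B) (D' : fgI_InfData G Q' A B')
    (h : D'.π.ker ≤ D.π.ker) (b : B) : ∃ b' : B', D'.ι b' = D.ι b :=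
  D'.ι_range (D.ι b) fun _ hg => fgI_smul_ι D (h hg) b

/-- The inclusion between the modules of invariants. -/
def lh3_quotι (D : fgI_InfData G Q A B) (D' : fgI_InfData G Q' A B')
    (h : D'.π.ker ≤ D.π.ker) : B →+ B' where
  toFun b := (lh3_quot_exists D D' h b).choose
  map_zero' := by
    apply D'.ι_inj
    rw [(lh3_quot_exists D D' h 0).choose_spec, map_zero, map_zero]
  map_add' b₁ b₂ := by
    apply D'.ι_inj
    rw [(lh3_quot_exists D D' h (b₁ + b₂)).choose_spec, map_add, map_add,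
      (lh3_quot_exists D D' h b₁).choose_spec, (lh3_quot_exists D D' h b₂).choose_spec]

theorem lh3_quotι_spec (D : fgI_InfData G Q A B) (D' : fgI_InfData G Q' A B')
    (h : D'.π.ker ≤ D.π.ker) (b : B) : D'.ι (lh3_quotι D D' h b) = D.ι b :=
  (lh3_quot_exists D D' h b).choose_spec

/-- Inflation data between two quotients of the same group. -/
def lh3_quot (D : fgI_InfData G Q A B) (D' : fgI_InfData G Q' A B')
    (h : D'.π.ker ≤ D.π.ker) : fgI_InfData Q' Q B' B where
  π := lh3_quotπ D D' h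
  ι := lh3_quotι D D' h
  π_surj := by
    intro k
    obtain ⟨g, rfl⟩ := D.π_surj k
    exact ⟨D'.π g, lh3_quotπ_apply D D' h g⟩
  ι_inj := by
    intro b₁ b₂ hb
    apply D.ι_inj
    rw [← lh3_quotι_spec D D' h b₁, ← lh3_quotι_spec D D' h b₂, hb]
  ι_smul := by
    intro k b
    obtain ⟨g, rfl⟩ := D'.π_surj k
    apply D'.ι_inj
    rw [lh3_quotπ_apply, lh3_quotι_spec, D.ι_smul, D'.ι_smul, lh3_quotι_spec]
  ι_range := by
    intro b' hb'
    have hinv : ∀ g : G, D.π g = 1 → g • D'.ι b' = D'.ι b' := by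
      intro g hg
      rw [← D'.ι_smul, hb' (D'.π g) (by rw [lh3_quotπ_apply, hg])]
    obtain ⟨b, hb⟩ := D.ι_range (D'.ι b') hinv
    refine ⟨b, D'.ι_inj ?_⟩
    rw [lh3_quotι_spec, hb]

theorem lh3_quot_π_apply (D : fgI_InfData G Q A B) (D' : fgI_InfData G Q' A B')
    (h : D'.π.ker ≤ D.π.ker) (g : G) : (lh3_quot D D' h).π (D'.π g) = D.π g :=
  lh3_quotπ_apply D D' h g

theorem lh3_quot_ι_spec (D : fgI_InfData G Q A B) (D' : fgI_InfData G Q' A B')
    (h : D'.π.ker ≤ D.π.ker) (b : B) : D'.ι ((lh3_quot D D' h).ι b) = D.ι b :=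
  lh3_quotι_spec D D' h b

/-- Inflation in two steps. -/
theorem lh3_inf₂_quot (D : fgI_InfData G Q A B) (D' : fgI_InfData G Q' A B')
    (h : D'.π.ker ≤ D.π.ker) (f : Q × Q → B) :
    fgI_inf₂ D' (fgI_inf₂ (lh3_quot D D' h) f) = fgI_inf₂ D f := by
  funext p
  simp only [fgI_inf₂, lh3_quot_π_apply, lh3_quot_ι_spec]

end Quot

section Three

variable {G : Type*} [Group G] {A : Type*} [AddCommGroup A] [DistribMulAction G A]

/-- Elementwise 3-cocycles. -/
def lh3_IsCocycle₃ (f : G × G × G → A) : Prop :=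
  ∀ g h j k : G, g • f (h, j, k) - f (g * h, j, k) + f (g, h * j, k) - f (g, h, j * k)
    + f (g, h, j) = 0

/-- The coboundary of a 2-cochain. -/
def lh3_d₂₃ (y : G × G → A) : G × G × G → A :=
  fun x => x.1 • y (x.2.1, x.2.2) - y (x.1 * x.2.1, x.2.2) + y (x.1, x.2.1 * x.2.2)
    - y (x.1, x.2.1)

theorem lh3_d₂₃_apply (y : G × G → A) (g h j : G) :
    lh3_d₂₃ y (g, h, j) = g • y (h, j) - y (g * h, j) + y (g, h * j) - y (g, h) := rfl

end Three

section InfThree

variable {G Q A B : Type*} [Group G] [Group Q] [AddCommGroup A] [AddCommGroup B]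
  [DistribMulAction G A] [DistribMulAction Q B]

/-- Inflation of a 3-cochain. -/
def lh3_inf₃ (D : fgI_InfData G Q A B) (f : Q × Q × Q → B) : G × G × G → A :=
  fun x => D.ι (f (D.π x.1, D.π x.2.1, D.π x.2.2))

theorem lh3_inf₃_apply (D : fgI_InfData G Q A B) (f : Q × Q × Q → B) (g h j : G) :
    lh3_inf₃ D f (g, h, j) = D.ι (f (D.π g, D.π h, D.π j)) := rfl

/-- Inflation commutes with the coboundary. -/
theorem lh3_d₂₃_inf (D : fgI_InfData G Q A B) (y : Q × Q → B) :
    lh3_d₂₃ (fgI_inf₂ D y) = lh3_inf₃ D (lh3_d₂₃ y) := by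
  funext x
  obtain ⟨g, h, j⟩ := x
  simp only [lh3_d₂₃_apply, lh3_inf₃_apply, fgI_inf₂_apply, map_sub, map_add, map_mul,
    D.ι_smul]

/-- A 3-cochain of the quotient whose inflation is a cocycle is a cocycle. -/
theorem lh3_isCocycle₃_of_inf (D : fgI_InfData G Q A B) (f : Q × Q × Q → B)
    (hf : lh3_IsCocycle₃ (lh3_inf₃ D f)) : lh3_IsCocycle₃ f := by
  intro g h j k
  obtain ⟨g, rfl⟩ := D.π_surj g
  obtain ⟨h, rfl⟩ := D.π_surj h
  obtain ⟨j, rfl⟩ := D.π_surj j
  obtain ⟨k, rfl⟩ := D.π_surj k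
  apply D.ι_inj
  have := hf g h j k
  simp only [lh3_inf₃_apply, map_mul] at this
  rw [map_zero, map_add, map_sub, map_add, map_sub, D.ι_smul]
  exact this

end InfThree

section Descend

variable {G Q A B : Type*} [Group G] [Group Q] [AddCommGroup A] [AddCommGroup B]
  [DistribMulAction G A] [DistribMulAction Q B]

/-- The chosen representative differs from `g` by an element of the kernel, on the right. -/
theorem lh3_t_eq_mul (D : fgI_InfData G Q A B) (g : G) :
    ∃ s : G, D.π s = 1 ∧ fgI_t D g = g * s :=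
  ⟨g⁻¹ * fgI_t D g, by rw [map_mul, map_inv, fgI_π_t, inv_mul_cancel], by
    rw [mul_inv_cancel_left]⟩

/-- A 1-cochain which is invariant under right translation by the kernel and has values in the
invariants is an inflation. -/
theorem lh3_descend₁ (D : fgI_InfData G Q A B) (c : G → A)
    (hinv : ∀ g s : G, D.π s = 1 → c (g * s) = c g) (hval : ∀ g, ∃ b : B, D.ι b = c g) :
    ∃ c' : Q → B, fgI_inf₁ D c' = c := by
  refine ⟨fun k => (hval (Function.surjInv D.π_surj k)).choose, ?_⟩
  funext g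
  show D.ι (hval (Function.surjInv D.π_surj (D.π g))).choose = c g
  rw [(hval _).choose_spec]
  obtain ⟨s, hs, hts⟩ := lh3_t_eq_mul D g
  have : Function.surjInv D.π_surj (D.π g) = g * s := hts
  rw [this, hinv g s hs]

/-- A 2-cochain which is invariant under right translation by the kernel and has values in the
invariants is an inflation. -/
theorem lh3_descend₂ (D : fgI_InfData G Q A B) (c : G × G → A)
    (hinv : ∀ g h s t : G, D.π s = 1 → D.π t = 1 → c (g * s, h * t) = c (g, h))
    (hval : ∀ x, ∃ b : B, D.ι b = c x) :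
    ∃ c' : Q × Q → B, fgI_inf₂ D c' = c := by
  refine ⟨fun k => (hval (Function.surjInv D.π_surj k.1,
    Function.surjInv D.π_surj k.2)).choose, ?_⟩
  funext x
  obtain ⟨g, h⟩ := x
  show D.ι (hval (Function.surjInv D.π_surj (D.π g),
    Function.surjInv D.π_surj (D.π h))).choose = c (g, h)
  rw [(hval _).choose_spec]
  obtain ⟨s, hs, hts⟩ := lh3_t_eq_mul D g
  obtain ⟨t, ht, htt⟩ := lh3_t_eq_mul D h
  have e1 : Function.surjInv D.π_surj (D.π g) = g * s := hts
  have e2 : Function.surjInv D.π_surj (D.π h) = h * t := htt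
  rw [e1, e2, hinv g h s t hs ht]

/-- A 3-cochain which is invariant under right translation by the kernel and has values in the
invariants is an inflation. -/
theorem lh3_descend₃ (D : fgI_InfData G Q A B) (c : G × G × G → A)
    (hinv : ∀ g h j s t u : G, D.π s = 1 → D.π t = 1 → D.π u = 1 →
      c (g * s, h * t, j * u) = c (g, h, j))
    (hval : ∀ x, ∃ b : B, D.ι b = c x) :
    ∃ c' : Q × Q × Q → B, lh3_inf₃ D c' = c := by
  refine ⟨fun k => (hval (Function.surjInv D.π_surj k.1,
    Function.surjInv D.π_surj k.2.1, Function.surjInv D.π_surj k.2.2)).choose, ?_⟩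
  funext x
  obtain ⟨g, h, j⟩ := x
  show D.ι (hval (Function.surjInv D.π_surj (D.π g),
    Function.surjInv D.π_surj (D.π h), Function.surjInv D.π_surj (D.π j))).choose = c (g, h, j)
  rw [(hval _).choose_spec]
  obtain ⟨s, hs, hts⟩ := lh3_t_eq_mul D g
  obtain ⟨t, ht, htt⟩ := lh3_t_eq_mul D h
  obtain ⟨u, hu, htu⟩ := lh3_t_eq_mul D j
  have e1 : Function.surjInv D.π_surj (D.π g) = g * s := hts
  have e2 : Function.surjInv D.π_surj (D.π h) = h * t := htt
  have e3 : Function.surjInv D.π_surj (D.π j) = j * u := htu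
  rw [e1, e2, e3, hinv g h j s t u hs ht hu]

/-- A 2-cochain of the quotient whose inflation is a cocycle is a cocycle. -/
theorem lh3_isCocycle₂_of_inf (D : fgI_InfData G Q A B) (f : Q × Q → B)
    (hf : IsCocycle₂ (fgI_inf₂ D f)) : IsCocycle₂ f := by
  intro g h j
  obtain ⟨g, rfl⟩ := D.π_surj g
  obtain ⟨h, rfl⟩ := D.π_surj h
  obtain ⟨j, rfl⟩ := D.π_surj j
  apply D.ι_inj
  have := hf g h j
  simp only [fgI_inf₂_apply, map_mul] at this
  rw [map_add, map_add, D.ι_smul]
  exact this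

/-- The inflation of a cocycle is a cocycle. -/
theorem lh3_isCocycle₂_inf (D : fgI_InfData G Q A B) (f : Q × Q → B) (hf : IsCocycle₂ f) :
    IsCocycle₂ (fgI_inf₂ D f) := by
  intro g h j
  simp only [fgI_inf₂_apply, map_mul, ← D.ι_smul, ← map_add]
  rw [hf (D.π g) (D.π h) (D.π j)]

/-- The inflation of a coboundary is a coboundary. -/
theorem lh3_isCoboundary₂_inf (D : fgI_InfData G Q A B) (f : Q × Q → B)
    (hf : IsCoboundary₂ f) : IsCoboundary₂ (fgI_inf₂ D f) := by
  obtain ⟨x, hx⟩ := hf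
  refine ⟨fgI_inf₁ D x, fun g h => ?_⟩
  simp only [fgI_inf₁, fgI_inf₂_apply, map_mul, ← D.ι_smul, ← map_sub, ← map_add]
  rw [hx (D.π g) (D.π h)]

/-- A 1-cochain of the quotient whose inflation cobounds the inflation of `f` cobounds `f`. -/
theorem lh3_cob_of_inf (D : fgI_InfData G Q A B) (f : Q × Q → B) (x : Q → B)
    (h : ∀ g h : G, g • fgI_inf₁ D x h - fgI_inf₁ D x (g * h) + fgI_inf₁ D x g =
      fgI_inf₂ D f (g, h)) :
    ∀ k l : Q, k • x l - x (k * l) + x k = f (k, l) := by
  intro k l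
  obtain ⟨g, rfl⟩ := D.π_surj k
  obtain ⟨j, rfl⟩ := D.π_surj l
  apply D.ι_inj
  have := h g j
  simp only [fgI_inf₁, fgI_inf₂_apply, map_mul] at this
  rw [map_add, map_sub, D.ι_smul]
  exact this

end Descend

end Fermat.Agent.S55
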