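/-
S55 (wave 5), LOCAL side, package [H3-Ω], part 2: the finite levels of the local Galois group.

For a finite normal `E/ℚ_q` inside `Ω = PadicAlgCl q` the level of `Γ = Gal(Ω/ℚ_q)` is the
inflation datum `lh3_lev E` with quotient `Gal(E/ℚ_q)` and module `Additive Eˣ`.  Every smooth
cochain of an open subgroup is the inflation of a cochain of a finite level ([LEVEL]).
Prefix `lh3_`.
-/
import Fermat.Agent.S55.Local.LDLeaves
import Fermat.Agent.S55.Local.H90
import Fermat.Agent.S55.Local.Kummer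
import Fermat.Agent.S55.Local.H3OmegaData
import Fermat.Agent.S55.FG.H2Rep

set_option autoImplicit false

noncomputable section

namespace Fermat.Agent.S55

open groupCohomology

/-- The additive form of the action of the local Galois group on `Ωˣ`. -/
@[reducible] def lh3_actΩ (q : ℕ) [Fact q.Prime] :
    DistribMulAction (lcf_Gal q) (Additive (PadicAlgCl q)ˣ) :=
  fgC_addAct _ _

/-- The additive form of the action of `Gal(E/ℚ_q)` on `Eˣ`. -/
@[reducible] def lh3_actE {q : ℕ} [Fact q.Prime] (E : IntermediateField ℚ_[q] (PadicAlgCl q)) :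
    DistribMulAction (↥E ≃ₐ[ℚ_[q]] ↥E) (Additive (↥E)ˣ) :=
  fgC_addAct _ _

attribute [local instance] lh3_actΩ lh3_actE

variable {q : ℕ} [Fact q.Prime]

theorem lh3_smulΩ (g : lcf_Gal q) (a : Additive (PadicAlgCl q)ˣ) :
    g • a = Additive.ofMul (g • a.toMul) := rfl

theorem lh3_smulE (E : IntermediateField ℚ_[q] (PadicAlgCl q)) (g : ↥E ≃ₐ[ℚ_[q]] ↥E)
    (a : Additive (↥E)ˣ) : g • a = Additive.ofMul (g • a.toMul) := rfl

/-- The inclusion `Eˣ → Ωˣ`, additively. -/
def lh3_iota (E : IntermediateField ℚ_[q] (PadicAlgCl q)) :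
    Additive (↥E)ˣ →+ Additive (PadicAlgCl q)ˣ :=
  MonoidHom.toAdditive (Units.map ((algebraMap ↥E (PadicAlgCl q) : ↥E →+* PadicAlgCl q) :
    ↥E →* PadicAlgCl q))

theorem lh3_iota_val (E : IntermediateField ℚ_[q] (PadicAlgCl q)) (b : Additive (↥E)ˣ) :
    (((lh3_iota E b).toMul : (PadicAlgCl q)ˣ) : PadicAlgCl q) =
      (((b.toMul : (↥E)ˣ) : ↥E) : PadicAlgCl q) := rfl

theorem lh3_iota_injective (E : IntermediateField ℚ_[q] (PadicAlgCl q)) :
    Function.Injective (lh3_iota E) := by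
  intro a b h
  have h1 : (((lh3_iota E a).toMul : (PadicAlgCl q)ˣ) : PadicAlgCl q) =
      (((lh3_iota E b).toMul : (PadicAlgCl q)ˣ) : PadicAlgCl q) := by rw [h]
  rw [lh3_iota_val, lh3_iota_val] at h1
  have h2 : (a.toMul : (↥E)ˣ) = b.toMul := Units.ext (Subtype.ext h1)
  exact h2

/-- An element of `Ωˣ` lying in `E` is in the image of `Eˣ`. -/
theorem lh3_exists_iota (E : IntermediateField ℚ_[q] (PadicAlgCl q)) (a : (PadicAlgCl q)ˣ)
    (ha : (a : PadicAlgCl q) ∈ E) : ∃ b : Additive (↥E)ˣ, lh3_iota E b = Additive.ofMul a := by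
  have hne : (⟨(a : PadicAlgCl q), ha⟩ : ↥E) ≠ 0 := fun h => a.ne_zero (congrArg Subtype.val h)
  refine ⟨Additive.ofMul (Units.mk0 ⟨(a : PadicAlgCl q), ha⟩ hne), ?_⟩
  have : ((lh3_iota E (Additive.ofMul (Units.mk0 ⟨(a : PadicAlgCl q), ha⟩ hne))).toMul :
      (PadicAlgCl q)ˣ) = a := Units.ext rfl
  exact this

/-- The values of `lh3_iota` lie in `E`. -/
theorem lh3_iota_mem (E : IntermediateField ℚ_[q] (PadicAlgCl q)) (b : Additive (↥E)ˣ) :
    (((lh3_iota E b).toMul : (PadicAlgCl q)ˣ) : PadicAlgCl q) ∈ E := by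
  rw [lh3_iota_val]
  exact (b.toMul : (↥E)ˣ).val.2

/-- **The level `E`** of the local Galois group. -/
def lh3_lev (E : IntermediateField ℚ_[q] (PadicAlgCl q)) [Normal ℚ_[q] ↥E] :
    fgI_InfData (lcf_Gal q) (↥E ≃ₐ[ℚ_[q]] ↥E) (Additive (PadicAlgCl q)ˣ) (Additive (↥E)ˣ) where
  π := AlgEquiv.restrictNormalHom ↥E
  ι := lh3_iota E
  π_surj := AlgEquiv.restrictNormalHom_surjective _
  ι_inj := lh3_iota_injective E
  ι_smul := by
    intro g b
    have h : (((lh3_iota E ((AlgEquiv.restrictNormalHom ↥E g) • b)).toMul : (PadicAlgCl q)ˣ) :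
        PadicAlgCl q) = (((g • lh3_iota E b).toMul : (PadicAlgCl q)ˣ) : PadicAlgCl q) :=
      AlgEquiv.restrictNormal_commutes g ↥E ((b.toMul : (↥E)ˣ) : ↥E)
    exact Units.ext h
  ι_range := by
    intro a ha
    have hmem : ((a.toMul : (PadicAlgCl q)ˣ) : PadicAlgCl q) ∈ E := by
      rw [← InfiniteGalois.fixedField_fixingSubgroup E, IntermediateField.mem_fixedField_iff]
      intro s hs
      have hs' : AlgEquiv.restrictNormalHom ↥E s = 1 := by
        rw [← MonoidHom.mem_ker, IntermediateField.restrictNormalHom_ker]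
        exact hs
      exact congrArg (fun u : Additive (PadicAlgCl q)ˣ =>
        ((u.toMul : (PadicAlgCl q)ˣ) : PadicAlgCl q)) (ha s hs')
    exact lh3_exists_iota E a.toMul hmem

theorem lh3_lev_π (E : IntermediateField ℚ_[q] (PadicAlgCl q)) [Normal ℚ_[q] ↥E] :
    (lh3_lev E).π = AlgEquiv.restrictNormalHom ↥E := rfl

theorem lh3_lev_ι (E : IntermediateField ℚ_[q] (PadicAlgCl q)) [Normal ℚ_[q] ↥E] :
    (lh3_lev E).ι = lh3_iota E := rfl

theorem lh3_lev_ker (E : IntermediateField ℚ_[q] (PadicAlgCl q)) [Normal ℚ_[q] ↥E] :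
    (lh3_lev E).π.ker = E.fixingSubgroup :=
  IntermediateField.restrictNormalHom_ker E

theorem lh3_lev_π_eq_one_iff (E : IntermediateField ℚ_[q] (PadicAlgCl q)) [Normal ℚ_[q] ↥E]
    (s : lcf_Gal q) : (lh3_lev E).π s = 1 ↔ s ∈ E.fixingSubgroup := by
  rw [← MonoidHom.mem_ker, lh3_lev_ker]

/-- The level `E` of a subgroup `U ⊇ Gal(Ω/E)`: the quotient is the image of `U`. -/
def lh3_levU (E : IntermediateField ℚ_[q] (PadicAlgCl q)) [Normal ℚ_[q] ↥E]
    (U : Subgroup (lcf_Gal q)) (hEU : E.fixingSubgroup ≤ U) :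
    fgI_InfData ↥U ↥(U.map (lh3_lev E).π) (Additive (PadicAlgCl q)ˣ) (Additive (↥E)ˣ) :=
  lh3_sub (lh3_lev E) U (U.map (lh3_lev E).π) (fun g => by
    constructor
    · intro hg
      exact Subgroup.mem_map_of_mem _ hg
    · rintro ⟨g', hg', h⟩
      have h1 : g'⁻¹ * g ∈ E.fixingSubgroup := by
        rw [← lh3_lev_ker, MonoidHom.mem_ker, map_mul, map_inv, h, inv_mul_cancel]
      have h2 := U.mul_mem hg' (hEU h1)
      rwa [mul_inv_cancel_left] at h2)

theorem lh3_levU_π_eq_one_iff (E : IntermediateField ℚ_[q] (PadicAlgCl q)) [Normal ℚ_[q] ↥E]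
    (U : Subgroup (lcf_Gal q)) (hEU : E.fixingSubgroup ≤ U) (s : ↥U) :
    (lh3_levU E U hEU).π s = 1 ↔ (s : lcf_Gal q) ∈ E.fixingSubgroup := by
  rw [← lh3_lev_π_eq_one_iff]
  constructor
  · intro h
    exact congrArg Subtype.val h
  · intro h
    exact Subtype.ext h

/-! ### enlarging the level -/

/-- A function which factors through a finite type has finite range. -/
theorem lh3_finite_range {X F Y : Type*} [Finite F] (r : X → F) (c : X → Y)
    (h : ∀ x x', r x = r x' → c x = c x') : (Set.range c).Finite := by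
  classical
  rcases isEmpty_or_nonempty X with hX | ⟨⟨x₀⟩⟩
  · rw [Set.range_eq_empty]
    exact Set.finite_empty
  · refine (Set.finite_range (fun σ : F => if hσ : ∃ x, r x = σ then c hσ.choose else c x₀)).subset
      ?_
    rintro _ ⟨x, rfl⟩
    refine ⟨r x, ?_⟩
    have hex : ∃ x', r x' = r x := ⟨x, rfl⟩
    show (if hσ : ∃ x', r x' = r x then c hσ.choose else c x₀) = c x
    rw [dif_pos hex]
    exact h _ _ hex.choose_spec

/-- There is a finite normal level containing a given finite level and a given finite set. -/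
theorem lh3_exists_level (E₁ : IntermediateField ℚ_[q] (PadicAlgCl q))
    (hE₁ : FiniteDimensional ℚ_[q] ↥E₁) (S : Set (PadicAlgCl q)) (hS : S.Finite) :
    ∃ E : IntermediateField ℚ_[q] (PadicAlgCl q), Normal ℚ_[q] ↥E ∧
      FiniteDimensional ℚ_[q] ↥E ∧ E₁ ≤ E ∧ ∀ x ∈ S, x ∈ E := by
  have : Finite ↑S := hS
  have h1 : FiniteDimensional ℚ_[q] ↥(IntermediateField.adjoin ℚ_[q] S) :=
    IntermediateField.finiteDimensional_adjoin (fun x _ => Algebra.IsIntegral.isIntegral x)
  have h2 : FiniteDimensional ℚ_[q] ↥(E₁ ⊔ IntermediateField.adjoin ℚ_[q] S) :=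
    IntermediateField.finiteDimensional_sup _ _
  refine ⟨IntermediateField.normalClosure ℚ_[q] ↥(E₁ ⊔ IntermediateField.adjoin ℚ_[q] S)
    (PadicAlgCl q), inferInstance, inferInstance, ?_, ?_⟩
  · exact le_sup_left.trans (IntermediateField.le_normalClosure _)
  · intro x hx
    exact IntermediateField.le_normalClosure _
      ((le_sup_right : IntermediateField.adjoin ℚ_[q] S ≤ _)
        (IntermediateField.subset_adjoin ℚ_[q] S hx))

end Fermat.Agent.S55
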