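/-
S55 (wave 5), LOCAL side, package [H3-Ω], part 3: smooth cochains are inflations from a finite
level ([LEVEL]), inflations are smooth, and the dictionary between the multiplicative
(`Ωˣ`-valued) and the additive (`Additive Ωˣ`-valued) cochain identities.  Prefix `lh3_`.
-/
import Fermat.Agent.S55.Local.H3OmegaLevel

set_option autoImplicit false

noncomputable section

namespace Fermat.Agent.S55

open groupCohomology

attribute [local instance] lh3_actΩ lh3_actE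

variable {q : ℕ} [Fact q.Prime]

/-! ### dictionary -/

theorem lh3_isCocycle₂_iff {U : Subgroup (lcf_Gal q)} (f : ↥U × ↥U → (PadicAlgCl q)ˣ) :
    IsCocycle₂ (fun p => Additive.ofMul (f p)) ↔ IsMulCocycle₂ f := Iff.rfl

theorem lh3_isCocycle₁_iff {U : Subgroup (lcf_Gal q)} (f : ↥U → (PadicAlgCl q)ˣ) :
    IsCocycle₁ (fun p => Additive.ofMul (f p)) ↔ IsMulCocycle₁ f := Iff.rfl

theorem lh3_isCocycle₃_iff {U : Subgroup (lcf_Gal q)}
    (z : ↥U × ↥U × ↥U → (PadicAlgCl q)ˣ) :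
    lh3_IsCocycle₃ (fun p => Additive.ofMul (z p)) ↔ lcf_IsMulCocycle₃ U z := by
  constructor
  · intro h g k j l
    have h1 := h g k j l
    have h2 : Additive.ofMul (g • z (k, j, l) * z (g, k * j, l) * z (g, k, j)) =
        Additive.ofMul (z (g * k, j, l) * z (g, k, j * l)) := by
      simp only [ofMul_mul]
      have e : Additive.ofMul (g • z (k, j, l)) = g • Additive.ofMul (z (k, j, l)) := rfl
      rw [e]
      rw [← sub_eq_zero]
      rw [← h1]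
      abel
    exact h2
  · intro h g k j l
    have h1 : Additive.ofMul (g • z (k, j, l) * z (g, k * j, l) * z (g, k, j)) =
        Additive.ofMul (z (g * k, j, l) * z (g, k, j * l)) := congrArg _ (h g k j l)
    simp only [ofMul_mul] at h1
    have e : Additive.ofMul (g • z (k, j, l)) = g • Additive.ofMul (z (k, j, l)) := rfl
    rw [e] at h1
    rw [← sub_eq_zero] at h1
    rw [← h1]
    abel

theorem lh3_d₂₃_eq {U : Subgroup (lcf_Gal q)} (f : ↥U × ↥U → (PadicAlgCl q)ˣ) :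
    (fun p => Additive.ofMul (lcf_d₂₃ U f p)) = lh3_d₂₃ (fun p => Additive.ofMul (f p)) := by
  funext x
  obtain ⟨g, h, j⟩ := x
  show Additive.ofMul (g • f (h, j) * f (g, h * j) / (f (g * h, j) * f (g, h))) = _
  rw [lh3_d₂₃_apply, ofMul_div, ofMul_mul, ofMul_mul]
  have e : Additive.ofMul (g • f (h, j)) = g • Additive.ofMul (f (h, j)) := rfl
  rw [e]
  abel

/-! ### inflations from a finite level are smooth -/

section Smooth

variable (E : IntermediateField ℚ_[q] (PadicAlgCl q)) [Normal ℚ_[q] ↥E]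
  (hE : FiniteDimensional ℚ_[q] ↥E) (U : Subgroup (lcf_Gal q)) (K : Subgroup (↥E ≃ₐ[ℚ_[q]] ↥E))
  (hUK : ∀ g, g ∈ U ↔ (lh3_lev E).π g ∈ K)

omit hE in
theorem lh3_sub_π_mul (g s : ↥U) (hs : (s : lcf_Gal q) ∈ E.fixingSubgroup) :
    (lh3_sub (lh3_lev E) U K hUK).π (g * s) = (lh3_sub (lh3_lev E) U K hUK).π g := by
  have h1 : (lh3_sub (lh3_lev E) U K hUK).π s = 1 :=
    Subtype.ext ((lh3_lev_π_eq_one_iff E _).2 hs)
  rw [map_mul, h1, mul_one]

include hE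

theorem lh3_smooth_inf₁ {X : Type*} (c : ↥K → X) :
    lcf_Smooth₁ U (fun g => c ((lh3_sub (lh3_lev E) U K hUK).π g)) :=
  ⟨E, hE, fun g s hs => by
    show c _ = c _
    rw [lh3_sub_π_mul E U K hUK g s hs]⟩

theorem lh3_smooth_inf₂ {X : Type*} (c : ↥K × ↥K → X) :
    lcf_Smooth₂ U (fun p => c ((lh3_sub (lh3_lev E) U K hUK).π p.1,
      (lh3_sub (lh3_lev E) U K hUK).π p.2)) :=
  ⟨E, hE, fun g g' s s' hs hs' => by
    show c _ = c _
    rw [lh3_sub_π_mul E U K hUK g s hs, lh3_sub_π_mul E U K hUK g' s' hs']⟩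

end Smooth

/-! ### [LEVEL] -/

/-- [LEVEL], degree 1. -/
theorem lh3_level₁ (U : Subgroup (lcf_Gal q)) (c : ↥U → (PadicAlgCl q)ˣ) (hc : lcf_Smooth₁ U c)
    (E₀ : IntermediateField ℚ_[q] (PadicAlgCl q)) (hE₀ : FiniteDimensional ℚ_[q] ↥E₀) :
    ∃ E : IntermediateField ℚ_[q] (PadicAlgCl q), Normal ℚ_[q] ↥E ∧
      FiniteDimensional ℚ_[q] ↥E ∧ E₀ ≤ E ∧
      (∀ g s : ↥U, (s : lcf_Gal q) ∈ E.fixingSubgroup → c (g * s) = c g) ∧
      ∀ g, ((c g : (PadicAlgCl q)ˣ) : PadicAlgCl q) ∈ E := by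
  obtain ⟨E₁, hE₁, h⟩ := hc
  have : FiniteDimensional ℚ_[q] ↥E₁ := hE₁
  have : FiniteDimensional ℚ_[q] ↥E₀ := hE₀
  have hfin : (Set.range (fun g : ↥U => ((c g : (PadicAlgCl q)ˣ) : PadicAlgCl q))).Finite :=
    lh3_finite_range (fun g : ↥U => lh90_res E₁ (g : lcf_Gal q)) _ (fun g g' hgg' => by
      show ((c g : (PadicAlgCl q)ˣ) : PadicAlgCl q) = c g'
      rw [lh90_eq_of_res_eq h hgg'])
  obtain ⟨E, hN, hF, hle, hS⟩ := lh3_exists_level (E₀ ⊔ E₁)
    (IntermediateField.finiteDimensional_sup E₀ E₁) _ hfin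
  refine ⟨E, hN, hF, le_sup_left.trans hle, fun g s hs => ?_, fun g => hS _ ⟨g, rfl⟩⟩
  exact h g s (IntermediateField.fixingSubgroup_antitone (le_sup_right.trans hle) hs)

/-- [LEVEL], degree 2. -/
theorem lh3_level₂ (U : Subgroup (lcf_Gal q)) (c : ↥U × ↥U → (PadicAlgCl q)ˣ)
    (hc : lcf_Smooth₂ U c)
    (E₀ : IntermediateField ℚ_[q] (PadicAlgCl q)) (hE₀ : FiniteDimensional ℚ_[q] ↥E₀) :
    ∃ E : IntermediateField ℚ_[q] (PadicAlgCl q), Normal ℚ_[q] ↥E ∧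
      FiniteDimensional ℚ_[q] ↥E ∧ E₀ ≤ E ∧
      (∀ g g' s s' : ↥U, (s : lcf_Gal q) ∈ E.fixingSubgroup →
        (s' : lcf_Gal q) ∈ E.fixingSubgroup → c (g * s, g' * s') = c (g, g')) ∧
      ∀ x, ((c x : (PadicAlgCl q)ˣ) : PadicAlgCl q) ∈ E := by
  obtain ⟨E₁, hE₁, h⟩ := hc
  have : FiniteDimensional ℚ_[q] ↥E₁ := hE₁
  have : FiniteDimensional ℚ_[q] ↥E₀ := hE₀
  have hfin : (Set.range (fun x : ↥U × ↥U => ((c x : (PadicAlgCl q)ˣ) : PadicAlgCl q))).Finite :=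
    lh3_finite_range (fun x : ↥U × ↥U =>
      (lh90_res E₁ (x.1 : lcf_Gal q), lh90_res E₁ (x.2 : lcf_Gal q))) _ (fun x x' hxx' => by
      obtain ⟨g, g'⟩ := x
      obtain ⟨k, k'⟩ := x'
      have h1 := lh90_mem_fixingSubgroup (congrArg Prod.fst hxx')
      have h2 := lh90_mem_fixingSubgroup (congrArg Prod.snd hxx')
      have h3 := h g g' (g⁻¹ * k) (g'⁻¹ * k') h1 h2
      rw [mul_inv_cancel_left, mul_inv_cancel_left] at h3
      show ((c (g, g') : (PadicAlgCl q)ˣ) : PadicAlgCl q) = c (k, k')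
      rw [h3])
  obtain ⟨E, hN, hF, hle, hS⟩ := lh3_exists_level (E₀ ⊔ E₁)
    (IntermediateField.finiteDimensional_sup E₀ E₁) _ hfin
  refine ⟨E, hN, hF, le_sup_left.trans hle, fun g g' s s' hs hs' => ?_, fun x => hS _ ⟨x, rfl⟩⟩
  exact h g g' s s' (IntermediateField.fixingSubgroup_antitone (le_sup_right.trans hle) hs)
    (IntermediateField.fixingSubgroup_antitone (le_sup_right.trans hle) hs')

/-- [LEVEL], degree 3. -/
theorem lh3_level₃ (U : Subgroup (lcf_Gal q)) (c : ↥U × ↥U × ↥U → (PadicAlgCl q)ˣ)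
    (hc : lcf_Smooth₃ U c)
    (E₀ : IntermediateField ℚ_[q] (PadicAlgCl q)) (hE₀ : FiniteDimensional ℚ_[q] ↥E₀) :
    ∃ E : IntermediateField ℚ_[q] (PadicAlgCl q), Normal ℚ_[q] ↥E ∧
      FiniteDimensional ℚ_[q] ↥E ∧ E₀ ≤ E ∧
      (∀ g g' g'' s s' s'' : ↥U, (s : lcf_Gal q) ∈ E.fixingSubgroup →
        (s' : lcf_Gal q) ∈ E.fixingSubgroup → (s'' : lcf_Gal q) ∈ E.fixingSubgroup →
        c (g * s, g' * s', g'' * s'') = c (g, g', g'')) ∧
      ∀ x, ((c x : (PadicAlgCl q)ˣ) : PadicAlgCl q) ∈ E := by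
  obtain ⟨E₁, hE₁, h⟩ := hc
  have : FiniteDimensional ℚ_[q] ↥E₁ := hE₁
  have : FiniteDimensional ℚ_[q] ↥E₀ := hE₀
  have hfin : (Set.range (fun x : ↥U × ↥U × ↥U =>
      ((c x : (PadicAlgCl q)ˣ) : PadicAlgCl q))).Finite :=
    lh3_finite_range (fun x : ↥U × ↥U × ↥U =>
      (lh90_res E₁ (x.1 : lcf_Gal q), lh90_res E₁ (x.2.1 : lcf_Gal q),
        lh90_res E₁ (x.2.2 : lcf_Gal q))) _ (fun x x' hxx' => by
      obtain ⟨g, g', g''⟩ := x
      obtain ⟨k, k', k''⟩ := x'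
      have h1 := lh90_mem_fixingSubgroup (congrArg Prod.fst hxx')
      have h2 := lh90_mem_fixingSubgroup (congrArg (fun y => y.2.1) hxx')
      have h3 := lh90_mem_fixingSubgroup (congrArg (fun y => y.2.2) hxx')
      have h4 := h g g' g'' (g⁻¹ * k) (g'⁻¹ * k') (g''⁻¹ * k'') h1 h2 h3
      rw [mul_inv_cancel_left, mul_inv_cancel_left, mul_inv_cancel_left] at h4
      show ((c (g, g', g'') : (PadicAlgCl q)ˣ) : PadicAlgCl q) = c (k, k', k'')
      rw [h4])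
  obtain ⟨E, hN, hF, hle, hS⟩ := lh3_exists_level (E₀ ⊔ E₁)
    (IntermediateField.finiteDimensional_sup E₀ E₁) _ hfin
  refine ⟨E, hN, hF, le_sup_left.trans hle, fun g g' g'' s s' s'' hs hs' hs'' => ?_,
    fun x => hS _ ⟨x, rfl⟩⟩
  exact h g g' g'' s s' s'' (IntermediateField.fixingSubgroup_antitone (le_sup_right.trans hle) hs)
    (IntermediateField.fixingSubgroup_antitone (le_sup_right.trans hle) hs')
    (IntermediateField.fixingSubgroup_antitone (le_sup_right.trans hle) hs'')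

end Fermat.Agent.S55
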