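/-
S55 (wave 5), LOCAL side, package [H3-Ω], part 4: Hilbert 90 at finite level and the injectivity
of the inflation `H²(Gal(E/K), Eˣ) → Br(K)` for smooth cochains.  Prefix `lh3_`.
-/
import Fermat.Agent.S55.Local.H3OmegaSmooth

set_option autoImplicit false

noncomputable section

namespace Fermat.Agent.S55

open groupCohomology

attribute [local instance] lh3_actΩ lh3_actE

/-! ### Hilbert 90 for a finite group of automorphisms of a field -/

/-- Hilbert 90 (Poincaré series) for a group mapping injectively to the automorphisms of a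
field. -/
theorem lh3_h90 {F L : Type*} [Field F] [Field L] [Algebra F L] {X : Type*} [Group X] [Finite X]
    (φ : X →* (L ≃ₐ[F] L)) (hφ : Function.Injective φ) (c : X → Lˣ)
    (hc : ∀ x y : X, c (x * y) = (φ x) • c y * c x) :
    ∃ b : Lˣ, ∀ x : X, c x = (φ x) • b / b := by
  classical
  obtain ⟨_⟩ := nonempty_fintype X
  have hli : LinearIndependent L (fun x : X => ((φ x : L ≃ₐ[F] L) : L → L)) :=
    LinearIndependent.comp (ι' := X) (linearIndependent_monoidHom L L)
      (fun x => (((φ x : L ≃ₐ[F] L) : L →+* L) : L →* L))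
      (fun x y h => hφ (by
        ext a
        exact DFunLike.congr_fun h a))
  obtain ⟨a, ha⟩ : ∃ a : L, ∑ x : X, (c x : L) * φ x a ≠ 0 := by
    by_contra hcon
    simp only [not_exists, ne_eq, not_not] at hcon
    have h0 := Fintype.linearIndependent_iff.1 hli (fun x => (c x : L)) (by
      funext a
      simpa using hcon a) 1
    exact Units.ne_zero _ h0
  set b : L := ∑ x : X, (c x : L) * φ x a with hb
  have key : ∀ y : X, (c y : L) * φ y b = b := by
    intro y
    rw [hb, map_sum, Finset.mul_sum]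
    rw [← Equiv.sum_comp (Equiv.mulLeft y) (fun x => (c x : L) * φ x a)]
    refine Finset.sum_congr rfl fun x _ => ?_
    show (c y : L) * φ y ((c x : L) * φ x a) = (c (y * x) : L) * φ (y * x) a
    rw [hc y x, map_mul, Units.val_mul, map_mul φ]
    show (c y : L) * (φ y (c x : L) * φ y (φ x a)) = φ y (c x : L) * (c y : L) * φ y (φ x a)
    ring
  refine ⟨(Units.mk0 b ha)⁻¹, fun y => ?_⟩
  rw [smul_inv', div_inv_eq_mul, eq_comm, inv_mul_eq_iff_eq_mul]
  apply Units.ext
  rw [Units.val_mul]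
  show b = φ y b * (c y : L)
  rw [mul_comm]
  exact (key y).symm

/-- `H¹ = 0` for every subgroup of a group acting faithfully by field automorphisms. -/
theorem lh3_H1Zero {F L : Type*} [Field F] [Field L] [Algebra F L] [FiniteDimensional F L]
    {G : Type*} [Group G] [DistribMulAction G (Additive Lˣ)] (φ : G →* (L ≃ₐ[F] L))
    (hφ : Function.Injective φ)
    (hact : ∀ (g : G) (a : Additive Lˣ), g • a = Additive.ofMul (φ g • a.toMul))
    (N : Subgroup G) : fg_H1Zero N (Additive Lˣ) := by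
  intro f hf
  have : Finite G := Finite.of_injective φ hφ
  obtain ⟨b, hb⟩ := lh3_h90 (φ.comp N.subtype) (hφ.comp N.subtype_injective)
    (fun x => (f x).toMul) (fun x y => by
      have h := hf x y
      have h2 : (x : G) • f y = Additive.ofMul (φ (x : G) • (f y).toMul) := hact _ _
      show (f (x * y)).toMul = φ (x : G) • (f y).toMul * (f x).toMul
      rw [h]
      show ((x : G) • f y + f x).toMul = _
      rw [h2]
      rfl)
  refine ⟨Additive.ofMul b, fun g => ?_⟩
  have h2 : (g : G) • Additive.ofMul b = Additive.ofMul (φ (g : G) • b) := hact _ _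
  show (g : G) • Additive.ofMul b - Additive.ofMul b = f g
  rw [h2]
  have h3 : (f g).toMul = φ (g : G) • b / b := hb g
  show Additive.ofMul (φ (g : G) • b / b) = f g
  rw [← h3]
  rfl

variable {q : ℕ} [Fact q.Prime]

/-- Hilbert 90 for the subgroups of `Gal(E/ℚ_q)`. -/
theorem lh3_H1Zero_lev (E : IntermediateField ℚ_[q] (PadicAlgCl q))
    (hE : FiniteDimensional ℚ_[q] ↥E) (N : Subgroup (↥E ≃ₐ[ℚ_[q]] ↥E)) :
    fg_H1Zero N (Additive (↥E)ˣ) :=
  lh3_H1Zero (MonoidHom.id _) Function.injective_id (fun _ _ => rfl) N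

/-- Hilbert 90 for the subgroups of a subgroup of `Gal(E/ℚ_q)`. -/
theorem lh3_H1Zero_sub (E : IntermediateField ℚ_[q] (PadicAlgCl q))
    (hE : FiniteDimensional ℚ_[q] ↥E) (K : Subgroup (↥E ≃ₐ[ℚ_[q]] ↥E)) (N : Subgroup ↥K) :
    fg_H1Zero N (Additive (↥E)ˣ) :=
  lh3_H1Zero K.subtype K.subtype_injective (fun _ _ => rfl) N

/-! ### inflation from a finite level: cocycles, coboundaries, injectivity -/

section Inj

variable (E : IntermediateField ℚ_[q] (PadicAlgCl q)) [Normal ℚ_[q] ↥E]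
  (hE : FiniteDimensional ℚ_[q] ↥E) (U : Subgroup (lcf_Gal q)) (K : Subgroup (↥E ≃ₐ[ℚ_[q]] ↥E))
  (hUK : ∀ g, g ∈ U ↔ (lh3_lev E).π g ∈ K)

/-- The inflation of a 2-cochain of a finite level, multiplicatively. -/
def lh3_infl (f : ↥K × ↥K → Additive (↥E)ˣ) : ↥U × ↥U → (PadicAlgCl q)ˣ :=
  fun p => (fgI_inf₂ (lh3_sub (lh3_lev E) U K hUK) f p).toMul

theorem lh3_infl_apply (f : ↥K × ↥K → Additive (↥E)ˣ) (g h : ↥U) :
    lh3_infl E U K hUK f (g, h) = ((lh3_iota E (f ((lh3_sub (lh3_lev E) U K hUK).π g,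
      (lh3_sub (lh3_lev E) U K hUK).π h))).toMul : (PadicAlgCl q)ˣ) := rfl

theorem lh3_ofMul_infl (f : ↥K × ↥K → Additive (↥E)ˣ) :
    (fun p => Additive.ofMul (lh3_infl E U K hUK f p)) =
      fgI_inf₂ (lh3_sub (lh3_lev E) U K hUK) f := rfl

include hUK in
theorem lh3_fix_le_U : E.fixingSubgroup ≤ U := by
  intro g hg
  rw [hUK, (lh3_lev_π_eq_one_iff E g).2 hg]
  exact K.one_mem

include hE

/-- The inflation of a 2-cochain is smooth. -/
theorem lh3_infl_smooth (f : ↥K × ↥K → Additive (↥E)ˣ) :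
    lcf_Smooth₂ U (lh3_infl E U K hUK f) :=
  lh3_smooth_inf₂ E hE U K hUK (fun k => ((lh3_iota E (f k)).toMul : (PadicAlgCl q)ˣ))

/-- The inflation of a cocycle is a smooth cocycle. -/
theorem lh3_infl_isCoc (f : ↥K × ↥K → Additive (↥E)ˣ) (hf : IsCocycle₂ f) :
    lcf_IsCoc U (lh3_infl E U K hUK f) :=
  ⟨(lh3_isCocycle₂_iff _).1 (lh3_isCocycle₂_inf (lh3_sub (lh3_lev E) U K hUK) f hf),
    lh3_infl_smooth E hE U K hUK f⟩

/-- The inflation of a coboundary is a smooth coboundary. -/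
theorem lh3_infl_isCob (f : ↥K × ↥K → Additive (↥E)ˣ) (hf : IsCoboundary₂ f) :
    lcf_IsCob U (lh3_infl E U K hUK f) := by
  obtain ⟨x, hx⟩ := hf
  refine ⟨fun g => ((lh3_iota E (x ((lh3_sub (lh3_lev E) U K hUK).π g))).toMul :
    (PadicAlgCl q)ˣ), lh3_smooth_inf₁ E hE U K hUK
      (fun k => ((lh3_iota E (x k)).toMul : (PadicAlgCl q)ˣ)), fun g h => ?_⟩
  have h1 : IsCoboundary₂ (fgI_inf₂ (lh3_sub (lh3_lev E) U K hUK) f) :=
    lh3_isCoboundary₂_inf _ f ⟨x, hx⟩
  have h2 := hx ((lh3_sub (lh3_lev E) U K hUK).π g) ((lh3_sub (lh3_lev E) U K hUK).π h)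
  have h3 := congrArg (lh3_sub (lh3_lev E) U K hUK).ι h2
  rw [map_add, map_sub, (lh3_sub (lh3_lev E) U K hUK).ι_smul, ← map_mul] at h3
  exact congrArg Additive.toMul h3

/-- **Injectivity of the inflation**: a cocycle of a finite level whose inflation is a smooth
coboundary is a coboundary. -/
theorem lh3_inj (f : ↥K × ↥K → Additive (↥E)ˣ) (hf : IsCocycle₂ f)
    (hcob : lcf_IsCob U (lh3_infl E U K hUK f)) : IsCoboundary₂ f := by
  obtain ⟨b, hbs, hb⟩ := hcob
  obtain ⟨E', hN', hF', hle, hinv', hval'⟩ := lh3_level₁ U b hbs E hE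
  have hE'U : E'.fixingSubgroup ≤ U :=
    (IntermediateField.fixingSubgroup_antitone hle).trans (lh3_fix_le_U E U K hUK)
  have hker : (lh3_levU E' U hE'U).π.ker ≤ (lh3_sub (lh3_lev E) U K hUK).π.ker := by
    intro s hs
    rw [MonoidHom.mem_ker] at hs ⊢
    have h1 := (lh3_levU_π_eq_one_iff E' U hE'U s).1 hs
    exact Subtype.ext ((lh3_lev_π_eq_one_iff E _).2
      (IntermediateField.fixingSubgroup_antitone hle h1))
  obtain ⟨c', hc'⟩ := lh3_descend₁ (lh3_levU E' U hE'U) (fun g => Additive.ofMul (b g))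
    (fun g s hs => congrArg Additive.ofMul
      (hinv' g s ((lh3_levU_π_eq_one_iff E' U hE'U s).1 hs)))
    (fun g => lh3_exists_iota E' (b g) (hval' g))
  have hcob' : IsCoboundary₂ (fgI_inf₂ (lh3_quot (lh3_sub (lh3_lev E) U K hUK)
      (lh3_levU E' U hE'U) hker) f) := by
    refine ⟨c', lh3_cob_of_inf (lh3_levU E' U hE'U) _ c' fun g h => ?_⟩
    rw [hc', lh3_inf₂_quot]
    exact congrArg Additive.ofMul (hb g h)
  exact fgI_inj_aux _ (lh3_H1Zero_sub E' hF' _ _) f hf hcob'

end Inj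

end Fermat.Agent.S55
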