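/-
S55 (wave 5), LOCAL side, package [H3-Ω], part 5: the local fundamental class [FUND-q].

For a finite normal `E/ℚ_q` the invariant of a local invariant system, composed with the
inflation from the level `E`, is an injective homomorphism
`J_K : H²(K, Eˣ) → (1/#K)ℤ/ℤ` for every subgroup `K` of `Gal(E/ℚ_q)`, compatible with restriction;
a cocycle `a` of `Gal(E/ℚ_q)` with `J(a) = 1/[E : ℚ_q]` exists by (I5), (I3), (I2) and the exactness
of inflation-restriction.  Hence `(Eˣ, a)` satisfies the hypotheses of Tate's theorem.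
Prefix `lh3_`.
-/
import Fermat.Agent.S55.Local.H3OmegaInj
import Fermat.Agent.S55.Local.H3Mu

set_option autoImplicit false

noncomputable section

namespace Fermat.Agent.S55

open groupCohomology

attribute [local instance] lh3_actΩ lh3_actE

/-! ### `ℚ/ℤ` -/

theorem lh3_qz_eq_zero_iff (r : ℚ) : lcf_qz r = 0 ↔ ∃ k : ℤ, (k : ℚ) = r := by
  rw [lcf_qz, QuotientAddGroup.mk'_apply, QuotientAddGroup.eq_zero_iff,
    AddSubgroup.mem_zmultiples_iff]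
  constructor
  · rintro ⟨k, hk⟩
    exact ⟨k, by rw [← hk, zsmul_eq_mul, mul_one]⟩
  · rintro ⟨k, hk⟩
    exact ⟨k, by rw [← hk, zsmul_eq_mul, mul_one]⟩

/-- An element of `ℚ/ℤ` killed by `n` is a multiple of `1/n`. -/
theorem lh3_qz_of_nsmul (n : ℕ) (hn : n ≠ 0) (t : lcf_QZ) (ht : n • t = 0) :
    ∃ m : ℤ, t = m • lcf_qz (1 / (n : ℚ)) := by
  obtain ⟨r, rfl⟩ := QuotientAddGroup.mk_surjective t
  have h1 : lcf_qz (n • r) = 0 := by
    rw [map_nsmul]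
    exact ht
  obtain ⟨k, hk⟩ := (lh3_qz_eq_zero_iff _).1 h1
  refine ⟨k, ?_⟩
  rw [← map_zsmul]
  show lcf_qz r = _
  congr 1
  have hn' : (n : ℚ) ≠ 0 := by exact_mod_cast hn
  rw [zsmul_eq_mul, hk, nsmul_eq_mul]
  field_simp

/-- The order of `1/n` in `ℚ/ℤ` is `n`. -/
theorem lh3_qz_dvd (n : ℕ) (hn : n ≠ 0) (m : ℤ) (h : m • lcf_qz (1 / (n : ℚ)) = 0) :
    (n : ℤ) ∣ m := by
  rw [← map_zsmul] at h
  obtain ⟨k, hk⟩ := (lh3_qz_eq_zero_iff _).1 h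
  have hn' : (n : ℚ) ≠ 0 := by exact_mod_cast hn
  refine ⟨k, ?_⟩
  have h2 : (m : ℚ) = (n : ℚ) * (k : ℚ) := by
    rw [hk, zsmul_eq_mul]
    field_simp
  exact_mod_cast h2

theorem lh3_qz_nsmul (k n : ℕ) (hk : k ≠ 0) :
    k • lcf_qz (1 / ((n * k : ℕ) : ℚ)) = lcf_qz (1 / (n : ℚ)) := by
  rw [← map_nsmul]
  congr 1
  have hk' : (k : ℚ) ≠ 0 := by exact_mod_cast hk
  rw [nsmul_eq_mul, Nat.cast_mul]
  by_cases hn : (n : ℚ) = 0
  · rw [hn, zero_mul, div_zero, mul_zero]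
  · field_simp

theorem lh3_qz_nsmul_self (n : ℕ) (hn : n ≠ 0) : n • lcf_qz (1 / (n : ℚ)) = 0 := by
  rw [← map_nsmul, lh3_qz_eq_zero_iff]
  refine ⟨1, ?_⟩
  have hn' : (n : ℚ) ≠ 0 := by exact_mod_cast hn
  rw [nsmul_eq_mul, Int.cast_one]
  field_simp

/-! ### cocycles of the trivial group -/

theorem lh3_cob_of_subsingleton {G A : Type*} [Group G] [Subsingleton G] [AddCommGroup A]
    [DistribMulAction G A] (f : G × G → A) : IsCoboundary₂ f := by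
  refine ⟨fun _ => f (1, 1), fun g h => ?_⟩
  have hg : g = 1 := Subsingleton.elim _ _
  have hh : h = 1 := Subsingleton.elim _ _
  subst hg hh
  rw [one_smul, mul_one, sub_self, zero_add]

theorem lh3_coe_sub_zsmul {G A : Type*} [Group G] [AddCommGroup A] [DistribMulAction G A]
    (f r : fg_Z2 G A) (m : ℤ) :
    ((f - m • r : fg_Z2 G A) : G × G → A) = fun p => (f : G × G → A) p - m • (r : G × G → A) p := by
  rw [AddSubgroup.coe_sub, AddSubgroup.coe_zsmul]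
  rfl

theorem lh3_coe_zsmul {G A : Type*} [Group G] [AddCommGroup A] [DistribMulAction G A]
    (r : fg_Z2 G A) (m : ℤ) :
    ((m • r : fg_Z2 G A) : G × G → A) = fun p => m • (r : G × G → A) p := by
  rw [AddSubgroup.coe_zsmul]
  rfl

variable {q : ℕ} [Fact q.Prime]

/-- The restriction of a smooth cocycle is a smooth cocycle. -/
theorem lh3_isCoc_res {U U' : Subgroup (lcf_Gal q)} (h : U' ≤ U)
    {f : ↥U × ↥U → (PadicAlgCl q)ˣ} (hf : lcf_IsCoc U f) : lcf_IsCoc U' (lcf_res h f) := by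
  obtain ⟨hc, E, hE, hs⟩ := hf
  refine ⟨fun g k j => hc (Subgroup.inclusion h g) (Subgroup.inclusion h k)
    (Subgroup.inclusion h j), E, hE, fun g g' s s' hs1 hs2 => ?_⟩
  exact hs (Subgroup.inclusion h g) (Subgroup.inclusion h g') (Subgroup.inclusion h s)
    (Subgroup.inclusion h s') hs1 hs2

/-! ### the invariant at a finite level -/

section J

variable (inv : lcf_InvType) (E : IntermediateField ℚ_[q] (PadicAlgCl q)) [Normal ℚ_[q] ↥E]

/-- The preimage in the local Galois group of a subgroup of `Gal(E/ℚ_q)`. -/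
def lh3_UK (K : Subgroup (↥E ≃ₐ[ℚ_[q]] ↥E)) : Subgroup (lcf_Gal q) :=
  K.comap (lh3_lev E).π

theorem lh3_mem_UK (K : Subgroup (↥E ≃ₐ[ℚ_[q]] ↥E)) (g : lcf_Gal q) :
    g ∈ lh3_UK E K ↔ (lh3_lev E).π g ∈ K := Iff.rfl

theorem lh3_UK_mono {K K' : Subgroup (↥E ≃ₐ[ℚ_[q]] ↥E)} (h : K' ≤ K) :
    lh3_UK E K' ≤ lh3_UK E K := Subgroup.comap_mono h

theorem lh3_UK_relIndex (K K' : Subgroup (↥E ≃ₐ[ℚ_[q]] ↥E)) :
    (lh3_UK E K').relIndex (lh3_UK E K) = K'.relIndex K := by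
  rw [lh3_UK, lh3_UK, Subgroup.relIndex_comap,
    Subgroup.map_comap_eq_self_of_surjective (lh3_lev E).π_surj]

/-- The invariant of (the inflation of) a 2-cochain of the subgroup `K` of `Gal(E/ℚ_q)`. -/
def lh3_J (K : Subgroup (↥E ≃ₐ[ℚ_[q]] ↥E)) (f : ↥K × ↥K → Additive (↥E)ˣ) : lcf_QZ :=
  inv q (lh3_UK E K) (lh3_infl E (lh3_UK E K) K (lh3_mem_UK E K) f)

theorem lh3_UK_open (hE : FiniteDimensional ℚ_[q] ↥E) (K : Subgroup (↥E ≃ₐ[ℚ_[q]] ↥E)) :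
    lcf_IsOpen (lh3_UK E K) :=
  ⟨E, hE, lh3_fix_le_U E (lh3_UK E K) K (lh3_mem_UK E K)⟩

end J

section J2

variable {inv : lcf_InvType} (hinv : lcf_IsInvSystem inv)
  (E : IntermediateField ℚ_[q] (PadicAlgCl q)) [Normal ℚ_[q] ↥E]
  (hE : FiniteDimensional ℚ_[q] ↥E)

include hinv hE

theorem lh3_J_add (K : Subgroup (↥E ≃ₐ[ℚ_[q]] ↥E)) (f f' : ↥K × ↥K → Additive (↥E)ˣ)
    (hf : IsCocycle₂ f) (hf' : IsCocycle₂ f') :
    lh3_J inv E K (f + f') = lh3_J inv E K f + lh3_J inv E K f' := by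
  have e : lh3_infl E (lh3_UK E K) K (lh3_mem_UK E K) (f + f') =
      lh3_infl E (lh3_UK E K) K (lh3_mem_UK E K) f *
        lh3_infl E (lh3_UK E K) K (lh3_mem_UK E K) f' := by
    funext p
    show ((lh3_iota E ((f + f') _)).toMul : (PadicAlgCl q)ˣ) = _
    rw [Pi.add_apply, map_add]
    rfl
  rw [lh3_J, e, hinv.add q _ (lh3_UK_open E hE K) _ _
    (lh3_infl_isCoc E hE _ K _ f hf) (lh3_infl_isCoc E hE _ K _ f' hf')]
  rfl

theorem lh3_J_eq_zero_iff (K : Subgroup (↥E ≃ₐ[ℚ_[q]] ↥E)) (f : ↥K × ↥K → Additive (↥E)ˣ)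
    (hf : IsCocycle₂ f) : lh3_J inv E K f = 0 ↔ IsCoboundary₂ f := by
  rw [lh3_J, hinv.eq_zero_iff q _ (lh3_UK_open E hE K) _ (lh3_infl_isCoc E hE _ K _ f hf)]
  exact ⟨lh3_inj E hE _ K _ f hf, lh3_infl_isCob E hE _ K _ f⟩

/-- The invariant as a homomorphism on the group of 2-cocycles. -/
def lh3_Jhom (K : Subgroup (↥E ≃ₐ[ℚ_[q]] ↥E)) : fg_Z2 ↥K (Additive (↥E)ˣ) →+ lcf_QZ :=
  AddMonoidHom.mk' (fun f => lh3_J inv E K (f : ↥K × ↥K → Additive (↥E)ˣ))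
    (fun f f' => lh3_J_add hinv E hE K _ _ f.2 f'.2)

theorem lh3_Jhom_apply (K : Subgroup (↥E ≃ₐ[ℚ_[q]] ↥E)) (f : fg_Z2 ↥K (Additive (↥E)ˣ)) :
    lh3_Jhom hinv E hE K f = lh3_J inv E K (f : ↥K × ↥K → Additive (↥E)ˣ) := rfl

theorem lh3_J_res (K K' : Subgroup (↥E ≃ₐ[ℚ_[q]] ↥E)) (h : K' ≤ K)
    (f : ↥K × ↥K → Additive (↥E)ˣ) (hf : IsCocycle₂ f) :
    lh3_J inv E K' (fun p => f (Subgroup.inclusion h p.1, Subgroup.inclusion h p.2)) =
      K'.relIndex K • lh3_J inv E K f := by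
  have h1 := hinv.res q (lh3_UK E K) (lh3_UK E K') (lh3_UK_mono E h) (lh3_UK_open E hE K')
    _ (lh3_infl_isCoc E hE _ K (lh3_mem_UK E K) f hf)
  rw [lh3_UK_relIndex] at h1
  exact h1

theorem lh3_J_torsion (K : Subgroup (↥E ≃ₐ[ℚ_[q]] ↥E)) (f : ↥K × ↥K → Additive (↥E)ˣ)
    (hf : IsCocycle₂ f) : Nat.card K • lh3_J inv E K f = 0 := by
  have h1 := lh3_J_res hinv E hE K ⊥ bot_le f hf
  rw [Subgroup.relIndex_bot_left] at h1
  rw [← h1, lh3_J_eq_zero_iff hinv E hE]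
  · exact lh3_cob_of_subsingleton _
  · intro g h j
    have hg : g = 1 := Subsingleton.elim _ _
    have hh : h = 1 := Subsingleton.elim _ _
    have hj : j = 1 := Subsingleton.elim _ _
    subst hg hh hj
    rw [one_smul, mul_one]

end J2

end Fermat.Agent.S55
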