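/-
S55 (wave 5), LOCAL side, package [R-CYC]: the leaf [RC-LNV] of `Global/RecCycDefs.lean`,
VERBATIM and hypothesis-free.  Owner: helper11.  Prefix `rcv_`.

* `rcv_norm_eq_prod`: the local norm `N_{K_U/ℚ_q} x` is the product of the `g x` over the cosets
  `g U` of `U` in `Gal(Ω_q/ℚ_q)`  (`rcv_embQ_bijective`: the embeddings of `K_U` are
  parametrized by `G ⧸ U`);
* `rcv_ef`: `‖q‖ = ‖ϖ‖ ^ e`, `N_U = q ^ f`, `e f = [G : U]`;
* `rcv_main : rcy_LNormValStatement`.
-/
import Fermat.Agent.S55.Global.RecCycDefs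
import Fermat.Agent.S55.Local.EFAbs
import Fermat.Agent.S55.Local.PowIdxPadic

set_option autoImplicit false
set_option linter.unusedSectionVars false

noncomputable section

namespace Fermat.Agent.S55

open groupCohomology

section Emb

variable {q : ℕ} [Fact q.Prime]

/-- `[K_U : ℚ_q] = [G : U]`. -/
theorem rcv_finrank_eq (U : Subgroup (lcf_Gal q)) (hU : lcf_IsOpen U) :
    Module.finrank ℚ_[q] ↥(IntermediateField.fixedField U) = U.index := by
  rw [IntermediateField.finrank_eq_fixingSubgroup_index (PadicAlgCl q)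
    (IntermediateField.fixedField U), unr_abs_fixing_fixed U hU]

theorem rcv_index_ne_zero (U : Subgroup (lcf_Gal q)) (hU : lcf_IsOpen U) : U.index ≠ 0 := by
  have := unr_abs_finite U hU
  rw [← rcv_finrank_eq U hU]
  exact Module.finrank_pos.ne'

theorem rcv_finite (U : Subgroup (lcf_Gal q)) (hU : lcf_IsOpen U) :
    Finite (lcf_Gal q ⧸ U) := by
  have : U.FiniteIndex := ⟨rcv_index_ne_zero U hU⟩
  exact Subgroup.finite_quotient_of_finiteIndex

/-- The embedding of `K_U` into `Ω` given by `g`. -/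
def rcv_emb (U : Subgroup (lcf_Gal q)) (g : lcf_Gal q) :
    ↥(IntermediateField.fixedField U) →ₐ[ℚ_[q]] PadicAlgCl q :=
  (g : PadicAlgCl q →ₐ[ℚ_[q]] PadicAlgCl q).comp (IntermediateField.fixedField U).val

theorem rcv_emb_apply (U : Subgroup (lcf_Gal q)) (g : lcf_Gal q)
    (x : ↥(IntermediateField.fixedField U)) : rcv_emb U g x = g (x : PadicAlgCl q) := rfl

theorem rcv_emb_eq_iff (U : Subgroup (lcf_Gal q)) (hU : lcf_IsOpen U) (g g' : lcf_Gal q) :
    rcv_emb U g = rcv_emb U g' ↔ g⁻¹ * g' ∈ U := by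
  constructor
  · intro h
    rw [← unr_abs_fixing_fixed U hU, IntermediateField.mem_fixingSubgroup_iff]
    intro x hx
    have h1 := DFunLike.congr_fun h ⟨x, hx⟩
    rw [rcv_emb_apply, rcv_emb_apply] at h1
    change g⁻¹ (g' x) = x
    rw [← h1]
    exact g.symm_apply_apply x
  · intro h
    ext x
    rw [rcv_emb_apply, rcv_emb_apply]
    have h1 : (g⁻¹ * g') (x : PadicAlgCl q) = x := x.2 ⟨g⁻¹ * g', h⟩
    have h2 : g ((g⁻¹ * g') (x : PadicAlgCl q)) = g' (x : PadicAlgCl q) := by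
      rw [← AlgEquiv.mul_apply, mul_inv_cancel_left]
    rw [← h2, h1]

/-- Elements of `K_U` are moved in the same way by all representatives of a coset. -/
theorem rcv_apply_out (U : Subgroup (lcf_Gal q)) (hU : lcf_IsOpen U) (g : lcf_Gal q)
    (x : PadicAlgCl q) (hx : x ∈ IntermediateField.fixedField U) :
    (Quotient.out (QuotientGroup.mk g : lcf_Gal q ⧸ U) : lcf_Gal q) x = g x := by
  have h1 : (QuotientGroup.mk (Quotient.out (QuotientGroup.mk g : lcf_Gal q ⧸ U)) :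
      lcf_Gal q ⧸ U) = QuotientGroup.mk g := Quotient.out_eq _
  rw [QuotientGroup.eq] at h1
  have h2 := (rcv_emb_eq_iff U hU _ _).2 h1
  have h3 := DFunLike.congr_fun h2 ⟨x, hx⟩
  exact h3

/-- The embeddings of `K_U` are parametrized by `G ⧸ U`. -/
theorem rcv_embQ_bijective (U : Subgroup (lcf_Gal q)) (hU : lcf_IsOpen U) :
    Function.Bijective (fun c : lcf_Gal q ⧸ U => rcv_emb U (Quotient.out c)) := by
  have hfin := unr_abs_finite U hU
  have hQ := rcv_finite U hU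
  have hinj : Function.Injective (fun c : lcf_Gal q ⧸ U => rcv_emb U (Quotient.out c)) := by
    intro c c' h
    have h1 := (rcv_emb_eq_iff U hU _ _).1 h
    rw [← Quotient.out_eq c, ← Quotient.out_eq c']
    exact QuotientGroup.eq.2 h1
  refine ⟨hinj, ?_⟩
  have hcard : Nat.card (↥(IntermediateField.fixedField U) →ₐ[ℚ_[q]] PadicAlgCl q) =
      Nat.card (lcf_Gal q ⧸ U) := by
    rw [AlgHom.natCard_of_splits ℚ_[q] ↥(IntermediateField.fixedField U) (PadicAlgCl q)
      (fun _ => IsAlgClosed.splits _), rcv_finrank_eq U hU]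
    rfl
  exact (Function.Injective.bijective_of_nat_card_le hinj hcard.le).2

/-- **The local norm is the product over the cosets.** -/
theorem rcv_norm_eq_prod (U : Subgroup (lcf_Gal q)) (hU : lcf_IsOpen U)
    [Fintype (lcf_Gal q ⧸ U)] (x : PadicAlgCl q) (hx : x ∈ IntermediateField.fixedField U) :
    rcy_locNorm U x = ∏ c : lcf_Gal q ⧸ U, (Quotient.out c : lcf_Gal q) x := by
  have hfin := unr_abs_finite U hU
  rw [rcy_locNorm_of_mem U x hx, Algebra.norm_eq_prod_embeddings ℚ_[q] (PadicAlgCl q)]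
  symm
  exact Fintype.prod_bijective _ (rcv_embQ_bijective U hU) _ _ (fun c => rfl)

/-- The local norm is multiplicative. -/
theorem rcv_norm_mul (U : Subgroup (lcf_Gal q)) (x y : PadicAlgCl q)
    (hx : x ∈ IntermediateField.fixedField U) (hy : y ∈ IntermediateField.fixedField U) :
    rcy_locNorm U (x * y) = rcy_locNorm U x * rcy_locNorm U y := by
  rw [rcy_locNorm_of_mem U x hx, rcy_locNorm_of_mem U y hy,
    rcy_locNorm_of_mem U (x * y) (mul_mem hx hy), ← map_mul, ← map_mul]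
  rfl

end Emb

section Val

variable {q : ℕ} [Fact q.Prime]

theorem rcv_resCard_eq (U : Subgroup (lcf_Gal q)) :
    lcf_resCard U = unr_resCard ↥(IntermediateField.fixedField U) := rfl

/-- `e f = [G : U]`, `‖q‖ = ‖ϖ‖ ^ e`, `N_U = q ^ f`. -/
theorem rcv_ef (U : Subgroup (lcf_Gal q)) (hU : lcf_IsOpen U) (ϖ : (PadicAlgCl q)ˣ)
    (hϖ : lcf_IsUnif U ϖ) :
    ∃ e f : ℕ, ‖(q : PadicAlgCl q)‖ = ‖(ϖ : PadicAlgCl q)‖ ^ e ∧ lcf_resCard U = q ^ f ∧
      e * f = U.index := by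
  have hfin := unr_abs_finite U hU
  obtain ⟨e, f, he, hf, hef⟩ := lef_ef ℚ_[q] ↥(IntermediateField.fixedField U)
  refine ⟨e, f, ?_, ?_, ?_⟩
  · rw [lef_norm_unif U hU ϖ hϖ, ← he, lpx_norm_unif_padic]
    have h1 : (q : PadicAlgCl q) = algebraMap ℚ_[q] (PadicAlgCl q) (q : ℚ_[q]) := by
      rw [map_natCast]
    rw [h1, PadicAlgCl.norm_extends]
  · rw [rcv_resCard_eq, hf, lpx_resCard_padic]
  · rw [hef, rcv_finrank_eq U hU]

/-- **[RC-LNV]**, hypothesis-free. -/
theorem rcv_main : rcy_LNormValStatement := by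
  intro ℓ _ U hU ϖ a j hϖ ha haj
  have hℓ : ℓ.Prime := Fact.out
  have hQ := rcv_finite U hU
  let _ : Fintype (lcf_Gal ℓ ⧸ U) := Fintype.ofFinite _
  have hmem : (a : PadicAlgCl ℓ) ∈ IntermediateField.fixedField U := lef_mem_fixedField U a ha
  obtain ⟨e, f, he, hf, hef⟩ := rcv_ef U hU ϖ hϖ
  rw [rcv_norm_eq_prod U hU _ hmem, norm_prod]
  have h1 : ∀ c : lcf_Gal ℓ ⧸ U, ‖(Quotient.out c : lcf_Gal ℓ) (a : PadicAlgCl ℓ)‖ =
      ‖(a : PadicAlgCl ℓ)‖ := fun c => unr_abs_norm_map _ _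
  rw [Finset.prod_congr rfl (fun c _ => h1 c), Finset.prod_const, Finset.card_univ,
    ← Nat.card_eq_fintype_card]
  have h2 : Nat.card (lcf_Gal ℓ ⧸ U) = e * f := by rw [hef]; rfl
  have hnq : ‖(ℓ : PadicAlgCl ℓ)‖ = (ℓ : ℝ)⁻¹ := by
    have h1 : (ℓ : PadicAlgCl ℓ) = algebraMap ℚ_[ℓ] (PadicAlgCl ℓ) (ℓ : ℚ_[ℓ]) := by
      rw [map_natCast]
    rw [h1, PadicAlgCl.norm_extends, Padic.norm_p]
  have hℓ0 : (0 : ℝ) < ℓ := by exact_mod_cast hℓ.pos
  rw [h2, haj, hf, ← zpow_natCast, ← zpow_mul, Nat.cast_mul, mul_comm j, mul_assoc,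
    zpow_mul, zpow_natCast, ← he, hnq, Nat.cast_pow, zpow_neg, ← zpow_natCast (ℓ : ℝ) f,
    ← zpow_mul, inv_zpow]

example : rcy_LNormValStatement := rcv_main

end Val

end Fermat.Agent.S55
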