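/-
S55 (wave 5), LOCAL side, package [R-CYC]: the cyclotomic uniformizer and Teichmueller lifts.
Owner: helper11.  Prefix `tame_`.

* `tame_cyc_unif` / `tame_cyc_unif_units`: for a primitive `q`-th root of unity `ζ ∈ Ω_q` there
  is `ϖ₀ = (1 - ζ) w₁` with `ϖ₀ ^ (q - 1) = -q`, `‖ϖ₀‖ = ‖1 - ζ‖`, fixed by every `g` fixing `ζ`,
  and `g ϖ₀ ≡ a ϖ₀` modulo `ϖ₀ 𝔪` whenever `g ζ = ζ ^ a`  (Wilson's theorem);
* `tame_teich_main : rcy_TeichStatement`  (the leaf [RC-TEICH], hypothesis-free);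
* `tame_cyc_teich`: `g P = ω P` for `P ^ (q - 1) = -q`, `g P ≡ k P`, `ω` the Teichmueller lift
  of `k`.
-/
import Fermat.Agent.S55.Local.TameLoc
import Fermat.Agent.S55.Global.CycExtLocal
import Fermat.Agent.S55.Global.RecCycDefs

set_option autoImplicit false
set_option linter.unusedSectionVars false

noncomputable section

namespace Fermat.Agent.S55

open groupCohomology

section Cyc

variable {q : ℕ} [Fact q.Prime]

theorem tame_norm_natCast (a : ℕ) : ‖(a : PadicAlgCl q)‖ = ‖(a : ℚ_[q])‖ := by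
  have h1 : (a : PadicAlgCl q) = algebraMap ℚ_[q] (PadicAlgCl q) (a : ℚ_[q]) := by
    rw [map_natCast]
  rw [h1, PadicAlgCl.norm_extends]

theorem tame_norm_intCast (a : ℤ) : ‖(a : PadicAlgCl q)‖ = ‖(a : ℚ_[q])‖ := by
  have h1 : (a : PadicAlgCl q) = algebraMap ℚ_[q] (PadicAlgCl q) (a : ℚ_[q]) := by
    rw [map_intCast]
  rw [h1, PadicAlgCl.norm_extends]

theorem tame_norm_natCast_le_one (a : ℕ) : ‖(a : PadicAlgCl q)‖ ≤ 1 := by
  rw [tame_norm_natCast]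
  have := Padic.norm_int_le_one (p := q) (a : ℤ)
  rwa [Int.cast_natCast] at this

/-- Integers prime to `q` have norm one in `Ω_q`. -/
theorem tame_norm_natCast_of_not_dvd (a : ℕ) (ha : ¬ q ∣ a) : ‖(a : PadicAlgCl q)‖ = 1 := by
  rw [tame_norm_natCast, Padic.norm_natCast_eq_one_iff]
  exact (Nat.Prime.coprime_iff_not_dvd Fact.out).2 ha

theorem tame_norm_q_sub_one : ‖((q - 1 : ℕ) : PadicAlgCl q)‖ = 1 := by
  rw [tame_norm_natCast]
  exact Padic.norm_natCast_p_sub_one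

/-- If two finite families in the unit ball are termwise congruent modulo the maximal ideal,
so are their products. -/
theorem tame_prod_congr_lt {ι : Type*} (s : Finset ι) (x y : ι → PadicAlgCl q)
    (hx : ∀ i ∈ s, ‖x i‖ ≤ 1) (hy : ∀ i ∈ s, ‖y i‖ ≤ 1) (h : ∀ i ∈ s, ‖x i - y i‖ < 1) :
    ‖∏ i ∈ s, x i - ∏ i ∈ s, y i‖ < 1 := by
  classical
  induction s using Finset.induction_on with
  | empty => simp
  | insert i s hi ih =>
    rw [Finset.prod_insert hi, Finset.prod_insert hi]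
    have hxs : ‖∏ j ∈ s, x j‖ ≤ 1 := by
      rw [norm_prod]
      exact Finset.prod_le_one (fun _ _ => norm_nonneg _)
        (fun j hj => hx j (Finset.mem_insert_of_mem hj))
    have e : x i * ∏ j ∈ s, x j - y i * ∏ j ∈ s, y j =
        (x i - y i) * ∏ j ∈ s, x j + y i * (∏ j ∈ s, x j - ∏ j ∈ s, y j) := by ring
    rw [e]
    refine lt_of_le_of_lt (IsUltrametricDist.norm_add_le_max _ _) (max_lt ?_ ?_)
    · rw [norm_mul]
      calc ‖x i - y i‖ * ‖∏ j ∈ s, x j‖ ≤ ‖x i - y i‖ * 1 :=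
            mul_le_mul_of_nonneg_left hxs (norm_nonneg _)
        _ < 1 := by rw [mul_one]; exact h i (Finset.mem_insert_self i s)
    · rw [norm_mul]
      have h1 := ih (fun j hj => hx j (Finset.mem_insert_of_mem hj))
        (fun j hj => hy j (Finset.mem_insert_of_mem hj))
        (fun j hj => h j (Finset.mem_insert_of_mem hj))
      calc ‖y i‖ * ‖∏ j ∈ s, x j - ∏ j ∈ s, y j‖
          ≤ 1 * ‖∏ j ∈ s, x j - ∏ j ∈ s, y j‖ :=
            mul_le_mul_of_nonneg_right (hy i (Finset.mem_insert_self i s)) (norm_nonneg _)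
        _ < 1 := by rw [one_mul]; exact h1

variable {ζ : PadicAlgCl q}

theorem tame_cyc_norm_zeta (hζ : IsPrimitiveRoot ζ q) : ‖ζ‖ = 1 :=
  cyx_norm_root q (Fact.out : q.Prime).ne_zero hζ.pow_eq_one

theorem tame_cyc_norm_pi_lt_one (hζ : IsPrimitiveRoot ζ q) : ‖1 - ζ‖ < 1 := by
  have hq : q.Prime := Fact.out
  have h := cyx_norm_pi q hζ
  by_contra hge
  have h1 : (1 : ℝ) ≤ ‖1 - ζ‖ ^ (q - 1) := one_le_pow₀ (not_lt.1 hge)
  rw [h] at h1
  have : (q : ℝ)⁻¹ < 1 := inv_lt_one_of_one_lt₀ (by exact_mod_cast hq.one_lt)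
  exact absurd h1 (not_le.2 this)

/-- `1 - ζ ^ k = (1 - ζ) * S_k`, `S_k = ∑_{i<k} ζ ^ i`. -/
theorem tame_cyc_geom (ζ : PadicAlgCl q) (k : ℕ) :
    1 - ζ ^ k = (1 - ζ) * ∑ i ∈ Finset.range k, ζ ^ i := by
  have := mul_geom_sum ζ k
  linear_combination this

/-- `S_k ≡ k` modulo `1 - ζ`. -/
theorem tame_cyc_geom_sub (hζ : IsPrimitiveRoot ζ q) (k : ℕ) :
    ‖∑ i ∈ Finset.range k, ζ ^ i - (k : PadicAlgCl q)‖ ≤ ‖1 - ζ‖ := by
  have e : ∑ i ∈ Finset.range k, ζ ^ i - (k : PadicAlgCl q) =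
      ∑ i ∈ Finset.range k, (ζ ^ i - 1) := by
    rw [Finset.sum_sub_distrib, Finset.sum_const, Finset.card_range, nsmul_eq_mul, mul_one]
  rw [e]
  refine IsUltrametricDist.norm_sum_le_of_forall_le_of_nonneg (norm_nonneg _) (fun i _ => ?_)
  rw [← norm_neg, neg_sub]
  exact cyx_norm_one_sub_pow_le q ζ (tame_cyc_norm_zeta hζ).le i

theorem tame_cyc_geom_norm_le (hζ : IsPrimitiveRoot ζ q) (k : ℕ) :
    ‖∑ i ∈ Finset.range k, ζ ^ i‖ ≤ 1 := by
  refine IsUltrametricDist.norm_sum_le_of_forall_le_of_nonneg zero_le_one (fun i _ => ?_)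
  rw [norm_pow, tame_cyc_norm_zeta hζ, one_pow]

/-- Wilson: `(q - 1)! ≡ -1` in `Ω_q`. -/
theorem tame_cyc_wilson : ‖(((q - 1).factorial : ℕ) : PadicAlgCl q) + 1‖ < 1 := by
  have hq : q.Prime := Fact.out
  have h1 : ((((q - 1).factorial + 1 : ℕ)) : ZMod q) = 0 := by
    rw [Nat.cast_add, ZMod.wilsons_lemma, Nat.cast_one, neg_add_cancel]
  have h2 : q ∣ (q - 1).factorial + 1 := (ZMod.natCast_eq_zero_iff _ _).1 h1
  have h3 : (((q - 1).factorial : ℕ) : PadicAlgCl q) + 1 =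
      (((q - 1).factorial + 1 : ℕ) : PadicAlgCl q) := by
    rw [Nat.cast_add, Nat.cast_one]
  rw [h3, tame_norm_natCast, Padic.norm_natCast_lt_one_iff]
  exact h2

/-- `q = (1 - ζ) ^ (q - 1) * P` with `P ≡ -1`. -/
theorem tame_cyc_w (hζ : IsPrimitiveRoot ζ q) :
    ∃ w : PadicAlgCl q, (1 - ζ) ^ (q - 1) * w = -(q : PadicAlgCl q) ∧ ‖w - 1‖ < 1 := by
  have hq : q.Prime := Fact.out
  have hq1 : q - 1 + 1 = q := Nat.succ_pred_eq_of_pos hq.pos
  have hζ' : IsPrimitiveRoot ζ (q - 1 + 1) := by rwa [hq1]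
  have h := IsPrimitiveRoot.prod_one_sub_pow_eq_order hζ'
  have h3 : (((q - 1 : ℕ) : PadicAlgCl q) + 1) = ((q : ℕ) : PadicAlgCl q) := by
    rw [← Nat.cast_one (R := PadicAlgCl q), ← Nat.cast_add, hq1]
  rw [h3] at h
  set P : PadicAlgCl q := ∏ k ∈ Finset.range (q - 1), ∑ i ∈ Finset.range (k + 1), ζ ^ i with hP
  have h4 : (1 - ζ) ^ (q - 1) * P = (q : PadicAlgCl q) := by
    have e1 : (1 - ζ) ^ (q - 1) = ∏ _k ∈ Finset.range (q - 1), (1 - ζ) := by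
      rw [Finset.prod_const, Finset.card_range]
    rw [← h, hP, e1, ← Finset.prod_mul_distrib]
    exact Finset.prod_congr rfl (fun k _ => (tame_cyc_geom ζ (k + 1)).symm)
  have h5 : ‖P - (((q - 1).factorial : ℕ) : PadicAlgCl q)‖ < 1 := by
    have e : (((q - 1).factorial : ℕ) : PadicAlgCl q) =
        ∏ k ∈ Finset.range (q - 1), ((k + 1 : ℕ) : PadicAlgCl q) := by
      rw [← Finset.prod_range_add_one_eq_factorial, Nat.cast_prod]
    rw [e, hP]
    refine tame_prod_congr_lt _ _ _ (fun k _ => tame_cyc_geom_norm_le hζ _)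
      (fun k _ => tame_norm_natCast_le_one _)
      (fun k _ => lt_of_le_of_lt (tame_cyc_geom_sub hζ _) (tame_cyc_norm_pi_lt_one hζ))
  refine ⟨-P, by rw [mul_neg, h4], ?_⟩
  have e : -P - 1 = -((P - (((q - 1).factorial : ℕ) : PadicAlgCl q)) +
      ((((q - 1).factorial : ℕ) : PadicAlgCl q) + 1)) := by ring
  rw [e, norm_neg]
  exact lt_of_le_of_lt (IsUltrametricDist.norm_add_le_max _ _) (max_lt h5 tame_cyc_wilson)

/-- Elements congruent to `1` have norm one. -/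
theorem tame_norm_eq_one_of_sub_lt {x : PadicAlgCl q} (h : ‖x - 1‖ < 1) : ‖x‖ = 1 := by
  have e : x = (x - 1) + 1 := by ring
  rw [e, IsUltrametricDist.norm_add_eq_max_of_norm_ne_norm (by rw [norm_one]; exact h.ne),
    norm_one, max_eq_right h.le]

/-- A `(q-1)`-th root congruent to `1` of an element congruent to `1`. -/
theorem tame_cyc_root (w : PadicAlgCl q) (hw : ‖w - 1‖ < 1) :
    ∃ w₁ : PadicAlgCl q, w₁ ^ (q - 1) = w ∧ ‖w₁ - 1‖ < 1 := by
  have hq : q.Prime := Fact.out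
  have hq1 : 0 < q - 1 := Nat.sub_pos_of_lt hq.one_lt
  obtain ⟨z, hz⟩ := IsAlgClosed.exists_pow_nat_eq w hq1
  obtain ⟨ξ, hξ, hzξ⟩ := unr_abs_exists_root z (q - 1) hq1 (by rw [hz]; exact hw)
  have hξ1 : ‖ξ‖ = 1 := cyx_norm_root q hq1.ne' hξ
  have hξ0 : ξ ≠ 0 := by
    rintro rfl
    rw [norm_zero] at hξ1
    exact zero_ne_one hξ1
  refine ⟨z / ξ, by rw [div_pow, hz, hξ, div_one], ?_⟩
  have e : z / ξ - 1 = (z - ξ) / ξ := by field_simp
  rw [e, norm_div, hξ1, div_one]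
  exact hzξ

/-- Uniqueness of the root congruent to `1`. -/
theorem tame_cyc_root_unique {w₁ w₂ : PadicAlgCl q} (h : w₁ ^ (q - 1) = w₂ ^ (q - 1))
    (h1 : ‖w₁ - 1‖ < 1) (h2 : ‖w₂ - 1‖ < 1) : w₁ = w₂ := by
  have hn1 := tame_norm_eq_one_of_sub_lt h1
  have hn2 := tame_norm_eq_one_of_sub_lt h2
  have h20 : w₂ ≠ 0 := by
    rintro rfl
    rw [norm_zero] at hn2
    exact zero_ne_one hn2
  have h3 : (w₁ / w₂) ^ (q - 1) = 1 := by
    rw [div_pow, h, div_self (pow_ne_zero _ h20)]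
  have h4 : ‖w₁ / w₂ - 1‖ < 1 := by
    have e : w₁ / w₂ - 1 = ((w₁ - 1) - (w₂ - 1)) / w₂ := by field_simp; ring
    rw [e, norm_div, hn2, div_one, sub_eq_add_neg]
    refine lt_of_le_of_lt (IsUltrametricDist.norm_add_le_max _ _) (max_lt h1 ?_)
    rw [norm_neg]
    exact h2
  have h5 := unr_abs_root_eq (q - 1) tame_norm_q_sub_one (w₁ / w₂) 1 h3 (one_pow _) h4
  exact (div_eq_one_iff_eq h20).1 h5

/-- **The cyclotomic uniformizer**: `ℚ_q(ζ_q)` contains `ϖ₀` with `ϖ₀ ^ (q - 1) = -q`, and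
`g ϖ₀ ≡ a ϖ₀` modulo `ϖ₀ ^ 2` whenever `g ζ = ζ ^ a`. -/
theorem tame_cyc_unif (hζ : IsPrimitiveRoot ζ q) :
    ∃ ϖ₀ : PadicAlgCl q, ϖ₀ ^ (q - 1) = -(q : PadicAlgCl q) ∧ ‖ϖ₀‖ = ‖1 - ζ‖ ∧
      (∀ g : lcf_Gal q, g ζ = ζ → g ϖ₀ = ϖ₀) ∧
      ∀ (g : lcf_Gal q) (a : ℕ), g ζ = ζ ^ a → ‖g ϖ₀ - (a : PadicAlgCl q) * ϖ₀‖ < ‖ϖ₀‖ := by
  have hq : q.Prime := Fact.out
  obtain ⟨w, hw, hw1⟩ := tame_cyc_w hζ
  obtain ⟨w₁, hw₁, hw₁1⟩ := tame_cyc_root w hw1
  have hn1 := tame_norm_eq_one_of_sub_lt hw₁1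
  have hπpos : 0 < ‖1 - ζ‖ := cyx_norm_pi_pos q hζ
  have hπ0 : (1 - ζ) ≠ 0 := norm_pos_iff.1 hπpos
  have hnorm : ‖(1 - ζ) * w₁‖ = ‖1 - ζ‖ := by rw [norm_mul, hn1, mul_one]
  have hgw : ∀ g : lcf_Gal q, ‖g w₁ - 1‖ < 1 := fun g => by
    have e : g w₁ - 1 = g (w₁ - 1) := by rw [map_sub, map_one]
    rw [e, unr_abs_norm_map]
    exact hw₁1
  refine ⟨(1 - ζ) * w₁, by rw [mul_pow, hw₁, hw], hnorm, fun g hg => ?_, fun g a hga => ?_⟩
  · have h1 : g (1 - ζ) = 1 - ζ := by rw [map_sub, map_one, hg]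
    have h2 : g w = w := by
      have e : w = -(q : PadicAlgCl q) / (1 - ζ) ^ (q - 1) := by
        rw [← hw, mul_div_cancel_left₀ _ (pow_ne_zero _ hπ0)]
      rw [e, map_div₀, map_neg, map_natCast, map_pow, h1]
    have h3 : g w₁ = w₁ := by
      refine tame_cyc_root_unique ?_ (hgw g) hw₁1
      rw [← map_pow, hw₁, h2]
    rw [map_mul, h1, h3]
  · have h1 : g (1 - ζ) = (1 - ζ) * ∑ i ∈ Finset.range a, ζ ^ i := by
      rw [map_sub, map_one, hga, tame_cyc_geom]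
    have e : g ((1 - ζ) * w₁) - (a : PadicAlgCl q) * ((1 - ζ) * w₁) =
        (1 - ζ) * ((∑ i ∈ Finset.range a, ζ ^ i - (a : PadicAlgCl q)) * g w₁ +
          (a : PadicAlgCl q) * ((g w₁ - 1) - (w₁ - 1))) := by
      rw [map_mul, h1]; ring
    rw [e, norm_mul, hnorm]
    have h4 : ‖(∑ i ∈ Finset.range a, ζ ^ i - (a : PadicAlgCl q)) * g w₁ +
        (a : PadicAlgCl q) * ((g w₁ - 1) - (w₁ - 1))‖ < 1 := by
      refine lt_of_le_of_lt (IsUltrametricDist.norm_add_le_max _ _) (max_lt ?_ ?_)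
      · rw [norm_mul, tame_norm_eq_one_of_sub_lt (hgw g), mul_one]
        exact lt_of_le_of_lt (tame_cyc_geom_sub hζ a) (tame_cyc_norm_pi_lt_one hζ)
      · rw [norm_mul]
        have h5 : ‖(g w₁ - 1) - (w₁ - 1)‖ < 1 := by
          rw [sub_eq_add_neg]
          refine lt_of_le_of_lt (IsUltrametricDist.norm_add_le_max _ _) (max_lt (hgw g) ?_)
          rw [norm_neg]
          exact hw₁1
        calc ‖(a : PadicAlgCl q)‖ * ‖(g w₁ - 1) - (w₁ - 1)‖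
            ≤ 1 * ‖(g w₁ - 1) - (w₁ - 1)‖ :=
              mul_le_mul_of_nonneg_right (tame_norm_natCast_le_one a) (norm_nonneg _)
          _ < 1 := by rw [one_mul]; exact h5
    calc ‖1 - ζ‖ * _ < ‖1 - ζ‖ * 1 := mul_lt_mul_of_pos_left h4 hπpos
      _ = ‖1 - ζ‖ := mul_one _


/-! ### Teichmueller lifts: the leaf [RC-TEICH] -/

/-- Fermat's little theorem in `Ω_q`. -/
theorem tame_fermat (a : ℕ) (ha : ¬ q ∣ a) : ‖(a : PadicAlgCl q) ^ (q - 1) - 1‖ < 1 := by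
  have hq : q.Prime := Fact.out
  have h0 : (a : ZMod q) ≠ 0 := by
    rw [Ne, ZMod.natCast_eq_zero_iff]
    exact ha
  have h1 : (a : ZMod q) ^ (q - 1) = 1 := ZMod.pow_card_sub_one_eq_one h0
  have h2 : ((a ^ (q - 1) : ℕ) : ZMod q) = ((1 : ℕ) : ZMod q) := by
    rw [Nat.cast_pow, Nat.cast_one]
    exact h1
  have h3 : a ^ (q - 1) ≡ 1 [MOD q] := (ZMod.natCast_eq_natCast_iff _ _ _).1 h2
  have hpos : 1 ≤ a ^ (q - 1) := Nat.one_le_pow _ _ (Nat.pos_of_ne_zero (by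
    rintro rfl
    exact ha (dvd_zero q)))
  have h4 : q ∣ a ^ (q - 1) - 1 := (Nat.modEq_iff_dvd' hpos).1 h3.symm
  have h5 : (a : PadicAlgCl q) ^ (q - 1) - 1 = ((a ^ (q - 1) - 1 : ℕ) : PadicAlgCl q) := by
    rw [Nat.cast_sub hpos, Nat.cast_pow, Nat.cast_one]
  rw [h5, tame_norm_natCast, Padic.norm_natCast_lt_one_iff]
  exact h4

/-- Two `(q-1)`-th roots of unity which are congruent modulo the maximal ideal are equal. -/
theorem tame_teich_unique {ω ω' : PadicAlgCl q} (h : ω ^ (q - 1) = 1) (h' : ω' ^ (q - 1) = 1)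
    (hlt : ‖ω - ω'‖ < 1) : ω = ω' :=
  unr_abs_root_eq (q - 1) tame_norm_q_sub_one ω ω' h h' hlt

/-- Existence of the Teichmueller lift, Galois-fixed. -/
theorem tame_teich_exists (a : ℕ) (ha : ¬ q ∣ a) :
    ∃ ω : PadicAlgCl q, ω ^ (q - 1) = 1 ∧ ‖ω - (a : PadicAlgCl q)‖ < 1 ∧
      ∀ g : lcf_Gal q, g ω = ω := by
  have hq : q.Prime := Fact.out
  have hq1 : 0 < q - 1 := Nat.sub_pos_of_lt hq.one_lt
  obtain ⟨ω, hω, haω⟩ := unr_abs_exists_root (a : PadicAlgCl q) (q - 1) hq1 (tame_fermat a ha)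
  have hωa : ‖ω - (a : PadicAlgCl q)‖ < 1 := by rwa [norm_sub_rev]
  refine ⟨ω, hω, hωa, fun g => ?_⟩
  refine tame_teich_unique (by rw [← map_pow, hω, map_one]) hω ?_
  have e : g ω - ω = g (ω - (a : PadicAlgCl q)) + ((a : PadicAlgCl q) - ω) := by
    rw [map_sub, map_natCast]; ring
  rw [e]
  refine lt_of_le_of_lt (IsUltrametricDist.norm_add_le_max _ _) (max_lt ?_ haω)
  rw [unr_abs_norm_map]
  exact hωa

/-- **[RC-TEICH]**, hypothesis-free. -/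
theorem tame_teich_main : rcy_TeichStatement := by
  intro q _
  have hq : q.Prime := Fact.out
  have hq1 : 0 < q - 1 := Nat.sub_pos_of_lt hq.one_lt
  refine ⟨fun a ha => ?_, fun ω ω' h h' hlt => ?_⟩
  · obtain ⟨ω, hω, hωa, hg⟩ := tame_teich_exists a ha
    have hω0 : ω ≠ 0 := by
      rintro rfl
      rw [zero_pow hq1.ne'] at hω
      exact zero_ne_one hω
    refine ⟨Units.mk0 ω hω0, Units.ext ?_, hωa, fun g => Units.ext (hg g)⟩
    rw [Units.val_pow_eq_pow_val, Units.val_mk0, hω, Units.val_one]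
  · refine Units.ext (tame_teich_unique ?_ ?_ hlt)
    · rw [← Units.val_pow_eq_pow_val, h, Units.val_one]
    · rw [← Units.val_pow_eq_pow_val, h', Units.val_one]

example : rcy_TeichStatement := tame_teich_main

/-- **The Galois action on a `(q-1)`-th root of `-q` is through the Teichmueller character**:
if `P ^ (q-1) = -q`, `‖g P - k P‖ < ‖P‖` and `ω` is the Teichmueller lift of `k`, then
`g P = ω P`. -/
theorem tame_cyc_teich {P ω : PadicAlgCl q} (hP : P ^ (q - 1) = -(q : PadicAlgCl q))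
    (hω : ω ^ (q - 1) = 1) (g : lcf_Gal q) (k : ℕ) (hωk : ‖ω - (k : PadicAlgCl q)‖ < 1)
    (hg : ‖g P - (k : PadicAlgCl q) * P‖ < ‖P‖) : g P = ω * P := by
  have hq : q.Prime := Fact.out
  have hq1 : 0 < q - 1 := Nat.sub_pos_of_lt hq.one_lt
  have hP0 : P ≠ 0 := by
    rintro rfl
    rw [zero_pow hq1.ne'] at hP
    have : (q : PadicAlgCl q) = 0 := by
      have := congrArg Neg.neg hP
      rw [neg_neg, neg_zero] at this
      exact this.symm
    have h2 : ‖(q : PadicAlgCl q)‖ = 0 := by rw [this, norm_zero]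
    rw [tame_norm_natCast, norm_eq_zero] at h2
    exact hq.ne_zero (by exact_mod_cast h2)
  have hPpos : 0 < ‖P‖ := norm_pos_iff.2 hP0
  have h1 : (g P / P) ^ (q - 1) = 1 := by
    rw [div_pow, ← map_pow, hP, map_neg, map_natCast, div_self]
    rw [← hP]
    exact pow_ne_zero _ hP0
  have h2 : ‖g P / P - ω‖ < 1 := by
    have e : g P / P - ω = (g P - (k : PadicAlgCl q) * P) / P + ((k : PadicAlgCl q) - ω) := by
      field_simp
      ring
    rw [e]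
    refine lt_of_le_of_lt (IsUltrametricDist.norm_add_le_max _ _) (max_lt ?_ ?_)
    · rw [norm_div]
      exact (div_lt_one hPpos).2 hg
    · rw [norm_sub_rev]
      exact hωk
  have h3 := tame_teich_unique h1 hω h2
  rw [← h3, div_mul_cancel₀ _ hP0]

/-- The cyclotomic uniformizer as a unit of `Ω_q`. -/
theorem tame_cyc_unif_units (hζ : IsPrimitiveRoot ζ q) :
    ∃ P : (PadicAlgCl q)ˣ, (P : PadicAlgCl q) ^ (q - 1) = -((q : ℕ) : PadicAlgCl q) ∧
      ‖(P : PadicAlgCl q)‖ = ‖1 - ζ‖ ∧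
      (∀ g : lcf_Gal q, g ζ = ζ → g • P = P) ∧
      ∀ (g : lcf_Gal q) (k : ℕ), g ζ = ζ ^ k →
        ‖g (P : PadicAlgCl q) - (k : PadicAlgCl q) * (P : PadicAlgCl q)‖ <
          ‖(P : PadicAlgCl q)‖ := by
  obtain ⟨ϖ₀, h1, h2, h3, h4⟩ := tame_cyc_unif hζ
  have h0 : ϖ₀ ≠ 0 := by
    have hpos := cyx_norm_pi_pos q hζ
    rw [← h2] at hpos
    exact norm_pos_iff.1 hpos
  exact ⟨Units.mk0 ϖ₀ h0, h1, h2, fun g hg => Units.ext (h3 g hg), h4⟩

end Cyc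

end Fermat.Agent.S55
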