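/-
S55 (wave 5), LOCAL side, package [R-CYC]: the leaf [RC-LNQ] of `Global/RecCycDefs.lean`,
VERBATIM and hypothesis-free.  Owner: helper11.  Prefix `rcq_`.

ROUTE.  `N_{K_U/ℚ_q} x = ∏_{c ∈ G/U} g_c x` (`rcv_norm_eq_prod`).
* `rcq_unram`: value group `q ^ ℤ` ⟹ `N_{UK} = q ^ f`, `f = [G : UK]`; `[G : U] = m f`.
* `rcq_prod_root`: for a primitive `(N-1)`-th root of unity `ξ₀` (it lies in `K_U`):
  `N ξ₀ = ξ₀ ^ (m (1 + q + ... + q^(f-1)))` - the map `c ↦ g_c ξ₀` is equivariant with image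
  `{ξ₀ ^ (q ^ i) : i < f}`, so all its fibres have `m` elements (`rcq_prod_fiber`).
* `rcq_prod_unif_sq`: `(N π) ^ 2 = (π ^ [G : U]) ^ 2` if `g π / π ∈ μ_(q-1)` for all `g` - the map
  `c ↦ g_c π / π` is equivariant and its image is stable under inversion.
* units of `K_U` are congruent to powers of `ξ₀` (`rcq_exists_root`).
-/
import Fermat.Agent.S55.Local.RcLNormVal
import Fermat.Agent.S55.Local.TameCyc
import Fermat.Agent.S55.Local.SplUnrUniq
import Fermat.Agent.S55.Local.SplUnitNormFree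

set_option autoImplicit false
set_option linter.unusedSectionVars false

noncomputable section

namespace Fermat.Agent.S55

open groupCohomology


/-! ### Fibres of equivariant maps on a transitive finite set -/

section Fiber

variable {G Z X M : Type*} [Group G] [MulAction G Z] [Fintype Z] [DecidableEq X] [CommMonoid M]

theorem rcq_fiber_card_le (htr : ∀ z w : Z, ∃ g : G, g • z = w) (ψ : Z → X)
    (hψ : ∀ (g : G) (z w : Z), ψ z = ψ w → ψ (g • z) = ψ (g • w)) (z₁ z₂ : Z) :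
    (Finset.univ.filter (fun w => ψ w = ψ z₁)).card ≤
      (Finset.univ.filter (fun w => ψ w = ψ z₂)).card := by
  obtain ⟨g, hg⟩ := htr z₁ z₂
  refine Finset.card_le_card_of_injOn (fun w => g • w) ?_ ?_
  · intro w hw
    rw [Finset.mem_coe, Finset.mem_filter] at hw ⊢
    refine ⟨Finset.mem_univ _, ?_⟩
    rw [← hg]
    exact hψ g w z₁ hw.2
  · intro a _ b _ h
    exact MulAction.injective g h

theorem rcq_fiber_card (htr : ∀ z w : Z, ∃ g : G, g • z = w) (ψ : Z → X)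
    (hψ : ∀ (g : G) (z w : Z), ψ z = ψ w → ψ (g • z) = ψ (g • w)) (z₁ z₂ : Z) :
    (Finset.univ.filter (fun w => ψ w = ψ z₁)).card =
      (Finset.univ.filter (fun w => ψ w = ψ z₂)).card :=
  le_antisymm (rcq_fiber_card_le htr ψ hψ z₁ z₂) (rcq_fiber_card_le htr ψ hψ z₂ z₁)

/-- The product of `F ∘ ψ` is a power of the product of `F` over the image of `ψ`. -/
theorem rcq_prod_fiber (htr : ∀ z w : Z, ∃ g : G, g • z = w) (ψ : Z → X)
    (hψ : ∀ (g : G) (z w : Z), ψ z = ψ w → ψ (g • z) = ψ (g • w)) (F : X → M) (z₀ : Z) :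
    ∏ z, F (ψ z) = (∏ b ∈ Finset.univ.image ψ, F b) ^
      (Finset.univ.filter (fun w => ψ w = ψ z₀)).card := by
  rw [Finset.prod_comp F ψ, ← Finset.prod_pow]
  refine Finset.prod_congr rfl (fun b hb => ?_)
  obtain ⟨z, _, rfl⟩ := Finset.mem_image.1 hb
  rw [rcq_fiber_card htr ψ hψ z z₀]

theorem rcq_card_fiber (htr : ∀ z w : Z, ∃ g : G, g • z = w) (ψ : Z → X)
    (hψ : ∀ (g : G) (z w : Z), ψ z = ψ w → ψ (g • z) = ψ (g • w)) (z₀ : Z) :
    (Finset.univ.image ψ).card * (Finset.univ.filter (fun w => ψ w = ψ z₀)).card =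
      Fintype.card Z := by
  have h := Finset.card_eq_sum_card_image ψ (Finset.univ : Finset Z)
  rw [Finset.card_univ] at h
  rw [h, ← smul_eq_mul, ← Finset.sum_const]
  refine Finset.sum_congr rfl (fun b hb => ?_)
  obtain ⟨z, _, rfl⟩ := Finset.mem_image.1 hb
  rw [rcq_fiber_card htr ψ hψ z z₀]

end Fiber

/-! ### The Frobenius of `ℚ_q` and roots of unity -/

section Top

variable {q : ℕ} [Fact q.Prime]

theorem rcq_isOpen_top : lcf_IsOpen (⊤ : Subgroup (lcf_Gal q)) :=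
  ⟨⊥, inferInstance, le_top⟩

theorem rcq_resCard_top : lcf_resCard (⊤ : Subgroup (lcf_Gal q)) = q := by
  have hfin := unr_abs_finite (⊤ : Subgroup (lcf_Gal q)) rcq_isOpen_top
  obtain ⟨e, f, -, hf, hef⟩ := lef_ef ℚ_[q]
    ↥(IntermediateField.fixedField (⊤ : Subgroup (lcf_Gal q)))
  rw [rcv_finrank_eq _ rcq_isOpen_top, Subgroup.index_top] at hef
  have hf1 : f = 1 := Nat.eq_one_of_mul_eq_one_left hef
  rw [rcv_resCard_eq, hf, lpx_resCard_padic, hf1, pow_one]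

/-- A Frobenius element of `ℚ_q`. -/
theorem rcq_exists_frob : ∃ φ : ↥(⊤ : Subgroup (lcf_Gal q)),
    lcf_IsFrob (⊤ : Subgroup (lcf_Gal q)) φ :=
  unr_abs_exists_frob _ rcq_isOpen_top

/-- Every element of `Gal(Ω_q/ℚ_q)` acts on a root of unity of order prime to `q` as a power
of `x ↦ x ^ q`. -/
theorem rcq_root_pow (M : ℕ) (hM : ‖(M : PadicAlgCl q)‖ = 1) (ξ : PadicAlgCl q)
    (hξ : ξ ^ M = 1) (g : lcf_Gal q) : ∃ j : ℕ, g ξ = ξ ^ (q ^ j) := by
  obtain ⟨φ, hφ⟩ := rcq_exists_frob (q := q)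
  obtain ⟨j, hj⟩ := unr_abs_exists_frob_pow ⊤ rcq_isOpen_top φ hφ ξ
    (fun s hs => unr_abs_inert_root _ hs M hM ξ hξ) ⟨g, Subgroup.mem_top g⟩
  refine ⟨j, ?_⟩
  have h := unr_abs_frob_pow_root ⊤ φ hφ M hM ξ hξ j
  rw [rcq_resCard_top] at h
  rw [← h]
  exact hj

/-- There is an element acting on the roots of unity of order prime to `q` as
`x ↦ x ^ (q ^ i)`. -/
theorem rcq_exists_frob_pow (i : ℕ) : ∃ g : lcf_Gal q, ∀ (M : ℕ),
    ‖(M : PadicAlgCl q)‖ = 1 → ∀ ξ : PadicAlgCl q, ξ ^ M = 1 → g ξ = ξ ^ (q ^ i) := by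
  obtain ⟨φ, hφ⟩ := rcq_exists_frob (q := q)
  refine ⟨((φ ^ i : ↥(⊤ : Subgroup (lcf_Gal q))) : lcf_Gal q), fun M hM ξ hξ => ?_⟩
  have h := unr_abs_frob_pow_root ⊤ φ hφ M hM ξ hξ i
  rw [rcq_resCard_top] at h
  exact h

/-- The `(q-1)`-th roots of unity are fixed by `Gal(Ω_q/ℚ_q)`. -/
theorem rcq_root_fixed (ξ : PadicAlgCl q) (hξ : ξ ^ (q - 1) = 1) (g : lcf_Gal q) : g ξ = ξ := by
  have hq : q.Prime := Fact.out
  obtain ⟨j, hj⟩ := rcq_root_pow (q - 1) tame_norm_q_sub_one ξ hξ g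
  rw [hj]
  have h1 : ξ ^ q = ξ := by
    have e : ξ ^ q = ξ ^ (q - 1) * ξ := by
      rw [← pow_succ, Nat.sub_add_cancel hq.one_le]
    rw [e, hξ, one_mul]
  clear hj
  induction j with
  | zero => rw [pow_zero, pow_one]
  | succ j ih => rw [pow_succ, pow_mul, ih, h1]

end Top

section Tame

variable {q : ℕ} [Fact q.Prime]

/-- `q ^ f - 1` is a unit of `Ω_q`. -/
theorem rcq_norm_pred (f : ℕ) (hf : 0 < f) : ‖((q ^ f - 1 : ℕ) : PadicAlgCl q)‖ = 1 := by
  have hq : q.Prime := Fact.out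
  refine tame_norm_natCast_of_not_dvd _ (fun h => ?_)
  have h1 : q ∣ q ^ f := dvd_pow_self q hf.ne'
  have h2 : 1 ≤ q ^ f := Nat.one_le_pow _ _ hq.pos
  have h3 : q ∣ q ^ f - (q ^ f - 1) := Nat.dvd_sub h1 h
  have h4 : q ^ f - (q ^ f - 1) = 1 := by omega
  rw [h4] at h3
  exact hq.one_lt.ne' (Nat.dvd_one.1 h3)

/-- `(q - 1) (1 + q + ... + q ^ (f-1)) + 1 = q ^ f`. -/
theorem rcq_geom (f : ℕ) : (q - 1) * ∑ i ∈ Finset.range f, q ^ i + 1 = q ^ f := by
  have hq : q.Prime := Fact.out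
  have hq1 : q - 1 + 1 = q := Nat.sub_add_cancel hq.one_le
  induction f with
  | zero => simp
  | succ f ih =>
    rw [Finset.sum_range_succ, mul_add, add_right_comm, ih, pow_succ]
    have e : q ^ f * q = q ^ f * (q - 1 + 1) := by rw [hq1]
    rw [e]
    ring

/-- The exponent `q ^ j` only matters modulo `f` on `μ_(q^f - 1)`. -/
theorem rcq_pow_mod (f : ℕ) (ξ : PadicAlgCl q) (hξ : ξ ^ (q ^ f - 1) = 1) (j : ℕ) :
    ξ ^ (q ^ j) = ξ ^ (q ^ (j % f)) := by
  have hq : q.Prime := Fact.out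
  have h1 : ξ ^ (q ^ f) = ξ := by
    have e : ξ ^ (q ^ f) = ξ ^ (q ^ f - 1) * ξ := by
      rw [← pow_succ, Nat.sub_add_cancel (Nat.one_le_pow _ _ hq.pos)]
    rw [e, hξ, one_mul]
  have h2 : ∀ t : ℕ, ξ ^ ((q ^ f) ^ t) = ξ := by
    intro t
    induction t with
    | zero => rw [pow_zero, pow_one]
    | succ t ih => rw [pow_succ, pow_mul, ih, h1]
  have e : q ^ j = (q ^ f) ^ (j / f) * q ^ (j % f) := by
    rw [← pow_mul, ← pow_add, Nat.div_add_mod]
  rw [e, pow_mul, h2]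

/-- The conjugates `ξ₀ ^ (q ^ i)`, `i < f`, are pairwise different. -/
theorem rcq_pow_injOn (f : ℕ) (ξ₀ : PadicAlgCl q) (hξ₀ : IsPrimitiveRoot ξ₀ (q ^ f - 1)) :
    Set.InjOn (fun i : ℕ => ξ₀ ^ (q ^ i)) (Finset.range f : Set ℕ) := by
  have hq : q.Prime := Fact.out
  intro i hi i' hi' h
  rw [Finset.mem_coe, Finset.mem_range] at hi hi'
  by_cases hf : f = 1
  · subst hf
    omega
  have hf2 : 2 ≤ f := by omega
  have hlt : ∀ k : ℕ, k < f → q ^ k < q ^ f - 1 := by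
    intro k hk
    have h1 : q ^ k ≤ q ^ (f - 1) := Nat.pow_le_pow_right hq.pos (by omega)
    have h2 : q ^ f = q ^ (f - 1) * q := by
      rw [← pow_succ, Nat.sub_add_cancel (by omega)]
    have h3 : 2 ≤ q ^ (f - 1) := by
      calc 2 ≤ q := hq.two_le
        _ = q ^ 1 := (pow_one q).symm
        _ ≤ q ^ (f - 1) := Nat.pow_le_pow_right hq.pos (by omega)
    have h4 : q ^ (f - 1) * 2 ≤ q ^ (f - 1) * q := Nat.mul_le_mul_left _ hq.two_le
    omega
  have h5 := hξ₀.pow_inj (hlt i hi) (hlt i' hi') h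
  exact Nat.pow_right_injective hq.two_le h5

variable (U : Subgroup (lcf_Gal q)) (hU : lcf_IsOpen U)

include hU in
/-- `U` fixes the roots of unity of order `N_U - 1`. -/
theorem rcq_fixed_root (ξ : PadicAlgCl q) (hM : ‖((lcf_resCard U - 1 : ℕ) : PadicAlgCl q)‖ = 1)
    (hξ : ξ ^ (lcf_resCard U - 1) = 1) (g : ↥U) : (g : lcf_Gal q) ξ = ξ := by
  obtain ⟨φ, hφ⟩ := unr_abs_exists_frob U hU
  have hN : 1 ≤ lcf_resCard U := le_trans (by norm_num) (sun_two_le_resCard hU)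
  obtain ⟨j, hj⟩ := unr_abs_exists_frob_pow U hU φ hφ ξ
    (fun s hs => unr_abs_inert_root _ hs _ hM ξ hξ) g
  rw [hj, unr_abs_frob_pow_root U φ hφ _ hM ξ hξ j]
  have h1 : ξ ^ lcf_resCard U = ξ := by
    have e : ξ ^ lcf_resCard U = ξ ^ (lcf_resCard U - 1) * ξ := by
      rw [← pow_succ, Nat.sub_add_cancel hN]
    rw [e, hξ, one_mul]
  clear hj
  induction j with
  | zero => rw [pow_zero, pow_one]
  | succ j ih => rw [pow_succ, pow_mul, ih, h1]

include hU in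
/-- Units of `K_U` are congruent to roots of unity of order `N_U - 1`. -/
theorem rcq_exists_root (x : PadicAlgCl q) (hx : x ∈ IntermediateField.fixedField U)
    (hx1 : ‖x‖ = 1) : ∃ ξ : PadicAlgCl q, ξ ^ (lcf_resCard U - 1) = 1 ∧ ‖x - ξ‖ < 1 := by
  obtain ⟨φ, hφ⟩ := unr_abs_exists_frob U hU
  have hN : 2 ≤ lcf_resCard U := sun_two_le_resCard hU
  have h1 := hφ x hx1.le
  have hfix : (φ : lcf_Gal q) x = x := hx φ
  rw [hfix] at h1
  have e : x - x ^ lcf_resCard U = -(x * (x ^ (lcf_resCard U - 1) - 1)) := by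
    have e' : x ^ lcf_resCard U = x ^ (lcf_resCard U - 1) * x := by
      rw [← pow_succ, Nat.sub_add_cancel (by omega)]
    rw [e']
    ring
  rw [e, norm_neg, norm_mul, hx1, one_mul] at h1
  exact unr_abs_exists_root x (lcf_resCard U - 1) (by omega) h1

end Tame


/-! ### The norm of a root of unity and of a root of `-q` -/

section Prod

variable {q : ℕ} [Fact q.Prime] (U : Subgroup (lcf_Gal q)) (hU : lcf_IsOpen U)

theorem rcq_smul_eq (g : lcf_Gal q) (c : lcf_Gal q ⧸ U) :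
    g • c = (QuotientGroup.mk (g * Quotient.out c) : lcf_Gal q ⧸ U) := by
  conv_lhs => rw [← QuotientGroup.out_eq' c]
  rfl

include hU in
theorem rcq_out_smul (g : lcf_Gal q) (c : lcf_Gal q ⧸ U) (x : PadicAlgCl q)
    (hx : x ∈ IntermediateField.fixedField U) :
    (Quotient.out (g • c) : lcf_Gal q) x = g ((Quotient.out c : lcf_Gal q) x) := by
  rw [rcq_smul_eq, rcv_apply_out U hU _ x hx]
  rfl

theorem rcq_trans (z w : lcf_Gal q ⧸ U) : ∃ g : lcf_Gal q, g • z = w :=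
  MulAction.exists_smul_eq (lcf_Gal q) z w

include hU in
/-- **The norm of a primitive `(N-1)`-th root of unity.** -/
theorem rcq_prod_root [Fintype (lcf_Gal q ⧸ U)] (f m : ℕ) (hf : 0 < f)
    (hN : lcf_resCard U = q ^ f) (hd : U.index = m * f) (ξ₀ : PadicAlgCl q)
    (hξ₀ : IsPrimitiveRoot ξ₀ (q ^ f - 1)) :
    ∏ c : lcf_Gal q ⧸ U, (Quotient.out c : lcf_Gal q) ξ₀ =
      ξ₀ ^ (m * ∑ i ∈ Finset.range f, q ^ i) := by
  classical
  have hM : ‖((lcf_resCard U - 1 : ℕ) : PadicAlgCl q)‖ = 1 := by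
    rw [hN]
    exact rcq_norm_pred f hf
  have hM' : ‖((q ^ f - 1 : ℕ) : PadicAlgCl q)‖ = 1 := rcq_norm_pred f hf
  have hmem : ξ₀ ∈ IntermediateField.fixedField U := fun g =>
    rcq_fixed_root U hU ξ₀ hM (by rw [hN]; exact hξ₀.pow_eq_one) g
  set ψ : lcf_Gal q ⧸ U → PadicAlgCl q := fun c => (Quotient.out c : lcf_Gal q) ξ₀ with hψdef
  have hψ : ∀ (g : lcf_Gal q) (z w : lcf_Gal q ⧸ U), ψ z = ψ w → ψ (g • z) = ψ (g • w) := by
    intro g z w h
    simp only [hψdef] at h ⊢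
    rw [rcq_out_smul U hU g z ξ₀ hmem, rcq_out_smul U hU g w ξ₀ hmem, h]
  have himage : Finset.univ.image ψ = (Finset.range f).image (fun i : ℕ => ξ₀ ^ (q ^ i)) := by
    ext b
    rw [Finset.mem_image, Finset.mem_image]
    constructor
    · rintro ⟨c, -, rfl⟩
      obtain ⟨j, hj⟩ := rcq_root_pow (q ^ f - 1) hM' ξ₀ hξ₀.pow_eq_one (Quotient.out c)
      refine ⟨j % f, Finset.mem_range.2 (Nat.mod_lt _ hf), ?_⟩
      rw [← rcq_pow_mod f ξ₀ hξ₀.pow_eq_one j]
      exact hj.symm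
    · rintro ⟨i, -, rfl⟩
      obtain ⟨g, hg⟩ := rcq_exists_frob_pow (q := q) i
      refine ⟨QuotientGroup.mk g, Finset.mem_univ _, ?_⟩
      simp only [hψdef]
      rw [rcv_apply_out U hU g ξ₀ hmem]
      exact hg _ hM' ξ₀ hξ₀.pow_eq_one
  have hinj := rcq_pow_injOn f ξ₀ hξ₀
  have hcard : (Finset.univ.image ψ).card = f := by
    rw [himage, Finset.card_image_of_injOn hinj, Finset.card_range]
  have hk := rcq_card_fiber (rcq_trans U) ψ hψ (QuotientGroup.mk 1)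
  rw [hcard, ← Nat.card_eq_fintype_card, ← Subgroup.index_eq_card, hd, mul_comm m f] at hk
  have hk' : (Finset.univ.filter (fun w => ψ w = ψ (QuotientGroup.mk 1))).card = m :=
    Nat.eq_of_mul_eq_mul_left hf hk
  have h1 := rcq_prod_fiber (rcq_trans U) ψ hψ (fun x => x) (QuotientGroup.mk 1)
  rw [hk', himage, Finset.prod_image hinj, Finset.prod_pow_eq_pow_sum, ← pow_mul,
    mul_comm] at h1
  exact h1

include hU in
/-- **The norm of a root of `-q`, up to sign.** -/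
theorem rcq_prod_unif_sq [Fintype (lcf_Gal q ⧸ U)] (π : PadicAlgCl q) (hπ0 : π ≠ 0)
    (hπU : π ∈ IntermediateField.fixedField U)
    (hπ : ∀ g : lcf_Gal q, (g π / π) ^ (q - 1) = 1) :
    (∏ c : lcf_Gal q ⧸ U, (Quotient.out c : lcf_Gal q) π) ^ 2 = (π ^ U.index) ^ 2 := by
  classical
  have hfix : ∀ g h : lcf_Gal q, g (h π / π) = h π / π := fun g h =>
    rcq_root_fixed _ (hπ h) g
  have hmul : ∀ g h : lcf_Gal q, (g * h) π / π = (g π / π) * (h π / π) := by
    intro g h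
    have hg0 : g π ≠ 0 := (map_ne_zero (g : PadicAlgCl q →+* PadicAlgCl q)).2 hπ0
    have e : (g * h) π / π = g (h π / π) * (g π / π) := by
      rw [AlgEquiv.mul_apply, map_div₀]
      field_simp
    rw [e, hfix, mul_comm]
  have hinv : ∀ g : lcf_Gal q, g⁻¹ π / π = (g π / π)⁻¹ := by
    intro g
    have h1 := hmul g g⁻¹
    rw [mul_inv_cancel, AlgEquiv.one_apply, div_self hπ0] at h1
    exact eq_inv_of_mul_eq_one_right h1.symm
  set ψ : lcf_Gal q ⧸ U → PadicAlgCl q := fun c => (Quotient.out c : lcf_Gal q) π / π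
    with hψdef
  have hψsmul : ∀ (g : lcf_Gal q) (z : lcf_Gal q ⧸ U), ψ (g • z) = (g π / π) * ψ z := by
    intro g z
    simp only [hψdef]
    rw [rcq_out_smul U hU g z π hπU, ← AlgEquiv.mul_apply, hmul]
  have hψ : ∀ (g : lcf_Gal q) (z w : lcf_Gal q ⧸ U), ψ z = ψ w → ψ (g • z) = ψ (g • w) := by
    intro g z w h
    rw [hψsmul, hψsmul, h]
  have hψ0 : ∀ z, ψ z ≠ 0 := fun z =>
    div_ne_zero ((map_ne_zero ((Quotient.out z : lcf_Gal q) :
      PadicAlgCl q →+* PadicAlgCl q)).2 hπ0) hπ0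
  -- the image is stable under inversion
  have hstab : ∀ b ∈ Finset.univ.image ψ, b⁻¹ ∈ Finset.univ.image ψ := by
    intro b hb
    obtain ⟨c, -, rfl⟩ := Finset.mem_image.1 hb
    refine Finset.mem_image.2 ⟨QuotientGroup.mk (Quotient.out c)⁻¹, Finset.mem_univ _, ?_⟩
    simp only [hψdef]
    rw [rcv_apply_out U hU _ π hπU, hinv]
  set Q : PadicAlgCl q := ∏ b ∈ Finset.univ.image ψ, b with hQ
  have hQ0 : Q ≠ 0 := by
    rw [hQ, Finset.prod_ne_zero_iff]
    intro b hb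
    obtain ⟨c, -, rfl⟩ := Finset.mem_image.1 hb
    exact hψ0 c
  have hQinv : Q = Q⁻¹ := by
    rw [hQ, ← Finset.prod_inv_distrib]
    exact Finset.prod_nbij' (fun b => b⁻¹) (fun b => b⁻¹) hstab hstab
      (fun b _ => inv_inv b) (fun b _ => inv_inv b) (fun b _ => (inv_inv b).symm)
  have hQ2 : Q ^ 2 = 1 := by
    rw [pow_two]
    nth_rewrite 2 [hQinv]
    exact mul_inv_cancel₀ hQ0
  have h1 := rcq_prod_fiber (rcq_trans U) ψ hψ (fun x => x) (QuotientGroup.mk 1)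
  have h2 : ∏ c : lcf_Gal q ⧸ U, (Quotient.out c : lcf_Gal q) π =
      (∏ c : lcf_Gal q ⧸ U, ψ c) * π ^ U.index := by
    rw [Subgroup.index_eq_card, Nat.card_eq_fintype_card, ← Finset.card_univ,
      ← Finset.prod_const, ← Finset.prod_mul_distrib]
    refine Finset.prod_congr rfl (fun c _ => ?_)
    simp only [hψdef]
    rw [div_mul_cancel₀ _ hπ0]
  rw [h2, h1, mul_pow, ← pow_mul, mul_comm _ 2, pow_mul, hQ2, one_pow, one_mul]

end Prod


/-! ### The leaf [RC-LNQ] -/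

section Main

variable {q : ℕ} [Fact q.Prime]

/-- An open subgroup whose fixed field has value group `q ^ ℤ` has residue cardinality
`q ^ [G : U]`. -/
theorem rcq_unram (UK : Subgroup (lcf_Gal q)) (hUK : lcf_IsOpen UK)
    (hval : ∀ x : (PadicAlgCl q)ˣ, (∀ g : ↥UK, g • x = x) →
      ∃ k : ℤ, ‖(x : PadicAlgCl q)‖ = ((q : ℕ) : ℝ) ^ k) :
    lcf_resCard UK = q ^ UK.index := by
  have hq : q.Prime := Fact.out
  have hfin := unr_abs_finite UK hUK
  obtain ⟨e, f, he, hf, hef⟩ := lef_ef ℚ_[q] ↥(IntermediateField.fixedField UK)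
  have hπ0 : ((lf_unif ↥(IntermediateField.fixedField UK) :
      ↥(IntermediateField.fixedField UK)) : PadicAlgCl q) ≠ 0 := by
    intro h
    exact lf_unif_ne_zero ↥(IntermediateField.fixedField UK) (Subtype.ext h)
  obtain ⟨k, hk⟩ := hval (Units.mk0 _ hπ0)
    (fun g => Units.ext ((lf_unif ↥(IntermediateField.fixedField UK)).2 g))
  rw [Units.val_mk0] at hk
  have hk' : ‖lf_unif ↥(IntermediateField.fixedField UK)‖ = (q : ℝ) ^ k := hk
  rw [lpx_norm_unif_padic, Padic.norm_p, hk', ← zpow_natCast, ← zpow_mul, ← zpow_neg_one] at he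
  have hq1 : (1 : ℝ) < q := by exact_mod_cast hq.one_lt
  have h3 : (-1 : ℤ) = k * e := zpow_right_injective₀ (by positivity) hq1.ne' he
  have he1 : e = 1 := by
    have h4 : (e : ℤ) ∣ 1 := ⟨-k, by linarith⟩
    have h5 := Int.eq_one_of_dvd_one (by positivity) h4
    exact_mod_cast h5
  rw [he1, one_mul] at hef
  rw [rcv_resCard_eq, hf, lpx_resCard_padic, hef, rcv_finrank_eq UK hUK]

/-- Congruent elements of the unit ball have congruent powers. -/
theorem rcq_pow_congr {x y : PadicAlgCl q} (hx : ‖x‖ ≤ 1) (hy : ‖y‖ ≤ 1) (h : ‖x - y‖ < 1)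
    (e : ℕ) : ‖x ^ e - y ^ e‖ < 1 := by
  have := tame_prod_congr_lt (Finset.range e) (fun _ => x) (fun _ => y) (fun _ _ => hx)
    (fun _ _ => hy) (fun _ _ => h)
  rwa [Finset.prod_const, Finset.prod_const, Finset.card_range] at this

/-- **[RC-LNQ]**, hypothesis-free. -/
theorem rcq_main : rcy_LNormTameStatement := by
  intro q _ U UK hU hle hval hres n π a j hmn hπU hπm haU haj
  have hq : q.Prime := Fact.out
  have hUK : lcf_IsOpen UK := lef_isOpen_of_le hle hU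
  have hQ := rcv_finite U hU
  let _ : Fintype (lcf_Gal q ⧸ U) := Fintype.ofFinite _
  have hf0 : 0 < UK.index := Nat.pos_of_ne_zero (rcv_index_ne_zero UK hUK)
  have hNK : lcf_resCard UK = q ^ UK.index := rcq_unram UK hUK hval
  have hN : lcf_resCard U = q ^ UK.index := hres.trans hNK
  have hd : U.index = U.relIndex UK * UK.index := (Subgroup.relIndex_mul_index hle).symm
  -- membership
  have hπmem : (π : PadicAlgCl q) ∈ IntermediateField.fixedField U :=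
    lef_mem_fixedField U π hπU
  have hamem : (a : PadicAlgCl q) ∈ IntermediateField.fixedField U :=
    lef_mem_fixedField U a haU
  have huU : ∀ g : ↥U, g • (a / π ^ j) = a / π ^ j := by
    intro g
    rw [smul_div', smul_zpow', haU, hπU]
  have humem : ((a / π ^ j : (PadicAlgCl q)ˣ) : PadicAlgCl q) ∈
      IntermediateField.fixedField U := lef_mem_fixedField U _ huU
  have hu1 : ‖((a / π ^ j : (PadicAlgCl q)ˣ) : PadicAlgCl q)‖ = 1 := by
    rw [Units.val_div_eq_div_val, norm_div, Units.val_zpow_eq_zpow_val, norm_zpow, haj,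
      div_self (zpow_ne_zero _ (norm_ne_zero_iff.2 π.ne_zero))]
  have hau : (a : PadicAlgCl q) = (π : PadicAlgCl q) ^ j *
      ((a / π ^ j : (PadicAlgCl q)ˣ) : PadicAlgCl q) := by
    rw [← Units.val_zpow_eq_zpow_val, ← Units.val_mul, mul_div_cancel]
  -- the primitive root
  have hM' : ‖((q ^ UK.index - 1 : ℕ) : PadicAlgCl q)‖ = 1 := rcq_norm_pred _ hf0
  have hpos : 0 < q ^ UK.index - 1 := by
    have : 2 ≤ q ^ UK.index := by
      calc 2 ≤ q := hq.two_le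
        _ = q ^ 1 := (pow_one q).symm
        _ ≤ q ^ UK.index := Nat.pow_le_pow_right hq.pos hf0
    omega
  have hne : NeZero (q ^ UK.index - 1) := ⟨hpos.ne'⟩
  obtain ⟨ξ₀, hξ₀⟩ := HasEnoughRootsOfUnity.exists_primitiveRoot (PadicAlgCl q)
    (q ^ UK.index - 1)
  obtain ⟨ξ, hξ, huξ⟩ := rcq_exists_root U hU _ humem hu1
  rw [hN] at hξ
  obtain ⟨t, -, rfl⟩ := hξ₀.eq_pow_of_pow_eq_one hξ
  -- the exponent
  have hgeom := rcq_geom (q := q) UK.index
  have hexp : (lcf_resCard U - 1) / n = U.relIndex UK * ∑ i ∈ Finset.range UK.index, q ^ i := by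
    have hn0 : 0 < n := by
      rcases Nat.eq_zero_or_pos n with h | h
      · rw [h, mul_zero] at hmn
        have := hq.two_le
        omega
      · exact h
    have h1 : lcf_resCard U - 1 = (U.relIndex UK * ∑ i ∈ Finset.range UK.index, q ^ i) * n := by
      rw [hN, ← hgeom, Nat.add_sub_cancel, ← hmn]
      ring
    rw [h1, Nat.mul_div_cancel _ hn0]
  -- the two products
  have hπcond : ∀ g : lcf_Gal q, (g (π : PadicAlgCl q) / (π : PadicAlgCl q)) ^ (q - 1) = 1 := by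
    intro g
    rw [← hmn, pow_mul, div_pow, ← map_pow, hπm, map_neg, map_natCast,
      div_self (neg_ne_zero.2 (by exact_mod_cast hq.ne_zero)), one_pow]
  have hA := rcq_prod_unif_sq U hU (π : PadicAlgCl q) π.ne_zero hπmem hπcond
  have hB := rcq_prod_root U hU UK.index (U.relIndex UK) hf0 hN hd ξ₀ hξ₀
  set A : PadicAlgCl q := ∏ c : lcf_Gal q ⧸ U, (Quotient.out c : lcf_Gal q) (π : PadicAlgCl q)
    with hAdef
  set B : PadicAlgCl q := ∏ c : lcf_Gal q ⧸ U,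
    (Quotient.out c : lcf_Gal q) ((a / π ^ j : (PadicAlgCl q)ˣ) : PadicAlgCl q) with hBdef
  have hnorm : rcy_locNorm U (a : PadicAlgCl q) = A ^ j * B := by
    rw [rcv_norm_eq_prod U hU _ hamem, hAdef, hBdef, ← Finset.prod_zpow,
      ← Finset.prod_mul_distrib]
    refine Finset.prod_congr rfl (fun c _ => ?_)
    rw [← map_zpow₀, ← map_mul, ← hau]
  have hNn : ((lcf_resCard U : ℕ) : PadicAlgCl q) = (q : PadicAlgCl q) ^ UK.index := by
    rw [hN, Nat.cast_pow]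
  have hq0 : (q : PadicAlgCl q) ≠ 0 := by exact_mod_cast hq.ne_zero
  have hA2 : A ^ 2 = ((q : PadicAlgCl q) ^ UK.index) ^ 2 := by
    rw [hA, hd, pow_mul, hπm, ← pow_mul, ← pow_mul, mul_comm UK.index 2, pow_mul, neg_sq,
      ← pow_mul]
  have hA0 : A ≠ 0 := by
    intro h
    rw [h, zero_pow (by norm_num)] at hA2
    exact pow_ne_zero _ (pow_ne_zero _ hq0) hA2.symm
  have hsq : (rcy_locNorm U (a : PadicAlgCl q) *
      (((lcf_resCard U : ℕ) : PadicAlgCl q) ^ j)⁻¹) ^ 2 = B ^ 2 := by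
    rw [hnorm, hNn]
    have e1 : (A ^ j) ^ 2 = (((q : PadicAlgCl q) ^ UK.index) ^ j) ^ 2 := by
      rw [← zpow_natCast (A ^ j) 2, ← zpow_mul, mul_comm, zpow_mul, zpow_natCast, hA2,
        ← zpow_natCast (((q : PadicAlgCl q) ^ UK.index) ^ j) 2, ← zpow_mul, mul_comm j,
        zpow_mul, zpow_natCast]
    have hN0 : (((q : PadicAlgCl q) ^ UK.index) ^ j) ^ 2 ≠ 0 :=
      pow_ne_zero _ (zpow_ne_zero _ (pow_ne_zero _ hq0))
    rw [mul_pow, mul_pow, inv_pow, e1, mul_right_comm, mul_inv_cancel₀ hN0, one_mul]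
  rw [hsq, Units.val_pow_eq_pow_val, hexp]
  -- congruences
  have hξ1 : ‖ξ₀ ^ t‖ = 1 := cyx_norm_root q hpos.ne' hξ
  obtain ⟨E, hE⟩ : ∃ E : ℕ, E = U.relIndex UK * ∑ i ∈ Finset.range UK.index, q ^ i :=
    ⟨_, rfl⟩
  rw [← hE] at hB ⊢
  have hBR : ‖B - (ξ₀ ^ E) ^ t‖ < 1 := by
    have e : (ξ₀ ^ E) ^ t = ∏ c : lcf_Gal q ⧸ U, (Quotient.out c : lcf_Gal q) (ξ₀ ^ t) := by
      rw [← hB, ← Finset.prod_pow]
      exact Finset.prod_congr rfl (fun c _ => (map_pow _ _ _).symm)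
    rw [e, hBdef]
    refine tame_prod_congr_lt _ _ _ (fun c _ => ?_) (fun c _ => ?_) (fun c _ => ?_)
    · rw [unr_abs_norm_map, hu1]
    · rw [unr_abs_norm_map, hξ1]
    · rw [← map_sub, unr_abs_norm_map]
      exact huξ
  have huR : ‖((a / π ^ j : (PadicAlgCl q)ˣ) : PadicAlgCl q) ^ E - (ξ₀ ^ E) ^ t‖ < 1 := by
    have e : (ξ₀ ^ E) ^ t = (ξ₀ ^ t) ^ E := by
      rw [← pow_mul, ← pow_mul, mul_comm]
    rw [e]
    exact rcq_pow_congr hu1.le hξ1.le huξ E
  have hBu : ‖B - ((a / π ^ j : (PadicAlgCl q)ˣ) : PadicAlgCl q) ^ E‖ < 1 := by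
    have e : B - ((a / π ^ j : (PadicAlgCl q)ˣ) : PadicAlgCl q) ^ E =
        (B - (ξ₀ ^ E) ^ t) +
        -(((a / π ^ j : (PadicAlgCl q)ˣ) : PadicAlgCl q) ^ E - (ξ₀ ^ E) ^ t) := by ring
    rw [e]
    refine lt_of_le_of_lt (IsUltrametricDist.norm_add_le_max _ _) (max_lt hBR ?_)
    rw [norm_neg]
    exact huR
  have hB1 : ‖B‖ ≤ 1 := by
    rw [hBdef, norm_prod]
    refine Finset.prod_le_one (fun _ _ => norm_nonneg _) (fun c _ => ?_)
    rw [unr_abs_norm_map, hu1]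
  have hu1' : ‖((a / π ^ j : (PadicAlgCl q)ˣ) : PadicAlgCl q) ^ E‖ ≤ 1 := by
    rw [norm_pow, hu1, one_pow]
  exact rcq_pow_congr hB1 hu1' hBu 2

example : rcy_LNormTameStatement := rcq_main

end Main

end Fermat.Agent.S55
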