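/-
S55 (wave 5), GLOBAL side, package [RECIP-OF], leaf [LOC-CYC] (a LOCAL statement):
local degrees of cyclotomic extensions, in the absolute language.

`lcyc_main : rof_LocCycStatement`.

(1) the residue field of `K_U` has `l ^ a` elements (`uinj_resCard_pow`);
(2) for a prime `q ≠ l`, a primitive `q`-th root of unity `ζ` and `U' = {g ∈ U | g ζ = ζ}`:
    `U'` is normal in `U`, a Frobenius element `φ` of `U` acts by `φ ^ m ζ = ζ ^ (N ^ m)`, so the
    order of `φ U'` in `U / U'` is a multiple of `orderOf (N : ZMod q)`.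
Owner: helper7.  Prefix `lcyc_`.
-/
import Fermat.Agent.S55.Global.RecipOfDefs
import Fermat.Agent.S55.UnrAbs5
import Fermat.Agent.S55.Local.UnrInj

set_option autoImplicit false
set_option linter.style.haveILetI false
set_option linter.unusedSectionVars false

noncomputable section

namespace Fermat.Agent.S55

section LocCyc

variable {l : ℕ} [Fact l.Prime]

/-- A prime `q ≠ l` is a unit of `Ω_l`. -/
theorem lcyc_norm_prime {q : ℕ} (hq : q.Prime) (hql : q ≠ l) : ‖(q : PadicAlgCl l)‖ = 1 := by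
  have h1 : (q : PadicAlgCl l) = (((q : ℕ) : ℚ_[l]) : PadicAlgCl l) := by simp
  rw [h1, PadicAlgCl.norm_extends, Padic.norm_natCast_eq_one_iff]
  exact (Nat.coprime_primes (Fact.out : l.Prime) hq).2 (Ne.symm hql)

/-- The residue field of `K_U` has `l ^ a` elements. -/
theorem lcyc_resCard (U : Subgroup (lcf_Gal l)) (hU : lcf_IsOpen U) :
    ∃ a : ℕ, 0 < a ∧ lcf_resCard U = l ^ a := by
  haveI := unr_abs_finite U hU
  haveI : lf_IsLocal ↥(IntermediateField.fixedField U) := lf_isLocal_intermediate _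
  exact uinj_resCard_pow ↥(IntermediateField.fixedField U) (Fact.out : l.Prime)
    (uinj_norm_q_lt_one (IntermediateField.fixedField U))

/-- Every automorphism maps a primitive root of unity to a power of it. -/
theorem lcyc_exists_pow {q : ℕ} (hq : q.Prime) {ζ : PadicAlgCl l} (hζ : IsPrimitiveRoot ζ q)
    (g : lcf_Gal l) : ∃ c : ℕ, g ζ = ζ ^ c := by
  haveI : NeZero q := ⟨hq.ne_zero⟩
  have h1 : (g ζ) ^ q = 1 := by rw [← map_pow, hζ.pow_eq_one, map_one]
  obtain ⟨c, -, hc⟩ := hζ.eq_pow_of_pow_eq_one h1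
  exact ⟨c, hc.symm⟩

/-- The stabiliser of `ζ` in `U` is normalised by `U`. -/
theorem lcyc_conj_mem {q : ℕ} (hq : q.Prime) {ζ : PadicAlgCl l} (hζ : IsPrimitiveRoot ζ q)
    (g s : lcf_Gal l) (hs : s ζ = ζ) : (g * s * g⁻¹) ζ = ζ := by
  obtain ⟨c, hc⟩ := lcyc_exists_pow hq hζ g⁻¹
  have h1 : (g * s * g⁻¹) ζ = g (s (g⁻¹ ζ)) := rfl
  rw [h1, hc, map_pow, hs, ← hc, ← AlgEquiv.mul_apply, mul_inv_cancel, AlgEquiv.one_apply]

/-- **[LOC-CYC]** -/
theorem lcyc_main : rof_LocCycStatement := by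
  intro l _ U hU
  refine ⟨lcyc_resCard U hU, ?_⟩
  intro U' q hq hql ζ hζ hU'
  have hle : U' ≤ U := fun g hg => ((hU' g).1 hg).1
  -- normality
  haveI hnorm : (U'.subgroupOf U).Normal := by
    refine ⟨fun s hs g => ?_⟩
    rw [Subgroup.mem_subgroupOf] at hs ⊢
    rw [hU'] at hs ⊢
    refine ⟨(g * s * g⁻¹).2, ?_⟩
    exact lcyc_conj_mem hq hζ (g : lcf_Gal l) (s : lcf_Gal l) hs.2
  obtain ⟨φ, hφ⟩ := unr_abs_exists_frob U hU
  have hqn : ‖(q : PadicAlgCl l)‖ = 1 := lcyc_norm_prime hq hql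
  have hpow : ∀ j : ℕ, ((φ ^ j : ↥U) : lcf_Gal l) ζ = ζ ^ (lcf_resCard U ^ j) := fun j =>
    unr_abs_frob_pow_root U φ hφ q hqn ζ hζ.pow_eq_one j
  -- the order of the class of `φ`
  have hkey : ∀ j : ℕ, (φ ^ j : ↥U) ∈ U'.subgroupOf U →
      ((lcf_resCard U : ℕ) : ZMod q) ^ j = 1 := by
    intro j hj
    rw [Subgroup.mem_subgroupOf, hU'] at hj
    have h1 := hj.2
    rw [hpow j] at h1
    have hfo : IsOfFinOrder ζ :=
      isOfFinOrder_iff_pow_eq_one.2 ⟨q, hq.pos, hζ.pow_eq_one⟩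
    have h2 : ζ ^ (lcf_resCard U ^ j) = ζ ^ 1 := by rw [h1, pow_one]
    rw [hfo.pow_eq_pow_iff_modEq, ← hζ.eq_orderOf] at h2
    have h3 := (ZMod.natCast_eq_natCast_iff _ _ _).2 h2
    rw [Nat.cast_pow, Nat.cast_one] at h3
    exact h3
  have hdvd : orderOf ((lcf_resCard U : ℕ) : ZMod q)
      ∣ orderOf (QuotientGroup.mk φ : ↥U ⧸ U'.subgroupOf U) := by
    rw [orderOf_dvd_iff_pow_eq_one]
    apply hkey
    have h1 := pow_orderOf_eq_one (QuotientGroup.mk φ : ↥U ⧸ U'.subgroupOf U)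
    rw [← QuotientGroup.mk_pow, QuotientGroup.eq_one_iff] at h1
    exact h1
  refine hdvd.trans ?_
  have h2 := orderOf_dvd_natCard (QuotientGroup.mk φ : ↥U ⧸ U'.subgroupOf U)
  rw [← Subgroup.index_eq_card] at h2
  exact h2

end LocCyc

end Fermat.Agent.S55
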