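/-
S55 (wave 5), package [E-COH], leaf **[L-MUP]** `ec_LocMupStatement`
(`H²(V, μ_p) → H²(V, Ωˣ)` is injective, in `F_p`-coordinates).  Owner: helper3.  Prefix `lmup_`.

PROOF.  [KUM2] (`lkum_kummer2`, Hilbert 90) gives a smooth `μ_p`-valued 1-cochain `β` with
`d β = ζ ^ f`; write `β g = ζ ^ (b g)` with `b g ∈ F_p` (unique because `ζ` is primitive); then
`b` is smooth and `ζ ^ (d b) = d β = ζ ^ f`, so `d b = f`.
-/
import Fermat.Agent.S55.Global.ECohTop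
import Fermat.Agent.S55.Local.Kummer
import Fermat.Agent.S55.Local.V11

set_option autoImplicit false

noncomputable section

namespace Fermat.Agent.S55

open groupCohomology

section Exp

variable {M : Type*} [CommGroup M] {p : ℕ} [Fact p.Prime] {ζ : M}

theorem lmup_E_sub (hζ : ζ ^ p = 1) (a b : ZMod p) :
    lv11_E ζ (a - b) = lv11_E ζ a / lv11_E ζ b := by
  rw [eq_div_iff_mul_eq', ← lv11_E_add hζ, sub_add_cancel]

theorem lmup_E_inj (hζ : IsPrimitiveRoot ζ p) {a b : ZMod p} (h : lv11_E ζ a = lv11_E ζ b) :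
    a = b := by
  have h1 : lv11_E ζ (a - b) = 1 := by rw [lmup_E_sub hζ.pow_eq_one, h, div_self']
  exact sub_eq_zero.1 ((lv11_E_eq_one_iff hζ _).1 h1)

end Exp

theorem lmup_exists_E {R : Type*} [CommRing R] [IsDomain R] {p : ℕ} [Fact p.Prime] {ζ : Rˣ}
    (hζ : IsPrimitiveRoot ζ p) (u : Rˣ) (hu : u ^ p = 1) : ∃ a : ZMod p, lv11_E ζ a = u := by
  obtain ⟨i, -, hi⟩ := hζ.eq_pow_of_mem_rootsOfUnity ((mem_rootsOfUnity p u).2 hu)
  exact ⟨(i : ZMod p), by rw [lv11_E_natCast hζ.pow_eq_one, hi]⟩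

/-- **[L-MUP]**. -/
theorem lmup_main : ec_LocMupStatement := by
  intro p _ q _ V hV ζ hζ hζV f _ hcob
  have hζp : ζ ^ p = 1 := hζ.pow_eq_one
  obtain ⟨β, hβs, hβp, hβf⟩ := lkum_kummer2 q p V hV (fun x => ζ ^ (f x).val)
    (fun x => by
      show (ζ ^ (f x).val) ^ p = 1
      rw [← pow_mul, mul_comm, pow_mul, hζp, one_pow]) hcob
  choose b hb using fun g : ↥V => lmup_exists_E hζ (β g) (hβp g)
  refine ⟨b, ?_, ?_⟩
  · obtain ⟨E, hE, h⟩ := hβs
    exact ⟨E, hE, fun g s hs => lmup_E_inj hζ (by rw [hb, hb, h g s hs])⟩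
  · rintro ⟨g, h⟩
    apply lmup_E_inj hζ
    show lv11_E ζ (b h - b (g * h) + b g) = ζ ^ (f (g, h)).val
    rw [lv11_E_add hζp, lmup_E_sub hζp, hb, hb, hb, ← hβf g h, ← hb h, lv11_smul_E hζV]

end Fermat.Agent.S55
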