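/-
S55 (fifth wave), package [AK-H3F] (owner helper17), leaf [LOC-H3] (helper5).  Prefix `h3l_`.

EXPORT (hypothesis-free):  `h3l_main : h3f_LocH3Statement`
(`H³(Gal(E/K), Eˣ) = 0` for `E = K_{U'}` finite Galois over `K = K_U`, in absolute language).

Proof.  In helper2's relative setting `splc_D H : U → Gal(F/K)` (`K = Ω^U`, `F = Ω^{U'}`):
* `H¹(D₁, Fˣ) = 0` for every subgroup `D₁` of `Gal(F/K)` (Hilbert 90, `lh3_H1Zero`);
* `#H²(D₁, Fˣ) ∣ #D₁` for every subgroup `D₁` (second inequality `l3d_general` for `F / F^{D₁}`);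
* the class of `lfund_fin` (invariant `1/[U : U']`) descends to `Gal(F/K)` and has order
  divisible by `[U : U']` there ((I1), (I2) and `splc_isCob_of_isCoboundary`);
so `fgT_tateHyp_of_dvd` gives the hypotheses of Tate's theorem and `fgH_H3` gives
`H³(Gal(F/K), Fˣ) = 0`.  The 3-cocycle `z` descends to `Gal(F/K)` (`lh3_descend₃`), and the
inflation of a 2-cochain with coboundary the descended cocycle is the required `f`.
-/
import Fermat.Agent.S55.Global.H3FDefs
import Fermat.Agent.S55.Local.SplCount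
import Fermat.Agent.S55.Local.LocFundFin
import Fermat.Agent.S55.Local.H3OmegaFund
import Fermat.Agent.S55.Local.H3Mu
import Fermat.Agent.S55.Local.H2DvdFin
import Fermat.Agent.S55.FG.ClassForm
import Fermat.Agent.S55.FG.H3

set_option autoImplicit false
set_option linter.unusedSectionVars false
set_option linter.unusedVariables false
set_option linter.style.longLine false

noncomputable section

namespace Fermat.Agent.S55

open groupCohomology

attribute [local instance] l3d_galAct

/-! ### the second inequality for all subgroups -/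

/-- The second inequality for every subgroup of the Galois group of a finite Galois extension
of local fields. -/
theorem h3l_card_sub (K L : Type) [NormedField K] [NormedField L] [Algebra K L]
    [lf_IsLocal K] [lf_IsLocal L] [lf_IsLocalExt K L] [IsGalois K L]
    (D : Subgroup (L ≃ₐ[K] L)) :
    Nat.card (fg_H2 ↥D (Additive Lˣ)) ∣ Nat.card ↥D := by
  set E : IntermediateField K L := IntermediateField.fixedField D with hE
  have hfix : D = E.fixingSubgroup := (IntermediateField.fixingSubgroup_fixedField _).symm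
  have hcard : Module.finrank ↥E L = Nat.card ↥D :=
    IntermediateField.finrank_fixedField_eq_card _
  rw [l3d_card_fixing K L E _ hfix, ← hcard]
  have := l3d_ext_bot K L E
  have := l3d_loc K L E
  have := l3d_ext_top K L E
  exact l3d_general lni_fin ↥E L

/-- A class of an abelian group whose natural multiples vanish only for multiples of `n`. -/
theorem h3l_int_dvd {X : Type*} [AddCommGroup X] (x : X) (n : ℕ)
    (h : ∀ k : ℕ, k • x = 0 → n ∣ k) (m : ℤ) (hm : m • x = 0) : (n : ℤ) ∣ m := by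
  have h1 : m.natAbs • x = 0 := natAbs_nsmul_eq_zero.2 hm
  exact Int.natCast_dvd.2 (h _ h1)

variable {q : ℕ} [Fact q.Prime] {U U' : Subgroup (lcf_Gal q)}

/-! ### the relative fundamental class -/

/-- **The relative local fundamental class**: `(Gal(F/K), Fˣ)` satisfies the hypotheses of
Tate's theorem, `K = Ω^U`, `F = Ω^{U'}`. -/
theorem h3l_tateHyp {inv : lcf_InvType} (hinv : lcf_IsInvSystem inv) (H : splc_Hyp U U') :
    ∃ a : (↥(splc_F H.le) ≃ₐ[↥(splc_K U)] ↥(splc_F H.le)) ×
        (↥(splc_F H.le) ≃ₐ[↥(splc_K U)] ↥(splc_F H.le)) → Additive (↥(splc_F H.le))ˣ,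
      fg_TateHyp a := by
  have := splc_finiteK H
  have := splc_finite H
  have := splc_isGalois H
  have hN : U'.relIndex U ≠ 0 := by
    rw [← splc_finrank H]
    exact Module.finrank_pos.ne'
  obtain ⟨f, hfc, hf1, hf2, hfinv⟩ := lfund_fin inv hinv q U U' H.openU H.open' H.le H.normal
  have hfi : splc_IsInfl U U' f := ⟨hf1, fun g g' s hs => hf2 g g' (s : lcf_Gal q) hs⟩
  obtain ⟨a, ha, hfa⟩ := splc_exists_of_infl H hfc.1 hfi
  have hpow : ∀ k : ℕ, (fun p => Additive.toMul (fgI_inf₂ (splc_D H) (k • a) p)) = f ^ k := by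
    intro k
    funext p
    obtain ⟨g, h⟩ := p
    show Additive.toMul ((splc_D H).ι (k • a ((splc_D H).π g, (splc_D H).π h))) = (f (g, h)) ^ k
    rw [map_nsmul, ← fgI_inf₂_apply, ← hfa]
    rfl
  have hk0 : ∀ k : ℕ, IsCoboundary₂ (k • a) → U'.relIndex U ∣ k := by
    intro k hk
    have h1 := splc_isCob_of_isCoboundary H hk
    rw [hpow k] at h1
    have h2 : inv q U (f ^ k) = 0 :=
      (hinv.eq_zero_iff q U H.openU _ (lh3m_isCoc_pow hfc k)).2 h1
    rw [lh3m_inv_pow hinv U H.openU hfc k, hfinv] at h2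
    have h3 : ((k : ℤ)) • lcf_qz (1 / (U'.relIndex U : ℚ)) = 0 := by
      rw [natCast_zsmul]
      exact h2
    exact Int.natCast_dvd_natCast.1 (lh3_qz_dvd _ hN _ h3)
  refine ⟨a, fgT_tateHyp_of_dvd a
    (fun D => lh3_H1Zero (MonoidHom.id _) Function.injective_id (fun _ _ => rfl) D)
    (fun D => h3l_card_sub _ _ D) ha ?_⟩
  intro m hm
  rw [splc_card_gal H]
  refine h3l_int_dvd (fg_H2mk _ _ ⟨a, ha⟩) _ (fun k hk => ?_) m ?_
  · apply hk0
    rw [← map_nsmul, fg_H2mk_eq_zero_iff] at hk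
    exact hk
  · have e := map_zsmul (fg_H2mk (↥(splc_F H.le) ≃ₐ[↥(splc_K U)] ↥(splc_F H.le))
      (Additive (↥(splc_F H.le))ˣ)) m ⟨a, ha⟩
    exact e.symm.trans ((fg_H2mk_eq_zero_iff _).2 hm)

/-! ### dictionary between the multiplicative and the additive cochain identities -/

theorem h3l_isCocycle₃_iff (z : ↥U × ↥U × ↥U → (PadicAlgCl q)ˣ) :
    lh3_IsCocycle₃ (fun p => Additive.ofMul (z p)) ↔ lcf_IsMulCocycle₃ U z := by
  constructor
  · intro h g k j l
    have h1 := h g k j l
    have h2 : Additive.ofMul (g • z (k, j, l) * z (g, k * j, l) * z (g, k, j)) =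
        Additive.ofMul (z (g * k, j, l) * z (g, k, j * l)) := by
      simp only [ofMul_mul]
      have e : Additive.ofMul (g • z (k, j, l)) = g • Additive.ofMul (z (k, j, l)) := rfl
      rw [e]
      rw [← sub_eq_zero]
      rw [← h1]
      abel
    exact h2
  · intro h g k j l
    have h1 : Additive.ofMul (g • z (k, j, l) * z (g, k * j, l) * z (g, k, j)) =
        Additive.ofMul (z (g * k, j, l) * z (g, k, j * l)) := congrArg _ (h g k j l)
    simp only [ofMul_mul] at h1
    have e : Additive.ofMul (g • z (k, j, l)) = g • Additive.ofMul (z (k, j, l)) := rfl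
    rw [e] at h1
    rw [← sub_eq_zero] at h1
    rw [← h1]
    abel

theorem h3l_d₂₃_eq (f : ↥U × ↥U → (PadicAlgCl q)ˣ) :
    (fun p => Additive.ofMul (lcf_d₂₃ U f p)) = lh3_d₂₃ (fun p => Additive.ofMul (f p)) := by
  funext x
  obtain ⟨g, h, j⟩ := x
  show Additive.ofMul (g • f (h, j) * f (g, h * j) / (f (g * h, j) * f (g, h))) = _
  rw [lh3_d₂₃_apply, ofMul_div, ofMul_mul, ofMul_mul]
  have e : Additive.ofMul (g • f (h, j)) = g • Additive.ofMul (f (h, j)) := rfl
  rw [e]
  abel

/-- The inflation of a finite-level 2-cochain is inflated in the sense of `spl_IsInfl`. -/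
theorem h3l_isInfl_inf (H : splc_Hyp U U')
    (y : (↥(splc_F H.le) ≃ₐ[↥(splc_K U)] ↥(splc_F H.le)) ×
        (↥(splc_F H.le) ≃ₐ[↥(splc_K U)] ↥(splc_F H.le)) → Additive (↥(splc_F H.le))ˣ) :
    spl_IsInfl U U' (fun p => Additive.toMul (fgI_inf₂ (splc_D H) y p)) := by
  constructor
  · intro g h s s' hs hs'
    have h1 : splc_pi H s = 1 := (splc_pi_eq_one_iff H s).2 hs
    have h2 : splc_pi H s' = 1 := (splc_pi_eq_one_iff H s').2 hs'
    show Additive.toMul ((splc_D H).ι (y (splc_pi H (g * s), splc_pi H (h * s')))) =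
      Additive.toMul ((splc_D H).ι (y (splc_pi H g, splc_pi H h)))
    rw [map_mul, map_mul, h1, h2, mul_one, mul_one]
  · intro g h s hs
    have h1 : splc_pi H s = 1 := (splc_pi_eq_one_iff H s).2 hs
    have h2 := (splc_D H).ι_smul s (y (splc_pi H g, splc_pi H h))
    rw [splc_D_π, h1, one_smul] at h2
    exact (congrArg Additive.toMul h2).symm

/-! ### the main theorem -/

/-- **[LOC-H3]** local Tate in degree 3 at finite level, relative form. -/
theorem h3l_main : h3f_LocH3Statement := by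
  intro inv hinv q _ U U' hU' hn z hz hzi
  have H : splc_Hyp U U' := ⟨hn.1, hU', hn.2⟩
  have := splc_finiteK H
  have := splc_finite H
  have := splc_isGalois H
  obtain ⟨a, ha⟩ := h3l_tateHyp hinv H
  -- descend `z` to `Gal(F/K)`
  obtain ⟨z', hz'⟩ := lh3_descend₃ (splc_D H) (fun p => Additive.ofMul (z p))
    (fun g h j s t u hs ht hu => congrArg Additive.ofMul (hzi.1 g h j s t u
      ((splc_pi_eq_one_iff H s).1 hs) ((splc_pi_eq_one_iff H t).1 ht)
      ((splc_pi_eq_one_iff H u).1 hu)))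
    (fun x => (splc_D H).ι_range _ (fun h hh =>
      congrArg Additive.ofMul (hzi.2 x.1 x.2.1 x.2.2 h ((splc_pi_eq_one_iff H h).1 hh))))
  have hz'c : lh3_IsCocycle₃ z' := lh3_isCocycle₃_of_inf (splc_D H) z' (by
    rw [hz']
    exact (h3l_isCocycle₃_iff z).2 hz)
  -- Tate's theorem
  have hT := fgH_H3 (↥(splc_F H.le) ≃ₐ[↥(splc_K U)] ↥(splc_F H.le))
    (Additive (↥(splc_F H.le))ˣ) a ha ⊤
  obtain ⟨y, hy⟩ := hT (fun p => z' ((p.1 : _), (p.2.1 : _), (p.2.2 : _)))
    (fun g h j k => hz'c (g : _) (h : _) (j : _) (k : _))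
  set y' : (↥(splc_F H.le) ≃ₐ[↥(splc_K U)] ↥(splc_F H.le)) ×
      (↥(splc_F H.le) ≃ₐ[↥(splc_K U)] ↥(splc_F H.le)) → Additive (↥(splc_F H.le))ˣ :=
    fun p => y (⟨p.1, Subgroup.mem_top _⟩, ⟨p.2, Subgroup.mem_top _⟩) with hy'def
  have hy' : lh3_d₂₃ y' = z' := by
    funext x
    obtain ⟨g, h, j⟩ := x
    exact hy ⟨g, Subgroup.mem_top _⟩ ⟨h, Subgroup.mem_top _⟩ ⟨j, Subgroup.mem_top _⟩
  refine ⟨fun p => Additive.toMul (fgI_inf₂ (splc_D H) y' p), h3l_isInfl_inf H y', ?_⟩
  have h1 := h3l_d₂₃_eq (fun p => Additive.toMul (fgI_inf₂ (splc_D H) y' p))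
  have h2 : (fun p => Additive.ofMul
      (Additive.toMul (fgI_inf₂ (splc_D H) y' p) : (PadicAlgCl q)ˣ)) =
      fgI_inf₂ (splc_D H) y' := rfl
  rw [h2, lh3_d₂₃_inf, hy', hz'] at h1
  funext p
  exact congrArg Additive.toMul (congrFun h1 p)

end Fermat.Agent.S55
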