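/-
S55 (wave 5), LOCAL side, package [H3-Ω], part 6: a class of invariant `1/[E : ℚ_q]` satisfies
the hypotheses of Tate's theorem.  Prefix `lh3_`.
-/
import Fermat.Agent.S55.Local.H3OmegaFund

set_option autoImplicit false

noncomputable section

namespace Fermat.Agent.S55

open groupCohomology

attribute [local instance] lh3_actΩ lh3_actE

variable {q : ℕ} [Fact q.Prime]

section J3

variable {inv : lcf_InvType} (hinv : lcf_IsInvSystem inv)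
  (E : IntermediateField ℚ_[q] (PadicAlgCl q)) [Normal ℚ_[q] ↥E]
  (hE : FiniteDimensional ℚ_[q] ↥E)

include hinv hE

/-- The invariants of the restrictions of a class of invariant `1/[E : ℚ_q]`. -/
theorem lh3_J_res_class (a : (↥E ≃ₐ[ℚ_[q]] ↥E) × (↥E ≃ₐ[ℚ_[q]] ↥E) → Additive (↥E)ˣ)
    (ha : IsCocycle₂ a)
    (hJ : lh3_J inv E ⊤ (fg_res₂ ⊤ a) = lcf_qz (1 / (Nat.card (↥E ≃ₐ[ℚ_[q]] ↥E) : ℚ)))
    (K : Subgroup (↥E ≃ₐ[ℚ_[q]] ↥E)) :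
    lh3_J inv E K (fg_res₂ K a) = lcf_qz (1 / (Nat.card K : ℚ)) := by
  have hfd : FiniteDimensional ℚ_[q] ↥E := hE
  have hfin : Finite (↥E ≃ₐ[ℚ_[q]] ↥E) := inferInstance
  have h1 := lh3_J_res hinv E hE ⊤ K le_top (fg_res₂ ⊤ a) (fun g h j => ha g h j)
  rw [Subgroup.relIndex_top_right, hJ, ← K.card_mul_index] at h1
  rw [lh3_qz_nsmul _ _ K.index_ne_zero_of_finite] at h1
  exact h1

theorem lh3_J_sub_zsmul (K : Subgroup (↥E ≃ₐ[ℚ_[q]] ↥E)) (f r : fg_Z2 ↥K (Additive (↥E)ˣ))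
    (m : ℤ) :
    IsCocycle₂ (fun p => (f : ↥K × ↥K → Additive (↥E)ˣ) p - m • (r : ↥K × ↥K → Additive (↥E)ˣ) p) ∧
      lh3_J inv E K (fun p => (f : ↥K × ↥K → Additive (↥E)ˣ) p -
        m • (r : ↥K × ↥K → Additive (↥E)ˣ) p) =
      lh3_J inv E K (f : ↥K × ↥K → Additive (↥E)ˣ) -
        m • lh3_J inv E K (r : ↥K × ↥K → Additive (↥E)ˣ) := by
  have h1 : lh3_Jhom hinv E hE K (f - m • r) =
      lh3_Jhom hinv E hE K f - m • lh3_Jhom hinv E hE K r := by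
    rw [map_sub, map_zsmul]
  have h2 : IsCocycle₂ ((f - m • r : fg_Z2 ↥K (Additive (↥E)ˣ)) : ↥K × ↥K → Additive (↥E)ˣ) :=
    fg_mem_Z2.1 (f - m • r).2
  rw [← lh3_coe_sub_zsmul]
  exact ⟨h2, h1⟩

theorem lh3_J_zsmul (K : Subgroup (↥E ≃ₐ[ℚ_[q]] ↥E)) (r : fg_Z2 ↥K (Additive (↥E)ˣ))
    (m : ℤ) :
    IsCocycle₂ (fun p => m • (r : ↥K × ↥K → Additive (↥E)ˣ) p) ∧
      lh3_J inv E K (fun p => m • (r : ↥K × ↥K → Additive (↥E)ˣ) p) =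
        m • lh3_J inv E K (r : ↥K × ↥K → Additive (↥E)ˣ) := by
  have h1 : lh3_Jhom hinv E hE K (m • r) = m • lh3_Jhom hinv E hE K r := by
    rw [map_zsmul]
  have h2 : IsCocycle₂ ((m • r : fg_Z2 ↥K (Additive (↥E)ˣ)) : ↥K × ↥K → Additive (↥E)ˣ) :=
    fg_mem_Z2.1 (m • r).2
  rw [← lh3_coe_zsmul]
  exact ⟨h2, h1⟩

/-- A 2-cocycle of `Gal(E/ℚ_q)` of invariant `1/[E : ℚ_q]` satisfies the hypotheses of Tate's
theorem. -/
theorem lh3_tateHyp (a : (↥E ≃ₐ[ℚ_[q]] ↥E) × (↥E ≃ₐ[ℚ_[q]] ↥E) → Additive (↥E)ˣ)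
    (ha : IsCocycle₂ a)
    (hJ : lh3_J inv E ⊤ (fg_res₂ ⊤ a) = lcf_qz (1 / (Nat.card (↥E ≃ₐ[ℚ_[q]] ↥E) : ℚ))) :
    fg_TateHyp a := by
  have hfd : FiniteDimensional ℚ_[q] ↥E := hE
  have hfin : Finite (↥E ≃ₐ[ℚ_[q]] ↥E) := inferInstance
  refine ⟨ha, fun K => ⟨lh3_H1Zero_lev E hE K, ?_, ?_⟩⟩
  · intro f hf
    have hres : IsCocycle₂ (fg_res₂ K a) := fun g h j => ha g h j
    have hK : Nat.card ↥K ≠ 0 := Nat.card_pos.ne'
    obtain ⟨m, hm⟩ := lh3_qz_of_nsmul (Nat.card ↥K) hK _ (lh3_J_torsion hinv E hE K f hf)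
    refine ⟨m, ?_⟩
    obtain ⟨h1, h2⟩ := lh3_J_sub_zsmul hinv E hE K ⟨f, fg_mem_Z2.2 hf⟩
      ⟨fg_res₂ K a, fg_mem_Z2.2 hres⟩ m
    simp only at h1 h2
    rw [hm, lh3_J_res_class hinv E hE a ha hJ K, sub_self] at h2
    exact (lh3_J_eq_zero_iff hinv E hE K _ h1).1 h2
  · intro m hm
    have hres : IsCocycle₂ (fg_res₂ K a) := fun g h j => ha g h j
    have hK : Nat.card ↥K ≠ 0 := Nat.card_pos.ne'
    obtain ⟨h1, h2⟩ := lh3_J_zsmul hinv E hE K ⟨fg_res₂ K a, fg_mem_Z2.2 hres⟩ m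
    simp only at h1 h2
    rw [(lh3_J_eq_zero_iff hinv E hE K _ h1).2 hm, lh3_J_res_class hinv E hE a ha hJ K] at h2
    exact lh3_qz_dvd (Nat.card ↥K) hK m h2.symm

/-- **Existence of a class of invariant `1/[E : ℚ_q]`** at the level `E`. -/
theorem lh3_exists_class :
    ∃ a : (↥E ≃ₐ[ℚ_[q]] ↥E) × (↥E ≃ₐ[ℚ_[q]] ↥E) → Additive (↥E)ˣ, IsCocycle₂ a ∧
      lh3_J inv E ⊤ (fg_res₂ ⊤ a) = lcf_qz (1 / (Nat.card (↥E ≃ₐ[ℚ_[q]] ↥E) : ℚ)) := by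
  have hfd : FiniteDimensional ℚ_[q] ↥E := hE
  have hfin : Finite (↥E ≃ₐ[ℚ_[q]] ↥E) := inferInstance
  have hn0 : Nat.card (↥E ≃ₐ[ℚ_[q]] ↥E) ≠ 0 := Nat.card_pos.ne'
  -- (I5)
  obtain ⟨F, hF, hFinv⟩ := hinv.surj q (lh3_UK E ⊤) (lh3_UK_open E hE ⊤)
    (lcf_qz (1 / (Nat.card (↥E ≃ₐ[ℚ_[q]] ↥E) : ℚ)))
  -- (I3) + (I2)
  have hle : lh3_UK E ⊥ ≤ lh3_UK E ⊤ := lh3_UK_mono E bot_le
  have h0 : inv q (lh3_UK E ⊥) (lcf_res hle F) = 0 := by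
    rw [hinv.res q _ _ hle (lh3_UK_open E hE ⊥) F hF, lh3_UK_relIndex,
      Subgroup.relIndex_bot_left, Subgroup.card_top, hFinv]
    exact lh3_qz_nsmul_self _ hn0
  obtain ⟨b, hbs, hb⟩ :=
    (hinv.eq_zero_iff q _ (lh3_UK_open E hE ⊥) _ (lh3_isCoc_res hle hF)).1 h0
  -- a common level
  obtain ⟨E₁, hN₁, hF₁, hle₁, hFinv₁, hFval₁⟩ := lh3_level₂ _ F hF.2 E hE
  obtain ⟨E', hN', hF', hle', hbinv, hbval⟩ := lh3_level₁ _ b hbs E₁ hF₁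
  have hEE' : E ≤ E' := hle₁.trans hle'
  -- `F` as a cochain on the whole group
  have hmem : ∀ g : lcf_Gal q, g ∈ lh3_UK E ⊤ := fun g => Subgroup.mem_top _
  obtain ⟨F', hF'eq⟩ := lh3_descend₂ (lh3_lev E')
    (fun p : lcf_Gal q × lcf_Gal q => Additive.ofMul (F (⟨p.1, hmem p.1⟩, ⟨p.2, hmem p.2⟩)))
    (fun g h s t hs ht => congrArg Additive.ofMul
      (hFinv₁ ⟨g, hmem g⟩ ⟨h, hmem h⟩ ⟨s, hmem s⟩ ⟨t, hmem t⟩
        (IntermediateField.fixingSubgroup_antitone hle' ((lh3_lev_π_eq_one_iff E' s).1 hs))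
        (IntermediateField.fixingSubgroup_antitone hle' ((lh3_lev_π_eq_one_iff E' t).1 ht))))
    (fun x => lh3_exists_iota E' _ (hle' (hFval₁ _)))
  have hF'c : IsCocycle₂ F' := lh3_isCocycle₂_of_inf (lh3_lev E') F' (by
    rw [hF'eq]
    exact fun g h j => congrArg Additive.ofMul (hF.1 ⟨g, hmem g⟩ ⟨h, hmem h⟩ ⟨j, hmem j⟩))
  -- the two levels
  have hker : (lh3_lev E').π.ker ≤ (lh3_lev E).π.ker := by
    rw [lh3_lev_ker, lh3_lev_ker]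
    exact IntermediateField.fixingSubgroup_antitone hEE'
  have h1 : fg_H1Zero (lh3_quot (lh3_lev E) (lh3_lev E') hker).π.ker (Additive (↥E')ˣ) :=
    lh3_H1Zero_lev E' hF' _
  have hUN : ∀ g : lcf_Gal q,
      g ∈ lh3_UK E' (lh3_quot (lh3_lev E) (lh3_lev E') hker).π.ker → g ∈ lh3_UK E ⊥ := by
    intro g hg
    have h2 : (lh3_quot (lh3_lev E) (lh3_lev E') hker).π ((lh3_lev E').π g) = 1 := hg
    rw [lh3_quot_π_apply] at h2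
    exact Subgroup.mem_bot.2 h2
  have hres : IsCoboundary₂ (fg_res₂ (lh3_quot (lh3_lev E) (lh3_lev E') hker).π.ker F') := by
    obtain ⟨b', hb'⟩ := lh3_descend₁ (lh3_sub (lh3_lev E') (lh3_UK E' _)
        (lh3_quot (lh3_lev E) (lh3_lev E') hker).π.ker (lh3_mem_UK E' _))
      (fun g => Additive.ofMul (b ⟨(g : lcf_Gal q), hUN g g.2⟩))
      (fun g s hs => congrArg Additive.ofMul (hbinv ⟨g, hUN g g.2⟩ ⟨s, hUN s s.2⟩
        ((lh3_lev_π_eq_one_iff E' s).1 (congrArg Subtype.val hs))))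
      (fun g => lh3_exists_iota E' _ (hbval _))
    refine ⟨b', lh3_cob_of_inf (lh3_sub (lh3_lev E') (lh3_UK E' _)
      (lh3_quot (lh3_lev E) (lh3_lev E') hker).π.ker (lh3_mem_UK E' _)) _ b' fun g h => ?_⟩
    rw [hb']
    have e : fgI_inf₂ (lh3_sub (lh3_lev E') (lh3_UK E' _)
        (lh3_quot (lh3_lev E) (lh3_lev E') hker).π.ker (lh3_mem_UK E' _))
        (fg_res₂ (lh3_quot (lh3_lev E) (lh3_lev E') hker).π.ker F') (g, h) =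
        fgI_inf₂ (lh3_lev E') F' ((g : lcf_Gal q), (h : lcf_Gal q)) := rfl
    rw [e, hF'eq]
    exact congrArg Additive.ofMul (hb ⟨g, hUN g g.2⟩ ⟨h, hUN h h.2⟩)
  obtain ⟨a, ha, x, hx⟩ := fgI_mid_aux _ h1 F' hF'c hres
  refine ⟨a, ha, ?_⟩
  have hA : lcf_IsCoc (lh3_UK E ⊤) (lh3_infl E (lh3_UK E ⊤) ⊤ (lh3_mem_UK E ⊤) (fg_res₂ ⊤ a)) :=
    lh3_infl_isCoc E hE _ ⊤ _ _ (fun g h j => ha g h j)
  have hcob : lcf_IsCob (lh3_UK E ⊤)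
      (F / lh3_infl E (lh3_UK E ⊤) ⊤ (lh3_mem_UK E ⊤) (fg_res₂ ⊤ a)) := by
    refine ⟨fun g => ((lh3_iota E' (x ((lh3_lev E').π (g : lcf_Gal q)))).toMul :
      (PadicAlgCl q)ˣ), ⟨E', hF', fun g s hs => ?_⟩, fun g h => ?_⟩
    · show ((lh3_iota E' (x ((lh3_lev E').π ((g * s : ↥(lh3_UK E ⊤)) : lcf_Gal q)))).toMul :
        (PadicAlgCl q)ˣ) = _
      rw [Subgroup.coe_mul, map_mul, (lh3_lev_π_eq_one_iff E' _).2 hs, mul_one]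
    · have h2 := congrArg (lh3_lev E').ι
        (hx ((lh3_lev E').π (g : lcf_Gal q)) ((lh3_lev E').π (h : lcf_Gal q)))
      rw [map_add, map_sub, (lh3_lev E').ι_smul, ← map_mul, map_sub] at h2
      have e1 : (lh3_lev E').ι (F' ((lh3_lev E').π (g : lcf_Gal q),
          (lh3_lev E').π (h : lcf_Gal q))) = Additive.ofMul (F (g, h)) := by
        have := congrFun hF'eq ((g : lcf_Gal q), (h : lcf_Gal q))
        exact this
      have e2 : (lh3_lev E').ι (fgI_inf₂ (lh3_quot (lh3_lev E) (lh3_lev E') hker) a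
          ((lh3_lev E').π (g : lcf_Gal q), (lh3_lev E').π (h : lcf_Gal q))) =
          Additive.ofMul (lh3_infl E (lh3_UK E ⊤) ⊤ (lh3_mem_UK E ⊤) (fg_res₂ ⊤ a) (g, h)) := by
        rw [fgI_inf₂_apply, lh3_quot_ι_spec, lh3_quot_π_apply, lh3_quot_π_apply]
        rfl
      rw [e1, e2] at h2
      exact congrArg Additive.toMul h2
  have h3 := lh3m_inv_div hinv _ (lh3_UK_open E hE ⊤) hF hA
  rw [(hinv.eq_zero_iff q _ (lh3_UK_open E hE ⊤) _ (lh3m_isCoc_div hF hA)).2 hcob, hFinv] at h3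
  exact (sub_eq_zero.1 h3.symm).symm

/-- **[FUND-q]** the local fundamental class at the level `E`: a 2-cocycle of `Gal(E/ℚ_q)` with
values in `Eˣ` satisfying the hypotheses of Tate's theorem. -/
theorem lh3_fund :
    ∃ a : (↥E ≃ₐ[ℚ_[q]] ↥E) × (↥E ≃ₐ[ℚ_[q]] ↥E) → Additive (↥E)ˣ, fg_TateHyp a := by
  obtain ⟨a, ha, hJ⟩ := lh3_exists_class hinv E hE
  exact ⟨a, lh3_tateHyp hinv E hE a ha hJ⟩

end J3

end Fermat.Agent.S55
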