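/-
S55 (wave 5), LOCAL side, package [H3-Ω]: `H³(K_U, Ωˣ) = 0` for smooth cochains, from the
existence of a local invariant system.  Prefix `lh3_`.

Proof.  A smooth 3-cocycle `z` of the open subgroup `U` is the inflation of a 3-cocycle `z'` of
`K = U|_E ≤ Gal(E/ℚ_q)` with values in `Eˣ` for a finite normal `E/ℚ_q` ([LEVEL]).  The level `E`
carries a fundamental class ([FUND-q], `lh3_fund`), so `H³(K, Eˣ) = 0` by Tate's theorem
(`fgH_H3` of the finite-group toolkit); the inflation of a 2-cochain `y` with `d y = z'` is a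
smooth 2-cochain with coboundary `z`.
-/
import Fermat.Agent.S55.Local.H3OmegaTate
import Fermat.Agent.S55.FG.H3

set_option autoImplicit false

noncomputable section

namespace Fermat.Agent.S55

open groupCohomology

attribute [local instance] lh3_actΩ lh3_actE

/-- **[H3-Ω]** from a local invariant system. -/
theorem lh3_of_inv {inv : lcf_InvType} (hinv : lcf_IsInvSystem inv) : lcf_H3OmegaStatement := by
  intro q _ U hU z hz hsm
  obtain ⟨E₀, hE₀, hE₀U⟩ := hU
  obtain ⟨E, hN, hF, hle, hzinv, hzval⟩ := lh3_level₃ U z hsm E₀ hE₀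
  have hEU : E.fixingSubgroup ≤ U := (IntermediateField.fixingSubgroup_antitone hle).trans hE₀U
  have hfd : FiniteDimensional ℚ_[q] ↥E := hF
  have hfin : Finite (↥E ≃ₐ[ℚ_[q]] ↥E) := inferInstance
  -- descend `z` to the level `E`
  obtain ⟨z', hz'⟩ := lh3_descend₃ (lh3_levU E U hEU) (fun p => Additive.ofMul (z p))
    (fun g h j s t u hs ht hu => congrArg Additive.ofMul (hzinv g h j s t u
      ((lh3_levU_π_eq_one_iff E U hEU s).1 hs) ((lh3_levU_π_eq_one_iff E U hEU t).1 ht)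
      ((lh3_levU_π_eq_one_iff E U hEU u).1 hu)))
    (fun x => lh3_exists_iota E _ (hzval x))
  have hz'c : lh3_IsCocycle₃ z' := lh3_isCocycle₃_of_inf (lh3_levU E U hEU) z' (by
    rw [hz']
    exact (lh3_isCocycle₃_iff z).2 hz)
  -- Tate's theorem at the level `E`
  obtain ⟨a, ha⟩ := lh3_fund hinv E hF
  obtain ⟨y, hy⟩ := fgH_H3 (↥E ≃ₐ[ℚ_[q]] ↥E) (Additive (↥E)ˣ) a ha (U.map (lh3_lev E).π) z' hz'c
  have hy' : lh3_d₂₃ y = z' := by
    funext x
    obtain ⟨g, h, j⟩ := x
    exact hy g h j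
  refine ⟨fun p => (fgI_inf₂ (lh3_levU E U hEU) y p).toMul,
    lh3_infl_smooth E hF U (U.map (lh3_lev E).π) _ y, ?_⟩
  have h1 := lh3_d₂₃_eq (fun p => ((fgI_inf₂ (lh3_levU E U hEU) y p).toMul : (PadicAlgCl q)ˣ))
  have h2 : (fun p => Additive.ofMul
      ((fgI_inf₂ (lh3_levU E U hEU) y p).toMul : (PadicAlgCl q)ˣ)) =
      fgI_inf₂ (lh3_levU E U hEU) y := rfl
  rw [h2, lh3_d₂₃_inf, hy', hz'] at h1
  funext p
  exact congrArg Additive.toMul (congrFun h1 p)

/-- **[H3-Ω]** `lcf_InvStatement → lcf_H3OmegaStatement`. -/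
theorem lh3_main : lcf_InvStatement → lcf_H3OmegaStatement :=
  fun ⟨_, hinv⟩ => lh3_of_inv hinv

end Fermat.Agent.S55
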