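/-
S55 (wave 5), LOCAL side: [LB-ASM] = `ld1_BaseAsmStatement` of `Local/LD1Base.lean`.
Owner: helper27.  Prefix `lba_`.  Export: `lba_main : ld1_BaseAsmStatement`.

[LB-COVER] + [LB-PERM-ADM] + [LB-PERM11] + [LB-PERM20] ⇒ [L-BASE]: the cover of a smooth finite
module is the permutation module `F_p[Z]` of [LB-COVER].
-/
import Fermat.Agent.S55.Local.LD1Base

set_option autoImplicit false
set_option maxHeartbeats 1000000
set_option synthInstance.maxHeartbeats 400000

noncomputable section

namespace Fermat.Agent.S55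

open CategoryTheory Module groupCohomology ExtCitation

/-- Permutation modules of finite sets are finite dimensional. -/
theorem lba_finiteDimensional (k : Type) [Field k] (H : Type) [Group H] (Z : Type) [Finite Z]
    [MulAction H Z] : FiniteDimensional k (Rep.ofMulAction k H Z) :=
  Module.Finite.equiv (MonoidAlgebra.coeffLinearEquiv (M := Z) (S := k) k).symm

/-- **[LB-ASM]** [LB-COVER] + [LB-PERM-ADM] + [LB-PERM11] + [LB-PERM20] ⇒ [L-BASE]. -/
theorem lba_main : ld1_BaseAsmStatement := by
  intro hCover hPermAdm hPerm11 hPerm20 inv ptinv hinv hcompat p _ hp S q X _ hX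
  obtain ⟨Z, hZf, hZa, f, hsm, hchi, heqv, hsurj⟩ :=
    hCover (extArithLocalGroups S (Sum.inr q : extArithIndex S))
      (extArithLoc S (Sum.inr q : extArithIndex S)) X hX
  exact ⟨Rep.ofMulAction (ZMod p) (extArithLocalGroups S (Sum.inr q : extArithIndex S)) Z,
    lba_finiteDimensional (ZMod p) _ Z, f,
    hPermAdm _ _ Z hsm, heqv, hsurj,
    hPerm11 inv ptinv hinv hcompat hp S q Z hsm hchi,
    hPerm20 inv ptinv hinv hcompat hp S q Z hsm hchi⟩

end Fermat.Agent.S55
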