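/-
S55 (wave 5), LOCAL side, package [LCD-DEV] (helper27), part 1: cochain-level devissage for a
group `H` with a homomorphism `r : H →* G_ℚ` (continuity = the Prelude's `IsLevelConstant r`).
This is the port to `(H, r)` of helper13's `H3OfBasic.lean` (level `S` for `G_ℚ`).
Prefix `lcdd_`.
-/
import Mathlib
import Fermat.Agent.S55.Local.LD1Defs

set_option autoImplicit false
set_option linter.style.haveILetI false
set_option linter.unusedVariables false
set_option linter.unusedSimpArgs false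
set_option maxHeartbeats 1000000
set_option synthInstance.maxHeartbeats 400000
open CategoryTheory Module groupCohomology ExtCitation

namespace Fermat.Agent.S55

variable {k : Type} [CommRing k] {H : Type} [Group H]

/-- `H³`-vanishing on the level of cochains, for cochains with values in a submodule. -/
def lcdd_VanSub (r : H →* s55_GQ) (B : Rep.{0, 0, 0} k H) (W : Submodule k B) : Prop :=
  ∀ z : H × H × H → B, pt_IsLevel₃ r z → pt_IsCocycle₃ B z → (∀ x, z x ∈ W) →
    ∃ a : H × H → B, IsLevelConstant₂ r a ∧ (∀ x, a x ∈ W) ∧ (d₂₃ B).hom a = z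

/-- `H³`-vanishing on the level of cochains. -/
def lcdd_Van (r : H →* s55_GQ) (B : Rep.{0, 0, 0} k H) : Prop :=
  ∀ z : H × H × H → B, pt_IsLevel₃ r z → pt_IsCocycle₃ B z →
    ∃ a : H × H → B, IsLevelConstant₂ r a ∧ (d₂₃ B).hom a = z

theorem lcdd_van_iff_top (r : H →* s55_GQ) (B : Rep.{0, 0, 0} k H) :
    lcdd_Van r B ↔ lcdd_VanSub r B ⊤ := by
  constructor
  · intro h z hz hc _
    obtain ⟨a, ha, hd⟩ := h z hz hc
    exact ⟨a, ha, fun _ => Submodule.mem_top, hd⟩
  · intro h z hz hc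
    obtain ⟨a, ha, -, hd⟩ := h z hz hc (fun _ => Submodule.mem_top)
    exact ⟨a, ha, hd⟩

/-- The existence of normal levels: every finite extension unramified outside `S` is contained
in one with normal fixing subgroup. -/
def lcdd_NormalLevel : Prop :=
  ∀ F : IntermediateField ℚ (AlgebraicClosure ℚ), FiniteDimensional ℚ F →
    ∃ F' : IntermediateField ℚ (AlgebraicClosure ℚ), F ≤ F' ∧ FiniteDimensional ℚ F' ∧
      F'.fixingSubgroup.Normal

/-- A representation is of level `S` if it is trivial on the fixing subgroup of a finite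
extension unramified outside `S`. -/
def lcdd_RepLevel (r : H →* s55_GQ) (B : Rep.{0, 0, 0} k H) : Prop :=
  ∃ L : IntermediateField ℚ (AlgebraicClosure ℚ), FiniteDimensional ℚ L ∧
    ∀ s : H, r s ∈ L.fixingSubgroup → ∀ b : B, B.ρ s b = b

section level

variable {r : H →* s55_GQ}

theorem lcdd_levelS₃_comp {X Y : Type*} {z : H × H × H → X}
    (hz : pt_IsLevel₃ r z) (f : X → Y) : pt_IsLevel₃ r (f ∘ z) := by
  obtain ⟨F, hF, h⟩ := hz
  exact ⟨F, hF, fun g g' g'' s s' s'' hs hs' hs'' => by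
    simp only [Function.comp_apply, h g g' g'' s s' s'' hs hs' hs'']⟩

theorem lcdd_levelS₃_sub {X : Type*} [AddGroup X] {z z' : H × H × H → X}
    (hz : pt_IsLevel₃ r z) (hz' : pt_IsLevel₃ r z') : pt_IsLevel₃ r (z - z') := by
  obtain ⟨F, hF, h⟩ := hz
  obtain ⟨F', hF', h'⟩ := hz'
  haveI := hF
  haveI := hF'
  refine ⟨F ⊔ F', IntermediateField.finiteDimensional_sup F F',
    fun g g' g'' s s' s'' hs hs' hs'' => ?_⟩
  have e1 := IntermediateField.fixingSubgroup_antitone (le_sup_left : F ≤ F ⊔ F')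
  have e2 := IntermediateField.fixingSubgroup_antitone (le_sup_right : F' ≤ F ⊔ F')
  simp only [Pi.sub_apply]
  rw [h g g' g'' s s' s'' (e1 hs) (e1 hs') (e1 hs''),
    h' g g' g'' s s' s'' (e2 hs) (e2 hs') (e2 hs'')]

/-- The coboundary of a level-`S` 2-cochain with values in a representation of level `S` is a
level-`S` 3-cochain. -/
theorem lcdd_levelS₃_d₂₃ (hNC : lcdd_NormalLevel) (B : Rep.{0, 0, 0} k H)
    (hB : lcdd_RepLevel r B) {a : H × H → B} (ha : IsLevelConstant₂ r a) :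
    pt_IsLevel₃ r ((d₂₃ B).hom a) := by
  obtain ⟨F, hF, h⟩ := ha
  obtain ⟨L, hL, hfix⟩ := hB
  haveI := hF
  haveI := hL
  obtain ⟨F', hle, hF', hnorm⟩ := hNC (F ⊔ L) (IntermediateField.finiteDimensional_sup F L)
  have e1 : F'.fixingSubgroup ≤ F.fixingSubgroup :=
    IntermediateField.fixingSubgroup_antitone (le_sup_left.trans hle)
  have e2 : F'.fixingSubgroup ≤ L.fixingSubgroup :=
    IntermediateField.fixingSubgroup_antitone (le_sup_right.trans hle)
  refine ⟨F', hF', fun g g' g'' s s' s'' hs hs' hs'' => ?_⟩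
  simp only [d₂₃_hom_apply]
  have h1 : a (g' * s', g'' * s'') = a (g', g'') := h g' g'' s' s'' (e1 hs') (e1 hs'')
  have h2 : a (g * s * (g' * s'), g'' * s'') = a (g * g', g'') := by
    have hc : r (g'⁻¹ * s * g') ∈ F'.fixingSubgroup := by
      have := hnorm.conj_mem (r s) hs (r g')⁻¹
      simpa [map_mul, map_inv] using this
    have : g * s * (g' * s') = g * g' * (g'⁻¹ * s * g' * s') := by group
    rw [this]
    exact h (g * g') g'' _ s'' (e1 (by rw [map_mul]; exact mul_mem hc hs')) (e1 hs'')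
  have h3 : a (g * s, g' * s' * (g'' * s'')) = a (g, g' * g'') := by
    have hc : r (g''⁻¹ * s' * g'') ∈ F'.fixingSubgroup := by
      have := hnorm.conj_mem (r s') hs' (r g'')⁻¹
      simpa [map_mul, map_inv] using this
    have : g' * s' * (g'' * s'') = g' * g'' * (g''⁻¹ * s' * g'' * s'') := by group
    rw [this]
    exact h g (g' * g'') s _ (e1 hs) (e1 (by rw [map_mul]; exact mul_mem hc hs''))
  have h4 : a (g * s, g' * s') = a (g, g') := h g g' s s' (e1 hs) (e1 hs')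
  rw [h1, h2, h3, h4, map_mul, Module.End.mul_apply, hfix s (e2 hs)]

end level

section cocycle

/-- `d ∘ d = 0` in degree `2 → 3 → 4`. -/
theorem lcdd_isCocycle₃_d₂₃ (B : Rep.{0, 0, 0} k H) (a : H × H → B) :
    pt_IsCocycle₃ B ((d₂₃ B).hom a) := by
  intro g h j l
  simp only [d₂₃_hom_apply, map_sub, map_add, map_mul, Module.End.mul_apply, mul_assoc]
  abel

theorem lcdd_isCocycle₃_sub (B : Rep.{0, 0, 0} k H) {z z' : H × H × H → B}
    (hz : pt_IsCocycle₃ B z) (hz' : pt_IsCocycle₃ B z') : pt_IsCocycle₃ B (z - z') := by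
  intro g h j l
  have h1 := hz g h j l
  have h2 := hz' g h j l
  simp only [Pi.sub_apply, map_sub]
  have : B.ρ g (z (h, j, l)) - B.ρ g (z' (h, j, l)) - (z (g * h, j, l) - z' (g * h, j, l))
      + (z (g, h * j, l) - z' (g, h * j, l)) - (z (g, h, j * l) - z' (g, h, j * l))
      + (z (g, h, j) - z' (g, h, j))
      = (B.ρ g (z (h, j, l)) - z (g * h, j, l) + z (g, h * j, l) - z (g, h, j * l) + z (g, h, j))
        - (B.ρ g (z' (h, j, l)) - z' (g * h, j, l) + z' (g, h * j, l) - z' (g, h, j * l)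
          + z' (g, h, j)) := by abel
  rw [this, h1, h2, sub_zero]

/-- A linear map which is equivariant on the values of a 3-cocycle maps it to a 3-cocycle. -/
theorem lcdd_isCocycle₃_comp (A B : Rep.{0, 0, 0} k H) (f : A →ₗ[k] B)
    {z : H × H × H → A} (hz : pt_IsCocycle₃ A z)
    (hf : ∀ g x, f (A.ρ g (z x)) = B.ρ g (f (z x))) : pt_IsCocycle₃ B (f ∘ z) := by
  intro g h j l
  have h1 := congrArg f (hz g h j l)
  simp only [map_sub, map_add, map_zero, hf] at h1
  exact h1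

/-- A linear map which is equivariant on the values of a 2-cochain commutes with `d`. -/
theorem lcdd_d₂₃_comp (A B : Rep.{0, 0, 0} k H) (f : A →ₗ[k] B)
    (a : H × H → A)
    (hf : ∀ g x, f (A.ρ g (a x)) = B.ρ g (f (a x))) (x : H × H × H) :
    (d₂₃ B).hom (f ∘ a) x = f ((d₂₃ A).hom a x) := by
  simp only [d₂₃_hom_apply, Function.comp_apply, map_sub, map_add, hf]

theorem lcdd_d₂₃_mem (B : Rep.{0, 0, 0} k H) (W : Submodule k B)
    (hW : ∀ g : H, ∀ w ∈ W, B.ρ g w ∈ W) {a : H × H → B} (ha : ∀ x, a x ∈ W)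
    (x : H × H × H) : (d₂₃ B).hom a x ∈ W := by
  simp only [d₂₃_hom_apply]
  exact W.sub_mem (W.add_mem (W.sub_mem (hW _ _ (ha _)) (ha _)) (ha _)) (ha _)

end cocycle

section devissage

variable {r : H →* s55_GQ}

/-- **Devissage.**  `W' ≤ W` stable submodules of `B`, `q : W → C` equivariant and onto with
kernel `W'`: vanishing for `C` and for `W'` implies vanishing for `W`. -/
theorem lcdd_ses (hNC : lcdd_NormalLevel) (B C : Rep.{0, 0, 0} k H)
    (hB : lcdd_RepLevel r B) (W W' : Submodule k B)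
    (hW : ∀ g : H, ∀ w ∈ W, B.ρ g w ∈ W) (hW'W : W' ≤ W)
    (q : B →ₗ[k] C) (hq : ∀ g : H, ∀ w ∈ W, q (B.ρ g w) = C.ρ g (q w))
    (hker : ∀ w ∈ W, q w = 0 → w ∈ W') (hsec : ∀ c : C, ∃ w ∈ W, q w = c)
    (hC : lcdd_Van r C) (hW' : lcdd_VanSub r B W') : lcdd_VanSub r B W := by
  intro z hz hc hzW
  have hqz_lev : pt_IsLevel₃ r (q ∘ z) := lcdd_levelS₃_comp hz q
  have hqz_coc : pt_IsCocycle₃ C (q ∘ z) :=
    lcdd_isCocycle₃_comp B C q hc (fun g x => hq g _ (hzW x))
  obtain ⟨aC, haC, hdC⟩ := hC (q ∘ z) hqz_lev hqz_coc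
  choose s hsW hs using hsec
  have haB : IsLevelConstant₂ r (s ∘ aC) := haC.comp s
  have haBW : ∀ x, (s ∘ aC) x ∈ W := fun x => hsW _
  have hz'lev : pt_IsLevel₃ r (z - (d₂₃ B).hom (s ∘ aC)) :=
    lcdd_levelS₃_sub hz (lcdd_levelS₃_d₂₃ hNC B hB haB)
  have hz'coc : pt_IsCocycle₃ B (z - (d₂₃ B).hom (s ∘ aC)) :=
    lcdd_isCocycle₃_sub B hc (lcdd_isCocycle₃_d₂₃ B _)
  have hz'W : ∀ x, (z - (d₂₃ B).hom (s ∘ aC)) x ∈ W := fun x =>
    W.sub_mem (hzW x) (lcdd_d₂₃_mem B W hW haBW x)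
  have hqs : q ∘ (s ∘ aC) = aC := by
    funext x
    exact hs _
  have hqz' : ∀ x, q ((z - (d₂₃ B).hom (s ∘ aC)) x) = 0 := by
    intro x
    rw [Pi.sub_apply, map_sub,
      ← lcdd_d₂₃_comp B C q (s ∘ aC) (fun g y => hq g _ (haBW y)) x, hqs, hdC]
    simp
  obtain ⟨a', ha', ha'W, hda'⟩ := hW' _ hz'lev hz'coc (fun x => hker _ (hz'W x) (hqz' x))
  refine ⟨s ∘ aC + a', haB.add ha', fun x => W.add_mem (haBW x) (hW'W (ha'W x)), ?_⟩
  rw [map_add, hda']
  abel

/-- **Retract.** -/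
theorem lcdd_retract (B M : Rep.{0, 0, 0} k H) (i : M →ₗ[k] B) (π : B →ₗ[k] M)
    (hi : ∀ g m, i (M.ρ g m) = B.ρ g (i m)) (hπ : ∀ g b, π (B.ρ g b) = M.ρ g (π b))
    (hπi : ∀ m, π (i m) = m) (hB : lcdd_Van r B) : lcdd_Van r M := by
  intro z hz hc
  obtain ⟨a, ha, hd⟩ := hB (i ∘ z) (lcdd_levelS₃_comp hz i)
    (lcdd_isCocycle₃_comp M B i hc (fun g x => hi g _))
  refine ⟨π ∘ a, ha.comp π, ?_⟩
  funext x
  rw [lcdd_d₂₃_comp B M π a (fun g y => hπ g _) x, hd]
  exact hπi _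

theorem lcdd_vanSub_bot (B : Rep.{0, 0, 0} k H) : lcdd_VanSub r B ⊥ := by
  intro z hz hc hzW
  refine ⟨0, isLevelConstant₂_const r (0 : B), fun _ => Submodule.zero_mem _, ?_⟩
  rw [map_zero]
  funext x
  exact ((Submodule.mem_bot k).1 (hzW x)).symm

end devissage

end Fermat.Agent.S55
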