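/-
S55 (wave 5), LOCAL side, package [LCD-DEV] (helper27), part 2: the induced module
`Fun(H ⧸ P, M)` for a group `H` with a homomorphism `r : H →* G_ℚ`.
This is the port to `(H, r)` of helper13's `H3OfFun.lean`.  Prefix `lcdd_`.
-/
import Mathlib
import Fermat.Agent.S55.Local.LcdDevBasic

set_option autoImplicit false
set_option linter.style.haveILetI false
set_option linter.unusedVariables false
set_option linter.unusedSimpArgs false
set_option linter.unusedSectionVars false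
set_option maxHeartbeats 1000000
set_option synthInstance.maxHeartbeats 400000
open CategoryTheory Module groupCohomology ExtCitation

namespace Fermat.Agent.S55

variable {k : Type} [CommRing k] {H : Type} [Group H]

/-- The representation of `G_ℚ` on `X → M`, `X = G_ℚ ⧸ P`: `(g f)(x) = ρ(g) f(g⁻¹ x)`. -/
noncomputable def lcdd_funRho (M : Rep.{0, 0, 0} k H) (P : Subgroup H) :
    Representation k H ((H ⧸ P) → M) where
  toFun g := LinearMap.pi fun x => (M.ρ g) ∘ₗ LinearMap.proj (g⁻¹ • x)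
  map_one' := by
    ext f x
    simp
  map_mul' g h := by
    ext f x
    simp [mul_smul, mul_inv_rev]

theorem lcdd_funRho_apply (M : Rep.{0, 0, 0} k H) (P : Subgroup H) (g : H)
    (f : (H ⧸ P) → M) (x : H ⧸ P) :
    lcdd_funRho M P g f x = M.ρ g (f (g⁻¹ • x)) := rfl

/-- The induced module `Fun(G_ℚ ⧸ P, M)`. -/
noncomputable abbrev lcdd_fun (M : Rep.{0, 0, 0} k H) (P : Subgroup H) :
    Rep.{0, 0, 0} k H :=
  Rep.of (lcdd_funRho M P)

theorem lcdd_fun_ρ_apply (M : Rep.{0, 0, 0} k H) (P : Subgroup H) (g : H)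
    (f : lcdd_fun M P) (x : H ⧸ P) :
    (lcdd_fun M P).ρ g f x = M.ρ g (f (g⁻¹ • x)) := rfl

/-- The submodule `I(N) = {f | ∀ g, ρ(g)⁻¹ f(gP) ∈ N}` of `Fun(G_ℚ ⧸ P, M)`. -/
def lcdd_I (M : Rep.{0, 0, 0} k H) (P : Subgroup H) (N : Submodule k M) :
    Submodule k (lcdd_fun M P) where
  carrier := {f | ∀ g : H, M.ρ g⁻¹ (f (g : H ⧸ P)) ∈ N}
  add_mem' := by
    intro f f' hf hf' g
    have : M.ρ g⁻¹ ((f + f') (g : H ⧸ P))
        = M.ρ g⁻¹ (f (g : H ⧸ P)) + M.ρ g⁻¹ (f' (g : H ⧸ P)) := map_add _ _ _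
    rw [this]
    exact N.add_mem (hf g) (hf' g)
  zero_mem' := by
    intro g
    have : M.ρ g⁻¹ ((0 : lcdd_fun M P) (g : H ⧸ P)) = 0 := map_zero _
    rw [this]
    exact N.zero_mem
  smul_mem' := by
    intro c f hf g
    have : M.ρ g⁻¹ ((c • f) (g : H ⧸ P)) = c • M.ρ g⁻¹ (f (g : H ⧸ P)) :=
      map_smul _ _ _
    rw [this]
    exact N.smul_mem c (hf g)

theorem lcdd_mem_I (M : Rep.{0, 0, 0} k H) (P : Subgroup H) (N : Submodule k M)
    (f : lcdd_fun M P) :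
    f ∈ lcdd_I M P N ↔ ∀ g : H, M.ρ g⁻¹ (f (g : H ⧸ P)) ∈ N := Iff.rfl

theorem lcdd_I_mono (M : Rep.{0, 0, 0} k H) (P : Subgroup H) {N N' : Submodule k M}
    (h : N' ≤ N) : lcdd_I M P N' ≤ lcdd_I M P N :=
  fun f hf g => h (hf g)

theorem lcdd_I_top (M : Rep.{0, 0, 0} k H) (P : Subgroup H) :
    lcdd_I M P ⊤ = ⊤ := by
  rw [eq_top_iff]
  intro f _ g
  exact Submodule.mem_top

theorem lcdd_I_bot (M : Rep.{0, 0, 0} k H) (P : Subgroup H) :
    lcdd_I M P ⊥ = ⊥ := by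
  ext f
  rw [lcdd_mem_I, Submodule.mem_bot]
  constructor
  · intro h
    funext x
    induction x using QuotientGroup.induction_on with
    | H g =>
      have h1 := (Submodule.mem_bot k).1 (h g)
      have h2 : M.ρ g (M.ρ g⁻¹ (f (g : H ⧸ P))) = f (g : H ⧸ P) := by
        rw [← Module.End.mul_apply, ← map_mul, mul_inv_cancel, map_one, Module.End.one_apply]
      rw [← h2, h1, map_zero]
      rfl
  · rintro rfl g
    have : M.ρ g⁻¹ ((0 : lcdd_fun M P) (g : H ⧸ P)) = 0 := map_zero _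
    rw [this]
    exact Submodule.zero_mem _

/-- `I(N)` is stable under `G_ℚ`. -/
theorem lcdd_I_stable (M : Rep.{0, 0, 0} k H) (P : Subgroup H) (N : Submodule k M)
    (h : H) (f : lcdd_fun M P) (hf : f ∈ lcdd_I M P N) :
    (lcdd_fun M P).ρ h f ∈ lcdd_I M P N := by
  intro g
  rw [lcdd_fun_ρ_apply]
  have h1 : h⁻¹ • (g : H ⧸ P) = ((h⁻¹ * g : H) : H ⧸ P) := rfl
  have h2 : M.ρ g⁻¹ (M.ρ h (f (h⁻¹ • (g : H ⧸ P))))
      = M.ρ (h⁻¹ * g)⁻¹ (f ((h⁻¹ * g : H) : H ⧸ P)) := by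
    have e : g⁻¹ * h = (h⁻¹ * g)⁻¹ := by group
    rw [h1, ← Module.End.mul_apply, ← map_mul, e]
  rw [h2]
  exact hf _

section quotientMap

variable (M : Rep.{0, 0, 0} k H) (P : Subgroup H) [Finite (H ⧸ P)]

/-- The map `f ↦ ∑ₓ l(ρ(x̃)⁻¹ f(x)) eₓ` to the permutation module `k[G_ℚ ⧸ P]`. -/
noncomputable def lcdd_q (l : M →ₗ[k] k) :
    lcdd_fun M P →ₗ[k] Rep.ofMulAction k H (H ⧸ P) :=
  (MonoidAlgebra.coeffLinearEquiv k).symm.toLinearMap ∘ₗ
    (Finsupp.linearEquivFunOnFinite k k (H ⧸ P)).symm.toLinearMap ∘ₗ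
      (LinearMap.pi fun x => l ∘ₗ (M.ρ (Quotient.out x)⁻¹) ∘ₗ LinearMap.proj x)

theorem lcdd_q_coeff (l : M →ₗ[k] k) (f : lcdd_fun M P) (x : H ⧸ P) :
    (lcdd_q M P l f).coeff x = l (M.ρ (Quotient.out x)⁻¹ (f x)) := rfl

variable {M P}

/-- Independence of the representative. -/
theorem lcdd_l_rep {N : Submodule k M} {l : M →ₗ[k] k}
    (hl : ∀ u ∈ P, ∀ n ∈ N, l (M.ρ u n) = l n) {f : lcdd_fun M P} (hf : f ∈ lcdd_I M P N)
    (g : H) :
    l (M.ρ g⁻¹ (f (g : H ⧸ P)))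
      = l (M.ρ (Quotient.out (g : H ⧸ P))⁻¹ (f (g : H ⧸ P))) := by
  set x : H ⧸ P := (g : H ⧸ P) with hx
  have hout : ((Quotient.out x : H) : H ⧸ P) = (g : H ⧸ P) :=
    QuotientGroup.out_eq' x
  have hu : g⁻¹ * Quotient.out x ∈ P := by
    have := QuotientGroup.eq.1 hout.symm
    exact this
  have hn : M.ρ (Quotient.out x)⁻¹ (f x) ∈ N := by
    have := hf (Quotient.out x)
    rwa [QuotientGroup.out_eq' x] at this
  have h1 : M.ρ g⁻¹ (f x) = M.ρ (g⁻¹ * Quotient.out x) (M.ρ (Quotient.out x)⁻¹ (f x)) := by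
    rw [← Module.End.mul_apply, ← map_mul]
    congr 2
    group
  rw [h1, hl _ hu _ hn]

/-- `q` is equivariant on `I(N)` when `l` is `P`-invariant on `N`. -/
theorem lcdd_q_equivariant {N : Submodule k M} {l : M →ₗ[k] k}
    (hl : ∀ u ∈ P, ∀ n ∈ N, l (M.ρ u n) = l n) (h : H) {f : lcdd_fun M P}
    (hf : f ∈ lcdd_I M P N) :
    lcdd_q M P l ((lcdd_fun M P).ρ h f)
      = (Rep.ofMulAction k H (H ⧸ P)).ρ h (lcdd_q M P l f) := by
  apply MonoidAlgebra.coeff_injective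
  ext x
  have hρ : ((Rep.ofMulAction k H (H ⧸ P)).ρ h (lcdd_q M P l f)).coeff x
      = (lcdd_q M P l f).coeff (h⁻¹ • x) :=
    Representation.coeff_ofMulAction h _ x
  rw [hρ, lcdd_q_coeff, lcdd_q_coeff, lcdd_fun_ρ_apply]
  have hx : h⁻¹ • x = ((h⁻¹ * Quotient.out x : H) : H ⧸ P) := by
    conv_lhs => rw [← QuotientGroup.out_eq' x]
    rfl
  have e : (Quotient.out x)⁻¹ * h = (h⁻¹ * Quotient.out x)⁻¹ := by group
  have h1 : M.ρ (Quotient.out x)⁻¹ (M.ρ h (f (h⁻¹ • x)))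
      = M.ρ (h⁻¹ * Quotient.out x)⁻¹ (f ((h⁻¹ * Quotient.out x : H) : H ⧸ P)) := by
    rw [← Module.End.mul_apply, ← map_mul, e, hx]
  rw [h1, lcdd_l_rep hl hf, ← hx]

/-- The kernel of `q` on `I(N)` is `I(N ⊓ ker l)`. -/
theorem lcdd_q_ker {N : Submodule k M} {l : M →ₗ[k] k}
    (hl : ∀ u ∈ P, ∀ n ∈ N, l (M.ρ u n) = l n) {f : lcdd_fun M P}
    (hf : f ∈ lcdd_I M P N) (hq : lcdd_q M P l f = 0) :
    f ∈ lcdd_I M P (N ⊓ LinearMap.ker l) := by
  intro g
  refine ⟨hf g, ?_⟩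
  rw [SetLike.mem_coe, LinearMap.mem_ker, lcdd_l_rep hl hf, ← lcdd_q_coeff, hq]
  rfl

/-- `q` maps `I(N)` onto the permutation module if `N` is `P`-stable and `l ≠ 0` on `N`. -/
theorem lcdd_q_surjective {N : Submodule k M} {l : M →ₗ[k] k}
    (hN : ∀ u ∈ P, ∀ n ∈ N, M.ρ u n ∈ N) {n₀ : M} (hn₀ : n₀ ∈ N) (hl₀ : l n₀ = 1)
    (c : Rep.ofMulAction k H (H ⧸ P)) :
    ∃ f ∈ lcdd_I M P N, lcdd_q M P l f = c := by
  refine ⟨fun x => (MonoidAlgebra.coeff c x) • M.ρ (Quotient.out x) n₀, ?_, ?_⟩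
  · intro g
    set x : H ⧸ P := (g : H ⧸ P) with hx
    have hout : ((Quotient.out x : H) : H ⧸ P) = (g : H ⧸ P) :=
      QuotientGroup.out_eq' x
    have hu : g⁻¹ * Quotient.out x ∈ P := QuotientGroup.eq.1 hout.symm
    have h1 : M.ρ g⁻¹ ((MonoidAlgebra.coeff c x) • M.ρ (Quotient.out x) n₀)
        = (MonoidAlgebra.coeff c x) • M.ρ (g⁻¹ * Quotient.out x) n₀ := by
      rw [map_smul, ← Module.End.mul_apply, ← map_mul]
    change M.ρ g⁻¹ ((MonoidAlgebra.coeff c x) • M.ρ (Quotient.out x) n₀) ∈ N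
    rw [h1]
    exact N.smul_mem _ (hN _ hu _ hn₀)
  · apply MonoidAlgebra.coeff_injective
    ext x
    rw [lcdd_q_coeff]
    rw [map_smul, ← Module.End.mul_apply, ← map_mul, inv_mul_cancel, map_one,
      Module.End.one_apply, map_smul, hl₀, smul_eq_mul, mul_one]

end quotientMap

section level

/-- `Fun(H ⧸ P, M)` is of finite level. -/
theorem lcdd_fun_repLevel {r : H →* s55_GQ} (M : Rep.{0, 0, 0} k H)
    (P : Subgroup H) (L : IntermediateField ℚ (AlgebraicClosure ℚ))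
    (hL : FiniteDimensional ℚ L) (hLn : L.fixingSubgroup.Normal)
    (hLP : ∀ s : H, r s ∈ L.fixingSubgroup → s ∈ P)
    (hLM : ∀ s : H, r s ∈ L.fixingSubgroup → ∀ m : M, M.ρ s m = m) :
    lcdd_RepLevel r (lcdd_fun M P) := by
  refine ⟨L, hL, fun s hs f => ?_⟩
  funext x
  rw [lcdd_fun_ρ_apply, hLM s hs]
  congr 1
  induction x using QuotientGroup.induction_on with
  | H g =>
    change ((s⁻¹ * g : H) : H ⧸ P) = (g : H ⧸ P)
    rw [QuotientGroup.eq]
    have e : (s⁻¹ * g)⁻¹ * g = g⁻¹ * s * g := by group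
    rw [e]
    apply hLP
    have := hLn.conj_mem (r s) hs (r g)⁻¹
    simpa [map_mul, map_inv] using this

end level

section retract

variable (M : Rep.{0, 0, 0} k H) (P : Subgroup H) [Fintype (H ⧸ P)]

/-- constant functions -/
def lcdd_const : M →ₗ[k] lcdd_fun M P :=
  LinearMap.pi fun _ => LinearMap.id

theorem lcdd_const_apply (m : M) (x : H ⧸ P) : lcdd_const M P m x = m := rfl

/-- `c` times the sum of the values -/
def lcdd_avg (c : k) : lcdd_fun M P →ₗ[k] M :=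
  c • ∑ x : H ⧸ P, LinearMap.proj x

theorem lcdd_avg_apply (c : k) (f : lcdd_fun M P) :
    lcdd_avg M P c f = c • ∑ x : H ⧸ P, f x := by
  simp [lcdd_avg, LinearMap.sum_apply]

theorem lcdd_const_equivariant (g : H) (m : M) :
    lcdd_const M P (M.ρ g m) = (lcdd_fun M P).ρ g (lcdd_const M P m) := by
  funext x
  rw [lcdd_fun_ρ_apply, lcdd_const_apply, lcdd_const_apply]

theorem lcdd_avg_equivariant (c : k) (g : H) (f : lcdd_fun M P) :
    lcdd_avg M P c ((lcdd_fun M P).ρ g f) = M.ρ g (lcdd_avg M P c f) := by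
  rw [lcdd_avg_apply, lcdd_avg_apply, map_smul, map_sum]
  congr 1
  simp only [lcdd_fun_ρ_apply]
  exact Fintype.sum_equiv (MulAction.toPerm g⁻¹) _ _ (fun x => rfl)

theorem lcdd_avg_const (c : k) (hc : c * (Fintype.card (H ⧸ P) : k) = 1) (m : M) :
    lcdd_avg M P c (lcdd_const M P m) = m := by
  rw [lcdd_avg_apply]
  have h1 : ∑ x : H ⧸ P, (lcdd_const M P) m x = (Fintype.card (H ⧸ P)) • m := by
    rw [Finset.sum_congr rfl (fun x _ => lcdd_const_apply M P m x), Finset.sum_const,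
      Finset.card_univ]
  rw [h1, ← Nat.cast_smul_eq_nsmul k, smul_smul, hc, one_smul]

/-- `M` is a retract of `Fun(G_ℚ ⧸ P, M)` when the index of `P` is invertible. -/
theorem lcdd_van_of_fun {r : H →* s55_GQ} (c : k)
    (hc : c * (Fintype.card (H ⧸ P) : k) = 1) (h : lcdd_Van r (lcdd_fun M P)) :
    lcdd_Van r M :=
  lcdd_retract (lcdd_fun M P) M (lcdd_const M P) (lcdd_avg M P c) (lcdd_const_equivariant M P)
    (lcdd_avg_equivariant M P c) (lcdd_avg_const M P c hc) h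

end retract

end Fermat.Agent.S55
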