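/-
S55 (wave 5), LOCAL side, package [LCD-DEV] (helper27), part 3: the flag induction for a group
`H` with a homomorphism `r : H →* G_ℚ`.
This is the port to `(H, r)` of helper13's `H3OfFlag.lean`.  Prefix `lcdd_`.
-/
import Mathlib
import Fermat.Agent.S55.Local.LcdDevFun

set_option autoImplicit false
set_option linter.style.haveILetI false
set_option linter.unusedVariables false
set_option linter.unusedSimpArgs false
set_option linter.unusedSectionVars false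
set_option maxHeartbeats 1000000
set_option synthInstance.maxHeartbeats 400000
open CategoryTheory Module groupCohomology ExtCitation

namespace Fermat.Agent.S55

variable {p : ℕ} [Fact p.Prime] {H : Type} [Group H]

/-- A group acting through a `p`-group on a nonzero finite `𝔽_p`-vector space has a nonzero
invariant linear functional. -/
theorem lcdd_exists_invariant_functional {V : Type} [AddCommGroup V] [Module (ZMod p) V]
    [Finite V] [Nontrivial V] {Γ : Type} [Group Γ] (φ : Γ →* (V →ₗ[ZMod p] V))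
    (hφ : ∀ γ : Γ, ∃ n : ℕ, φ (γ ^ (p ^ n)) = 1) :
    ∃ l : V →ₗ[ZMod p] ZMod p, l ≠ 0 ∧ ∀ γ v, l (φ γ v) = l v := by
  classical
  haveI : NeZero p := ⟨(Fact.out : p.Prime).ne_zero⟩
  -- the image group
  let ψ : Γ →* (V →ₗ[ZMod p] V)ˣ := φ.toHomUnits
  let Q : Subgroup (V →ₗ[ZMod p] V)ˣ := ψ.range
  have hQ : IsPGroup p Q := by
    rintro ⟨u, γ, rfl⟩
    obtain ⟨n, hn⟩ := hφ γ
    refine ⟨n, ?_⟩
    apply Subtype.ext
    apply Units.ext
    have : ((ψ γ ^ p ^ n : (V →ₗ[ZMod p] V)ˣ) : V →ₗ[ZMod p] V) = φ (γ ^ p ^ n) := by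
      rw [← map_pow]
      rfl
    simpa using this.trans hn
  -- the action on the dual
  letI : MulAction Q (V →ₗ[ZMod p] ZMod p) :=
    { smul := fun u l => l ∘ₗ (((u : (V →ₗ[ZMod p] V)ˣ)⁻¹ : (V →ₗ[ZMod p] V)ˣ) : V →ₗ[ZMod p] V)
      one_smul := by
        intro l
        change l ∘ₗ ((((1 : Q) : (V →ₗ[ZMod p] V)ˣ)⁻¹ : (V →ₗ[ZMod p] V)ˣ) : V →ₗ[ZMod p] V) = l
        simp
        rfl
      mul_smul := by
        intro u v l
        change l ∘ₗ ((((u * v : Q) : (V →ₗ[ZMod p] V)ˣ)⁻¹ : (V →ₗ[ZMod p] V)ˣ) :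
            V →ₗ[ZMod p] V)
          = (l ∘ₗ (((v : (V →ₗ[ZMod p] V)ˣ)⁻¹ : (V →ₗ[ZMod p] V)ˣ) : V →ₗ[ZMod p] V)) ∘ₗ
            (((u : (V →ₗ[ZMod p] V)ˣ)⁻¹ : (V →ₗ[ZMod p] V)ˣ) : V →ₗ[ZMod p] V)
        rw [Subgroup.coe_mul, mul_inv_rev, Units.val_mul, LinearMap.comp_assoc]
        rfl }
  have hsmul : ∀ (u : Q) (l : V →ₗ[ZMod p] ZMod p),
      u • l = l ∘ₗ (((u : (V →ₗ[ZMod p] V)ˣ)⁻¹ : (V →ₗ[ZMod p] V)ˣ) : V →ₗ[ZMod p] V) :=
    fun _ _ => rfl
  haveI : Finite (V →ₗ[ZMod p] ZMod p) :=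
    Finite.of_injective (fun l : V →ₗ[ZMod p] ZMod p => (l : V → ZMod p)) DFunLike.coe_injective
  -- `p` divides the cardinality of the dual
  have hcard : p ∣ Nat.card (V →ₗ[ZMod p] ZMod p) := by
    haveI : Module.Finite (ZMod p) V := Module.Finite.of_finite
    have h1 : Nat.card (V →ₗ[ZMod p] ZMod p)
        = Nat.card (ZMod p) ^ Module.finrank (ZMod p) (V →ₗ[ZMod p] ZMod p) :=
      Module.natCard_eq_pow_finrank
    have h2 : Module.finrank (ZMod p) (V →ₗ[ZMod p] ZMod p) = Module.finrank (ZMod p) V :=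
      Subspace.dual_finrank_eq
    have h3 : 0 < Module.finrank (ZMod p) V := Module.finrank_pos
    rw [h1, h2, Nat.card_zmod]
    exact dvd_pow_self p h3.ne'
  have h0 : (0 : V →ₗ[ZMod p] ZMod p) ∈ MulAction.fixedPoints Q (V →ₗ[ZMod p] ZMod p) := by
    intro u
    rw [hsmul]
    simp
  obtain ⟨l, hl, hne⟩ := hQ.exists_fixed_point_of_prime_dvd_card_of_fixed_point
    (V →ₗ[ZMod p] ZMod p) hcard h0
  refine ⟨l, fun h => hne h.symm, fun γ v => ?_⟩
  have h1 := hl ⟨ψ γ⁻¹, γ⁻¹, rfl⟩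
  rw [hsmul] at h1
  have h2 : (((ψ γ⁻¹ : (V →ₗ[ZMod p] V)ˣ)⁻¹ : (V →ₗ[ZMod p] V)ˣ) : V →ₗ[ZMod p] V) = φ γ := by
    rw [← map_inv, inv_inv]
    rfl
  have h3 := congrArg (fun f : V →ₗ[ZMod p] ZMod p => f v) h1
  simp only [LinearMap.comp_apply] at h3
  rw [← h3]
  congr 1
  exact (congrArg (fun f : V →ₗ[ZMod p] V => f v) h2).symm

/-- The restriction of the action of `P` to a `P`-stable subspace `N`. -/
noncomputable def lcdd_resRho (M : Rep.{0, 0, 0} (ZMod p) H) (P : Subgroup H)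
    (N : Submodule (ZMod p) M) (hN : ∀ u ∈ P, ∀ n ∈ N, M.ρ u n ∈ N) :
    ↥P →* (↥N →ₗ[ZMod p] ↥N) where
  toFun u := (M.ρ (u : H)).restrict (fun n hn => hN u u.2 n hn)
  map_one' := by
    ext n
    simp
  map_mul' u v := by
    ext n
    simp

theorem lcdd_resRho_apply (M : Rep.{0, 0, 0} (ZMod p) H) (P : Subgroup H)
    (N : Submodule (ZMod p) M) (hN : ∀ u ∈ P, ∀ n ∈ N, M.ρ u n ∈ N) (u : ↥P) (n : ↥N) :
    ((lcdd_resRho M P N hN u n : ↥N) : M) = M.ρ (u : H) (n : M) := rfl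

/-- A nonzero `P`-stable subspace has a `P`-invariant functional which does not vanish on it,
if `P` acts through a `p`-group. -/
theorem lcdd_exists_functional (M : Rep.{0, 0, 0} (ZMod p) H)
    [FiniteDimensional (ZMod p) M] (P : Subgroup H)
    (hP : ∀ u ∈ P, ∃ n : ℕ, ∀ m : M, M.ρ (u ^ (p ^ n)) m = m)
    (N : Submodule (ZMod p) M) (hN : ∀ u ∈ P, ∀ n ∈ N, M.ρ u n ∈ N) (hN0 : N ≠ ⊥) :
    ∃ (l : M →ₗ[ZMod p] ZMod p) (n₀ : M), n₀ ∈ N ∧ l n₀ = 1 ∧
      ∀ u ∈ P, ∀ n ∈ N, l (M.ρ u n) = l n := by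
  haveI : NeZero p := ⟨(Fact.out : p.Prime).ne_zero⟩
  haveI : Finite M := Module.finite_of_finite (ZMod p)
  haveI : Finite ↥N := Finite.of_injective (fun n : ↥N => (n : M)) Subtype.val_injective
  haveI : Nontrivial ↥N := Submodule.nontrivial_iff_ne_bot.2 hN0
  obtain ⟨lN, hlN, hinv⟩ := lcdd_exists_invariant_functional (lcdd_resRho M P N hN) (by
    intro u
    obtain ⟨n, hn⟩ := hP u u.2
    refine ⟨n, ?_⟩
    ext x
    rw [lcdd_resRho_apply]
    exact hn _)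
  obtain ⟨l, hl⟩ := LinearMap.exists_extend lN
  have hlN' : ∀ n : ↥N, l (n : M) = lN n := fun n => by
    rw [← hl]
    rfl
  have hex : ∃ n₁ : ↥N, lN n₁ ≠ 0 := by
    by_contra hcon
    simp only [not_exists, not_not] at hcon
    exact hlN (LinearMap.ext hcon)
  obtain ⟨n₁, hn₁⟩ := hex
  refine ⟨l, (lN n₁)⁻¹ • (n₁ : M), N.smul_mem _ n₁.2, ?_, ?_⟩
  · rw [map_smul, hlN', smul_eq_mul, inv_mul_cancel₀ hn₁]
  · intro u hu n hn
    have h1 := hinv ⟨u, hu⟩ ⟨n, hn⟩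
    rw [← hlN', ← hlN'] at h1
    exact h1

/-- **The flag induction.** -/
theorem lcdd_flag {r : H →* s55_GQ} (hNC : lcdd_NormalLevel)
    (M : Rep.{0, 0, 0} (ZMod p) H) [FiniteDimensional (ZMod p) M] (P : Subgroup H)
    [Finite (H ⧸ P)] (hB : lcdd_RepLevel r (lcdd_fun M P))
    (hP : ∀ u ∈ P, ∃ n : ℕ, ∀ m : M, M.ρ (u ^ (p ^ n)) m = m)
    (hC : lcdd_Van r (Rep.ofMulAction (ZMod p) H (H ⧸ P))) :
    ∀ (d : ℕ) (N : Submodule (ZMod p) M), Module.finrank (ZMod p) ↥N = d →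
      (∀ u ∈ P, ∀ n ∈ N, M.ρ u n ∈ N) → lcdd_VanSub r (lcdd_fun M P) (lcdd_I M P N) := by
  intro d
  induction d using Nat.strong_induction_on with
  | _ d ih =>
    intro N hd hN
    by_cases hN0 : N = ⊥
    · rw [hN0, lcdd_I_bot]
      exact lcdd_vanSub_bot _
    obtain ⟨l, n₀, hn₀, hl₀, hl⟩ := lcdd_exists_functional M P hP N hN hN0
    have hlt : N ⊓ LinearMap.ker l < N := by
      refine lt_of_le_of_ne inf_le_left (fun h => ?_)
      have : n₀ ∈ N ⊓ LinearMap.ker l := by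
        rw [h]
        exact hn₀
      have h0 : l n₀ = 0 := this.2
      rw [hl₀] at h0
      exact one_ne_zero h0
    have hN' : ∀ u ∈ P, ∀ n ∈ N ⊓ LinearMap.ker l, M.ρ u n ∈ N ⊓ LinearMap.ker l := by
      intro u hu n hn
      refine ⟨hN u hu n hn.1, ?_⟩
      rw [SetLike.mem_coe, LinearMap.mem_ker, hl u hu n hn.1]
      exact hn.2
    have hrank : Module.finrank (ZMod p) ↥(N ⊓ LinearMap.ker l) < d := by
      rw [← hd]
      exact Submodule.finrank_lt_finrank_of_lt hlt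
    have ih' := ih _ hrank (N ⊓ LinearMap.ker l) rfl hN'
    exact lcdd_ses hNC (lcdd_fun M P) (Rep.ofMulAction (ZMod p) H (H ⧸ P)) hB
      (lcdd_I M P N) (lcdd_I M P (N ⊓ LinearMap.ker l))
      (fun g f hf => lcdd_I_stable M P N g f hf) (lcdd_I_mono M P inf_le_left)
      (lcdd_q M P l) (fun g f hf => lcdd_q_equivariant hl g hf)
      (fun f hf hq => lcdd_q_ker hl hf hq)
      (fun c => lcdd_q_surjective hN hn₀ hl₀ c) hC ih'

/-- `H³`-vanishing for the induced module. -/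
theorem lcdd_van_fun {r : H →* s55_GQ} (hNC : lcdd_NormalLevel)
    (M : Rep.{0, 0, 0} (ZMod p) H) [FiniteDimensional (ZMod p) M] (P : Subgroup H)
    [Finite (H ⧸ P)] (hB : lcdd_RepLevel r (lcdd_fun M P))
    (hP : ∀ u ∈ P, ∃ n : ℕ, ∀ m : M, M.ρ (u ^ (p ^ n)) m = m)
    (hC : lcdd_Van r (Rep.ofMulAction (ZMod p) H (H ⧸ P))) :
    lcdd_Van r (lcdd_fun M P) := by
  rw [lcdd_van_iff_top, ← lcdd_I_top M P]
  exact lcdd_flag hNC M P hB hP hC _ ⊤ rfl (fun _ _ _ _ => Submodule.mem_top)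

end Fermat.Agent.S55
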