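/-
S55 (wave 5), LOCAL side, package [LCD-DEV] (helper27), part 4: the Sylow subgroup and the main
theorem `lcdd_main : lcd_DevStatement`.  Prefix `lcdd_`.

For a smooth finite `X : Rep (ZMod p) H` (`r : H →* G_ℚ`): `N = ker ρ_X ∩ ker (χ_cyc ∘ r)` is
a normal subgroup of finite index of `H` (it contains `r⁻¹ Gal(ℚ̄/F₁)`, `F₁` a number field); `P` =
the preimage of a Sylow `p`-subgroup of `H ⧸ N` is open of index prime to `p`, acts on `X`
through a `p`-group and trivially on `μ_p`.  Then `X` is a retract of `Fun(H ⧸ P, X)`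
(averaging), which has a flag with quotients `F_p[H ⧸ P]`.
-/
import Mathlib
import Fermat.Agent.S55.Adm
import Fermat.Agent.S55.Local.LcdDevFlag

set_option autoImplicit false
set_option linter.style.haveILetI false
set_option linter.unusedVariables false
set_option maxHeartbeats 1000000
set_option synthInstance.maxHeartbeats 400000
open CategoryTheory Module groupCohomology ExtCitation

namespace Fermat.Agent.S55

local notation "Qbar" => AlgebraicClosure ℚ

theorem lcdd_isGalois : IsGalois ℚ Qbar := by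
  have hclos : IsAlgClosure ℚ (AlgebraicClosure ℚ) := AlgebraicClosure.instIsAlgClosure ℚ
  exact inferInstance

/-- Normal levels exist: every number field in `ℚ̄` is contained in a number field with normal
fixing subgroup. -/
theorem lcdd_normalLevel : lcdd_NormalLevel := by
  intro F hF
  haveI := hF
  haveI := lcdd_isGalois
  haveI : Normal ℚ Qbar := lcdd_isGalois.to_normal
  refine ⟨IntermediateField.normalClosure ℚ ↥F Qbar, IntermediateField.le_normalClosure F,
    inferInstance, ?_⟩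
  have hn := normalClosure.normal ℚ ↥F Qbar
  have hN : @Normal ℚ (IntermediateField.normalClosure ℚ ↥F Qbar) _ _
      (IntermediateField.algebra' (IntermediateField.normalClosure ℚ ↥F Qbar)) := hn
  have hg : @IsGalois ℚ _ (IntermediateField.normalClosure ℚ ↥F Qbar) _
      (IntermediateField.algebra' (IntermediateField.normalClosure ℚ ↥F Qbar)) :=
    @IsGalois.mk ℚ _ (IntermediateField.normalClosure ℚ ↥F Qbar) _
      (IntermediateField.algebra' (IntermediateField.normalClosure ℚ ↥F Qbar)) inferInstance hN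
  exact @IsGalois.fixingSubgroup_normal_of_isGalois ℚ Qbar _ _ _
    (IntermediateField.normalClosure ℚ ↥F Qbar) _ hg

/-- The fixing subgroup of a number field has finite index in `G_ℚ`. -/
theorem lcdd_finiteIndex_fixing (F : IntermediateField ℚ Qbar) (hF : FiniteDimensional ℚ F) :
    F.fixingSubgroup.FiniteIndex := by
  haveI := lcdd_isGalois
  haveI := hF
  have hopen : IsOpen (F.fixingSubgroup : Set s55_GQ) :=
    IntermediateField.fixingSubgroup_isOpen F
  haveI : Finite (s55_GQ ⧸ F.fixingSubgroup) :=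
    Subgroup.quotient_finite_of_isOpen F.fixingSubgroup hopen
  exact Subgroup.finiteIndex_of_finite_quotient

section Sylow

variable {p : ℕ} [Fact p.Prime] {H : Type} [Group H] (r : H →* s55_GQ)

/-- A subgroup of `H` containing the preimage of the fixing subgroup of a number field has finite
index. -/
theorem lcdd_finite_quotient (N : Subgroup H) (F : IntermediateField ℚ Qbar)
    (hF : FiniteDimensional ℚ F) (hFN : ∀ s : H, r s ∈ F.fixingSubgroup → s ∈ N) :
    Finite (H ⧸ N) := by
  haveI := lcdd_finiteIndex_fixing F hF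
  have h1 : (F.fixingSubgroup.comap r).index ≠ 0 := by
    rw [Subgroup.index_comap]
    intro h0
    exact Subgroup.FiniteIndex.index_ne_zero (H := F.fixingSubgroup)
      (Subgroup.index_eq_zero_of_relIndex_eq_zero h0)
  haveI : (F.fixingSubgroup.comap r).FiniteIndex := ⟨h1⟩
  have hle : F.fixingSubgroup.comap r ≤ N := fun s hs => hFN s hs
  haveI := Subgroup.finiteIndex_of_le hle
  exact inferInstance

/-- Uniform smoothness of a smooth finite module. -/
theorem lcdd_uniform (X : Rep.{0, 0, 0} (ZMod p) H) [FiniteDimensional (ZMod p) X]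
    (hX : ld1_Adm r X) :
    ∃ F : IntermediateField ℚ Qbar, FiniteDimensional ℚ F ∧
      ∀ s : H, r s ∈ F.fixingSubgroup → ∀ x : X, X.ρ s x = x := by
  haveI : NeZero p := ⟨(Fact.out : p.Prime).ne_zero⟩
  haveI : Finite X := Module.finite_of_finite (ZMod p)
  choose F hF hfix using hX
  haveI : ∀ x, FiniteDimensional ℚ (F x) := hF
  refine ⟨⨆ x : X, F x, inferInstance, fun s hs x => ?_⟩
  exact hfix x s (IntermediateField.fixingSubgroup_antitone (le_iSup F x) hs)

/-- An element of `(ZMod p)ˣ` of `p`-power order is trivial. -/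
theorem lcdd_unit_eq_one (x : (ZMod p)ˣ) (n : ℕ) (hx : x ^ (p ^ n) = 1) : x = 1 := by
  have hp : p.Prime := Fact.out
  have h1 : orderOf x ∣ p ^ n := orderOf_dvd_of_pow_eq_one hx
  have h2 : orderOf x ∣ p - 1 := by
    have := orderOf_dvd_card (x := x)
    rwa [ZMod.card_units_eq_totient, Nat.totient_prime hp] at this
  obtain ⟨j, -, hj⟩ := (Nat.dvd_prime_pow hp).1 h1
  rcases Nat.eq_zero_or_pos j with h0 | hpos
  · rw [h0, pow_zero] at hj
    exact orderOf_eq_one_iff.1 hj
  · exfalso
    have h3 : p ∣ p - 1 := by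
      have : p ∣ orderOf x := by
        rw [hj]
        exact dvd_pow_self p hpos.ne'
      exact this.trans h2
    have h4 : 0 < p - 1 := Nat.sub_pos_of_lt hp.one_lt
    have h5 := Nat.le_of_dvd h4 h3
    omega

/-- **The Sylow data** of a smooth finite local module. -/
theorem lcdd_exists_sylow (X : Rep.{0, 0, 0} (ZMod p) H) [FiniteDimensional (ZMod p) X]
    (hX : ld1_Adm r X) :
    ∃ (P : Subgroup H) (L : IntermediateField ℚ Qbar),
      ld1_IsOpenSub r P ∧ (∀ s ∈ P, cycloChar p (r s) = 1) ∧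
      Finite (H ⧸ P) ∧ ¬ p ∣ Nat.card (H ⧸ P) ∧
      (∀ u ∈ P, ∃ n : ℕ, ∀ m : X, X.ρ (u ^ (p ^ n)) m = m) ∧
      FiniteDimensional ℚ L ∧ L.fixingSubgroup.Normal ∧
      (∀ s : H, r s ∈ L.fixingSubgroup → s ∈ P) ∧
      (∀ s : H, r s ∈ L.fixingSubgroup → ∀ m : X, X.ρ s m = m) := by
  classical
  obtain ⟨FX, hFX, hfixX⟩ := lcdd_uniform r X hX
  haveI := hFX
  haveI := adm_cycField_finite p
  have hF₁ : FiniteDimensional ℚ ↥(FX ⊔ adm_cycField p) := inferInstance
  obtain ⟨L, hF₁L, hLfin, hLn⟩ := lcdd_normalLevel (FX ⊔ adm_cycField p) hF₁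
  -- the kernel
  let N : Subgroup H :=
    (X.ρ : H →* (X →ₗ[ZMod p] X)).ker ⊓ ((cycloChar p).comp r).ker
  have hNn : N.Normal := inferInstance
  have hmemN : ∀ g : H, g ∈ N ↔ X.ρ g = 1 ∧ cycloChar p (r g) = 1 := fun g => Iff.rfl
  have hF₁N : ∀ s : H, r s ∈ (FX ⊔ adm_cycField p).fixingSubgroup → s ∈ N := by
    intro s hs
    rw [hmemN]
    refine ⟨LinearMap.ext fun m => ?_, ?_⟩
    · exact hfixX s (IntermediateField.fixingSubgroup_antitone le_sup_left hs) m
    · exact adm_cyclo_eq_one_of_fix p (r s)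
        (IntermediateField.fixingSubgroup_antitone le_sup_right hs)
  have hLN : ∀ s : H, r s ∈ L.fixingSubgroup → s ∈ N := fun s hs =>
    hF₁N s (IntermediateField.fixingSubgroup_antitone hF₁L hs)
  haveI hfinN : Finite (H ⧸ N) := lcdd_finite_quotient r N _ hF₁ hF₁N
  -- the Sylow subgroup
  let Psyl : Sylow p (H ⧸ N) := default
  let P : Subgroup H := Subgroup.comap (QuotientGroup.mk' N) (Psyl : Subgroup (H ⧸ N))
  have hmemP : ∀ g : H, g ∈ P ↔ (g : H ⧸ N) ∈ (Psyl : Subgroup (H ⧸ N)) := fun g => Iff.rfl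
  have hNP : N ≤ P := by
    intro h hh
    rw [hmemP, (QuotientGroup.eq_one_iff h).2 hh]
    exact one_mem _
  have hfinP : Finite (H ⧸ P) :=
    lcdd_finite_quotient r P _ hF₁ (fun s hs => hNP (hF₁N s hs))
  have hpow : ∀ u ∈ P, ∃ n : ℕ, u ^ (p ^ n) ∈ N := by
    intro u hu
    obtain ⟨n, hn⟩ := Psyl.isPGroup' ⟨(u : H ⧸ N), (hmemP u).1 hu⟩
    refine ⟨n, ?_⟩
    rw [← QuotientGroup.eq_one_iff]
    have := congrArg Subtype.val hn
    simpa using this
  refine ⟨P, L, ⟨FX ⊔ adm_cycField p, hF₁, fun s hs => hNP (hF₁N s hs)⟩, ?_, hfinP, ?_, ?_,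
    hLfin, hLn, fun s hs => hNP (hLN s hs), ?_⟩
  · intro u hu
    obtain ⟨n, hn⟩ := hpow u hu
    have h1 : cycloChar p (r (u ^ (p ^ n))) = 1 := ((hmemN _).1 hn).2
    rw [map_pow, map_pow] at h1
    exact lcdd_unit_eq_one _ n h1
  · have h1 : Nat.card (H ⧸ P) = P.index := rfl
    have h2 : P.index = (Psyl : Subgroup (H ⧸ N)).index :=
      Subgroup.index_comap_of_surjective _ (QuotientGroup.mk'_surjective N)
    rw [h1, h2]
    exact Psyl.not_dvd_index
  · intro u hu
    obtain ⟨n, hn⟩ := hpow u hu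
    refine ⟨n, fun m => ?_⟩
    rw [((hmemN _).1 hn).1]
    rfl
  · intro s hs m
    rw [((hmemN _).1 (hLN s hs)).1]
    rfl

end Sylow

/-- **[LCD-DEV]** `lcd_DevStatement`. -/
theorem lcdd_main : lcd_DevStatement := by
  intro p _ H _ r hBase X _ hX
  classical
  obtain ⟨P, L, hPopen, hcyc, hfin, hndvd, hP, hLfin, hLn, hLP, hLX⟩ :=
    lcdd_exists_sylow r X hX
  haveI := hfin
  have hC : lcdd_Van r (Rep.ofMulAction (ZMod p) H (H ⧸ P)) := hBase P hPopen hcyc
  have hB : lcdd_RepLevel r (lcdd_fun X P) := lcdd_fun_repLevel X P L hLfin hLn hLP hLX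
  have hV : lcdd_Van r (lcdd_fun X P) := lcdd_van_fun lcdd_normalLevel X P hB hP hC
  letI : Fintype (H ⧸ P) := Fintype.ofFinite _
  have hne : ((Fintype.card (H ⧸ P) : ℕ) : ZMod p) ≠ 0 := by
    intro h0
    rw [ZMod.natCast_eq_zero_iff] at h0
    apply hndvd
    rwa [Nat.card_eq_fintype_card]
  exact lcdd_van_of_fun X P ((Fintype.card (H ⧸ P) : ZMod p))⁻¹ (inv_mul_cancel₀ hne) hV

end Fermat.Agent.S55
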