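/-
S55 (wave 5), LOCAL side: [LB-COVER] = `ld1_CoverStatement` of `Local/LD1Base.lean`.
Owner: helper27.  Prefix `lbc_`.  Export: `lbc_main : ld1_CoverStatement`.

Every smooth finite module `X` is a quotient of the permutation module of the finite `H`-set
`Z = X × H / N`, `N = ker (χ ∘ r)`, with the diagonal action, via `e_(x, c) ↦ x`.  The action on
`Z` is smooth (level: a uniform level of `X` together with `ℚ(μ_p)`), and the stabilizers fix
`μ_p` (they are contained in `N`).
-/
import Fermat.Agent.S55.Local.LD1Base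
import Fermat.Agent.S55.Local.LcdDevMain
import Fermat.Agent.S55.Adm

set_option autoImplicit false
set_option maxHeartbeats 1000000
set_option synthInstance.maxHeartbeats 400000

noncomputable section

namespace Fermat.Agent.S55

open CategoryTheory Module groupCohomology ExtCitation

section Generic

variable {p : ℕ} [Fact p.Prime] {H : Type} [Group H] (r : H →* s55_GQ)

variable (p) in
/-- The kernel of the local cyclotomic character. -/
def lbc_N : Subgroup H := ((cycloChar p).comp r).ker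

theorem lbc_mem_N (s : H) : s ∈ lbc_N p r ↔ cycloChar p (r s) = 1 := by
  rw [lbc_N, MonoidHom.mem_ker]
  rfl

instance lbc_N_normal : (lbc_N p r).Normal := MonoidHom.normal_ker _

theorem lbc_N_finite : Finite (H ⧸ lbc_N p r) :=
  lcdd_finite_quotient r (lbc_N p r) (adm_cycField p) (adm_cycField_finite p)
    (fun s hs => (lbc_mem_N r s).2 (adm_cyclo_eq_one_of_fix p (r s) hs))

/-- `s` fixes the coset `g N` iff `χ (r s) = 1`. -/
theorem lbc_smul_coset_iff (s g : H) :
    s • (g : H ⧸ lbc_N p r) = (g : H ⧸ lbc_N p r) ↔ cycloChar p (r s) = 1 := by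
  have h1 : s • (g : H ⧸ lbc_N p r) = ((s * g : H) : H ⧸ lbc_N p r) := rfl
  have e : cycloChar p (r ((s * g)⁻¹ * g)) = (cycloChar p (r s))⁻¹ := by
    simp only [map_mul, map_inv, mul_inv_rev]
    rw [mul_comm ((cycloChar p (r g))⁻¹), mul_assoc, inv_mul_cancel, mul_one]
  rw [h1, QuotientGroup.eq, lbc_mem_N, e, inv_eq_one]

/-- The finite `H`-set `X × H / N`. -/
def lbc_Z (X : Rep.{0, 0, 0} (ZMod p) H) : Type := ↥X × (H ⧸ lbc_N p r)

/-- The diagonal action on `X × H / N`. -/
instance lbc_act (X : Rep.{0, 0, 0} (ZMod p) H) : MulAction H (lbc_Z r X) where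
  smul g z := ((X.ρ g z.1, g • z.2) : ↥X × (H ⧸ lbc_N p r))
  one_smul z := by
    show ((X.ρ 1 z.1, (1 : H) • z.2) : ↥X × (H ⧸ lbc_N p r)) = z
    rw [map_one, one_smul]
    rfl
  mul_smul g h z := by
    show ((X.ρ (g * h) z.1, (g * h) • z.2) : ↥X × (H ⧸ lbc_N p r))
      = (X.ρ g (X.ρ h z.1), g • h • z.2)
    rw [map_mul, mul_smul]
    rfl

theorem lbc_smul_def (X : Rep.{0, 0, 0} (ZMod p) H) (g : H) (z : lbc_Z r X) :
    g • z = ((X.ρ g z.1, g • z.2) : ↥X × (H ⧸ lbc_N p r)) := rfl

/-- The first projection `Z → X`. -/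
def lbc_pr (X : Rep.{0, 0, 0} (ZMod p) H) (z : lbc_Z r X) : X := z.1

theorem lbc_pr_smul (X : Rep.{0, 0, 0} (ZMod p) H) (g : H) (z : lbc_Z r X) :
    lbc_pr r X (g • z) = X.ρ g (lbc_pr r X z) := rfl

/-- The covering map `F_p[Z] → X`, `e_(x, c) ↦ x`. -/
def lbc_f (X : Rep.{0, 0, 0} (ZMod p) H) :
    Rep.ofMulAction (ZMod p) H (lbc_Z r X) →ₗ[ZMod p] X :=
  Finsupp.linearCombination (ZMod p) (lbc_pr r X) ∘ₗ
    (MonoidAlgebra.coeffLinearEquiv (ZMod p)).toLinearMap

theorem lbc_f_single (X : Rep.{0, 0, 0} (ZMod p) H) (z : lbc_Z r X) (a : ZMod p) :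
    lbc_f r X (MonoidAlgebra.single z a) = a • lbc_pr r X z := by
  show Finsupp.linearCombination (ZMod p) (lbc_pr r X) (MonoidAlgebra.single z a).coeff = _
  rw [MonoidAlgebra.coeff_single, Finsupp.linearCombination_single]

theorem lbc_f_eqv (X : Rep.{0, 0, 0} (ZMod p) H) : dev_Eqv (lbc_f r X) := by
  intro s a
  induction a using MonoidAlgebra.induction_linear with
  | zero => rw [map_zero, map_zero, map_zero]
  | add x y hx hy => rw [map_add, map_add, hx, hy, map_add, map_add]
  | single z c =>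
    have h1 : (Rep.ofMulAction (ZMod p) H (lbc_Z r X)).ρ s (MonoidAlgebra.single z c)
        = MonoidAlgebra.single (s • z) c :=
      Representation.ofMulAction_single s z c
    rw [h1, lbc_f_single, lbc_f_single, lbc_pr_smul, map_smul]

theorem lbc_f_surjective (X : Rep.{0, 0, 0} (ZMod p) H) : Function.Surjective (lbc_f r X) := by
  intro x
  refine ⟨MonoidAlgebra.single
    (show lbc_Z r X from ((x, ((1 : H) : H ⧸ lbc_N p r)) : ↥X × (H ⧸ lbc_N p r))) 1, ?_⟩
  rw [lbc_f_single, one_smul]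
  rfl

theorem lbc_chiTriv (X : Rep.{0, 0, 0} (ZMod p) H) : ld1_ChiTriv r p (lbc_Z r X) := by
  rintro ⟨x, c⟩ s hs
  induction c using QuotientGroup.induction_on with
  | H g =>
    have h2 : s • (g : H ⧸ lbc_N p r) = (g : H ⧸ lbc_N p r) := congrArg Prod.snd hs
    exact (lbc_smul_coset_iff r s g).1 h2

theorem lbc_smoothAct (X : Rep.{0, 0, 0} (ZMod p) H) [FiniteDimensional (ZMod p) X]
    (hX : ld1_Adm r X) : ld1_SmoothAct r (lbc_Z r X) := by
  obtain ⟨F, hF, hfix⟩ := lcdd_uniform r X hX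
  have := hF
  haveI := adm_cycField_finite p
  refine ⟨F ⊔ adm_cycField p, inferInstance, ?_⟩
  rintro s hs ⟨x, c⟩
  have hs1 : r s ∈ F.fixingSubgroup :=
    IntermediateField.fixingSubgroup_antitone le_sup_left hs
  have hs2 : r s ∈ (adm_cycField p).fixingSubgroup :=
    IntermediateField.fixingSubgroup_antitone le_sup_right hs
  have hχ : cycloChar p (r s) = 1 := adm_cyclo_eq_one_of_fix p (r s) hs2
  induction c using QuotientGroup.induction_on with
  | H g =>
    have h2 : s • (g : H ⧸ lbc_N p r) = (g : H ⧸ lbc_N p r) :=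
      (lbc_smul_coset_iff r s g).2 hχ
    show ((X.ρ s x, s • (g : H ⧸ lbc_N p r)) : ↥X × (H ⧸ lbc_N p r)) = (x, (g : H ⧸ lbc_N p r))
    rw [hfix s hs1 x, h2]

theorem lbc_Z_finite (X : Rep.{0, 0, 0} (ZMod p) H) [FiniteDimensional (ZMod p) X] :
    Finite (lbc_Z r X) := by
  haveI : NeZero p := ⟨(Fact.out : p.Prime).ne_zero⟩
  haveI : Finite X := Module.finite_of_finite (ZMod p)
  haveI := lbc_N_finite (p := p) r
  exact inferInstanceAs (Finite (↥X × (H ⧸ lbc_N p r)))

end Generic

/-- **[LB-COVER]** every smooth finite module is a quotient of the permutation module of a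
finite `H`-set with smooth action and stabilizers fixing `μ_p`. -/
theorem lbc_main : ld1_CoverStatement := by
  intro p _ H _ r X _ hX
  haveI := lbc_Z_finite r X
  exact ⟨lbc_Z r X, Fintype.ofFinite _, lbc_act r X, lbc_f r X, lbc_smoothAct r X hX,
    lbc_chiTriv r X, lbc_f_eqv r X, lbc_f_surjective r X⟩

end Fermat.Agent.S55
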