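/-
S55 (wave 5), LOCAL side: [LB-PERM-ADM] = `ld1_PermAdmStatement` of `Local/LD1Base.lean`.
Owner: helper27.  Prefix `lbp_`.  Export: `lbp_main : ld1_PermAdmStatement`.

Permutation modules of finite sets with smooth action are smooth: an element of `H` acting
trivially on `Z` acts trivially on `F_p[Z]`.
-/
import Fermat.Agent.S55.Local.LD1Base

set_option autoImplicit false
set_option maxHeartbeats 1000000
set_option synthInstance.maxHeartbeats 400000

noncomputable section

namespace Fermat.Agent.S55

open CategoryTheory Module groupCohomology ExtCitation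

section Generic

variable {k : Type} [CommRing k] {H : Type} [Group H]

/-- An element acting trivially on `Z` acts trivially on the permutation module `k[Z]`. -/
theorem lbp_rho_eq_self (Z : Type) [MulAction H Z] (s : H) (hs : ∀ z : Z, s • z = z)
    (x : Rep.ofMulAction k H Z) : (Rep.ofMulAction k H Z).ρ s x = x := by
  apply MonoidAlgebra.coeff_injective
  ext z
  have hρ : ((Rep.ofMulAction k H Z).ρ s x).coeff z = x.coeff (s⁻¹ • z) :=
    Representation.coeff_ofMulAction s _ z
  rw [hρ]
  have hz : s⁻¹ • z = z := by
    conv_lhs => rw [← hs z]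
    rw [inv_smul_smul]
  rw [hz]

end Generic

/-- **[LB-PERM-ADM]** permutation modules of finite sets with smooth action are smooth. -/
theorem lbp_main : ld1_PermAdmStatement := by
  intro p _ H _ r Z _ _ hZ x
  obtain ⟨F, hF, hfix⟩ := hZ
  exact ⟨F, hF, fun s hs => lbp_rho_eq_self Z s (hfix s hs) x⟩

end Fermat.Agent.S55
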