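/-
S55 (Poitou-Tate), LOCAL side, package [L-DEV] (local devissage).  Owner: helper12.
Prefix `ld1d_`.

CONN: for a short exact sequence `0 → A → B → C → 0` of `H`-modules with `B` uniformly smooth,
the connecting map `δ : H⁰(C) → H¹_cts(A)`, the exactness of `H⁰(B) → H⁰(C) → H¹(A) → H¹(B)`,
and the adjointness of `δ` with the connecting map `H¹(X) → H²(N)` for the cup product
pairings.
-/
import Mathlib
import Fermat.Agent.S55.Local.LD1DevPair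

set_option autoImplicit false
set_option maxHeartbeats 1000000
set_option synthInstance.maxHeartbeats 400000
open CategoryTheory Module groupCohomology ExtCitation

noncomputable section

namespace Fermat.Agent.S55

variable {p : ℕ} [Fact p.Prime] {H : Type} [Group H] (r : H →* s55_GQ)

section Conn

variable {A B C : Rep.{0, 0, 0} (ZMod p) H} {ι : A →ₗ[ZMod p] B} {f : B →ₗ[ZMod p] C}

theorem ld1d_d₀₁_level (hB : ld1d_Unif r B) (b : B) :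
    IsLevelConstant₁ r ((d₀₁ B).hom b) := by
  obtain ⟨F, hF, h⟩ := hB
  refine ⟨F, hF, fun g s hs => ?_⟩
  rw [d₀₁_hom_apply, d₀₁_hom_apply, map_mul, Module.End.mul_apply, h s hs]

/-- Values of the connecting cochain. -/
theorem ld1d_conn_spec (h : ld1d_SES ι f) {ρ : B →ₗ[ZMod p] A} (hρ : ∀ n, ρ (ι n) = n) (b : B)
    (hb : ∀ g, C.ρ g (f b) = f b) (g : H) : ι (ρ (B.ρ g b - b)) = B.ρ g b - b := by
  have hf : ∀ g b, f (B.ρ g b) = C.ρ g (f b) := h.2.1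
  apply ld1d_retraction_spec h hρ
  rw [map_sub, hf, hb, sub_self]

/-- A cochain of `A` whose image in `B` is a cocycle is a cocycle. -/
theorem ld1d_cocycle_of (h : ld1d_SES ι f) (x : H → A)
    (hx : (fun g => ι (x g)) ∈ cocycles₁ B) : x ∈ cocycles₁ A := by
  have hι : ∀ g a, ι (A.ρ g a) = B.ρ g (ι a) := h.1
  rw [mem_cocycles₁_iff] at hx ⊢
  intro g g'
  apply h.2.2.1
  rw [map_add, hι]
  exact hx g g'

/-- Two cocycles of `A` with the same image in `B` up to `d₀₁ (ι a)`. -/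
theorem ld1d_class_eq (h : ld1d_SES ι f) (z z' : cocycles₁ A) (a : A)
    (hz : ∀ g, ι (z'.1 g) - ι (z.1 g) = B.ρ g (ι a) - ι a) :
    (H1π A).hom z = (H1π A).hom z' := by
  have hι : ∀ g a, ι (A.ρ g a) = B.ρ g (ι a) := h.1
  refine (H1π_eq_iff z z').2 ⟨-a, ?_⟩
  funext g
  apply h.2.2.1
  change ι (A.ρ g (-a) - (-a)) = ι (z.1 g - z'.1 g)
  rw [map_sub, map_sub, hι, map_neg, map_neg, ← neg_sub (ι (z'.1 g)), hz g]
  abel

/-- `u` is a value of the connecting map at `m`. -/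
def ld1d_IsConn (ι : A →ₗ[ZMod p] B) (f : B →ₗ[ZMod p] C) (m : ↥(C.ρ.invariants))
    (u : ↥(continuousH1 r A)) : Prop :=
  ∃ (b : B) (y : H → A) (hy : y ∈ cocycles₁ A) (hyl : IsLevelConstant₁ r y),
    f b = m.1 ∧ (∀ g, ι (y g) = B.ρ g b - b) ∧ u = ld1_cls1 r A y hy hyl

/-- **The connecting map** `δ : H⁰(C) → H¹_cts(A)` and the exactness of
`H⁰(B) → H⁰(C) → H¹_cts(A) → H¹_cts(B)`. -/
theorem ld1d_conn (h : ld1d_SES ι f) (hB : ld1d_Unif r B) :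
    ∃ δ : ↥(C.ρ.invariants) →ₗ[ZMod p] ↥(continuousH1 r A),
      (∀ m, ld1d_IsConn r ι f m (δ m)) ∧
      (∀ b : ↥(B.ρ.invariants), δ (ld1d_H0 h.2.1 b) = 0) ∧
      (∀ u, ld1d_H1 r h.1 u = 0 → ∃ m, δ m = u) := by
  obtain ⟨s, hs⟩ := ld1d_section f h.2.2.2.1
  obtain ⟨ρ, hρ⟩ := ld1d_retraction ι h.2.2.1
  have hι : ∀ g a, ι (A.ρ g a) = B.ρ g (ι a) := h.1
  have hf : ∀ g b, f (B.ρ g b) = C.ρ g (f b) := h.2.1
  have hex := h.2.2.2.2
  have hcoc : ∀ b : B, (∀ g, C.ρ g (f b) = f b) →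
      (dev_push H ρ ((d₀₁ B).hom b)) ∈ cocycles₁ A := by
    intro b hb
    apply ld1d_cocycle_of h
    have e : (fun g => ι (dev_push H ρ ((d₀₁ B).hom b) g)) = (d₀₁ B).hom b := by
      funext g
      exact ld1d_conn_spec h hρ b hb g
    rw [e]
    exact d₀₁_apply_mem_cocycles₁ b
  have hlev : ∀ b : B, IsLevelConstant₁ r (dev_push H ρ ((d₀₁ B).hom b)) :=
    fun b => (ld1d_d₀₁_level r hB b).comp ρ
  have hinv : ∀ m : ↥(C.ρ.invariants), ∀ g, C.ρ g (f (s m.1)) = f (s m.1) := by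
    intro m g
    rw [hs]
    exact m.2 g
  have key : ∀ (b : B) (z : cocycles₁ A), (∀ g, ι (z.1 g) = B.ρ g b - b) →
      ∀ (b' : B) (z' : cocycles₁ A), (∀ g, ι (z'.1 g) = B.ρ g b' - b') → f b = f b' →
      (H1π A).hom z = (H1π A).hom z' := by
    intro b z hz b' z' hz' hbb
    obtain ⟨a, ha⟩ := (hex (b' - b)).1 (by rw [map_sub, hbb, sub_self])
    apply ld1d_class_eq h z z' a
    intro g
    rw [hz, hz', ha, map_sub]
    abel
  let Zlin : ↥(C.ρ.invariants) →ₗ[ZMod p] ↥(cocycles₁ A) :=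
    LinearMap.codRestrict (cocycles₁ A)
      ((dev_push H ρ) ∘ₗ (d₀₁ B).hom ∘ₗ s ∘ₗ (C.ρ.invariants).subtype)
      (fun m => hcoc (s m.1) (hinv m))
  have hZ : ∀ m g, ι ((Zlin m).1 g) = B.ρ g (s m.1) - s m.1 :=
    fun m g => ld1d_conn_spec h hρ (s m.1) (hinv m) g
  let δ : ↥(C.ρ.invariants) →ₗ[ZMod p] ↥(continuousH1 r A) :=
    LinearMap.codRestrict (continuousH1 r A) ((H1π A).hom ∘ₗ Zlin)
      (fun m => (mem_continuousH1_iff r A _).2 ⟨Zlin m, hlev (s m.1), rfl⟩)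
  have huniq : ∀ m y, ld1d_IsConn r ι f m y → y = δ m := by
    rintro m y ⟨b, z, hz, hzl, hb, hzb, rfl⟩
    apply Subtype.ext
    change (H1π A).hom ⟨z, hz⟩ = (H1π A).hom (Zlin m)
    exact key b ⟨z, hz⟩ hzb (s m.1) (Zlin m) (hZ m) (by rw [hb, hs])
  refine ⟨δ, ?_, ?_, ?_⟩
  · intro m
    exact ⟨s m.1, (Zlin m).1, (Zlin m).2, hlev (s m.1), hs m.1, hZ m, Subtype.ext rfl⟩
  · intro b
    symm
    apply huniq
    refine ⟨b.1, 0, Submodule.zero_mem _, isLevelConstant₁_const r (0 : A), rfl, fun g => ?_, ?_⟩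
    · rw [b.2 g, sub_self]
      exact map_zero ι
    · apply Subtype.ext
      exact (map_zero (H1π A).hom).symm
  · intro u hu
    obtain ⟨z, hz, hzl, rfl⟩ := ld1d_exists_cls r A u
    rw [ld1d_H1_cls r h.1 z hz hzl (ld1d_push_mem₁ h.1 hz)] at hu
    have h1 : (H1π B).hom ⟨dev_push H ι z, ld1d_push_mem₁ h.1 hz⟩ = 0 :=
      congrArg Subtype.val hu
    obtain ⟨b, hb⟩ := (H1π_eq_zero_iff _).1 h1
    have hb' : ∀ g, ι (z g) = B.ρ g b - b := fun g => (congrFun hb g).symm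
    have hfb : ∀ g, C.ρ g (f b) = f b := by
      intro g
      have e : B.ρ g b = b + ι (z g) := by
        rw [hb']
        abel
      rw [← hf, e, map_add, (hex (ι (z g))).2 ⟨_, rfl⟩, add_zero]
    refine ⟨⟨f b, hfb⟩, ?_⟩
    symm
    apply huniq
    exact ⟨b, z, hz, hzl, rfl, hb', rfl⟩

end Conn

section Adj

variable {N I X N' I' X' T : Rep.{0, 0, 0} (ZMod p) H}
  {ι : N →ₗ[ZMod p] I} {f : I →ₗ[ZMod p] X} {f' : X' →ₗ[ZMod p] I'} {ι' : I' →ₗ[ZMod p] N'}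
  {φN : N →ₗ[ZMod p] N' →ₗ[ZMod p] T} {φI : I →ₗ[ZMod p] I' →ₗ[ZMod p] T}
  {φX : X →ₗ[ZMod p] X' →ₗ[ZMod p] T}

/-- The cochain identity behind the adjointness of the two connecting maps. -/
theorem ld1d_adj_cochain (hφI : cup_Equivariant φI) (hι' : dev_Eqv ι') (hf' : dev_Eqv f')
    (c1 : ∀ n m, φI (ι n) m = φN n (ι' m)) (c2 : ∀ b y, φX (f b) y = φI b (f' y))
    (n : H × H → N) (bt : H → I) (hn : dev_push (H × H) ι n = (d₁₂ I).hom bt)
    (mt : I') (y : H → X') (hy : ∀ g, f' (y g) = I'.ρ g mt - mt) :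
    cup₂₀ φN n (ι' mt) - cup₁₁ φX (dev_push H f bt) y = (d₁₂ T).hom (cup₁₀ φI bt mt) := by
  rw [cup_d₁₀ hφI bt mt, ← hn]
  have e1 : ∀ s a, ι' (I'.ρ s a) = N'.ρ s (ι' a) := hι'
  have e2 : ∀ s a, f' (X'.ρ s a) = I'.ρ s (f' a) := hf'
  funext ⟨g, h⟩
  change φN (n (g, h)) (N'.ρ (g * h) (ι' mt)) - φX (f (bt g)) (X'.ρ g (y h)) =
    φI (ι (n (g, h))) (I'.ρ (g * h) mt) - φI (bt g) (I'.ρ g (I'.ρ h mt - mt))
  rw [c1, c2, e1, e2, hy]

variable (τ : continuousH2 r T →ₗ[ZMod p] ZMod p)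

/-- **Adjointness**: `τ [n ∪ m] = τ [z ∪ y]` when `ι ∘ n = d b̃`, `z = f ∘ b̃`, `m = ι' m̃`,
`f' ∘ y = d m̃`. -/
theorem ld1d_adj (hφN : cup_Equivariant φN) (hφI : cup_Equivariant φI)
    (hφX : cup_Equivariant φX) (hI' : ld1d_Unif r I') (hX' : ld1d_Unif r X')
    (hι' : dev_Eqv ι') (hf' : dev_Eqv f')
    (c1 : ∀ n m, φI (ι n) m = φN n (ι' m)) (c2 : ∀ b y, φX (f b) y = φI b (f' y))
    (n : ↥(levelCocycles₂ r N)) (bt : H → I) (hbt : IsLevelConstant₁ r bt)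
    (hn : dev_push (H × H) ι n.1 = (d₁₂ I).hom bt)
    (hz : dev_push H f bt ∈ cocycles₁ X) (hzl : IsLevelConstant₁ r (dev_push H f bt))
    (m : ↥(N'.ρ.invariants)) (mt : I') (hm : ι' mt = m.1)
    (y : H → X') (hyc : y ∈ cocycles₁ X') (hyl : IsLevelConstant₁ r y)
    (hy : ∀ g, f' (y g) = I'.ρ g mt - mt) :
    ld1d_P20 r τ hφN (continuousH2π r N n) m =
      ld1d_P11 r τ hφX hX' (ld1_cls1 r X (dev_push H f bt) hz hzl)
        (ld1_cls1 r X' y hyc hyl) := by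
  rw [ld1d_P11_cls, ld1d_P20_π, ← sub_eq_zero, ← τ.map_sub, ← (continuousH2π r T).map_sub]
  have h0 : continuousH2π r T
      (⟨cup₂₀ φN n.1 m.1, ld1d_cup₂₀_mem r hφN n.2 m.2⟩ -
        ⟨cup₁₁ φX (dev_push H f bt) y,
          ld1d_cup₁₁_mem r hφX hX' hz hzl hyc hyl⟩) = 0 := by
    rw [continuousH2π_eq_zero_iff, mem_levelCoboundaries₂_iff]
    refine ⟨cup₁₀ φI bt mt, ld1d_cup₁₀_level r φI hI' hbt mt, ?_⟩
    rw [← ld1d_adj_cochain hφI hι' hf' c1 c2 n.1 bt hn mt y hy, hm]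
    rfl
  rw [h0, map_zero]

end Adj

end Fermat.Agent.S55
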