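/-
S55 (Poitou-Tate), LOCAL side, package [L-DEV] (local devissage).  Owner: helper12.
Prefix `ld1d_`.

CHASE: the four-lemma of Serre's devissage in generic form.  For `0 → N → I → X → 0` with dual
sequence `0 → X' → I' → N' → 0` and compatible pairings: if `P²_N` is onto, `P²_I` is injective
and `P¹_I` is onto, then `P¹_X` is onto.
-/
import Mathlib
import Fermat.Agent.S55.Local.LD1DevConn

set_option autoImplicit false
set_option maxHeartbeats 1000000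
set_option synthInstance.maxHeartbeats 400000
open CategoryTheory Module groupCohomology ExtCitation

noncomputable section

namespace Fermat.Agent.S55

variable {p : ℕ} [Fact p.Prime] {H : Type} [Group H] (r : H →* s55_GQ)

section Surj20

variable {J N J' N' T : Rep.{0, 0, 0} (ZMod p) H} (τ : continuousH2 r T →ₗ[ZMod p] ZMod p)
  {g : J →ₗ[ZMod p] N} {g' : N' →ₗ[ZMod p] J'}
  {φJ : J →ₗ[ZMod p] J' →ₗ[ZMod p] T} {φN : N →ₗ[ZMod p] N' →ₗ[ZMod p] T}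

/-- `P²` is onto for a quotient of a module for which `P²` is onto. -/
theorem ld1d_P20_surj (hg : dev_Eqv g) (hg' : dev_Eqv g') (hinj : Function.Injective g')
    (hφJ : cup_Equivariant φJ) (hφN : cup_Equivariant φN)
    (c : ∀ j m, φN (g j) m = φJ j (g' m))
    (hJ : Function.Surjective (ld1d_P20 r τ hφJ (Y := J'))) :
    Function.Surjective (ld1d_P20 r τ hφN (Y := N')) := by
  intro θ
  have hinj0 : Function.Injective (ld1d_H0 hg') := by
    intro m m' h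
    apply Subtype.ext
    apply hinj
    exact congrArg Subtype.val h
  obtain ⟨θt, hθt⟩ := ld1d_exists_extend (ld1d_H0 hg') hinj0 θ
  obtain ⟨ν, hν⟩ := hJ θt
  refine ⟨ld1d_H2 r hg ν, ?_⟩
  apply LinearMap.ext
  intro m
  rw [ld1d_P20_nat r τ hφJ hφN hg hg' c, hν, hθt]

end Surj20

section Chase

variable {N I X N' I' X' T : Rep.{0, 0, 0} (ZMod p) H}
  {ι : N →ₗ[ZMod p] I} {f : I →ₗ[ZMod p] X} {f' : X' →ₗ[ZMod p] I'} {ι' : I' →ₗ[ZMod p] N'}
  {φN : N →ₗ[ZMod p] N' →ₗ[ZMod p] T} {φI : I →ₗ[ZMod p] I' →ₗ[ZMod p] T}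
  {φX : X →ₗ[ZMod p] X' →ₗ[ZMod p] T} (τ : continuousH2 r T →ₗ[ZMod p] ZMod p)

/-- **The four-lemma.** -/
theorem ld1d_chase (h : ld1d_SES ι f) (h' : ld1d_SES f' ι')
    (hφN : cup_Equivariant φN) (hφI : cup_Equivariant φI) (hφX : cup_Equivariant φX)
    (hI' : ld1d_Unif r I') (hX' : ld1d_Unif r X')
    (c1 : ∀ n m, φI (ι n) m = φN n (ι' m)) (c2 : ∀ b y, φX (f b) y = φI b (f' y))
    (h2N : Function.Surjective (ld1d_P20 r τ hφN (Y := N')))
    (h2I : Function.Injective (ld1d_P20 r τ hφI (Y := I')))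
    (h1I : Function.Surjective (ld1d_P11 r τ hφI hI')) :
    Function.Surjective (ld1d_P11 r τ hφX hX') := by
  intro ψ
  obtain ⟨δ, hδ, hδ0, hδex⟩ := ld1d_conn r h' hI'
  -- (1) `ψ ∘ δ = P²_N ν`
  obtain ⟨ν, hν⟩ := h2N (ψ ∘ₗ δ)
  obtain ⟨n, rfl⟩ := Submodule.mkQ_surjective _ ν
  -- (2) `ι_* ν = 0`
  have h2 : ld1d_P20 r τ hφI (Y := I') (ld1d_H2 r h.1 (continuousH2π r N n)) = 0 := by
    apply LinearMap.ext
    intro mt
    rw [ld1d_P20_nat r τ hφN hφI h.1 h'.2.1 c1, hν, LinearMap.comp_apply, hδ0, map_zero]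
    rfl
  have h3 : ld1d_H2 r h.1 (continuousH2π r N n) = 0 :=
    h2I (h2.trans (map_zero (ld1d_P20 r τ hφI (Y := I'))).symm)
  rw [ld1d_H2_π r h.1 n (ld1d_push_mem₂ r h.1 n.2), continuousH2π_eq_zero_iff,
    mem_levelCoboundaries₂_iff] at h3
  obtain ⟨bt, hbt, hbn⟩ := h3
  have hbn' : (d₁₂ I).hom bt = dev_push (H × H) ι n.1 := hbn
  have hz : dev_push H f bt ∈ cocycles₁ X := by
    change (d₁₂ X).hom _ = 0
    rw [dev_push_d₁₂ h.2.1, hbn']
    funext x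
    exact ld1d_SES_comp_zero h (n.1 x)
  have hzl := ld1d_push_level r f hbt
  -- (3) adjointness
  have h4 : ∀ m, ψ (δ m) = ld1d_P11 r τ hφX hX' (ld1_cls1 r X _ hz hzl) (δ m) := by
    intro m
    obtain ⟨mt, y, hyc, hyl, hm, hy, e⟩ := hδ m
    have e1 := ld1d_adj r τ hφN hφI hφX hI' hX' h'.2.1 h'.1 c1 c2 n bt hbt hbn'.symm hz hzl
      m mt hm y hyc hyl hy
    rw [hν, LinearMap.comp_apply, e] at e1
    rw [e]
    exact e1
  -- (4) factor through `H¹(X') → H¹(I')`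
  obtain ⟨χ, hχ⟩ := ld1d_exists_factor (ld1d_H1 r h'.1)
    (ψ - ld1d_P11 r τ hφX hX' (ld1_cls1 r X _ hz hzl)) (by
      intro w hw
      obtain ⟨m, rfl⟩ := hδex w hw
      rw [LinearMap.sub_apply, h4, sub_self])
  -- (5)
  obtain ⟨u, hu⟩ := h1I χ
  refine ⟨ld1_cls1 r X _ hz hzl + ld1d_H1 r h.2.1 u, ?_⟩
  apply LinearMap.ext
  intro w
  rw [(ld1d_P11 r τ hφX hX').map_add, LinearMap.add_apply,
    ld1d_P11_nat r τ hφI hφX h.2.1 h'.1 c2 hI' hX', hu, hχ, LinearMap.sub_apply]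
  abel

end Chase

/-- **[L-DEV]** -/
theorem ld1d_main : ld1_DevStatement := by
  intro p _ H _ r τ hCB X _ hX
  obtain ⟨I, hIfd, f, hI, hfe, hfs, ⟨P1, hP1, hP1s⟩, ⟨P2, hP2, hP2b⟩⟩ := hCB X hX
  haveI := hIfd
  obtain ⟨N, hNfd, ι, hN, hSES⟩ := ld1d_ker r I X hI f hfe hfs
  haveI := hNfd
  obtain ⟨J, hJfd, g, hJ, hge, hgs, -, ⟨Q2, hQ2, hQ2b⟩⟩ := hCB N hN
  haveI := hJfd
  have hX' : ld1d_Unif r (ld1_D r X) := ld1d_dual_uniform r X hX
  have hI' : ld1d_Unif r (ld1_D r I) := ld1d_dual_uniform r I hI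
  have e1 := ld1d_pair11_eq r τ I hI' P1 hP1
  have e2 := ld1d_pair20_eq r τ I P2 hP2
  have e3 := ld1d_pair20_eq r τ J Q2 hQ2
  have h2N : Function.Surjective (ld1d_P20 r τ (ld1d_ev_equivariant r N)) :=
    ld1d_P20_surj r τ hge (ld1d_dual_eqv r hge)
      (LinearMap.dualMap_injective_of_surjective hgs)
      (ld1d_ev_equivariant r J) (ld1d_ev_equivariant r N) (fun _ _ => rfl) (e3 ▸ hQ2b.2)
  refine ⟨ld1d_P11 r τ (ld1d_ev_equivariant r X) hX', ld1d_isPair11 r τ X hX', ?_⟩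
  exact ld1d_chase r τ hSES (ld1d_dual_SES r hSES) (ld1d_ev_equivariant r N)
    (ld1d_ev_equivariant r I) (ld1d_ev_equivariant r X) hI' hX' (fun _ _ => rfl)
    (fun _ _ => rfl) h2N (e2 ▸ hP2b.1) (e1 ▸ hP1s)

end Fermat.Agent.S55
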