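/-
S55 (Poitou-Tate), LOCAL side, package [L-ASM] (assembly of local Tate duality [LD1]).
Owner: helper12.  Prefix `ld1a_`.

`ld1a_main : ld1_AsmStatement`, i.e. [L-DEV] + [L-BASE] ⇒ `ld_LD1Statement`:
* transport from the generic Tate dual `ld1_D r (Rep.res r M)` to the restriction
  `Rep.res r (M.dualTwist (cycloChar p))` of the global Tate dual (same carrier, same action);
* the archimedean place (`H¹ = 0` for odd `p`);
* the product over the finitely many places.
-/
import Mathlib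
import Fermat.Agent.S55.Local.LD1DevChase
import Fermat.Agent.S55.Local.Arch

set_option autoImplicit false
set_option maxHeartbeats 1000000
set_option synthInstance.maxHeartbeats 400000
open CategoryTheory Module groupCohomology ExtCitation

noncomputable section

namespace Fermat.Agent.S55

variable {p : ℕ} [Fact p.Prime]

section Generic

variable {H : Type} [Group H] (r : H →* s55_GQ)

theorem ld1a_cls_congr (X : Rep.{0, 0, 0} (ZMod p) H) {z z' : H → X} (e : z = z')
    (hz : z ∈ cocycles₁ X) (hl : IsLevelConstant₁ r z) (hz' : z' ∈ cocycles₁ X)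
    (hl' : IsLevelConstant₁ r z') : ld1_cls1 r X z hz hl = ld1_cls1 r X z' hz' hl' := by
  subst e
  rfl

/-- Two mutually inverse equivariant maps induce mutually inverse maps on `H¹_cts`. -/
theorem ld1a_H1_comp_eq {A B : Rep.{0, 0, 0} (ZMod p) H} {h : A →ₗ[ZMod p] B}
    {h' : B →ₗ[ZMod p] A} (hh : dev_Eqv h) (hh' : dev_Eqv h') (hid : ∀ b, h (h' b) = b)
    (w : ↥(continuousH1 r B)) : ld1d_H1 r hh (ld1d_H1 r hh' w) = w := by
  obtain ⟨y, hy, hyl, rfl⟩ := ld1d_exists_cls r B w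
  rw [ld1d_H1_cls r hh' y hy hyl (ld1d_push_mem₁ hh' hy),
    ld1d_H1_cls r hh _ _ _ (ld1d_push_mem₁ hh (ld1d_push_mem₁ hh' hy))]
  exact ld1a_cls_congr r B (funext fun g => hid (y g)) _ _ _ _

/-- The identity induces the identity on `H¹_cts`. -/
theorem ld1a_H1_id {A : Rep.{0, 0, 0} (ZMod p) H} {h : A →ₗ[ZMod p] A} (hh : dev_Eqv h)
    (hid : ∀ a, h a = a) (u : ↥(continuousH1 r A)) : ld1d_H1 r hh u = u := by
  obtain ⟨y, hy, hyl, rfl⟩ := ld1d_exists_cls r A u
  rw [ld1d_H1_cls r hh y hy hyl (ld1d_push_mem₁ hh hy)]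
  exact ld1a_cls_congr r A (funext fun g => hid (y g)) _ _ _ _

variable (M : Rep.{0, 0, 0} (ZMod p) s55_GQ)

/-- The evaluation pairing of `M`, restricted to `H`. -/
def ld1a_ev : Rep.res r M →ₗ[ZMod p]
    Rep.res r (M.dualTwist (cycloChar p)) →ₗ[ZMod p] ld1_T (p := p) r :=
  pt_ev M

theorem ld1a_ev_equivariant : cup_Equivariant (ld1a_ev r M) :=
  fun g m f => pt_ev_equivariant M (r g) m f

/-- The identity `X^*(1) → (M^*(1))|_H`, `X = M|_H`. -/
def ld1a_e : ld1_D r (Rep.res r M) →ₗ[ZMod p] Rep.res r (M.dualTwist (cycloChar p)) :=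
  (LinearMap.id : Module.Dual (ZMod p) M →ₗ[ZMod p] Module.Dual (ZMod p) M)

/-- The identity `(M^*(1))|_H → X^*(1)`, `X = M|_H`. -/
def ld1a_e' : Rep.res r (M.dualTwist (cycloChar p)) →ₗ[ZMod p] ld1_D r (Rep.res r M) :=
  (LinearMap.id : Module.Dual (ZMod p) M →ₗ[ZMod p] Module.Dual (ZMod p) M)

theorem ld1a_res_dual_ρ (s : H) (φ : Rep.res r (M.dualTwist (cycloChar p))) (x : M) :
    (show Module.Dual (ZMod p) M from (Rep.res r (M.dualTwist (cycloChar p))).ρ s φ) x =
      ((cycloChar p (r s) : (ZMod p)ˣ) : ZMod p) •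
        (show Module.Dual (ZMod p) M from φ) (M.ρ ((r s)⁻¹) x) := rfl

theorem ld1a_D_ρ (s : H) (φ : ld1_D r (Rep.res r M)) (x : M) :
    (show Module.Dual (ZMod p) M from (ld1_D r (Rep.res r M)).ρ s φ) x =
      ((cycloChar p (r s) : (ZMod p)ˣ) : ZMod p) •
        (show Module.Dual (ZMod p) M from φ) (M.ρ (r s⁻¹) x) := rfl

theorem ld1a_e_eqv : dev_Eqv (ld1a_e r M) := by
  intro s φ
  apply LinearMap.ext
  intro x
  change (show Module.Dual (ZMod p) M from (ld1_D r (Rep.res r M)).ρ s φ) x =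
    (show Module.Dual (ZMod p) M from (Rep.res r (M.dualTwist (cycloChar p))).ρ s φ) x
  rw [ld1a_D_ρ, ld1a_res_dual_ρ, r.map_inv]

theorem ld1a_e'_eqv : dev_Eqv (ld1a_e' r M) := by
  intro s φ
  apply LinearMap.ext
  intro x
  change (show Module.Dual (ZMod p) M from (Rep.res r (M.dualTwist (cycloChar p))).ρ s φ) x =
    (show Module.Dual (ZMod p) M from (ld1_D r (Rep.res r M)).ρ s φ) x
  rw [ld1a_D_ρ, ld1a_res_dual_ρ, r.map_inv]

theorem ld1a_adm (hsm : s55_Smooth M) : ld1_Adm r (Rep.res r M) := by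
  intro m
  obtain ⟨F, hF, h⟩ := hsm m
  exact ⟨F, hF, fun s hs => h (r s) hs⟩

theorem ld1a_unif [FiniteDimensional (ZMod p) M] (hsm : s55_Smooth M) :
    ld1d_Unif r (Rep.res r (M.dualTwist (cycloChar p))) := by
  obtain ⟨F, hF, hfix⟩ := adm_uniform_dual p M hsm
  exact ⟨F, hF, fun s hs y => hfix (r s) hs y⟩

/-- **Transport**: local duality for the generic Tate dual gives the surjectivity of the
pairing map with the restriction of the global Tate dual. -/
theorem ld1a_surj [FiniteDimensional (ZMod p) M] (τ : ld1_Tau p r) (hsm : s55_Smooth M)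
    (hS : ld1_Surj11 r τ (Rep.res r M))
    (hY : ld1d_Unif r (Rep.res r (M.dualTwist (cycloChar p)))) :
    Function.Surjective (ld1d_P11 r τ (ld1a_ev_equivariant r M) hY) := by
  haveI : FiniteDimensional (ZMod p) ↑(Rep.res r M) :=
    inferInstanceAs (FiniteDimensional (ZMod p) M)
  obtain ⟨P, hP, hPs⟩ := hS
  have hX' : ld1d_Unif r (ld1_D r (Rep.res r M)) :=
    ld1d_dual_uniform r (Rep.res r M) (ld1a_adm r M hsm)
  have e1 := ld1d_pair11_eq r τ (Rep.res r M) hX' P hP
  rw [e1] at hPs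
  intro ψ
  obtain ⟨u, hu⟩ := hPs (ψ ∘ₗ ld1d_H1 r (ld1a_e_eqv r M))
  refine ⟨u, ?_⟩
  apply LinearMap.ext
  intro w
  have hidX : dev_Eqv (LinearMap.id : Rep.res r M →ₗ[ZMod p] Rep.res r M) := fun _ _ => rfl
  have h1 := ld1d_P11_nat r τ (ld1d_ev_equivariant r (Rep.res r M)) (ld1a_ev_equivariant r M)
    hidX (ld1a_e'_eqv r M) (fun _ _ => rfl) hX' hY u w
  rw [ld1a_H1_id r hidX (fun _ => rfl)] at h1
  rw [h1, hu, LinearMap.comp_apply,
    ld1a_H1_comp_eq r (ld1a_e_eqv r M) (ld1a_e'_eqv r M) (fun _ => rfl)]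

end Generic

/-- **[L-ASM]** -/
theorem ld1a_main : ld1_AsmStatement := by
  classical
  intro hDev hBase inv ptinv hinv hc p _ hp2 S hpS M _ hsm hur
  have hY : ∀ v : extArithIndex S, ld1d_Unif (extArithLoc S v)
      (Rep.res (extArithLoc S v) (M.dualTwist (cycloChar p))) :=
    fun v => ld1a_unif (extArithLoc S v) M hsm
  let P : ∀ v : extArithIndex S, ↥(asm_H1v S v M) →ₗ[ZMod p]
      Module.Dual (ZMod p) ↥(asm_H1v S v (M.dualTwist (cycloChar p))) :=
    fun v => ld1d_P11 (extArithLoc S v) (ptinv p S v) (pt_evv_equivariant S v M) (hY v)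
  have hPs : ∀ v, Function.Surjective (P v) := by
    intro v
    rcases v with u | q
    · intro ψ
      refine ⟨0, ?_⟩
      apply LinearMap.ext
      intro w
      rw [larch_asm_H1v_inl_eq_zero S (M.dualTwist (cycloChar p)) hp2 rfl w, map_zero, map_zero]
    · exact ld1a_surj (extArithLoc S (Sum.inr q)) M (ptinv p S (Sum.inr q)) hsm
        (hDev _ _ _ (hBase inv ptinv hinv hc hp2 S q) _ (ld1a_adm _ M hsm)) (hY _)
  let pair : (∀ v : extArithIndex S, ↥(asm_H1v S v M)) →ₗ[ZMod p]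
      Module.Dual (ZMod p) (∀ v : extArithIndex S, ↥(asm_H1v S v (M.dualTwist (cycloChar p)))) :=
    ∑ v : extArithIndex S, (P v).compl₁₂ (LinearMap.proj v) (LinearMap.proj v)
  have hpair : ∀ z y, pair z y = ∑ v : extArithIndex S, P v (z v) (y v) := by
    intro z y
    change (∑ v : extArithIndex S, (P v).compl₁₂ (LinearMap.proj v) (LinearMap.proj v)) z y = _
    rw [LinearMap.sum_apply, LinearMap.sum_apply]
    rfl
  refine ⟨pair, ?_, ?_⟩
  · intro Ψ
    have h : ∀ v, ∃ zv : ↥(asm_H1v S v M), P v zv =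
        Ψ ∘ₗ (LinearMap.single (ZMod p)
          (fun v : extArithIndex S => ↥(asm_H1v S v (M.dualTwist (cycloChar p)))) v) :=
      fun v => hPs v _
    choose z hz using h
    refine ⟨z, ?_⟩
    apply LinearMap.ext
    intro y
    rw [hpair]
    have e : ∀ v, P v (z v) (y v) = Ψ (Pi.single v (y v)) := by
      intro v
      rw [hz v]
      rfl
    rw [Finset.sum_congr rfl (fun v _ => e v), ← map_sum, Finset.univ_sum_single]
  · intro z y hcoc
    rw [hpair]
    refine Finset.sum_congr rfl fun v _ => ?_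
    exact ld1d_P11_cls (extArithLoc S v) (ptinv p S v) (pt_evv_equivariant S v M) (hY v)
      (z v).1.1 (z v).1.2 (z v).2 (y v).1.1 (y v).1.2 (y v).2

end Fermat.Agent.S55
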