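/-
S55 (Poitou-Tate), LOCAL side, package [L-DEV] (local devissage).  Owner: helper12.
Prefix `ld1d_`.

BASIC: the generic local setting `(H, r : H →* G_ℚ)`: uniform smoothness, the Tate dual of an
equivariant map, short exact sequences and their duals, kernels, and the maps induced by an
equivariant linear map on `H⁰`, on the continuous `H¹` and on the continuous `H²`.
-/
import Mathlib
import Fermat.Agent.S55.Local.LD1Defs
import Fermat.Agent.S55.Adm

set_option autoImplicit false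
set_option maxHeartbeats 1000000
set_option synthInstance.maxHeartbeats 400000
open CategoryTheory Module groupCohomology ExtCitation

noncomputable section

namespace Fermat.Agent.S55

section LinearAlgebra

variable {k : Type*} [Field k] {V W : Type*} [AddCommGroup V] [Module k V]
  [AddCommGroup W] [Module k W]

/-- A linear section of a surjection. -/
theorem ld1d_section (f : V →ₗ[k] W) (hf : Function.Surjective f) :
    ∃ s : W →ₗ[k] V, ∀ w, f (s w) = w := by
  obtain ⟨s, hs⟩ := LinearMap.exists_rightInverse_of_surjective f (LinearMap.range_eq_top.2 hf)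
  exact ⟨s, fun w => by
    have := congrArg (fun g => g w) hs
    exact this⟩

/-- A linear retraction of an injection. -/
theorem ld1d_retraction (j : V →ₗ[k] W) (hj : Function.Injective j) :
    ∃ r : W →ₗ[k] V, ∀ v, r (j v) = v := by
  obtain ⟨r, hr⟩ := LinearMap.exists_leftInverse_of_injective j (LinearMap.ker_eq_bot.2 hj)
  exact ⟨r, fun v => by
    have := congrArg (fun g => g v) hr
    exact this⟩

/-- Extension of a functional along an injection. -/
theorem ld1d_exists_extend (j : V →ₗ[k] W) (hj : Function.Injective j) (φ : Module.Dual k V) :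
    ∃ ψ : Module.Dual k W, ∀ v, ψ (j v) = φ v := by
  obtain ⟨r, hr⟩ := ld1d_retraction j hj
  exact ⟨φ ∘ₗ r, fun v => by rw [LinearMap.comp_apply, hr]⟩

/-- A functional vanishing on the kernel of `q` factors through `q`. -/
theorem ld1d_exists_factor (q : V →ₗ[k] W) (φ : Module.Dual k V)
    (h : ∀ v, q v = 0 → φ v = 0) : ∃ ψ : Module.Dual k W, ∀ v, ψ (q v) = φ v := by
  have hφ : φ ∈ (LinearMap.ker q).dualAnnihilator := by
    rw [Submodule.mem_dualAnnihilator]
    intro v hv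
    exact h v (LinearMap.mem_ker.1 hv)
  rw [← LinearMap.range_dualMap_eq_dualAnnihilator_ker] at hφ
  obtain ⟨ψ, hψ⟩ := hφ
  refine ⟨ψ, fun v => ?_⟩
  rw [← hψ]
  rfl

end LinearAlgebra

variable {p : ℕ} [Fact p.Prime] {H : Type} [Group H] (r : H →* s55_GQ)

/-! ### Smoothness -/

/-- **Uniform smoothness** of a smooth finite module. -/
theorem ld1d_uniform (X : Rep.{0, 0, 0} (ZMod p) H) [FiniteDimensional (ZMod p) X]
    (hX : ld1_Adm r X) :
    ∃ F : IntermediateField ℚ (AlgebraicClosure ℚ), FiniteDimensional ℚ F ∧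
      ∀ s : H, r s ∈ F.fixingSubgroup → ∀ x : X, X.ρ s x = x := by
  haveI : NeZero p := ⟨(Fact.out : p.Prime).ne_zero⟩
  haveI : Finite X := Module.finite_of_finite (ZMod p)
  choose F hF hfix using hX
  haveI : ∀ m, FiniteDimensional ℚ (F m) := hF
  refine ⟨⨆ m : X, F m, inferInstance, fun s hs m => ?_⟩
  exact hfix m s (IntermediateField.fixingSubgroup_antitone (le_iSup F m) hs)

/-- The action on the Tate dual. -/
theorem ld1d_D_ρ (X : Rep.{0, 0, 0} (ZMod p) H) (s : H) (φ : ld1_D r X) (x : X) :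
    (show Module.Dual (ZMod p) X from (ld1_D r X).ρ s φ) x =
      ((cycloChar p (r s) : (ZMod p)ˣ) : ZMod p) •
        (show Module.Dual (ZMod p) X from φ) (X.ρ s⁻¹ x) := rfl

/-- Uniform smoothness of the Tate dual. -/
theorem ld1d_dual_uniform (X : Rep.{0, 0, 0} (ZMod p) H) [FiniteDimensional (ZMod p) X]
    (hX : ld1_Adm r X) :
    ∃ F : IntermediateField ℚ (AlgebraicClosure ℚ), FiniteDimensional ℚ F ∧
      ∀ s : H, r s ∈ F.fixingSubgroup → ∀ φ : ld1_D r X, (ld1_D r X).ρ s φ = φ := by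
  obtain ⟨F, hF, hfix⟩ := ld1d_uniform r X hX
  haveI := hF
  haveI := adm_cycField_finite p
  refine ⟨F ⊔ adm_cycField p, inferInstance, fun s hs φ => ?_⟩
  have hs1 : r s ∈ F.fixingSubgroup := IntermediateField.fixingSubgroup_antitone le_sup_left hs
  have hs2 : r s ∈ (adm_cycField p).fixingSubgroup :=
    IntermediateField.fixingSubgroup_antitone le_sup_right hs
  have hs1' : r s⁻¹ ∈ F.fixingSubgroup := by
    rw [map_inv]
    exact inv_mem hs1
  apply LinearMap.ext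
  intro x
  rw [ld1d_D_ρ, adm_cyclo_eq_one_of_fix p (r s) hs2, hfix s⁻¹ hs1' x, Units.val_one, one_smul]

theorem ld1d_dual_adm (X : Rep.{0, 0, 0} (ZMod p) H) [FiniteDimensional (ZMod p) X]
    (hX : ld1_Adm r X) : ld1_Adm r (ld1_D r X) := by
  obtain ⟨F, hF, hfix⟩ := ld1d_dual_uniform r X hX
  exact fun φ => ⟨F, hF, fun s hs => hfix s hs φ⟩

theorem ld1d_dual_finite (X : Rep.{0, 0, 0} (ZMod p) H) [FiniteDimensional (ZMod p) X] :
    FiniteDimensional (ZMod p) (ld1_D r X) :=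
  inferInstanceAs (FiniteDimensional (ZMod p) (Module.Dual (ZMod p) X))

/-- Uniform level of `F_p(1)`. -/
theorem ld1d_T_fix (s : H) (hs : r s ∈ (adm_cycField p).fixingSubgroup) (t : ld1_T (p := p) r) :
    (ld1_T (p := p) r).ρ s t = t := by
  change (pt_T p).ρ (r s) t = t
  rw [adm_T_ρ, adm_cyclo_eq_one_of_fix p (r s) hs, Units.val_one, one_smul]

/-! ### The evaluation pairing -/

theorem ld1d_ev_equivariant (X : Rep.{0, 0, 0} (ZMod p) H) : cup_Equivariant (ld1_ev r X) := by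
  intro g m f
  change ((cycloChar p (r g) : (ZMod p)ˣ) : ZMod p) •
      (show Module.Dual (ZMod p) X from f) (X.ρ g⁻¹ (X.ρ g m)) =
    ((cycloChar p (r g) : (ZMod p)ˣ) : ZMod p) • (show Module.Dual (ZMod p) X from f) m
  have : X.ρ g⁻¹ (X.ρ g m) = m := by
    rw [← Module.End.mul_apply, ← map_mul, inv_mul_cancel, map_one, Module.End.one_apply]
  rw [this]

variable {A B C : Rep.{0, 0, 0} (ZMod p) H}

/-- The Tate dual of a linear map. -/
def ld1d_dual (g : A →ₗ[ZMod p] B) : ld1_D r B →ₗ[ZMod p] ld1_D r A :=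
  (g.dualMap : Module.Dual (ZMod p) B →ₗ[ZMod p] Module.Dual (ZMod p) A)

theorem ld1d_dual_eqv {g : A →ₗ[ZMod p] B} (hg : dev_Eqv g) : dev_Eqv (ld1d_dual r g) := by
  intro s φ
  apply LinearMap.ext
  intro a
  change ((cycloChar p (r s) : (ZMod p)ˣ) : ZMod p) •
      (show Module.Dual (ZMod p) B from φ) (B.ρ s⁻¹ (g a)) =
    ((cycloChar p (r s) : (ZMod p)ˣ) : ZMod p) •
      (show Module.Dual (ZMod p) B from φ) (g (A.ρ s⁻¹ a))
  rw [hg]

theorem ld1d_ev_dual (g : A →ₗ[ZMod p] B) (a : A) (φ : ld1_D r B) :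
    ld1_ev r B (g a) φ = ld1_ev r A a (ld1d_dual r g φ) := rfl

/-! ### Short exact sequences -/

/-- Short exact sequences `0 → N → I → X → 0` of `H`-modules. -/
def ld1d_SES {N I X : Rep.{0, 0, 0} (ZMod p) H} (ι : N →ₗ[ZMod p] I) (f : I →ₗ[ZMod p] X) :
    Prop :=
  dev_Eqv ι ∧ dev_Eqv f ∧ Function.Injective ι ∧ Function.Surjective f ∧
    ∀ x : I, f x = 0 ↔ ∃ n : N, ι n = x

theorem ld1d_SES_comp_zero {N I X : Rep.{0, 0, 0} (ZMod p) H} {ι : N →ₗ[ZMod p] I}
    {f : I →ₗ[ZMod p] X} (h : ld1d_SES ι f) (n : N) : f (ι n) = 0 :=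
  (h.2.2.2.2 (ι n)).2 ⟨n, rfl⟩

theorem ld1d_retraction_spec {N I X : Rep.{0, 0, 0} (ZMod p) H} {ι : N →ₗ[ZMod p] I}
    {f : I →ₗ[ZMod p] X} (h : ld1d_SES ι f) {ρ : I →ₗ[ZMod p] N} (hρ : ∀ n, ρ (ι n) = n)
    {x : I} (hx : f x = 0) : ι (ρ x) = x := by
  obtain ⟨n, rfl⟩ := (h.2.2.2.2 x).1 hx
  rw [hρ]

/-- The Tate dual of a short exact sequence is short exact. -/
theorem ld1d_dual_SES {N I X : Rep.{0, 0, 0} (ZMod p) H} {ι : N →ₗ[ZMod p] I}
    {f : I →ₗ[ZMod p] X} (h : ld1d_SES ι f) : ld1d_SES (ld1d_dual r f) (ld1d_dual r ι) := by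
  refine ⟨ld1d_dual_eqv r h.2.1, ld1d_dual_eqv r h.1, ?_, ?_, ?_⟩
  · exact LinearMap.dualMap_injective_of_surjective h.2.2.2.1
  · exact LinearMap.dualMap_surjective_of_injective h.2.2.1
  · intro φ
    constructor
    · intro hφ
      have h0 : ∀ n : N, (show Module.Dual (ZMod p) I from φ) (ι n) = 0 := by
        intro n
        have := congrArg (fun ψ : ld1_D r N => (show Module.Dual (ZMod p) N from ψ) n) hφ
        exact this
      have hmem : (show Module.Dual (ZMod p) I from φ) ∈ (LinearMap.ker f).dualAnnihilator := by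
        rw [Submodule.mem_dualAnnihilator]
        intro x hx
        obtain ⟨n, rfl⟩ := (h.2.2.2.2 x).1 (LinearMap.mem_ker.1 hx)
        exact h0 n
      rw [← LinearMap.range_dualMap_eq_dualAnnihilator_ker] at hmem
      obtain ⟨ψ, hψ⟩ := hmem
      exact ⟨ψ, hψ⟩
    · rintro ⟨ψ, rfl⟩
      apply LinearMap.ext
      intro n
      change (show Module.Dual (ZMod p) X from ψ) (f (ι n)) = 0
      rw [(h.2.2.2.2 (ι n)).2 ⟨n, rfl⟩, map_zero]

/-- The kernel of a surjection of smooth finite modules. -/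
theorem ld1d_ker (I X : Rep.{0, 0, 0} (ZMod p) H) [FiniteDimensional (ZMod p) I]
    (hI : ld1_Adm r I) (f : I →ₗ[ZMod p] X) (hf : dev_Eqv f) (hsurj : Function.Surjective f) :
    ∃ (N : Rep.{0, 0, 0} (ZMod p) H) (_ : FiniteDimensional (ZMod p) N)
      (ι : N →ₗ[ZMod p] I), ld1_Adm r N ∧ ld1d_SES ι f := by
  have hfe : ∀ s a, f (I.ρ s a) = X.ρ s (f a) := hf
  have hle : ∀ g : H, LinearMap.ker f ≤ (LinearMap.ker f).comap (I.ρ g) := by
    intro g x hx
    rw [Submodule.mem_comap, LinearMap.mem_ker, hfe, LinearMap.mem_ker.1 hx, map_zero]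
  refine ⟨Rep.of (I.ρ.subrepresentation (LinearMap.ker f) hle),
    inferInstanceAs (FiniteDimensional (ZMod p) ↥(LinearMap.ker f)),
    (LinearMap.ker f).subtype, ?_, ?_, hf, ?_, hsurj, ?_⟩
  · intro m
    obtain ⟨F, hF, hFm⟩ := hI (m : ↥(LinearMap.ker f)).1
    refine ⟨F, hF, fun s hs => ?_⟩
    apply Subtype.ext
    exact hFm s hs
  · intro s a
    rfl
  · exact Subtype.val_injective
  · intro x
    constructor
    · intro hx
      exact ⟨⟨x, LinearMap.mem_ker.2 hx⟩, rfl⟩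
    · rintro ⟨n, rfl⟩
      exact LinearMap.mem_ker.1 (n : ↥(LinearMap.ker f)).2

/-! ### Induced maps -/

/-- The map induced on `H⁰`. -/
def ld1d_H0 {g : A →ₗ[ZMod p] B} (hg : dev_Eqv g) :
    ↥(A.ρ.invariants) →ₗ[ZMod p] ↥(B.ρ.invariants) :=
  g.restrict fun a ha s => by
    rw [← hg, ha s]

theorem ld1d_H0_coe {g : A →ₗ[ZMod p] B} (hg : dev_Eqv g) (m : ↥(A.ρ.invariants)) :
    ((ld1d_H0 hg m : ↥(B.ρ.invariants)) : B) = g m.1 := rfl

theorem ld1d_H0_dual_injective {g : A →ₗ[ZMod p] B} (hge : dev_Eqv g)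
    (hg : Function.Surjective g) : Function.Injective (ld1d_H0 (ld1d_dual_eqv r hge)) := by
  intro m m' h
  apply Subtype.ext
  apply LinearMap.dualMap_injective_of_surjective hg
  have := congrArg Subtype.val h
  exact this

/-- The map induced on the continuous `H²`. -/
def ld1d_H2 {g : A →ₗ[ZMod p] B} (hg : dev_Eqv g) : continuousH2 r A →ₗ[ZMod p] continuousH2 r B :=
  continuousH2Map (rH := r) (rG := r) (MonoidHom.id H) (fun _ => rfl) g (fun s a => hg s a)

theorem ld1d_H2_π {g : A →ₗ[ZMod p] B} (hg : dev_Eqv g) (c : ↥(levelCocycles₂ r A))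
    (hc : dev_push (H × H) g c.1 ∈ levelCocycles₂ r B) :
    ld1d_H2 r hg (continuousH2π r A c) = continuousH2π r B ⟨dev_push (H × H) g c.1, hc⟩ := rfl

theorem ld1d_push_mem₂ {g : A →ₗ[ZMod p] B} (hg : dev_Eqv g) {c : H × H → A}
    (hc : c ∈ levelCocycles₂ r A) : dev_push (H × H) g c ∈ levelCocycles₂ r B := by
  refine ⟨?_, hc.2.comp g⟩
  have h0 : (d₂₃ A).hom c = 0 := hc.1
  change (d₂₃ B).hom _ = 0
  rw [dev_push_d₂₃ hg, h0, map_zero]

/-- The morphism of representations attached to an equivariant linear map. -/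
def ld1d_hom {h : A →ₗ[ZMod p] B} (hh : dev_Eqv h) : A ⟶ B :=
  Rep.ofHom (LinearMap.intertwiningMap_of_isIntertwiningMap (ρ := A.ρ) (σ := B.ρ) h hh)

/-- The map induced on `H¹`. -/
def ld1d_H1raw {h : A →ₗ[ZMod p] B} (hh : dev_Eqv h) : H1 A →ₗ[ZMod p] H1 B :=
  (groupCohomology.map (MonoidHom.id H) (ld1d_hom hh) 1).hom

/-- Push-forward of 1-cocycles. -/
def ld1d_Z1 {h : A →ₗ[ZMod p] B} (hh : dev_Eqv h) :
    ↥(cocycles₁ A) →ₗ[ZMod p] ↥(cocycles₁ B) :=
  (dev_push H h).restrict fun y hy => by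
    have h0 : (d₁₂ A).hom y = 0 := hy
    change (d₁₂ B).hom _ = 0
    rw [dev_push_d₁₂ hh, h0, map_zero]

theorem ld1d_Z1_coe {h : A →ₗ[ZMod p] B} (hh : dev_Eqv h) (y : ↥(cocycles₁ A)) :
    ((ld1d_Z1 hh y : ↥(cocycles₁ B)) : H → B) = dev_push H h y.1 := rfl

theorem ld1d_H1raw_π {h : A →ₗ[ZMod p] B} (hh : dev_Eqv h) (y : ↥(cocycles₁ A)) :
    ld1d_H1raw hh ((H1π A).hom y) = (H1π B).hom (ld1d_Z1 hh y) := by
  have := congrArg (fun f => f.hom y) (H1π_comp_map (MonoidHom.id H) (ld1d_hom hh))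
  exact this

theorem ld1d_H1raw_mem {h : A →ₗ[ZMod p] B} (hh : dev_Eqv h) {x : H1 A}
    (hx : x ∈ continuousH1 r A) : ld1d_H1raw hh x ∈ continuousH1 r B := by
  obtain ⟨y, hy, rfl⟩ := (mem_continuousH1_iff r A x).1 hx
  rw [ld1d_H1raw_π]
  exact (mem_continuousH1_iff r B _).2 ⟨ld1d_Z1 hh y, hy.comp h, rfl⟩

/-- The map induced on the continuous `H¹`. -/
def ld1d_H1 {h : A →ₗ[ZMod p] B} (hh : dev_Eqv h) :
    ↥(continuousH1 r A) →ₗ[ZMod p] ↥(continuousH1 r B) :=
  (ld1d_H1raw hh).restrict fun _ hx => ld1d_H1raw_mem r hh hx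

theorem ld1d_push_level (h : A →ₗ[ZMod p] B) {z : H → A} (hl : IsLevelConstant₁ r z) :
    IsLevelConstant₁ r (dev_push H h z) :=
  hl.comp h

theorem ld1d_H1_cls {h : A →ₗ[ZMod p] B} (hh : dev_Eqv h) (z : H → A) (hz : z ∈ cocycles₁ A)
    (hl : IsLevelConstant₁ r z) (hz' : dev_push H h z ∈ cocycles₁ B) :
    ld1d_H1 r hh (ld1_cls1 r A z hz hl) =
      ld1_cls1 r B (dev_push H h z) hz' (ld1d_push_level r h hl) := by
  apply Subtype.ext
  exact ld1d_H1raw_π hh ⟨z, hz⟩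

theorem ld1d_push_mem₁ {h : A →ₗ[ZMod p] B} (hh : dev_Eqv h) {z : H → A}
    (hz : z ∈ cocycles₁ A) : dev_push H h z ∈ cocycles₁ B :=
  (ld1d_Z1 hh ⟨z, hz⟩).2

theorem ld1d_exists_cls (X : Rep.{0, 0, 0} (ZMod p) H) (y : ↥(continuousH1 r X)) :
    ∃ (z : H → X) (hz : z ∈ cocycles₁ X) (hl : IsLevelConstant₁ r z),
      y = ld1_cls1 r X z hz hl := by
  obtain ⟨z, hz, e⟩ := (mem_continuousH1_iff r X y.1).1 y.2
  exact ⟨z.1, z.2, hz, Subtype.ext e.symm⟩

end Fermat.Agent.S55
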