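/-
S55 (Poitou-Tate), LOCAL side, package [L-DEV] (local devissage).  Owner: helper12.
Prefix `ld1d_`.

PAIR: for an equivariant pairing `φ : X × Y → T` of `H`-modules (`Y` uniformly smooth) and a
functional `τ` on the continuous `H²(T)`: the pairings
  `ld1d_P11 : H¹_cts(X) → Dual H¹_cts(Y)`,   `([z], [y]) ↦ τ [z ∪ y]`,
  `ld1d_P20 : H²_cts(X) → Dual H⁰(Y)`,       `([c], m) ↦ τ [c ∪ m]`,
and their naturality.  Everything is generic in `X, Y, T`.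
-/
import Mathlib
import Fermat.Agent.S55.Local.LD1DevBasic

set_option autoImplicit false
set_option maxHeartbeats 1000000
set_option synthInstance.maxHeartbeats 400000
open CategoryTheory Module groupCohomology ExtCitation

noncomputable section

namespace Fermat.Agent.S55

variable {p : ℕ} [Fact p.Prime] {H : Type} [Group H] (r : H →* s55_GQ)

/-- Uniform smoothness. -/
def ld1d_Unif (Y : Rep.{0, 0, 0} (ZMod p) H) : Prop :=
  ∃ F : IntermediateField ℚ (AlgebraicClosure ℚ), FiniteDimensional ℚ F ∧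
    ∀ s : H, r s ∈ F.fixingSubgroup → ∀ y : Y, Y.ρ s y = y

section Level

variable {X Y T : Rep.{0, 0, 0} (ZMod p) H} (φ : X →ₗ[ZMod p] Y →ₗ[ZMod p] T)

theorem ld1d_cup₀₁_level (a : X) {y : H → Y} (hy : IsLevelConstant₁ r y) :
    IsLevelConstant₁ r (cup₀₁ φ a y) :=
  hy.comp (fun t => φ a t)

theorem ld1d_cup₁₀_level (hY : ld1d_Unif r Y) {b : H → X} (hb : IsLevelConstant₁ r b)
    (m : Y) : IsLevelConstant₁ r (cup₁₀ φ b m) := by
  obtain ⟨F₁, hF₁, h₁⟩ := hb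
  obtain ⟨F₂, hF₂, h₂⟩ := hY
  haveI := hF₁
  haveI := hF₂
  refine ⟨F₁ ⊔ F₂, inferInstance, fun g s hs => ?_⟩
  have hs1 := IntermediateField.fixingSubgroup_antitone (le_sup_left : F₁ ≤ F₁ ⊔ F₂) hs
  have hs2 := IntermediateField.fixingSubgroup_antitone (le_sup_right : F₂ ≤ F₁ ⊔ F₂) hs
  change φ (b (g * s)) (Y.ρ (g * s) m) = φ (b g) (Y.ρ g m)
  rw [h₁ g s hs1, map_mul, Module.End.mul_apply, h₂ s hs2]

theorem ld1d_cup₁₁_level (hY : ld1d_Unif r Y) {z : H → X} (hz : IsLevelConstant₁ r z)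
    {y : H → Y} (hy : IsLevelConstant₁ r y) : IsLevelConstant₂ r (cup₁₁ φ z y) := by
  obtain ⟨F₁, hF₁, h₁⟩ := hz
  obtain ⟨F₂, hF₂, h₂⟩ := hY
  obtain ⟨F₃, hF₃, h₃⟩ := hy
  haveI := hF₁
  haveI := hF₂
  haveI := hF₃
  refine ⟨F₁ ⊔ F₂ ⊔ F₃, inferInstance, fun g g' s s' hs hs' => ?_⟩
  have hs1 := IntermediateField.fixingSubgroup_antitone
    ((le_sup_left : F₁ ≤ F₁ ⊔ F₂).trans le_sup_left : F₁ ≤ F₁ ⊔ F₂ ⊔ F₃) hs
  have hs2 := IntermediateField.fixingSubgroup_antitone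
    ((le_sup_right : F₂ ≤ F₁ ⊔ F₂).trans le_sup_left : F₂ ≤ F₁ ⊔ F₂ ⊔ F₃) hs
  have hs3' := IntermediateField.fixingSubgroup_antitone
    (le_sup_right : F₃ ≤ F₁ ⊔ F₂ ⊔ F₃) hs'
  change φ (z (g * s)) (Y.ρ (g * s) (y (g' * s'))) = φ (z g) (Y.ρ g (y g'))
  rw [h₁ g s hs1, h₃ g' s' hs3', map_mul, Module.End.mul_apply, h₂ s hs2]

theorem ld1d_cup₂₀_level (hY : ld1d_Unif r Y) {c : H × H → X} (hc : IsLevelConstant₂ r c)
    (m : Y) : IsLevelConstant₂ r (cup₂₀ φ c m) := by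
  obtain ⟨F₁, hF₁, h₁⟩ := hc
  obtain ⟨F₂, hF₂, h₂⟩ := hY
  haveI := hF₁
  haveI := hF₂
  refine ⟨F₁ ⊔ F₂, inferInstance, fun g g' s s' hs hs' => ?_⟩
  have hs1 := IntermediateField.fixingSubgroup_antitone (le_sup_left : F₁ ≤ F₁ ⊔ F₂) hs
  have hs1' := IntermediateField.fixingSubgroup_antitone (le_sup_left : F₁ ≤ F₁ ⊔ F₂) hs'
  have hs2 := IntermediateField.fixingSubgroup_antitone (le_sup_right : F₂ ≤ F₁ ⊔ F₂) hs
  have hs2' := IntermediateField.fixingSubgroup_antitone (le_sup_right : F₂ ≤ F₁ ⊔ F₂) hs'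
  change φ (c (g * s, g' * s')) (Y.ρ (g * s * (g' * s')) m) = φ (c (g, g')) (Y.ρ (g * g') m)
  rw [h₁ g g' s s' hs1 hs1']
  have e : Y.ρ (g * s * (g' * s')) m = Y.ρ (g * g') m := by
    rw [map_mul, map_mul, map_mul, map_mul, Module.End.mul_apply, Module.End.mul_apply,
      Module.End.mul_apply, Module.End.mul_apply, h₂ s' hs2', h₂ s hs2]
  rw [e]

variable {φ}

theorem ld1d_cup₁₁_mem (hφ : cup_Equivariant φ) (hY : ld1d_Unif r Y) {z : H → X}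
    (hz : z ∈ cocycles₁ X) (hzl : IsLevelConstant₁ r z) {y : H → Y} (hy : y ∈ cocycles₁ Y)
    (hyl : IsLevelConstant₁ r y) : cup₁₁ φ z y ∈ levelCocycles₂ r T := by
  refine ⟨?_, ld1d_cup₁₁_level r φ hY hzl hyl⟩
  change (d₂₃ T).hom _ = 0
  have hz0 : (d₁₂ X).hom z = 0 := hz
  rw [cup_d₁₁ hφ z y hy, hz0]
  funext ⟨g, h, j⟩
  change φ 0 _ = 0
  rw [map_zero, LinearMap.zero_apply]

theorem ld1d_d₀₁_invariant {m : Y} (hm : m ∈ Y.ρ.invariants) : (d₀₁ Y).hom m = 0 := by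
  funext g
  rw [d₀₁_hom_apply, hm g, sub_self]
  rfl

theorem ld1d_cup₂₀_mem (hφ : cup_Equivariant φ) {c : H × H → X}
    (hc : c ∈ levelCocycles₂ r X) {m : Y} (hm : m ∈ Y.ρ.invariants) :
    cup₂₀ φ c m ∈ levelCocycles₂ r T := by
  refine ⟨?_, ?_⟩
  · change (d₂₃ T).hom _ = 0
    have hc0 : (d₂₃ X).hom c = 0 := hc.1
    rw [cup_d₂₀ hφ c m hc0, ld1d_d₀₁_invariant hm]
    funext ⟨g, h, j⟩
    change φ (c (g, h)) (Y.ρ (g * h) 0) = 0
    rw [map_zero, map_zero]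
  · have e : cup₂₀ φ c m = (fun a => φ a m) ∘ c := by
      funext ⟨g, h⟩
      change φ (c (g, h)) (Y.ρ (g * h) m) = φ (c (g, h)) m
      rw [hm (g * h)]
    rw [e]
    exact hc.2.comp _

end Level

section Pairings

variable {X Y T : Rep.{0, 0, 0} (ZMod p) H} (τ : continuousH2 r T →ₗ[ZMod p] ZMod p)
  {φ : X →ₗ[ZMod p] Y →ₗ[ZMod p] T} (hφ : cup_Equivariant φ)

/-! ### Degrees `(2,0)` -/

/-- `(c, m) ↦ c ∪ m` on continuous 2-cocycles and invariants. -/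
def ld1d_cupZ20 :
    ↥(levelCocycles₂ r X) →ₗ[ZMod p] ↥(Y.ρ.invariants) →ₗ[ZMod p] ↥(levelCocycles₂ r T) :=
  LinearMap.mk₂ (ZMod p)
    (fun c m => ⟨cup₂₀ φ c.1 m.1, ld1d_cup₂₀_mem r hφ c.2 m.2⟩)
    (fun c c' m => by
      apply Subtype.ext
      funext x
      show cup₂₀ φ (c.1 + c'.1) _ x = cup₂₀ φ c.1 _ x + cup₂₀ φ c'.1 _ x
      simp only [cup₂₀, Pi.add_apply, map_add, LinearMap.add_apply])
    (fun a c m => by
      apply Subtype.ext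
      funext x
      show cup₂₀ φ (a • c.1) _ x = a • cup₂₀ φ c.1 _ x
      simp only [cup₂₀, Pi.smul_apply, map_smul, LinearMap.smul_apply])
    (fun c m m' => by
      apply Subtype.ext
      funext x
      show cup₂₀ φ c.1 ((m + m' : ↥(Y.ρ.invariants)).1 : Y) x =
        cup₂₀ φ c.1 _ x + cup₂₀ φ c.1 _ x
      simp only [cup₂₀, Submodule.coe_add, map_add])
    (fun a c m => by
      apply Subtype.ext
      funext x
      show cup₂₀ φ c.1 ((a • m : ↥(Y.ρ.invariants)).1 : Y) x = a • cup₂₀ φ c.1 _ x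
      simp only [cup₂₀, Submodule.coe_smul, map_smul])

theorem ld1d_cupZ20_coe (c : ↥(levelCocycles₂ r X)) (m : ↥(Y.ρ.invariants)) :
    ((ld1d_cupZ20 r hφ c m : ↥(levelCocycles₂ r T)) : H × H → T) = cup₂₀ φ c.1 m.1 := rfl

/-- `(c, m) ↦ τ [c ∪ m]` on cocycles. -/
def ld1d_L20 : ↥(levelCocycles₂ r X) →ₗ[ZMod p] Module.Dual (ZMod p) ↥(Y.ρ.invariants) :=
  (ld1d_cupZ20 r hφ).compr₂ (τ ∘ₗ continuousH2π r T)

theorem ld1d_L20_apply (c : ↥(levelCocycles₂ r X)) (m : ↥(Y.ρ.invariants)) :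
    ld1d_L20 r τ hφ c m = τ (continuousH2π r T (ld1d_cupZ20 r hφ c m)) := rfl

theorem ld1d_L20_ker :
    (levelCoboundaries₂ r X).comap (levelCocycles₂ r X).subtype ≤
      LinearMap.ker (ld1d_L20 r τ hφ (Y := Y)) := by
  intro c hc
  rw [LinearMap.mem_ker]
  ext m
  rw [ld1d_L20_apply, LinearMap.zero_apply]
  have h0 : continuousH2π r T (ld1d_cupZ20 r hφ c m) = 0 := by
    rw [continuousH2π_eq_zero_iff, ld1d_cupZ20_coe]
    obtain ⟨b, hb, hbc⟩ := (mem_levelCoboundaries₂_iff _ _ _).1 hc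
    rw [mem_levelCoboundaries₂_iff]
    refine ⟨cup₁₀ φ b m.1, ?_, ?_⟩
    · have e : cup₁₀ φ b m.1 = (fun a => φ a m.1) ∘ b := by
        funext g
        change φ (b g) (Y.ρ g m.1) = φ (b g) m.1
        rw [m.2 g]
      rw [e]
      exact hb.comp _
    · rw [cup_d₁₀ hφ, ld1d_d₀₁_invariant m.2]
      have hbc' : (d₁₂ X).hom b = c.1 := hbc
      rw [hbc']
      funext ⟨g, h⟩
      rw [Pi.sub_apply, cup₁₁_apply, Pi.zero_apply, map_zero, map_zero, sub_zero]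
  rw [h0, map_zero]

/-- The pairing map `H²_cts(X) → Dual H⁰(Y)`. -/
def ld1d_P20 : continuousH2 r X →ₗ[ZMod p] Module.Dual (ZMod p) ↥(Y.ρ.invariants) :=
  Submodule.liftQ _ (ld1d_L20 r τ hφ) (ld1d_L20_ker r τ hφ)

theorem ld1d_P20_π (c : ↥(levelCocycles₂ r X)) (m : ↥(Y.ρ.invariants)) :
    ld1d_P20 r τ hφ (continuousH2π r X c) m =
      τ (continuousH2π r T ⟨cup₂₀ φ c.1 m.1, ld1d_cup₂₀_mem r hφ c.2 m.2⟩) := rfl

/-! ### Degrees `(1,1)` -/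

/-- The class map on continuous 1-cocycles. -/
def ld1d_cls (X : Rep.{0, 0, 0} (ZMod p) H) :
    ↥(levelCocycles₁ r X) →ₗ[ZMod p] ↥(continuousH1 r X) :=
  ((H1π X).hom ∘ₗ (levelCocycles₁ r X).subtype).codRestrict (continuousH1 r X)
    (fun z => (mem_continuousH1_iff r X _).2 ⟨z.1, z.2, rfl⟩)

theorem ld1d_cls_eq (X : Rep.{0, 0, 0} (ZMod p) H) (z : H → X) (hz : z ∈ cocycles₁ X)
    (hl : IsLevelConstant₁ r z) :
    ld1d_cls r X ⟨⟨z, hz⟩, hl⟩ = ld1_cls1 r X z hz hl := rfl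

theorem ld1d_cls_surjective (X : Rep.{0, 0, 0} (ZMod p) H) :
    Function.Surjective (ld1d_cls r X) := by
  intro y
  obtain ⟨z, hz, hl, rfl⟩ := ld1d_exists_cls r X y
  exact ⟨⟨⟨z, hz⟩, hl⟩, rfl⟩

theorem ld1d_cls_eq_zero (X : Rep.{0, 0, 0} (ZMod p) H) (z : ↥(levelCocycles₁ r X))
    (h : ld1d_cls r X z = 0) : ∃ a : X, (d₀₁ X).hom a = z.1.1 := by
  have h1 : (H1π X).hom z.1 = 0 := congrArg Subtype.val h
  exact (H1π_eq_zero_iff z.1).1 h1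

variable (hY : ld1d_Unif r Y)

/-- `(z, y) ↦ z ∪ y` on continuous 1-cocycles. -/
def ld1d_cupZ11 :
    ↥(levelCocycles₁ r X) →ₗ[ZMod p] ↥(levelCocycles₁ r Y) →ₗ[ZMod p] ↥(levelCocycles₂ r T) :=
  LinearMap.mk₂ (ZMod p)
    (fun z y => ⟨cup₁₁ φ z.1.1 y.1.1, ld1d_cup₁₁_mem r hφ hY z.1.2 z.2 y.1.2 y.2⟩)
    (fun z z' y => by
      apply Subtype.ext
      funext x
      show cup₁₁ φ (z.1.1 + z'.1.1) _ x = cup₁₁ φ z.1.1 _ x + cup₁₁ φ z'.1.1 _ x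
      simp only [cup₁₁, Pi.add_apply, map_add, LinearMap.add_apply])
    (fun a z y => by
      apply Subtype.ext
      funext x
      show cup₁₁ φ (a • z.1.1) _ x = a • cup₁₁ φ z.1.1 _ x
      simp only [cup₁₁, Pi.smul_apply, map_smul, LinearMap.smul_apply])
    (fun z y y' => by
      apply Subtype.ext
      funext x
      show cup₁₁ φ z.1.1 (y.1.1 + y'.1.1) x = cup₁₁ φ z.1.1 _ x + cup₁₁ φ z.1.1 _ x
      simp only [cup₁₁, Pi.add_apply, map_add])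
    (fun a z y => by
      apply Subtype.ext
      funext x
      show cup₁₁ φ z.1.1 (a • y.1.1) x = a • cup₁₁ φ z.1.1 _ x
      simp only [cup₁₁, Pi.smul_apply, map_smul])

theorem ld1d_cupZ11_coe (z : ↥(levelCocycles₁ r X)) (y : ↥(levelCocycles₁ r Y)) :
    ((ld1d_cupZ11 r hφ hY z y : ↥(levelCocycles₂ r T)) : H × H → T) =
      cup₁₁ φ z.1.1 y.1.1 := rfl

/-- `(z, y) ↦ τ [z ∪ y]` on cocycles. -/
def ld1d_L11 : ↥(levelCocycles₁ r X) →ₗ[ZMod p] Module.Dual (ZMod p) ↥(levelCocycles₁ r Y) :=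
  (ld1d_cupZ11 r hφ hY).compr₂ (τ ∘ₗ continuousH2π r T)

theorem ld1d_L11_apply (z : ↥(levelCocycles₁ r X)) (y : ↥(levelCocycles₁ r Y)) :
    ld1d_L11 r τ hφ hY z y = τ (continuousH2π r T (ld1d_cupZ11 r hφ hY z y)) := rfl

theorem ld1d_L11_left (z : ↥(levelCocycles₁ r X)) (hz : ld1d_cls r X z = 0)
    (y : ↥(levelCocycles₁ r Y)) : ld1d_L11 r τ hφ hY z y = 0 := by
  obtain ⟨a, ha⟩ := ld1d_cls_eq_zero r X z hz
  rw [ld1d_L11_apply]
  have h0 : continuousH2π r T (ld1d_cupZ11 r hφ hY z y) = 0 := by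
    rw [continuousH2π_eq_zero_iff, ld1d_cupZ11_coe, mem_levelCoboundaries₂_iff]
    refine ⟨cup₀₁ φ a y.1.1, ld1d_cup₀₁_level r φ a y.2, ?_⟩
    have hy0 : (d₁₂ Y).hom y.1.1 = 0 := y.1.2
    rw [cup_d₀₁ hφ a y.1.1 hy0, ha]
  rw [h0, map_zero]

theorem ld1d_L11_right (z : ↥(levelCocycles₁ r X)) (y : ↥(levelCocycles₁ r Y))
    (hy : ld1d_cls r Y y = 0) : ld1d_L11 r τ hφ hY z y = 0 := by
  obtain ⟨a, ha⟩ := ld1d_cls_eq_zero r Y y hy
  rw [ld1d_L11_apply]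
  have h0 : continuousH2π r T (ld1d_cupZ11 r hφ hY z y) = 0 := by
    rw [continuousH2π_eq_zero_iff, ld1d_cupZ11_coe, mem_levelCoboundaries₂_iff]
    refine ⟨-(cup₁₀ φ z.1.1 a), (ld1d_cup₁₀_level r φ hY z.2 a).comp (fun t => -t), ?_⟩
    have hz0 : (d₁₂ X).hom z.1.1 = 0 := z.1.2
    rw [map_neg, cup_d₁₀ hφ, hz0, ha]
    funext ⟨g, h⟩
    change -(φ 0 (Y.ρ (g * h) a) - cup₁₁ φ z.1.1 y.1.1 (g, h)) = cup₁₁ φ z.1.1 y.1.1 (g, h)
    rw [map_zero, LinearMap.zero_apply, zero_sub, neg_neg]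
  rw [h0, map_zero]

/-- A linear section of the class map. -/
def ld1d_sec (X : Rep.{0, 0, 0} (ZMod p) H) :
    ↥(continuousH1 r X) →ₗ[ZMod p] ↥(levelCocycles₁ r X) :=
  Classical.choose (ld1d_section (ld1d_cls r X) (ld1d_cls_surjective r X))

theorem ld1d_sec_spec (X : Rep.{0, 0, 0} (ZMod p) H) (u : ↥(continuousH1 r X)) :
    ld1d_cls r X (ld1d_sec r X u) = u :=
  Classical.choose_spec (ld1d_section (ld1d_cls r X) (ld1d_cls_surjective r X)) u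

/-- The pairing map `H¹_cts(X) → Dual H¹_cts(Y)`. -/
def ld1d_P11 : ↥(continuousH1 r X) →ₗ[ZMod p] Module.Dual (ZMod p) ↥(continuousH1 r Y) :=
  (ld1d_L11 r τ hφ hY).compl₁₂ (ld1d_sec r X) (ld1d_sec r Y)

theorem ld1d_P11_apply (u : ↥(continuousH1 r X)) (w : ↥(continuousH1 r Y)) :
    ld1d_P11 r τ hφ hY u w = ld1d_L11 r τ hφ hY (ld1d_sec r X u) (ld1d_sec r Y w) := rfl

theorem ld1d_P11_cls' (z : ↥(levelCocycles₁ r X)) (y : ↥(levelCocycles₁ r Y)) :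
    ld1d_P11 r τ hφ hY (ld1d_cls r X z) (ld1d_cls r Y y) = ld1d_L11 r τ hφ hY z y := by
  rw [ld1d_P11_apply]
  have h1 : ld1d_cls r X (ld1d_sec r X (ld1d_cls r X z) - z) = 0 := by
    rw [(ld1d_cls r X).map_sub, ld1d_sec_spec, sub_self]
  have h2 : ld1d_cls r Y (ld1d_sec r Y (ld1d_cls r Y y) - y) = 0 := by
    rw [(ld1d_cls r Y).map_sub, ld1d_sec_spec, sub_self]
  have e1 := ld1d_L11_left r τ hφ hY _ h1 (ld1d_sec r Y (ld1d_cls r Y y))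
  have e2 := ld1d_L11_right r τ hφ hY z _ h2
  rw [(ld1d_L11 r τ hφ hY).map_sub, LinearMap.sub_apply, sub_eq_zero] at e1
  rw [(ld1d_L11 r τ hφ hY z).map_sub, sub_eq_zero] at e2
  rw [e1, e2]

theorem ld1d_P11_cls (z : H → X) (hz : z ∈ cocycles₁ X) (hzl : IsLevelConstant₁ r z)
    (y : H → Y) (hy : y ∈ cocycles₁ Y) (hyl : IsLevelConstant₁ r y) :
    ld1d_P11 r τ hφ hY (ld1_cls1 r X z hz hzl) (ld1_cls1 r Y y hy hyl) =
      τ (continuousH2π r T ⟨cup₁₁ φ z y, ld1d_cup₁₁_mem r hφ hY hz hzl hy hyl⟩) :=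
  ld1d_P11_cls' r τ hφ hY ⟨⟨z, hz⟩, hzl⟩ ⟨⟨y, hy⟩, hyl⟩

end Pairings

/-! ### Naturality -/

section Naturality

variable {A B A' B' T : Rep.{0, 0, 0} (ZMod p) H} (τ : continuousH2 r T →ₗ[ZMod p] ZMod p)
  {φA : A →ₗ[ZMod p] A' →ₗ[ZMod p] T} {φB : B →ₗ[ZMod p] B' →ₗ[ZMod p] T}
  (hφA : cup_Equivariant φA) (hφB : cup_Equivariant φB)
  {g : A →ₗ[ZMod p] B} (hg : dev_Eqv g) {g' : B' →ₗ[ZMod p] A'} (hg' : dev_Eqv g')
  (hc : ∀ a y, φB (g a) y = φA a (g' y))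

include hc in
theorem ld1d_P20_nat (c : continuousH2 r A) (m : ↥(B'.ρ.invariants)) :
    ld1d_P20 r τ hφB (ld1d_H2 r hg c) m = ld1d_P20 r τ hφA c (ld1d_H0 hg' m) := by
  obtain ⟨c, rfl⟩ := Submodule.mkQ_surjective _ c
  change τ (continuousH2π r T ⟨cup₂₀ φB (dev_push (H × H) g c.1) m.1, _⟩) =
    τ (continuousH2π r T ⟨cup₂₀ φA c.1 (g' m.1), _⟩)
  congr 2
  apply Subtype.ext
  funext ⟨s, t⟩
  have e : ∀ s a, g' (B'.ρ s a) = A'.ρ s (g' a) := hg'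
  change φB (g (c.1 (s, t))) (B'.ρ (s * t) m.1) = φA (c.1 (s, t)) (A'.ρ (s * t) (g' m.1))
  rw [hc, e]

include hc in
theorem ld1d_P11_nat (hA' : ld1d_Unif r A') (hB' : ld1d_Unif r B')
    (u : ↥(continuousH1 r A)) (w : ↥(continuousH1 r B')) :
    ld1d_P11 r τ hφB hB' (ld1d_H1 r hg u) w = ld1d_P11 r τ hφA hA' u (ld1d_H1 r hg' w) := by
  obtain ⟨z, hz, hzl, rfl⟩ := ld1d_exists_cls r A u
  obtain ⟨y, hy, hyl, rfl⟩ := ld1d_exists_cls r B' w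
  rw [ld1d_H1_cls r hg z hz hzl (ld1d_push_mem₁ hg hz),
    ld1d_H1_cls r hg' y hy hyl (ld1d_push_mem₁ hg' hy)]
  rw [ld1d_P11_cls, ld1d_P11_cls]
  congr 2
  apply Subtype.ext
  funext ⟨s, t⟩
  have e : ∀ s a, g' (B'.ρ s a) = A'.ρ s (g' a) := hg'
  change φB (g (z s)) (B'.ρ s (y t)) = φA (z s) (A'.ρ s (g' (y t)))
  rw [hc, e]

end Naturality

/-! ### Comparison with `ld1_IsPair11`, `ld1_IsPair20` -/

section Compare

variable (τ : ld1_Tau p r) (X : Rep.{0, 0, 0} (ZMod p) H)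

theorem ld1d_isPair20 :
    ld1_IsPair20 r τ X (ld1d_P20 r τ (ld1d_ev_equivariant r X)) := by
  intro c m hcoc
  rfl

theorem ld1d_pair20_eq
    (P : continuousH2 r X →ₗ[ZMod p] Module.Dual (ZMod p) ↥((ld1_D r X).ρ.invariants))
    (hP : ld1_IsPair20 r τ X P) : P = ld1d_P20 r τ (ld1d_ev_equivariant r X) := by
  apply LinearMap.ext
  intro c
  obtain ⟨c, rfl⟩ := Submodule.mkQ_surjective _ c
  apply LinearMap.ext
  intro m
  exact hP c m (ld1d_cup₂₀_mem r (ld1d_ev_equivariant r X) c.2 m.2)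

variable (hX' : ld1d_Unif r (ld1_D r X))

theorem ld1d_isPair11 :
    ld1_IsPair11 r τ X (ld1d_P11 r τ (ld1d_ev_equivariant r X) hX') := by
  intro z hz hzl y hy hyl hcoc
  exact ld1d_P11_cls r τ (ld1d_ev_equivariant r X) hX' z hz hzl y hy hyl

theorem ld1d_pair11_eq
    (P : ↥(continuousH1 r X) →ₗ[ZMod p] Module.Dual (ZMod p) ↥(continuousH1 r (ld1_D r X)))
    (hP : ld1_IsPair11 r τ X P) : P = ld1d_P11 r τ (ld1d_ev_equivariant r X) hX' := by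
  apply LinearMap.ext
  intro u
  apply LinearMap.ext
  intro w
  obtain ⟨z, hz, hzl, rfl⟩ := ld1d_exists_cls r X u
  obtain ⟨y, hy, hyl, rfl⟩ := ld1d_exists_cls r (ld1_D r X) w
  rw [ld1d_P11_cls]
  exact hP z hz hzl y hy hyl _

end Compare

end Fermat.Agent.S55
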