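/-
S55 (Poitou-Tate), LOCAL side, packages [L-CUPLEVEL] and [L-PAIR-EX] of `Local/LD1Base.lean`.
Owner: helper12.  Prefix `ld1d_`.

Both are the first lemmas of the local devissage (`Local/LD1DevPair.lean`), restated VERBATIM in
the form of `LD1Base.lean`.
-/
import Mathlib
import Fermat.Agent.S55.Local.LD1Base
import Fermat.Agent.S55.Local.LD1DevPair

set_option autoImplicit false
set_option maxHeartbeats 1000000
set_option synthInstance.maxHeartbeats 400000
open CategoryTheory Module groupCohomology ExtCitation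

namespace Fermat.Agent.S55

/-- **[L-CUPLEVEL]** -/
theorem ld1d_cupLevel : ld1_CupLevelStatement := by
  intro p _ H _ r X _ hX
  have hX' : ld1d_Unif r (ld1_D r X) := ld1d_dual_uniform r X hX
  exact ⟨fun z y hz hzl hy hyl =>
      ld1d_cup₁₁_mem r (ld1d_ev_equivariant r X) hX' hz hzl hy hyl,
    fun c m hc hm => ld1d_cup₂₀_mem r (ld1d_ev_equivariant r X) hc hm⟩

/-- **[L-PAIR-EX]** -/
theorem ld1d_pairEx : ld1_PairExStatement := by
  intro p _ H _ r τ X _ hX
  have hX' : ld1d_Unif r (ld1_D r X) := ld1d_dual_uniform r X hX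
  exact ⟨⟨_, ld1d_isPair11 r τ X hX'⟩, ⟨_, ld1d_isPair20 r τ X⟩⟩

end Fermat.Agent.S55
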