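/-
S55 (wave 5), LOCAL side, package [LCD-BASE] (helper24).  Prefix `lcdb_`.

`lcdb_main : lcd_BaseOfStatement`, i.e. `lcf_H3MuStatement → lcd_BaseStatement`:
`H³_cts(ℚ_q, F_p[H/P]) = 0` for every open subgroup `P` of the local Galois group `H` on which
the cyclotomic character is trivial.

PROOF.  `z` a continuous 3-cocycle with values in `F_p[H/P]`.  Its component `z₀` at the
trivial coset, restricted to `P`, is a continuous 3-cocycle of `P` with values in `F_p` (trivial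
action); as `μ_p` is fixed by `P`, `ζ ^ z₀` is a smooth multiplicative 3-cocycle of `P` with
values in `μ_p`, hence `= d f` with `f` smooth, `μ_p`-valued ([H3-μ]); the logarithm of `f` is a
smooth 2-cochain `a₁` of `P` with `d a₁ = z₀`.  Shapiro's lemma in degree 3 (`lcdb_shapiro₃`, from
[SHAP-INJ 3]) with `N = Gal(Ω/N_f)`, `N_f` a finite normal extension containing the levels of
`z`, `f` and `P`, gives a 2-cochain `a`, constant mod `N`, with `d a = z`; by [KRASNER] `a` is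
level-constant in the Prelude's sense.
-/
import Mathlib
import Fermat.Agent.S55.Local.LD1Defs
import Fermat.Agent.S55.Local.LcdBaseShap
import Fermat.Agent.S55.Local.H3Mu
import Fermat.Agent.S55.Local.Krasner
import Fermat.Agent.S55.MuT
import Fermat.Agent.S55.UnrAbs1

set_option autoImplicit false
set_option maxHeartbeats 1000000
set_option synthInstance.maxHeartbeats 400000
set_option linter.style.haveILetI false
set_option linter.unusedVariables false

noncomputable section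

namespace Fermat.Agent.S55

open CategoryTheory Module groupCohomology ExtCitation

section Core

variable (p : ℕ) [Fact p.Prime] (q : ℕ) [Fact q.Prime]

/-- `P` fixes `μ_p`. -/
theorem lcdb_fix (P : Subgroup (lcf_Gal q))
    (hχ : ∀ s ∈ P, cycloChar p (localGaloisToGlobal q s) = 1) (g : ↥P) (a : ZMod p) :
    g • mut_expLoc p q a = mut_expLoc p q a := by
  have h := mut_expLoc_rho p q (g : lcf_Gal q) a
  rw [adm_T_ρ, hχ _ g.2, Units.val_one, one_smul] at h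
  exact h

theorem lcdb_expLoc_sub (a b : ZMod p) :
    mut_expLoc p q (a - b) = mut_expLoc p q a / mut_expLoc p q b :=
  (mut_isExp_loc p q).map_sub a b

theorem lcdb_core (hH3 : lcf_H3MuStatement) (P : Subgroup (lcf_Gal q))
    (hP : ld1_IsOpenSub (localGaloisToGlobal q) P)
    (hχ : ∀ s ∈ P, cycloChar p (localGaloisToGlobal q s) = 1) :
    lcd_Van (p := p) (localGaloisToGlobal q)
      (Rep.ofMulAction (ZMod p) (lcf_Gal q) (lcf_Gal q ⧸ P)) := by
  classical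
  intro z hzl hzc
  -- `P` is open
  obtain ⟨FP, hFP, hFPP⟩ := hP
  obtain ⟨EP, hEP, hEPF⟩ := kras_conv q FP hFP
  have hEPP : EP.fixingSubgroup ≤ P := fun s hs => hFPP s (hEPF s hs)
  have hPopen : lcf_IsOpen P := ⟨EP, hEP, hEPP⟩
  haveI : Finite (lcf_Gal q ⧸ P) :=
    Subgroup.quotient_finite_of_isOpen P (unr_abs_isOpen P hPopen)
  -- the level of `z`
  obtain ⟨Fz, hFz, hFzz⟩ := hzl
  obtain ⟨Ez, hEz, hEzF⟩ := kras_conv q Fz hFz
  -- the component at the trivial coset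
  set t₀ : lcf_Gal q ⧸ P := QuotientGroup.mk 1 with ht₀
  have hPt : ∀ g : lcf_Gal q, g ∈ P → g • t₀ = t₀ := by
    intro g hg
    rw [ht₀, MulAction.Quotient.smul_mk, smul_eq_mul, QuotientGroup.eq, mul_one, mul_one]
    exact P.inv_mem hg
  set C : shp_Coord (lcf_Gal q ⧸ P) (Rep.ofMulAction (ZMod p) (lcf_Gal q) (lcf_Gal q ⧸ P))
    (Rep.trivial (ZMod p) (lcf_Gal q) (ZMod p)) := lcdb_coord with hC
  set z₀ : lcf_Gal q × lcf_Gal q × lcf_Gal q → ZMod p := fun x => C.π t₀ (z x) with hz₀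
  have hz₀c : ∀ g h j l : lcf_Gal q, g ∈ P →
      z₀ (h, j, l) - z₀ (g * h, j, l) + z₀ (g, h * j, l) - z₀ (g, h, j * l) + z₀ (g, h, j) = 0 := by
    intro g h j l hg
    have h1 := congrArg (C.π t₀) (hzc g h j l)
    simp only [map_add, map_sub, map_zero] at h1
    rw [shin_π_stab C (hPt g hg)] at h1
    exact h1
  -- the multiplicative cocycle
  set Z : ↥P × ↥P × ↥P → (PadicAlgCl q)ˣ := fun x =>
    mut_expLoc p q (z₀ ((x.1 : lcf_Gal q), (x.2.1 : lcf_Gal q), (x.2.2 : lcf_Gal q))) with hZ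
  have hZc : lcf_IsMulCocycle₃ P Z := by
    intro g h j l
    simp only [hZ]
    rw [lcdb_fix p q P hχ, ← mut_expLoc_add, ← mut_expLoc_add, ← mut_expLoc_add]
    congr 1
    have h1 := hz₀c (g : lcf_Gal q) (h : lcf_Gal q) (j : lcf_Gal q) (l : lcf_Gal q) g.2
    simp only [Subgroup.coe_mul]
    linear_combination h1
  have hZs : lcf_Smooth₃ P Z := by
    refine ⟨Ez, hEz, fun g g' g'' s s' s'' hs hs' hs'' => ?_⟩
    simp only [hZ, hz₀, Subgroup.coe_mul]
    rw [hFzz _ _ _ _ _ _ (hEzF _ hs) (hEzF _ hs') (hEzF _ hs'')]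
  have hZp : ∀ x, Z x ^ p = 1 := fun x => mut_expLoc_pow p q _
  obtain ⟨f, hfs, hfp, hfd⟩ := hH3 q p P hPopen Z hZc hZs hZp
  -- the logarithm of `f`
  have hlog : ∀ x : ↥P × ↥P, ∃ a : ZMod p, mut_expLoc p q a = f x := fun x =>
    mut_expLoc_surj p q ((mem_rootsOfUnity _ _).2 (hfp x))
  choose a₁ ha₁ using hlog
  obtain ⟨Ef, hEf, hEff⟩ := hfs
  have ha₁s : ∀ g g' s s' : ↥P, (s : lcf_Gal q) ∈ Ef.fixingSubgroup →
      (s' : lcf_Gal q) ∈ Ef.fixingSubgroup → a₁ (g * s, g' * s') = a₁ (g, g') := by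
    intro g g' s s' hs hs'
    apply mut_expLoc_injective p q
    rw [ha₁, ha₁, hEff g g' s s' hs hs']
  have ha₁d : ∀ g h j : ↥P, z₀ ((g : lcf_Gal q), (h : lcf_Gal q), (j : lcf_Gal q)) =
      a₁ (h, j) - a₁ (g * h, j) + a₁ (g, h * j) - a₁ (g, h) := by
    intro g h j
    apply mut_expLoc_injective p q
    have h1 := congrFun hfd (g, h, j)
    simp only [lcf_d₂₃, hZ] at h1
    rw [← h1, ← ha₁, ← ha₁, ← ha₁, ← ha₁, lcdb_fix p q P hχ, ← mut_expLoc_add, ← mut_expLoc_add,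
      ← lcdb_expLoc_sub]
    congr 1
    ring
  -- extension by zero
  set a₀ : lcf_Gal q × lcf_Gal q → ZMod p := fun x =>
    if h : x.1 ∈ P ∧ x.2 ∈ P then a₁ (⟨x.1, h.1⟩, ⟨x.2, h.2⟩) else 0 with ha₀
  have ha₀e : ∀ (v w : lcf_Gal q) (hv : v ∈ P) (hw : w ∈ P), a₀ (v, w) = a₁ (⟨v, hv⟩, ⟨w, hw⟩) := by
    intro v w hv hw
    simp only [ha₀]
    rw [dif_pos ⟨hv, hw⟩]
  -- the normal level
  haveI : FiniteDimensional ℚ_[q] ↥EP := hEP
  haveI : FiniteDimensional ℚ_[q] ↥Ez := hEz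
  haveI : FiniteDimensional ℚ_[q] ↥Ef := hEf
  haveI h2 : FiniteDimensional ℚ_[q] ↥(EP ⊔ Ez) := IntermediateField.finiteDimensional_sup EP Ez
  have h3 : FiniteDimensional ℚ_[q] ↥(EP ⊔ Ez ⊔ Ef) := IntermediateField.finiteDimensional_sup _ Ef
  obtain ⟨Nf, hNfin, hNnorm, hEN, -⟩ := lh3m_exists_normal (EP ⊔ Ez ⊔ Ef) h3 ∅ Set.finite_empty
  have hNP' : Nf.fixingSubgroup ≤ EP.fixingSubgroup :=
    IntermediateField.fixingSubgroup_antitone ((le_sup_left.trans le_sup_left).trans hEN)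
  have hNz : Nf.fixingSubgroup ≤ Ez.fixingSubgroup :=
    IntermediateField.fixingSubgroup_antitone ((le_sup_right.trans le_sup_left).trans hEN)
  have hNf' : Nf.fixingSubgroup ≤ Ef.fixingSubgroup :=
    IntermediateField.fixingSubgroup_antitone (le_sup_right.trans hEN)
  haveI hNn : (Nf.fixingSubgroup).Normal := ⟨fun n hn g => by
    have h := lh3m_conj_mem Nf g⁻¹ n hn
    rwa [inv_inv] at h⟩
  have hNP : Nf.fixingSubgroup ≤ P := hNP'.trans hEPP
  -- Shapiro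
  obtain ⟨a, hac, had⟩ := lcdb_shapiro₃ (k := ZMod p) P Nf.fixingSubgroup hNP z
    (fun x => hzc x.1 x.2.1 x.2.2.1 x.2.2.2)
    (fun g g' g'' s s' s'' hs hs' hs'' =>
      hFzz g g' g'' s s' s'' (hEzF s (hNz hs)) (hEzF s' (hNz hs')) (hEzF s'' (hNz hs'')))
    a₀
    (fun v w n n' hv hw hn hn' => by
      rw [ha₀e (v * n) (w * n') (P.mul_mem hv (hNP hn)) (P.mul_mem hw (hNP hn')), ha₀e v w hv hw]
      exact ha₁s ⟨v, hv⟩ ⟨w, hw⟩ ⟨n, hNP hn⟩ ⟨n', hNP hn'⟩ (hNf' hn) (hNf' hn'))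
    (fun u v w hu hv hw => by
      rw [ha₀e v w hv hw, ha₀e (u * v) w (P.mul_mem hu hv) hw, ha₀e u (v * w) hu (P.mul_mem hv hw),
        ha₀e u v hu hv]
      exact ha₁d ⟨u, hu⟩ ⟨v, hv⟩ ⟨w, hw⟩)
  obtain ⟨F, hF, hFN⟩ := kras_main q Nf hNfin
  refine ⟨a, ⟨F, hF, fun g g' s s' hs hs' => hac g g' s s' (hFN s hs) (hFN s' hs')⟩, ?_⟩
  funext x
  obtain ⟨g, h, j⟩ := x
  rw [d₂₃_hom_apply]
  exact had (g, h, j)

end Core

/-- **[LCD-BASE]** -/
theorem lcdb_main : lcd_BaseOfStatement := fun hH3 p _ _ S q P hP hχ =>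
  lcdb_core p (q.1 : ℕ) hH3 P hP hχ

end Fermat.Agent.S55
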