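/-
S55 (wave 5), LOCAL side, package [LCD-ASM] (helper27): assembly of [LCD] = `pt_LCDStatement`
from [LCD-DEV] and [LCD-BASE]; the archimedean place is `larch_LCD_inl` (`Local/Arch.lean`).
Prefix `lcda_`.
-/
import Mathlib
import Fermat.Agent.S55.Local.LD1Defs
import Fermat.Agent.S55.Local.Arch

set_option autoImplicit false
set_option maxHeartbeats 1000000
set_option synthInstance.maxHeartbeats 400000
open CategoryTheory Module groupCohomology ExtCitation

namespace Fermat.Agent.S55

/-- The restriction of a smooth module to a local group is smooth. -/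
theorem lcda_adm_res {p : ℕ} [Fact p.Prime] {H : Type} [Group H] (r : H →* s55_GQ)
    (M : Rep.{0, 0, 0} (ZMod p) s55_GQ) (hsm : s55_Smooth M) : ld1_Adm r (Rep.res r M) := by
  intro x
  obtain ⟨F, hF, h⟩ := hsm x
  exact ⟨F, hF, fun s hs => h (r s) hs⟩

/-- **[LCD-ASM]** `lcd_AsmStatement`. -/
theorem lcda_main : lcd_AsmStatement := by
  intro hDev hBase
  refine larch_LCD_of_finite ?_
  intro p _ hp S hS M _ hsm hur v q hv z hlev hz
  subst hv
  have : FiniteDimensional (ZMod p) ↥(Rep.res (extArithLoc S (Sum.inr q)) M) :=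
    inferInstanceAs (FiniteDimensional (ZMod p) M)
  exact hDev (extArithLocalGroups S (Sum.inr q)) (extArithLoc S (Sum.inr q))
    (fun P hP hcyc => hBase hp S q P hP hcyc) (Rep.res (extArithLoc S (Sum.inr q)) M)
    (lcda_adm_res _ M hsm) z hlev hz

/-- **[LCD]** from [LCD-BASE], with `lcd_DevStatement` supplied by the caller. -/
theorem lcda_LCD_of (hDev : lcd_DevStatement) (hBase : lcd_BaseStatement) : pt_LCDStatement :=
  lcda_main hDev hBase

end Fermat.Agent.S55
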