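/-
S55 (wave 5), LOCAL side (helper27): [LCD] = `pt_LCDStatement` from [LCD-BASE] alone
(`lcdd_main` and `lcda_main` plugged in).  Prefix `lcdf_`.
-/
import Mathlib
import Fermat.Agent.S55.Local.LcdDevMain
import Fermat.Agent.S55.Local.LcdAsm

set_option autoImplicit false
open CategoryTheory Module groupCohomology ExtCitation

namespace Fermat.Agent.S55

/-- **[LCD]** from [LCD-BASE]. -/
theorem lcdf_LCD_of_base (hBase : lcd_BaseStatement) : pt_LCDStatement :=
  lcda_main lcdd_main hBase

/-- **[LCD]** from [LCD-BASE-OF] and [H3-μ]. -/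
theorem lcdf_LCD_of_H3Mu (hBO : lcd_BaseOfStatement) (h3 : lcf_H3MuStatement) :
    pt_LCDStatement :=
  lcdf_LCD_of_base (hBO h3)

end Fermat.Agent.S55
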