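/-
S55 (wave 5), LOCAL side: THE WIRING of the four local hypotheses of `fin55_kappa`
([L-INV] `lcf_InvStatement`, [PTINV] `ld_PtInvStatement`, [LD1] `ld_LD1Statement`,
[LCD] `pt_LCDStatement`) from the landed leaf theorems and the still-open packages
(as hypotheses).  Owner: helper3.  Prefix `lw_`.
-/
import Fermat.Agent.S55.Local.InvBuild
import Fermat.Agent.S55.Local.ConjUnr
import Fermat.Agent.S55.Local.Unif
import Fermat.Agent.S55.Local.UnrInj
import Fermat.Agent.S55.Local.SplitAsm
import Fermat.Agent.S55.Local.SplLevel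
import Fermat.Agent.S55.Local.SplInfRes
import Fermat.Agent.S55.Local.SplCountFin
import Fermat.Agent.S55.Local.H3Mu
import Fermat.Agent.S55.Local.PtInv
import Fermat.Agent.S55.Local.FinKpHom
import Fermat.Agent.S55.Local.LD1Base
import Fermat.Agent.S55.Bridge.ShapInj1
import Fermat.Agent.S55.Bridge.ShapInj2
import Fermat.Agent.S55.Bridge.ShapSurj
import Fermat.Agent.S55.Bridge.ShapTrInvFin
import Fermat.Agent.S55.UnrAbs4

set_option autoImplicit false

namespace Fermat.Agent.S55

/-- [SPLIT] from [RES-UNR]. -/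
theorem lw_split (hRU : lcf_ResUnrStatement) : lcf_SplitStatement :=
  spl_main_of spll_main splm_main (spl_gen_of_count splc_count) hRU unr_abs_unrChar lunif_main
    uinj_main

/-- [L-INV] from [RES-UNR] and [UNR-CLASS]. -/
theorem lw_inv (hRU : lcf_ResUnrStatement) (hUC : lcf_UnrClassStatement) : lcf_InvStatement :=
  linv_main (lw_split hRU) hUC unr_abs_unrChar lunif_main hRU lconj_main

/-- [LCD] from [L-INV], [H3-Ω] and the three [LCD] packages. -/
theorem lw_lcd (hINV : lcf_InvStatement) (hH3 : lcf_H3OmegaStatement)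
    (hDev : lcd_DevStatement) (hBase : lcd_BaseOfStatement) (hAsm : lcd_AsmStatement) :
    pt_LCDStatement :=
  hAsm hDev (hBase (lh3m_main hINV hH3))

/-- [LB-PERM11] from its assembly and [V11]. -/
theorem lw_perm11 (hCL : ld1_CupLevelStatement) (hPE : ld1_PairExStatement)
    (hV11 : lcf_V11Statement) (hOf : ld1_Perm11OfStatement) : ld1_Perm11Statement :=
  hOf hCL hPE shin_main₁ shsu_main₁ shtr_fin hV11 lfk_finHom

/-- [LB-PERM20] from its assembly and [V20]. -/
theorem lw_perm20 (hCL : ld1_CupLevelStatement) (hPE : ld1_PairExStatement)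
    (hVI : lcf_V20InjStatement) (hVS : lcf_V20SurjStatement) (hOf : ld1_Perm20OfStatement) :
    ld1_Perm20Statement :=
  hOf hCL hPE shin_main₂ shsu_main₀ shsu_main₂ shtr_fin hVI hVS

/-- [LD1] from the open packages. -/
theorem lw_ld1 (hDev : ld1_DevStatement) (hAsm : ld1_AsmStatement)
    (hCover : ld1_CoverStatement) (hPA : ld1_PermAdmStatement) (hBA : ld1_BaseAsmStatement)
    (hCL : ld1_CupLevelStatement) (hPE : ld1_PairExStatement)
    (hV11 : lcf_V11Statement) (hVI : lcf_V20InjStatement) (hVS : lcf_V20SurjStatement)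
    (hP11 : ld1_Perm11OfStatement) (hP20 : ld1_Perm20OfStatement) : ld_LD1Statement :=
  hAsm hDev (hBA hCover hPA (lw_perm11 hCL hPE hV11 hP11) (lw_perm20 hCL hPE hVI hVS hP20))

/-- [PTINV] (closed). -/
theorem lw_ptinv : ld_PtInvStatement := ptinv_main

end Fermat.Agent.S55
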