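/-
S55 (wave 5), LOCAL side: THE CLOSED LOCAL HYPOTHESES of `fin55_kappa`.
Owner: helper3.  Prefix `lwf_`.

* `lwf_inv   : lcf_InvStatement`    ([L-INV], hypothesis-free);
* `lwf_ptinv : ld_PtInvStatement`   ([PTINV], hypothesis-free);
* `lwf_lcd   : pt_LCDStatement`     ([LCD], hypothesis-free);
* `lwf_ld1_of : ld1_Perm11OfStatement → ld1_Perm20OfStatement → ld_LD1Statement`
  ([LD1] from the two Shapiro assemblies, everything else plugged in).
-/
import Fermat.Agent.S55.Local.Wire
import Fermat.Agent.S55.Local.SplitFin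
import Fermat.Agent.S55.Local.H3OmegaMain
import Fermat.Agent.S55.Local.LcdFin
import Fermat.Agent.S55.Local.LcdBase
import Fermat.Agent.S55.Local.LD1Asm
import Fermat.Agent.S55.Local.LD1PairEx
import Fermat.Agent.S55.Local.LBCover
import Fermat.Agent.S55.Local.LBPermAdm
import Fermat.Agent.S55.Local.LBAsm
import Fermat.Agent.S55.Local.V11
import Fermat.Agent.S55.Local.V20

set_option autoImplicit false

namespace Fermat.Agent.S55

/-- **[L-INV]**: the local invariant system exists. -/
theorem lwf_inv : lcf_InvStatement := spl_inv_fin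

/-- **[H3-Ω]**. -/
theorem lwf_h3Omega : lcf_H3OmegaStatement := lh3_main lwf_inv

/-- **[H3-μ]**. -/
theorem lwf_h3Mu : lcf_H3MuStatement := lh3m_main lwf_inv lwf_h3Omega

/-- **[LCD]**: local cohomological dimension. -/
theorem lwf_lcd : pt_LCDStatement := lcdf_LCD_of_H3Mu lcdb_main lwf_h3Mu

/-- **[PTINV]**. -/
theorem lwf_ptinv : ld_PtInvStatement := ptinv_main

/-- **[LB-PERM11]** from its Shapiro assembly. -/
theorem lwf_perm11_of (hOf : ld1_Perm11OfStatement) : ld1_Perm11Statement :=
  lw_perm11 ld1d_cupLevel ld1d_pairEx lv11_main hOf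

/-- **[LB-PERM20]** from its Shapiro assembly. -/
theorem lwf_perm20_of (hOf : ld1_Perm20OfStatement) : ld1_Perm20Statement :=
  lw_perm20 ld1d_cupLevel ld1d_pairEx lv20_inj lv20_surj hOf

/-- **[L-BASE]** from the two Shapiro assemblies. -/
theorem lwf_base_of (hP11 : ld1_Perm11OfStatement) (hP20 : ld1_Perm20OfStatement) :
    ld1_BaseStatement :=
  lba_main lbc_main lbp_main (lwf_perm11_of hP11) (lwf_perm20_of hP20)

/-- **[LD1]** from the two Shapiro assemblies. -/
theorem lwf_ld1_of (hP11 : ld1_Perm11OfStatement) (hP20 : ld1_Perm20OfStatement) :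
    ld_LD1Statement :=
  ld1a_main ld1d_main (lwf_base_of hP11 hP20)

end Fermat.Agent.S55
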