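/-
S55 (wave 5), LOCAL side, package [LB-PERM11-OF] = `ld1_Perm11OfStatement` of `Local/LD1Base.lean`.
Owner: helper8.  Prefix `p11_`.  Export: `p11_main : ld1_Perm11OfStatement`.

SETTING.  `Γ = Gal(Ω/ℚ_q)`, `r = localGaloisToGlobal q`, `Z` a finite `Γ`-set with smooth action
whose stabilizers fix `μ_p`, `M = F_p[Z]`, `M' = ld1_D r M` its Tate dual, with the coordinate
systems `lcdb_coord` (`π_z`, `B = F_p`) and `pco_coord'` (`π'_z`, `B = F_p(1)`), `T` a set of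
representatives of the orbits (`pco_exists_reps`).

* `p11_inj` (SHAP-INJ 1): a continuous cocycle `y` of `Γ` in `M'` with `π'_t ∘ y = 0` on
  `Stab t` for all `t ∈ T` is a coboundary;
* `p11_char`, `p11_finite` ([FIN-HOM]): `[y] ↦ (π'_t ∘ y|_{Stab t})_t` embeds `H¹_cts(M')` in a
  finite product of finite sets of smooth characters;
* `p11_F` : the coordinates `F_z (g, h) = ζ ^ (π_z (x g) * π'_z (g (y h)))` of `ζ ^ (x ∪ y)`;
  product formula `p11_F_prod`, cocycle identity `p11_F_cocycle`, smoothness `p11_F_smooth`,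
  restriction to the stabilizers `p11_F_stab`;
* `p11_nondeg` : if `[y] ≠ 0`, some component `y_{t₀}` is nonzero; [V11] gives `θ`, SHAP-SURJ 1
  gives `x` with components `θ` at `t₀` and `0` elsewhere, and by [TR-INV] and the compatibility
  of `τ` with `inv`, `inv (ζ ^ (x ∪ y)) = inv_{Stab t₀} (ζ ^ (θ ∪ y_{t₀})) ≠ 0`, so
  `τ [x ∪ y] ≠ 0`;
* `p11_core`, `p11_main` : conclusion with `asm_surjective_of_nondeg`.
-/
import Mathlib
import Fermat.Agent.S55.Local.PermCoord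
import Fermat.Agent.S55.Local.LBPermAdm
import Fermat.Agent.S55.Assembly

set_option autoImplicit false
set_option maxHeartbeats 1000000
set_option synthInstance.maxHeartbeats 400000
set_option linter.style.haveILetI false
set_option linter.unusedVariables false
set_option linter.unusedSectionVars false

noncomputable section

namespace Fermat.Agent.S55

open CategoryTheory Module groupCohomology ExtCitation

section Core

variable (p q : ℕ) [Fact p.Prime] [Fact q.Prime]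
variable (Z : Type) [Fintype Z] [MulAction (lcf_Gal q) Z]

local notation "Γq" => lcf_Gal q
local notation "rq" => localGaloisToGlobal q
local notation "Mq" => Rep.ofMulAction (ZMod p) (lcf_Gal q) Z
local notation "Dq" => ld1_D (localGaloisToGlobal q) (Rep.ofMulAction (ZMod p) (lcf_Gal q) Z)

/-- **Injectivity** (SHAP-INJ 1): a continuous cocycle with values in the Tate dual of `F_p[Z]`
whose Shapiro components on the stabilizers of a covering set vanish is a coboundary. -/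
theorem p11_inj (hInj : shp_Inj₁Statement) (hZ : ld1_SmoothAct rq Z)
    (hχ : ld1_ChiTriv rq p Z) (T : Set Z) (hT : shp_Covers Γq T)
    (y : Γq → Dq) (hy : y ∈ cocycles₁ Dq) (hyl : IsLevelConstant₁ rq y)
    (h0 : ∀ t ∈ T, ∀ v : ↥(MulAction.stabilizer Γq t),
      (pco_coord' (p := p) rq Z).π t (y v) = 0) :
    ∃ m : Dq, (d₀₁ Dq).hom m = y := by
  obtain ⟨EZ, hEZ, hEZfix⟩ := pco_smooth_local Z hZ
  obtain ⟨Fy, hFy, hFyy⟩ := hyl
  obtain ⟨Ey, hEy, hEyF⟩ := kras_conv q Fy hFy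
  haveI : FiniteDimensional ℚ_[q] ↥EZ := hEZ
  haveI : FiniteDimensional ℚ_[q] ↥Ey := hEy
  have hsup : FiniteDimensional ℚ_[q] ↥(EZ ⊔ Ey) := IntermediateField.finiteDimensional_sup EZ Ey
  obtain ⟨N, hNn, hNE, -, -⟩ := pco_exists_level (EZ ⊔ Ey) hsup
  haveI := hNn
  have hNZ : ∀ s ∈ N, ∀ x : Z, s • x = x := fun s hs x =>
    hEZfix s (IntermediateField.fixingSubgroup_antitone le_sup_left (hNE hs)) x
  have hcoc := (mem_cocycles₁_iff y).1 hy
  obtain ⟨m, hm⟩ := hInj (ZMod p) Γq Z Dq (ld1_T (p := p) rq) (pco_coord' (p := p) rq Z) N hNZ T hT y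
    (fun x => by
      show (Dq).ρ x.1 (y x.2) - y (x.1 * x.2) + y x.1 = 0
      rw [hcoc x.1 x.2]
      abel)
    (fun g s hs => hFyy g s (hEyF s
      (IntermediateField.fixingSubgroup_antitone le_sup_right (hNE hs))))
    (fun _ => 0)
    (fun t ht v => by
      rw [h0 t ht v]
      show (0 : ld1_T (p := p) rq) = (ld1_T (p := p) rq).ρ _ 0 - 0
      rw [map_zero, sub_zero])
  refine ⟨m, ?_⟩
  funext g
  rw [d₀₁_hom_apply]
  exact hm g

/-! ### The Shapiro components -/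

/-- The Shapiro component at `t` of a cochain with values in the Tate dual. -/
def p11_comp (y : Γq → Dq) (t : Z) : ↥(MulAction.stabilizer Γq t) → ZMod p :=
  fun v => (pco_coord' (p := p) rq Z).π t (y v)

theorem p11_comp_apply (y : Γq → Dq) (t : Z) (v : ↥(MulAction.stabilizer Γq t)) :
    p11_comp p q Z y t v = (pco_coord' (p := p) rq Z).π t (y v) := rfl

theorem p11_comp_add (hχ : ld1_ChiTriv rq p Z) (y : Γq → Dq) (hy : y ∈ cocycles₁ Dq) (t : Z)
    (g h : ↥(MulAction.stabilizer Γq t)) :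
    p11_comp p q Z y t (g * h) = p11_comp p q Z y t g + p11_comp p q Z y t h := by
  have hcoc := (mem_cocycles₁_iff y).1 hy (g : Γq) (h : Γq)
  rw [p11_comp_apply, p11_comp_apply, p11_comp_apply, Subgroup.coe_mul, hcoc, map_add,
    pco_π'_ρ_stab rq Z hχ t (g : Γq) (MulAction.mem_stabilizer_iff.1 g.2), add_comm]

theorem p11_comp_smooth (y : Γq → Dq) (hyl : IsLevelConstant₁ rq y) (t : Z) :
    lcf_Smooth₁ (MulAction.stabilizer Γq t) (p11_comp p q Z y t) := by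
  obtain ⟨E, hE, h⟩ := kras_smooth₁_of_level (MulAction.stabilizer Γq t) y hyl
  exact ⟨E, hE, fun g s hs => congrArg ((pco_coord' (p := p) rq Z).π t) (h g s hs)⟩

/-- The Shapiro component as a character. -/
def p11_char (hχ : ld1_ChiTriv rq p Z) (y : Γq → Dq) (hy : y ∈ cocycles₁ Dq) (t : Z) :
    ↥(MulAction.stabilizer Γq t) →* Multiplicative (ZMod p) where
  toFun v := Multiplicative.ofAdd (p11_comp p q Z y t v)
  map_one' := by
    have h := p11_comp_add p q Z hχ y hy t 1 1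
    rw [mul_one] at h
    have h0 : p11_comp p q Z y t 1 = 0 := by
      have := congrArg (fun a => a - p11_comp p q Z y t 1) h
      simpa using this.symm
    rw [h0]
    rfl
  map_mul' g h := by
    rw [p11_comp_add p q Z hχ y hy t g h]
    rfl

theorem p11_char_apply (hχ : ld1_ChiTriv rq p Z) (y : Γq → Dq) (hy : y ∈ cocycles₁ Dq) (t : Z)
    (v : ↥(MulAction.stabilizer Γq t)) :
    p11_char p q Z hχ y hy t v = Multiplicative.ofAdd (p11_comp p q Z y t v) := rfl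

theorem p11_char_smooth (hχ : ld1_ChiTriv rq p Z) (y : Γq → Dq) (hy : y ∈ cocycles₁ Dq)
    (hyl : IsLevelConstant₁ rq y) (t : Z) :
    lcf_Smooth₁ (MulAction.stabilizer Γq t) (p11_char p q Z hχ y hy t) := by
  obtain ⟨E, hE, h⟩ := p11_comp_smooth p q Z y hyl t
  exact ⟨E, hE, fun g s hs => congrArg Multiplicative.ofAdd (h g s hs)⟩

theorem p11_level_sub {X : Type} [AddGroup X] {y y' : Γq → X} (h : IsLevelConstant₁ rq y)
    (h' : IsLevelConstant₁ rq y') : IsLevelConstant₁ rq (y - y') := by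
  have h1 := h.add (h'.comp (fun t => -t))
  have h2 : y + (fun t => -t) ∘ y' = y - y' := by
    funext g
    simp [sub_eq_add_neg]
  rwa [h2] at h1

/-- Two continuous cocycles with the same Shapiro components have the same class. -/
theorem p11_cls_eq (hInj : shp_Inj₁Statement) (hZ : ld1_SmoothAct rq Z)
    (hχ : ld1_ChiTriv rq p Z) (T : Set Z) (hT : shp_Covers Γq T)
    (y y' : Γq → Dq) (hy : y ∈ cocycles₁ Dq) (hyl : IsLevelConstant₁ rq y)
    (hy' : y' ∈ cocycles₁ Dq) (hyl' : IsLevelConstant₁ rq y')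
    (h : ∀ t ∈ T, ∀ v : ↥(MulAction.stabilizer Γq t),
      (pco_coord' (p := p) rq Z).π t (y v) = (pco_coord' (p := p) rq Z).π t (y' v)) :
    ld1_cls1 rq Dq y hy hyl = ld1_cls1 rq Dq y' hy' hyl' := by
  obtain ⟨m, hm⟩ := p11_inj p q Z hInj hZ hχ T hT (y - y') (Submodule.sub_mem _ hy hy')
    (p11_level_sub q hyl hyl') (fun t ht v => by
      rw [Pi.sub_apply, map_sub, h t ht v, sub_self])
  apply Subtype.ext
  show (H1π Dq).hom ⟨y, hy⟩ = (H1π Dq).hom ⟨y', hy'⟩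
  rw [← sub_eq_zero, ← map_sub, H1π_eq_zero_iff]
  exact ⟨m, hm⟩

/-- **Finiteness** of `H¹_cts` of the Tate dual of `F_p[Z]` (SHAP-INJ 1 + [FIN-HOM]). -/
theorem p11_finite (hInj : shp_Inj₁Statement) (hFin : lcf_FinHomStatement)
    (hZ : ld1_SmoothAct rq Z) (hχ : ld1_ChiTriv rq p Z) :
    Finite ↥(continuousH1 rq Dq) := by
  classical
  obtain ⟨T, hTc, -⟩ := pco_exists_reps Γq Z
  have hex := fun η : ↥(continuousH1 rq Dq) => ld1d_exists_cls rq Dq η
  choose z hz hzl hη using hex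
  let Φ : ↥(continuousH1 rq Dq) → (∀ t : ↥T,
      ↥{θ : ↥(MulAction.stabilizer Γq t.1) →* Multiplicative (ZMod p) |
        lcf_Smooth₁ (MulAction.stabilizer Γq t.1) θ}) :=
    fun η t => ⟨p11_char p q Z hχ (z η) (hz η) t.1, p11_char_smooth p q Z hχ (z η) (hz η) (hzl η) t.1⟩
  haveI : ∀ t : ↥T, Finite ↥{θ : ↥(MulAction.stabilizer Γq t.1) →* Multiplicative (ZMod p) |
      lcf_Smooth₁ (MulAction.stabilizer Γq t.1) θ} := fun t =>
    (hFin q p (MulAction.stabilizer Γq t.1) (pco_stab_isOpen Z hZ t.1)).to_subtype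
  refine Finite.of_injective Φ ?_
  intro η η' h
  rw [hη η, hη η']
  refine p11_cls_eq p q Z hInj hZ hχ (T : Set Z) hTc _ _ _ _ _ _ fun t ht v => ?_
  have h1 := congrFun h ⟨t, ht⟩
  have h2 : p11_char p q Z hχ (z η) (hz η) t = p11_char p q Z hχ (z η') (hz η') t :=
    congrArg Subtype.val h1
  have h3 := DFunLike.congr_fun h2 v
  rw [p11_char_apply, p11_char_apply] at h3
  exact Multiplicative.ofAdd.injective h3

/-! ### The cup product in coordinates -/

/-- Permutation modules of finite sets are finite dimensional. -/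
theorem p11_fd : FiniteDimensional (ZMod p) Mq :=
  Module.Finite.equiv (MonoidAlgebra.coeffLinearEquiv (M := Z) (S := ZMod p) (ZMod p)).symm

/-- The coordinates of `ζ ^ (x ∪ y)`. -/
def p11_F (x : Γq → Mq) (y : Γq → Dq) : Γq × Γq → Z → (PadicAlgCl q)ˣ :=
  fun g z => ptinv_exp p q
    (((lcdb_coord (k := ZMod p) (Γ := Γq) (X := Z)).π z (x g.1) : ZMod p) *
      ((pco_coord' (p := p) rq Z).π z ((Dq).ρ g.1 (y g.2)) : ZMod p))

theorem p11_F_apply (x : Γq → Mq) (y : Γq → Dq) (g h : Γq) (z : Z) :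
    p11_F p q Z x y (g, h) z = ptinv_exp p q
      (((lcdb_coord (k := ZMod p) (Γ := Γq) (X := Z)).π z (x g) : ZMod p) *
        ((pco_coord' (p := p) rq Z).π z ((Dq).ρ g (y h)) : ZMod p)) := rfl

theorem p11_F_prod (x : Γq → Mq) (y : Γq → Dq) (g : Γq × Γq) :
    ∏ z : Z, p11_F p q Z x y g z =
      ptinv_exp p q (cup₁₁ (ld1_ev rq Mq) x y g : ZMod p) := by
  have h1 : (cup₁₁ (ld1_ev rq Mq) x y g : ZMod p) =
      ∑ z : Z, ((lcdb_coord (k := ZMod p) (Γ := Γq) (X := Z)).π z (x g.1) : ZMod p) *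
        ((pco_coord' (p := p) rq Z).π z ((Dq).ρ g.1 (y g.2)) : ZMod p) :=
    pco_ev_sum rq Z (x g.1) ((Dq).ρ g.1 (y g.2))
  rw [h1, pco_exp_sum]
  rfl

theorem p11_F_cocycle (x : Γq → Mq) (hx : x ∈ cocycles₁ Mq) (y : Γq → Dq)
    (hy : y ∈ cocycles₁ Dq) (g h j : Γq) (z : Z) :
    p11_F p q Z x y (g * h, j) z * p11_F p q Z x y (g, h) z =
      g • p11_F p q Z x y (h, j) (g⁻¹ • z) * p11_F p q Z x y (g, h * j) z := by
  have hxc := (mem_cocycles₁_iff x).1 hx g h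
  have hyc := (mem_cocycles₁_iff y).1 hy h j
  rw [p11_F_apply, p11_F_apply, p11_F_apply, p11_F_apply, ptinv_smul_exp, ← ptinv_exp_add,
    ← ptinv_exp_add]
  congr 1
  rw [hxc, hyc, map_add, map_add, map_add, pco_π_ρ Z g z (x h)]
  have e1 : (Dq).ρ (g * h) (y j) = (Dq).ρ g ((Dq).ρ h (y j)) := by
    rw [map_mul]
    rfl
  rw [e1, pco_π'_ρ rq Z g z ((Dq).ρ h (y j))]
  ring

theorem p11_F_smooth (hZ : ld1_SmoothAct rq Z) (x : Γq → Mq) (hxl : IsLevelConstant₁ rq x)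
    (y : Γq → Dq) (hyl : IsLevelConstant₁ rq y) :
    ∃ E : IntermediateField ℚ_[q] (PadicAlgCl q), FiniteDimensional ℚ_[q] E ∧
      ∀ g g' s s' : Γq, s ∈ E.fixingSubgroup → s' ∈ E.fixingSubgroup →
        p11_F p q Z x y (g * s, g' * s') = p11_F p q Z x y (g, g') := by
  haveI := p11_fd p q Z
  have hAdm : ld1_Adm rq Mq := lbp_main (p := p) Γq rq Z hZ
  obtain ⟨FD, hFD, hFDfix⟩ := ld1d_dual_uniform rq Mq hAdm
  obtain ⟨Fx, hFx, hFxx⟩ := hxl
  obtain ⟨Fy, hFy, hFyy⟩ := hyl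
  haveI := hFD
  haveI := hFx
  haveI := hFy
  have hsup : FiniteDimensional ℚ ↥(FD ⊔ Fx ⊔ Fy) := inferInstance
  obtain ⟨E, hE, hEF⟩ := kras_conv q (FD ⊔ Fx ⊔ Fy) hsup
  refine ⟨E, hE, fun g g' s s' hs hs' => ?_⟩
  have hsD : rq s ∈ FD.fixingSubgroup :=
    IntermediateField.fixingSubgroup_antitone (le_sup_left.trans le_sup_left) (hEF s hs)
  have hsx : rq s ∈ Fx.fixingSubgroup :=
    IntermediateField.fixingSubgroup_antitone (le_sup_right.trans le_sup_left) (hEF s hs)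
  have hsy : rq s' ∈ Fy.fixingSubgroup :=
    IntermediateField.fixingSubgroup_antitone le_sup_right (hEF s' hs')
  funext z
  rw [p11_F_apply, p11_F_apply, hFxx g s hsx, hFyy g' s' hsy]
  have e1 : (Dq).ρ (g * s) (y g') = (Dq).ρ g ((Dq).ρ s (y g')) := by
    rw [map_mul]
    rfl
  rw [e1, hFDfix s hsD]

/-- On the stabilizer of `t` the coordinate at `t` of `ζ ^ (x ∪ y)` is `ζ ^ (x_t ∪ y_t)`. -/
theorem p11_F_stab (hχ : ld1_ChiTriv rq p Z) (x : Γq → Mq) (y : Γq → Dq) (t : Z)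
    (g h : ↥(MulAction.stabilizer Γq t)) :
    p11_F p q Z x y ((g : Γq), (h : Γq)) t = ptinv_exp p q
      (((lcdb_coord (k := ZMod p) (Γ := Γq) (X := Z)).π t (x g) : ZMod p) *
        p11_comp p q Z y t h) := by
  rw [p11_F_apply, pco_π'_ρ_stab rq Z hχ t (g : Γq) (MulAction.mem_stabilizer_iff.1 g.2)]
  rfl

/-! ### Non-degeneracy -/

/-- **Right non-degeneracy** of the cup product pairing for `F_p[Z]`. -/
theorem p11_nondeg (hCup : ld1_CupLevelStatement) (hInj : shp_Inj₁Statement)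
    (hSurj : shp_Surj₁Statement) (hTr : shp_TrInvStatement) (hV11 : lcf_V11Statement)
    (inv : lcf_InvType) (hinv : lcf_IsInvSystem inv) (hp2 : p ≠ 2) (τ : ld1_Tau p rq)
    (hτ : ∀ (f : Γq × Γq → ld1_T (p := p) rq) (hf : f ∈ levelCocycles₂ rq (ld1_T (p := p) rq)),
      inv q ⊤ (fun x : ↥(⊤ : Subgroup Γq) × ↥(⊤ : Subgroup Γq) =>
        ptinv_exp p q (f ((x.1 : Γq), (x.2 : Γq)) : ZMod p)) =
        lcf_qz ((ZMod.val (τ (continuousH2π _ _ ⟨f, hf⟩)) : ℚ) / (p : ℚ)))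
    (hZ : ld1_SmoothAct rq Z) (hχ : ld1_ChiTriv rq p Z)
    (y : Γq → Dq) (hy : y ∈ cocycles₁ Dq) (hyl : IsLevelConstant₁ rq y)
    (hne : ld1_cls1 rq Dq y hy hyl ≠ 0) :
    ∃ (x : Γq → Mq) (hx : x ∈ cocycles₁ Mq) (hxl : IsLevelConstant₁ rq x)
      (hcoc : cup₁₁ (ld1_ev rq Mq) x y ∈ levelCocycles₂ rq (ld1_T (p := p) rq)),
      τ (continuousH2π _ _ ⟨_, hcoc⟩) ≠ 0 := by
  classical
  haveI := p11_fd p q Z
  have hAdm : ld1_Adm rq Mq := lbp_main (p := p) Γq rq Z hZ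
  obtain ⟨T, hTc, hTi⟩ := pco_exists_reps Γq Z
  -- a nonzero component
  have hex : ∃ t₀ ∈ T, p11_comp p q Z y t₀ ≠ 0 := by
    by_contra hcon0
    have hcon : ∀ t ∈ T, p11_comp p q Z y t = 0 := fun t ht => by
      by_contra h
      exact hcon0 ⟨t, ht, h⟩
    obtain ⟨m, hm⟩ := p11_inj p q Z hInj hZ hχ (T : Set Z) hTc y hy hyl (fun t ht v => by
      have := congrFun (hcon t ht) v
      exact this)
    exact hne (Subtype.ext ((H1π_eq_zero_iff ⟨y, hy⟩).2 ⟨m, hm⟩))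
  obtain ⟨t₀, ht₀, hy₀⟩ := hex
  -- the character `θ`
  have hU : lcf_IsOpen (MulAction.stabilizer Γq t₀) := pco_stab_isOpen Z hZ t₀
  obtain ⟨θ, hθs, hθa, hθinv⟩ := hV11 inv hinv q p hp2 (MulAction.stabilizer Γq t₀) hU
    (ld_zetaLoc p q) (pco_zeta_prim p q) (pco_zeta_fix p Z hχ t₀)
    (p11_comp p q Z y t₀) (p11_comp_smooth p q Z y hyl t₀) (p11_comp_add p q Z hχ y hy t₀) hy₀
  -- the level
  obtain ⟨EZ, hEZ, hEZfix⟩ := pco_smooth_local Z hZ
  obtain ⟨Eθ, hEθ, hEθθ⟩ := hθs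
  haveI : FiniteDimensional ℚ_[q] ↥EZ := hEZ
  haveI : FiniteDimensional ℚ_[q] ↥Eθ := hEθ
  have hsup : FiniteDimensional ℚ_[q] ↥(EZ ⊔ Eθ) := IntermediateField.finiteDimensional_sup EZ Eθ
  obtain ⟨N, hNn, hNE, -, FN, hFN, hFNN⟩ := pco_exists_level (EZ ⊔ Eθ) hsup
  haveI := hNn
  have hNZ : ∀ s ∈ N, ∀ z : Z, s • z = z := fun s hs z =>
    hEZfix s (IntermediateField.fixingSubgroup_antitone le_sup_left (hNE hs)) z
  have hNθ : N ≤ Eθ.fixingSubgroup := fun s hs =>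
    IntermediateField.fixingSubgroup_antitone le_sup_right (hNE hs)
  -- the family of characters
  set a' : ∀ t : Z, ↥(MulAction.stabilizer Γq t) → Rep.trivial (ZMod p) Γq (ZMod p) :=
    fun t v => if h : t = t₀ then θ ⟨(v : Γq), h ▸ v.2⟩ else (0 : ZMod p) with ha'
  have ha'₀ : ∀ v : ↥(MulAction.stabilizer Γq t₀), a' t₀ v = θ v := by
    intro v
    simp only [ha']
    exact dif_pos trivial
  have ha'₁ : ∀ t : Z, t ≠ t₀ → ∀ v : ↥(MulAction.stabilizer Γq t), a' t v = (0 : ZMod p) := by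
    intro t ht v
    simp only [ha']
    exact dif_neg ht
  have ha'c : ∀ t ∈ (T : Set Z), shp_Const₁ (MulAction.stabilizer Γq t).subtype N (a' t) := by
    intro t _ g s hs
    by_cases h : t = t₀
    · subst h
      rw [ha'₀, ha'₀]
      exact hEθθ g s (hNθ hs)
    · rw [ha'₁ t h, ha'₁ t h]
  have ha'd : ∀ t ∈ (T : Set Z), ∀ x, shp_d₁ (MulAction.stabilizer Γq t).subtype
      (Rep.trivial (ZMod p) Γq (ZMod p)) (a' t) x = 0 := by
    intro t _ x
    show a' t x.2 - a' t (x.1 * x.2) + a' t x.1 = (0 : ZMod p)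
    by_cases h : t = t₀
    · subst h
      rw [ha'₀, ha'₀, ha'₀, hθa]
      ring
    · rw [ha'₁ t h, ha'₁ t h, ha'₁ t h]
      ring
  obtain ⟨x, hxc, hxd, hxπ⟩ := hSurj (ZMod p) Γq Z Mq (Rep.trivial (ZMod p) Γq (ZMod p))
    (lcdb_coord (k := ZMod p) (Γ := Γq) (X := Z)) N hNZ (T : Set Z) hTi a' ha'c ha'd
  have hx : x ∈ cocycles₁ Mq := by
    rw [mem_cocycles₁_iff]
    intro g h
    have h1 := hxd (g, h)
    have h2 : (Mq).ρ g (x h) - x (g * h) + x g = 0 := h1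
    have h3 : x (g * h) = (Mq).ρ g (x h) - x (g * h) + x g + x (g * h) - 0 := by
      rw [h2]
      abel
    rw [h3]
    abel
  have hxl : IsLevelConstant₁ rq x := ⟨FN, hFN, fun g s hs => hxc g s (hFNN s hs)⟩
  have hcoc : cup₁₁ (ld1_ev rq Mq) x y ∈ levelCocycles₂ rq (ld1_T (p := p) rq) :=
    (hCup Γq rq Mq hAdm).1 x y hx hxl hy hyl
  refine ⟨x, hx, hxl, hcoc, fun h0 => ?_⟩
  -- the invariant of `ζ ^ (x ∪ y)`
  have h1 := hτ _ hcoc
  rw [h0, ZMod.val_zero, Nat.cast_zero, zero_div, map_zero] at h1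
  have h2 : (fun w : ↥(⊤ : Subgroup Γq) × ↥(⊤ : Subgroup Γq) =>
      ptinv_exp p q (cup₁₁ (ld1_ev rq Mq) x y ((w.1 : Γq), (w.2 : Γq)) : ZMod p)) =
      fun w => ∏ z : Z, p11_F p q Z x y ((w.1 : Γq), (w.2 : Γq)) z := by
    funext w
    rw [p11_F_prod]
  rw [h2, hTr inv hinv q Z (pco_smooth_local Z hZ) (p11_F p q Z x y)
    (p11_F_smooth p q Z hZ x hxl y hyl) (p11_F_cocycle p q Z x hx y hy) T hTc hTi,
    Finset.sum_eq_single t₀] at h1
  · apply hθinv
    rw [← h1]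
    congr 1
    funext w
    rw [p11_F_stab p q Z hχ x y t₀ w.1 w.2, hxπ t₀ ht₀ w.1, ha'₀]
    rfl
  · intro t ht htne
    have h3 : (fun w : ↥(MulAction.stabilizer Γq t) × ↥(MulAction.stabilizer Γq t) =>
        p11_F p q Z x y ((w.1 : Γq), (w.2 : Γq)) t) = 1 := by
      funext w
      rw [p11_F_stab p q Z hχ x y t w.1 w.2, hxπ t ht w.1, ha'₁ t htne, zero_mul, ptinv_exp_zero]
      rfl
    rw [h3]
    exact lh3m_inv_one hinv _ (pco_stab_isOpen Z hZ t)
  · intro h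
    exact absurd ht₀ h

/-! ### The assembly -/

/-- [LB-PERM11] for the local Galois group `Gal(Ω/ℚ_q)` and any functional `τ` on `H²_cts` which
is induced by the invariant system. -/
theorem p11_core (hCup : ld1_CupLevelStatement) (hPair : ld1_PairExStatement)
    (hInj : shp_Inj₁Statement) (hSurj : shp_Surj₁Statement) (hTr : shp_TrInvStatement)
    (hV11 : lcf_V11Statement) (hFin : lcf_FinHomStatement)
    (inv : lcf_InvType) (hinv : lcf_IsInvSystem inv) (hp2 : p ≠ 2) (τ : ld1_Tau p rq)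
    (hτ : ∀ (f : Γq × Γq → ld1_T (p := p) rq) (hf : f ∈ levelCocycles₂ rq (ld1_T (p := p) rq)),
      inv q ⊤ (fun x : ↥(⊤ : Subgroup Γq) × ↥(⊤ : Subgroup Γq) =>
        ptinv_exp p q (f ((x.1 : Γq), (x.2 : Γq)) : ZMod p)) =
        lcf_qz ((ZMod.val (τ (continuousH2π _ _ ⟨f, hf⟩)) : ℚ) / (p : ℚ)))
    (hZ : ld1_SmoothAct rq Z) (hχ : ld1_ChiTriv rq p Z) :
    ld1_Surj11 rq τ Mq := by
  haveI := p11_fd p q Z
  have hAdm : ld1_Adm rq Mq := lbp_main (p := p) Γq rq Z hZ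
  obtain ⟨P, hP⟩ := (hPair Γq rq τ Mq hAdm).1
  haveI : Finite ↥(continuousH1 rq Dq) := p11_finite p q Z hInj hFin hZ hχ
  haveI : FiniteDimensional (ZMod p) ↥(continuousH1 rq Dq) := Module.Finite.of_finite
  refine ⟨P, hP, asm_surjective_of_nondeg P fun η hη => ?_⟩
  by_contra hne
  obtain ⟨y, hy, hyl, rfl⟩ := ld1d_exists_cls rq Dq η
  obtain ⟨x, hx, hxl, hcoc, hτne⟩ := p11_nondeg p q Z hCup hInj hSurj hTr hV11 inv hinv hp2 τ hτ
    hZ hχ y hy hyl hne
  have h := hη (ld1_cls1 rq Mq x hx hxl)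
  rw [hP x hx hxl y hy hyl hcoc] at h
  exact hτne h

end Core

/-- **[LB-PERM11-OF]** -/
theorem p11_main : ld1_Perm11OfStatement := by
  intro hCup hPair hInj hSurj hTr hV11 hFin inv ptinv hinv hc p _ hp2 S q Z hZfin hZact hZ hχ
  exact @p11_core p (q.1 : ℕ) _ _ Z hZfin hZact hCup hPair hInj hSurj hTr hV11 hFin inv hinv hp2
    (ptinv p S (Sum.inr q)) (fun f hf => hc p S q f hf) hZ hχ

end Fermat.Agent.S55
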