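/-
S55 (Poitou-Tate), LOCAL side, package [LB-PERM20-OF] = `ld1_Perm20OfStatement` of
`Local/LD1Base.lean` (helper16).  Prefix `lp20_`.  Export: `lp20_main : ld1_Perm20OfStatement`.

SETTING.  `Γ = Gal(Ω/ℚ_q)`, `r = localGaloisToGlobal q`, `Z` a finite `Γ`-set with smooth action
whose stabilizers fix `μ_p`, `M = F_p[Z]`, `M' = ld1_D r M` its Tate dual, `T` a set of
representatives of the orbits, `(m_t)_{t ∈ T}` the dual basis of the invariants of `M'`.
For a continuous 2-cocycle `c` and an invariant `m`: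
`e (P [c] m) = e (τ [c ∪ m]) = ∑_{t ∈ T} (m (e_t)).val • inv_{Stab t} (ζ ^ c_t)`  (`lp20_key`).
* injectivity: `P [c] = 0` ⟹ `inv_{Stab t} (ζ ^ c_t) = 0` for all `t ∈ T` (take `m = m_t`)
  ⟹ `c` is a continuous coboundary (`lp20_inj_core`);
* surjectivity: for a functional `φ` take `z` with `inv_{Stab t} (ζ ^ z_t) = e (φ m_t)`
  (`lp20_surj_core`); then `P [z] m = ∑_t φ (m_t) * m (e_t) = φ m` (`lp20_dual_expand`).
-/
import Mathlib
import Fermat.Agent.S55.Local.Perm20Shap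

set_option autoImplicit false
set_option maxHeartbeats 1000000
set_option synthInstance.maxHeartbeats 400000
set_option linter.unusedSectionVars false
set_option linter.style.haveILetI false

noncomputable section

namespace Fermat.Agent.S55

open CategoryTheory Module groupCohomology ExtCitation

section Core

variable (p : ℕ) [Fact p.Prime] (S : Finset Nat.Primes) (q : ↥S)
  (Z : Type) [Fintype Z] [MulAction (lcf_Gal (q.1 : ℕ)) Z]

/-- [LB-PERM20] for the local Galois group `Gal(Ω/ℚ_q)`. -/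
theorem lp20_core (hCL : ld1_CupLevelStatement) (hPE : ld1_PairExStatement)
    (hI2 : shp_Inj₂Statement) (hS0 : shp_Surj₀Statement) (hS2 : shp_Surj₂Statement)
    (hTR : shp_TrInvStatement) (hVI : lcf_V20InjStatement) (hVS : lcf_V20SurjStatement)
    (inv : lcf_InvType) (ptinv : pt_InvFamily) (hinv : lcf_IsInvSystem inv)
    (hcompat : ld_Compat inv ptinv)
    (hsm : ld1_SmoothAct (localGaloisToGlobal (q.1 : ℕ)) Z)
    (hχ : ld1_ChiTriv (localGaloisToGlobal (q.1 : ℕ)) p Z) :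
    ld1_Bij20 (localGaloisToGlobal (q.1 : ℕ)) (ptinv p S (Sum.inr q))
      (Rep.ofMulAction (ZMod p) (lcf_Gal (q.1 : ℕ)) Z) := by
  classical
  haveI : FiniteDimensional (ZMod p) (Rep.ofMulAction (ZMod p) (lcf_Gal (q.1 : ℕ)) Z) :=
    lba_finiteDimensional (ZMod p) (lcf_Gal (q.1 : ℕ)) Z
  have hAdm : ld1_Adm (localGaloisToGlobal (q.1 : ℕ))
      (Rep.ofMulAction (ZMod p) (lcf_Gal (q.1 : ℕ)) Z) :=
    lbp_main (p := p) (lcf_Gal (q.1 : ℕ)) (localGaloisToGlobal (q.1 : ℕ)) Z hsm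
  obtain ⟨P, hP⟩ := (hPE (lcf_Gal (q.1 : ℕ)) (localGaloisToGlobal (q.1 : ℕ))
    (ptinv p S (Sum.inr q)) (Rep.ofMulAction (ZMod p) (lcf_Gal (q.1 : ℕ)) Z) hAdm).2
  have hcup := (hCL (lcf_Gal (q.1 : ℕ)) (localGaloisToGlobal (q.1 : ℕ))
    (Rep.ofMulAction (ZMod p) (lcf_Gal (q.1 : ℕ)) Z) hAdm).2
  obtain ⟨T, hTc, hTi⟩ := lp20_exists_reps (H := lcf_Gal (q.1 : ℕ)) Z
  obtain ⟨mB, hmBi, hmB1, hmB0⟩ :=
    lp20_exists_basis (p := p) (localGaloisToGlobal (q.1 : ℕ)) hS0 hχ T hTi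
  have hkey : ∀ (c : ↥(levelCocycles₂ (localGaloisToGlobal (q.1 : ℕ))
        (Rep.ofMulAction (ZMod p) (lcf_Gal (q.1 : ℕ)) Z)))
      (m : ↥((ld1_D (localGaloisToGlobal (q.1 : ℕ))
        (Rep.ofMulAction (ZMod p) (lcf_Gal (q.1 : ℕ)) Z)).ρ.invariants)),
      ptinv_e p (P (continuousH2π _ _ c) m) =
        ∑ t ∈ T, ((lp20_coord' (p := p) (localGaloisToGlobal (q.1 : ℕ)) Z).π t m.1 :
            ZMod p).val •
          inv (q.1 : ℕ) (MulAction.stabilizer (lcf_Gal (q.1 : ℕ)) t)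
            (fun y => ptinv_exp p (q.1 : ℕ) (lp20_comp p (q.1 : ℕ) c.1 t y)) := by
    intro c m
    have hcoc := hcup c.1 m.1 c.2 m.2
    rw [hP c m hcoc]
    exact lp20_key p S q inv ptinv hinv hcompat hTR hsm hχ c.1 c.2 m.1 m.2 hcoc T hTc hTi
  refine ⟨P, hP, ?_, ?_⟩
  · -- injectivity
    rw [injective_iff_map_eq_zero]
    intro x hx
    obtain ⟨c, rfl⟩ := Submodule.mkQ_surjective _ x
    refine (continuousH2π_eq_zero_iff _ _ c).2 ?_
    refine lp20_inj_core p (q.1 : ℕ) hI2 hVI inv hinv hsm hχ T hTc c.1 c.2 (fun t ht => ?_)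
    have h1 := hkey c ⟨mB t, hmBi t⟩
    have h2 : P (continuousH2π _ _ c) ⟨mB t, hmBi t⟩ = 0 := by
      have := congrArg (fun ψ : Module.Dual (ZMod p) _ => ψ ⟨mB t, hmBi t⟩) hx
      exact this
    rw [h2, map_zero, Finset.sum_eq_single t] at h1
    · have h3 : ((lp20_coord' (p := p) (localGaloisToGlobal (q.1 : ℕ)) Z).π t (mB t) :
          ZMod p).val = 1 := by
        rw [hmB1 t ht]
        haveI : Fact (1 < p) := ⟨(Fact.out : p.Prime).one_lt⟩
        exact ZMod.val_one p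
      rw [h3, one_smul] at h1
      exact h1.symm
    · intro t' ht' hne
      have h3 : ((lp20_coord' (p := p) (localGaloisToGlobal (q.1 : ℕ)) Z).π t' (mB t) :
          ZMod p).val = 0 := by
        rw [hmB0 t t' ht' hne]
        exact ZMod.val_zero
      rw [h3, zero_smul]
    · intro h
      exact absurd ht h
  · -- surjectivity
    intro φ
    obtain ⟨z, hz, hzinv⟩ := lp20_surj_core p (q.1 : ℕ) hS2 hVS inv hinv hsm hχ T hTi
      (fun t => φ ⟨mB t, hmBi t⟩)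
    refine ⟨continuousH2π _ _ ⟨z, hz⟩, ?_⟩
    apply LinearMap.ext
    intro m
    apply ptinv_e_injective p
    rw [hkey ⟨z, hz⟩ m, lp20_dual_expand (localGaloisToGlobal (q.1 : ℕ)) T hTc mB hmBi hmB1 hmB0
      φ m, map_sum]
    refine Finset.sum_congr rfl (fun t ht => ?_)
    rw [hzinv t ht, lp20_e_mul]

end Core

/-- **[LB-PERM20-OF]** -/
theorem lp20_main : ld1_Perm20OfStatement := by
  intro hCL hPE hI2 hS0 hS2 hTR hVI hVS inv ptinv hinv hcompat p _ _ S q Z hZfin hZact hsm hχ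
  exact @lp20_core p _ S q Z hZfin hZact hCL hPE hI2 hS0 hS2 hTR hVI hVS inv ptinv hinv hcompat
    hsm hχ

end Fermat.Agent.S55
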