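import Fermat.Agent.S55.Local.InvBuild
import Fermat.Agent.S55.Local.SplitDefs
import Fermat.Agent.S55.Local.UnrInj

set_option autoImplicit false
set_option linter.style.haveILetI false
set_option linter.unusedSectionVars false

/-!
# S55 local side: [UNR-CLASS]

`ucl_main : spl_UnrUniqStatement → spl_UnitNormStatement → lcf_UnrClassStatement`:
for two unramified data `(n, θ, φ, ϖ)`, `(n', θ', φ', ϖ')` of the same open subgroup `U`,
`(ϖ ^ δθ) ^ k / (ϖ' ^ δθ') ^ k'` is a smooth coboundary iff `k / n = k' / n'` in `ℚ/ℤ`.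

Route: common modulus `N = n n'` with an unramified character `Θ` ([UNR-CHAR]);
`θ = Θ mod n` ([UNR-UNIQ]); change of modulus `(a ^ δΘ) ^ n' ~ a ^ δ(Θ mod n)` (`ucl_change`);
two uniformizers differ by a unit, and `unit ^ δθ ~ 1` ([UNIT-NORM]); [UNR-INJ] and
`sym_norm_mpr`.
-/

noncomputable section

namespace Fermat.Agent.S55

open groupCohomology

section Arith

/-- Floor arithmetic of the change of modulus: both sides are `(x + y) / n`. -/
theorem ucl_nat (x y n m : ℕ) (hn : 0 < n) :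
    x / n + y / n + (x % n + y % n) / n =
      m * ((x + y) / (n * m)) + ((x + y) % (n * m)) / n := by
  have h1 : x / n + y / n + (x % n + y % n) / n = (x + y) / n := by
    have := sym_nat_carry₂ n hn x y
    omega
  have h2 : m * ((x + y) / (n * m)) + ((x + y) % (n * m)) / n = (x + y) / n := by
    have e : x + y = (x + y) % (n * m) + n * (m * ((x + y) / (n * m))) := by
      have := Nat.mod_add_div (x + y) (n * m)
      rw [← Nat.mul_assoc]
      exact this.symm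
    conv_rhs => rw [e, Nat.add_mul_div_left _ _ hn]
    exact add_comm _ _
  rw [h1, h2]

theorem ucl_pow_aux {M : Type*} [CommGroup M] (a : M) {A B C D E : ℕ}
    (key : A + C + E = D + B) : a ^ A / a ^ B * a ^ C = a ^ D / a ^ E := by
  rw [eq_div_iff_mul_eq']
  simp only [div_eq_mul_inv, ← zpow_natCast, ← zpow_neg, ← zpow_add]
  congr 1
  omega

/-- The reduction `ℤ/N → ℤ/n` for `n ∣ N`, in multiplicative notation. -/
def ucl_red {N n : ℕ} (h : n ∣ N) : Multiplicative (ZMod N) →* Multiplicative (ZMod n) :=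
  AddMonoidHom.toMultiplicative (ZMod.castHom h (ZMod n)).toAddMonoidHom

theorem ucl_red_toAdd {N n : ℕ} (h : n ∣ N) (x : Multiplicative (ZMod N)) :
    Multiplicative.toAdd (ucl_red h x) = ZMod.cast (Multiplicative.toAdd x) := rfl

theorem ucl_red_val {N n : ℕ} [NeZero N] (h : n ∣ N) (x : Multiplicative (ZMod N)) :
    (Multiplicative.toAdd (ucl_red h x)).val = (Multiplicative.toAdd x).val % n := by
  rw [ucl_red_toAdd, ← ZMod.natCast_val, ZMod.val_natCast]

theorem ucl_red_ofAdd_one {N n : ℕ} (h : n ∣ N) :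
    ucl_red h (Multiplicative.ofAdd 1) = Multiplicative.ofAdd 1 := by
  change Multiplicative.ofAdd ((ZMod.castHom h (ZMod n)) 1) = Multiplicative.ofAdd 1
  rw [map_one]

end Arith

section Change

variable {q : ℕ} [Fact q.Prime] {U : Subgroup (lcf_Gal q)}

theorem ucl_sym_t_red {N n : ℕ} [NeZero N] (h : n ∣ N) (Θ : ↥U →* Multiplicative (ZMod N))
    (g : ↥U) : sym_t ((ucl_red h).comp Θ) g = sym_t Θ g % n := by
  unfold sym_t
  rw [MonoidHom.comp_apply, ucl_red_val]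

theorem ucl_smooth_red {N n : ℕ} (h : n ∣ N) {Θ : ↥U →* Multiplicative (ZMod N)}
    (hΘ : lcf_Smooth₁ U Θ) : lcf_Smooth₁ U ((ucl_red h).comp Θ) := by
  obtain ⟨E, hE, hs⟩ := hΘ
  refine ⟨E, hE, fun g s hs' => ?_⟩
  rw [MonoidHom.comp_apply, MonoidHom.comp_apply, hs g s hs']

/-- **Change of modulus**: `(a ^ δΘ) ^ m ~ a ^ δ(Θ mod n)` for a character `Θ` modulo
`N = n m`. -/
theorem ucl_change (N n m : ℕ) [NeZero N] [NeZero n] (hN : N = n * m)
    (Θ : ↥U →* Multiplicative (ZMod N)) (hΘ : lcf_Smooth₁ U Θ) (a : (PadicAlgCl q)ˣ)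
    (ha : ∀ g : ↥U, g • a = a) :
    lcf_IsCob U ((lcf_unrCoc U N Θ a) ^ m /
      lcf_unrCoc U n ((ucl_red (Dvd.intro m hN.symm)).comp Θ) a) := by
  have hn : 0 < n := Nat.pos_of_ne_zero (NeZero.ne n)
  obtain ⟨E, hE, hs⟩ := hΘ
  refine ⟨fun g => a ^ (sym_t Θ g / n), ⟨E, hE, fun g s hs' => ?_⟩, fun g h => ?_⟩
  · simp only
    rw [sym_t_congr Θ (hs g s hs')]
  · simp only [Pi.div_apply, Pi.pow_apply, sym_unrCoc_apply, ucl_sym_t_red]
    rw [sym_smul_pow ha, sym_t_mul, ← pow_mul]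
    apply ucl_pow_aux
    have key := ucl_nat (sym_t Θ g) (sym_t Θ h) n m hn
    rw [← hN] at key
    rw [mul_comm _ m]
    omega

end Change

section Uniq

variable {q : ℕ} [Fact q.Prime] {U : Subgroup (lcf_Gal q)}

/-- Two Frobenius elements have the same value under a character killing inertia. -/
theorem ucl_theta_frob {n : ℕ} (θ : ↥U →* Multiplicative (ZMod n))
    (hin : ∀ s : ↥U, lcf_IsInert (s : lcf_Gal q) → θ s = 1) {φ φ' : ↥U}
    (hφ : lcf_IsFrob U φ) (hφ' : lcf_IsFrob U φ') : θ φ = θ φ' := by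
  have h := uinj_inert (φ : lcf_Gal q) (φ' : lcf_Gal q) (lcf_resCard U) hφ hφ'
  have h1 : θ (φ'⁻¹ * φ) = 1 := hin (φ'⁻¹ * φ) h
  rw [map_mul, map_inv, inv_mul_eq_one] at h1
  exact h1.symm

/-- **Uniqueness of the unramified character**: the unramified character modulo `n` is the
reduction of the unramified character modulo a multiple `N` of `n`. -/
theorem ucl_uniq (hUQ : spl_UnrUniqStatement) (hU : lcf_IsOpen U) {N n : ℕ} [NeZero N]
    [NeZero n] (h : n ∣ N) {θ : ↥U →* Multiplicative (ZMod n)} {φ : ↥U}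
    {Θ : ↥U →* Multiplicative (ZMod N)} {Φ : ↥U}
    (hθ : spl_IsUnrData U n θ φ) (hΘ : spl_IsUnrData U N Θ Φ) :
    θ = (ucl_red h).comp Θ := by
  obtain ⟨hθs, hθi, hφ, hθ1⟩ := hθ
  obtain ⟨hΘs, hΘi, hΦ, hΘ1⟩ := hΘ
  have hθ₀s : lcf_Smooth₁ U ((ucl_red h).comp Θ) := ucl_smooth_red h hΘs
  have hχs : lcf_Smooth₁ U (θ / (ucl_red h).comp Θ) := by
    obtain ⟨E, hE, h1, h2⟩ := sym_common_level hθs hθ₀s
    refine ⟨E, hE, fun g s hs => ?_⟩
    rw [MonoidHom.div_apply, MonoidHom.div_apply, h1 g s hs, h2 g s hs]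
  have hχi : ∀ s : ↥U, lcf_IsInert (s : lcf_Gal q) → (θ / (ucl_red h).comp Θ) s = 1 := by
    intro s hs
    rw [MonoidHom.div_apply, hθi s hs, MonoidHom.comp_apply, hΘi s hs, map_one, div_one]
  have hχφ : (θ / (ucl_red h).comp Θ) φ = 1 := by
    rw [MonoidHom.div_apply, hθ1, MonoidHom.comp_apply, ucl_theta_frob Θ hΘi hφ hΦ, hΘ1,
      ucl_red_ofAdd_one, div_self']
  have key := hUQ q U hU n (θ / (ucl_red h).comp Θ) φ hχs hχi hφ hχφ
  ext g : 1
  have hg := key g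
  rw [MonoidHom.div_apply, div_eq_one] at hg
  exact hg

/-- Two uniformizers of the same field differ by a unit. -/
theorem ucl_unif_unit {ϖ ϖ' : (PadicAlgCl q)ˣ} (hϖ : lcf_IsUnif U ϖ) (hϖ' : lcf_IsUnif U ϖ') :
    (∀ g : ↥U, g • (ϖ' / ϖ) = ϖ' / ϖ) ∧
      ‖((ϖ' / ϖ : (PadicAlgCl q)ˣ) : PadicAlgCl q)‖ = 1 := by
  constructor
  · intro g
    rw [smul_div', hϖ.1, hϖ'.1]
  · obtain ⟨a, ha⟩ := hϖ.2.2 ϖ' hϖ'.1
    obtain ⟨b, hb⟩ := hϖ'.2.2 ϖ hϖ.1
    have h0 : 0 < ‖(ϖ : PadicAlgCl q)‖ := norm_pos_iff.2 ϖ.ne_zero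
    have h1 : ‖(ϖ : PadicAlgCl q)‖ ^ (1 : ℤ) = ‖(ϖ : PadicAlgCl q)‖ ^ (a * b) := by
      rw [zpow_one, zpow_mul, ← ha, ← hb]
    have hab := zpow_right_injective₀ h0 (ne_of_lt hϖ.2.1) h1
    have ha1 : a = 1 := by
      rcases Int.eq_one_or_neg_one_of_mul_eq_one hab.symm with h | h
      · exact h
      · exfalso
        rw [h, zpow_neg, zpow_one] at ha
        have h2 : 1 < ‖(ϖ' : PadicAlgCl q)‖ := by
          rw [ha]
          exact (one_lt_inv₀ h0).2 hϖ.2.1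
        exact absurd hϖ'.2.1 (not_lt.2 h2.le)
    rw [ha1, zpow_one] at ha
    rw [Units.val_div_eq_div_val, norm_div, ha, div_self h0.ne']

end Uniq

section Main

/-- **[UNR-CLASS]** from [UNR-UNIQ] and [UNIT-NORM]. -/
theorem ucl_main (hUQ : spl_UnrUniqStatement) (hUN : spl_UnitNormStatement) :
    lcf_UnrClassStatement := by
  intro q _ U hU n n' _ _ θ φ ϖ θ' φ' ϖ' k k' d d'
  have hn : n ≠ 0 := NeZero.ne n
  have hn' : n' ≠ 0 := NeZero.ne n'
  haveI : NeZero (n * n') := ⟨Nat.mul_ne_zero hn hn'⟩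
  obtain ⟨Θ, Φ, hΘs, hΘi, hΦ, hΘ1⟩ := unr_abs_unrChar q U hU (n * n')
  have hD : spl_IsUnrData U (n * n') Θ Φ := ⟨hΘs, hΘi, hΦ, hΘ1⟩
  -- `u ~ C ^ n'`
  have hu : lcf_IsCob U ((lcf_unrCoc U (n * n') Θ ϖ) ^ n' / lcf_unrCoc U n θ ϖ) := by
    have h1 := ucl_change (n * n') n n' rfl Θ hΘs ϖ d.unif.1
    have h2 := ucl_uniq hUQ hU (Dvd.intro n' rfl) ⟨d.smooth, d.inert, d.frob, d.one⟩ hD
    rw [h2]
    exact h1
  -- `u' ~ C ^ n`
  have hu' : lcf_IsCob U ((lcf_unrCoc U (n * n') Θ ϖ) ^ n / lcf_unrCoc U n' θ' ϖ') := by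
    have h1 := ucl_change (n * n') n' n (mul_comm n n') Θ hΘs ϖ d.unif.1
    have h2 := ucl_uniq hUQ hU (Dvd.intro n (mul_comm n' n))
      ⟨d'.smooth, d'.inert, d'.frob, d'.one⟩ hD
    obtain ⟨hv1, hv2⟩ := ucl_unif_unit d.unif d'.unif
    have h3 := hUN q U hU n' θ' φ' ⟨d'.smooth, d'.inert, d'.frob, d'.one⟩ (ϖ' / ϖ) hv1 hv2
    have h4 : lcf_unrCoc U n' θ' ϖ' =
        lcf_unrCoc U n' θ' (ϖ' / ϖ) * lcf_unrCoc U n' θ' ϖ := by
      rw [← sym_unrCoc_mul, div_mul_cancel]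
    have h5 : (lcf_unrCoc U (n * n') Θ ϖ) ^ n / lcf_unrCoc U n' θ' ϖ' =
        ((lcf_unrCoc U (n * n') Θ ϖ) ^ n / lcf_unrCoc U n' θ' ϖ) /
          lcf_unrCoc U n' θ' (ϖ' / ϖ) := by
      rw [h4, div_div, mul_comm (lcf_unrCoc U n' θ' (ϖ' / ϖ))]
    rw [h5]
    refine linv_isCob_div ?_ h3
    rw [h2]
    exact h1
  -- `C ^ N ~ 1`
  have hCN : lcf_IsCob U ((lcf_unrCoc U (n * n') Θ ϖ) ^ (n * n')) := by
    rw [sym_unrCoc_pow]
    refine sym_norm_mpr hΘs hΘ1 (y := ϖ) (fun g _ => d.unif.1 g) ?_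
    have hc : ∀ i ∈ Finset.range (n * n'), Φ ^ i • ϖ = ϖ := fun i _ => d.unif.1 _
    rw [Finset.prod_congr rfl hc, Finset.prod_const, Finset.card_range]
  have hord : ∀ r : ℕ, lcf_IsCob U ((lcf_unrCoc U (n * n') Θ ϖ) ^ r) → n * n' ∣ r :=
    fun r hr => uinj_main q U hU (n * n') Θ Φ ϖ r hΘs hΘi hΦ hΘ1 d.unif hr
  generalize lcf_unrCoc U (n * n') Θ ϖ = C at hu hu' hCN hord ⊢
  generalize lcf_unrCoc U n θ ϖ = u at hu ⊢
  generalize lcf_unrCoc U n' θ' ϖ' = u' at hu' ⊢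
  have hYX : lcf_IsCob U ((C ^ (n' * k) / C ^ (n * k')) / (u ^ k / u' ^ k')) := by
    have h := linv_isCob_div (linv_isCob_pow hu k) (linv_isCob_pow hu' k')
    have e : (C ^ n' / u) ^ k / (C ^ n / u') ^ k' =
        (C ^ (n' * k) / C ^ (n * k')) / (u ^ k / u' ^ k') := by
      rw [div_pow, div_pow, ← pow_mul, ← pow_mul]
      exact div_div_div_comm _ _ _ _
    rwa [e] at h
  have hnq : (n : ℚ) ≠ 0 := Nat.cast_ne_zero.2 hn
  have hn'q : (n' : ℚ) ≠ 0 := Nat.cast_ne_zero.2 hn'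
  constructor
  · intro hX
    have hY : lcf_IsCob U (C ^ (n' * k) / C ^ (n * k')) := by
      have h := linv_isCob_mul hYX hX
      rwa [div_mul_cancel] at h
    have hdvd : ((n * n' : ℕ) : ℤ) ∣ ((n' * k : ℕ) : ℤ) - ((n * k' : ℕ) : ℤ) := by
      rcases le_total (n * k') (n' * k) with hle | hle
      · have e : C ^ (n' * k) / C ^ (n * k') = C ^ (n' * k - n * k') := by
          rw [eq_comm, eq_div_iff_mul_eq', ← pow_add, Nat.sub_add_cancel hle]
        rw [e] at hY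
        have h := Int.natCast_dvd_natCast.2 (hord _ hY)
        rwa [Nat.cast_sub hle] at h
      · have e : (C ^ (n' * k) / C ^ (n * k'))⁻¹ = C ^ (n * k' - n' * k) := by
          rw [inv_div, eq_comm, eq_div_iff_mul_eq', ← pow_add, Nat.sub_add_cancel hle]
        have hY' := linv_isCob_inv hY
        rw [e] at hY'
        have h := Int.natCast_dvd_natCast.2 (hord _ hY')
        rw [Nat.cast_sub hle] at h
        have h' := (dvd_neg (α := ℤ)).2 h
        rwa [neg_sub] at h'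
    obtain ⟨j, hj⟩ := hdvd
    have hq : (k : ℚ) / n = (k' : ℚ) / n' + (j : ℚ) := by
      have hj' : (n' : ℚ) * k - n * k' = n * n' * j := by exact_mod_cast hj
      field_simp
      linarith
    rw [hq, map_add, linv_qz_intCast, add_zero]
  · intro hq
    have hmem : -((k : ℚ) / n) + (k' : ℚ) / n' ∈ AddSubgroup.zmultiples (1 : ℚ) :=
      QuotientAddGroup.eq.1 hq
    obtain ⟨j, hj⟩ := AddSubgroup.mem_zmultiples_iff.1 hmem
    have hint : ((n * k' : ℕ) : ℤ) - ((n' * k : ℕ) : ℤ) = ((n * n' : ℕ) : ℤ) * j := by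
      have h1 : ((n : ℚ) * k' - n' * k) = n * n' * j := by
        have h2 : (j : ℚ) = -((k : ℚ) / n) + (k' : ℚ) / n' := by
          rw [← hj]
          simp
        rw [h2]
        field_simp
        ring
      exact_mod_cast h1
    have hY : lcf_IsCob U (C ^ (n' * k) / C ^ (n * k')) := by
      rcases le_total 0 j with hj0 | hj0
      · obtain ⟨j₀, rfl⟩ := Int.eq_ofNat_of_zero_le hj0
        have e : n * k' = n' * k + n * n' * j₀ := by
          have : ((n * k' : ℕ) : ℤ) = ((n' * k + n * n' * j₀ : ℕ) : ℤ) := by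
            push_cast
            push_cast at hint
            linarith
          exact_mod_cast this
        have e2 : C ^ (n' * k) / C ^ (n * k') = ((C ^ (n * n')) ^ j₀)⁻¹ := by
          rw [e, pow_add, ← pow_mul, div_mul_cancel_left]
        rw [e2]
        exact linv_isCob_inv (linv_isCob_pow hCN j₀)
      · obtain ⟨j₀, hj₀⟩ := Int.exists_eq_neg_ofNat hj0
        have e : n' * k = n * k' + n * n' * j₀ := by
          have : ((n' * k : ℕ) : ℤ) = ((n * k' + n * n' * j₀ : ℕ) : ℤ) := by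
            push_cast
            push_cast at hint
            rw [hj₀] at hint
            linarith
          exact_mod_cast this
        have e2 : C ^ (n' * k) / C ^ (n * k') = (C ^ (n * n')) ^ j₀ := by
          rw [e, pow_add, ← pow_mul, mul_div_cancel_left]
        rw [e2]
        exact linv_isCob_pow hCN j₀
    have h := linv_isCob_div hY hYX
    rwa [div_div_cancel] at h

end Main

end Fermat.Agent.S55
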