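/-
S55 (wave 5), package [AK-EXI], leaf **[X-LOCSURJ]** (local, absolute).  Owner: helper3.
Prefix `lxs_`.

For a smooth SURJECTIVE character `θ : U → ℤ/p^k` of an open subgroup `U` of `Gal(Ω_q/ℚ_q)`
(i.e. a cyclic extension `L/K_U` of degree `p^k` with a chosen generator of its Galois group) the
cup cocycles `x ^ δθ`, `x ∈ K_Uˣ`, realise every invariant `t` with `p^k • t = 0`:
`K_Uˣ → (1/p^k)ℤ/ℤ`, `x ↦ inv (x ∪ δθ)`, is surjective.

PROOF.  `θ̄ := θ mod p` is a nontrivial character of order `p`; [HILB-R] gives `a ∈ K_Uˣ` with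
`a ^ δθ̄` not a coboundary; change of modulus: `(a ^ δθ) ^ (p^(k-1)) ~ a ^ δθ̄`.  So
`τ := inv (a ^ δθ)` satisfies `p^(k-1) • τ ≠ 0`, `p^k • τ = 0`, hence generates `(ℚ/ℤ)[p^k]`,
and `j • τ = inv ((a ^ j) ^ δθ)`.
-/
import Fermat.Agent.S55.Local.HilbMain
import Fermat.Agent.S55.Local.UnrClass
import Fermat.Agent.S55.Local.Tame
import Fermat.Agent.S55.Local.H3OmegaFund

set_option autoImplicit false
set_option linter.style.haveILetI false

noncomputable section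

namespace Fermat.Agent.S55

open groupCohomology

/-- An element of `(ℚ/ℤ)[p^k]` of exact order `p^k` generates `(ℚ/ℤ)[p^k]`. -/
theorem lxs_qz_gen (p k : ℕ) (hp : p.Prime) (hk : 0 < k) (τ t : lcf_QZ)
    (hτ : (p ^ k) • τ = 0) (hτ' : (p ^ (k - 1)) • τ ≠ 0) (ht : (p ^ k) • t = 0) :
    ∃ j : ℤ, t = j • τ := by
  have hpk : p ^ k ≠ 0 := pow_ne_zero _ hp.ne_zero
  obtain ⟨m, hm⟩ := lh3_qz_of_nsmul (p ^ k) hpk τ hτ
  obtain ⟨j₀, hj₀⟩ := lh3_qz_of_nsmul (p ^ k) hpk t ht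
  have he : (p ^ k) • lcf_qz (1 / ((p ^ k : ℕ) : ℚ)) = 0 := lh3_qz_nsmul_self (p ^ k) hpk
  have hN : p ^ k = p ^ (k - 1) * p := by rw [← pow_succ, Nat.sub_add_cancel hk]
  -- `p ∤ m`
  have hpm : ¬ (p : ℤ) ∣ m := by
    rintro ⟨m', rfl⟩
    apply hτ'
    rw [hm, ← natCast_zsmul, smul_smul]
    have e : ((p ^ (k - 1) : ℕ) : ℤ) * ((p : ℤ) * m') = m' * ((p ^ k : ℕ) : ℤ) := by
      rw [hN]
      push_cast
      ring
    rw [e, mul_smul, natCast_zsmul, he, smul_zero]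
  have hcop : IsCoprime ((p : ℤ) ^ k) m :=
    ((Prime.coprime_iff_not_dvd (Nat.prime_iff_prime_int.1 hp)).2 hpm).pow_left
  obtain ⟨u, v, huv⟩ := hcop
  -- `1/p^k = v • τ`
  have h1 : lcf_qz (1 / ((p ^ k : ℕ) : ℚ)) = v • τ := by
    have h2 : (u * (p : ℤ) ^ k + v * m) • lcf_qz (1 / ((p ^ k : ℕ) : ℚ)) =
        lcf_qz (1 / ((p ^ k : ℕ) : ℚ)) := by rw [huv, one_smul]
    rw [add_smul, mul_smul, mul_smul, ← hm] at h2
    have h3 : ((p : ℤ) ^ k) • lcf_qz (1 / ((p ^ k : ℕ) : ℚ)) = 0 := by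
      have e : ((p : ℤ) ^ k) = ((p ^ k : ℕ) : ℤ) := by push_cast; rfl
      rw [e, natCast_zsmul, he]
    rw [h3, smul_zero, zero_add] at h2
    exact h2.symm
  exact ⟨j₀ * v, by rw [hj₀, h1, mul_smul]⟩

/-- **[X-LOCSURJ]**, the statement. -/
def lxs_Statement : Prop :=
  ∀ (inv : lcf_InvType), lcf_IsInvSystem inv →
    ∀ (q : ℕ) [Fact q.Prime] (p : ℕ) [Fact p.Prime] (U : Subgroup (lcf_Gal q)), lcf_IsOpen U →
    ∀ (k : ℕ) (θ : ↥U →* Multiplicative (ZMod (p ^ k))), lcf_Smooth₁ U θ →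
      Function.Surjective θ →
      ∀ t : lcf_QZ, (p ^ k) • t = 0 →
        ∃ x : (PadicAlgCl q)ˣ, (∀ g : ↥U, g • x = x) ∧
          inv q U (lcf_unrCoc U (p ^ k) θ x) = t

/-- **[X-LOCSURJ]**. -/
theorem lxs_main : lxs_Statement := by
  intro inv hinv q _ p _ U hU k θ hθ hsurj t ht
  have hp : p.Prime := Fact.out
  haveI : NeZero (p ^ k) := ⟨pow_ne_zero _ hp.ne_zero⟩
  haveI : NeZero p := ⟨hp.ne_zero⟩
  rcases Nat.eq_zero_or_pos k with hk0 | hk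
  · -- `k = 0`
    subst hk0
    refine ⟨1, fun g => smul_one g, ?_⟩
    have h0 : t = 0 := by simpa using ht
    rw [h0]
    exact tame_inv_unrCoc_one hinv hU θ
  · -- `k ≥ 1`
    have hN : p ^ k = p * p ^ (k - 1) := by rw [← pow_succ', Nat.sub_add_cancel hk]
    have hθ's : lcf_Smooth₁ U ((ucl_red (Dvd.intro (p ^ (k - 1)) hN.symm)).comp θ) :=
      ucl_smooth_red _ hθ
    have hθ'1 : (ucl_red (Dvd.intro (p ^ (k - 1)) hN.symm)).comp θ ≠ 1 := by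
      obtain ⟨g, hg⟩ := hsurj (Multiplicative.ofAdd 1)
      intro h
      have h1 : ((ucl_red (Dvd.intro (p ^ (k - 1)) hN.symm)).comp θ) g = 1 := by rw [h]; rfl
      rw [MonoidHom.comp_apply, hg, ucl_red_ofAdd_one] at h1
      have h2 : (1 : ZMod p) = 0 := h1
      haveI : Fact (1 < p) := ⟨hp.one_lt⟩
      exact one_ne_zero h2
    obtain ⟨a, haU, hacob⟩ := hilb_R_main q p U hU _ hθ's hθ'1
    have hcoc : lcf_IsCoc U (lcf_unrCoc U (p ^ k) θ a) := sym_isCoc_unrCoc hθ haU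
    have hcoc' : lcf_IsCoc U (lcf_unrCoc U p
        ((ucl_red (Dvd.intro (p ^ (k - 1)) hN.symm)).comp θ) a) := sym_isCoc_unrCoc hθ's haU
    -- `p^(k-1) • τ = inv (a ^ δθ̄) ≠ 0`
    have h1 : (p ^ (k - 1)) • inv q U (lcf_unrCoc U (p ^ k) θ a) =
        inv q U (lcf_unrCoc U p ((ucl_red (Dvd.intro (p ^ (k - 1)) hN.symm)).comp θ) a) := by
      rw [← lh3m_inv_pow hinv U hU hcoc]
      exact tame_inv_eq_of_cob hinv hU hcoc' (ucl_change (p ^ k) p (p ^ (k - 1)) hN θ hθ a haU)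
    have h2 : (p ^ (k - 1)) • inv q U (lcf_unrCoc U (p ^ k) θ a) ≠ 0 := by
      rw [h1]
      intro h0
      exact hacob ((hinv.eq_zero_iff q U hU _ hcoc').1 h0)
    -- `p^k • τ = 0`
    have h3 : (p ^ k) • inv q U (lcf_unrCoc U (p ^ k) θ a) = 0 := by
      rw [← tame_inv_pow_left hinv hU hθ haU]
      exact tame_inv_pow_n hinv hU hθ haU
    obtain ⟨j, hj⟩ := lxs_qz_gen p k hp hk _ t h3 h2 ht
    refine ⟨a ^ j, fun g => by rw [smul_zpow', haU], ?_⟩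
    rw [tame_inv_zpow_left hinv hU hθ haU j]
    exact hj.symm

end Fermat.Agent.S55
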