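/-
S55 (wave 5), LOCAL side: **[LD1]** local Tate duality, hypothesis-free (the fourth local
hypothesis of `fin55_kappa`).  File requested by helper3 (#962); landed by helper16.
-/
import Fermat.Agent.S55.Local.LocalFinal
import Fermat.Agent.S55.Local.Perm11
import Fermat.Agent.S55.Local.Perm20Main

set_option autoImplicit false

namespace Fermat.Agent.S55

/-- **[LD1]**: local Tate duality. -/
theorem lwf_ld1 : ld_LD1Statement := lwf_ld1_of p11_main lp20_main

end Fermat.Agent.S55
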