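import Mathlib

/-!
# S55, LOCAL side, package [L2]: the cyclic `H¹ ⇒ Ĥ⁻¹` lemma

For a finite cyclic group `G = ⟨σ⟩` acting on a commutative group `B` and a `G`-stable subgroup
`W` of `B`: if every 1-cocycle `G → W` is the coboundary of an element of `W`, then every
`x ∈ W` of norm `1` is of the form `σ y / y` with `y ∈ W`.  Mathlib only.
-/

set_option autoImplicit false

namespace Fermat.Agent.S55

open Finset

section

variable {G : Type*} [Group G] {B : Type*} [CommGroup B] [MulDistribMulAction G B]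

/-- The partial norms `P m = ∏_{j < m} σ ^ j • x`. -/
def lni_P (σ : G) (x : B) (m : ℕ) : B := ∏ j ∈ range m, σ ^ j • x

theorem lni_P_zero (σ : G) (x : B) : lni_P σ x 0 = 1 := by
  simp [lni_P]

theorem lni_P_one (σ : G) (x : B) : lni_P σ x 1 = x := by
  simp [lni_P]

theorem lni_P_succ (σ : G) (x : B) (m : ℕ) :
    lni_P σ x (m + 1) = lni_P σ x m * σ ^ m • x := by
  rw [lni_P, prod_range_succ]
  rfl

theorem lni_P_add (σ : G) (x : B) (m k : ℕ) :
    lni_P σ x (m + k) = lni_P σ x m * σ ^ m • lni_P σ x k := by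
  induction k with
  | zero => simp [lni_P_zero]
  | succ k ih =>
    rw [← add_assoc, lni_P_succ, ih, lni_P_succ, smul_mul', ← mul_smul, ← pow_add, mul_assoc]

theorem lni_P_mem (σ : G) (x : B) (W : Subgroup B)
    (hW : ∀ (g : G) (b : B), b ∈ W → g • b ∈ W) (hx : x ∈ W) (m : ℕ) :
    lni_P σ x m ∈ W :=
  Subgroup.prod_mem W fun _ _ => hW _ _ hx

variable [Fintype G]

/-- The full norm is the partial norm of length `orderOf σ` for a generator `σ`. -/
theorem lni_P_orderOf (σ : G) (hσ : ∀ g : G, g ∈ Subgroup.zpowers σ) (x : B) :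
    lni_P σ x (orderOf σ) = ∏ g : G, g • x := by
  classical
  rw [lni_P, ← IsCyclic.image_range_orderOf hσ, prod_image]
  intro a ha b hb hab
  exact pow_injOn_Iio_orderOf (by simpa using ha) (by simpa using hb) hab

theorem lni_P_mul_add (σ : G) (hσ : ∀ g : G, g ∈ Subgroup.zpowers σ) (x : B)
    (hN : ∏ g : G, g • x = 1) (q r : ℕ) :
    lni_P σ x (orderOf σ * q + r) = lni_P σ x r := by
  induction q with
  | zero => simp
  | succ q ih =>
    have h : orderOf σ * (q + 1) + r = orderOf σ + (orderOf σ * q + r) := by ring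
    rw [h, lni_P_add, lni_P_orderOf σ hσ, hN, one_mul, pow_orderOf_eq_one, one_smul, ih]

theorem lni_P_mod (σ : G) (hσ : ∀ g : G, g ∈ Subgroup.zpowers σ) (x : B)
    (hN : ∏ g : G, g • x = 1) (m : ℕ) :
    lni_P σ x m = lni_P σ x (m % orderOf σ) := by
  conv_lhs => rw [← Nat.div_add_mod m (orderOf σ)]
  exact lni_P_mul_add σ hσ x hN _ _

theorem lni_P_congr (σ : G) (hσ : ∀ g : G, g ∈ Subgroup.zpowers σ) (x : B)
    (hN : ∏ g : G, g • x = 1) {m k : ℕ} (h : σ ^ m = σ ^ k) :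
    lni_P σ x m = lni_P σ x k := by
  rw [lni_P_mod σ hσ x hN m, lni_P_mod σ hσ x hN k]
  congr 1
  exact pow_eq_pow_iff_modEq.1 h

/-- **Cyclic `H¹ ⇒ Ĥ⁻¹`.** -/
theorem lni_cyc (σ : G) (hσ : ∀ g : G, g ∈ Subgroup.zpowers σ) (W : Subgroup B)
    (hW : ∀ (g : G) (b : B), b ∈ W → g • b ∈ W)
    (hH1 : ∀ c : G → B, (∀ g, c g ∈ W) → (∀ g h, c (g * h) = g • c h * c g) →
      ∃ y ∈ W, ∀ g, c g = g • y / y)
    (x : B) (hx : x ∈ W) (hN : ∏ g : G, g • x = 1) :
    ∃ y ∈ W, x = σ • y / y := by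
  classical
  have hk : ∀ g : G, ∃ k : ℕ, σ ^ k = g := fun g => by
    have h1 : g ∈ Submonoid.powers σ := by
      rw [mem_powers_iff_mem_zpowers]
      exact hσ g
    exact h1
  choose k hkg using hk
  obtain ⟨y, hy, hc⟩ := hH1 (fun g => lni_P σ x (k g)) (fun g => lni_P_mem σ x W hW hx _)
    (by
      intro g h
      have h1 : lni_P σ x (k (g * h)) = lni_P σ x (k g + k h) :=
        lni_P_congr σ hσ x hN (by rw [hkg, pow_add, hkg, hkg])
      rw [h1, lni_P_add, hkg, mul_comm])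
  refine ⟨y, hy, ?_⟩
  have h1 : lni_P σ x (k σ) = lni_P σ x 1 := lni_P_congr σ hσ x hN (by rw [hkg, pow_one])
  rw [← hc σ]
  show x = lni_P σ x (k σ)
  rw [h1, lni_P_one]

end

end Fermat.Agent.S55
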