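import Fermat.Agent.S55.Global.HerbBasic

/-!
# S55, LOCAL side, package [L2]: the abstract Herbrand-quotient computation

`A` an additive commutative group with endomorphisms `f`, `g` (`f ∘ g = 0 = g ∘ f`), an
"order" map `π : A → ℤ` with `π ∘ f = 0`, `π ∘ g = n π`, and a subgroup `V` of finite index in
`U = ker π`, stable under `f` and `g`, on which both Herbrand indices are trivial.  If moreover
`ker g = im f` on `A`, then `[ker f : im g] = n`.
-/

set_option autoImplicit false

namespace Fermat.Agent.S55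

open AddSubgroup

section

variable {A : Type*} [AddCommGroup A]

/-- The restriction of an endomorphism to a stable subgroup. -/
noncomputable def lni_res (f : A →+ A) (S : AddSubgroup A) (hS : ∀ a ∈ S, f a ∈ S) : S →+ S :=
  (f.comp S.subtype).codRestrict S (fun a => hS a a.2)

@[simp]
theorem lni_res_coe (f : A →+ A) (S : AddSubgroup A) (hS : ∀ a ∈ S, f a ∈ S) (a : S) :
    ((lni_res f S hS a : S) : A) = f a := rfl

/-- Both Herbrand indices of a stable subgroup are `1` if `ker f = im g`, `ker g = im f`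
elementwise on it. -/
theorem lni_idx_res_eq_one (f g : A →+ A) (S : AddSubgroup A)
    (hfS : ∀ a ∈ S, f a ∈ S) (hgS : ∀ a ∈ S, g a ∈ S)
    (h0 : ∀ x ∈ S, f x = 0 → ∃ y ∈ S, g y = x) :
    herb_idx (lni_res f S hfS) (lni_res g S hgS) = 1 := by
  unfold herb_idx
  rw [AddSubgroup.relIndex_eq_one]
  intro x hx
  have hx' : f x = 0 := by
    have := congrArg (fun z : S => (z : A)) (AddMonoidHom.mem_ker.1 hx)
    simpa using this
  obtain ⟨y, hy, hyx⟩ := h0 x x.2 hx'
  exact ⟨⟨y, hy⟩, Subtype.ext hyx⟩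

theorem lni_idx_top_eq_one (f g : A →+ A) (h0 : ∀ x, f x = 0 → ∃ y, g y = x) :
    herb_idx f g = 1 := by
  unfold herb_idx
  rw [AddSubgroup.relIndex_eq_one]
  intro x hx
  obtain ⟨y, hyx⟩ := h0 x (AddMonoidHom.mem_ker.1 hx)
  exact ⟨y, hyx⟩

/-- **The abstract Herbrand computation.** -/
theorem lni_herb (f g : A →+ A)
    (hfg : ∀ a, f (g a) = 0) (hgf : ∀ a, g (f a) = 0)
    (U V : AddSubgroup A) (hVU : V ≤ U) (hidx : V.relIndex U ≠ 0)
    (hfV : ∀ a ∈ V, f a ∈ V) (hgV : ∀ a ∈ V, g a ∈ V)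
    (π : A →+ ℤ) (hπ : Function.Surjective π) (hker : π.ker = U)
    (n : ℕ) (hn : n ≠ 0)
    (hπf : ∀ a, π (f a) = 0) (hπg : ∀ a, π (g a) = n * π a)
    (hV0 : ∀ x ∈ V, f x = 0 → ∃ y ∈ V, g y = x)
    (hV1 : ∀ x ∈ V, g x = 0 → ∃ y ∈ V, f y = x)
    (hA1 : ∀ x, g x = 0 → ∃ y, f y = x) :
    herb_idx f g = n := by
  -- stability of `U`
  have hfU : ∀ a ∈ U, f a ∈ U := by
    intro a _
    rw [← hker]
    exact AddMonoidHom.mem_ker.2 (hπf a)
  have hgU : ∀ a ∈ U, g a ∈ U := by
    intro a ha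
    rw [← hker] at ha ⊢
    have ha' : π a = 0 := AddMonoidHom.mem_ker.1 ha
    exact AddMonoidHom.mem_ker.2 (by rw [hπg, ha', mul_zero])
  -- the restrictions
  set fU := lni_res f U hfU with hfUdef
  set gU := lni_res g U hgU with hgUdef
  set fV := lni_res f V hfV with hfVdef
  set gV := lni_res g V hgV with hgVdef
  have hfgU : ∀ a, fU (gU a) = 0 := fun a => Subtype.ext (hfg a)
  have hgfU : ∀ a, gU (fU a) = 0 := fun a => Subtype.ext (hgf a)
  -- `V`
  have hFinV : herb_Fin fV gV := by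
    constructor
    · rw [lni_idx_res_eq_one f g V hfV hgV hV0]; exact one_ne_zero
    · rw [lni_idx_res_eq_one g f V hgV hfV hV1]; exact one_ne_zero
  have hqV : herb_q fV gV = 1 := by
    unfold herb_q
    rw [lni_idx_res_eq_one f g V hfV hgV hV0, lni_idx_res_eq_one g f V hgV hfV hV1]
    simp
  -- the sequence `0 → V → U → U/V → 0`
  have hfin : (V.addSubgroupOf U).FiniteIndex := ⟨hidx⟩
  have hQfin : Finite (↥U ⧸ V.addSubgroupOf U) := AddSubgroup.finite_quotient_of_finiteIndex
  have hfQ : V.addSubgroupOf U ≤ (V.addSubgroupOf U).comap fU := by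
    intro a ha
    rw [AddSubgroup.mem_comap, AddSubgroup.mem_addSubgroupOf]
    exact hfV a (AddSubgroup.mem_addSubgroupOf.1 ha)
  have hgQ : V.addSubgroupOf U ≤ (V.addSubgroupOf U).comap gU := by
    intro a ha
    rw [AddSubgroup.mem_comap, AddSubgroup.mem_addSubgroupOf]
    exact hgV a (AddSubgroup.mem_addSubgroupOf.1 ha)
  have hex2 : (QuotientAddGroup.mk' (V.addSubgroupOf U)).ker = (AddSubgroup.inclusion hVU).range := by
    rw [QuotientAddGroup.ker_mk', AddSubgroup.inclusion_range]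
  have hFinU : herb_Fin fU gU :=
    herb_fin_mid (AddSubgroup.inclusion hVU) (QuotientAddGroup.mk' (V.addSubgroupOf U))
      (AddSubgroup.inclusion_injective hVU) (QuotientAddGroup.mk'_surjective _) hex2
      fV gV fU gU
      (QuotientAddGroup.map _ _ fU hfQ) (QuotientAddGroup.map _ _ gU hgQ)
      (fun _ => rfl) (fun _ => rfl) (fun _ => rfl) (fun _ => rfl) hfgU hgfU hFinV
      (herb_fin_of_finite _ _)
  have hqU : herb_q fU gU = 1 := by
    rw [herb_q_of_finite_quot (AddSubgroup.inclusion hVU)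
      (QuotientAddGroup.mk' (V.addSubgroupOf U))
      (AddSubgroup.inclusion_injective hVU) (QuotientAddGroup.mk'_surjective _) hex2
      fV gV fU gU
      (QuotientAddGroup.map _ _ fU hfQ) (QuotientAddGroup.map _ _ gU hgQ)
      (fun _ => rfl) (fun _ => rfl) (fun _ => rfl) (fun _ => rfl) hfgU hgfU hFinV, hqV]
  -- the sequence `0 → U → A → ℤ → 0`
  have hex1 : π.ker = U.subtype.range := by rw [hker, AddSubgroup.range_subtype]
  have hFinZ : herb_Fin (0 : ℤ →+ ℤ) (AddMonoidHom.mulLeft (n : ℤ)) := by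
    constructor
    · rw [herb_idx_int_zero_mul]; exact hn
    · rw [herb_idx_int_mul_zero n hn]; exact one_ne_zero
  have hq : herb_q f g = n := by
    rw [herb_q_mul U.subtype π U.subtype_injective hπ hex1 fU gU f g
      (0 : ℤ →+ ℤ) (AddMonoidHom.mulLeft (n : ℤ))
      (fun _ => rfl) (fun _ => rfl) (fun a => by rw [hπf]; rfl) (fun a => by rw [hπg]; rfl)
      hfg hgf hFinU hFinZ, hqU, herb_q_int n hn, one_mul]
  -- conclusion
  have h1 : herb_idx g f = 1 := lni_idx_top_eq_one g f hA1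
  unfold herb_q at hq
  rw [h1, Nat.cast_one, div_one] at hq
  exact_mod_cast hq

end

end Fermat.Agent.S55
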