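import Fermat.Agent.S55.Local.LFGal
import Fermat.Agent.S55.Local.LCFLeaves
import Fermat.Agent.S55.Local.NormIndexCyc
import Fermat.Agent.S55.Local.NormIndexHerb

/-!
# S55, LOCAL side, package [L2]: the norm index of a cyclic extension of local fields

`lni_main : lcf_UnitsStatement → lcf_NormIndexStatement`: for a cyclic extension `L/K` of local
fields, `[Kˣ : N Lˣ] = [L : K]`.  The Herbrand quotient of `Lˣ` is computed from the exact
sequence `1 → U_L → Lˣ → ℤ → 0` and a cohomologically trivial subgroup `V` of finite index in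
`U_L` (the hypothesis `lcf_UnitsStatement`); `Ĥ⁻¹(G, Lˣ) = 0` is Hilbert 90.
-/

set_option autoImplicit false

namespace Fermat.Agent.S55

open Finset

universe u v

section abstract

variable {G : Type*} [Group G] {B : Type*} [CommGroup B] [MulDistribMulAction G B]

/-- `x ↦ σ x / x`. -/
def lni_del (σ : G) : B →* B where
  toFun x := σ • x / x
  map_one' := by simp
  map_mul' x y := by rw [smul_mul', mul_div_mul_comm]

@[simp]
theorem lni_del_apply (σ : G) (x : B) : lni_del σ x = σ • x / x := rfl

variable (G B) in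
/-- The norm `x ↦ ∏ g, g x`. -/
def lni_nrm [Fintype G] : B →* B where
  toFun x := ∏ g : G, g • x
  map_one' := by simp
  map_mul' x y := by simp [smul_mul', Finset.prod_mul_distrib]

@[simp]
theorem lni_nrm_apply [Fintype G] (x : B) : lni_nrm G B x = ∏ g : G, g • x := rfl

theorem lni_smul_nrm [Fintype G] (σ : G) (x : B) : σ • lni_nrm G B x = lni_nrm G B x := by
  rw [lni_nrm_apply, Finset.smul_prod']
  simp only [← mul_smul]
  exact (Group.mulLeft_bijective σ).prod_comp (fun g => g • x)

theorem lni_nrm_smul [Fintype G] (σ : G) (x : B) : lni_nrm G B (σ • x) = lni_nrm G B x := by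
  rw [lni_nrm_apply]
  simp only [← mul_smul]
  exact (Group.mulRight_bijective σ).prod_comp (fun g => g • x)

theorem lni_del_nrm [Fintype G] (σ : G) (x : B) : lni_del σ (lni_nrm G B x) = 1 := by
  rw [lni_del_apply, lni_smul_nrm, div_self']

theorem lni_nrm_del [Fintype G] (σ : G) (x : B) : lni_nrm G B (lni_del σ x) = 1 := by
  rw [lni_del_apply, map_div, lni_nrm_smul, div_self']

theorem lni_fixed_of_gen (σ : G) (hσ : ∀ g : G, g ∈ Subgroup.zpowers σ) (x : B)
    (hx : σ • x = x) (g : G) : g • x = x := by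
  have h1 : Subgroup.zpowers σ ≤ MulAction.stabilizer G x :=
    Subgroup.zpowers_le.2 (MulAction.mem_stabilizer_iff.2 hx)
  exact MulAction.mem_stabilizer_iff.1 (h1 (hσ g))

theorem lni_mem_ker_del (σ : G) (hσ : ∀ g : G, g ∈ Subgroup.zpowers σ) (x : B) :
    x ∈ (lni_del σ : B →* B).ker ↔ ∀ g : G, g • x = x := by
  rw [MonoidHom.mem_ker, lni_del_apply, div_eq_one]
  exact ⟨fun h g => lni_fixed_of_gen σ hσ x h g, fun h => h σ⟩

/-- **The abstract index computation** (multiplicative form). -/
theorem lni_index [Fintype G] (σ : G) (hσ : ∀ g : G, g ∈ Subgroup.zpowers σ)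
    (U V : Subgroup B) (hVU : V ≤ U) (hidx : V.relIndex U ≠ 0)
    (hV : ∀ (g : G) (b : B), b ∈ V → g • b ∈ V)
    (ord : B →* Multiplicative ℤ) (hord : Function.Surjective ord) (hker : ord.ker = U)
    (hordG : ∀ (g : G) (b : B), ord (g • b) = ord b)
    (hV0 : ∀ x ∈ V, (∀ g : G, g • x = x) → ∃ y ∈ V, x = ∏ g : G, g • y)
    (hV1 : ∀ c : G → B, (∀ g, c g ∈ V) → (∀ g h, c (g * h) = g • c h * c g) →
      ∃ y ∈ V, ∀ g, c g = g • y / y)
    (hB1 : ∀ c : G → B, (∀ g h, c (g * h) = g • c h * c g) → ∃ y, ∀ g, c g = g • y / y) :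
    (lni_nrm G B).range.relIndex (lni_del σ : B →* B).ker = Fintype.card G := by
  classical
  have hne : Fintype.card G ≠ 0 := Fintype.card_ne_zero
  have key := lni_herb (A := Additive B) (MonoidHom.toAdditive (lni_del σ : B →* B))
    (MonoidHom.toAdditive (lni_nrm G B))
    (fun a => congrArg Additive.ofMul (lni_del_nrm σ (Additive.toMul a)))
    (fun a => congrArg Additive.ofMul (lni_nrm_del σ (Additive.toMul a)))
    (Subgroup.toAddSubgroup U) (Subgroup.toAddSubgroup V)
    (Subgroup.toAddSubgroup.le_iff_le.2 hVU)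
    (by rw [Subgroup.relIndex_toAddSubgroup]; exact hidx)
    (fun a ha => V.div_mem (hV σ _ ha) ha)
    (fun a ha => Subgroup.prod_mem V fun g _ => hV g _ ha)
    (MonoidHom.toAdditiveLeft ord)
    (fun n => by
      obtain ⟨b, hb⟩ := hord (Multiplicative.ofAdd n)
      exact ⟨Additive.ofMul b, by
        show Multiplicative.toAdd (ord b) = n
        rw [hb]; rfl⟩)
    (by
      ext a
      rw [AddMonoidHom.mem_ker, ← hker]
      show Multiplicative.toAdd (ord (Additive.toMul a)) = 0 ↔ Additive.toMul a ∈ ord.ker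
      rw [MonoidHom.mem_ker]
      exact ⟨fun h => congrArg Multiplicative.ofAdd h, fun h => congrArg Multiplicative.toAdd h⟩)
    (Fintype.card G) hne
    (fun a => by
      show Multiplicative.toAdd (ord (σ • Additive.toMul a / Additive.toMul a)) = 0
      rw [map_div, hordG, div_self']
      rfl)
    (fun a => by
      show Multiplicative.toAdd (ord (∏ g : G, g • Additive.toMul a)) =
        (Fintype.card G : ℤ) * Multiplicative.toAdd (ord (Additive.toMul a))
      rw [map_prod]
      simp only [hordG]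
      rw [Finset.prod_const, Finset.card_univ, toAdd_pow, nsmul_eq_mul])
    (fun x hx hfx => by
      have hx1 : σ • Additive.toMul x = Additive.toMul x := by
        have : σ • Additive.toMul x / Additive.toMul x = 1 := congrArg Additive.toMul hfx
        exact div_eq_one.1 this
      obtain ⟨y, hy, hxy⟩ := hV0 (Additive.toMul x) hx
        (fun g => lni_fixed_of_gen σ hσ _ hx1 g)
      exact ⟨Additive.ofMul y, hy, congrArg Additive.ofMul hxy.symm⟩)
    (fun x hx hgx => by
      obtain ⟨y, hy, hxy⟩ := lni_cyc σ hσ V hV hV1 (Additive.toMul x) hx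
        (congrArg Additive.toMul hgx)
      exact ⟨Additive.ofMul y, hy, congrArg Additive.ofMul hxy.symm⟩)
    (fun x hgx => by
      obtain ⟨y, -, hxy⟩ := lni_cyc σ hσ (⊤ : Subgroup B) (fun _ _ _ => Subgroup.mem_top _)
        (fun c _ hc => by
          obtain ⟨y, hy⟩ := hB1 c hc
          exact ⟨y, Subgroup.mem_top _, hy⟩)
        (Additive.toMul x) (Subgroup.mem_top _) (congrArg Additive.toMul hgx)
      exact ⟨Additive.ofMul y, congrArg Additive.ofMul hxy.symm⟩)
  have h1 : (MonoidHom.toAdditive (lni_nrm G B)).range =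
      Subgroup.toAddSubgroup (lni_nrm G B).range := by
    ext a
    constructor
    · rintro ⟨b, rfl⟩
      exact ⟨Additive.toMul b, rfl⟩
    · rintro ⟨b, hb⟩
      exact ⟨Additive.ofMul b, congrArg Additive.ofMul hb⟩
  have h2 : (MonoidHom.toAdditive (lni_del σ : B →* B)).ker =
      Subgroup.toAddSubgroup (lni_del σ : B →* B).ker := by
    ext a
    constructor
    · intro h
      exact congrArg Additive.toMul (AddMonoidHom.mem_ker.1 h)
    · intro h
      exact AddMonoidHom.mem_ker.2 (congrArg Additive.ofMul (MonoidHom.mem_ker.1 h))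
  unfold herb_idx at key
  rw [h1, h2, Subgroup.relIndex_toAddSubgroup] at key
  exact key

end abstract

section local_field

variable {K : Type u} {L : Type v} [NormedField K] [NormedField L] [Algebra K L]

/-- the norm of `Lˣ` is the field norm, pushed into `L`. -/
theorem lni_nrm_eq [FiniteDimensional K L] [IsGalois K L] (x : Lˣ) :
    lni_nrm (L ≃ₐ[K] L) Lˣ x =
      Units.map (algebraMap K L : K →* L) (Units.map (Algebra.norm K : L →* K) x) := by
  apply Units.ext
  rw [lni_nrm_apply, Units.coe_prod]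
  simp only [AlgEquiv.smul_units_def]
  exact (Algebra.norm_eq_prod_automorphisms K (x : L)).symm

theorem lni_range_nrm [FiniteDimensional K L] [IsGalois K L] :
    (lni_nrm (L ≃ₐ[K] L) Lˣ).range =
      (Units.map (Algebra.norm K : L →* K)).range.map (Units.map (algebraMap K L : K →* L)) := by
  have h : lni_nrm (L ≃ₐ[K] L) Lˣ =
      (Units.map (algebraMap K L : K →* L)).comp (Units.map (Algebra.norm K : L →* K)) :=
    MonoidHom.ext fun x => lni_nrm_eq x
  rw [h, MonoidHom.range_comp]

theorem lni_ker_del [FiniteDimensional K L] [IsGalois K L] (σ : L ≃ₐ[K] L)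
    (hσ : ∀ g : L ≃ₐ[K] L, g ∈ Subgroup.zpowers σ) :
    (lni_del σ : Lˣ →* Lˣ).ker =
      (⊤ : Subgroup Kˣ).map (Units.map (algebraMap K L : K →* L)) := by
  ext x
  rw [lni_mem_ker_del σ hσ, Subgroup.mem_map]
  constructor
  · intro h
    have h1 : (x : L) ∈ Set.range (algebraMap K L) := by
      rw [IsGalois.mem_range_algebraMap_iff_fixed]
      intro f
      have := congrArg (fun u : Lˣ => (u : L)) (h f)
      simpa [AlgEquiv.smul_units_def] using this
    obtain ⟨k, hk⟩ := h1
    have hk0 : k ≠ 0 := by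
      rintro rfl
      rw [map_zero] at hk
      exact x.ne_zero hk.symm
    exact ⟨Units.mk0 k hk0, Subgroup.mem_top _, Units.ext hk⟩
  · rintro ⟨k, -, rfl⟩ g
    apply Units.ext
    rw [AlgEquiv.smul_units_def]
    simp

/-- **[L2]** from **[L2-V]**. -/
theorem lni_main : lcf_UnitsStatement.{u, v} → lcf_NormIndexStatement.{u, v} := by
  intro hUnits K L _ _ _ _ _ _ _ hcyc
  classical
  obtain ⟨V, hVU, hidx, hVst, hV0, hV1⟩ := hUnits K L
  obtain ⟨σ, hσ⟩ := hcyc.exists_generator
  have key := lni_index (G := L ≃ₐ[K] L) (B := Lˣ) σ hσ (lf_units L) V hVU hidx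
    (fun g b hb => by rw [AlgEquiv.smul_units_def]; exact hVst g b hb)
    (lf_ord L) (lf_ord_surjective L) lf_ker_ord
    (fun g b => by
      rw [AlgEquiv.smul_units_def, lf_ord_apply, lf_ord_apply, lf_ordFun_algEquiv])
    (fun x hx hfix => by
      obtain ⟨y, hy, hxy⟩ := hV0 x hx (fun g => by rw [← AlgEquiv.smul_units_def]; exact hfix g)
      refine ⟨y, hy, ?_⟩
      rw [hxy, finprod_eq_prod_of_fintype]
      simp only [AlgEquiv.smul_units_def])
    (fun c hcV hc => by
      obtain ⟨y, hy, hcy⟩ := hV1 c hcV (fun g h => by rw [← AlgEquiv.smul_units_def]; exact hc g h)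
      exact ⟨y, hy, fun g => by rw [AlgEquiv.smul_units_def]; exact hcy g⟩)
    (fun c hc => by
      obtain ⟨y, hy⟩ := groupCohomology.isMulCoboundary₁_of_isMulCocycle₁_of_aut_to_units c hc
      exact ⟨y, fun g => (hy g).symm⟩)
  have hinj : Function.Injective (Units.map (algebraMap K L : K →* L)) :=
    Units.map_injective (f := (algebraMap K L : K →* L)) (algebraMap K L).injective
  rw [lni_range_nrm, lni_ker_del σ hσ, Subgroup.relIndex_map_map_of_injective _ _ hinj,
    Subgroup.relIndex_top_right] at key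
  rw [key, ← Nat.card_eq_fintype_card, IsGalois.card_aut_eq_finrank]

end local_field

end Fermat.Agent.S55
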