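/-
S55 (Poitou-Tate), LOCAL side, package [LB-PERM20-OF] part 1 (helper16): the two coordinate
systems of a permutation module `F_p[Z]` and of its Tate dual, and the invariants of the dual.
Prefix `lp20_`.  (The coordinate system of `F_p[Z]` itself is helper24's `lcdb_coord`.)
-/
import Mathlib
import Fermat.Agent.S55.Local.LD1Base
import Fermat.Agent.S55.Local.LcdBaseShap

set_option autoImplicit false
set_option maxHeartbeats 1000000
set_option synthInstance.maxHeartbeats 400000
set_option linter.unusedSectionVars false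
set_option linter.style.haveILetI false

noncomputable section

namespace Fermat.Agent.S55

open CategoryTheory Module groupCohomology ExtCitation

section Generic

variable {p : ℕ} [Fact p.Prime] {H : Type} [Group H] (r : H →* s55_GQ)
  (Z : Type) [Fintype Z] [MulAction H Z]

/-- The basis vector `e_z` of the permutation module. -/
def lp20_e (z : Z) : Rep.ofMulAction (ZMod p) H Z := MonoidAlgebra.single z 1

theorem lp20_rho_e (g : H) (z : Z) :
    (Rep.ofMulAction (ZMod p) H Z).ρ g (lp20_e (p := p) Z z) = lp20_e Z (g • z) :=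
  Representation.ofMulAction_single g z 1

theorem lp20_coeff_e [DecidableEq Z] (z z' : Z) :
    MonoidAlgebra.coeff (lp20_e (p := p) (H := H) Z z) z' = if z = z' then 1 else 0 := by
  unfold lp20_e
  rw [MonoidAlgebra.coeff_single, Finsupp.single_apply]

theorem lp20_sum_e (m : Rep.ofMulAction (ZMod p) H Z) :
    m = ∑ z : Z, (MonoidAlgebra.coeff m z) • lp20_e (p := p) Z z := by
  classical
  apply MonoidAlgebra.coeff_injective
  ext z'
  rw [MonoidAlgebra.coeff_sum, Finsupp.finsetSum_apply]
  simp only [MonoidAlgebra.coeff_smul, Finsupp.smul_apply, lp20_coeff_e, smul_eq_mul, mul_ite,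
    mul_one, mul_zero]
  rw [Finset.sum_ite_eq' Finset.univ z']
  simp

/-- A linear functional on the permutation module in coordinates. -/
theorem lp20_dual_apply (φ : Module.Dual (ZMod p) (Rep.ofMulAction (ZMod p) H Z))
    (m : Rep.ofMulAction (ZMod p) H Z) :
    φ m = ∑ z : Z, MonoidAlgebra.coeff m z * φ (lp20_e Z z) := by
  conv_lhs => rw [lp20_sum_e Z m]
  rw [map_sum]
  refine Finset.sum_congr rfl (fun z _ => ?_)
  rw [map_smul, smul_eq_mul]

/-- The coordinate system of the Tate dual of the permutation module: `π'_z φ = φ (e_z)`. -/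
def lp20_coord' :
    shp_Coord Z (ld1_D r (Rep.ofMulAction (ZMod p) H Z)) (ld1_T (p := p) r) where
  π z :=
    { toFun := fun φ => (show Module.Dual (ZMod p) (Rep.ofMulAction (ZMod p) H Z) from φ)
        (lp20_e Z z)
      map_add' := fun _ _ => rfl
      map_smul' := fun _ _ => rfl }
  equiv g z φ := by
    show ((ld1_D r (Rep.ofMulAction (ZMod p) H Z)).ρ g φ) (lp20_e Z (g • z)) =
      (ld1_T (p := p) r).ρ g ((show Module.Dual (ZMod p) (Rep.ofMulAction (ZMod p) H Z) from φ)
        (lp20_e Z z))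
    rw [Rep.dualTwist_ρ_apply]
    show (((cycloChar p).comp r) g : ZMod p) •
        (show Module.Dual (ZMod p) (Rep.ofMulAction (ZMod p) H Z) from φ)
          ((Rep.ofMulAction (ZMod p) H Z).ρ g⁻¹ (lp20_e Z (g • z))) = _
    rw [lp20_rho_e, inv_smul_smul]
    rfl
  inj φ h := by
    apply LinearMap.ext
    intro m
    show (show Module.Dual (ZMod p) (Rep.ofMulAction (ZMod p) H Z) from φ) m = 0
    rw [lp20_dual_apply]
    refine Finset.sum_eq_zero (fun z _ => ?_)
    have := h z
    change (show Module.Dual (ZMod p) (Rep.ofMulAction (ZMod p) H Z) from φ) (lp20_e Z z) = 0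
      at this
    rw [this, mul_zero]
  surj f := by
    classical
    refine ⟨∑ z : Z, (f z : ZMod p) •
      ((Finsupp.lapply z) ∘ₗ (MonoidAlgebra.coeffLinearEquiv (ZMod p)).toLinearMap), ?_⟩
    intro x
    show (∑ z : Z, (f z : ZMod p) •
      ((Finsupp.lapply z) ∘ₗ (MonoidAlgebra.coeffLinearEquiv (ZMod p)).toLinearMap) :
        Module.Dual (ZMod p) (Rep.ofMulAction (ZMod p) H Z)) (lp20_e Z x) = f x
    rw [LinearMap.sum_apply]
    have : ∀ z : Z, ((f z : ZMod p) •
        ((Finsupp.lapply z) ∘ₗ (MonoidAlgebra.coeffLinearEquiv (ZMod p)).toLinearMap) :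
          Module.Dual (ZMod p) (Rep.ofMulAction (ZMod p) H Z)) (lp20_e Z x) =
        if x = z then f z else 0 := by
      intro z
      show (f z : ZMod p) * MonoidAlgebra.coeff (lp20_e (p := p) (H := H) Z x) z = _
      rw [lp20_coeff_e]
      split_ifs <;> simp
    rw [Finset.sum_congr rfl (fun z _ => this z), Finset.sum_ite_eq Finset.univ x]
    simp

theorem lp20_coord'_π (z : Z) (φ : ld1_D r (Rep.ofMulAction (ZMod p) H Z)) :
    (lp20_coord' (p := p) r Z).π z φ =
      (show Module.Dual (ZMod p) (Rep.ofMulAction (ZMod p) H Z) from φ) (lp20_e Z z) := rfl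

/-! ### Orbit representatives -/

theorem lp20_exists_reps :
    ∃ T : Finset Z, shp_Covers H (T : Set Z) ∧ shp_Indep H (T : Set Z) := by
  classical
  letI : Fintype (MulAction.orbitRel.Quotient H Z) := Fintype.ofFinite _
  refine ⟨Finset.univ.image
    (fun a : MulAction.orbitRel.Quotient H Z => Quotient.out a), ?_, ?_⟩
  · intro x
    refine ⟨Quotient.out (Quotient.mk (MulAction.orbitRel H Z) x), ?_, ?_⟩
    · rw [Finset.mem_coe, Finset.mem_image]
      exact ⟨_, Finset.mem_univ _, rfl⟩
    · have h1 : (MulAction.orbitRel H Z).r x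
          (Quotient.out (Quotient.mk (MulAction.orbitRel H Z) x)) :=
        Quotient.exact (Quotient.out_eq _).symm
      rw [MulAction.orbitRel_apply] at h1
      obtain ⟨g, hg⟩ := h1
      exact ⟨g, hg⟩
  · intro t ht t' ht' hg
    rw [Finset.mem_coe, Finset.mem_image] at ht ht'
    obtain ⟨a, -, rfl⟩ := ht
    obtain ⟨b, -, rfl⟩ := ht'
    obtain ⟨g, hg⟩ := hg
    have h1 : (MulAction.orbitRel H Z).r (Quotient.out b) (Quotient.out a) := by
      rw [MulAction.orbitRel_apply]
      exact ⟨g, hg⟩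
    have h2 : Quotient.mk (MulAction.orbitRel H Z) (Quotient.out b) =
        Quotient.mk (MulAction.orbitRel H Z) (Quotient.out a) := Quotient.sound h1
    rw [Quotient.out_eq, Quotient.out_eq] at h2
    rw [h2]

/-! ### The invariants of the Tate dual -/

variable {Z}

theorem lp20_inv_smul (m : ld1_D r (Rep.ofMulAction (ZMod p) H Z))
    (hm : m ∈ (ld1_D r (Rep.ofMulAction (ZMod p) H Z)).ρ.invariants) (g : H) (z : Z) :
    (lp20_coord' (p := p) r Z).π (g • z) m =
      (ld1_T (p := p) r).ρ g ((lp20_coord' (p := p) r Z).π z m) := by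
  have h1 := (lp20_coord' (p := p) r Z).equiv g z m
  rw [hm g] at h1
  exact h1

theorem lp20_inv_eq_zero {T : Set Z} (hT : shp_Covers H T)
    (m : ld1_D r (Rep.ofMulAction (ZMod p) H Z))
    (hm : m ∈ (ld1_D r (Rep.ofMulAction (ZMod p) H Z)).ρ.invariants)
    (h0 : ∀ t ∈ T, (lp20_coord' (p := p) r Z).π t m = 0) : m = 0 := by
  apply (lp20_coord' (p := p) r Z).inj
  intro x
  obtain ⟨t, ht, g, rfl⟩ := hT x
  rw [lp20_inv_smul r m hm, h0 t ht, map_zero]

theorem lp20_inv_exists (hS0 : shp_Surj₀Statement) (hχ : ld1_ChiTriv r p Z)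
    {T : Set Z} (hT : shp_Indep H T) (a : Z → ZMod p) :
    ∃ m : ld1_D r (Rep.ofMulAction (ZMod p) H Z),
      m ∈ (ld1_D r (Rep.ofMulAction (ZMod p) H Z)).ρ.invariants ∧
        ∀ t ∈ T, (lp20_coord' (p := p) r Z).π t m = a t := by
  obtain ⟨m, hm, hmt⟩ := hS0 (ZMod p) H Z (ld1_D r (Rep.ofMulAction (ZMod p) H Z))
    (ld1_T (p := p) r) (lp20_coord' (p := p) r Z) T hT a (by
      intro t _ v
      show (((cycloChar p) (r (v : H)) : (ZMod p)ˣ) : ZMod p) • (a t) = a t
      rw [hχ t (v : H) v.2, Units.val_one, one_smul])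
  exact ⟨m, hm, hmt⟩

end Generic

end Fermat.Agent.S55
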