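/-
S55 (Poitou-Tate), LOCAL side, package [LB-PERM20-OF] part 2 (helper16): the invariant of
`c ∪ m` for a continuous 2-cocycle `c` of `Γ = Gal(Ω/ℚ_q)` with values in a permutation module
`F_p[Z]` and an invariant `m` of its Tate dual, in terms of the Shapiro components of `c`:
`inv_Γ (ζ ^ (c ∪ m)) = ∑_{t ∈ T} (m (e_t)) • inv_{Stab t} (ζ ^ (c_t))`   ([TR-INV]).
Prefix `lp20_`.
-/
import Mathlib
import Fermat.Agent.S55.Local.Perm20Tools
import Fermat.Agent.S55.Local.PtInv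
import Fermat.Agent.S55.Local.Krasner
import Fermat.Agent.S55.Local.V20

set_option autoImplicit false
set_option maxHeartbeats 1000000
set_option synthInstance.maxHeartbeats 400000
set_option linter.unusedSectionVars false
set_option linter.style.haveILetI false

noncomputable section

namespace Fermat.Agent.S55

open CategoryTheory Module groupCohomology ExtCitation

section Core

variable (p : ℕ) [Fact p.Prime] (q : ℕ) [Fact q.Prime] (Z : Type) [Fintype Z]
  [MulAction (lcf_Gal q) Z]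

theorem lp20_exp_sum {ι : Type*} (s : Finset ι) (f : ι → ZMod p) :
    ptinv_exp p q (∑ i ∈ s, f i) = ∏ i ∈ s, ptinv_exp p q (f i) := by
  classical
  induction s using Finset.induction_on with
  | empty => simp [ptinv_exp_zero]
  | insert a s ha ih => rw [Finset.sum_insert ha, Finset.prod_insert ha, ptinv_exp_add, ih]

theorem lp20_zeta_prim : IsPrimitiveRoot (ld_zetaLoc p q) p := by
  rw [← IsPrimitiveRoot.coe_units_iff]
  exact (ld_zeta_spec p).map_of_injective (padicEmbedding q).toRingHom.injective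

/-- The action is smooth in the local sense. -/
theorem lp20_smooth_loc (hsm : ld1_SmoothAct (localGaloisToGlobal q) Z) :
    ∃ E : IntermediateField ℚ_[q] (PadicAlgCl q), FiniteDimensional ℚ_[q] E ∧
      ∀ s ∈ E.fixingSubgroup, ∀ x : Z, s • x = x := by
  obtain ⟨F, hF, h⟩ := hsm
  obtain ⟨E, hE, hEF⟩ := kras_conv q F hF
  exact ⟨E, hE, fun s hs x => h s (hEF s hs) x⟩

variable {Z}

theorem lp20_stab_isOpen (hsm : ld1_SmoothAct (localGaloisToGlobal q) Z) (t : Z) :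
    lcf_IsOpen (MulAction.stabilizer (lcf_Gal q) t) := by
  obtain ⟨E, hE, h⟩ := lp20_smooth_loc q Z hsm
  exact ⟨E, hE, fun s hs => h s hs t⟩

theorem lp20_zeta_fix (hχ : ld1_ChiTriv (localGaloisToGlobal q) p Z) (t : Z)
    (g : ↥(MulAction.stabilizer (lcf_Gal q) t)) : g • ld_zetaLoc p q = ld_zetaLoc p q := by
  show (g : lcf_Gal q) • ld_zetaLoc p q = ld_zetaLoc p q
  rw [ptinv_zeta_smul, hχ t (g : lcf_Gal q) g.2, Units.val_one]
  have h1 : (1 : ZMod p).val = 1 := by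
    haveI : Fact (1 < p) := ⟨(Fact.out : p.Prime).one_lt⟩
    exact ZMod.val_one p
  rw [h1, pow_one]

/-- The `(X → Ωˣ)`-valued cochain `ζ ^ (c_z · m(e_z))`. -/
def lp20_F (c : lcf_Gal q × lcf_Gal q → Rep.ofMulAction (ZMod p) (lcf_Gal q) Z)
    (m : ld1_D (localGaloisToGlobal q) (Rep.ofMulAction (ZMod p) (lcf_Gal q) Z)) :
    lcf_Gal q × lcf_Gal q → Z → (PadicAlgCl q)ˣ :=
  fun x z => ptinv_exp p q
    (MonoidAlgebra.coeff (c x) z * (lp20_coord' (p := p) (localGaloisToGlobal q) Z).π z m)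

theorem lp20_F_smooth (c : lcf_Gal q × lcf_Gal q → Rep.ofMulAction (ZMod p) (lcf_Gal q) Z)
    (hc : IsLevelConstant₂ (localGaloisToGlobal q) c)
    (m : ld1_D (localGaloisToGlobal q) (Rep.ofMulAction (ZMod p) (lcf_Gal q) Z)) :
    ∃ E : IntermediateField ℚ_[q] (PadicAlgCl q), FiniteDimensional ℚ_[q] E ∧
      ∀ g g' s s' : lcf_Gal q, s ∈ E.fixingSubgroup → s' ∈ E.fixingSubgroup →
        lp20_F p q c m (g * s, g' * s') = lp20_F p q c m (g, g') := by
  obtain ⟨F, hF, h⟩ := hc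
  obtain ⟨E, hE, hEF⟩ := kras_conv q F hF
  refine ⟨E, hE, fun g g' s s' hs hs' => ?_⟩
  funext z
  unfold lp20_F
  rw [h g g' s s' (hEF s hs) (hEF s' hs')]

theorem lp20_coeff_rho (g : lcf_Gal q) (a : Rep.ofMulAction (ZMod p) (lcf_Gal q) Z) (x : Z) :
    MonoidAlgebra.coeff ((Rep.ofMulAction (ZMod p) (lcf_Gal q) Z).ρ g a) x =
      MonoidAlgebra.coeff a (g⁻¹ • x) := by
  have h1 := (lcdb_coord (k := ZMod p) (Γ := lcf_Gal q) (X := Z)).equiv g (g⁻¹ • x) a
  rw [smul_inv_smul] at h1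
  exact h1

theorem lp20_F_cocycle (c : lcf_Gal q × lcf_Gal q → Rep.ofMulAction (ZMod p) (lcf_Gal q) Z)
    (hc : c ∈ cocycles₂ (Rep.ofMulAction (ZMod p) (lcf_Gal q) Z))
    (m : ld1_D (localGaloisToGlobal q) (Rep.ofMulAction (ZMod p) (lcf_Gal q) Z))
    (hm : m ∈ (ld1_D (localGaloisToGlobal q)
      (Rep.ofMulAction (ZMod p) (lcf_Gal q) Z)).ρ.invariants)
    (g h j : lcf_Gal q) (x : Z) :
    lp20_F p q c m (g * h, j) x * lp20_F p q c m (g, h) x =
      g • lp20_F p q c m (h, j) (g⁻¹ • x) * lp20_F p q c m (g, h * j) x := by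
  have h1 := (mem_cocycles₂_iff c).1 hc g h j
  have h2 := congrArg (fun a : Rep.ofMulAction (ZMod p) (lcf_Gal q) Z =>
    MonoidAlgebra.coeff a x) h1
  simp only [MonoidAlgebra.coeff_add, Finsupp.add_apply] at h2
  rw [lp20_coeff_rho] at h2
  have h3 := lp20_inv_smul (localGaloisToGlobal q) m hm g (g⁻¹ • x)
  rw [smul_inv_smul] at h3
  unfold lp20_F
  rw [ptinv_smul_exp, ← ptinv_exp_add, ← ptinv_exp_add]
  congr 1
  rw [h3]
  have h4 : (ld1_T (p := p) (localGaloisToGlobal q)).ρ g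
      ((lp20_coord' (p := p) (localGaloisToGlobal q) Z).π (g⁻¹ • x) m) =
      ((cycloChar p (localGaloisToGlobal q g) : (ZMod p)ˣ) : ZMod p) *
        (lp20_coord' (p := p) (localGaloisToGlobal q) Z).π (g⁻¹ • x) m := rfl
  rw [h4]
  linear_combination ((cycloChar p (localGaloisToGlobal q g) : (ZMod p)ˣ) : ZMod p) *
    (lp20_coord' (p := p) (localGaloisToGlobal q) Z).π (g⁻¹ • x) m * h2

theorem lp20_cup_apply (c : lcf_Gal q × lcf_Gal q → Rep.ofMulAction (ZMod p) (lcf_Gal q) Z)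
    (m : ld1_D (localGaloisToGlobal q) (Rep.ofMulAction (ZMod p) (lcf_Gal q) Z))
    (hm : m ∈ (ld1_D (localGaloisToGlobal q)
      (Rep.ofMulAction (ZMod p) (lcf_Gal q) Z)).ρ.invariants)
    (g h : lcf_Gal q) :
    cup₂₀ (ld1_ev (localGaloisToGlobal q) (Rep.ofMulAction (ZMod p) (lcf_Gal q) Z)) c m (g, h) =
      ∑ z : Z, MonoidAlgebra.coeff (c (g, h)) z *
        (lp20_coord' (p := p) (localGaloisToGlobal q) Z).π z m := by
  rw [cup₂₀_apply, hm (g * h), ld1_ev_apply]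
  exact lp20_dual_apply Z _ _

theorem lp20_F_prod (c : lcf_Gal q × lcf_Gal q → Rep.ofMulAction (ZMod p) (lcf_Gal q) Z)
    (m : ld1_D (localGaloisToGlobal q) (Rep.ofMulAction (ZMod p) (lcf_Gal q) Z))
    (hm : m ∈ (ld1_D (localGaloisToGlobal q)
      (Rep.ofMulAction (ZMod p) (lcf_Gal q) Z)).ρ.invariants)
    (g h : lcf_Gal q) :
    ∏ z : Z, lp20_F p q c m (g, h) z =
      ptinv_exp p q (cup₂₀ (ld1_ev (localGaloisToGlobal q)
        (Rep.ofMulAction (ZMod p) (lcf_Gal q) Z)) c m (g, h)) := by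
  rw [lp20_cup_apply p q c m hm, lp20_exp_sum]
  rfl

end Core

end Fermat.Agent.S55
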