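/-
S55 (Poitou-Tate), LOCAL side, package [LB-PERM20-OF] part 3 (helper16): the key formula
`e (τ [c ∪ m]) = ∑_{t ∈ T} (m (e_t)).val • inv_{Stab t} (ζ ^ (c_t))`
for the invariant map `τ = ptinv p S q` compatible with a local invariant system `inv`.
Prefix `lp20_`.
-/
import Mathlib
import Fermat.Agent.S55.Local.Perm20Arith
import Fermat.Agent.S55.Local.LBPermAdm
import Fermat.Agent.S55.Local.LBAsm

set_option autoImplicit false
set_option maxHeartbeats 1000000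
set_option synthInstance.maxHeartbeats 400000
set_option linter.unusedSectionVars false
set_option linter.style.haveILetI false

noncomputable section

namespace Fermat.Agent.S55

open CategoryTheory Module groupCohomology ExtCitation

/-! ### Scaling of invariants -/

section Scale

variable (p : ℕ) [Fact p.Prime] (q : ℕ) [Fact q.Prime]

theorem lp20_inv_one (inv : lcf_InvType) (hinv : lcf_IsInvSystem inv)
    (U : Subgroup (lcf_Gal q)) (hU : lcf_IsOpen U) :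
    inv q U (fun _ => (1 : (PadicAlgCl q)ˣ)) = 0 := by
  have hcoc : lcf_IsCoc U (fun _ : ↥U × ↥U => (1 : (PadicAlgCl q)ˣ)) := by
    refine ⟨fun g h j => ?_, ⟨⊥, inferInstance, fun _ _ _ _ _ _ => rfl⟩⟩
    show (1 : (PadicAlgCl q)ˣ) * 1 = g • (1 : (PadicAlgCl q)ˣ) * 1
    rw [smul_one]
  have h1 := hinv.add q U hU _ _ hcoc hcoc
  have h2 : ((fun _ : ↥U × ↥U => (1 : (PadicAlgCl q)ˣ)) * fun _ => 1) = fun _ => 1 := by
    funext x
    exact one_mul _
  rw [h2] at h1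
  exact left_eq_add.1 h1

theorem lp20_inv_scale (inv : lcf_InvType) (hinv : lcf_IsInvSystem inv)
    (U : Subgroup (lcf_Gal q)) (hU : lcf_IsOpen U)
    (hζU : ∀ g : ↥U, g • ld_zetaLoc p q = ld_zetaLoc p q)
    (f : ↥U × ↥U → ZMod p) (hfs : lcf_Smooth₂ U f)
    (hfc : ∀ g h j : ↥U, f (h, j) - f (g * h, j) + f (g, h * j) - f (g, h) = 0) (k : ZMod p) :
    inv q U (fun y => ptinv_exp p q (f y * k)) =
      k.val • inv q U (fun y => ptinv_exp p q (f y)) := by
  have hζ := lp20_zeta_prim p q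
  have key : ∀ n : ℕ, inv q U (fun y => ptinv_exp p q (f y * (n : ZMod p))) =
      n • inv q U (fun y => ptinv_exp p q (f y)) := by
    intro n
    induction n with
    | zero =>
      simp only [Nat.cast_zero, mul_zero, ptinv_exp_zero, zero_smul]
      exact lp20_inv_one q inv hinv U hU
    | succ n ih =>
      have h1 : (fun y => ptinv_exp p q (f y * ((n + 1 : ℕ) : ZMod p))) =
          (fun y => ptinv_exp p q (f y * (n : ZMod p))) * (fun y => ptinv_exp p q (f y)) := by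
        funext y
        rw [Pi.mul_apply, ← ptinv_exp_add]
        congr 1
        push_cast
        ring
      have hc1 : lcf_IsCoc U (fun y => ptinv_exp p q (f y * (n : ZMod p))) := by
        refine lv20_isCoc_exp U hζ hζU (fun y => f y * (n : ZMod p))
          (lh3m_smooth₂_comp U hfs (fun a => a * (n : ZMod p))) (fun g h j => ?_)
        have := hfc g h j
        linear_combination (n : ZMod p) * this
      have hc2 : lcf_IsCoc U (fun y => ptinv_exp p q (f y)) :=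
        lv20_isCoc_exp U hζ hζU f hfs hfc
      rw [h1, hinv.add q U hU _ _ hc1 hc2, ih, succ_nsmul]
  have h2 := key k.val
  haveI : NeZero p := ⟨(Fact.out : p.Prime).ne_zero⟩
  rw [ZMod.natCast_zmod_val] at h2
  exact h2

end Scale

/-! ### The Shapiro components of a cocycle -/

section Comp

variable (p : ℕ) [Fact p.Prime] (q : ℕ) [Fact q.Prime] {Z : Type} [Fintype Z]
  [MulAction (lcf_Gal q) Z]

/-- The Shapiro component at `t` of a 2-cochain with values in the permutation module. -/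
def lp20_comp (c : lcf_Gal q × lcf_Gal q → Rep.ofMulAction (ZMod p) (lcf_Gal q) Z) (t : Z) :
    ↥(MulAction.stabilizer (lcf_Gal q) t) × ↥(MulAction.stabilizer (lcf_Gal q) t) → ZMod p :=
  fun y => MonoidAlgebra.coeff (c ((y.1 : lcf_Gal q), (y.2 : lcf_Gal q))) t

theorem lp20_comp_smooth (c : lcf_Gal q × lcf_Gal q → Rep.ofMulAction (ZMod p) (lcf_Gal q) Z)
    (hc : IsLevelConstant₂ (localGaloisToGlobal q) c) (t : Z) :
    lcf_Smooth₂ (MulAction.stabilizer (lcf_Gal q) t) (lp20_comp p q c t) := by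
  obtain ⟨F, hF, h⟩ := hc
  obtain ⟨E, hE, hEF⟩ := kras_conv q F hF
  refine ⟨E, hE, fun g g' s s' hs hs' => ?_⟩
  unfold lp20_comp
  simp only [Subgroup.coe_mul]
  rw [h _ _ _ _ (hEF _ hs) (hEF _ hs')]

theorem lp20_comp_cocycle (c : lcf_Gal q × lcf_Gal q → Rep.ofMulAction (ZMod p) (lcf_Gal q) Z)
    (hc : c ∈ cocycles₂ (Rep.ofMulAction (ZMod p) (lcf_Gal q) Z)) (t : Z)
    (g h j : ↥(MulAction.stabilizer (lcf_Gal q) t)) :
    lp20_comp p q c t (h, j) - lp20_comp p q c t (g * h, j) + lp20_comp p q c t (g, h * j) -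
      lp20_comp p q c t (g, h) = 0 := by
  have h1 := (mem_cocycles₂_iff c).1 hc (g : lcf_Gal q) (h : lcf_Gal q) (j : lcf_Gal q)
  have h2 := congrArg (fun a : Rep.ofMulAction (ZMod p) (lcf_Gal q) Z =>
    MonoidAlgebra.coeff a t) h1
  simp only [MonoidAlgebra.coeff_add, Finsupp.add_apply] at h2
  rw [lp20_coeff_rho] at h2
  have h3 : (g : lcf_Gal q)⁻¹ • t = t := by
    rw [inv_smul_eq_iff]
    exact (MulAction.mem_stabilizer_iff.1 g.2).symm
  rw [h3] at h2
  unfold lp20_comp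
  simp only [Subgroup.coe_mul]
  linear_combination -h2

end Comp

/-! ### The key formula -/

section Key

variable (p : ℕ) [Fact p.Prime] (S : Finset Nat.Primes) (q : ↥S)
  {Z : Type} [Fintype Z] [MulAction (lcf_Gal (q.1 : ℕ)) Z]

theorem lp20_key (inv : lcf_InvType) (ptinv : pt_InvFamily) (hinv : lcf_IsInvSystem inv)
    (hcompat : ld_Compat inv ptinv) (hTR : shp_TrInvStatement)
    (hsm : ld1_SmoothAct (localGaloisToGlobal (q.1 : ℕ)) Z)
    (hχ : ld1_ChiTriv (localGaloisToGlobal (q.1 : ℕ)) p Z)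
    (c : lcf_Gal (q.1 : ℕ) × lcf_Gal (q.1 : ℕ) →
      Rep.ofMulAction (ZMod p) (lcf_Gal (q.1 : ℕ)) Z)
    (hc : c ∈ levelCocycles₂ (localGaloisToGlobal (q.1 : ℕ))
      (Rep.ofMulAction (ZMod p) (lcf_Gal (q.1 : ℕ)) Z))
    (m : ld1_D (localGaloisToGlobal (q.1 : ℕ)) (Rep.ofMulAction (ZMod p) (lcf_Gal (q.1 : ℕ)) Z))
    (hm : m ∈ (ld1_D (localGaloisToGlobal (q.1 : ℕ))
      (Rep.ofMulAction (ZMod p) (lcf_Gal (q.1 : ℕ)) Z)).ρ.invariants)
    (hcoc : cup₂₀ (ld1_ev (localGaloisToGlobal (q.1 : ℕ))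
        (Rep.ofMulAction (ZMod p) (lcf_Gal (q.1 : ℕ)) Z)) c m ∈
      levelCocycles₂ (extArithLoc S (Sum.inr q : extArithIndex S))
        (Rep.res (extArithLoc S (Sum.inr q : extArithIndex S)) (pt_T p)))
    (T : Finset Z) (hTc : shp_Covers (lcf_Gal (q.1 : ℕ)) (T : Set Z))
    (hTi : shp_Indep (lcf_Gal (q.1 : ℕ)) (T : Set Z)) :
    ptinv_e p (ptinv p S (Sum.inr q) (continuousH2π _ _ ⟨_, hcoc⟩)) =
      ∑ t ∈ T, ((lp20_coord' (p := p) (localGaloisToGlobal (q.1 : ℕ)) Z).π t m : ZMod p).val •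
        inv (q.1 : ℕ) (MulAction.stabilizer (lcf_Gal (q.1 : ℕ)) t)
          (fun y => ptinv_exp p (q.1 : ℕ) (lp20_comp p (q.1 : ℕ) c t y)) := by
  have h1 := hcompat p S q _ hcoc
  rw [ptinv_e_apply]
  have h2 := hTR inv hinv (q.1 : ℕ) Z (lp20_smooth_loc (q.1 : ℕ) Z hsm)
    (lp20_F p (q.1 : ℕ) c m) (lp20_F_smooth p (q.1 : ℕ) c hc.2 m)
    (lp20_F_cocycle p (q.1 : ℕ) c hc.1 m hm) T hTc hTi
  have h3 : ld_mu p S q (cup₂₀ (ld1_ev (localGaloisToGlobal (q.1 : ℕ))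
        (Rep.ofMulAction (ZMod p) (lcf_Gal (q.1 : ℕ)) Z)) c m) =
      (fun y : ↥(⊤ : Subgroup (lcf_Gal (q.1 : ℕ))) × ↥(⊤ : Subgroup (lcf_Gal (q.1 : ℕ))) =>
        ∏ x : Z, lp20_F p (q.1 : ℕ) c m
          ((y.1 : lcf_Gal (q.1 : ℕ)), (y.2 : lcf_Gal (q.1 : ℕ))) x) := by
    funext y
    rw [lp20_F_prod p (q.1 : ℕ) c m hm, ptinv_mu_apply]
    rfl
  have h4 : ∀ t ∈ T, inv (q.1 : ℕ) (MulAction.stabilizer (lcf_Gal (q.1 : ℕ)) t)
        (fun y => lp20_F p (q.1 : ℕ) c m ((y.1 : lcf_Gal (q.1 : ℕ)), (y.2 : lcf_Gal (q.1 : ℕ))) t) =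
      ((lp20_coord' (p := p) (localGaloisToGlobal (q.1 : ℕ)) Z).π t m : ZMod p).val •
        inv (q.1 : ℕ) (MulAction.stabilizer (lcf_Gal (q.1 : ℕ)) t)
          (fun y => ptinv_exp p (q.1 : ℕ) (lp20_comp p (q.1 : ℕ) c t y)) := fun t _ =>
    lp20_inv_scale p (q.1 : ℕ) inv hinv _ (lp20_stab_isOpen (q.1 : ℕ) hsm t)
      (lp20_zeta_fix p (q.1 : ℕ) hχ t) (lp20_comp p (q.1 : ℕ) c t)
      (lp20_comp_smooth p (q.1 : ℕ) c hc.2 t) (lp20_comp_cocycle p (q.1 : ℕ) c hc.1 t) _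
  exact h1.symm.trans ((congrArg (fun F => inv (q.1 : ℕ) ⊤ F) h3).trans
    (h2.trans (Finset.sum_congr rfl h4)))

end Key

end Fermat.Agent.S55
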