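/-
S55 (Poitou-Tate), LOCAL side, package [LB-PERM20-OF] part 4 (helper16): the dual basis
`(m_t)_{t ∈ T}` of the invariants of the Tate dual of a permutation module (SHAP-SURJ 0), the
expansion of an invariant in this basis, and two formulas for the embedding `F_p → ℚ/ℤ`.
Prefix `lp20_`.
-/
import Mathlib
import Fermat.Agent.S55.Local.Perm20Key

set_option autoImplicit false
set_option maxHeartbeats 1000000
set_option synthInstance.maxHeartbeats 400000
set_option linter.unusedSectionVars false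
set_option linter.style.haveILetI false

noncomputable section

namespace Fermat.Agent.S55

open CategoryTheory Module groupCohomology ExtCitation

section Basis

variable {p : ℕ} [Fact p.Prime] {H : Type} [Group H] (r : H →* s55_GQ)
  {Z : Type} [Fintype Z] [MulAction H Z]

/-- The dual basis of the invariants of the Tate dual (SHAP-SURJ 0). -/
theorem lp20_exists_basis (hS0 : shp_Surj₀Statement) (hχ : ld1_ChiTriv r p Z)
    (T : Finset Z) (hTi : shp_Indep H (T : Set Z)) :
    ∃ mB : Z → ld1_D r (Rep.ofMulAction (ZMod p) H Z),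
      (∀ t, mB t ∈ (ld1_D r (Rep.ofMulAction (ZMod p) H Z)).ρ.invariants) ∧
      (∀ t ∈ T, ((lp20_coord' (p := p) r Z).π t (mB t) : ZMod p) = 1) ∧
      (∀ t, ∀ t' ∈ T, t' ≠ t → ((lp20_coord' (p := p) r Z).π t' (mB t) : ZMod p) = 0) := by
  classical
  have h := fun t : Z => lp20_inv_exists r hS0 hχ (T := (T : Set Z)) hTi
    (fun z => if z = t then (1 : ZMod p) else 0)
  choose mB h1 h2 using h
  refine ⟨mB, h1, fun t ht => ?_, fun t t' ht' hne => ?_⟩
  · rw [h2 t t ht, if_pos rfl]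
  · rw [h2 t t' ht', if_neg hne]

/-- The expansion of an invariant of the Tate dual in the dual basis. -/
theorem lp20_expand (T : Finset Z) (hTc : shp_Covers H (T : Set Z))
    (mB : Z → ld1_D r (Rep.ofMulAction (ZMod p) H Z))
    (hmBi : ∀ t, mB t ∈ (ld1_D r (Rep.ofMulAction (ZMod p) H Z)).ρ.invariants)
    (hmB1 : ∀ t ∈ T, ((lp20_coord' (p := p) r Z).π t (mB t) : ZMod p) = 1)
    (hmB0 : ∀ t, ∀ t' ∈ T, t' ≠ t → ((lp20_coord' (p := p) r Z).π t' (mB t) : ZMod p) = 0)
    (m : ld1_D r (Rep.ofMulAction (ZMod p) H Z))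
    (hm : m ∈ (ld1_D r (Rep.ofMulAction (ZMod p) H Z)).ρ.invariants) :
    m = ∑ t ∈ T, ((lp20_coord' (p := p) r Z).π t m : ZMod p) • mB t := by
  classical
  rw [← sub_eq_zero]
  refine lp20_inv_eq_zero r hTc _ (Submodule.sub_mem _ hm (Submodule.sum_mem _
    (fun t _ => Submodule.smul_mem _ _ (hmBi t)))) (fun t' ht' => ?_)
  rw [map_sub, map_sum, sub_eq_zero]
  rw [Finset.sum_eq_single t']
  · rw [map_smul, hmB1 t' ht']
    exact (mul_one _).symm
  · intro t _ hne
    rw [map_smul, hmB0 t t' ht' hne.symm]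
    exact mul_zero _
  · intro h
    exact absurd ht' h

/-- A functional on the invariants of the Tate dual in the dual basis. -/
theorem lp20_dual_expand (T : Finset Z) (hTc : shp_Covers H (T : Set Z))
    (mB : Z → ld1_D r (Rep.ofMulAction (ZMod p) H Z))
    (hmBi : ∀ t, mB t ∈ (ld1_D r (Rep.ofMulAction (ZMod p) H Z)).ρ.invariants)
    (hmB1 : ∀ t ∈ T, ((lp20_coord' (p := p) r Z).π t (mB t) : ZMod p) = 1)
    (hmB0 : ∀ t, ∀ t' ∈ T, t' ≠ t → ((lp20_coord' (p := p) r Z).π t' (mB t) : ZMod p) = 0)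
    (φ : Module.Dual (ZMod p) ↥((ld1_D r (Rep.ofMulAction (ZMod p) H Z)).ρ.invariants))
    (m : ↥((ld1_D r (Rep.ofMulAction (ZMod p) H Z)).ρ.invariants)) :
    φ m = ∑ t ∈ T, φ ⟨mB t, hmBi t⟩ * ((lp20_coord' (p := p) r Z).π t m.1 : ZMod p) := by
  have h1 : m = ∑ t ∈ T, ((lp20_coord' (p := p) r Z).π t m.1 : ZMod p) •
      (⟨mB t, hmBi t⟩ : ↥((ld1_D r (Rep.ofMulAction (ZMod p) H Z)).ρ.invariants)) := by
    apply Subtype.ext
    rw [Submodule.coe_sum]
    exact lp20_expand r T hTc mB hmBi hmB1 hmB0 m.1 m.2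
  conv_lhs => rw [h1]
  rw [map_sum]
  refine Finset.sum_congr rfl (fun t _ => ?_)
  rw [map_smul, smul_eq_mul, mul_comm]

end Basis

section Emb

variable (p : ℕ) [Fact p.Prime]

theorem lp20_e_val (a : ZMod p) : a.val • lcf_qz (1 / (p : ℚ)) = ptinv_e p a := by
  rw [ptinv_e_apply, ← map_nsmul]
  congr 1
  rw [nsmul_eq_mul, mul_one_div]

theorem lp20_e_mul (a k : ZMod p) : k.val • ptinv_e p a = ptinv_e p (a * k) := by
  haveI : NeZero p := ⟨(Fact.out : p.Prime).ne_zero⟩
  have h : a * k = k.val • a := by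
    rw [nsmul_eq_mul, ZMod.natCast_zmod_val, mul_comm]
  rw [h, map_nsmul]

end Emb

end Fermat.Agent.S55
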