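/-
S55 (Poitou-Tate), LOCAL side, package [LB-PERM20-OF] part 5 (helper16): the two Shapiro steps.
* `lp20_inj_core`  ([V20-INJ] + SHAP-INJ 2): a continuous 2-cocycle of `Γ = Gal(Ω/ℚ_q)` with
  values in `F_p[Z]` all of whose Shapiro components `c_t` (`t ∈ T`) have `inv (ζ ^ c_t) = 0` is a
  continuous coboundary;
* `lp20_surj_core` ([V20-SURJ] + SHAP-SURJ 2): for every `k : Z → F_p` there is a continuous
  2-cocycle `z` with `inv_{Stab t} (ζ ^ z_t) = k_t / p` for all `t ∈ T`.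
Prefix `lp20_`.
-/
import Mathlib
import Fermat.Agent.S55.Local.Perm20Basis
import Fermat.Agent.S55.Local.PermCoord

set_option autoImplicit false
set_option maxHeartbeats 1000000
set_option synthInstance.maxHeartbeats 400000
set_option linter.unusedSectionVars false
set_option linter.style.haveILetI false

noncomputable section

namespace Fermat.Agent.S55

open CategoryTheory Module groupCohomology ExtCitation

section Shap

variable (p : ℕ) [Fact p.Prime] (q : ℕ) [Fact q.Prime] {Z : Type} [Fintype Z]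
  [MulAction (lcf_Gal q) Z]

theorem lp20_inj_core (hI2 : shp_Inj₂Statement) (hVI : lcf_V20InjStatement)
    (inv : lcf_InvType) (hinv : lcf_IsInvSystem inv)
    (hsm : ld1_SmoothAct (localGaloisToGlobal q) Z)
    (hχ : ld1_ChiTriv (localGaloisToGlobal q) p Z)
    (T : Finset Z) (hTc : shp_Covers (lcf_Gal q) (T : Set Z))
    (c : lcf_Gal q × lcf_Gal q → Rep.ofMulAction (ZMod p) (lcf_Gal q) Z)
    (hc : c ∈ levelCocycles₂ (localGaloisToGlobal q) (Rep.ofMulAction (ZMod p) (lcf_Gal q) Z))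
    (h0 : ∀ t ∈ T, inv q (MulAction.stabilizer (lcf_Gal q) t)
      (fun y => ptinv_exp p q (lp20_comp p q c t y)) = 0) :
    c ∈ levelCoboundaries₂ (localGaloisToGlobal q)
      (Rep.ofMulAction (ZMod p) (lcf_Gal q) Z) := by
  classical
  have hex : ∀ t : Z, ∃ (b : ↥(MulAction.stabilizer (lcf_Gal q) t) → ZMod p)
      (E : IntermediateField ℚ_[q] (PadicAlgCl q)), FiniteDimensional ℚ_[q] E ∧
      (∀ g s : ↥(MulAction.stabilizer (lcf_Gal q) t), (s : lcf_Gal q) ∈ E.fixingSubgroup →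
        b (g * s) = b g) ∧
      (t ∈ T → ∀ g h : ↥(MulAction.stabilizer (lcf_Gal q) t),
        b h - b (g * h) + b g = lp20_comp p q c t (g, h)) := by
    intro t
    by_cases ht : t ∈ T
    · obtain ⟨b, ⟨E, hE, hb⟩, hcob⟩ := hVI inv hinv q p _ (lp20_stab_isOpen q hsm t)
        (ld_zetaLoc p q) (lp20_zeta_prim p q) (lp20_zeta_fix p q hχ t) (lp20_comp p q c t)
        (lp20_comp_smooth p q c hc.2 t) (lp20_comp_cocycle p q c hc.1 t) (h0 t ht)
      exact ⟨b, E, hE, hb, fun _ => hcob⟩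
    · exact ⟨fun _ => 0, ⊥, inferInstance, fun _ _ _ => rfl, fun h => absurd h ht⟩
  choose b E hE hb hcob using hex
  obtain ⟨EZ, hEZ, hEZfix⟩ := lp20_smooth_loc q Z hsm
  obtain ⟨Fc, hFc, hFcc⟩ := hc.2
  obtain ⟨Ec, hEc, hEcF⟩ := kras_conv q Fc hFc
  haveI := hEZ
  haveI := hEc
  haveI : ∀ t, FiniteDimensional ℚ_[q] ↥(E t) := hE
  haveI : FiniteDimensional ℚ_[q] ↥(⨆ t, E t) :=
    IntermediateField.finiteDimensional_iSup_of_finite
  have hsup : FiniteDimensional ℚ_[q] ↥(EZ ⊔ Ec ⊔ ⨆ t, E t) :=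
    IntermediateField.finiteDimensional_sup _ _
  obtain ⟨N, hNn, hNE, -, F, hF, hFN⟩ := pco_exists_level (EZ ⊔ Ec ⊔ ⨆ t, E t) hsup
  haveI := hNn
  have hNZ : ∀ s ∈ N, ∀ x : Z, s • x = x := fun s hs x =>
    hEZfix s (IntermediateField.fixingSubgroup_antitone
      (le_sup_of_le_left le_sup_left) (hNE hs)) x
  have hNc : ∀ s ∈ N, localGaloisToGlobal q s ∈ Fc.fixingSubgroup := fun s hs =>
    hEcF s (IntermediateField.fixingSubgroup_antitone
      (le_sup_of_le_left le_sup_right) (hNE hs))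
  have hNb : ∀ t, ∀ s ∈ N, s ∈ (E t).fixingSubgroup := fun t s hs =>
    IntermediateField.fixingSubgroup_antitone
      (le_sup_of_le_right (le_iSup E t)) (hNE hs)
  have hcoc := (mem_cocycles₂_iff c).1 hc.1
  obtain ⟨a, hac, had⟩ := hI2 (ZMod p) (lcf_Gal q) Z (Rep.ofMulAction (ZMod p) (lcf_Gal q) Z)
    (Rep.trivial (ZMod p) (lcf_Gal q) (ZMod p)) lcdb_coord N hNZ (T : Set Z) hTc c
    (fun x => by
      show (Rep.ofMulAction (ZMod p) (lcf_Gal q) Z).ρ x.1 (c (x.2.1, x.2.2)) -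
        c (x.1 * x.2.1, x.2.2) + c (x.1, x.2.1 * x.2.2) - c (x.1, x.2.1) = 0
      have h2 := eq_sub_of_add_eq (hcoc x.1 x.2.1 x.2.2).symm
      rw [h2]
      abel)
    (fun g g' s s' hs hs' => hFcc g g' s s' (hNc s hs) (hNc s' hs'))
    b
    (fun t _ g s hs => hb t g s (hNb t _ hs))
    (fun t ht v w => by
      rw [lcdb_coord_π]
      show lp20_comp p q c t (v, w) = (Rep.trivial (ZMod p) (lcf_Gal q) (ZMod p)).ρ _ (b t w) -
        b t (v * w) + b t v
      rw [Rep.trivial_ρ_apply]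
      exact (hcob t ht v w).symm)
  rw [mem_levelCoboundaries₂_iff]
  refine ⟨a, ⟨F, hF, fun g s hs => hac g s (hFN s hs)⟩, ?_⟩
  funext x
  rw [d₁₂_hom_apply]
  exact had x

theorem lp20_surj_core (hS2 : shp_Surj₂Statement) (hVS : lcf_V20SurjStatement)
    (inv : lcf_InvType) (hinv : lcf_IsInvSystem inv)
    (hsm : ld1_SmoothAct (localGaloisToGlobal q) Z)
    (hχ : ld1_ChiTriv (localGaloisToGlobal q) p Z)
    (T : Finset Z) (hTi : shp_Indep (lcf_Gal q) (T : Set Z)) (k : Z → ZMod p) :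
    ∃ z : lcf_Gal q × lcf_Gal q → Rep.ofMulAction (ZMod p) (lcf_Gal q) Z,
      z ∈ levelCocycles₂ (localGaloisToGlobal q) (Rep.ofMulAction (ZMod p) (lcf_Gal q) Z) ∧
      ∀ t ∈ T, inv q (MulAction.stabilizer (lcf_Gal q) t)
        (fun y => ptinv_exp p q (lp20_comp p q z t y)) = ptinv_e p (k t) := by
  classical
  have hex := fun t : Z => hVS inv hinv q p _ (lp20_stab_isOpen q hsm t)
    (ld_zetaLoc p q) (lp20_zeta_prim p q) (lp20_zeta_fix p q hχ t)
  choose f hfs hfc hfinv using hex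
  have hfs' := hfs
  choose E hE hEf using hfs'
  obtain ⟨EZ, hEZ, hEZfix⟩ := lp20_smooth_loc q Z hsm
  haveI := hEZ
  haveI : ∀ t, FiniteDimensional ℚ_[q] ↥(E t) := hE
  haveI : FiniteDimensional ℚ_[q] ↥(⨆ t, E t) :=
    IntermediateField.finiteDimensional_iSup_of_finite
  have hsup : FiniteDimensional ℚ_[q] ↥(EZ ⊔ ⨆ t, E t) :=
    IntermediateField.finiteDimensional_sup _ _
  obtain ⟨N, hNn, hNE, -, F, hF, hFN⟩ := pco_exists_level (EZ ⊔ ⨆ t, E t) hsup
  haveI := hNn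
  have hNZ : ∀ s ∈ N, ∀ x : Z, s • x = x := fun s hs x =>
    hEZfix s (IntermediateField.fixingSubgroup_antitone le_sup_left (hNE hs)) x
  have hNb : ∀ t, ∀ s ∈ N, s ∈ (E t).fixingSubgroup := fun t s hs =>
    IntermediateField.fixingSubgroup_antitone
      (le_sup_of_le_right (le_iSup E t)) (hNE hs)
  obtain ⟨z, hzc, hzd, hzπ⟩ := hS2 (ZMod p) (lcf_Gal q) Z
    (Rep.ofMulAction (ZMod p) (lcf_Gal q) Z)
    (Rep.trivial (ZMod p) (lcf_Gal q) (ZMod p)) lcdb_coord N hNZ (T : Set Z) hTi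
    (fun t y => f t y * k t)
    (fun t _ g g' s s' hs hs' => by
      show f t (g * s, g' * s') * k t = f t (g, g') * k t
      rw [hEf t g g' s s' (hNb t _ hs) (hNb t _ hs')])
    (fun t _ x => by
      show (Rep.trivial (ZMod p) (lcf_Gal q) (ZMod p)).ρ _ (f t (x.2.1, x.2.2) * k t) -
        f t (x.1 * x.2.1, x.2.2) * k t + f t (x.1, x.2.1 * x.2.2) * k t -
        f t (x.1, x.2.1) * k t = 0
      rw [Rep.trivial_ρ_apply]
      have := hfc t x.1 x.2.1 x.2.2
      linear_combination k t * this)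
  have hzmem : z ∈ levelCocycles₂ (localGaloisToGlobal q)
      (Rep.ofMulAction (ZMod p) (lcf_Gal q) Z) := by
    refine ⟨(mem_cocycles₂_iff z).2 (fun g h j => ?_),
      ⟨F, hF, fun g g' s s' hs hs' => hzc g g' s s' (hFN s hs) (hFN s' hs')⟩⟩
    have h1 : (Rep.ofMulAction (ZMod p) (lcf_Gal q) Z).ρ g (z (h, j)) -
        z (g * h, j) + z (g, h * j) - z (g, h) = 0 := hzd (g, h, j)
    have h2 : (Rep.ofMulAction (ZMod p) (lcf_Gal q) Z).ρ g (z (h, j)) + z (g, h * j) -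
        (z (g * h, j) + z (g, h)) = 0 := by
      rw [← h1]
      abel
    exact (sub_eq_zero.1 h2).symm
  refine ⟨z, hzmem, fun t ht => ?_⟩
  have h3 : lp20_comp p q z t = fun y => f t y * k t := by
    funext y
    have := hzπ t ht y.1 y.2
    rw [lcdb_coord_π] at this
    exact this
  rw [h3, lp20_inv_scale p q inv hinv _ (lp20_stab_isOpen q hsm t) (lp20_zeta_fix p q hχ t)
    (f t) (hfs t) (hfc t) (k t), ← lp20_e_val]
  congr 1
  exact hfinv t

end Shap

end Fermat.Agent.S55
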