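/-
S55 (wave 5), LOCAL side, leaf (L1b) of [SEC-LOCIDX] (helper17): the `p`-th power map on small
balls around `1` of a local field.  Prefix `lpw_`.

For a local field `K` (normed-field model `lf_`) in which `p ≠ 0` (`p` a prime, equal to the
residue characteristic or not) and `r₀ := ‖p‖ / 2`:  for `0 < r ≤ r₀`
* `‖x ^ p - 1‖ = ‖p‖ ‖x - 1‖` for `‖x - 1‖ ≤ r`  (the term `p t` dominates `(1 + t) ^ p - 1`);
* every `y` with `‖y - 1‖ ≤ ‖p‖ r` is `x ^ p` with `‖x - 1‖ ≤ r`  (Newton steps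
  `u := 1 + (y - 1) / p` + compactness of the closed ball);
hence `x ↦ x ^ p` is an isomorphism `U(r) → U(‖p‖ r)` of the higher unit groups.
-/
import Mathlib
import Fermat.Agent.S55.Local.LFDefs
import Fermat.Agent.S55.Local.LFExt

set_option autoImplicit false

noncomputable section

namespace Fermat.Agent.S55

open Metric

section Binomial

variable {K : Type*} [NormedField K] [IsUltrametricDist K]

/-- The binomial estimate: `‖(1 + t) ^ p - 1 - p t‖ ≤ max (‖p‖ ‖t‖ ^ 2) (‖t‖ ^ p)`. -/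
theorem lpw_binom (p : ℕ) (hp : p.Prime) (t : K) (ht : ‖t‖ ≤ 1) :
    ‖(1 + t) ^ p - 1 - (p : K) * t‖ ≤ max (‖(p : K)‖ * ‖t‖ ^ 2) (‖t‖ ^ p) := by
  obtain ⟨k, rfl⟩ : ∃ k, p = k + 2 := ⟨p - 2, by have := hp.two_le; omega⟩
  have h1 : (1 + t) ^ (k + 2) - 1 - ((k + 2 : ℕ) : K) * t =
      ∑ m ∈ Finset.range (k + 1), t ^ (m + 2) * ((k + 2).choose (m + 2) : K) := by
    rw [add_comm 1 t, add_pow, Finset.sum_range_succ', Finset.sum_range_succ']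
    simp only [one_pow, mul_one, pow_zero, Nat.choose_zero_right, Nat.cast_one, zero_add,
      pow_one, Nat.choose_one_right]
    ring
  rw [h1]
  refine IsUltrametricDist.norm_sum_le_of_forall_le_of_nonneg (le_max_of_le_left
    (mul_nonneg (norm_nonneg _) (pow_nonneg (norm_nonneg _) _))) ?_
  intro m hm
  rw [Finset.mem_range] at hm
  rw [norm_mul, norm_pow]
  by_cases hmk : m = k
  · subst hmk
    rw [Nat.choose_self, Nat.cast_one, norm_one, mul_one]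
    exact le_max_right _ _
  · have hlt : m + 2 < k + 2 := by omega
    obtain ⟨c, hc⟩ := hp.dvd_choose_self (by omega : m + 2 ≠ 0) hlt
    have h2 : ‖(((k + 2).choose (m + 2) : ℕ) : K)‖ ≤ ‖((k + 2 : ℕ) : K)‖ := by
      rw [hc, Nat.cast_mul, norm_mul]
      calc ‖((k + 2 : ℕ) : K)‖ * ‖(c : K)‖ ≤ ‖((k + 2 : ℕ) : K)‖ * 1 :=
            mul_le_mul_of_nonneg_left (IsUltrametricDist.norm_natCast_le_one K c) (norm_nonneg _)
        _ = ‖((k + 2 : ℕ) : K)‖ := mul_one _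
    have h3 : ‖t‖ ^ (m + 2) ≤ ‖t‖ ^ 2 :=
      pow_le_pow_of_le_one (norm_nonneg _) ht (by omega)
    refine le_max_of_le_left ?_
    calc ‖t‖ ^ (m + 2) * ‖(((k + 2).choose (m + 2) : ℕ) : K)‖
        ≤ ‖t‖ ^ 2 * ‖((k + 2 : ℕ) : K)‖ :=
          mul_le_mul h3 h2 (norm_nonneg _) (pow_nonneg (norm_nonneg _) _)
      _ = ‖((k + 2 : ℕ) : K)‖ * ‖t‖ ^ 2 := mul_comm _ _

/-- For `‖t‖ ≤ ‖p‖ / 2` the error term is at most half of `‖p‖ ‖t‖`. -/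
theorem lpw_binom_half (p : ℕ) (hp : p.Prime) (t : K) (ht : ‖t‖ ≤ ‖(p : K)‖ / 2) :
    ‖(1 + t) ^ p - 1 - (p : K) * t‖ ≤ ‖(p : K)‖ * ‖t‖ / 2 := by
  have hp1 : ‖(p : K)‖ ≤ 1 := IsUltrametricDist.norm_natCast_le_one K p
  have ht0 : 0 ≤ ‖t‖ := norm_nonneg _
  have hp0 : 0 ≤ ‖(p : K)‖ := norm_nonneg _
  have ht1 : ‖t‖ ≤ 1 := by linarith
  refine (lpw_binom p hp t ht1).trans (max_le ?_ ?_)
  · have : ‖(p : K)‖ * ‖t‖ ^ 2 = ‖(p : K)‖ * ‖t‖ * ‖t‖ := by ring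
    rw [this]
    have h2 : ‖t‖ ≤ 1 / 2 := by linarith
    calc ‖(p : K)‖ * ‖t‖ * ‖t‖ ≤ ‖(p : K)‖ * ‖t‖ * (1 / 2) :=
          mul_le_mul_of_nonneg_left h2 (mul_nonneg hp0 ht0)
      _ = ‖(p : K)‖ * ‖t‖ / 2 := by ring
  · obtain ⟨k, hk⟩ : ∃ k, p = k + 2 := ⟨p - 2, by have := hp.two_le; omega⟩
    have h3 : ‖t‖ ^ p = ‖t‖ ^ (k + 1) * ‖t‖ := by rw [hk, pow_succ]
    have h4 : ‖t‖ ^ (k + 1) ≤ ‖t‖ := by
      calc ‖t‖ ^ (k + 1) ≤ ‖t‖ ^ 1 := pow_le_pow_of_le_one ht0 ht1 (by omega)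
        _ = ‖t‖ := pow_one _
    rw [h3]
    calc ‖t‖ ^ (k + 1) * ‖t‖ ≤ ‖t‖ * ‖t‖ := mul_le_mul_of_nonneg_right h4 ht0
      _ ≤ (‖(p : K)‖ / 2) * ‖t‖ := mul_le_mul_of_nonneg_right ht ht0
      _ = ‖(p : K)‖ * ‖t‖ / 2 := by ring

/-- `‖x ^ p - 1‖ = ‖p‖ ‖x - 1‖` for `‖x - 1‖ ≤ ‖p‖ / 2`. -/
theorem lpw_norm_pow_sub_one (p : ℕ) (hp : p.Prime) (x : K) (hx : ‖x - 1‖ ≤ ‖(p : K)‖ / 2) :
    ‖x ^ p - 1‖ = ‖(p : K)‖ * ‖x - 1‖ := by
  set t := x - 1 with ht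
  have hx' : x = 1 + t := by rw [ht]; ring
  by_cases ht0 : t = 0
  · rw [hx', ht0]; simp
  have hpos : 0 < ‖(p : K)‖ * ‖t‖ := by
    have h1 : 0 < ‖t‖ := norm_pos_iff.2 ht0
    have h2 : 0 < ‖(p : K)‖ := by linarith [norm_nonneg t]
    exact mul_pos h2 h1
  have h1 := lpw_binom_half p hp t hx
  have h2 : x ^ p - 1 = (p : K) * t + ((1 + t) ^ p - 1 - (p : K) * t) := by
    rw [hx']; ring
  have h3 : ‖((1 + t) ^ p - 1 - (p : K) * t)‖ < ‖(p : K) * t‖ := by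
    rw [norm_mul]
    linarith
  rw [h2, IsUltrametricDist.norm_add_eq_max_of_norm_ne_norm h3.ne', max_eq_left h3.le, norm_mul]

/-- An element close to `1` has norm `1`. -/
theorem lpw_norm_eq_one {x : K} (hx : ‖x - 1‖ < 1) : ‖x‖ = 1 := by
  have h1 : x = 1 + (x - 1) := by ring
  have h2 : ‖(1 : K)‖ ≠ ‖x - 1‖ := by
    rw [norm_one]; exact hx.ne'
  rw [h1, IsUltrametricDist.norm_add_eq_max_of_norm_ne_norm h2, norm_one, max_eq_left hx.le]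

/-- The closed ball of radius `r ≤ 1` around `1` is closed under multiplication. -/
theorem lpw_mul_mem {r : ℝ} (hr : r ≤ 1) {x u : K} (hx : ‖x - 1‖ ≤ r) (hu : ‖u - 1‖ ≤ r) :
    ‖x * u - 1‖ ≤ r := by
  have h1 : x * u - 1 = (x - 1) * u + (u - 1) := by ring
  have hu1 : ‖u‖ ≤ 1 := by
    have h2 : u = 1 + (u - 1) := by ring
    rw [h2]
    refine (IsUltrametricDist.norm_add_le_max _ _).trans (max_le ?_ (hu.trans hr))
    rw [norm_one]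
  rw [h1]
  refine (IsUltrametricDist.norm_add_le_max _ _).trans (max_le ?_ hu)
  rw [norm_mul]
  calc ‖x - 1‖ * ‖u‖ ≤ ‖x - 1‖ * 1 := mul_le_mul_of_nonneg_left hu1 (norm_nonneg _)
    _ = ‖x - 1‖ := mul_one _
    _ ≤ r := hx

/-- One Newton step for `x ^ p = y`. -/
theorem lpw_newton (p : ℕ) (hp : p.Prime) (hpK : (p : K) ≠ 0) {r : ℝ}
    (hr : r ≤ ‖(p : K)‖ / 2) (y : K) (hy : ‖y - 1‖ ≤ ‖(p : K)‖ * r) :
    ∃ u : K, ‖u - 1‖ ≤ r ∧ ‖u ^ p - y‖ ≤ ‖y - 1‖ / 2 := by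
  have hp0 : 0 < ‖(p : K)‖ := norm_pos_iff.2 hpK
  set s := (y - 1) / (p : K) with hs
  have hps : (p : K) * s = y - 1 := by
    rw [hs]; field_simp
  have hsn : ‖s‖ ≤ r := by
    rw [hs, norm_div, div_le_iff₀ hp0, mul_comm]
    exact hy
  refine ⟨1 + s, by simpa using hsn, ?_⟩
  have h1 := lpw_binom_half p hp s (hsn.trans hr)
  have h2 : (1 + s) ^ p - y = (1 + s) ^ p - 1 - (p : K) * s := by
    rw [hps]; ring
  have h3 : ‖(p : K)‖ * ‖s‖ = ‖y - 1‖ := by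
    rw [← norm_mul, hps]
  rw [h2]
  rw [h3] at h1
  exact h1

/-- Approximate `p`-th roots in the closed ball. -/
theorem lpw_approx (p : ℕ) (hp : p.Prime) (hpK : (p : K) ≠ 0) {r : ℝ} (hr0 : 0 < r)
    (hr : r ≤ ‖(p : K)‖ / 2) (y : K) (hy : ‖y - 1‖ ≤ ‖(p : K)‖ * r) (n : ℕ) :
    ∃ x : K, ‖x - 1‖ ≤ r ∧ ‖y - x ^ p‖ ≤ ‖(p : K)‖ * r / 2 ^ n := by
  have hp0 : 0 < ‖(p : K)‖ := norm_pos_iff.2 hpK
  have hp1 : ‖(p : K)‖ ≤ 1 := IsUltrametricDist.norm_natCast_le_one K p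
  have hr1 : r < 1 := by linarith
  induction n with
  | zero =>
    refine ⟨1, by simpa using hr0.le, ?_⟩
    rw [one_pow, pow_zero, div_one]
    exact hy
  | succ n ih =>
    obtain ⟨x, hx, hxy⟩ := ih
    have hxn : ‖x‖ = 1 := lpw_norm_eq_one (lt_of_le_of_lt hx hr1)
    have hxp : ‖x ^ p‖ = 1 := by rw [norm_pow, hxn, one_pow]
    have hx0 : x ^ p ≠ 0 := by
      intro h
      rw [h, norm_zero] at hxp
      exact zero_ne_one hxp
    set z := y / x ^ p with hz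
    have hz1 : z - 1 = (y - x ^ p) / x ^ p := by
      rw [hz]; field_simp
    have hzn : ‖z - 1‖ = ‖y - x ^ p‖ := by
      rw [hz1, norm_div, hxp, div_one]
    have hpow : (1 : ℝ) ≤ 2 ^ n := one_le_pow₀ (by norm_num)
    have hzle : ‖z - 1‖ ≤ ‖(p : K)‖ * r := by
      rw [hzn]
      refine hxy.trans ?_
      exact div_le_self (mul_nonneg hp0.le hr0.le) hpow
    obtain ⟨u, hu, huz⟩ := lpw_newton p hp hpK hr z hzle
    refine ⟨x * u, lpw_mul_mem hr1.le hx hu, ?_⟩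
    have h1 : y - (x * u) ^ p = x ^ p * (z - u ^ p) := by
      rw [hz, mul_pow]; field_simp
    rw [h1, norm_mul, hxp, one_mul, norm_sub_rev]
    refine huz.trans ?_
    rw [hzn, pow_succ]
    calc ‖y - x ^ p‖ / 2 ≤ (‖(p : K)‖ * r / 2 ^ n) / 2 := by
          exact div_le_div_of_nonneg_right hxy (by norm_num)
      _ = ‖(p : K)‖ * r / (2 ^ n * 2) := by rw [div_div]

end Binomial

section Local

variable (K : Type*) [NormedField K] [lf_IsLocal K]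

/-- Exact `p`-th roots in the closed ball (Newton approximation + compactness). -/
theorem lpw_exists_root (p : ℕ) (hp : p.Prime) (hpK : (p : K) ≠ 0) {r : ℝ} (hr0 : 0 < r)
    (hr : r ≤ ‖(p : K)‖ / 2) (y : K) (hy : ‖y - 1‖ ≤ ‖(p : K)‖ * r) :
    ∃ x : K, ‖x - 1‖ ≤ r ∧ x ^ p = y := by
  haveI := lf_properSpace K
  have hp0 : 0 < ‖(p : K)‖ := norm_pos_iff.2 hpK
  have hcomp : IsCompact ((fun x : K => x ^ p) '' closedBall (1 : K) r) :=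
    (isCompact_closedBall (1 : K) r).image (continuous_pow p)
  have hmem : y ∈ closure ((fun x : K => x ^ p) '' closedBall (1 : K) r) := by
    rw [Metric.mem_closure_iff]
    intro ε hε
    have hC : 0 < ‖(p : K)‖ * r := mul_pos hp0 hr0
    obtain ⟨n, hn⟩ : ∃ n : ℕ, ‖(p : K)‖ * r / 2 ^ n < ε := by
      obtain ⟨n, hn⟩ := exists_pow_lt_of_lt_one (div_pos hε hC) (by norm_num : (1 / 2 : ℝ) < 1)
      refine ⟨n, ?_⟩
      rw [div_lt_iff₀ (by positivity)]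
      rw [lt_div_iff₀ hC] at hn
      have h2 : (1 / 2 : ℝ) ^ n * 2 ^ n = 1 := by
        rw [← mul_pow]; norm_num
      calc ‖(p : K)‖ * r = (1 / 2 : ℝ) ^ n * (‖(p : K)‖ * r) * 2 ^ n := by
            rw [mul_comm ((1 / 2 : ℝ) ^ n), mul_assoc, h2, mul_one]
        _ < ε * 2 ^ n := mul_lt_mul_of_pos_right hn (by positivity)
    obtain ⟨x, hx, hxy⟩ := lpw_approx p hp hpK hr0 hr y hy n
    refine ⟨x ^ p, ⟨x, ?_, rfl⟩, ?_⟩
    · rw [mem_closedBall, dist_eq_norm]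
      exact hx
    · rw [dist_eq_norm]
      exact lt_of_le_of_lt hxy hn
  rw [hcomp.isClosed.closure_eq] at hmem
  obtain ⟨x, hx, hxy⟩ := hmem
  refine ⟨x, ?_, hxy⟩
  rw [mem_closedBall, dist_eq_norm] at hx
  exact hx

/-- **(L1b)** the `p`-th power map on small balls around `1`: with `r₀ = ‖p‖ / 2`, for all
`0 < r ≤ r₀` it multiplies distances to `1` by `‖p‖` and maps the closed ball of radius `r` onto
the closed ball of radius `‖p‖ r`. -/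
theorem lpw_main (p : ℕ) (hp : p.Prime) (hpK : (p : K) ≠ 0) :
    ∃ r₀ : ℝ, 0 < r₀ ∧ r₀ < 1 ∧ ∀ r : ℝ, 0 < r → r ≤ r₀ →
      (∀ x : K, ‖x - 1‖ ≤ r → ‖x ^ p - 1‖ = ‖(p : K)‖ * ‖x - 1‖) ∧
      (∀ y : K, ‖y - 1‖ ≤ ‖(p : K)‖ * r → ∃ x : K, ‖x - 1‖ ≤ r ∧ x ^ p = y) := by
  have hp0 : 0 < ‖(p : K)‖ := norm_pos_iff.2 hpK
  have hp1 : ‖(p : K)‖ ≤ 1 := IsUltrametricDist.norm_natCast_le_one K p
  refine ⟨‖(p : K)‖ / 2, by linarith, by linarith, fun r hr0 hr => ⟨fun x hx => ?_, fun y hy => ?_⟩⟩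
  · exact lpw_norm_pow_sub_one p hp x (hx.trans hr)
  · exact lpw_exists_root K p hp hpK hr0 hr y hy

/-- The radius `r₀ = ‖p‖ / 2`. -/
def lpw_r (p : ℕ) : ℝ := ‖(p : K)‖ / 2

theorem lpw_r_pos (p : ℕ) (hpK : (p : K) ≠ 0) : 0 < lpw_r K p :=
  div_pos (norm_pos_iff.2 hpK) (by norm_num)

theorem lpw_r_lt_one (p : ℕ) : lpw_r K p < 1 := by
  have hp1 : ‖(p : K)‖ ≤ 1 := IsUltrametricDist.norm_natCast_le_one K p
  unfold lpw_r
  linarith

/-- `x ↦ x ^ p` is injective on the higher unit group `U(r)`, `r ≤ r₀`. -/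
theorem lpw_injOn (p : ℕ) (hp : p.Prime) (hpK : (p : K) ≠ 0) {r : ℝ} (hr0 : 0 ≤ r)
    (hr : r ≤ lpw_r K p) (u v : Kˣ) (hu : u ∈ lf_unitsLe K r hr0) (hv : v ∈ lf_unitsLe K r hr0)
    (h : u ^ p = v ^ p) : u = v := by
  have hw : u / v ∈ lf_unitsLe K r hr0 := (lf_unitsLe K r hr0).div_mem hu hv
  have h1 : (u / v) ^ p = 1 := by rw [div_pow, h, div_self']
  have h2 := lpw_norm_pow_sub_one p hp ((u / v : Kˣ) : K) (hw.2.trans hr)
  have h3 : (((u / v : Kˣ) : K)) ^ p = 1 := by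
    rw [← Units.val_pow_eq_pow_val, h1, Units.val_one]
  rw [h3, sub_self, norm_zero] at h2
  have hp0 : 0 < ‖(p : K)‖ := norm_pos_iff.2 hpK
  have h4 : ‖((u / v : Kˣ) : K) - 1‖ = 0 := by
    rcases mul_eq_zero.1 h2.symm with h | h
    · exact absurd h hp0.ne'
    · exact h
  have h5 : ((u / v : Kˣ) : K) = 1 := by
    rw [norm_eq_zero, sub_eq_zero] at h4
    exact h4
  have h6 : u / v = 1 := Units.ext h5
  exact div_eq_one.1 h6

/-- `x ↦ x ^ p` maps the higher unit group `U(r)` onto `U(‖p‖ r)`, `0 < r ≤ r₀`. -/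
theorem lpw_map (p : ℕ) (hp : p.Prime) (hpK : (p : K) ≠ 0) {r : ℝ} (hr0 : 0 < r)
    (hr : r ≤ lpw_r K p) :
    (lf_unitsLe K r hr0.le).map (powMonoidHom p : Kˣ →* Kˣ) =
      lf_unitsLe K (‖(p : K)‖ * r) (mul_nonneg (norm_nonneg _) hr0.le) := by
  have hp0 : 0 < ‖(p : K)‖ := norm_pos_iff.2 hpK
  have hp1 : ‖(p : K)‖ ≤ 1 := IsUltrametricDist.norm_natCast_le_one K p
  have hr1 : r < 1 := lt_of_le_of_lt hr (lpw_r_lt_one K p)
  ext y
  constructor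
  · rintro ⟨u, hu, rfl⟩
    refine ⟨((lf_unitsLe K r hr0.le).pow_mem hu p).1, ?_⟩
    show ‖((u ^ p : Kˣ) : K) - 1‖ ≤ _
    rw [Units.val_pow_eq_pow_val, lpw_norm_pow_sub_one p hp (u : K) (hu.2.trans hr)]
    exact mul_le_mul_of_nonneg_left hu.2 hp0.le
  · rintro ⟨_, hy⟩
    obtain ⟨x, hx, hxy⟩ := lpw_exists_root K p hp hpK hr0 hr (y : K) hy
    have hxn : ‖x‖ = 1 := lpw_norm_eq_one (lt_of_le_of_lt hx hr1)
    have hx0 : x ≠ 0 := by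
      intro h
      rw [h, norm_zero] at hxn
      exact zero_ne_one hxn
    refine ⟨Units.mk0 x hx0, ⟨hxn, hx⟩, ?_⟩
    apply Units.ext
    show ((Units.mk0 x hx0 ^ p : Kˣ) : K) = y
    rw [Units.val_pow_eq_pow_val]
    exact hxy

end Local

end Fermat.Agent.S55
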